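import Fermat.Agent.CFT.Unr1

/-!
# Unramified extensions
-/

set_option autoImplicit false
set_option linter.unusedSectionVars false
set_option linter.unusedVariables false
set_option linter.style.haveILetI false

namespace Fermat.Agent.CFT

open Module Fermat.Agent.Places NumberField
open scoped Pointwise

variable {A : Pl}

theorem Pl.ord_nat {N : ℕ} (hN : ¬ A.ell ∣ N) : A.ord (N : Qb) = 0 := by
  have h1 := A.val_int (n := N) (by exact_mod_cast hN)
  have h2 : (N : Qb) ≠ 0 := by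
    intro h
    have : N = 0 := by exact_mod_cast h
    rw [this] at hN
    exact hN (dvd_zero _)
  rw [A.ord_eq h2 (n := 1) (m := 0) one_pos (by simpa using h1)]
  simp

theorem Pl.ord_one_sub_rootN {z : Qb} {N : ℕ} (hN : ¬ A.ell ∣ N) (h1 : z ^ N = 1) (h2 : z ≠ 1) :
    A.ord (1 - z) = 0 := by
  have hN0 : N ≠ 0 := by rintro rfl; exact hN (dvd_zero _)
  set m := orderOf z with hm
  have hmN : m ∣ N := orderOf_dvd_of_pow_eq_one h1
  have hprim : IsPrimitiveRoot z m := IsPrimitiveRoot.orderOf z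
  have hm0 : m ≠ 0 := fun h => by rw [h, zero_dvd_iff] at hmN; exact hN0 hmN
  have hm1 : m ≠ 1 := fun h => h2 (orderOf_eq_one_iff.1 h)
  obtain ⟨k, hk⟩ := Nat.exists_eq_succ_of_ne_zero hm0
  have hk0 : k ≠ 0 := by rintro rfl; exact hm1 hk
  have hprod : ∏ i ∈ Finset.range k, (1 - z ^ (i + 1)) = (m : Qb) := by
    have hprim' : IsPrimitiveRoot z (k + 1) := by rw [← Nat.succ_eq_add_one, ← hk]; exact hprim
    have := hprim'.prod_one_sub_pow_eq_order
    rw [this, hk]; push_cast; ring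
  have hne : ∀ i ∈ Finset.range k, (1 - z ^ (i + 1)) ≠ 0 := fun i hi h => by
    have h3 : z ^ (i + 1) = 1 := (sub_eq_zero.1 h).symm
    have h4 := hprim.dvd_of_pow_eq_one _ h3
    have h5 := Nat.le_of_dvd (Nat.succ_pos i) h4
    have h6 := Finset.mem_range.1 hi
    omega
  have hz : A.ord z = 0 := Pl.ord_pow_eq_one hN0 h1
  have hnn : ∀ i ∈ Finset.range k, 0 ≤ A.ord (1 - z ^ (i + 1)) := fun i hi => by
    rw [A.ord_nonneg_iff (hne i hi)]
    have : z ∈ A.v := by
      have := (Pl.ge_of_ord (A := A) hz.ge)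
      rwa [Pl.ge_zero_iff] at this
    exact sub_mem (one_mem _) (pow_mem this _)
  have h9 := A.ord_prod (Finset.range k) _ hne
  rw [hprod, Pl.ord_nat (fun h => hN (h.trans hmN))] at h9
  have h10 := (Finset.sum_eq_zero_iff_of_nonneg hnn).1 h9.symm 0 (Finset.mem_range.2 (Nat.pos_of_ne_zero hk0))
  simpa using h10

theorem Pl.eq_of_root {z w : Qb} {N : ℕ} (hN : ¬ A.ell ∣ N) (h1 : z ^ N = 1) (h2 : w ^ N = 1)
    (h : z - w ∈ A.v.nonunits) : z = w := by
  have hN0 : N ≠ 0 := by rintro rfl; exact hN (dvd_zero _)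
  have hz0 : z ≠ 0 := by rintro rfl; rw [zero_pow hN0] at h1; exact zero_ne_one h1
  have hw0 : w ≠ 0 := by rintro rfl; rw [zero_pow hN0] at h2; exact zero_ne_one h2
  by_contra hne
  have h3 : A.ord (1 - w / z) = 0 := Pl.ord_one_sub_rootN hN (by rw [div_pow, h1, h2, div_one])
    (fun h4 => hne ((div_eq_one_iff_eq hz0).1 h4).symm)
  have h4 : z - w = z * (1 - w / z) := by field_simp
  have h5 : 1 - w / z ≠ 0 := by
    intro h6
    apply hne
    have : z - w = 0 := by rw [h4, h6, mul_zero]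
    exact sub_eq_zero.1 this
  have h6 : z - w ≠ 0 := sub_ne_zero.2 hne
  rw [← A.ord_pos_iff h6, h4, A.ord_mul hz0 h5, h3, Pl.ord_pow_eq_one hN0 h1] at h
  simp at h

theorem mem_v_of_root {z : Qb} {N : ℕ} (hN : N ≠ 0) (h1 : z ^ N = 1) : z ∈ A.v := by
  have := (Pl.ge_of_ord (A := A) (Pl.ord_pow_eq_one (A := A) hN h1).ge)
  rwa [Pl.ge_zero_iff] at this

theorem not_dvd_pow_sub_one {n : ℕ} (hn : n ≠ 0) : ¬ A.ell ∣ A.ell ^ n - 1 := by
  intro h
  have h1 : A.ell ∣ A.ell ^ n := dvd_pow_self _ hn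
  have h2 : 1 ≤ A.ell ^ n := Nat.one_le_pow _ _ A.ell_pos
  have h3 := Nat.dvd_sub h1 h
  rw [Nat.sub_sub_self h2] at h3
  exact A.ell_prime.one_lt.ne' (Nat.dvd_one.1 h3)

theorem charP_res (A : Pl) : CharP (IsLocalRing.ResidueField A.v) A.ell := by
  rw [CharP.charP_iff_prime_eq_zero A.ell_prime]
  have h1 : (A.ell : A.v) ∈ IsLocalRing.maximalIdeal A.v := by
    obtain ⟨h3, h4⟩ := ValuationSubring.mem_nonunits_iff_exists_mem_maximalIdeal.1 A.ell_mem
    exact h4
  have h2 := (IsLocalRing.residue_eq_zero_iff (R := A.v) (A.ell : A.v)).2 h1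
  rw [← map_natCast (IsLocalRing.residue A.v)]
  exact h2

theorem residue_eq_iff {x y : A.v} : IsLocalRing.residue A.v x = IsLocalRing.residue A.v y ↔
    (x : Qb) - y ∈ A.v.nonunits := by
  rw [← sub_eq_zero, ← map_sub, IsLocalRing.residue_eq_zero_iff,
    ValuationSubring.mem_nonunits_iff_exists_mem_maximalIdeal]
  exact ⟨fun h => ⟨_, h⟩, fun ⟨_, h⟩ => h⟩

/-- Elements of the decomposition group act like powers of Frobenius on finite fields. -/
theorem exists_frob_pow {g : GQ} (hg : g ∈ Dec A) {n : ℕ} (hn : n ≠ 0) :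
    ∃ i : ℕ, ∀ x ∈ A.v, x ^ A.ell ^ n - x ∈ A.v.nonunits → g x - x ^ A.ell ^ i ∈ A.v.nonunits := by
  haveI : Fact A.ell.Prime := ⟨A.ell_prime⟩
  haveI : CharP (IsLocalRing.ResidueField A.v) A.ell := charP_res A
  have hg' : g ∈ A.v.decompositionSubgroup ℚ := by rw [← dec_eq]; exact hg
  obtain ⟨i, hi⟩ := exists_frob_power (MulSemiringAction.toRingHom (A.v.decompositionSubgroup ℚ)
    (IsLocalRing.ResidueField A.v) ⟨g, hg'⟩) n hn
  refine ⟨i, fun x hx h => ?_⟩
  have h1 := hi (IsLocalRing.residue A.v ⟨x, hx⟩) (by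
    rw [← map_pow]
    exact residue_eq_iff.2 h)
  change (⟨g, hg'⟩ : A.v.decompositionSubgroup ℚ) • (IsLocalRing.residue A.v ⟨x, hx⟩) = _ at h1
  rw [← IsLocalRing.ResidueField.residue_smul, ← map_pow] at h1
  exact residue_eq_iff.1 h1

/-- The residue field of a number field is finite. -/
theorem exists_pow_residue (A : Pl) (E : IntermediateField ℚ Qb) [hfin : FiniteDimensional ℚ E] :
    ∃ n : ℕ, n ≠ 0 ∧ ∀ z ∈ E, IsIntegral ℤ z → z ^ A.ell ^ n - z ∈ A.v.nonunits := by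
  haveI : Fact A.ell.Prime := ⟨A.ell_prime⟩
  haveI : NumberField E := by
    have h2 : (E.algebra' : Algebra ℚ E) = DivisionRing.toRatAlgebra := Subsingleton.elim _ _
    exact { to_charZero := inferInstance, to_finiteDimensional := h2 ▸ hfin }
  let P : Ideal (𝓞 E) :=
    { carrier := {x | ((x : E) : Qb) ∈ A.v.nonunits}
      add_mem' := fun {a b} ha hb => by
        change ((((a + b : 𝓞 E) : E)) : Qb) ∈ A.v.nonunits
        have : ((((a + b : 𝓞 E) : E)) : Qb) = ((a : E) : Qb) + ((b : E) : Qb) := by simp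
        rw [this]
        exact add_mem_nonunits A.v ha hb
      zero_mem' := by
        change ((((0 : 𝓞 E) : E)) : Qb) ∈ A.v.nonunits
        have : ((((0 : 𝓞 E) : E)) : Qb) = 0 := by simp
        rw [this]
        exact zero_mem_nonunits A.v
      smul_mem' := fun c x hx => by
        change ((((c * x : 𝓞 E) : E)) : Qb) ∈ A.v.nonunits
        have : ((((c * x : 𝓞 E) : E)) : Qb) = ((x : E) : Qb) * ((c : E) : Qb) := by
          simp [mul_comm]
        rw [this]
        exact mul_mem_nonunits A.v hx (mem_of_isIntegral_int A.v (isIntegral_coe E c)) }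
  have hmem : ∀ x : 𝓞 E, x ∈ P ↔ ((x : E) : Qb) ∈ A.v.nonunits := fun x => Iff.rfl
  haveI hprime : P.IsPrime :=
    { ne_top' := by
        intro h
        have : (1 : 𝓞 E) ∈ P := h ▸ Submodule.mem_top
        rw [hmem] at this
        have h1 : (((1 : 𝓞 E) : E) : Qb) = 1 := by simp
        rw [h1] at this
        exact one_notMem_nonunits A.v this
      mem_or_mem' := fun {x y} h => by
        rw [hmem] at h
        have h1 : (((x * y : 𝓞 E) : E) : Qb) = ((x : E) : Qb) * ((y : E) : Qb) := by simp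
        rw [h1] at h
        exact mem_nonunits_or_of_mul A.v (mem_of_isIntegral_int A.v (isIntegral_coe E x))
          (mem_of_isIntegral_int A.v (isIntegral_coe E y)) h }
  have hellP : ((A.ell : ℕ) : 𝓞 E) ∈ P := by
    rw [hmem]
    have h1 : ((((A.ell : ℕ) : 𝓞 E) : E) : Qb) = A.ell := by simp
    rw [h1]
    exact A.ell_mem
  have hP0 : P ≠ ⊥ := by
    intro h
    rw [h] at hellP
    have : ((A.ell : ℕ) : 𝓞 E) = 0 := hellP
    have h1 : A.ell = 0 := by exact_mod_cast this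
    exact A.ell_prime.ne_zero h1
  haveI hfinq : Finite (𝓞 E ⧸ P) := Ring.HasFiniteQuotients.finiteQuotient hP0
  haveI hmax : P.IsMaximal := Ring.HasFiniteQuotients.maximalOfPrime hP0
  letI : Field (𝓞 E ⧸ P) := Ideal.Quotient.field _
  letI : Fintype (𝓞 E ⧸ P) := Fintype.ofFinite _
  haveI : CharP (𝓞 E ⧸ P) A.ell := by
    rw [CharP.charP_iff_prime_eq_zero A.ell_prime, ← map_natCast (Ideal.Quotient.mk P)]
    exact Ideal.Quotient.eq_zero_iff_mem.2 hellP
  obtain ⟨n, -, hn⟩ := FiniteField.card (𝓞 E ⧸ P) A.ell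
  refine ⟨n, n.ne_zero, fun z hz hzi => ?_⟩
  let z' : 𝓞 E := ⟨⟨z, hz⟩, by
    rw [mem_integralClosure_iff] 
    exact (isIntegral_algebraMap_iff (algebraMap E Qb).injective).1 hzi⟩
  have h1 := FiniteField.pow_card (Ideal.Quotient.mk P z')
  rw [hn, ← map_pow, Ideal.Quotient.eq] at h1
  have h2 := (hmem _).1 h1
  have h3 : (((z' ^ A.ell ^ (n : ℕ) - z' : 𝓞 E) : E) : Qb) = z ^ A.ell ^ (n : ℕ) - z := by
    simp [z']
  rwa [h3] at h2

/-- **The decomposition group modulo inertia is generated by Frobenius.** -/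
theorem exists_frob_inertia {Φ : GQ} (hΦ : IsFr A Φ) {g : GQ} (hg : g ∈ Dec A)
    (E : IntermediateField ℚ Qb) [FiniteDimensional ℚ E] :
    ∃ i : ℕ, ∃ τ ∈ Ine A, ∀ x ∈ E, g x = (Φ ^ i) (τ x) := by
  obtain ⟨n, hn0, hn⟩ := exists_pow_residue A E
  obtain ⟨i, hi⟩ := exists_frob_pow hg hn0
  have hΦi : Φ ^ i ∈ Dec A := pow_mem hΦ.1 i
  have hh : (Φ ^ i)⁻¹ * g ∈ Dec A := mul_mem (inv_mem hΦi) hg
  obtain ⟨τ, hτ, hτE⟩ := exists_inertia_eq E A.v ((Φ ^ i)⁻¹ * g) (congrArg Pl.v hh) A.ell_prime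
    A.liesOver_ell (fun z hz hzi => by
      have hzA : z ∈ A.v := mem_of_isIntegral_int A.v hzi
      have h1 := hi z hzA (hn z hz hzi)
      have h2 := hΦ.pow i z hzA
      have h3 : g z - (Φ ^ i) z ∈ A.v.nonunits := by
        have := sub_mem_nonunits A.v h1 h2
        rwa [sub_sub_sub_cancel_right] at this
      have h4 := Dec.nonunits (inv_mem hΦi) h3
      have h5 : ((Φ ^ i)⁻¹ * g) z - z = (Φ ^ i)⁻¹ (g z - (Φ ^ i) z) := by
        rw [map_sub]
        congr 1
        exact ((Φ ^ i).symm_apply_apply z).symm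
      rw [h5]
      exact h4)
  refine ⟨i, τ, hτ, fun x hx => ?_⟩
  rw [hτE x hx]
  exact ((Φ ^ i).apply_symm_apply (g x)).symm

/-- Inertia acts trivially on roots of unity of order prime to the residue characteristic. -/
theorem Ine.root {τ : GQ} (hτ : τ ∈ Ine A) {z : Qb} {N : ℕ} (hN : ¬ A.ell ∣ N) (h : z ^ N = 1) :
    τ z = z := by
  have hN0 : N ≠ 0 := by rintro rfl; exact hN (dvd_zero _)
  refine Pl.eq_of_root hN (by rw [← map_pow, h, map_one]) h ((mem_Ine.1 hτ).2 z (mem_v_of_root hN0 h))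

theorem IsFr.root {Φ : GQ} (hΦ : IsFr A Φ) {z : Qb} {N : ℕ} (hN : ¬ A.ell ∣ N) (h : z ^ N = 1) (i : ℕ) :
    (Φ ^ i) z = z ^ A.ell ^ i := by
  have hN0 : N ≠ 0 := by rintro rfl; exact hN (dvd_zero _)
  exact Pl.eq_of_root hN (by rw [← map_pow, h, map_one])
    (by rw [← pow_mul, mul_comm, pow_mul, h, one_pow]) (hΦ.pow i z (mem_v_of_root hN0 h))

end Fermat.Agent.CFT
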