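import Fermat.Agent.CFT.GW24

/-!
# The Greenberg–Wiles formula
-/

set_option autoImplicit false
set_option linter.unusedSectionVars false
set_option linter.unusedVariables false
set_option linter.unusedTactic false
set_option linter.style.haveILetI false

noncomputable section

namespace Fermat.Agent.CFT

open Module Fermat.Agent.Sel Fermat.Agent.CFT.UrE
open scoped Pointwise

theorem Ine_conj_place {A : Pl} {g σ : GQ} (h : σ ∈ Ine (g • A)) : g⁻¹ * σ * g ∈ Ine A := by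
  obtain ⟨h1, h2⟩ := mem_Ine.1 h
  refine mem_Ine.2 ⟨?_, fun x hx => ?_⟩
  · rw [mem_Dec] at h1 ⊢
    rw [mul_smul, mul_smul, h1, inv_smul_smul]
  · have h3 : g x ∈ (g • A).v := by
      rw [← Pl.ge_zero_iff, Pl.ge_smul, Pl.ge_zero_iff]
      exact hx
    have h4 := (smul_mem_nonunits_iff g _).1 (h2 (g x) h3)
    rw [map_sub] at h4
    have h5 : g⁻¹ (g x) = x := g.symm_apply_apply x
    rw [h5] at h4
    exact h4

variable {p : ℕ} [hp : Fact p.Prime] {S T : Finset ℕ}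

section

variable {V V' : Type} [AddCommGroup V] [Module (ZMod p) V]
  [AddCommGroup V'] [Module (ZMod p) V'] [FiniteDimensional (ZMod p) V] [FiniteDimensional (ZMod p) V']
  {r : GQ →* Module.End (ZMod p) V} {r' : GQ →* Module.End (ZMod p) V'}
  {B : V →ₗ[ZMod p] V' →ₗ[ZMod p] ZMod p} (hp2 : p ≠ 2) (hD : DualReps p S r r' B)

theorem DualReps.mono (hD : DualReps p S r r' B) (hST : S ⊆ T) (hT : ∀ v ∈ T, v.Prime) : DualReps p T r r' B where
  prime := hT
  mem := hST hD.mem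
  lc := hD.lc
  unr l hl hlS := hD.unr l hl fun h => hlS (hST h)
  nd := hD.nd
  nd' := hD.nd'
  eq := hD.eq

theorem B1_le_urZ {A : ValuationSubring Qb} (hZ : B1 r (A.decompositionSubgroup ℚ) ≤ Z1 r _)
    (hu : ∀ σ ∈ A.inertiaSubgroupIn ℚ, r σ = 1) : B1 r (A.decompositionSubgroup ℚ) ≤ urZ r A := by
  rintro _ ⟨ξ, rfl⟩
  refine ⟨hZ ⟨ξ, rfl⟩, fun σ hσ => ?_⟩
  change r σ ξ - ξ = 0
  rw [hu σ hσ]
  exact sub_self ξ

include hp2 in
/-- at an unramified place away from `p`, the unramified conditions are dual to each other -/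
theorem perp_ur (hD : DualReps p T r r' B) (v : T) (hvp : (v : ℕ) ≠ p) {A0 : ValuationSubring Qb}
    (hA0 : A0.LiesOverPrime (v : ℕ)) (hu : ∀ σ ∈ A0.inertiaSubgroupIn ℚ, r σ = 1 ∧ r' σ = 1) :
    finrank (ZMod p) (urZ r A0) = finrank (ZMod p) V ∧
    Perp r' B (GalRep.cyc p) (A0.decompositionSubgroup ℚ) (urZ r A0) ≤ urZ r' A0 := by
  obtain ⟨A, hA, rfl⟩ := exists_places hD.prime v hA0
  have hZB : B1 r ((A v).decompositionSubgroup ℚ) ≤ Z1 r _ :=
    B1_le_Z1 (r : Representation _ GQ V) (HasLevel.toSL (DualReps.lev hD)) _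
  have hZB' : B1 r' ((A v).decompositionSubgroup ℚ) ≤ Z1 r' _ :=
    B1_le_Z1 (r' : Representation _ GQ V') (HasLevel.toSL (DualReps.lev' hD)) _
  have hBu := B1_le_urZ hZB fun σ hσ => (hu σ hσ).1
  have hBu' := B1_le_urZ hZB' fun σ hσ => (hu σ hσ).2
  obtain ⟨F, hF, hlc⟩ := hD.lc
  have u1 := (urDim p V r ⟨F, hF, fun σ hσ => (hlc σ hσ).1⟩ v (A v) (hD.prime v v.2) (hA v)).2
  have u2 := (urDim p V' r' ⟨F, hF, fun σ hσ => (hlc σ hσ).2⟩ v (A v) (hD.prime v v.2) (hA v)).2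
  rw [sup_eq_left.2 hBu] at u1
  rw [sup_eq_left.2 hBu'] at u2
  have huZ : urZ r (A v) ≤ Z1 r _ := fun c hc => hc.1
  have h1 := pp_one hp2 hD A hA v (urZ r (A v)) hBu huZ
  have h2 : urZ r' (A v) ≤ Perp r' B (GalRep.cyc p) _ (urZ r (A v)) := fun c' hc' => ⟨hc'.1, fun c hc =>
    urOrth p V V' r r' B hD.lc hD.eq v (A v) (hD.prime v v.2) hvp (hA v) c hc c' hc'⟩
  have h3 := locDim_mem hp2 hD v (hA v) hvp
  have h4 : finrank (ZMod p) (B1 r' ((A v).decompositionSubgroup ℚ)) +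
      finrank (ZMod p) (H0 r' ((A v).decompositionSubgroup ℚ)) = finrank (ZMod p) V' :=
    finrank_B1 (r' : Representation _ GQ V') _
  let D := qData (S := T) hp2 hD.mem
  haveI f4 := (clsQ D).finL (ρ := (r' : Representation _ GQ V')) (DualReps.lev' hD) 1 (by norm_num)
  haveI := finite_Z1 (r' : Representation _ GQ V') (HasLevel.toSL (DualReps.lev' hD)) (places_aA A hA hD.prime) v
  haveI : Module.Finite (ZMod p) (Perp r' B (GalRep.cyc p) ((A v).decompositionSubgroup ℚ)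
      (urZ r (A v))) :=
    Submodule.finiteDimensional_of_le (S₂ := Z1 r' _) (fun c hc => hc.1)
  have u1' : finrank (ZMod p) (urZ r (A v)) = finrank (ZMod p) V := u1
  have u2' : finrank (ZMod p) (urZ r' (A v)) = finrank (ZMod p) V' := u2
  have h1' : finrank (ZMod p) (urZ r (A v)) +
      finrank (ZMod p) (Perp r' B (GalRep.cyc p) ((A v).decompositionSubgroup ℚ) (urZ r (A v))) =
      finrank (ZMod p) (Z1 r ((A v).decompositionSubgroup ℚ)) +
      finrank (ZMod p) (B1 r' ((A v).decompositionSubgroup ℚ)) := h1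
  have key : finrank (ZMod p) (Perp r' B (GalRep.cyc p) ((A v).decompositionSubgroup ℚ) (urZ r (A v))) ≤
      finrank (ZMod p) (urZ r' (A v)) := by
    clear h1 u1 u2
    omega
  exact ⟨u1', (Submodule.eq_of_le_of_finrank_le h2 key).ge⟩

end

section

variable {V V' : Type} [AddCommGroup V] [Module (ZMod p) V]
  [AddCommGroup V'] [Module (ZMod p) V'] [FiniteDimensional (ZMod p) V] [FiniteDimensional (ZMod p) V']
  {r : GQ →* Module.End (ZMod p) V} {r' : GQ →* Module.End (ZMod p) V'}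
  {B : V →ₗ[ZMod p] V' →ₗ[ZMod p] ZMod p} (hp2 : p ≠ 2) (hD : DualReps p S r r' B)

/-- a large set of primes -/
theorem exists_large_S (hp2 : p ≠ 2) (hD : DualReps p S r r' B) :
    ∃ T : Finset ℕ, S ⊆ T ∧ (∀ v ∈ T, v.Prime) ∧ FE T (r : Representation (ZMod p) GQ V) = 0 := by
  classical
  obtain ⟨V1, hV1, h1⟩ := DualReps.lev hD
  obtain ⟨V0, hV0, h01, h02⟩ := (SG S).directed V1 hV1 _ (Fz_mem (p := p) (S := S) hD.mem 1)
  haveI := numberField_KW (SG_open V0 hV0)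
  obtain ⟨T0, hT0⟩ := exists_PID (SG_open V0 hV0)
  let T : Finset ℕ := S ∪ T0.filter Nat.Prime
  have hST : S ⊆ T := Finset.subset_union_left
  obtain ⟨s, hs1, hs2⟩ := exists_reps (SG_open V0 hV0) T
  have hs : Reps V0 T s := ⟨hs1, hs2⟩
  have hV0T : V0 ∈ (SG T).carrier := ⟨hV0.1, hV0.2.1, fun A hA => hV0.2.2 A fun h => hA (hST h)⟩
  refine ⟨T, hST, fun v hv => ?_, ?_⟩
  · rcases Finset.mem_union.1 hv with h | h
    · exact hD.prime v h
    · exact (Finset.mem_filter.1 h).2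
  · exact FE_zero hV0T (muF_Fz.mono h02) hs (hT0 _ fun A hA => hs.mem_OB.2
      (Finset.mem_union_right _ (Finset.mem_filter.2 ⟨hA, A.ell_prime⟩))) hp2 (hST hD.mem) _ fun v hv =>
      LinearMap.ext fun x => h1 v (h01 hv) x

/-- **The Greenberg–Wiles formula.** -/
theorem gw_main (hp2 : p ≠ 2) (hD : DualReps p S r r' B) (A : S → ValuationSubring Qb)
    (hA : ∀ v, (A v).LiesOverPrime (v : ℕ))
    (L : ∀ v : S, Submodule (ZMod p) ((A v).decompositionSubgroup ℚ → V))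
    (hB : ∀ v, B1 r _ ≤ L v) (hZ : ∀ v, L v ≤ Z1 r _) :
    (∀ v, FiniteDimensional (ZMod p) (L v)) ∧
    FiniteDimensional (ZMod p) (SelZ r S A L) ∧
    FiniteDimensional (ZMod p) (SelZ r' S A fun v => Perp r' B (GalRep.cyc p) _ (L v)) ∧
    (finrank (ZMod p) (SelZ r S A L) : ℤ) ≤
      finrank (ZMod p) (SelZ r' S A fun v => Perp r' B (GalRep.cyc p) _ (L v)) +
      ∑ v : S, ((finrank (ZMod p) (L v) : ℤ) - finrank (ZMod p) V) -
      finrank (ZMod p) (H0 r (Subgroup.zpowers complexConjugation)) := by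
  classical
  let D := qData (S := S) hp2 hD.mem
  haveI f1 := (clsQ D).finG (ρ := (r : Representation _ GQ V)) (DualReps.lev hD) 1 (by norm_num)
  haveI f2 := (clsQ D).finG (ρ := (r' : Representation _ GQ V')) (DualReps.lev' hD) 1 (by norm_num)
  haveI f3 := (clsQ D).finL (ρ := (r : Representation _ GQ V)) (DualReps.lev hD) 1 (by norm_num)
  have a1 := (finrank_SelZ (r : Representation _ GQ V) A hA hD.prime L (DualReps.lev hD) hB).1
  have a2 := (finrank_SelZ (r' : Representation _ GQ V') A hA hD.prime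
    (fun v => Perp r' B (GalRep.cyc p) _ (L v)) (DualReps.lev' hD) (fun v => B1_le_Perp hD _ (hZ v))).1
  refine ⟨fun v => ?_, a1, a2, ?_⟩
  · haveI := finite_Z1 (r : Representation _ GQ V) (HasLevel.toSL (DualReps.lev hD)) (places_aA A hA hD.prime) v
    exact Submodule.finiteDimensional_of_le (hZ v)
  obtain ⟨T, hST, hT, hFE⟩ := exists_large_S hp2 hD
  have hDT := DualReps.mono hD hST hT
  choose P hP using fun w : T => exists_place (w : ℕ) (hT w w.2)
  -- the extended family of conditions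
  let Sg : Type := Σ A0 : ValuationSubring Qb, Submodule (ZMod p) (A0.decompositionSubgroup ℚ → V)
  let pr : T → Sg := fun w => if h : (w : ℕ) ∈ S then ⟨A ⟨w, h⟩, L ⟨w, h⟩⟩ else ⟨(P w).v, urZ r (P w).v⟩
  have pr1 : ∀ (w : T) (h : (w : ℕ) ∈ S), pr w = ⟨A ⟨w, h⟩, L ⟨w, h⟩⟩ := fun w h => dif_pos h
  have pr2 : ∀ (w : T) (h : (w : ℕ) ∉ S), pr w = ⟨(P w).v, urZ r (P w).v⟩ := fun w h => dif_neg h
  have hPw : ∀ w : T, (P w).v.LiesOverPrime (w : ℕ) := fun w => by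
    have := (P w).liesOver_ell
    rwa [hP w] at this
  have hun : ∀ (w : T), (w : ℕ) ∉ S → ∀ σ ∈ (P w).v.inertiaSubgroupIn ℚ, r σ = 1 ∧ r' σ = 1 :=
    fun w hw σ hσ => hD.unr w (hT w w.2) hw (P w).v (hPw w) σ hσ
  have hwp : ∀ (w : T), (w : ℕ) ∉ S → (w : ℕ) ≠ p := fun w hw h => hw (by rw [h]; exact hD.mem)
  have hperp : ∀ (w : T) (hw : (w : ℕ) ∉ S), finrank (ZMod p) (urZ r (P w).v) = finrank (ZMod p) V ∧
      Perp r' B (GalRep.cyc p) ((P w).v.decompositionSubgroup ℚ) (urZ r (P w).v) ≤ urZ r' (P w).v :=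
    fun w hw => perp_ur hp2 hDT w (hwp w hw) (hPw w) (hun w hw)
  have hZB : ∀ w : T, B1 r ((P w).v.decompositionSubgroup ℚ) ≤ Z1 r _ := fun w =>
    B1_le_Z1 (r : Representation _ GQ V) (HasLevel.toSL (DualReps.lev hD)) _
  have q1 : ∀ w, (pr w).1.LiesOverPrime (w : ℕ) := fun w => by
    by_cases h : (w : ℕ) ∈ S
    · rw [pr1 w h]; exact hA ⟨w, h⟩
    · rw [pr2 w h]; exact hPw w
  have q2 : ∀ w, B1 r ((pr w).1.decompositionSubgroup ℚ) ≤ (pr w).2 := fun w => by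
    by_cases h : (w : ℕ) ∈ S
    · rw [pr1 w h]; exact hB ⟨w, h⟩
    · rw [pr2 w h]; exact B1_le_urZ (hZB w) fun σ hσ => (hun w h σ hσ).1
  have q3 : ∀ w, (pr w).2 ≤ Z1 r ((pr w).1.decompositionSubgroup ℚ) := fun w => by
    by_cases h : (w : ℕ) ∈ S
    · rw [pr1 w h]; exact hZ ⟨w, h⟩
    · rw [pr2 w h]; exact fun c hc => hc.1
  obtain ⟨-, g1, g2, g3⟩ := gw_of_FE hp2 hDT (fun w => (pr w).1) q1 hFE.le (fun w => (pr w).2) q2 q3
  -- comparison of the Selmer groups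
  have c1 : SelZ r S A L ≤ SelZ r T (fun w => (pr w).1) (fun w => (pr w).2) := by
    rintro c ⟨h1, h2, h3, h4⟩
    refine ⟨h1, h2, fun l hl hlT => h3 l hl fun h => hlT (hST h), fun w => ?_⟩
    change (fun σ : (pr w).1.decompositionSubgroup ℚ => c σ) ∈ (pr w).2
    by_cases h : (w : ℕ) ∈ S
    · rw [pr1 w h]; exact h4 ⟨w, h⟩
    · rw [pr2 w h]
      refine ⟨⟨fun σ τ => h1 σ τ, ?_⟩, fun σ hσ => h3 w (hT w w.2) h (P w).v (hPw w) σ hσ⟩
      obtain ⟨F, hF, h5⟩ := h2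
      exact ⟨F, hF, fun σ hσ => h5 σ hσ⟩
  have c2 : SelZ r' T (fun w => (pr w).1) (fun w => Perp r' B (GalRep.cyc p) _ (pr w).2) ≤
      SelZ r' S A (fun v => Perp r' B (GalRep.cyc p) _ (L v)) := by
    rintro c ⟨h1, h2, h3, h4⟩
    refine ⟨h1, h2, fun l hl hlS A' hA' σ hσ => ?_, fun v => ?_⟩
    · by_cases hlT : l ∈ T
      · have h5 : (fun σ : (pr ⟨l, hlT⟩).1.decompositionSubgroup ℚ => c σ) ∈
            Perp r' B (GalRep.cyc p) _ (pr ⟨l, hlT⟩).2 := h4 ⟨l, hlT⟩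
        rw [pr2 ⟨l, hlT⟩ hlS] at h5
        have h6 := (hperp ⟨l, hlT⟩ hlS).2 h5
        let Q : Pl := ⟨A', l, hl, hA'⟩
        have hQ : Q.ell = l := Q.ell_unique hl hA'
        obtain ⟨g, hg⟩ := exists_smul_of_ell (A := P ⟨l, hlT⟩) (B := Q) (by rw [hP, hQ])
        have h7 : σ ∈ Ine (g • P ⟨l, hlT⟩) := by rw [hg]; exact hσ
        have h8 := Ine_conj_place h7
        have h9 : g⁻¹ * σ * g ∈ (P ⟨l, hlT⟩).v.decompositionSubgroup ℚ := by
          rw [← dec_eq]; exact (mem_Ine.1 h8).1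
        have h10 : c (g⁻¹ * σ * g) = 0 := h6.2 ⟨_, h9⟩ h8
        have h11 : r' (g⁻¹ * σ * g) = 1 := (hun ⟨l, hlT⟩ hlS _ h8).2
        have e0 : c 1 = 0 := by
          have := h1 1 1
          rw [mul_one, map_one] at this
          exact (left_eq_add (a := c 1)).1 this
        have e1 : c σ = c (g * ((g⁻¹ * σ * g) * g⁻¹)) := by congr 1; group
        have e2 : c g + r' g (c g⁻¹) = 0 := by rw [← h1, mul_inv_cancel, e0]
        rw [e1, h1, h1, h10, h11, zero_add]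
        exact e2
      · exact h3 l hl hlT A' hA' σ hσ
    · have h5 : (fun σ : (pr ⟨v, hST v.2⟩).1.decompositionSubgroup ℚ => c σ) ∈
          Perp r' B (GalRep.cyc p) _ (pr ⟨v, hST v.2⟩).2 := h4 ⟨v, hST v.2⟩
      rw [pr1 ⟨v, hST v.2⟩ v.2] at h5
      exact h5
  have d1 : (finrank (ZMod p) (SelZ r S A L) : ℤ) ≤
      finrank (ZMod p) (SelZ r T (fun w => (pr w).1) (fun w => (pr w).2)) := by
    exact_mod_cast Submodule.finrank_mono c1
  have d2 : (finrank (ZMod p) (SelZ r' T (fun w => (pr w).1) (fun w => Perp r' B (GalRep.cyc p) _ (pr w).2)) : ℤ) ≤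
      finrank (ZMod p) (SelZ r' S A (fun v => Perp r' B (GalRep.cyc p) _ (L v))) := by
    exact_mod_cast Submodule.finrank_mono c2
  -- comparison of the local terms
  let G : ℕ → ℤ := fun w => if h : w ∈ S then (finrank (ZMod p) (L ⟨w, h⟩) : ℤ) - finrank (ZMod p) V else 0
  have hG : ∀ w (h : w ∈ S), G w = (finrank (ZMod p) (L ⟨w, h⟩) : ℤ) - finrank (ZMod p) V := fun w h => dif_pos h
  have hG0 : ∀ w, w ∉ S → G w = 0 := fun w h => dif_neg h
  have s1 : ∑ w : T, ((finrank (ZMod p) (pr w).2 : ℤ) - finrank (ZMod p) V) = ∑ w : T, G w := by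
    refine Finset.sum_congr rfl fun w _ => ?_
    by_cases h : (w : ℕ) ∈ S
    · rw [pr1 w h, hG w h]
    · rw [pr2 w h, hG0 w h]
      change (finrank (ZMod p) (urZ r (P w).v) : ℤ) - _ = _
      rw [(hperp w h).1, sub_self]
  have s2 : ∑ w : T, G w = ∑ w ∈ T, G w := Finset.sum_coe_sort T G
  have s3 : ∑ w ∈ S, G w = ∑ w ∈ T, G w := Finset.sum_subset hST fun w _ h => hG0 w h
  have s4 : ∑ v : S, G v = ∑ w ∈ S, G w := Finset.sum_coe_sort S G
  have s5 : ∑ v : S, ((finrank (ZMod p) (L v) : ℤ) - finrank (ZMod p) V) = ∑ v : S, G v :=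
    Finset.sum_congr rfl fun v _ => (hG v v.2).symm
  rw [s5, s4, s3, ← s2, ← s1]
  linarith

end

/-- **The Greenberg–Wiles formula.** -/
theorem gw (hp2 : p ≠ 2) : GWStatement p := by
  intro V V' _ _ _ _ _ _ S r r' B hD A hA L hB hZ
  exact gw_main hp2 hD A hA L hB hZ

end Fermat.Agent.CFT
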