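import Fermat.Agent.CFT.Need2

/-!
# The dimension of the space of unramified cocycles
-/

set_option autoImplicit false
set_option linter.unusedSectionVars false
set_option linter.unusedVariables false
set_option linter.style.haveILetI false

noncomputable section

namespace Fermat.Agent.CFT

open Module Fermat.Agent.Sel Fermat.Agent.Places

/-- inertia is normal in the decomposition group -/
theorem Ine.conj {A : Pl} {g τ : GQ} (hg : g ∈ Dec A) (hτ : τ ∈ Ine A) : g⁻¹ * τ * g ∈ Ine A := by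
  rw [mem_Ine] at hτ ⊢
  refine ⟨mul_mem (mul_mem (inv_mem hg) hτ.1) hg, fun x hx => ?_⟩
  have h1 := hτ.2 (g x) (Dec.map_mem hg hx)
  have h2 := Dec.nonunits (inv_mem hg) h1
  have h3 : (g⁻¹ * τ * g) x - x = g⁻¹ (τ (g x) - g x) := by
    rw [map_sub]
    congr 1
    exact (g.symm_apply_apply x).symm
  rw [h3]
  exact h2

/-- Frobenius generates freely modulo `m` -/
theorem IsFr.dvd_of_fix {A : Pl} {Φ : GQ} (hΦ : IsFr A Φ) {m : ℕ} (hm : m ≠ 0) {i : ℕ}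
    (h : ∀ z : Qb, z ^ (A.ell ^ m - 1) = 1 → (Φ ^ i : GQ) z = z) : m ∣ i := by
  obtain ⟨ζ, hζ⟩ := exists_primN (A := A) hm
  have hN := not_dvd_pow_sub_one (A := A) hm
  have h5 := h ζ hζ.pow_eq_one
  rw [hΦ.root hN hζ.pow_eq_one] at h5
  have h6 : ζ ^ (A.ell ^ i - 1) = 1 := by
    have h7 : A.ell ^ i = (A.ell ^ i - 1) + 1 := by
      have : 1 ≤ A.ell ^ i := Nat.one_le_pow _ _ A.ell_pos
      omega
    rw [h7, pow_succ] at h5
    exact mul_left_eq_self₀.1 h5 |>.resolve_right (hζ.ne_zero (ell_pow_sub_one_ne_zero hm))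
  have h8 := hζ.dvd_of_pow_eq_one _ h6
  have h9 := Nat.pow_sub_one_gcd_pow_sub_one A.ell m i
  rw [Nat.gcd_eq_left h8] at h9
  have h10 : m = m.gcd i := by
    have e1 : 1 ≤ A.ell ^ m := Nat.one_le_pow _ _ A.ell_pos
    have e2 : 1 ≤ A.ell ^ m.gcd i := Nat.one_le_pow _ _ A.ell_pos
    exact Nat.pow_right_injective A.ell_prime.two_le (by
      change A.ell ^ _ = A.ell ^ _
      omega)
  rw [h10]
  exact Nat.gcd_dvd_right _ _

/-- Frobenius generates freely modulo `m` -/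
theorem IsFr.modEq {A : Pl} {Φ : GQ} (hΦ : IsFr A Φ) {m : ℕ} (hm : m ≠ 0) {i j : ℕ}
    (h : ∀ z : Qb, z ^ (A.ell ^ m - 1) = 1 → (Φ ^ i : GQ) z = (Φ ^ j : GQ) z) : i ≡ j [MOD m] := by
  wlog hij : i ≤ j generalizing i j
  · exact (this (fun z hz => (h z hz).symm) (le_of_not_ge hij)).symm
  rw [Nat.modEq_iff_dvd' hij]
  refine hΦ.dvd_of_fix hm fun z hz => ?_
  apply (Φ ^ i).injective
  rw [h z hz]
  conv_rhs => rw [← Nat.add_sub_cancel' hij, pow_add]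
  rfl

section Ur

variable {k : Type} [Field k] {V : Type} [AddCommGroup V] [Module k V] (r : GQ →* Module.End k V)
  {A : Pl}

variable {r} in
theorem H0_Ine_stable {g : GQ} (hg : g ∈ Dec A) {x : V} (hx : x ∈ H0 r (Ine A)) :
    r g x ∈ H0 r (Ine A) := by
  intro τ hτ
  have h1 := hx _ (Ine.conj hg hτ)
  have h2 : τ * g = g * (g⁻¹ * τ * g) := by group
  rw [← Module.End.mul_apply, ← map_mul, h2, map_mul, Module.End.mul_apply, h1]

theorem H0_le : H0 r (A.v.decompositionSubgroup ℚ) ≤ H0 r (Ine A) := by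
  intro x hx τ hτ
  refine hx τ ?_
  rw [← dec_eq]
  exact (mem_Ine.1 hτ).1

theorem coe_mem_Dec (g : A.v.decompositionSubgroup ℚ) : (g : GQ) ∈ Dec A := by
  rw [dec_eq]
  exact g.2

theorem Ine_mem {τ : GQ} (hτ : τ ∈ Ine A) : τ ∈ A.v.decompositionSubgroup ℚ := by
  rw [← dec_eq]
  exact (mem_Ine.1 hτ).1

variable {r} {Φ : GQ} (hΦ : IsFr A Φ)

include hΦ in
theorem IsFr.mem_dec : Φ ∈ A.v.decompositionSubgroup ℚ := by
  rw [← dec_eq]
  exact hΦ.1

/-- the values at Frobenius are invariant under inertia -/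
theorem urZ_apply_mem {c : A.v.decompositionSubgroup ℚ → V} (hc : c ∈ urZ r A.v) :
    c ⟨Φ, hΦ.mem_dec⟩ ∈ H0 r (Ine A) := by
  intro τ hτ
  have h1 := Ine.conj hΦ.1 hτ
  have e1 : (⟨τ, Ine_mem hτ⟩ * ⟨Φ, hΦ.mem_dec⟩ : A.v.decompositionSubgroup ℚ) =
      ⟨Φ, hΦ.mem_dec⟩ * ⟨_, Ine_mem h1⟩ := by
    apply Subtype.ext
    change τ * Φ = Φ * (Φ⁻¹ * τ * Φ)
    group
  have e2 := congrArg c e1
  rw [hc.1.1, hc.1.1, hc.2 ⟨τ, Ine_mem hτ⟩ hτ, hc.2 ⟨_, Ine_mem h1⟩ h1, map_zero, add_zero,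
    zero_add] at e2
  exact e2

/-- unramified cocycles are determined by the value at Frobenius -/
theorem urZ_eq_zero {c : A.v.decompositionSubgroup ℚ → V} (hc : c ∈ urZ r A.v)
    (h0 : c ⟨Φ, hΦ.mem_dec⟩ = 0) : c = 0 := by
  obtain ⟨F, hF, h⟩ := hc.1.2
  have h1 : ∀ i : ℕ, c (⟨Φ, hΦ.mem_dec⟩ ^ i) = 0 := by
    intro i
    induction i with
    | zero =>
      rw [pow_zero]
      exact h 1 fun x _ => rfl
    | succ i ih => rw [pow_succ, hc.1.1, ih, h0, map_zero, add_zero]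
  funext g
  obtain ⟨i, τ, hτ, hg⟩ := exists_frob_inertia hΦ (coe_mem_Dec g) F
  have e1 : g = ⟨Φ, hΦ.mem_dec⟩ ^ i * ⟨τ, Ine_mem hτ⟩ *
      ((⟨Φ, hΦ.mem_dec⟩ ^ i * ⟨τ, Ine_mem hτ⟩)⁻¹ * g) := (mul_inv_cancel_left _ _).symm
  have e2 : c ((⟨Φ, hΦ.mem_dec⟩ ^ i * ⟨τ, Ine_mem hτ⟩)⁻¹ * g) = 0 := by
    refine h _ fun x hx => ?_
    change (Φ ^ i * τ).symm ((g : GQ) x) = x
    rw [hg x hx]
    exact (Φ ^ i * τ).symm_apply_apply x
  rw [e1, hc.1.1, hc.1.1, h1, hc.2 _ hτ, e2, map_zero, map_zero, add_zero, add_zero]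
  rfl

/-! ### construction of unramified cocycles -/

variable (r) in
/-- the values at the powers of Frobenius -/
def sF (Φ : GQ) (ξ : V) (i : ℕ) : V := ∑ j ∈ Finset.range i, r (Φ ^ j) ξ

theorem sF_zero (ξ : V) : sF r Φ ξ 0 = 0 := rfl

theorem sF_one (ξ : V) : sF r Φ ξ 1 = ξ := by
  rw [sF, Finset.sum_range_one, pow_zero, map_one, Module.End.one_apply]

theorem sF_add (ξ : V) (i j : ℕ) : sF r Φ ξ (i + j) = sF r Φ ξ i + r (Φ ^ i) (sF r Φ ξ j) := by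
  rw [sF, Finset.sum_range_add, sF, sF, map_sum]
  congr 1
  refine Finset.sum_congr rfl fun l _ => ?_
  rw [pow_add, map_mul, Module.End.mul_apply]

theorem sF_mul {n : ℕ} (hn : r (Φ ^ n) = 1) (ξ : V) (l : ℕ) :
    sF r Φ ξ (n * l) = l • sF r Φ ξ n := by
  induction l with
  | zero => rw [mul_zero, zero_smul, sF_zero]
  | succ l ih => rw [Nat.mul_succ, add_comm, sF_add, hn, Module.End.one_apply, ih, succ_nsmul']

theorem sF_mod {m : ℕ} (h1 : r (Φ ^ m) = 1) {ξ : V} (h0 : sF r Φ ξ m = 0) {i j : ℕ}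
    (h : i ≡ j [MOD m]) : sF r Φ ξ i = sF r Φ ξ j ∧ r (Φ ^ i) = r (Φ ^ j) := by
  wlog hij : i ≤ j generalizing i j
  · have := this h.symm (le_of_not_ge hij)
    exact ⟨this.1.symm, this.2.symm⟩
  obtain ⟨t, ht⟩ := (Nat.modEq_iff_dvd' hij).1 h
  have e1 : j = m * t + i := by omega
  have e2 : r (Φ ^ (m * t)) = 1 := by rw [pow_mul, map_pow, h1, one_pow]
  rw [e1, sF_add, sF_mul h1, h0, smul_zero, zero_add, e2, Module.End.one_apply, pow_add, map_mul,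
    e2, one_mul]
  exact ⟨rfl, rfl⟩

include hΦ in
theorem sF_mem {ξ : V} (hξ : ξ ∈ H0 r (Ine A)) (i : ℕ) : sF r Φ ξ i ∈ H0 r (Ine A) :=
  Submodule.sum_mem _ fun j _ => H0_Ine_stable (pow_mem hΦ.1 j) hξ

theorem exists_urZ {F : IntermediateField ℚ Qb} [FiniteDimensional ℚ F]
    (hF : ∀ σ : GQ, (∀ x ∈ F, σ x = x) → r σ = 1) {m : ℕ} (hm : m ≠ 0) (h1 : r (Φ ^ m) = 1) {ξ : V}
    (hξ : ξ ∈ H0 r (Ine A)) (h0 : sF r Φ ξ m = 0) :
    ∃ c ∈ urZ r A.v, c ⟨Φ, hΦ.mem_dec⟩ = ξ := by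
  have hN := not_dvd_pow_sub_one (A := A) hm
  have hch := fun g : A.v.decompositionSubgroup ℚ => exists_pow_root hΦ (coe_mem_Dec g) hm
  choose I hI using hch
  -- the index is determined modulo `m`
  have hI' : ∀ (g : A.v.decompositionSubgroup ℚ) (i : ℕ),
      (∀ z : Qb, z ^ (A.ell ^ m - 1) = 1 → (g : GQ) z = (Φ ^ i : GQ) z) →
      sF r Φ ξ (I g) = sF r Φ ξ i ∧ r (Φ ^ I g) = r (Φ ^ i) := fun g i hi =>
    sF_mod h1 h0 (hΦ.modEq hm fun z hz => by rw [← hI g z hz, hi z hz])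
  obtain ⟨ζ, hζ⟩ := exists_primN (A := A) hm
  haveI hζf : FiniteDimensional ℚ (IntermediateField.adjoin ℚ {ζ}) :=
    IntermediateField.adjoin.finiteDimensional (Algebra.IsIntegral.isIntegral ζ)
  have hζm : ζ ∈ IntermediateField.adjoin ℚ {ζ} :=
    IntermediateField.subset_adjoin ℚ _ (Set.mem_singleton ζ)
  -- the action on the invariants of inertia
  have hr : ∀ (g : A.v.decompositionSubgroup ℚ) (x : V), x ∈ H0 r (Ine A) →
      r g x = r (Φ ^ I g) x := by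
    intro g x hx
    obtain ⟨i, τ, hτ, hg⟩ := exists_frob_inertia hΦ (coe_mem_Dec g)
      (F ⊔ IntermediateField.adjoin ℚ {ζ})
    have e1 : r (I g |> (Φ ^ ·)) = r (Φ ^ i) := (hI' g i (by
      have h2 := hg ζ ((le_sup_right : IntermediateField.adjoin ℚ {ζ} ≤ _) hζm)
      rw [Ine.root hτ hN hζ.pow_eq_one] at h2
      intro z hz
      have h3 : ((Φ ^ i)⁻¹ * (g : GQ)) ζ = ζ := by
        change (Φ ^ i).symm ((g : GQ) ζ) = ζ
        rw [h2]
        exact (Φ ^ i).symm_apply_apply ζ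
      have h4 := fix_of_prim hm hζ h3 z hz
      have h5 : (g : GQ) z = (Φ ^ i) (((Φ ^ i)⁻¹ * (g : GQ)) z) :=
        ((Φ ^ i).apply_symm_apply ((g : GQ) z)).symm
      rw [h5, h4])).2
    change r (Φ ^ I g) = r (Φ ^ i) at e1
    have e2 : r ((Φ ^ i * τ)⁻¹ * (g : GQ)) = 1 := hF _ fun y hy => by
      have h2 := hg y ((le_sup_left : F ≤ F ⊔ IntermediateField.adjoin ℚ {ζ}) hy)
      change (Φ ^ i * τ).symm ((g : GQ) y) = y
      rw [h2]
      exact (Φ ^ i * τ).symm_apply_apply y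
    have e3 : (g : GQ) = Φ ^ i * τ * ((Φ ^ i * τ)⁻¹ * (g : GQ)) := (mul_inv_cancel_left _ _).symm
    rw [e1]
    conv_lhs => rw [e3, map_mul, e2, mul_one, map_mul, Module.End.mul_apply, hx τ hτ]
  refine ⟨fun g => sF r Φ ξ (I g), ⟨⟨fun σ τ => ?_, ?_⟩, fun τ hτ => ?_⟩, ?_⟩
  · rw [hr σ _ (sF_mem hΦ hξ _), ← sF_add]
    refine (hI' (σ * τ) (I σ + I τ) fun z hz => ?_).1
    rw [pow_add]
    change (σ : GQ) ((τ : GQ) z) = (Φ ^ I σ : GQ) ((Φ ^ I τ : GQ) z)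
    rw [hI τ z hz, hI σ _ (by rw [← map_pow, hz, map_one])]
  · refine ⟨IntermediateField.adjoin ℚ {ζ}, hζf, fun σ hσ => ?_⟩
    exact (hI' σ 0 fun z hz => fix_of_prim hm hζ (hσ ζ hζm) z hz).1
  · exact (hI' τ 0 fun z hz => Ine.root hτ hN hz).1
  · change sF r Φ ξ (I ⟨Φ, hΦ.mem_dec⟩) = ξ
    rw [(hI' ⟨Φ, hΦ.mem_dec⟩ 1 fun z _ => by rw [pow_one]).1, sF_one]

end Ur

/-- (D) -/
theorem urDim (p : ℕ) [hp : Fact p.Prime] : UrDim p := by
  intro V _ _ _ r ⟨F, hF, hr⟩ v A₀ hv hA₀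
  obtain ⟨A, rfl⟩ : ∃ A : Pl, A.v = A₀ := ⟨⟨A₀, v, hv, hA₀⟩, rfl⟩
  haveI := hF
  obtain ⟨Φ, hΦ⟩ := exists_isFr A
  haveI : Finite V := Module.finite_of_finite (ZMod p)
  haveI : Finite (Module.End (ZMod p) V) :=
    Finite.of_injective (fun f : Module.End (ZMod p) V => (f : V → V)) DFunLike.coe_injective
  -- the period
  obtain ⟨n, hn0, hn⟩ : ∃ n : ℕ, n ≠ 0 ∧ r (Φ ^ n) = 1 := by
    haveI : Finite (Module.End (ZMod p) V)ˣ := inferInstance
    refine ⟨orderOf (r.toHomUnits Φ), (orderOf_pos _).ne', ?_⟩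
    have h1 := pow_orderOf_eq_one (r.toHomUnits Φ)
    have h2 := congrArg Units.val h1
    rw [Units.val_pow_eq_pow_val, MonoidHom.coe_toHomUnits, Units.val_one] at h2
    rw [map_pow]
    exact h2
  have hm : n * p ≠ 0 := mul_ne_zero hn0 hp.out.ne_zero
  have hm1 : r (Φ ^ (n * p)) = 1 := by rw [pow_mul, map_pow, hn, one_pow]
  have hm0 : ∀ ξ : V, sF r Φ ξ (n * p) = 0 := fun ξ => by
    rw [sF_mul hn, ← Nat.cast_smul_eq_nsmul (ZMod p), CharP.cast_eq_zero, zero_smul]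
  -- the unramified cocycles
  let ev : urZ r A.v →ₗ[ZMod p] H0 r (Ine A) :=
    { toFun := fun c => ⟨c.1 ⟨Φ, hΦ.mem_dec⟩, urZ_apply_mem hΦ c.2⟩
      map_add' := fun _ _ => rfl
      map_smul' := fun _ _ => rfl }
  have hev : Function.Bijective ev := by
    constructor
    · rw [← LinearMap.ker_eq_bot, LinearMap.ker_eq_bot']
      intro c hc
      exact Subtype.ext (urZ_eq_zero hΦ c.2 (congrArg Subtype.val hc))
    · intro ξ
      obtain ⟨c, hc, hc'⟩ := exists_urZ hΦ hr hm hm1 ξ.2 (hm0 ξ.1)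
      exact ⟨⟨c, hc⟩, Subtype.ext hc'⟩
  let e := LinearEquiv.ofBijective ev hev
  haveI hfin : FiniteDimensional (ZMod p) (urZ r A.v) := e.symm.finiteDimensional
  refine ⟨hfin, ?_⟩
  -- the coboundaries
  let δ : V →ₗ[ZMod p] (A.v.decompositionSubgroup ℚ → V) :=
    LinearMap.pi fun σ : A.v.decompositionSubgroup ℚ => (r σ - 1 : Module.End (ZMod p) V)
  have hδ : ∀ x σ, δ x σ = r σ x - x := fun x σ => rfl
  have hB : B1 r (A.v.decompositionSubgroup ℚ) = LinearMap.range δ := rfl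
  haveI : FiniteDimensional (ZMod p) (B1 r (A.v.decompositionSubgroup ℚ)) := by
    rw [hB]; infer_instance
  have hker : LinearMap.ker δ ≤ H0 r (Ine A) := by
    intro x hx
    refine H0_le r (A := A) fun σ hσ => ?_
    have := congrFun (LinearMap.mem_ker.1 hx) ⟨σ, hσ⟩
    rw [hδ] at this
    exact sub_eq_zero.1 this
  have hinf : urZ r A.v ⊓ B1 r (A.v.decompositionSubgroup ℚ) = (H0 r (Ine A)).map δ := by
    apply le_antisymm
    · rintro _ ⟨h1, x, rfl⟩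
      refine ⟨x, fun τ hτ => ?_, rfl⟩
      have := h1.2 ⟨τ, Ine_mem hτ⟩ hτ
      exact sub_eq_zero.1 this
    · rintro _ ⟨x, hx, rfl⟩
      refine ⟨⟨⟨fun σ τ => ?_, F, hF, fun σ hσ => ?_⟩, fun τ hτ => ?_⟩, x, rfl⟩
      · rw [hδ, hδ, hδ, map_sub]
        change r ((σ : GQ) * (τ : GQ)) x - x = _
        rw [map_mul, Module.End.mul_apply]
        abel
      · rw [hδ, hr _ hσ, Module.End.one_apply, sub_self]
      · rw [hδ, hx τ hτ, sub_self]
  have e1 := Submodule.finrank_sup_add_finrank_inf_eq (urZ r A.v)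
    (B1 r (A.v.decompositionSubgroup ℚ))
  have e2 : finrank (ZMod p) (urZ r A.v) = finrank (ZMod p) (H0 r (Ine A)) := e.finrank_eq
  have e3 := LinearMap.finrank_range_add_finrank_ker δ
  have e4 := LinearMap.finrank_range_add_finrank_ker (δ.domRestrict (H0 r (Ine A)))
  have e5 : LinearMap.range (δ.domRestrict (H0 r (Ine A))) = (H0 r (Ine A)).map δ :=
    LinearMap.range_domRestrict _ _
  have e6 : finrank (ZMod p) (LinearMap.ker (δ.domRestrict (H0 r (Ine A)))) =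
      finrank (ZMod p) (LinearMap.ker δ) := by
    rw [LinearMap.ker_domRestrict]
    exact (Submodule.submoduleOfEquivOfLe hker).finrank_eq
  rw [e5] at e4
  rw [hinf] at e1
  rw [← hB] at e3
  omega

end Fermat.Agent.CFT
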