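import Fermat.Agent.CFT.Gl25
import Fermat.Prelude.Def_GroupCohomology_ContinuousUnramified

/-!
# Comparison with the continuous cohomology of the statements: levels
-/

set_option autoImplicit false
set_option linter.unusedSectionVars false
set_option linter.unusedVariables false
set_option linter.style.haveILetI false

namespace Fermat.Agent.CFT

open Module groupCohomology ExtCitation CategoryTheory
open scoped Pointwise

/-- the set of primes as natural numbers -/
def toN (S : Finset Nat.Primes) : Finset ℕ := S.map ⟨Subtype.val, Subtype.val_injective⟩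

variable {S : Finset Nat.Primes}

theorem mem_toN {q : ℕ} (hq : q.Prime) : q ∈ toN S ↔ (⟨q, hq⟩ : Nat.Primes) ∈ S := by
  rw [toN, Finset.mem_map]
  constructor
  · rintro ⟨q', h, rfl⟩
    exact h
  · intro h
    exact ⟨_, h, rfl⟩

/-- the place of a valuation ring -/
def mkPl (A : ValuationSubring Qb) (q : Nat.Primes) (hA : A.LiesOverPrime (q : ℕ)) : Pl :=
  ⟨A, q, q.2, hA⟩

theorem ell_mkPl {A : ValuationSubring Qb} {q : Nat.Primes} (hA : A.LiesOverPrime (q : ℕ)) :
    (mkPl A q hA).ell = q := (mkPl A q hA).ell_unique q.2 hA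

theorem lvlS_of {F : IntermediateField ℚ Qb} (hF : F.IsUnramifiedOutside S) :
    ∃ V ∈ (SG (toN S)).carrier, V ≤ F.fixingSubgroup := by
  haveI := hF.1
  refine SG_exists (IntermediateField.fixingSubgroup_isOpen F) fun A hA => ?_
  exact hF.2 ⟨A.ell, A.ell_prime⟩ (fun h => hA ((mem_toN _).2 h)) A.v A.liesOver_ell

theorem finiteDimensional_fixedField {V : Subgroup GQ} (hV : IsOpen (V : Set GQ)) :
    FiniteDimensional ℚ (IntermediateField.fixedField V) := finiteDimensional_KW hV

theorem lvlS_to {V : Subgroup GQ} (hV : V ∈ (SG (toN S)).carrier) :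
    ∃ F : IntermediateField ℚ Qb, F.IsUnramifiedOutside S ∧ F.fixingSubgroup = V := by
  have h1 := fixing_fixed (Subgroup.isClosed_of_isOpen V hV.2.1)
  refine ⟨IntermediateField.fixedField V, ⟨finiteDimensional_fixedField hV.2.1, fun q hq A hA => ?_⟩, h1⟩
  rw [h1]
  exact hV.2.2 (mkPl A q hA) (by rw [ell_mkPl, mem_toN q.2]; exact hq)

theorem lvl_of (F : IntermediateField ℚ Qb) [FiniteDimensional ℚ F] : ∃ V ∈ SL.carrier, V ≤ F.fixingSubgroup :=
  SL_exists (IntermediateField.fixingSubgroup_isOpen F)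

theorem lvl_to {V : Subgroup GQ} (hV : V ∈ SL.carrier) :
    ∃ F : IntermediateField ℚ Qb, FiniteDimensional ℚ F ∧ F.fixingSubgroup = V :=
  ⟨IntermediateField.fixedField V, finiteDimensional_fixedField hV.2,
    fixing_fixed (Subgroup.isClosed_of_isOpen V hV.2)⟩

section Rp

variable {p : ℕ} [hp : Fact p.Prime] (M : Rep (ZMod p) GQ) [FiniteDimensional (ZMod p) M]

theorem isOpen_ker (hsm : ∀ m : M, ∃ F : IntermediateField ℚ Qb, FiniteDimensional ℚ F ∧
    ∀ s ∈ F.fixingSubgroup, M.ρ s m = m) : IsOpen ((M.ρ.ker : Subgroup GQ) : Set GQ) := by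
  haveI : Finite M := Module.finite_of_finite (ZMod p)
  choose F hF1 hF2 using hsm
  have h1 : IsOpen (⋂ m : M, ((F m).fixingSubgroup : Set GQ)) :=
    isOpen_iInter_of_finite fun m => by
      haveI := hF1 m
      exact IntermediateField.fixingSubgroup_isOpen (F m)
  refine Subgroup.isOpen_mono (H₁ := ⨅ m : M, (F m).fixingSubgroup) (fun g hg => ?_) (by
    rw [Subgroup.coe_iInf]; exact h1)
  rw [MonoidHom.mem_ker]
  refine LinearMap.ext fun m => ?_
  exact hF2 m g ((Subgroup.mem_iInf.1 hg) m)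

theorem hasLevel_of (hsm : ∀ m : M, ∃ F : IntermediateField ℚ Qb, FiniteDimensional ℚ F ∧
      ∀ s ∈ F.fixingSubgroup, M.ρ s m = m)
    (hMur : ∀ q : Nat.Primes, q ∉ S → ∀ A : ValuationSubring Qb,
      A.LiesOverPrime (q : ℕ) → ∀ g ∈ A.inertiaSubgroupIn ℚ, M.ρ g = 1) :
    HasLevel (SG (toN S)) (idG GQ) M.ρ := by
  obtain ⟨V, hV, hle⟩ := SG_exists (S := toN S) (isOpen_ker M hsm) fun A hA g hg =>
    (MonoidHom.mem_ker).2 (hMur ⟨A.ell, A.ell_prime⟩ (fun h => hA ((mem_toN _).2 h)) A.v A.liesOver_ell g hg)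
  exact ⟨V, hV, fun g hg x => by
    have : M.ρ g = 1 := (MonoidHom.mem_ker).1 (hle hg)
    change M.ρ g x = x
    rw [this]; rfl⟩

end Rp

end Fermat.Agent.CFT
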