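import Fermat.Agent.CFT.Cmp1

/-!
# Comparison in degree one
-/

set_option autoImplicit false
set_option linter.unusedSectionVars false
set_option linter.unusedVariables false
set_option linter.style.haveILetI false

namespace Fermat.Agent.CFT

open Module groupCohomology ExtCitation CategoryTheory
open scoped Pointwise

variable {S : Finset Nat.Primes} {p : ℕ} [hp : Fact p.Prime] (M : Rep (ZMod p) GQ)

/-- the global complex -/
noncomputable abbrev CC (S : Finset Nat.Primes) {p : ℕ} [Fact p.Prime] (M : Rep (ZMod p) GQ) : Cx.{0, 0} (ZMod p) :=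
  cochCx (SG (toN S)) (idG GQ) M.ρ Unit

theorem inh_add (F F' : (CC S M).X 1) (g : GQ) : inh (F + F') g = inh F g + inh F' g := rfl

theorem inh_smul (c : ZMod p) (F : (CC S M).X 1) (g : GQ) : inh (c • F) g = c • inh F g := rfl

/-- the inhomogeneous cocycle -/
noncomputable def psi1 : (CC S M).Z 1 →ₗ[ZMod p] cocycles₁ M where
  toFun F := ⟨fun g => inh (F : (CC S M).X 1) g, (mem_cocycles₁_iff _).2 fun g h => by
    rw [inh_mul F.2, add_comm]⟩
  map_add' F F' := cocycles₁_ext fun g => rfl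
  map_smul' c F := cocycles₁_ext fun g => rfl

theorem psi1_apply (F : (CC S M).Z 1) (g : GQ) : psi1 M F g = inh (F : (CC S M).X 1) g := rfl

theorem psi1_zero_iff (F : (CC S M).Z 1) : (H1π M).hom (psi1 M F) = 0 ↔ (F : (CC S M).X 1) ∈ (CC S M).B 1 := by
  have h1 : (H1π M).hom (psi1 M F) = 0 ↔ ⇑(psi1 M F) ∈ coboundaries₁ M := H1π_eq_zero_iff (psi1 M F)
  rw [h1]
  constructor
  · rintro ⟨x, hx⟩
    exact mem_B1_of_inh F.2 x fun h => (congrFun hx h).symm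
  · intro h
    obtain ⟨ξ, hξ⟩ := inh_of_mem_B1 h
    exact ⟨ξ, funext fun h => (hξ h).symm⟩

/-- the comparison map -/
noncomputable def Ph1 : (CC S M).H 1 →ₗ[ZMod p] H1 M :=
  Submodule.liftQ _ ((H1π M).hom ∘ₗ psi1 M) fun F hF => (psi1_zero_iff M F).2 hF

theorem Ph1_cl (F : (CC S M).X 1) (hF : (CC S M).d 1 F = 0) :
    Ph1 M ((CC S M).cl 1 F hF) = (H1π M).hom (psi1 M ⟨F, hF⟩) := rfl

theorem Ph1_injective : Function.Injective (Ph1 (S := S) M) := by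
  rw [injective_iff_map_eq_zero]
  intro z hz
  obtain ⟨F, hF, rfl⟩ := Cx.exists_cl _ z
  rw [Ph1_cl] at hz
  exact (Cx.cl_eq_zero _ hF).2 ((psi1_zero_iff M ⟨F, hF⟩).1 hz)

/-- cochains from inhomogeneous ones -/
theorem exists_X1 (hL : HasLevel (SG (toN S)) (idG GQ) M.ρ) {c : GQ → M}
    (hc : ∀ g h, c (g * h) = M.ρ g (c h) + c g) (hl : IsLevelConstantS₁ S c) :
    ∃ F : (CC S M).X 1, (CC S M).d 1 F = 0 ∧ ∀ g, inh F g = c g := by
  obtain ⟨F0, hF0, hl⟩ := hl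
  obtain ⟨V1, hV1, h1⟩ := lvlS_of hF0
  obtain ⟨V2, hV2, h2⟩ := hL
  obtain ⟨V, hV, hle1, hle2⟩ := (SG (toN S)).directed V1 hV1 V2 hV2
  haveI := (SG (toN S)).normal V hV
  have hc1 : c 1 = 0 := by
    have := hc 1 1
    rw [mul_one, map_one, Module.End.one_apply] at this
    exact left_eq_add.1 this
  have hcV : ∀ v ∈ V, c v = 0 := fun v hv => by
    have := hl 1 v (h1 (hle1 hv))
    rwa [one_mul, hc1] at this
  have key : ∀ x y v w : GQ, v ∈ V → w ∈ V →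
      M.ρ (x * v) (c ((x * v)⁻¹ * (y * w))) = M.ρ x (c (x⁻¹ * y)) := by
    intro x y v w hv hw
    have e1 : (x * v)⁻¹ * (y * w) = v⁻¹ * (x⁻¹ * y * w) := by group
    rw [e1, hc v⁻¹, hcV _ (V.inv_mem hv), add_zero, hl _ w (h1 (hle1 hw)), ← Module.End.mul_apply, ← map_mul,
      mul_inv_cancel_right]
  refine ⟨mkc (fun _ x => M.ρ (x 0) (c ((x 0)⁻¹ * x 1))) ⟨fun g a x => ?_, V, hV, fun a x y hxy => ?_⟩, ?_, ?_⟩
  · beta_reduce
    change M.ρ (g * x 0) (c ((g * x 0)⁻¹ * (g * x 1))) = M.ρ g (M.ρ (x 0) (c ((x 0)⁻¹ * x 1)))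
    rw [map_mul, Module.End.mul_apply]
    congr 3
    group
  · beta_reduce
    have e0 : y 0 = x 0 * ((x 0)⁻¹ * y 0) := by group
    have e1 : y 1 = x 1 * ((x 1)⁻¹ * y 1) := by group
    rw [e0, e1, key _ _ _ _ (hxy 0) (hxy 1)]
  · apply cv_injective
    funext a x
    have e : x = ![x 0, x 1, x 2] := by funext j; fin_cases j <;> rfl
    rw [e, cv_d_one]
    change M.ρ (x 1) (c ((x 1)⁻¹ * x 2)) - M.ρ (x 0) (c ((x 0)⁻¹ * x 2)) + M.ρ (x 0) (c ((x 0)⁻¹ * x 1)) = 0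
    have e1 : (x 0)⁻¹ * x 2 = ((x 0)⁻¹ * x 1) * ((x 1)⁻¹ * x 2) := by group
    rw [e1, hc ((x 0)⁻¹ * x 1) ((x 1)⁻¹ * x 2), map_add, ← Module.End.mul_apply (M.ρ (x 0)) (M.ρ ((x 0)⁻¹ * x 1)),
      ← map_mul, mul_inv_cancel_left]
    abel
  · intro g
    change M.ρ 1 (c (1⁻¹ * g)) = c g
    rw [map_one, inv_one, one_mul]; rfl

theorem lvl_inh (F : (CC S M).X 1) : IsLevelConstantS₁ S (fun g => inh F g) := by
  obtain ⟨V, hV, h⟩ := exists_level1' F
  obtain ⟨F0, hF0, rfl⟩ := lvlS_to hV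
  refine ⟨F0, hF0, fun g s hs => ?_⟩
  have := h () 1 g 1 (one_mem _) s hs
  rw [one_mul] at this
  exact this

theorem range_Ph1 (hL : HasLevel (SG (toN S)) (idG GQ) M.ρ) :
    LinearMap.range (Ph1 (S := S) M) = continuousH1S S M := by
  ext x
  rw [mem_continuousH1S_iff]
  constructor
  · rintro ⟨z, rfl⟩
    obtain ⟨F, hF, rfl⟩ := Cx.exists_cl _ z
    exact ⟨psi1 M ⟨F, hF⟩, lvl_inh M F, rfl⟩
  · rintro ⟨c, hc, rfl⟩
    obtain ⟨F, hF, hFc⟩ := exists_X1 (S := S) M hL (c := c) (fun g h => (mem_cocycles₁_iff _).1 c.2 g h) hc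
    refine ⟨(CC S M).cl 1 F hF, ?_⟩
    rw [Ph1_cl]
    congr 1
    exact cocycles₁_ext fun g => hFc g

end Fermat.Agent.CFT
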