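import Fermat.Agent.CFT.Cmp2

/-!
# Comparison in degree two
-/

set_option autoImplicit false
set_option linter.unusedSectionVars false
set_option linter.unusedVariables false
set_option linter.style.haveILetI false

namespace Fermat.Agent.CFT

open Module groupCohomology ExtCitation CategoryTheory
open scoped Pointwise

variable {S : Finset Nat.Primes} {p : ℕ} [hp : Fact p.Prime] (M : Rep (ZMod p) GQ)

/-- inhomogeneous 2-cochain -/
noncomputable def inh2 (F : (CC S M).X 2) (g h : GQ) : M := cv F () ![1, g, g * h]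

theorem cv_inh2 (F : (CC S M).X 2) (g x y : GQ) :
    cv F () ![g, g * x, g * (x * y)] = M.ρ g (inh2 M F x y) := by
  have := cv_equiv3 F g () 1 x (x * y)
  change cv F () ![g * 1, g * x, g * (x * y)] = _ at this
  rw [mul_one] at this
  exact this

theorem inh2_cocycle {F : (CC S M).X 2} (hF : (CC S M).d 2 F = 0) (g h j : GQ) :
    inh2 M F (g * h) j + inh2 M F g h = M.ρ g (inh2 M F h j) + inh2 M F g (h * j) := by
  have h1 := congrFun (congrFun (congrArg cv hF) ()) ![1, g, g * h, g * (h * j)]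
  rw [cv_d_two, cv_inh2] at h1
  change M.ρ g (inh2 M F h j) - cv F () ![1, g * h, g * (h * j)] + inh2 M F g (h * j) - inh2 M F g h = 0 at h1
  have h2 : inh2 M F (g * h) j = cv F () ![1, g * h, g * (h * j)] := by rw [inh2, mul_assoc]
  rw [h2]
  rw [sub_eq_zero] at h1
  rw [← h1]; abel

theorem lvl_inh2 (F : (CC S M).X 2) : IsLevelConstantS₂ S (fun gh : GQ × GQ => inh2 M F gh.1 gh.2) := by
  obtain ⟨V, hV, h⟩ := exists_level2 F
  haveI := (SG (toN S)).normal V hV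
  obtain ⟨F0, hF0, rfl⟩ := lvlS_to hV
  refine ⟨F0, hF0, fun g g' s s' hs hs' => ?_⟩
  have h1 := h () 1 g (g * g') 1 (one_mem _) s hs (g'⁻¹ * s * g' * s') (mul_mem (by
    have := (SG (toN S)).normal _ hV
    have h2 := this.conj_mem s hs g'⁻¹
    rwa [inv_inv] at h2) hs')
  have e : g * g' * (g'⁻¹ * s * g' * s') = g * s * (g' * s') := by group
  rw [one_mul, e] at h1
  exact h1

/-- the comparison on cocycles -/
noncomputable def psi2 : (CC S M).Z 2 →ₗ[ZMod p] levelCocyclesS₂ S M where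
  toFun F := ⟨fun gh => inh2 M (F : (CC S M).X 2) gh.1 gh.2,
    (mem_levelCocyclesS₂_iff S M _).2 ⟨(mem_cocycles₂_iff _).2 fun g h j => inh2_cocycle M F.2 g h j,
      lvl_inh2 M _⟩⟩
  map_add' F F' := rfl
  map_smul' c F := rfl

/-- 1-cochains from arbitrary functions -/
theorem exists_E1 (hL : HasLevel (SG (toN S)) (idG GQ) M.ρ) {c : GQ → M} (hl : IsLevelConstantS₁ S c) :
    ∃ F : (CC S M).X 1, ∀ x y, cv F () ![x, y] = M.ρ x (c (x⁻¹ * y)) := by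
  obtain ⟨F0, hF0, hl⟩ := hl
  obtain ⟨V1, hV1, h1⟩ := lvlS_of hF0
  obtain ⟨V2, hV2, h2⟩ := hL
  obtain ⟨V, hV, hle1, hle2⟩ := (SG (toN S)).directed V1 hV1 V2 hV2
  have hN := (SG (toN S)).normal V hV
  have key : ∀ x y v w : GQ, v ∈ V → w ∈ V →
      M.ρ (x * v) (c ((x * v)⁻¹ * (y * w))) = M.ρ x (c (x⁻¹ * y)) := by
    intro x y v w hv hw
    have e1 : (x * v)⁻¹ * (y * w) = (x⁻¹ * y) * ((x⁻¹ * y)⁻¹ * v⁻¹ * (x⁻¹ * y) * w) := by group
    have e2 : (x⁻¹ * y)⁻¹ * v⁻¹ * (x⁻¹ * y) * w ∈ V := mul_mem (by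
      have := hN.conj_mem v⁻¹ (V.inv_mem hv) (x⁻¹ * y)⁻¹
      rwa [inv_inv] at this) hw
    rw [e1, hl _ _ (h1 (hle1 e2)), map_mul, Module.End.mul_apply, h2 v (hle2 hv)]
  refine ⟨mkc (fun _ x => M.ρ (x 0) (c ((x 0)⁻¹ * x 1))) ⟨fun g a x => ?_, V, hV, fun a x y hxy => ?_⟩,
    fun x y => rfl⟩
  · beta_reduce
    change M.ρ (g * x 0) (c ((g * x 0)⁻¹ * (g * x 1))) = M.ρ g (M.ρ (x 0) (c ((x 0)⁻¹ * x 1)))
    rw [map_mul, Module.End.mul_apply]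
    congr 3
    group
  · beta_reduce
    have e0 : y 0 = x 0 * ((x 0)⁻¹ * y 0) := by group
    have e1 : y 1 = x 1 * ((x 1)⁻¹ * y 1) := by group
    rw [e0, e1, key _ _ _ _ (hxy 0) (hxy 1)]

/-- 2-cochains from arbitrary functions -/
theorem exists_E2 (hL : HasLevel (SG (toN S)) (idG GQ) M.ρ) {c : GQ × GQ → M} (hl : IsLevelConstantS₂ S c) :
    ∃ F : (CC S M).X 2, ∀ x y z, cv F () ![x, y, z] = M.ρ x (c (x⁻¹ * y, y⁻¹ * z)) := by
  obtain ⟨F0, hF0, hl⟩ := hl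
  obtain ⟨V1, hV1, h1⟩ := lvlS_of hF0
  obtain ⟨V2, hV2, h2⟩ := hL
  obtain ⟨V, hV, hle1, hle2⟩ := (SG (toN S)).directed V1 hV1 V2 hV2
  have hN := (SG (toN S)).normal V hV
  have e1 : ∀ x y v w : GQ, v ∈ V → w ∈ V → ∃ s ∈ F0.fixingSubgroup, (x * v)⁻¹ * (y * w) = (x⁻¹ * y) * s := by
    intro x y v w hv hw
    refine ⟨(x⁻¹ * y)⁻¹ * v⁻¹ * (x⁻¹ * y) * w, h1 (hle1 (mul_mem (by
      have := hN.conj_mem v⁻¹ (V.inv_mem hv) (x⁻¹ * y)⁻¹
      rwa [inv_inv] at this) hw)), by group⟩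
  have key : ∀ x y z u v w : GQ, u ∈ V → v ∈ V → w ∈ V →
      M.ρ (x * u) (c ((x * u)⁻¹ * (y * v), (y * v)⁻¹ * (z * w))) = M.ρ x (c (x⁻¹ * y, y⁻¹ * z)) := by
    intro x y z u v w hu hv hw
    obtain ⟨s, hs, hs'⟩ := e1 x y u v hu hv
    obtain ⟨t, ht, ht'⟩ := e1 y z v w hv hw
    rw [hs', ht', hl _ _ _ _ hs ht, map_mul, Module.End.mul_apply, h2 u (hle2 hu)]
  refine ⟨mkc (fun _ x => M.ρ (x 0) (c ((x 0)⁻¹ * x 1, (x 1)⁻¹ * x 2)))
    ⟨fun g a x => ?_, V, hV, fun a x y hxy => ?_⟩, fun x y z => rfl⟩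
  · beta_reduce
    change M.ρ (g * x 0) (c ((g * x 0)⁻¹ * (g * x 1), (g * x 1)⁻¹ * (g * x 2))) =
      M.ρ g (M.ρ (x 0) (c ((x 0)⁻¹ * x 1, (x 1)⁻¹ * x 2)))
    rw [map_mul, Module.End.mul_apply]
    congr 4 <;> group
  · beta_reduce
    have e0 : y 0 = x 0 * ((x 0)⁻¹ * y 0) := by group
    have e1 : y 1 = x 1 * ((x 1)⁻¹ * y 1) := by group
    have e2 : y 2 = x 2 * ((x 2)⁻¹ * y 2) := by group
    rw [e0, e1, e2, key _ _ _ _ _ _ (hxy 0) (hxy 1) (hxy 2)]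

theorem inh2_d (E : (CC S M).X 1) (g h : GQ) :
    inh2 M ((CC S M).d 1 E) g h = M.ρ g (inh E h) - inh E (g * h) + inh E g := by
  rw [inh2, cv_d_one]
  have h1 := cv_equiv2 E g () 1 h
  change cv E () ![g * 1, g * h] = _ at h1
  rw [mul_one] at h1
  rw [h1]
  rfl

theorem psi2_mem_iff (hL : HasLevel (SG (toN S)) (idG GQ) M.ρ) (F : (CC S M).Z 2) :
    ((psi2 M F : levelCocyclesS₂ S M) : GQ × GQ → M) ∈ levelCoboundariesS₂ S M ↔
      (F : (CC S M).X 2) ∈ (CC S M).B 2 := by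
  rw [mem_levelCoboundariesS₂_iff]
  constructor
  · rintro ⟨c, hc, h⟩
    obtain ⟨E, hE⟩ := exists_E1 M hL hc
    refine (Cx.mem_B_succ _).2 ⟨E, ?_⟩
    apply cv_injective
    funext a x
    have e : x = ![x 0, x 0 * ((x 0)⁻¹ * x 1), x 0 * (((x 0)⁻¹ * x 1) * ((x 1)⁻¹ * x 2))] := by
      funext j; fin_cases j
      · rfl
      · change x 1 = _; group; rfl
      · change x 2 = _; group; rfl
    rw [e]
    change cv ((CC S M).d 1 E) () _ = cv (F : (CC S M).X 2) () _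
    rw [cv_inh2, cv_inh2, inh2_d]
    have h1 : ∀ g, inh E g = c g := fun g => by
      change cv E () ![1, g] = _
      rw [hE, map_one, inv_one, one_mul]; rfl
    have h2 := congrFun h ((x 0)⁻¹ * x 1, (x 1)⁻¹ * x 2)
    rw [d₁₂_hom_apply] at h2
    rw [h1, h1, h1]
    congr 1
  · intro h
    obtain ⟨E, hE⟩ := (Cx.mem_B_succ _).1 h
    refine ⟨fun g => inh E g, lvl_inh M E, ?_⟩
    funext gh
    rw [d₁₂_hom_apply]
    change M.ρ gh.1 (inh E gh.2) - inh E (gh.1 * gh.2) + inh E gh.1 = inh2 M (F : (CC S M).X 2) gh.1 gh.2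
    rw [← hE, inh2_d]

/-- the comparison map -/
noncomputable def Ph2 (hL : HasLevel (SG (toN S)) (idG GQ) M.ρ) : (CC S M).H 2 →ₗ[ZMod p] continuousH2S S M :=
  Submodule.mapQ _ _ (psi2 M) fun F hF => (psi2_mem_iff M hL F).2 hF

theorem Ph2_cl (hL : HasLevel (SG (toN S)) (idG GQ) M.ρ) (F : (CC S M).X 2) (hF : (CC S M).d 2 F = 0) :
    Ph2 M hL ((CC S M).cl 2 F hF) = continuousH2Sπ S M (psi2 M ⟨F, hF⟩) := rfl

theorem Ph2_injective (hL : HasLevel (SG (toN S)) (idG GQ) M.ρ) : Function.Injective (Ph2 (S := S) M hL) := by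
  rw [injective_iff_map_eq_zero]
  intro z hz
  obtain ⟨F, hF, rfl⟩ := Cx.exists_cl _ z
  rw [Ph2_cl, continuousH2Sπ_eq_zero_iff] at hz
  exact (Cx.cl_eq_zero _ hF).2 ((psi2_mem_iff M hL ⟨F, hF⟩).1 hz)

theorem Ph2_surjective (hL : HasLevel (SG (toN S)) (idG GQ) M.ρ) : Function.Surjective (Ph2 (S := S) M hL) := by
  intro z
  obtain ⟨c, rfl⟩ := Submodule.Quotient.mk_surjective _ z
  obtain ⟨hc, hl⟩ := (mem_levelCocyclesS₂_iff S M _).1 c.2
  obtain ⟨F, hF⟩ := exists_E2 M hL hl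
  have hi : ∀ g h, inh2 M F g h = (c : GQ × GQ → M) (g, h) := fun g h => by
    rw [inh2, hF, map_one, inv_one, one_mul, inv_mul_cancel_left]; rfl
  have hd : (CC S M).d 2 F = 0 := by
    apply cv_injective
    funext a x
    have e : x = ![x 0, x 1, x 2, x 3] := by funext j; fin_cases j <;> rfl
    rw [e, cv_d_two, hF, hF, hF, hF]
    change _ = (0 : M)
    have h1 := (mem_cocycles₂_iff _).1 hc ((x 0)⁻¹ * x 1) ((x 1)⁻¹ * x 2) ((x 2)⁻¹ * x 3)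
    have e1 : (x 0)⁻¹ * x 1 * ((x 1)⁻¹ * x 2) = (x 0)⁻¹ * x 2 := by group
    have e2 : (x 1)⁻¹ * x 2 * ((x 2)⁻¹ * x 3) = (x 1)⁻¹ * x 3 := by group
    rw [e1, e2] at h1
    have h2 := congrArg (M.ρ (x 0)) h1
    rw [map_add, map_add, ← Module.End.mul_apply (M.ρ (x 0)) (M.ρ ((x 0)⁻¹ * x 1)), ← map_mul,
      mul_inv_cancel_left] at h2
    rw [sub_eq_zero, sub_add_eq_add_sub, sub_eq_iff_eq_add, add_comm (M.ρ (x 0) _) (M.ρ (x 0) _), h2]
  refine ⟨(CC S M).cl 2 F hd, ?_⟩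
  rw [Ph2_cl]
  refine congrArg (continuousH2Sπ S M) (Subtype.ext ?_)
  funext gh
  exact hi gh.1 gh.2

end Fermat.Agent.CFT
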