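import Fermat.Agent.CFT.Cmp1

/-!
# The local Galois group is the decomposition group
-/

set_option autoImplicit false
set_option linter.unusedSectionVars false
set_option linter.unusedVariables false
set_option linter.style.haveILetI false

namespace Fermat.Agent.CFT

open Module
open scoped Pointwise NNReal

variable (q : ℕ) [hq : Fact q.Prime]

theorem nnnorm_emb_q : ‖padicEmbedding q (q : Qb)‖₊ = (q : ℝ≥0)⁻¹ := by
  rw [map_natCast, ← PadicAlgCl.valuation_def, PadicAlgCl.valuation_p, one_div]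

theorem padicPlace_liesOver : (padicPlace q).LiesOverPrime q := by
  change (q : Qb) ∈ (padicPlace q).nonunits
  rw [ValuationSubring.mem_nonunits_iff_exists_mem_maximalIdeal]
  have h0 : (1 : ℝ≥0) < q := by exact_mod_cast hq.out.one_lt
  have h1 : (q : Qb) ∈ padicPlace q := by
    rw [mem_padicPlace_iff, nnnorm_emb_q]
    exact inv_le_one_of_one_le₀ h0.le
  refine ⟨h1, ?_⟩
  rw [IsLocalRing.mem_maximalIdeal, mem_nonunits_iff]
  intro hu
  obtain ⟨u, hu⟩ := hu
  have h2 : ((u⁻¹ : (padicPlace q)ˣ) : padicPlace q) * (u : padicPlace q) = 1 := u.inv_mul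
  have h3 : (((u⁻¹ : (padicPlace q)ˣ) : padicPlace q) : Qb) * (q : Qb) = 1 := by
    have := congrArg (fun z : padicPlace q => (z : Qb)) h2
    rw [hu] at this
    exact this
  have h4 := (mem_padicPlace_iff q).1 ((u⁻¹ : (padicPlace q)ˣ) : padicPlace q).2
  have h5 := congrArg (fun z => ‖padicEmbedding q z‖₊) h3
  simp only [map_mul, nnnorm_mul, map_one, nnnorm_one] at h5
  rw [nnnorm_emb_q] at h5
  have h6 : ‖padicEmbedding q ((u⁻¹ : (padicPlace q)ˣ) : padicPlace q)‖₊ = q := by
    have h0' : (q : ℝ≥0) ≠ 0 := by positivity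
    field_simp at h5
    exact h5
  rw [h6] at h4
  exact absurd h4 (not_le.2 h0)

/-- the place of the embedding -/
noncomputable def A0 : Pl := ⟨padicPlace q, q, hq.out, padicPlace_liesOver q⟩

theorem ell_A0 : (A0 q).ell = q := (A0 q).ell_unique hq.out (padicPlace_liesOver q)

theorem mem_Dec_of_loc (τ : PadicAlgCl q ≃ₐ[ℚ_[q]] PadicAlgCl q) : localGaloisToGlobal q τ ∈ Dec (A0 q) :=
  Pl.ext (MulAction.mem_stabilizer_iff.1 (localGaloisToGlobal_mem_decompositionSubgroup q τ))

theorem continuous_loc : Continuous (localGaloisToGlobal q) := by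
  refine continuous_of_continuousAt_one _ ?_
  rw [ContinuousAt, map_one, Filter.tendsto_def]
  intro U hU
  obtain ⟨E, hE, hEU⟩ := (krullTopology_mem_nhds_one_iff ℚ Qb U).1 hU
  haveI := hE
  let b := Module.finBasis ℚ E
  let s : Set (PadicAlgCl q) := Set.range fun i => padicEmbedding q (b i : Qb)
  have hs : s.Finite := Set.finite_range _
  haveI : FiniteDimensional ℚ_[q] (IntermediateField.adjoin ℚ_[q] s) :=
    IntermediateField.finiteDimensional_adjoin fun x _ => (PadicAlgCl.isAlgebraic q).isAlgebraic x |>.isIntegral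
  rw [krullTopology_mem_nhds_one_iff]
  refine ⟨IntermediateField.adjoin ℚ_[q] s, inferInstance, fun τ hτ => ?_⟩
  refine hEU ?_
  rw [SetLike.mem_coe, IntermediateField.mem_fixingSubgroup_iff]
  intro x hx
  have h1 : ∀ i, localGaloisToGlobal q τ (b i : Qb) = b i := fun i => by
    apply (padicEmbedding q).toRingHom.injective
    change padicEmbedding q _ = padicEmbedding q _
    rw [padicEmbedding_localGaloisToGlobal]
    exact (IntermediateField.mem_fixingSubgroup_iff _ _).1 hτ _ (IntermediateField.subset_adjoin _ _ ⟨i, rfl⟩)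
  have h2 := congrArg E.val.toLinearMap (b.sum_repr ⟨x, hx⟩)
  rw [map_sum] at h2
  change localGaloisToGlobal q τ (E.val.toLinearMap ⟨x, hx⟩) = E.val.toLinearMap ⟨x, hx⟩
  rw [← h2, map_sum]
  refine Finset.sum_congr rfl fun i _ => ?_
  rw [map_smul, Rat.smul_def, map_mul, map_ratCast]
  congr 1
  exact h1 i

/-- elements fixed by the local group are fixed by the decomposition group -/
theorem fixed_of_fixed {x : Qb} (hx : ∀ τ, localGaloisToGlobal q τ x = x) {g : GQ} (hg : g ∈ Dec (A0 q)) :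
    g x = x := by
  -- `x` is in `ℚ_q`
  have h1 : padicEmbedding q x ∈ (⊥ : IntermediateField ℚ_[q] (PadicAlgCl q)) := by
    rw [InfiniteGalois.mem_bot_iff_fixed]
    intro τ
    rw [← padicEmbedding_localGaloisToGlobal, hx]
  obtain ⟨y, hy⟩ := IntermediateField.mem_bot.1 h1
  by_contra hne
  have hd : ‖padicEmbedding q (g x - x)‖₊ ≠ 0 := by
    rw [Ne, nnnorm_eq_zero, map_eq_zero]
    exact sub_ne_zero.2 hne
  have hq1 : (1 : ℝ≥0) < q := by exact_mod_cast hq.out.one_lt
  have hq0 : (q : ℝ≥0) ≠ 0 := by positivity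
  obtain ⟨n, hn⟩ := exists_pow_lt_of_lt_one (pos_iff_ne_zero.2 hd) (inv_lt_one_of_one_lt₀ hq1)
  have hqp : (0 : ℝ) < q := by exact_mod_cast hq.out.pos
  obtain ⟨r, hr⟩ := Padic.rat_dense q y (ε := ((q : ℝ)⁻¹) ^ n) (by positivity)
  have h2 : ‖padicEmbedding q (x - r)‖₊ ≤ ((q : ℝ≥0)⁻¹) ^ n := by
    rw [map_sub, map_ratCast, ← hy]
    have e1 : (algebraMap ℚ_[q] (PadicAlgCl q) y) - (r : PadicAlgCl q) =
      ((y - r : ℚ_[q]) : PadicAlgCl q) := by
      rw [map_sub, map_ratCast]
    rw [e1, ← NNReal.coe_le_coe, coe_nnnorm, PadicAlgCl.norm_extends]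
    push_cast
    exact hr.le
  -- scaling
  have hsc : ∀ z : Qb, ‖padicEmbedding q z‖₊ ≤ ((q : ℝ≥0)⁻¹) ^ n ↔ z / (q : Qb) ^ n ∈ padicPlace q := by
    intro z
    rw [mem_padicPlace_iff, map_div₀, map_pow, nnnorm_div, nnnorm_pow, nnnorm_emb_q,
      div_le_one (by positivity)]
  have h3 : ‖padicEmbedding q (g (x - r))‖₊ ≤ ((q : ℝ≥0)⁻¹) ^ n := by
    rw [hsc] at h2 ⊢
    have h4 : g ((x - r) / (q : Qb) ^ n) ∈ (g • A0 q).v := by
      rw [coe_smul_Pl]
      exact ValuationSubring.smul_mem_pointwise_smul g _ _ h2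
    rw [mem_Dec.1 hg, map_div₀, map_pow, map_natCast] at h4
    exact h4
  have h5 : g x - x = g (x - r) - (x - r) := by rw [map_sub, map_ratCast]; ring
  have h6 : ‖padicEmbedding q (g x - x)‖₊ ≤ ((q : ℝ≥0)⁻¹) ^ n := by
    rw [h5, map_sub]
    have := PadicAlgCl.isNonarchimedean q (padicEmbedding q (g (x - r))) (-padicEmbedding q (x - r))
    rw [norm_neg, ← sub_eq_add_neg] at this
    exact this.trans (max_le h3 h2)
  exact absurd h6 (not_le.2 hn)

/-- **The image of the local Galois group is the decomposition group.** -/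
theorem range_loc : (localGaloisToGlobal q).range = Dec (A0 q) := by
  have h1 : IsClosed ((localGaloisToGlobal q).range : Set GQ) := by
    rw [MonoidHom.coe_range]
    exact (isCompact_range (continuous_loc q)).isClosed
  refine le_antisymm (by rintro _ ⟨τ, rfl⟩; exact mem_Dec_of_loc q τ) fun g hg => ?_
  rw [← fixing_fixed h1, IntermediateField.mem_fixingSubgroup_iff]
  intro x hx
  exact fixed_of_fixed q (fun τ => (IntermediateField.mem_fixedField_iff _ _).1 hx _ ⟨τ, rfl⟩) hg

end Fermat.Agent.CFT
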