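import Fermat.Agent.CFT.Cmp3
import Fermat.Agent.CFT.Cmp4

/-!
# Finite groups of order prime to `p`; the archimedean place
-/

set_option autoImplicit false
set_option linter.unusedSectionVars false
set_option linter.unusedVariables false
set_option linter.style.haveILetI false

namespace Fermat.Agent.CFT

open Module groupCohomology ExtCitation CategoryTheory
open scoped Pointwise

section Avg

variable {k : Type} [Field k] {D : Type} [Group D] [Finite D] (hD : (Nat.card D : k) ≠ 0) (A : Rep k D)

include hD

theorem avg1 {c : D → A} (hc : ∀ g h, c (g * h) = A.ρ g (c h) + c g) : ∃ m : A, ∀ g, A.ρ g m - m = c g := by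
  classical
  haveI := Fintype.ofFinite D
  rw [Nat.card_eq_fintype_card] at hD
  refine ⟨-((Fintype.card D : k)⁻¹ • ∑ h, c h), fun g => ?_⟩
  have h1 : ∑ h, c (g * h) = ∑ h, c h := Fintype.sum_equiv (Equiv.mulLeft g) _ _ fun h => rfl
  have h2 : ∑ h, c (g * h) = A.ρ g (∑ h, c h) + (Fintype.card D : k) • c g := by
    rw [Finset.sum_congr rfl fun h _ => hc g h, Finset.sum_add_distrib, map_sum, Finset.sum_const,
      Finset.card_univ, Nat.cast_smul_eq_nsmul]
  rw [h1] at h2
  have h3 : A.ρ g (∑ h, c h) = ∑ h, c h - (Fintype.card D : k) • c g := by rw [eq_sub_iff_add_eq, ← h2]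
  rw [map_neg, map_smul, h3, smul_sub, smul_smul, inv_mul_cancel₀ hD, one_smul]
  abel

theorem avg2 {f : D × D → A} (hf : ∀ g h j, f (g * h, j) + f (g, h) = A.ρ g (f (h, j)) + f (g, h * j)) :
    ∃ x : D → A, ∀ g h, A.ρ g (x h) - x (g * h) + x g = f (g, h) := by
  classical
  haveI := Fintype.ofFinite D
  rw [Nat.card_eq_fintype_card] at hD
  refine ⟨fun g => (Fintype.card D : k)⁻¹ • ∑ h, f (g, h), fun g g' => ?_⟩
  have h1 : ∑ h, f (g, g' * h) = ∑ h, f (g, h) := Fintype.sum_equiv (Equiv.mulLeft g') _ _ fun h => rfl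
  have h2 : ∑ h, (f (g * g', h) + f (g, g')) = ∑ h, (A.ρ g (f (g', h)) + f (g, g' * h)) :=
    Finset.sum_congr rfl fun h _ => hf g g' h
  rw [Finset.sum_add_distrib, Finset.sum_add_distrib, h1, ← map_sum, Finset.sum_const, Finset.card_univ,
    ← Nat.cast_smul_eq_nsmul k] at h2
  beta_reduce
  rw [map_smul, ← smul_sub, ← smul_add]
  have h3 : A.ρ g (∑ h, f (g', h)) - ∑ h, f (g * g', h) + ∑ h, f (g, h) = (Fintype.card D : k) • f (g, g') := by
    rw [sub_add_eq_add_sub, ← h2]; abel
  rw [h3, smul_smul, inv_mul_cancel₀ hD, one_smul]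

end Avg

section Arch

instance : Finite archimedeanDecomposition := by
  have h : IsOfFinOrder complexConjugation := isOfFinOrder_iff_pow_eq_one.2 ⟨2, by norm_num, complexConjugation_sq⟩
  exact h.finite_zpowers

theorem card_arch {p : ℕ} [hp : Fact p.Prime] (hp2 : p ≠ 2) : (Nat.card archimedeanDecomposition : ZMod p) ≠ 0 := by
  rw [archimedeanDecomposition, Nat.card_zpowers, Ne, ZMod.natCast_eq_zero_iff]
  have h1 : orderOf complexConjugation ∣ 2 := orderOf_dvd_of_pow_eq_one complexConjugation_sq
  intro h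
  exact hp2 ((Nat.prime_dvd_prime_iff_eq hp.out Nat.prime_two).1 (h.trans h1))

/-- every function on the archimedean decomposition group is level constant -/
theorem lvl_arch : ∃ F : IntermediateField ℚ Qb, FiniteDimensional ℚ F ∧
    ∀ s : archimedeanDecomposition, archimedeanLoc s ∈ F.fixingSubgroup → s = 1 := by
  by_cases hc : complexConjugation = 1
  · refine ⟨⊥, inferInstance, fun s _ => ?_⟩
    obtain ⟨s, hs⟩ := s
    obtain ⟨n, rfl⟩ := hs
    apply Subtype.ext
    change complexConjugation ^ n = 1
    rw [hc, one_zpow]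
  · obtain ⟨x, hx⟩ : ∃ x, complexConjugation x ≠ x := by
      by_contra hcon
      push Not at hcon
      exact hc (AlgEquiv.ext hcon)
    have hint : IsIntegral ℚ x := (Algebra.IsAlgebraic.isAlgebraic x).isIntegral
    refine ⟨IntermediateField.adjoin ℚ {x}, IntermediateField.adjoin.finiteDimensional hint, fun s hs => ?_⟩
    obtain ⟨s, hs'⟩ := s
    obtain ⟨n, rfl⟩ := hs'
    have h1 : (complexConjugation ^ n : GQ) x = x :=
      (IntermediateField.mem_fixingSubgroup_iff _ _).1 hs x (IntermediateField.mem_adjoin_simple_self ℚ x)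
    apply Subtype.ext
    change complexConjugation ^ n = 1
    rcases Int.even_or_odd' n with ⟨m, rfl | rfl⟩
    · rw [zpow_mul]
      have : complexConjugation ^ (2 : ℤ) = 1 := by exact_mod_cast complexConjugation_sq
      rw [this, one_zpow]
    · exfalso
      apply hx
      have : complexConjugation ^ (2 * m + 1) = complexConjugation := by
        rw [zpow_add, zpow_mul, zpow_one]
        have : complexConjugation ^ (2 : ℤ) = 1 := by exact_mod_cast complexConjugation_sq
        rw [this, one_zpow, one_mul]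
      rwa [this] at h1

end Arch

end Fermat.Agent.CFT
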