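import Fermat.Agent.CFT.Cmp5

/-!
# Local cochains on the whole Galois group
-/

set_option autoImplicit false
set_option linter.unusedSectionVars false
set_option linter.unusedVariables false
set_option linter.style.haveILetI false

namespace Fermat.Agent.CFT

open Module groupCohomology ExtCitation CategoryTheory
open scoped Pointwise

theorem exists_retr (D : Subgroup GQ) {V : Subgroup GQ} (hN : V.Normal) : ∃ r : GQ → GQ, (∀ x, r x ∈ D) ∧
    (∀ d ∈ D, ∀ x, ∃ v ∈ V, r (d * x) = d * r x * v) ∧ ∀ x, ∀ v ∈ V, r (x * v) = r x := by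
  haveI : (V.subgroupOf D).Normal := hN.subgroupOf D
  obtain ⟨f, hf, -⟩ := exists_equivariant (H := D) (P := GQ ⧸ V) (M := D ⧸ V.subgroupOf D)
    (fun d m => d • m) (fun m => one_smul _ m) (fun g h m => mul_smul g h m) (fun _ _ => True)
    (fun _ _ _ _ => trivial) (fun y => ⟨((1 : D) : D ⧸ V.subgroupOf D), trivial, fun h hh => by
      have h1 : (h : GQ) ∈ V := mem_of_smul_eq (U := V) (h : GQ) y hh
      change ((h * 1 : D) : D ⧸ V.subgroupOf D) = ((1 : D) : D ⧸ V.subgroupOf D)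
      rw [QuotientGroup.eq, mul_one, mul_one]
      exact (V.subgroupOf D).inv_mem h1⟩)
  refine ⟨fun x => ((f ((x : GQ) : GQ ⧸ V)).out : D), fun x => Subtype.property _, fun d hd x => ?_, fun x v hv => ?_⟩
  · have h1 : f (((d * x : GQ)) : GQ ⧸ V) = (⟨d, hd⟩ : D) • f ((x : GQ) : GQ ⧸ V) :=
      hf ⟨d, hd⟩ ((x : GQ) : GQ ⧸ V)
    have h2 : (((⟨d, hd⟩ : D) * (f ((x : GQ) : GQ ⧸ V)).out : D) : D ⧸ V.subgroupOf D) =
        ((f (((d * x : GQ)) : GQ ⧸ V)).out : D) := by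
      rw [QuotientGroup.out_eq', h1]
      conv_rhs => rw [← QuotientGroup.out_eq' (f ((x : GQ) : GQ ⧸ V))]
      rfl
    have h3 := QuotientGroup.eq.1 h2
    exact ⟨_, h3, by
      change _ = d * ((f ((x : GQ) : GQ ⧸ V)).out : D) *
        ((d * ((f ((x : GQ) : GQ ⧸ V)).out : D))⁻¹ * ((f (((d * x : GQ)) : GQ ⧸ V)).out : D))
      group⟩
  · have h1 : (((x * v : GQ)) : GQ ⧸ V) = ((x : GQ) : GQ ⧸ V) := by
      rw [QuotientGroup.mk_mul_of_mem x hv]
    beta_reduce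
    rw [h1]

section

variable {k : Type} [Field k] {M : Type} [AddCommGroup M] [Module k M] (ρ : Representation k GQ M)

/-- **Extension of local trivialisations.** -/
theorem loc2_ext {D : Subgroup GQ} {c : GQ → GQ → GQ → M}
    (hce : ∀ d ∈ D, ∀ x y z, c (d * x) (d * y) (d * z) = ρ d (c x y z)) (hd2 : d2 c = 0) {V : Subgroup GQ}
    (hV : V ∈ SL.carrier)
    (hcV : ∀ x y z, ∀ v ∈ V, ∀ v' ∈ V, ∀ v'' ∈ V, c (x * v) (y * v') (z * v'') = c x y z)
    (hρ : ∀ v ∈ V, ∀ m, ρ v m = m) {x' : GQ → M} (hxV : ∀ g ∈ D, ∀ v ∈ V, v ∈ D → x' (g * v) = x' g)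
    (hx : ∀ g ∈ D, ∀ h ∈ D, ρ g (x' h) - x' (g * h) + x' g = c 1 g (g * h)) :
    ∃ E : GQ → GQ → M, (∀ d ∈ D, ∀ x y, E (d * x) (d * y) = ρ d (E x y)) ∧
      (∀ x y, ∀ v ∈ V, ∀ v' ∈ V, E (x * v) (y * v') = E x y) ∧ d1 E = c := by
  have hN := SL.normal V hV
  obtain ⟨r, hr1, hr2, hr3⟩ := exists_retr D hN
  -- the inhomogeneous cochain
  let b : GQ → GQ → M := fun u w => ρ u (x' (u⁻¹ * w))
  have hb1 : ∀ u ∈ D, ∀ w ∈ D, ∀ v ∈ V, v ∈ D → ∀ v' ∈ V, v' ∈ D → b (u * v) (w * v') = b u w := by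
    intro u hu w hw v hv hvD v' hv' hvD'
    change ρ (u * v) (x' ((u * v)⁻¹ * (w * v'))) = ρ u (x' (u⁻¹ * w))
    have e1 : (u * v)⁻¹ * (w * v') = (u⁻¹ * w) * ((u⁻¹ * w)⁻¹ * v⁻¹ * (u⁻¹ * w) * v') := by group
    have huw : u⁻¹ * w ∈ D := mul_mem (inv_mem hu) hw
    rw [e1, hxV _ huw _ (mul_mem (by
      have := hN.conj_mem v⁻¹ (V.inv_mem hv) (u⁻¹ * w)⁻¹
      rwa [inv_inv] at this) hv') (mul_mem (mul_mem (mul_mem (inv_mem huw) (inv_mem hvD)) huw) hvD'),
      map_mul, Module.End.mul_apply, hρ v hv]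
  have hb2 : ∀ d u w, b (d * u) (d * w) = ρ d (b u w) := by
    intro d u w
    change ρ (d * u) (x' ((d * u)⁻¹ * (d * w))) = ρ d (ρ u (x' (u⁻¹ * w)))
    rw [map_mul, Module.End.mul_apply]
    congr 3
    group
  have hb3 : ∀ u ∈ D, ∀ w ∈ D, ∀ t ∈ D, d1 b u w t = c u w t := by
    intro u hu w hw t ht
    have h1 := hx (u⁻¹ * w) (mul_mem (inv_mem hu) hw) (w⁻¹ * t) (mul_mem (inv_mem hw) ht)
    have e1 : u⁻¹ * w * (w⁻¹ * t) = u⁻¹ * t := by group
    rw [e1] at h1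
    have h2 := hce u hu 1 (u⁻¹ * w) (u⁻¹ * t)
    rw [mul_one, mul_inv_cancel_left, mul_inv_cancel_left] at h2
    rw [h2, ← h1, map_add, map_sub, ← Module.End.mul_apply (ρ u) (ρ (u⁻¹ * w)), ← map_mul, mul_inv_cancel_left]
    rfl
  have hrv : ∀ {d x v : GQ}, d ∈ D → r (d * x) = d * r x * v → v ∈ D := by
    intro d x v hd h
    have : v = (r x)⁻¹ * d⁻¹ * r (d * x) := by rw [h]; group
    rw [this]
    exact mul_mem (mul_mem (inv_mem (hr1 x)) (inv_mem hd)) (hr1 _)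
  refine ⟨fun x y => b (r x) (r y) - (c x (r x) (r y) - c x y (r y)), ?_, ?_, ?_⟩
  · intro d hd x y
    obtain ⟨v, hv, hv'⟩ := hr2 d hd x
    obtain ⟨w, hw, hw'⟩ := hr2 d hd y
    have hvD := hrv hd hv'
    have hwD := hrv hd hw'
    beta_reduce
    rw [hv', hw', hb1 _ (mul_mem hd (hr1 x)) _ (mul_mem hd (hr1 y)) v hv hvD w hw hwD, hb2, map_sub, map_sub]
    have e1 : c (d * x) (d * r x * v) (d * r y * w) = ρ d (c x (r x) (r y)) := by
      have := hcV (d * x) (d * r x) (d * r y) 1 (one_mem _) v hv w hw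
      rw [mul_one] at this
      rw [this, hce d hd]
    have e2 : c (d * x) (d * y) (d * r y * w) = ρ d (c x y (r y)) := by
      have := hcV (d * x) (d * y) (d * r y) 1 (one_mem _) 1 (one_mem _) w hw
      rw [mul_one, mul_one] at this
      rw [this, hce d hd]
    rw [e1, e2]
  · intro x y v hv v' hv'
    beta_reduce
    rw [hr3 x v hv, hr3 y v' hv']
    have e1 : c (x * v) (r x) (r y) = c x (r x) (r y) := by
      have := hcV x (r x) (r y) v hv 1 (one_mem _) 1 (one_mem _)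
      rwa [mul_one, mul_one] at this
    have e2 : c (x * v) (y * v') (r y) = c x y (r y) := by
      have := hcV x y (r y) v hv v' hv' 1 (one_mem _)
      rwa [mul_one] at this
    rw [e1, e2]
  · funext x y z
    have hc : ∀ s t u w, c t u w - c s u w + c s t w - c s t u = 0 := fun s t u w =>
      congrFun (congrFun (congrFun (congrFun hd2 s) t) u) w
    have h0 := hb3 (r x) (hr1 x) (r y) (hr1 y) (r z) (hr1 z)
    change b (r y) (r z) - b (r x) (r z) + b (r x) (r y) = _ at h0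
    change (b (r y) (r z) - (c y (r y) (r z) - c y z (r z))) - (b (r x) (r z) - (c x (r x) (r z) - c x z (r z))) +
      (b (r x) (r y) - (c x (r x) (r y) - c x y (r y))) = c x y z
    have h1 := hc x y z (r z)
    have h2 := hc x y (r y) (r z)
    have h3 := hc x (r x) (r y) (r z)
    have h4 : (b (r y) (r z) - (c y (r y) (r z) - c y z (r z))) - (b (r x) (r z) - (c x (r x) (r z) - c x z (r z))) +
      (b (r x) (r y) - (c x (r x) (r y) - c x y (r y))) =
      (b (r y) (r z) - b (r x) (r z) + b (r x) (r y)) - c (r x) (r y) (r z) + c x y z +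
      (c y z (r z) - c x z (r z) + c x y (r z) - c x y z) - (c y (r y) (r z) - c x (r y) (r z) + c x y (r z) -
        c x y (r y)) + (c (r x) (r y) (r z) - c x (r y) (r z) + c x (r x) (r z) - c x (r x) (r y)) := by abel
    rw [h4, h0, h1, h2, h3]
    abel

end

end Fermat.Agent.CFT
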