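import Fermat.Agent.CFT.Cmp6

/-!
# The first Tate–Shafarevich group
-/

set_option autoImplicit false
set_option linter.unusedSectionVars false
set_option linter.unusedVariables false
set_option linter.style.haveILetI false

namespace Fermat.Agent.CFT

open Module groupCohomology ExtCitation CategoryTheory
open scoped Pointwise

variable {S : Finset Nat.Primes} {p : ℕ} [hp : Fact p.Prime] (M : Rep (ZMod p) GQ)

/-- the place of a prime -/
noncomputable def Aq (q : Nat.Primes) : Pl :=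
  haveI : Fact (q : ℕ).Prime := ⟨q.2⟩
  A0 (q : ℕ)

theorem ell_Aq (q : Nat.Primes) : (Aq q).ell = q :=
  haveI : Fact (q : ℕ).Prime := ⟨q.2⟩
  ell_A0 (q : ℕ)

theorem range_primeLocal (q : Nat.Primes) : (primeLocalToGlobal q).range = Dec (Aq q) :=
  haveI : Fact (q : ℕ).Prime := ⟨q.2⟩
  range_loc (q : ℕ)

/-- representatives -/
noncomputable def aq (q : ↥S) : XS (toN S) := ⟨Aq q.1, by
  rw [ell_Aq, mem_toN q.1.2]; exact q.2⟩

theorem aq_cover (b : XS (toN S)) : ∃ q : ↥S, ∃ h : GQ, idG GQ h • aq q = b := by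
  have hb := (mem_toN (b : Pl).ell_prime).1 b.2
  obtain ⟨g, hg⟩ := exists_smul_eq_of_ell (Aq ⟨(b : Pl).ell, (b : Pl).ell_prime⟩) (b : Pl) (by rw [ell_Aq])
  exact ⟨⟨_, hb⟩, g, Subtype.ext hg⟩

theorem aq_disj (i j : ↥S) (h : ∃ h : GQ, idG GQ h • aq i = aq j) : i = j := by
  obtain ⟨g, hg⟩ := h
  have h1 := congrArg (fun a : XS (toN S) => (a : Pl).ell) hg
  change (g • Aq i.1).ell = (Aq j.1).ell at h1
  rw [Pl.ell_smul, ell_Aq, ell_Aq] at h1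
  exact Subtype.ext (Subtype.ext h1)

/-- the localisation map -/
noncomputable abbrev LL (S : Finset Nat.Primes) {p : ℕ} [Fact p.Prime] (M : Rep (ZMod p) GQ) :=
  loc (Sg := SG (toN S)) (Sl := SL) SG_SL (idG GQ) (XS (toN S)) M.ρ

theorem ker_loc_iff (n : ℕ) (z : (CC S M).H n) : (LL S M).H n z = 0 ↔
    ∀ q : ↥S, (ptRes SL (idG GQ) M.ρ (aq q)).H n ((LL S M).H n z) = 0 := by
  classical
  rw [← (orbEquiv SL (idG GQ) M.ρ (aq (S := S)) aq_cover aq_disj n).map_eq_zero_iff, funext_iff]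
  exact Iff.rfl

theorem loc1_iff (F : (CC S M).X 1) (hF : (CC S M).d 1 F = 0) (q : ↥S) :
    (ptRes SL (idG GQ) M.ρ (aq q)).H 1 ((LL S M).H 1 ((CC S M).cl 1 F hF)) = 0 ↔
      ∃ ξ : M, ∀ g ∈ Dec (Aq q.1), inh F g = M.ρ g ξ - ξ := by
  rw [Cx.Hom.H_cl, Cx.Hom.H_cl, Cx.cl_eq_zero]
  have hc := (ptRes SL (idG GQ) M.ρ (aq q)).map_Z ((LL S M).map_Z hF)
  constructor
  · intro h
    obtain ⟨ξ, hξ⟩ := inh_of_mem_B1 h
    exact ⟨ξ, fun g hg => hξ ⟨g, Subtype.ext hg⟩⟩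
  · rintro ⟨ξ, hξ⟩
    exact mem_B1_of_inh hc ξ fun h => hξ h (congrArg Subtype.val h.2)

/-- restriction to a group -/
theorem locRes_iff {Γ : Type} [Group Γ] (r : Γ →* GQ) (c : cocycles₁ M) :
    (groupCohomology.map r (𝟙 (Rep.res r M)) 1).hom ((H1π M).hom c) = 0 ↔
      ∃ ξ : M, ∀ g ∈ r.range, c g = M.ρ g ξ - ξ := by
  have h1 : (groupCohomology.map r (𝟙 (Rep.res r M)) 1).hom ((H1π M).hom c) =
      (H1π (Rep.res r M)).hom (mapCocycles₁ r (𝟙 (Rep.res r M)) c) :=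
    H1π_comp_map_apply r (𝟙 (Rep.res r M)) c
  rw [h1]
  have h2 : (H1π (Rep.res r M)).hom (mapCocycles₁ r (𝟙 (Rep.res r M)) c) = 0 ↔
    ⇑(mapCocycles₁ r (𝟙 (Rep.res r M)) c) ∈ coboundaries₁ (Rep.res r M) := H1π_eq_zero_iff _
  rw [h2]
  constructor
  · rintro ⟨x, hx⟩
    refine ⟨x, ?_⟩
    rintro _ ⟨τ, rfl⟩
    exact (congrFun hx τ).symm
  · rintro ⟨ξ, hξ⟩
    exact ⟨ξ, funext fun τ => (hξ (r τ) ⟨τ, rfl⟩).symm⟩

theorem locRes_arch (hp2 : p ≠ 2) (c : cocycles₁ M) :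
    (groupCohomology.map archimedeanLoc (𝟙 (Rep.res archimedeanLoc M)) 1).hom ((H1π M).hom c) = 0 := by
  rw [locRes_iff]
  obtain ⟨m, hm⟩ := avg1 (card_arch hp2) (Rep.res archimedeanLoc M) (c := fun g => c (archimedeanLoc g))
    (fun g h => by rw [map_mul]; exact (mem_cocycles₁_iff _).1 c.2 _ _)
  refine ⟨m, ?_⟩
  rintro _ ⟨τ, rfl⟩
  exact (hm τ).symm

theorem locTotal_iff (hp2 : p ≠ 2) (c : cocycles₁ M) :
    locTotal (extArithLoc S) M ((H1π M).hom c) = 0 ↔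
      ∀ q : ↥S, ∃ ξ : M, ∀ g ∈ Dec (Aq q.1), c g = M.ρ g ξ - ξ := by
  rw [funext_iff]
  constructor
  · intro h q
    have := (locRes_iff M (primeLocalToGlobal q.1) c).1 (h (Sum.inr q))
    rwa [range_primeLocal] at this
  · rintro h (u | q)
    · exact locRes_arch M hp2 c
    · refine (locRes_iff M (primeLocalToGlobal q.1) c).2 ?_
      rw [range_primeLocal]
      exact h q

theorem ker1_iff (hp2 : p ≠ 2) (z : (CC S M).H 1) : (LL S M).H 1 z = 0 ↔ locTotal (extArithLoc S) M (Ph1 M z) = 0 := by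
  obtain ⟨F, hF, rfl⟩ := Cx.exists_cl _ z
  rw [ker_loc_iff, Ph1_cl, locTotal_iff M hp2]
  exact forall_congr' fun q => loc1_iff M F hF q

theorem sha1_eq (hp2 : p ≠ 2) (hL : HasLevel (SG (toN S)) (idG GQ) M.ρ) :
    sha₁ S M = (LinearMap.ker ((LL S M).H 1)).map (Ph1 (S := S) M) := by
  ext x
  rw [sha₁, Submodule.mem_inf, ← range_Ph1 M hL]
  constructor
  · rintro ⟨⟨z, rfl⟩, h⟩
    exact ⟨z, (ker1_iff M hp2 z).2 h, rfl⟩
  · rintro ⟨z, hz, rfl⟩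
    exact ⟨⟨z, rfl⟩, (ker1_iff M hp2 z).1 hz⟩

/-- **The first Tate–Shafarevich group.** -/
noncomputable def sha1Equiv (hp2 : p ≠ 2) (hL : HasLevel (SG (toN S)) (idG GQ) M.ρ) :
    LinearMap.ker ((LL S M).H 1) ≃ₗ[ZMod p] sha₁ S M :=
  (Submodule.equivMapOfInjective (Ph1 (S := S) M) (Ph1_injective M) _).trans
    (LinearEquiv.ofEq _ _ (sha1_eq M hp2 hL).symm)

end Fermat.Agent.CFT
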