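import Fermat.Agent.CFT.Cmp7

/-!
# The second Tate–Shafarevich group
-/

set_option autoImplicit false
set_option linter.unusedSectionVars false
set_option linter.unusedVariables false
set_option linter.style.haveILetI false

namespace Fermat.Agent.CFT

open Module groupCohomology ExtCitation CategoryTheory
open scoped Pointwise

section

variable {k : Type} [Field k] {G H : Type} [Group G] [Group H] {T : Sys G} {ι : H →* G}
  {M : Type} [AddCommGroup M] [Module k M] {ρ : Representation k H M}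

theorem exists_mk1 {f : G → G → M} (h1 : ∀ h x y, f (ι h * x) (ι h * y) = ρ h (f x y))
    (h2 : ∃ V ∈ T.carrier, ∀ x y, ∀ v ∈ V, ∀ v' ∈ V, f (x * v) (y * v') = f x y) :
    ∃ F : (cochCx T ι ρ Unit).X 1, ∀ x y, cv F () ![x, y] = f x y := by
  obtain ⟨V, hV, h⟩ := h2
  have hl : ∀ {x y : G}, x⁻¹ * y ∈ V → ∃ v ∈ V, y = x * v := fun {x y} h => ⟨_, h, by simp⟩
  refine ⟨mkc (fun _ x => f (x 0) (x 1)) ⟨fun g a x => h1 _ _ _, V, hV, fun a x y hxy => ?_⟩,
    fun x y => rfl⟩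
  beta_reduce
  obtain ⟨v, hv, hv'⟩ := hl (hxy 0)
  obtain ⟨w, hw, hw'⟩ := hl (hxy 1)
  rw [hv', hw', h _ _ v hv w hw]

end

variable {S : Finset Nat.Primes} {p : ℕ} [hp : Fact p.Prime] (M : Rep (ZMod p) GQ)

/-- local triviality -/
def LT (M : Rep (ZMod p) GQ) (D : Subgroup GQ) (c : GQ → GQ → M) : Prop :=
  ∃ x : GQ → M, (∃ V ∈ SL.carrier, ∀ g ∈ D, ∀ v ∈ V, v ∈ D → x (g * v) = x g) ∧
    ∀ g ∈ D, ∀ h ∈ D, M.ρ g (x h) - x (g * h) + x g = c g h

theorem loc2_iff (hL : HasLevel (SG (toN S)) (idG GQ) M.ρ) (F : (CC S M).X 2) (hF : (CC S M).d 2 F = 0)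
    (q : ↥S) : (ptRes SL (idG GQ) M.ρ (aq q)).H 2 ((LL S M).H 2 ((CC S M).cl 2 F hF)) = 0 ↔
      LT M (Dec (Aq q.1)) (inh2 M F) := by
  rw [Cx.Hom.H_cl, Cx.Hom.H_cl, Cx.cl_eq_zero]
  have hmem : ∀ h : GQ, h ∈ Dec (Aq q.1) → h ∈ stb (idG GQ) (aq q) := fun h hh => Subtype.ext hh
  constructor
  · intro h
    obtain ⟨E, hE⟩ := (Cx.mem_B_succ _).1 h
    refine ⟨fun g => cv E () ![1, g], ?_, ?_⟩
    · obtain ⟨V, hV, h⟩ := exists_level1' E
      refine ⟨V, hV, fun g _ v hv _ => ?_⟩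
      have := h () 1 g 1 (one_mem _) v hv
      rwa [one_mul] at this
    · intro g hg h hh
      have h1 := congrFun (congrFun (congrArg cv hE) ()) ![1, g, g * h]
      rw [cv_d_one] at h1
      have h2 := cv_equiv2 E ⟨g, hmem g hg⟩ () 1 h
      change cv E () ![g * 1, g * h] = M.ρ g (cv E () ![1, h]) at h2
      rw [mul_one] at h2
      rw [h2] at h1
      exact h1
  · rintro ⟨x, ⟨V1, hV1, hx1⟩, hx2⟩
    obtain ⟨V2, hV2, hc⟩ := exists_level2 F
    obtain ⟨V3, hV3, hρ⟩ := hL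
    obtain ⟨V2', hV2', hle2⟩ := SG_SL V2 hV2
    obtain ⟨V3', hV3', hle3⟩ := SG_SL V3 hV3
    obtain ⟨W, hW, hWle1, hWle2⟩ := SL.directed V1 hV1 V2' hV2'
    obtain ⟨V, hV, hVle1, hVle2⟩ := SL.directed W hW V3' hV3'
    obtain ⟨E, hE1, hE2, hE3⟩ := loc2_ext M.ρ (D := Dec (Aq q.1)) (c := fun x y z => cv F () ![x, y, z])
      (fun d _ x y z => cv_equiv3 F d () x y z) (by
        funext x y z w
        have h1 := congrFun (congrFun (congrArg cv hF) ()) ![x, y, z, w]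
        rw [cv_d_two] at h1
        exact h1) hV (fun x y z v hv v' hv' v'' hv'' => hc () x y z v (hle2 (hWle2 (hVle1 hv))) v'
          (hle2 (hWle2 (hVle1 hv'))) v'' (hle2 (hWle2 (hVle1 hv''))))
      (fun v hv m => hρ v (hle3 (hVle2 hv)) m) (x' := x) (fun g hg v hv hvD => hx1 g hg v (hWle1 (hVle1 hv)) hvD)
      (fun g hg h hh => hx2 g hg h hh)
    obtain ⟨E', hE'⟩ := exists_mk1 (T := SL) (ι := (idG GQ).comp (stb (idG GQ) (aq q)).subtype)
      (ρ := M.ρ.comp (stb (idG GQ) (aq q)).subtype) (f := E)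
      (fun h x y => hE1 h (congrArg Subtype.val h.2) x y) ⟨V, hV, hE2⟩
    refine (Cx.mem_B_succ _).2 ⟨E', ?_⟩
    apply cv_injective
    funext a x
    have e : x = ![x 0, x 1, x 2] := by funext j; fin_cases j <;> rfl
    rw [e, cv_d_one]
    rw [hE', hE', hE']
    exact congrFun (congrFun (congrFun hE3 (x 0)) (x 1)) (x 2)

/-- restriction to a group -/
theorem locRes₂_iff {Γ : Type} [Group Γ] (r : Γ →* GQ) (c : levelCocyclesS₂ S M) :
    locRes₂S S M r (continuousH2Sπ S M c) = 0 ↔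
      ∃ x : Γ → M, IsLevelConstant₁ r x ∧
        ∀ g h, M.ρ (r g) (x h) - x (g * h) + x g = (c : GQ × GQ → M) (r g, r h) := by
  have h1 : locRes₂S S M r (continuousH2Sπ S M c) = continuousH2π r (Rep.res r M)
    (levelCocycles₂Map (rH := MonoidHom.id _) (rG := r) r (fun _ => rfl)
      (LinearMap.id : M →ₗ[ZMod p] Rep.res r M) (fun _ _ => rfl) (levelCocyclesS₂ToLevelCocycles₂ S M c)) := rfl
  rw [h1, continuousH2π_eq_zero_iff, mem_levelCoboundaries₂_iff]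
  constructor
  · rintro ⟨x, hx, h⟩
    exact ⟨x, hx, fun g h' => congrFun h (g, h')⟩
  · rintro ⟨x, hx, h⟩
    exact ⟨x, hx, funext fun gh => h gh.1 gh.2⟩

theorem locRes₂_iff' {Γ : Type} [Group Γ] (r : Γ →* GQ) (c : levelCocyclesS₂ S M) :
    locRes₂S S M r (continuousH2Sπ S M c) = 0 ↔ LT M r.range (fun g h => (c : GQ × GQ → M) (g, h)) := by
  classical
  rw [locRes₂_iff]
  constructor
  · rintro ⟨x, ⟨F, hF, hx⟩, h⟩
    haveI := hF
    have hex : ∀ g : GQ, ∃ y : M, ∀ τ, r τ = g → x τ = y := fun g => by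
      by_cases hg : ∃ τ, r τ = g
      · obtain ⟨τ, hτ⟩ := hg
        refine ⟨x τ, fun τ' hτ' => ?_⟩
        have h1 := hx τ (τ⁻¹ * τ') (by
          rw [map_mul, map_inv, hτ, hτ', inv_mul_cancel]
          exact one_mem _)
        rwa [mul_inv_cancel_left] at h1
      · exact ⟨0, fun τ hτ => absurd ⟨τ, hτ⟩ hg⟩
    choose x' hx' using hex
    obtain ⟨V, hV, hle⟩ := lvl_of F
    refine ⟨x', ⟨V, hV, ?_⟩, ?_⟩
    · rintro _ ⟨τ, rfl⟩ _ hv ⟨s, rfl⟩
      rw [← map_mul, ← hx' _ (τ * s) rfl, ← hx' _ τ rfl]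
      exact hx τ s (hle hv)
    · rintro _ ⟨τ, rfl⟩ _ ⟨s, rfl⟩
      rw [← map_mul, ← hx' _ (τ * s) rfl, ← hx' _ τ rfl, ← hx' _ s rfl]
      exact h τ s
  · rintro ⟨x, ⟨V, hV, hx⟩, h⟩
    obtain ⟨F, hF, rfl⟩ := lvl_to hV
    refine ⟨fun τ => x (r τ), ⟨F, hF, fun g s hs => ?_⟩, fun g h' => ?_⟩
    · beta_reduce
      rw [map_mul]
      exact hx _ ⟨g, rfl⟩ _ hs ⟨s, rfl⟩
    · beta_reduce
      rw [map_mul]
      exact h _ ⟨g, rfl⟩ _ ⟨h', rfl⟩

theorem locRes₂_arch (hp2 : p ≠ 2) (c : levelCocyclesS₂ S M) :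
    locRes₂S S M archimedeanLoc (continuousH2Sπ S M c) = 0 := by
  rw [locRes₂_iff]
  obtain ⟨x, hx⟩ := avg2 (card_arch hp2) (Rep.res archimedeanLoc M)
    (f := fun gh => (c : GQ × GQ → M) (archimedeanLoc gh.1, archimedeanLoc gh.2))
    (fun g h j => by
      have := (mem_cocycles₂_iff _).1 ((mem_levelCocyclesS₂_iff S M _).1 c.2).1 (archimedeanLoc g)
        (archimedeanLoc h) (archimedeanLoc j)
      rw [← map_mul, ← map_mul] at this
      exact this)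
  obtain ⟨F, hF, hF2⟩ := lvl_arch
  exact ⟨x, ⟨F, hF, fun g s hs => by rw [hF2 s hs, mul_one]⟩, hx⟩

theorem locTotal₂_iff (hp2 : p ≠ 2) (c : levelCocyclesS₂ S M) :
    locTotal₂S S M (continuousH2Sπ S M c) = 0 ↔
      ∀ q : ↥S, LT M (Dec (Aq q.1)) (fun g h => (c : GQ × GQ → M) (g, h)) := by
  rw [funext_iff]
  constructor
  · intro h q
    have := (locRes₂_iff' M (primeLocalToGlobal q.1) c).1 (h (Sum.inr q))
    rwa [range_primeLocal] at this
  · rintro h (u | q)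
    · exact locRes₂_arch M hp2 c
    · refine (locRes₂_iff' M (primeLocalToGlobal q.1) c).2 ?_
      rw [range_primeLocal]
      exact h q

theorem ker2_iff (hp2 : p ≠ 2) (hL : HasLevel (SG (toN S)) (idG GQ) M.ρ) (z : (CC S M).H 2) :
    (LL S M).H 2 z = 0 ↔ locTotal₂S S M (Ph2 M hL z) = 0 := by
  obtain ⟨F, hF, rfl⟩ := Cx.exists_cl _ z
  rw [ker_loc_iff, Ph2_cl, locTotal₂_iff M hp2]
  exact forall_congr' fun q => loc2_iff M hL F hF q

/-- **The second Tate–Shafarevich group.** -/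
noncomputable def sha2Equiv (hp2 : p ≠ 2) (hL : HasLevel (SG (toN S)) (idG GQ) M.ρ) :
    LinearMap.ker ((LL S M).H 2) ≃ₗ[ZMod p] sha₂ S M :=
  (LinearEquiv.ofBijective (Ph2 M hL) ⟨Ph2_injective M hL, Ph2_surjective M hL⟩).submoduleMap _ |>.trans
    (LinearEquiv.ofEq _ _ (by
      ext x
      constructor
      · rintro ⟨z, hz, rfl⟩
        exact (ker2_iff M hp2 hL z).1 hz
      · intro hx
        obtain ⟨z, rfl⟩ := Ph2_surjective M hL x
        exact ⟨z, (ker2_iff M hp2 hL z).2 hx, rfl⟩))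

end Fermat.Agent.CFT
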