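import Fermat.Agent.CFT.Cmp8

/-!
# The duality of Tate–Shafarevich groups
-/

set_option autoImplicit false
set_option linter.unusedSectionVars false
set_option linter.unusedVariables false
set_option linter.style.haveILetI false

namespace Fermat.Agent.CFT

open Module groupCohomology ExtCitation CategoryTheory
open scoped Pointwise

theorem exists_perfect {k V W : Type*} [Field k] [AddCommGroup V] [Module k V] [AddCommGroup W]
    [Module k W] [Module.Finite k V] [Module.Finite k W] (h : finrank k V = finrank k W) :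
    ∃ B : V →ₗ[k] W →ₗ[k] k, (∀ y, (∀ x, B y x = 0) → y = 0) ∧ (∀ x, (∀ y, B y x = 0) → x = 0) := by
  let e : V ≃ₗ[k] Module.Dual k W := LinearEquiv.ofFinrankEq _ _ (by rw [Subspace.dual_finrank_eq, h])
  refine ⟨e.toLinearMap, fun y hy => ?_, fun x hx => ?_⟩
  · exact e.map_eq_zero_iff.1 (LinearMap.ext hy)
  · exact (Module.forall_dual_apply_eq_zero_iff k x).1 fun f => by
      have := hx (e.symm f)
      change e (e.symm f) x = 0 at this
      rwa [e.apply_symm_apply] at this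

variable {p : ℕ} [hp : Fact p.Prime] {S : Finset Nat.Primes}

theorem fin_global (hp2 : p ≠ 2) (hpS : p ∈ toN S) {M : Type} [AddCommGroup M] [Module (ZMod p) M]
    [Module.Finite (ZMod p) M] (ρ : Representation (ZMod p) GQ M) (hρ : HasLevel (SG (toN S)) (idG GQ) ρ) :
    (cochCx (SG (toN S)) (idG GQ) ρ Unit).Fin2 := by
  obtain ⟨K, hK⟩ := exists_goodK (qData hp2 hpS).lev ρ hρ
  exact (q_fin (qData hp2 hpS) ρ hK).1

theorem dualTwist_ρ (M : Rep (ZMod p) GQ) : (M.dualTwist (cycloChar p)).ρ = dl (χQ p) M.ρ := by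
  ext g f x
  rfl

theorem s55 (hp2 : p ≠ 2) (S : Finset Nat.Primes) (hpS : pPrime p ∈ S)
    (M : Rep (ZMod p) GQ) [FiniteDimensional (ZMod p) M]
    (hsm : ∀ m : M, ∃ F : IntermediateField ℚ Qb, FiniteDimensional ℚ F ∧
      ∀ s ∈ F.fixingSubgroup, M.ρ s m = m)
    (hMur : ∀ q : Nat.Primes, q ∉ S → ∀ A : ValuationSubring Qb,
      A.LiesOverPrime (q : ℕ) → ∀ g ∈ A.inertiaSubgroupIn ℚ, M.ρ g = 1) :
    ∃ B : sha₁ S (M.dualTwist (cycloChar p)) →ₗ[ZMod p] sha₂ S M →ₗ[ZMod p] ZMod p,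
      (∀ y, (∀ x, B y x = 0) → y = 0) ∧ (∀ x, (∀ y, B y x = 0) → x = 0) := by
  have hpN : p ∈ toN S := (mem_toN hp.out).2 hpS
  have hL := hasLevel_of M hsm hMur
  have hL' : HasLevel (SG (toN S)) (idG GQ) (dl (χQ p) M.ρ) := HasLevel.dual (qData hp2 hpN).lev hL
  have hL2 : HasLevel (SG (toN S)) (idG GQ) (M.dualTwist (cycloChar p)).ρ := by rw [dualTwist_ρ]; exact hL'
  haveI f2 := fin_global hp2 hpN M.ρ hL 2 le_rfl
  haveI f1 := fin_global hp2 hpN (M.dualTwist (cycloChar p)).ρ hL2 1 (by norm_num)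
  haveI : Module.Finite (ZMod p) (sha₂ S M) := Module.Finite.equiv (sha2Equiv M hp2 hL)
  haveI : Module.Finite (ZMod p) (sha₁ S (M.dualTwist (cycloChar p))) :=
    Module.Finite.equiv (sha1Equiv (M.dualTwist (cycloChar p)) hp2 hL2)
  apply exists_perfect
  rw [← (sha2Equiv M hp2 hL).finrank_eq, ← (sha1Equiv (M.dualTwist (cycloChar p)) hp2 hL2).finrank_eq]
  exact (sha_duality hp2 hpN M.ρ hL).symm

end Fermat.Agent.CFT
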