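import Fermat.Agent.CFT.Cx

/-!
# Smooth homogeneous cochains
-/

set_option autoImplicit false
set_option linter.unusedSectionVars false
set_option linter.unusedVariables false
set_option linter.style.haveILetI false

namespace Fermat.Agent.CFT

open Module

/-- A directed system of normal subgroups of finite index. -/
structure Sys (G : Type*) [Group G] where
  /-- the subgroups -/
  carrier : Set (Subgroup G)
  nonempty : carrier.Nonempty
  normal : ∀ U ∈ carrier, U.Normal
  finiteIndex : ∀ U ∈ carrier, U.FiniteIndex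
  directed : ∀ U ∈ carrier, ∀ V ∈ carrier, ∃ W ∈ carrier, W ≤ U ∧ W ≤ V

/-- Choosing equivariant functions. -/
theorem exists_equivariant {H P M : Type*} [Group H] [MulAction H P] (act : H → M → M)
    (h1 : ∀ m, act 1 m = m) (hmul : ∀ g h m, act (g * h) m = act g (act h m))
    (R : P → M → Prop) (hR : ∀ h y m, R y m → R (h • y) (act h m))
    (hex : ∀ y, ∃ m, R y m ∧ ∀ h : H, h • y = y → act h m = m) :
    ∃ f : P → M, (∀ (h : H) y, f (h • y) = act h (f y)) ∧ ∀ y, R y (f y) := by
  classical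
  choose m hm hst using hex
  let r : P → P := fun y => (Quotient.out (s := MulAction.orbitRel H P) ⟦y⟧)
  have hr : ∀ y, ∃ g : H, g • r y = y := fun y => by
    have : (MulAction.orbitRel H P).r y (r y) :=
      (MulAction.orbitRel H P).symm (Quotient.exact (Quotient.out_eq (s := MulAction.orbitRel H P) ⟦y⟧))
    exact this
  have hrh : ∀ (h : H) y, r (h • y) = r y := fun h y => by
    have : (⟦h • y⟧ : Quotient (MulAction.orbitRel H P)) = ⟦y⟧ :=
      Quotient.sound (s := MulAction.orbitRel H P) ⟨h, rfl⟩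
    simp only [r, this]
  choose g hg using hr
  refine ⟨fun y => act (g y) (m (r y)), fun h y => ?_, fun y => ?_⟩
  · change act (g (h • y)) (m (r (h • y))) = act h (act (g y) (m (r y)))
    rw [hrh, ← hmul]
    have h2 : ((h * g y)⁻¹ * g (h • y)) • r y = r y := by
      rw [mul_smul, inv_smul_eq_iff, mul_smul, hg]
      conv_lhs => rw [← hrh h y]
      exact hg (h • y)
    have h3 := hst (r y) _ h2
    have h4 : g (h • y) = (h * g y) * ((h * g y)⁻¹ * g (h • y)) := by group
    rw [h4, hmul, h3]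
  · have := hR (g y) (r y) (m (r y)) (hm (r y))
    rwa [hg] at this

section

variable {k : Type} [Field k] {G H : Type} [Group G] [Group H]
  {M M' M'' : Type} [AddCommGroup M] [Module k M] [AddCommGroup M'] [Module k M']
  [AddCommGroup M''] [Module k M'']
  (S : Sys G) (ι : H →* G) (ρ : Representation k H M)

/-- Smooth equivariant homogeneous cochains, with values in functions on the `G`-set `X`. -/
def coch (X : Type) [MulAction G X] (n : ℕ) : Submodule k (X → (Fin (n + 1) → G) → M) where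
  carrier := {F | (∀ h a x, F (ι h • a) (fun i => ι h * x i) = ρ h (F a x)) ∧
    ∃ U ∈ S.carrier, ∀ a x y, (∀ i, (x i)⁻¹ * y i ∈ U) → F a x = F a y}
  add_mem' {F F'} hF hF' := by
    refine ⟨fun h a x => by simp [hF.1, hF'.1], ?_⟩
    obtain ⟨-, U, hU, h1⟩ := hF
    obtain ⟨-, V, hV, h2⟩ := hF'
    obtain ⟨W, hW, hWU, hWV⟩ := S.directed U hU V hV
    exact ⟨W, hW, fun a x y hxy => by
      simp only [Pi.add_apply]
      rw [h1 a x y fun i => hWU (hxy i), h2 a x y fun i => hWV (hxy i)]⟩
  zero_mem' := ⟨fun h a x => by simp, S.nonempty.choose, S.nonempty.choose_spec, fun _ _ _ _ => rfl⟩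
  smul_mem' c F hF := by
    refine ⟨fun h a x => by simp [hF.1], ?_⟩
    obtain ⟨-, U, hU, h1⟩ := hF
    exact ⟨U, hU, fun a x y hxy => by simp only [Pi.smul_apply]; rw [h1 a x y hxy]⟩

variable (X : Type) [MulAction G X]

variable {S ι ρ X}

theorem mem_coch {n : ℕ} {F : X → (Fin (n + 1) → G) → M} : F ∈ coch S ι ρ X n ↔
    (∀ h a x, F (ι h • a) (fun i => ι h * x i) = ρ h (F a x)) ∧
    ∃ U ∈ S.carrier, ∀ a x y, (∀ i, (x i)⁻¹ * y i ∈ U) → F a x = F a y := Iff.rfl

/-- The differential on all functions. -/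
def dfun (k : Type) [Field k] (G : Type) (M : Type) [AddCommGroup M] [Module k M] (X : Type)
    (n : ℕ) : (X → (Fin (n + 1) → G) → M) →ₗ[k] (X → (Fin (n + 2) → G) → M) where
  toFun F a x := ∑ i : Fin (n + 2), (-1 : k) ^ (i : ℕ) • F a (fun j => x (i.succAbove j))
  map_add' F F' := by ext a x; simp [Finset.sum_add_distrib]
  map_smul' c F := by
    ext a x
    simp only [Pi.smul_apply, RingHom.id_apply, Finset.smul_sum]
    refine Finset.sum_congr rfl fun i _ => ?_
    rw [smul_comm]

theorem dfun_apply {n : ℕ} (F : X → (Fin (n + 1) → G) → M) (a : X) (x : Fin (n + 2) → G) :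
    dfun k G M X n F a x = ∑ i : Fin (n + 2), (-1 : k) ^ (i : ℕ) • F a (fun j => x (i.succAbove j)) :=
  rfl

theorem dfun_dfun {n : ℕ} (F : X → (Fin (n + 1) → G) → M) :
    dfun k G M X (n + 1) (dfun k G M X n F) = 0 := by
  ext a x
  simp only [dfun_apply, Finset.smul_sum, Pi.zero_apply, smul_smul, ← pow_add]
  rw [← Finset.sum_product' (Finset.univ : Finset (Fin (n + 3)))
    (Finset.univ : Finset (Fin (n + 2))) fun i j => (-1 : k) ^ ((i : ℕ) + (j : ℕ)) •
      F a (fun l => x (i.succAbove (j.succAbove l)))]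
  refine Finset.sum_involution (fun p _ => (p.1.succAbove p.2, p.2.predAbove p.1)) ?_ ?_ ?_ ?_
  · rintro ⟨i, j⟩ -
    simp only [Fin.neg_one_pow_succAbove_add_predAbove, Fin.succAbove_succAbove_succAbove_predAbove,
      neg_smul, add_neg_cancel]
  · rintro ⟨i, j⟩ - - h
    exact Fin.succAbove_ne i j (congrArg Prod.fst h)
  · rintro ⟨i, j⟩ -
    exact Finset.mem_univ _
  · rintro ⟨i, j⟩ -
    simp only [Fin.succAbove_succAbove_predAbove, Prod.mk.injEq, true_and]
    exact Fin.predAbove_predAbove_succAbove i j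

theorem dfun_mem {n : ℕ} {F : X → (Fin (n + 1) → G) → M} (hF : F ∈ coch S ι ρ X n) :
    dfun k G M X n F ∈ coch S ι ρ X (n + 1) := by
  obtain ⟨h1, U, hU, h2⟩ := hF
  refine ⟨fun h a x => ?_, U, hU, fun a x y hxy => ?_⟩
  · simp only [dfun_apply, map_sum, map_smul]
    refine Finset.sum_congr rfl fun i _ => ?_
    rw [← h1]
  · simp only [dfun_apply]
    refine Finset.sum_congr rfl fun i _ => ?_
    rw [h2 a _ _ fun j => hxy _]

variable (S ι ρ X) in
/-- The cochain complex. -/
def cochCx : Cx.{0, 0} k where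
  X n := coch S ι ρ X n
  d n := (dfun k G M X n).restrict fun _ hF => dfun_mem hF
  d_d n F := Subtype.ext (dfun_dfun (F : X → (Fin (n + 1) → G) → M))

/-- the underlying function -/
def cv {n : ℕ} (F : (cochCx S ι ρ X).X n) : X → (Fin (n + 1) → G) → M :=
  (show coch S ι ρ X n from F).1

theorem cv_mem {n : ℕ} (F : (cochCx S ι ρ X).X n) : cv F ∈ coch S ι ρ X n :=
  (show coch S ι ρ X n from F).2

/-- constructor -/
def mkc {n : ℕ} (F : X → (Fin (n + 1) → G) → M) (hF : F ∈ coch S ι ρ X n) :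
    (cochCx S ι ρ X).X n :=
  (⟨F, hF⟩ : coch S ι ρ X n)

@[simp] theorem cv_mkc {n : ℕ} (F : X → (Fin (n + 1) → G) → M) (hF : F ∈ coch S ι ρ X n) :
    cv (mkc F hF) = F := rfl

theorem cv_injective {n : ℕ} : Function.Injective (cv : (cochCx S ι ρ X).X n → _) :=
  fun _ _ h => Subtype.ext h

@[simp] theorem cv_d {n : ℕ} (F : (cochCx S ι ρ X).X n) :
    cv ((cochCx S ι ρ X).d n F) = dfun k G M X n (cv F) := rfl

@[simp] theorem cv_add {n : ℕ} (F F' : (cochCx S ι ρ X).X n) : cv (F + F') = cv F + cv F' := rfl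

@[simp] theorem cv_sub {n : ℕ} (F F' : (cochCx S ι ρ X).X n) : cv (F - F') = cv F - cv F' := rfl

@[simp] theorem cv_neg {n : ℕ} (F : (cochCx S ι ρ X).X n) : cv (-F) = -cv F := rfl

@[simp] theorem cv_smul {n : ℕ} (c : k) (F : (cochCx S ι ρ X).X n) : cv (c • F) = c • cv F := rfl

@[simp] theorem cv_zero {n : ℕ} : cv (0 : (cochCx S ι ρ X).X n) = 0 := rfl

/-- Change of coefficients. -/
def cochMap {ρ' : Representation k H M'} (φ : M →ₗ[k] M') (hφ : ∀ h m, φ (ρ h m) = ρ' h (φ m)) :
    Cx.Hom (cochCx S ι ρ X) (cochCx S ι ρ' X) where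
  f n :=
    { toFun := fun F => mkc (fun a x => φ (cv F a x)) (by
        obtain ⟨h1, U, hU, h2⟩ := cv_mem F
        exact ⟨fun h a x => by simp [h1, hφ], U, hU, fun a x y hxy => congrArg φ (h2 a x y hxy)⟩)
      map_add' := fun F F' => cv_injective (by funext a x; simp)
      map_smul' := fun c F => cv_injective (by funext a x; simp) }
  comm n F := by
    apply cv_injective
    funext a x
    change φ (dfun k G M X n (cv F) a x) = dfun k G M' X n _ a x
    simp only [dfun_apply, map_sum, map_smul]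
    rfl

theorem cv_cochMap {ρ' : Representation k H M'} (φ : M →ₗ[k] M')
    (hφ : ∀ h m, φ (ρ h m) = ρ' h (φ m)) {n : ℕ} (F : (cochCx S ι ρ X).X n) (a : X)
    (x : Fin (n + 1) → G) :
    cv ((cochMap (S := S) (ι := ι) (X := X) φ hφ).f n F) a x = φ (cv F a x) := rfl

/-- The module has a level. -/
def HasLevel (S : Sys G) (ι : H →* G) (ρ : Representation k H M) : Prop :=
  ∃ U ∈ S.carrier, ∀ h, ι h ∈ U → ∀ m, ρ h m = m

theorem cochMap_injective {ρ' : Representation k H M'} (φ : M →ₗ[k] M')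
    (hφ : ∀ h m, φ (ρ h m) = ρ' h (φ m)) (hinj : Function.Injective φ) (n : ℕ) :
    Function.Injective ((cochMap (S := S) (ι := ι) (X := X) φ hφ).f n) := by
  intro F F' h
  apply cv_injective
  funext a x
  exact hinj (congrFun (congrFun (congrArg cv h) a) x)

theorem mk_eq_inv_mul {U : Subgroup G} (g x : G) (y : G ⧸ U) (h : (x : G ⧸ U) = g • y) :
    ((g⁻¹ * x : G) : G ⧸ U) = y := by
  have : ((g⁻¹ * x : G) : G ⧸ U) = g⁻¹ • (x : G ⧸ U) := rfl
  rw [this, h, inv_smul_smul]

theorem mem_of_smul_eq {U : Subgroup G} [hN : U.Normal] (g : G) (y : G ⧸ U) (h : g • y = y) :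
    g ∈ U := by
  obtain ⟨x, rfl⟩ := QuotientGroup.mk_surjective y
  have h1 : ((g * x : G) : G ⧸ U) = (x : G ⧸ U) := h
  rw [eq_comm, QuotientGroup.eq, ← mul_assoc] at h1
  have := hN.conj_mem _ h1 x
  simpa [mul_assoc] using this

theorem cochMap_surjective {ρ' : Representation k H M'} (φ : M →ₗ[k] M')
    (hφ : ∀ h m, φ (ρ h m) = ρ' h (φ m)) (hsurj : Function.Surjective φ) (hlev : HasLevel S ι ρ)
    (n : ℕ) : Function.Surjective ((cochMap (S := S) (ι := ι) (X := X) φ hφ).f n) := by
  intro F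
  obtain ⟨h1, U1, hU1, h2⟩ := cv_mem F
  obtain ⟨U2, hU2, h3⟩ := hlev
  obtain ⟨U, hU, hUU1, hUU2⟩ := S.directed U1 hU1 U2 hU2
  haveI := S.normal U hU
  letI : MulAction H (X × (Fin (n + 1) → G ⧸ U)) :=
    { smul := fun h p => (ι h • p.1, fun i => ι h • p.2 i)
      one_smul := fun p => by
        change (ι 1 • p.1, fun i => ι 1 • p.2 i) = p
        simp
      mul_smul := fun g h p => by
        change (ι (g * h) • p.1, fun i => ι (g * h) • p.2 i) =
          (ι g • ι h • p.1, fun i => ι g • ι h • p.2 i)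
        simp [mul_smul] }
  have hsmul : ∀ (h : H) (p : X × (Fin (n + 1) → G ⧸ U)),
    h • p = (ι h • p.1, fun i => ι h • p.2 i) := fun _ _ => rfl
  obtain ⟨f, hf1, hf2⟩ := exists_equivariant (H := H) (P := X × (Fin (n + 1) → G ⧸ U)) (M := M)
    (fun h m => ρ h m) (by simp) (by simp)
    (fun p m => ∀ x : Fin (n + 1) → G, (∀ i, (x i : G ⧸ U) = p.2 i) → φ m = cv F p.1 x)
    (by
      intro h p m hm x hx
      rw [hφ, hm (fun i => (ι h)⁻¹ * x i) (fun i => mk_eq_inv_mul _ _ _ (hx i)), ← h1]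
      simp [hsmul])
    (by
      intro p
      obtain ⟨x, hx⟩ : ∃ x : Fin (n + 1) → G, ∀ i, (x i : G ⧸ U) = p.2 i :=
        ⟨fun i => (p.2 i).out, fun i => Quotient.out_eq _⟩
      obtain ⟨m, hm⟩ := hsurj (cv F p.1 x)
      refine ⟨m, fun y hy => ?_, fun h hh => ?_⟩
      · rw [hm]
        refine h2 p.1 x y fun i => hUU1 ?_
        rw [← QuotientGroup.eq, hx, hy]
      · exact h3 h (hUU2 (mem_of_smul_eq _ _ (congrFun (congrArg Prod.snd hh) 0))) m)
  refine ⟨mkc (fun a x => f (a, fun i => (x i : G ⧸ U))) ⟨fun h a x => ?_, U, hU, fun a x y hxy => ?_⟩, ?_⟩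
  · rw [← hf1]
    rfl
  · have : (fun i => (x i : G ⧸ U)) = fun i => (y i : G ⧸ U) := by
      funext i
      rw [QuotientGroup.eq]
      exact hxy i
    simp only [this]
  · apply cv_injective
    funext a x
    exact hf2 (a, fun i => (x i : G ⧸ U)) x fun i => rfl

/-- short exact sequences of representations -/
theorem cochSES {ρ' : Representation k H M'} {ρ'' : Representation k H M''} (φ : M →ₗ[k] M')
    (hφ : ∀ h m, φ (ρ h m) = ρ' h (φ m)) (ψ : M' →ₗ[k] M'') (hψ : ∀ h m, ψ (ρ' h m) = ρ'' h (ψ m))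
    (hinj : Function.Injective φ) (hex : ∀ m, ψ m = 0 ↔ ∃ m', φ m' = m)
    (hsurj : Function.Surjective ψ) (hlev : HasLevel S ι ρ') :
    Cx.SES (cochMap (S := S) (ι := ι) (X := X) φ hφ) (cochMap (S := S) (ι := ι) (X := X) ψ hψ) where
  inj n := cochMap_injective φ hφ hinj n
  exact n F := by
    constructor
    · intro h
      have h0 : ∀ a x, ψ (cv F a x) = 0 := fun a x => congrFun (congrFun (congrArg cv h) a) x
      choose F' hF' using fun a x => (hex (cv F a x)).1 (h0 a x)
      obtain ⟨h1, U, hU, h2⟩ := cv_mem F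
      refine ⟨mkc F' ⟨fun h a x => ?_, U, hU, fun a x y hxy => ?_⟩, ?_⟩
      · apply hinj
        rw [hφ, hF', hF', h1]
      · apply hinj
        rw [hF', hF', h2 a x y hxy]
      · apply cv_injective
        funext a x
        exact hF' a x
    · rintro ⟨F', rfl⟩
      apply cv_injective
      funext a x
      exact (hex _).2 ⟨_, rfl⟩
  surj n := cochMap_surjective ψ hψ hsurj hlev n

/-! ### Change of group, system and space -/

/-- restriction to another group, a finer system and another space -/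
def cochRes {S' : Sys G} (hS : ∀ U ∈ S.carrier, ∃ V ∈ S'.carrier, V ≤ U) {H' : Type} [Group H']
    (j : H' →* H) {X' : Type} [MulAction G X'] (p : X' → X)
    (hp : ∀ (g : G) a, p (g • a) = g • p a) :
    Cx.Hom (cochCx S ι ρ X) (cochCx S' (ι.comp j) (ρ.comp j) X') where
  f n :=
    { toFun := fun F => mkc (fun a x => cv F (p a) x) (by
        obtain ⟨h1, U, hU, h2⟩ := cv_mem F
        obtain ⟨V, hV, hVU⟩ := hS U hU
        exact ⟨fun h a x => by
            change cv F (p (ι (j h) • a)) (fun i => ι (j h) * x i) = _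
            rw [hp]
            exact h1 (j h) (p a) x,
          V, hV, fun a x y hxy => h2 (p a) x y fun i => hVU (hxy i)⟩)
      map_add' := fun F F' => cv_injective (by funext a x; simp)
      map_smul' := fun c F => cv_injective (by funext a x; simp) }
  comm n F := cv_injective (by funext a x; rfl)

theorem cv_cochRes {S' : Sys G} (hS : ∀ U ∈ S.carrier, ∃ V ∈ S'.carrier, V ≤ U) {H' : Type}
    [Group H'] (j : H' →* H) {X' : Type} [MulAction G X'] (p : X' → X)
    (hp : ∀ (g : G) a, p (g • a) = g • p a) {n : ℕ} (F : (cochCx S ι ρ X).X n) (a : X')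
    (x : Fin (n + 1) → G) : cv ((cochRes (ι := ι) hS j p hp).f n F) a x = cv F (p a) x := rfl

end

end Fermat.Agent.CFT
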