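import Fermat.Agent.CFT.Cx

/-!
# Truncations and cones
-/

set_option autoImplicit false
set_option linter.unusedSectionVars false
set_option linter.unusedVariables false
set_option linter.style.haveILetI false

namespace Fermat.Agent.CFT

open Module

universe u v

namespace Cx

variable {k : Type u} [Field k]

/-- the submodules defining the truncation in degrees `≤ 2`. -/
def tr (C : Cx.{u, v} k) : (n : ℕ) → Submodule k (C.X n)
  | 0 => ⊤
  | 1 => ⊤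
  | 2 => C.Z 2
  | _ + 3 => ⊥

theorem d_mem_tr (C : Cx.{u, v} k) : ∀ (n : ℕ) (x : C.X n), x ∈ C.tr n → C.d n x ∈ C.tr (n + 1)
  | 0, _, _ => trivial
  | 1, x, _ => C.d_d 1 x
  | 2, x, hx => by
    change C.d 2 x = 0
    exact hx
  | n + 3, x, hx => by
    change x = 0 at hx
    rw [hx, map_zero]
    exact zero_mem _

/-- truncation -/
abbrev trunc (C : Cx.{u, v} k) : Cx.{u, v} k where
  X n := C.tr n
  d n := (C.d n).restrict (C.d_mem_tr n)
  d_d n x := Subtype.ext (C.d_d n x)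

theorem Hom.map_tr {C D : Cx.{u, v} k} (φ : Hom C D) : ∀ (n : ℕ) (x : C.X n), x ∈ C.tr n →
    φ.f n x ∈ D.tr n
  | 0, _, _ => trivial
  | 1, _, _ => trivial
  | 2, x, hx => φ.map_Z hx
  | n + 3, x, hx => by
    change x = 0 at hx
    rw [hx, map_zero]
    exact zero_mem _

/-- truncation of a morphism -/
def Hom.trunc {C D : Cx.{u, v} k} (φ : Hom C D) : Hom C.trunc D.trunc where
  f n := (φ.f n).restrict (φ.map_tr n)
  comm n x := Subtype.ext (φ.comm n x.1)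

theorem SES.trunc {A C D : Cx.{u, v} k} {φ : Hom A C} {ψ : Hom C D} (h : SES φ ψ)
    (h2 : Function.Surjective (ψ.H 2)) : SES φ.trunc ψ.trunc where
  inj n x y hxy := Subtype.ext (h.inj n (congrArg Subtype.val hxy))
  exact n x := by
    constructor
    · intro hx
      obtain ⟨y, hy⟩ := (h.exact n _).1 (congrArg Subtype.val hx)
      have hy' : y ∈ A.tr n := by
        match n, x, y, hy with
        | 0, _, _, _ => trivial
        | 1, _, _, _ => trivial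
        | 2, x, y, hy =>
          apply h.inj 3
          rw [φ.comm, hy, map_zero]
          exact x.2
        | n + 3, x, y, hy =>
          apply h.inj (n + 3)
          rw [hy, map_zero]
          exact x.2
      exact ⟨⟨y, hy'⟩, Subtype.ext hy⟩
    · rintro ⟨y, rfl⟩
      exact Subtype.ext (h.comp_zero n y.1)
  surj n := by
    match n with
    | 0 => exact fun x => (h.surj 0 x.1).imp' (fun y => ⟨y, trivial⟩) fun y hy => Subtype.ext hy
    | 1 => exact fun x => (h.surj 1 x.1).imp' (fun y => ⟨y, trivial⟩) fun y hy => Subtype.ext hy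
    | 2 =>
      rintro ⟨x, hx⟩
      change D.d 2 x = 0 at hx
      obtain ⟨z, hz⟩ := h2 (D.cl 2 x hx)
      obtain ⟨c, hc, rfl⟩ := C.exists_cl z
      rw [Hom.H_cl, cl_eq_iff] at hz
      obtain ⟨y, hy⟩ := hz
      obtain ⟨y', rfl⟩ := h.surj 1 y
      refine ⟨⟨c - C.d 1 y', ?_⟩, Subtype.ext ?_⟩
      · change C.d 2 _ = 0
        rw [map_sub, hc, C.d_d, sub_zero]
      · change ψ.f 2 (c - C.d 1 y') = x
        rw [map_sub, ψ.comm]
        change D.d 1 (ψ.f 1 y') = ψ.f 2 c - x at hy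
        rw [hy]; abel
    | n + 3 =>
      rintro ⟨x, hx⟩
      change x = 0 at hx
      subst hx
      exact ⟨0, map_zero _⟩

/-- (shifted) cone -/
abbrev cone {C L : Cx.{u, v} k} (φ : Hom C L) : Cx.{u, v} k where
  X n := C.X (n + 1) × L.X n
  d n := LinearMap.prod (C.d (n + 1) ∘ₗ LinearMap.fst k _ _)
    (φ.f (n + 1) ∘ₗ LinearMap.fst k _ _ - L.d n ∘ₗ LinearMap.snd k _ _)
  d_d n x := by
    obtain ⟨c, l⟩ := x
    change (C.d (n + 2) (C.d (n + 1) c),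
      φ.f (n + 2) (C.d (n + 1) c) - L.d (n + 1) (φ.f (n + 1) c - L.d n l)) = 0
    rw [C.d_d, map_sub, L.d_d, φ.comm, sub_zero, sub_self]
    rfl

theorem cone_d {C L : Cx.{u, v} k} (φ : Hom C L) (n : ℕ) (c : C.X (n + 1)) (l : L.X n) :
    (cone φ).d n (c, l) = (C.d (n + 1) c, φ.f (n + 1) c - L.d n l) := rfl

/-- morphisms of cones -/
def coneMap {C L C' L' : Cx.{u, v} k} {φ : Hom C L} {φ' : Hom C' L'} (f : Hom C C') (g : Hom L L')
    (hfg : ∀ n x, g.f n (φ.f n x) = φ'.f n (f.f n x)) : Hom (cone φ) (cone φ') where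
  f n := LinearMap.prodMap (f.f (n + 1)) (g.f n)
  comm n x := by
    obtain ⟨c, l⟩ := x
    change (f.f (n + 2) (C.d (n + 1) c), g.f (n + 1) (φ.f (n + 1) c - L.d n l)) =
      (C'.d (n + 1) (f.f (n + 1) c), φ'.f (n + 1) (f.f (n + 1) c) - L'.d n (g.f n l))
    rw [f.comm, map_sub, hfg, g.comm]

theorem SES.cone {A C D A' C' D' : Cx.{u, v} k} {φ : Hom A C} {ψ : Hom C D} (h : SES φ ψ)
    {φ' : Hom A' C'} {ψ' : Hom C' D'} (h' : SES φ' ψ') {a : Hom A A'} {c : Hom C C'} {d : Hom D D'}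
    (h1 : ∀ n x, φ'.f n (a.f n x) = c.f n (φ.f n x))
    (h2 : ∀ n x, ψ'.f n (c.f n x) = d.f n (ψ.f n x)) :
    SES (coneMap (φ := a) (φ' := c) φ φ' h1) (coneMap (φ := c) (φ' := d) ψ ψ' h2) where
  inj n := Prod.map_injective.2 ⟨h.inj _, h'.inj _⟩
  exact n x := by
    obtain ⟨x, y⟩ := x
    change (ψ.f (n + 1) x, ψ'.f n y) = 0 ↔ ∃ z : A.X (n + 1) × A'.X n, (φ.f (n + 1) z.1, φ'.f n z.2) = (x, y)
    rw [Prod.mk_eq_zero, h.exact, h'.exact]
    constructor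
    · rintro ⟨⟨a, rfl⟩, ⟨b, rfl⟩⟩; exact ⟨(a, b), rfl⟩
    · rintro ⟨⟨a, b⟩, h⟩
      exact ⟨⟨a, congrArg Prod.fst h⟩, ⟨b, congrArg Prod.snd h⟩⟩
  surj n := Prod.map_surjective.2 ⟨h.surj _, h'.surj _⟩

/-! ### The complex `T` -/

/-- The truncated cone. Its `H 1` is `T²`, its `H 2` is `T³`. -/
abbrev T {C L : Cx.{u, v} k} (φ : Hom C L) : Cx.{u, v} k := cone φ.trunc

section T

variable {C L : Cx.{u, v} k} (φ : Hom C L)

theorem T_d1 (c : C.tr 2) (l : L.tr 1) : (T φ).d 1 (c, l) = 0 ↔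
    φ.f 2 (c : C.X 2) = L.d 1 (l : L.X 1) := by
  rw [cone_d]
  constructor
  · intro h
    have h2 : φ.f 2 (c : C.X 2) - L.d 1 (l : L.X 1) = 0 := congrArg Subtype.val (congrArg Prod.snd h)
    exact sub_eq_zero.1 h2
  · intro h
    refine Prod.ext (Subtype.ext c.2) (Subtype.ext ?_)
    change φ.f 2 (c : C.X 2) - L.d 1 (l : L.X 1) = 0
    rw [h, sub_self]

theorem T_d2 (z : L.Z 2) : (T φ).d 2 ((0 : C.tr 3), (z : L.tr 2)) = 0 := by
  refine Prod.ext (Subtype.ext ?_) (Subtype.ext ?_)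
  · change C.d 3 0 = 0
    rw [map_zero]
  · change φ.f 3 0 - L.d 2 z = 0
    rw [map_zero, zero_sub, neg_eq_zero]
    exact z.2

/-- `Z²(L) → T³` -/
def toT3 : L.Z 2 →ₗ[k] (T φ).H 2 :=
  (Submodule.mkQ _) ∘ₗ LinearMap.codRestrict _ (LinearMap.inr k (C.tr 3) (L.tr 2))
    (fun z => T_d2 φ z)

theorem toT3_surjective : Function.Surjective (toT3 φ) := by
  intro z
  obtain ⟨⟨c, l⟩, hx, rfl⟩ := (T φ).exists_cl z
  have hc : c = 0 := Subtype.ext c.2
  subst hc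
  exact ⟨l, rfl⟩

theorem ker_toT3 (z : L.Z 2) : toT3 φ z = 0 ↔ ∃ c ∈ C.Z 2, ∃ l, (z : L.X 2) = φ.f 2 c - L.d 1 l := by
  have e : toT3 φ z = (T φ).cl 2 (0, z) (T_d2 φ z) := rfl
  rw [e, cl_eq_zero, mem_B_succ]
  constructor
  · rintro ⟨⟨c, l⟩, h⟩
    rw [cone_d] at h
    exact ⟨c.1, c.2, l.1, (congrArg Subtype.val (congrArg Prod.snd h)).symm⟩
  · rintro ⟨c, hc, l, h⟩
    refine ⟨(⟨c, hc⟩, ⟨l, trivial⟩), ?_⟩
    rw [cone_d]
    exact Prod.ext (Subtype.ext hc) (Subtype.ext h.symm)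

/-- `Z²(L) → coker` -/
def toCk : L.Z 2 →ₗ[k] L.H 2 ⧸ LinearMap.range (φ.H 2) := Submodule.mkQ _ ∘ₗ Submodule.mkQ _

theorem toCk_surjective : Function.Surjective (toCk φ) :=
  (Submodule.mkQ_surjective _).comp (Submodule.mkQ_surjective _)

theorem ker_toCk (z : L.Z 2) : toCk φ z = 0 ↔ ∃ c ∈ C.Z 2, ∃ l, (z : L.X 2) = φ.f 2 c - L.d 1 l := by
  have e : toCk φ z = Submodule.Quotient.mk (L.cl 2 z z.2) := rfl
  rw [e, Submodule.Quotient.mk_eq_zero]
  constructor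
  · rintro ⟨y, hy⟩
    obtain ⟨c, hc, rfl⟩ := C.exists_cl y
    rw [Hom.H_cl, cl_eq_iff] at hy
    obtain ⟨l, hl⟩ := hy
    exact ⟨c, hc, l, by rw [hl]; abel⟩
  · rintro ⟨c, hc, l, h⟩
    refine ⟨C.cl 2 c hc, ?_⟩
    rw [Hom.H_cl, cl_eq_iff]
    exact ⟨l, by rw [h]; abel⟩

/-- `T³` is the cokernel of `H²(C) → H²(L)`. -/
noncomputable def T3Equiv : (T φ).H 2 ≃ₗ[k] L.H 2 ⧸ LinearMap.range (φ.H 2) := by
  have hker : LinearMap.ker (toT3 φ) = LinearMap.ker (toCk φ) := by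
    ext x
    rw [LinearMap.mem_ker, LinearMap.mem_ker, ker_toT3, ker_toCk]
  exact ((toT3 φ).quotKerEquivOfSurjective (toT3_surjective φ)).symm.trans
    ((Submodule.quotEquivOfEq _ _ hker).trans
      ((toCk φ).quotKerEquivOfSurjective (toCk_surjective φ)))

theorem finrank_T3 : finrank k ((T φ).H 2) = φ.ck 2 := (T3Equiv φ).finrank_eq

theorem finite_T3 [Module.Finite k (L.H 2)] : Module.Finite k ((T φ).H 2) :=
  Module.Finite.equiv (T3Equiv φ).symm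

/-- `H¹(L) → T²` -/
def a1 : L.H 1 →ₗ[k] (T φ).H 1 :=
  Submodule.mapQ _ _ (LinearMap.codRestrict _
    (LinearMap.prod (0 : L.Z 1 →ₗ[k] C.tr 2)
      (LinearMap.codRestrict (L.tr 1) (L.Z 1).subtype (fun _ => trivial)))
    (fun z => (T_d1 φ _ _).2 (by
      change φ.f 2 0 = L.d 1 z
      rw [map_zero]
      exact z.2.symm)))
    (fun z hz => by
      change (z : L.X 1) ∈ L.B 1 at hz
      obtain ⟨l, hl⟩ := hz
      change ((0 : C.tr 2), (⟨z, trivial⟩ : L.tr 1)) ∈ (T φ).B 1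
      refine ⟨(⟨0, trivial⟩, ⟨-l, trivial⟩), ?_⟩
      rw [cone_d]
      refine Prod.ext (Subtype.ext ?_) (Subtype.ext ?_)
      · change C.d 1 0 = 0
        rw [map_zero]
      · change φ.f 1 0 - L.d 0 (-l) = z
        rw [map_zero, map_neg, zero_sub, neg_neg, hl])

theorem a1_cl (l : L.X 1) (hl : L.d 1 l = 0) : a1 φ (L.cl 1 l hl) =
    (T φ).cl 1 (0, ⟨l, trivial⟩) ((T_d1 φ _ _).2 (by
      change φ.f 2 0 = L.d 1 l
      rw [map_zero, hl])) := rfl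

theorem ker_a1 : LinearMap.ker (a1 φ) = LinearMap.range (φ.H 1) := by
  ext z
  obtain ⟨l, hl, rfl⟩ := L.exists_cl z
  rw [LinearMap.mem_ker, a1_cl, cl_eq_zero, mem_B_succ]
  constructor
  · rintro ⟨⟨c, l'⟩, h⟩
    rw [cone_d] at h
    have hc : C.d 1 c = 0 := congrArg Subtype.val (congrArg Prod.fst h)
    have h2 : φ.f 1 c - L.d 0 l' = l := congrArg Subtype.val (congrArg Prod.snd h)
    refine ⟨C.cl 1 c hc, ?_⟩
    rw [Hom.H_cl, cl_eq_iff]
    exact ⟨l', by rw [← h2]; abel⟩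
  · rintro ⟨y, hy⟩
    obtain ⟨c, hc, rfl⟩ := C.exists_cl y
    rw [Hom.H_cl, cl_eq_iff] at hy
    obtain ⟨l', hl'⟩ := hy
    refine ⟨(⟨c, trivial⟩, ⟨l', trivial⟩), ?_⟩
    rw [cone_d]
    refine Prod.ext (Subtype.ext hc) (Subtype.ext ?_)
    change φ.f 1 c - L.d 0 l' = l
    rw [hl']; abel

/-- `T² → H²(C)` -/
def b1 : (T φ).H 1 →ₗ[k] C.H 2 :=
  Submodule.mapQ _ _ (LinearMap.codRestrict (C.Z 2)
    ((C.tr 2).subtype ∘ₗ LinearMap.fst k _ _ ∘ₗ ((T φ).Z 1).subtype) (fun z => z.1.1.2))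
    (fun z hz => by
      change (z : (T φ).X 1) ∈ (T φ).B 1 at hz
      obtain ⟨⟨c, l⟩, h⟩ := hz
      exact ⟨c, congrArg Subtype.val (congrArg Prod.fst h)⟩)

theorem b1_cl (c : C.tr 2) (l : L.tr 1) (h : (T φ).d 1 (c, l) = 0) :
    b1 φ ((T φ).cl 1 (c, l) h) = C.cl 2 c c.2 := rfl

theorem ker_b1 : LinearMap.ker (b1 φ) = LinearMap.range (a1 φ) := by
  ext z
  obtain ⟨⟨c, l⟩, h, rfl⟩ := (T φ).exists_cl z
  rw [LinearMap.mem_ker, b1_cl, cl_eq_zero, mem_B_succ]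
  have h' := (T_d1 φ _ _).1 h
  constructor
  · rintro ⟨y, hy⟩
    have h1 : L.d 1 ((l : L.X 1) - φ.f 1 y) = 0 := by
      rw [map_sub, ← h', ← φ.comm, hy, sub_self]
    refine ⟨L.cl 1 (l - φ.f 1 y) h1, ?_⟩
    rw [a1_cl, cl_eq_iff, mem_B_succ]
    refine ⟨(⟨-y, trivial⟩, 0), ?_⟩
    rw [cone_d]
    refine Prod.ext (Subtype.ext ?_) (Subtype.ext ?_)
    · change C.d 1 (-y) = 0 - (c : C.X 2)
      rw [map_neg, hy, zero_sub]
    · change φ.f 1 (-y) - L.d 0 0 = (l - φ.f 1 y) - l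
      rw [map_neg, map_zero]; abel
  · rintro ⟨y, hy⟩
    obtain ⟨l', hl', rfl⟩ := L.exists_cl y
    rw [a1_cl, cl_eq_iff, mem_B_succ] at hy
    obtain ⟨⟨c', l''⟩, h3⟩ := hy
    rw [cone_d] at h3
    have h4 : C.d 1 (c' : C.X 1) = 0 - (c : C.X 2) := congrArg Subtype.val (congrArg Prod.fst h3)
    exact ⟨-c', by rw [map_neg, h4]; abel⟩

theorem range_b1 : LinearMap.range (b1 φ) = LinearMap.ker (φ.H 2) := by
  ext z
  constructor
  · rintro ⟨y, rfl⟩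
    obtain ⟨⟨c, l⟩, h, rfl⟩ := (T φ).exists_cl y
    rw [b1_cl, LinearMap.mem_ker, Hom.H_cl, cl_eq_zero]
    exact ⟨l, ((T_d1 φ _ _).1 h).symm⟩
  · intro hz
    obtain ⟨c, hc, rfl⟩ := C.exists_cl z
    rw [LinearMap.mem_ker, Hom.H_cl, cl_eq_zero, mem_B_succ] at hz
    obtain ⟨l, hl⟩ := hz
    exact ⟨(T φ).cl 1 (⟨c, hc⟩, ⟨l, trivial⟩) ((T_d1 φ _ _).2 hl.symm), rfl⟩

theorem finite_T2 [Module.Finite k (L.H 1)] [Module.Finite k (C.H 2)] :
    Module.Finite k ((T φ).H 1) := by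
  have h1 : Module.Finite k (LinearMap.range (a1 φ)) := inferInstance
  haveI : Module.Finite k (LinearMap.ker (b1 φ)) := by rw [ker_b1]; exact h1
  haveI : Module.Finite k ((T φ).H 1 ⧸ LinearMap.ker (b1 φ)) :=
    Module.Finite.equiv (b1 φ).quotKerEquivRange.symm
  exact Module.Finite.of_submodule_quotient (LinearMap.ker (b1 φ))

/-- The dimension of the kernel on `H²`. -/
noncomputable def Hom.sh (n : ℕ) : ℕ := finrank k (LinearMap.ker (φ.H n))

theorem finrank_T2 [Module.Finite k (L.H 1)] [Module.Finite k (C.H 2)] :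
    finrank k ((T φ).H 1) + φ.rk 1 = finrank k (L.H 1) + φ.sh 2 := by
  haveI := finite_T2 φ
  have h1 := LinearMap.finrank_range_add_finrank_ker (b1 φ)
  rw [range_b1, ker_b1] at h1
  have h2 := LinearMap.finrank_range_add_finrank_ker (a1 φ)
  rw [ker_a1] at h2
  rw [← h1, ← h2, Hom.rk, Hom.sh]
  ring

end T

end Cx

end Fermat.Agent.CFT
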