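import Mathlib

/-!
# Cochain complexes of modules, explicitly
-/

set_option autoImplicit false
set_option linter.unusedSectionVars false
set_option linter.unusedVariables false
set_option linter.style.haveILetI false

namespace Fermat.Agent.CFT

open Module

universe u v

/-- A nonnegatively graded cochain complex of `k`-modules. -/
structure Cx (k : Type u) [Field k] where
  /-- the terms -/
  X : ℕ → Type v
  [acg : ∀ n, AddCommGroup (X n)]
  [mod : ∀ n, Module k (X n)]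
  /-- the differential -/
  d : ∀ n, X n →ₗ[k] X (n + 1)
  d_d : ∀ n x, d (n + 1) (d n x) = 0

attribute [instance] Cx.acg Cx.mod

namespace Cx

variable {k : Type u} [Field k]

section Basic

variable (C : Cx.{u, v} k)

/-- Cocycles. -/
def Z (n : ℕ) : Submodule k (C.X n) := LinearMap.ker (C.d n)

/-- Coboundaries. -/
def B : (n : ℕ) → Submodule k (C.X n)
  | 0 => ⊥
  | n + 1 => LinearMap.range (C.d n)

theorem mem_Z {n : ℕ} {x : C.X n} : x ∈ C.Z n ↔ C.d n x = 0 := Iff.rfl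

theorem mem_B_zero {x : C.X 0} : x ∈ C.B 0 ↔ x = 0 := Iff.rfl

theorem mem_B_succ {n : ℕ} {x : C.X (n + 1)} : x ∈ C.B (n + 1) ↔ ∃ y, C.d n y = x := Iff.rfl

theorem B_le_Z (n : ℕ) : C.B n ≤ C.Z n := by
  cases n with
  | zero => rintro x hx; rw [mem_B_zero] at hx; subst hx; exact zero_mem _
  | succ n => rintro x ⟨y, rfl⟩; exact C.d_d n y

/-- Cohomology. -/
abbrev H (n : ℕ) : Type v := C.Z n ⧸ (C.B n).submoduleOf (C.Z n)

/-- The class of a cocycle. -/
def cl (n : ℕ) (x : C.X n) (hx : C.d n x = 0) : C.H n := Submodule.Quotient.mk ⟨x, hx⟩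

theorem cl_eq_zero {n : ℕ} {x : C.X n} (hx : C.d n x = 0) : C.cl n x hx = 0 ↔ x ∈ C.B n := by
  rw [cl, Submodule.Quotient.mk_eq_zero]
  exact Iff.rfl

theorem exists_cl {n : ℕ} (z : C.H n) : ∃ x hx, C.cl n x hx = z := by
  obtain ⟨⟨x, hx⟩, rfl⟩ := Submodule.Quotient.mk_surjective _ z
  exact ⟨x, hx, rfl⟩

theorem cl_sub {n : ℕ} {x y : C.X n} (hx : C.d n x = 0) (hy : C.d n y = 0) :
    C.cl n x hx - C.cl n y hy = C.cl n (x - y) (by rw [map_sub, hx, hy, sub_zero]) := rfl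

theorem cl_eq_iff {n : ℕ} {x y : C.X n} (hx : C.d n x = 0) (hy : C.d n y = 0) :
    C.cl n x hx = C.cl n y hy ↔ x - y ∈ C.B n := by
  rw [← sub_eq_zero, cl_sub, cl_eq_zero]

end Basic

/-- Morphisms of complexes. -/
structure Hom (C D : Cx.{u, v} k) where
  /-- the components -/
  f : ∀ n, C.X n →ₗ[k] D.X n
  comm : ∀ n x, f (n + 1) (C.d n x) = D.d n (f n x)

namespace Hom

variable {A C D : Cx.{u, v} k}

theorem map_Z (φ : Hom C D) {n : ℕ} {x : C.X n} (hx : C.d n x = 0) : D.d n (φ.f n x) = 0 := by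
  rw [← φ.comm, hx, map_zero]

theorem map_B (φ : Hom C D) {n : ℕ} {x : C.X n} (hx : x ∈ C.B n) : φ.f n x ∈ D.B n := by
  cases n with
  | zero => rw [mem_B_zero] at hx; subst hx; rw [map_zero]; exact zero_mem _
  | succ n => obtain ⟨y, rfl⟩ := hx; exact ⟨φ.f n y, (φ.comm n y).symm⟩

/-- The map on cocycles. -/
def mapZ (φ : Hom C D) (n : ℕ) : C.Z n →ₗ[k] D.Z n :=
  (φ.f n).restrict fun _ hx => φ.map_Z hx

/-- The map on cohomology. -/
def H (φ : Hom C D) (n : ℕ) : C.H n →ₗ[k] D.H n :=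
  Submodule.mapQ _ _ (φ.mapZ n) fun x hx => by
    change (x : C.X n) ∈ C.B n at hx
    exact φ.map_B hx

theorem H_cl (φ : Hom C D) (n : ℕ) (x : C.X n) (hx : C.d n x = 0) :
    φ.H n (C.cl n x hx) = D.cl n (φ.f n x) (φ.map_Z hx) := rfl

/-- Composition. -/
def comp (ψ : Hom A C) (φ : Hom C D) : Hom A D where
  f n := φ.f n ∘ₗ ψ.f n
  comm n x := by simp [φ.comm, ψ.comm]

theorem H_comp (ψ : Hom A C) (φ : Hom C D) (n : ℕ) : (ψ.comp φ).H n = φ.H n ∘ₗ ψ.H n := by
  ext x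
  rfl

/-- The identity. -/
def id (C : Cx.{u, v} k) : Hom C C where
  f n := LinearMap.id
  comm n x := rfl

end Hom

/-- An isomorphism of complexes given by linear equivalences. -/
structure Iso (C D : Cx.{u, v} k) where
  /-- the components -/
  e : ∀ n, C.X n ≃ₗ[k] D.X n
  comm : ∀ n x, e (n + 1) (C.d n x) = D.d n (e n x)

/-- the map of an isomorphism -/
def Iso.hom {C D : Cx.{u, v} k} (e : Iso C D) : Hom C D := ⟨fun n => (e.e n).toLinearMap, e.comm⟩

/-- inverse -/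
def Iso.symm {C D : Cx.{u, v} k} (e : Iso C D) : Iso D C :=
  ⟨fun n => (e.e n).symm, fun n x => by
    rw [LinearEquiv.symm_apply_eq, e.comm, LinearEquiv.apply_symm_apply]⟩

/-- An isomorphism of complexes induces isomorphisms on cohomology. -/
noncomputable def Iso.H {C D : Cx.{u, v} k} (e : Iso C D) (n : ℕ) : C.H n ≃ₗ[k] D.H n :=
  LinearEquiv.ofLinearMap (e.hom.H n) (e.symm.hom.H n)
    (by
      apply LinearMap.ext
      intro z
      obtain ⟨x, hx, rfl⟩ := exists_cl _ z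
      change D.cl n (e.e n ((e.e n).symm x)) _ = D.cl n x hx
      simp)
    (by
      apply LinearMap.ext
      intro z
      obtain ⟨x, hx, rfl⟩ := exists_cl _ z
      change C.cl n ((e.e n).symm (e.e n x)) _ = C.cl n x hx
      simp)

/-- Short exact sequences of complexes. -/
structure SES {A C D : Cx.{u, v} k} (φ : Hom A C) (ψ : Hom C D) : Prop where
  inj : ∀ n, Function.Injective (φ.f n)
  exact : ∀ n x, ψ.f n x = 0 ↔ ∃ y, φ.f n y = x
  surj : ∀ n, Function.Surjective (ψ.f n)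

namespace SES

variable {A C D : Cx.{u, v} k} {φ : Hom A C} {ψ : Hom C D} (h : SES φ ψ)

include h

theorem comp_zero (n : ℕ) (x : A.X n) : ψ.f n (φ.f n x) = 0 := (h.exact n _).2 ⟨x, rfl⟩

theorem H_zero_injective : Function.Injective (φ.H 0) := by
  rw [← LinearMap.ker_eq_bot, eq_bot_iff]
  intro z hz
  obtain ⟨x, hx, rfl⟩ := A.exists_cl z
  rw [LinearMap.mem_ker, Hom.H_cl, cl_eq_zero, mem_B_zero] at hz
  rw [Submodule.mem_bot, cl_eq_zero, mem_B_zero]
  exact h.inj 0 (by rw [hz, map_zero])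

/-- exactness in the middle -/
theorem ker_H (n : ℕ) : LinearMap.ker (ψ.H n) = LinearMap.range (φ.H n) := by
  apply le_antisymm
  · intro z hz
    obtain ⟨x, hx, rfl⟩ := C.exists_cl z
    rw [LinearMap.mem_ker, Hom.H_cl, cl_eq_zero] at hz
    -- reduce to the case `ψ x = 0`
    obtain ⟨x', hx', hcl, hψ⟩ : ∃ x' hx', C.cl n x hx = C.cl n x' hx' ∧ ψ.f n x' = 0 := by
      cases n with
      | zero => exact ⟨x, hx, rfl, hz⟩
      | succ n =>
        obtain ⟨y, hy⟩ := hz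
        obtain ⟨y', rfl⟩ := h.surj n y
        refine ⟨x - C.d n y', by rw [map_sub, hx, C.d_d, sub_zero], ?_, ?_⟩
        · rw [cl_eq_iff, sub_sub_cancel]
          exact ⟨y', rfl⟩
        · rw [map_sub, ψ.comm, hy, sub_self]
    obtain ⟨a, rfl⟩ := (h.exact n x').1 hψ
    have ha : A.d n a = 0 := h.inj (n + 1) (by rw [φ.comm, hx', map_zero])
    exact ⟨A.cl n a ha, by rw [hcl]; rfl⟩
  · rintro _ ⟨z, rfl⟩
    obtain ⟨x, hx, rfl⟩ := A.exists_cl z
    rw [LinearMap.mem_ker, Hom.H_cl, Hom.H_cl, cl_eq_zero, h.comp_zero]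
    exact zero_mem _

/-- The submodule of elements whose image is a cocycle. -/
def Zr (_h : SES φ ψ) (n : ℕ) : Submodule k (C.X n) := (D.Z n).comap (ψ.f n)

omit h in
theorem mem_Zr (h : SES φ ψ) (n : ℕ) (x : C.X n) : x ∈ h.Zr n ↔ D.d n (ψ.f n x) = 0 := Iff.rfl

omit h in
theorem Zr_d (h : SES φ ψ) (n : ℕ) (x : h.Zr n) : C.d n x ∈ LinearMap.range (φ.f (n + 1)) := by
  obtain ⟨x, hx⟩ := x
  rw [mem_Zr] at hx
  exact (h.exact (n + 1) _).1 (by rw [ψ.comm, hx])

/-- The snake map on representatives. -/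
noncomputable def snk (h : SES φ ψ) (n : ℕ) : h.Zr n →ₗ[k] A.H (n + 1) :=
  (Submodule.mkQ _) ∘ₗ LinearMap.codRestrict (A.Z (n + 1))
    ((LinearEquiv.ofInjective (φ.f (n + 1)) (h.inj (n + 1))).symm.toLinearMap ∘ₗ
      LinearMap.codRestrict (LinearMap.range (φ.f (n + 1)))
        (C.d n ∘ₗ (h.Zr n).subtype) (fun x => h.Zr_d n x))
    (fun x => by
      rw [mem_Z]
      apply h.inj (n + 2)
      rw [φ.comm, map_zero, LinearMap.comp_apply, LinearEquiv.coe_coe]
      have := LinearEquiv.ofInjective_symm_apply (f := φ.f (n+1)) (h := h.inj (n+1))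
        (LinearMap.codRestrict (LinearMap.range (φ.f (n + 1)))
        (C.d n ∘ₗ (h.Zr n).subtype) (fun x => h.Zr_d n x) x)
      rw [this]
      exact C.d_d n x)

omit h in
theorem snk_apply (h : SES φ ψ) (n : ℕ) (x : h.Zr n) (a : A.X (n + 1))
    (ha : φ.f (n + 1) a = C.d n x) :
    h.snk n x = A.cl (n + 1) a (h.inj (n + 2) (by rw [φ.comm, ha, C.d_d, map_zero])) := by
  rw [snk, LinearMap.comp_apply]
  change Submodule.Quotient.mk _ = Submodule.Quotient.mk _
  congr 1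
  apply Subtype.ext
  apply h.inj (n + 1)
  rw [ha]
  exact LinearEquiv.ofInjective_symm_apply (f := φ.f (n+1)) (h := h.inj (n+1))
        (LinearMap.codRestrict (LinearMap.range (φ.f (n + 1)))
        (C.d n ∘ₗ (h.Zr n).subtype) (fun x => h.Zr_d n x) x)

omit h in
theorem exists_snk (h : SES φ ψ) (n : ℕ) (x : h.Zr n) :
    ∃ a, φ.f (n + 1) a = C.d n x ∧ ∃ ha, h.snk n x = A.cl (n + 1) a ha := by
  obtain ⟨a, ha⟩ := h.Zr_d n x
  exact ⟨a, ha, _, h.snk_apply n x a ha⟩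

omit h in
theorem ker_snk (h : SES φ ψ) (n : ℕ) (x : h.Zr n) :
    h.snk n x = 0 ↔ ∃ z ∈ C.Z n, ∃ a, (x : C.X n) = z + φ.f n a := by
  obtain ⟨a, ha, ha', hs⟩ := h.exists_snk n x
  rw [hs, cl_eq_zero, mem_B_succ]
  constructor
  · rintro ⟨y, rfl⟩
    refine ⟨x - φ.f n y, ?_, y, by rw [sub_add_cancel]⟩
    rw [mem_Z, map_sub, ← ha, φ.comm, sub_self]
  · rintro ⟨z, hz, y, hy⟩
    refine ⟨y, h.inj (n + 1) ?_⟩
    rw [ha, hy, map_add, (C.mem_Z).1 hz, zero_add, φ.comm]

omit h in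
theorem range_snk (h : SES φ ψ) (n : ℕ) :
    LinearMap.range (h.snk n) = LinearMap.ker (φ.H (n + 1)) := by
  apply le_antisymm
  · rintro _ ⟨x, rfl⟩
    obtain ⟨a, ha, ha', hs⟩ := h.exists_snk n x
    rw [hs, LinearMap.mem_ker, Hom.H_cl, cl_eq_zero, ha]
    exact ⟨_, rfl⟩
  · intro z hz
    obtain ⟨a, ha, rfl⟩ := A.exists_cl z
    rw [LinearMap.mem_ker, Hom.H_cl, cl_eq_zero] at hz
    obtain ⟨y, hy⟩ := hz
    have hy' : y ∈ h.Zr n := by
      rw [mem_Zr, ← ψ.comm, hy, h.comp_zero]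
    exact ⟨⟨y, hy'⟩, h.snk_apply n ⟨y, hy'⟩ a hy.symm⟩

/-- The other side of the snake. -/
noncomputable def coq (h : SES φ ψ) (n : ℕ) :
    h.Zr n →ₗ[k] D.H n ⧸ LinearMap.range (ψ.H n) :=
  (Submodule.mkQ _) ∘ₗ (Submodule.mkQ _) ∘ₗ ((ψ.f n).restrict (fun _ hx => hx))

omit h in
theorem coq_surjective (h : SES φ ψ) (n : ℕ) : Function.Surjective (h.coq n) := by
  intro z
  obtain ⟨z, rfl⟩ := Submodule.Quotient.mk_surjective _ z
  obtain ⟨x, hx, rfl⟩ := D.exists_cl z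
  obtain ⟨y, rfl⟩ := h.surj n x
  exact ⟨⟨y, hx⟩, rfl⟩

omit h in
theorem ker_coq (h : SES φ ψ) (n : ℕ) (x : h.Zr n) :
    h.coq n x = 0 ↔ ∃ z ∈ C.Z n, ∃ a, (x : C.X n) = z + φ.f n a := by
  have e : h.coq n x = Submodule.Quotient.mk (D.cl n (ψ.f n x) x.2) := rfl
  rw [e, Submodule.Quotient.mk_eq_zero]
  constructor
  · rintro ⟨z, hz⟩
    obtain ⟨c, hc, rfl⟩ := C.exists_cl z
    rw [Hom.H_cl, cl_eq_iff] at hz
    -- `ψ c - ψ x` is a coboundary
    obtain ⟨b, hb, hbx⟩ : ∃ b ∈ C.B n, ψ.f n c - ψ.f n x = ψ.f n b := by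
      cases n with
      | zero => exact ⟨0, zero_mem _, by rw [map_zero]; exact hz⟩
      | succ n =>
        obtain ⟨y, hy⟩ := hz
        obtain ⟨y', rfl⟩ := h.surj n y
        exact ⟨C.d n y', ⟨y', rfl⟩, by rw [← hy, ψ.comm]⟩
    have h1 : ψ.f n (x - (c - b)) = 0 := by
      rw [map_sub, map_sub, ← hbx]; abel
    obtain ⟨a, ha⟩ := (h.exact n _).1 h1
    exact ⟨c - b, (C.Z n).sub_mem hc (C.B_le_Z n hb), a, by rw [ha]; abel⟩
  · rintro ⟨z, hz, a, ha⟩
    refine ⟨C.cl n z hz, ?_⟩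
    rw [Hom.H_cl, cl_eq_iff, ha, map_add, h.comp_zero, add_zero, sub_self]
    exact zero_mem _

/-- The snake isomorphism. -/
noncomputable def snakeEquiv (h : SES φ ψ) (n : ℕ) :
    (D.H n ⧸ LinearMap.range (ψ.H n)) ≃ₗ[k] LinearMap.ker (φ.H (n + 1)) := by
  have hker : LinearMap.ker (h.coq n) = LinearMap.ker (h.snk n) := by
    ext x
    rw [LinearMap.mem_ker, LinearMap.mem_ker, h.ker_coq, h.ker_snk]
  exact ((h.coq n).quotKerEquivOfSurjective (h.coq_surjective n)).symm.trans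
    ((Submodule.quotEquivOfEq _ _ hker).trans ((h.snk n).quotKerEquivRange.trans
      (LinearEquiv.ofEq _ _ (h.range_snk n))))

/-! ### Numerical consequences -/

section Num

/-- The rank of the map on cohomology. -/
noncomputable def _root_.Fermat.Agent.CFT.Cx.Hom.rk {A C : Cx.{u, v} k} (φ : Hom A C) (n : ℕ) : ℕ :=
  finrank k (LinearMap.range (φ.H n))

/-- The dimension of the cokernel. -/
noncomputable def _root_.Fermat.Agent.CFT.Cx.Hom.ck {A C : Cx.{u, v} k} (φ : Hom A C) (n : ℕ) : ℕ :=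
  finrank k (C.H n ⧸ LinearMap.range (φ.H n))

theorem fin_mid {n : ℕ} [Module.Finite k (A.H n)] [Module.Finite k (D.H n)] :
    Module.Finite k (C.H n) := by
  have h1 : Module.Finite k (LinearMap.range (φ.H n)) := inferInstance
  have h2 : Module.Finite k (LinearMap.ker (ψ.H n)) := by rw [h.ker_H]; exact h1
  have h3 : Module.Finite k (LinearMap.range (ψ.H n)) := inferInstance
  haveI : Module.Finite k (C.H n ⧸ LinearMap.ker (ψ.H n)) :=
    Module.Finite.equiv (ψ.H n).quotKerEquivRange.symm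
  exact Module.Finite.of_submodule_quotient (LinearMap.ker (ψ.H n))

theorem fin_right {n : ℕ} [Module.Finite k (C.H n)] [Module.Finite k (A.H (n + 1))] :
    Module.Finite k (D.H n) := by
  haveI : Module.Finite k (D.H n ⧸ LinearMap.range (ψ.H n)) :=
    Module.Finite.equiv (h.snakeEquiv n).symm
  exact Module.Finite.of_submodule_quotient (LinearMap.range (ψ.H n))

theorem fin_left {n : ℕ} [Module.Finite k (D.H n)] [Module.Finite k (C.H (n + 1))] :
    Module.Finite k (A.H (n + 1)) := by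
  haveI : Module.Finite k (LinearMap.ker (φ.H (n + 1))) :=
    Module.Finite.equiv (h.snakeEquiv n)
  haveI : Module.Finite k (A.H (n + 1) ⧸ LinearMap.ker (φ.H (n + 1))) :=
    Module.Finite.equiv (φ.H (n + 1)).quotKerEquivRange.symm
  exact Module.Finite.of_submodule_quotient (LinearMap.ker (φ.H (n + 1)))

theorem fin_left_zero [Module.Finite k (C.H 0)] : Module.Finite k (A.H 0) :=
  Module.Finite.of_injective _ h.H_zero_injective

theorem rk_zero : φ.rk 0 = finrank k (A.H 0) :=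
  LinearMap.finrank_range_of_inj h.H_zero_injective

theorem rk_mid (n : ℕ) [Module.Finite k (C.H n)] :
    finrank k (C.H n) = φ.rk n + ψ.rk n := by
  have h1 := LinearMap.finrank_range_add_finrank_ker (ψ.H n)
  rw [h.ker_H] at h1
  rw [← h1, add_comm]
  rfl

theorem rk_right (n : ℕ) [Module.Finite k (D.H n)] :
    finrank k (D.H n) = ψ.rk n + ψ.ck n := by
  have h1 := Submodule.finrank_quotient_add_finrank (LinearMap.range (ψ.H n))
  rw [← h1, add_comm]
  rfl

theorem rk_left (n : ℕ) [Module.Finite k (A.H (n + 1))] :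
    finrank k (A.H (n + 1)) = φ.rk (n + 1) + ψ.ck n := by
  have h1 := LinearMap.finrank_range_add_finrank_ker (φ.H (n + 1))
  rw [← (h.snakeEquiv n).finrank_eq] at h1
  exact h1.symm

end Num

end SES

theorem Hom.ck_eq_zero_iff {C D : Cx.{u, v} k} (ψ : Hom C D) (n : ℕ) [Module.Finite k (D.H n)] :
    ψ.ck n = 0 ↔ Function.Surjective (ψ.H n) := by
  rw [← LinearMap.range_eq_top, Hom.ck, Module.finrank_eq_zero_iff_of_free]
  exact Submodule.Quotient.subsingleton_iff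

end Cx

end Fermat.Agent.CFT
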