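import Fermat.Agent.CFT.Loc5

/-!
# Cyclic extensions
-/

set_option autoImplicit false
set_option linter.unusedSectionVars false
set_option linter.unusedVariables false
set_option linter.style.haveILetI false

namespace Fermat.Agent.CFT

open Module

/-- The Galois action on the multiplicative group. -/
noncomputable def ac : GQ →* AddMonoid.End Ma where
  toFun g := (Units.map (g : Qb →* Qb)).toAdditive
  map_one' := by ext x; rfl
  map_mul' g h := by ext x; rfl

@[simp] theorem vl_ac (g : GQ) (x : Ma) : vl (ac g x) = g (vl x) := rfl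

theorem ac_mul (g h : GQ) (x : Ma) : ac (g * h) x = ac g (ac h x) := rfl

theorem ac_one (x : Ma) : ac 1 x = x := rfl

theorem ac_inv_ac (g : GQ) (x : Ma) : ac g⁻¹ (ac g x) = x := by
  rw [← ac_mul, inv_mul_cancel, ac_one]

theorem ac_ac_inv (g : GQ) (x : Ma) : ac g (ac g⁻¹ x) = x := by
  rw [← ac_mul, mul_inv_cancel, ac_one]

theorem mem_FA' {V : Subgroup GQ} {x : Ma} : x ∈ FA V ↔ ∀ g ∈ V, ac g x = x :=
  forall₂_congr fun g _ => by rw [← vl_inj, vl_ac]

/-- A cyclic pair of subgroups. -/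
structure Cyc (m : ℕ) (W W' : Subgroup GQ) (σ : GQ) : Prop where
  pos : 0 < m
  le : W' ≤ W
  conj : ∀ w ∈ W, ∀ u ∈ W', w * u * w⁻¹ ∈ W'
  mem : σ ∈ W
  gen : ∀ w ∈ W, ∃ i : ℕ, i < m ∧ (σ ^ i)⁻¹ * w ∈ W'
  pow : ∀ i : ℕ, σ ^ i ∈ W' ↔ m ∣ i

namespace Cyc

variable {m : ℕ} {W W' : Subgroup GQ} {σ : GQ} (h : Cyc m W W' σ)

include h

theorem relIndex : W'.relIndex W = m := by
  rw [Subgroup.relIndex, Subgroup.index]
  have e : Fin m ≃ W ⧸ W'.subgroupOf W := by
    refine Equiv.ofBijective (fun i => ((⟨σ ^ (i : ℕ), pow_mem h.mem _⟩ : W) : W ⧸ W'.subgroupOf W))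
      ⟨fun i j hij => ?_, fun q => ?_⟩
    · have h1 := QuotientGroup.eq.1 hij
      have h2 : (σ ^ (i : ℕ))⁻¹ * σ ^ (j : ℕ) ∈ W' := h1
      rcases le_total (i : ℕ) j with hle | hle
      · have h3 : (σ ^ (i : ℕ))⁻¹ * σ ^ (j : ℕ) = σ ^ ((j : ℕ) - i) := by
          rw [pow_sub σ hle]
          exact ((Commute.refl σ).pow_pow _ _).inv_left.eq
        rw [h3, h.pow] at h2
        have h4 := Nat.eq_zero_of_dvd_of_lt h2 (lt_of_le_of_lt (Nat.sub_le _ _) j.2)
        exact Fin.ext (by omega)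
      · have h3 : (σ ^ (i : ℕ))⁻¹ * σ ^ (j : ℕ) = (σ ^ ((i : ℕ) - j))⁻¹ := by
          rw [pow_sub σ hle, mul_inv_rev, inv_inv]
          exact ((Commute.refl σ).pow_pow _ _).inv_left.eq
        rw [h3, inv_mem_iff, h.pow] at h2
        have h4 := Nat.eq_zero_of_dvd_of_lt h2 (lt_of_le_of_lt (Nat.sub_le _ _) i.2)
        exact Fin.ext (by omega)
    · obtain ⟨w, rfl⟩ := QuotientGroup.mk_surjective q
      obtain ⟨i, hi, hi'⟩ := h.gen w w.2
      refine ⟨⟨i, hi⟩, QuotientGroup.eq.2 ?_⟩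
      exact hi'
  rw [← Nat.card_congr e, Nat.card_eq_fintype_card, Fintype.card_fin]

theorem conj_inv' {g : GQ} (hg : g ∈ W) : ∀ u ∈ W', g⁻¹ * u * g ∈ W' := fun u hu => by
  have := h.conj g⁻¹ (inv_mem hg) u hu
  rwa [inv_inv] at this

theorem ac_mem {x : Ma} (hx : x ∈ FA W') {g : GQ} (hg : g ∈ W) : ac g x ∈ FA W' := by
  rw [mem_FA'] at hx ⊢
  intro u hu
  have h1 : g⁻¹ * u * g ∈ W' := by
    have := h.conj g⁻¹ (inv_mem hg) u hu
    rwa [inv_inv] at this
  have h2 := hx _ h1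
  rw [← ac_mul]
  have h3 : u * g = g * (g⁻¹ * u * g) := by group
  rw [h3, ac_mul, h2]

/-- the action of the generator -/
noncomputable def sg (h : Cyc m W W' σ) : AddMonoid.End (FA W') :=
  (((ac σ : AddMonoid.End Ma) : Ma →+ Ma).comp (FA W').subtype).codRestrict (FA W')
    (fun x => h.ac_mem x.2 h.mem)

theorem coe_sg (x : FA W') : ((h.sg x : FA W') : Ma) = ac σ x := rfl

theorem coe_sg_pow (i : ℕ) (x : FA W') : (((h.sg ^ i : AddMonoid.End (FA W')) x : FA W') : Ma) =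
    ac (σ ^ i) x := by
  induction i generalizing x with
  | zero => rfl
  | succ i ih =>
    rw [pow_succ, pow_succ]
    change (((h.sg ^ i : AddMonoid.End (FA W')) (h.sg x) : FA W') : Ma) = _
    rw [ih, coe_sg, ac_mul]

theorem sg_pow : h.sg ^ m = 1 := by
  ext x
  rw [coe_sg_pow]
  exact congrArg _ (mem_FA'.1 x.2 _ ((h.pow m).2 dvd_rfl))

theorem mem_ker_dif {x : FA W'} : x ∈ (dif h.sg).ker ↔ (x : Ma) ∈ FA W := by
  rw [AddMonoidHom.mem_ker, dif_apply, sub_eq_zero]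
  constructor
  · intro hx
    rw [mem_FA']
    intro w hw
    obtain ⟨i, hi, hi'⟩ := h.gen w hw
    have h1 : w = σ ^ i * ((σ ^ i)⁻¹ * w) := by group
    have h2 : ∀ i : ℕ, ac (σ ^ i) (x : Ma) = x := by
      intro i
      induction i with
      | zero => rfl
      | succ i ih =>
        rw [pow_succ, ac_mul]
        have h3 : ac σ (x : Ma) = x := congrArg Subtype.val hx
        rw [h3, ih]
    rw [h1, ac_mul, mem_FA'.1 x.2 _ hi', h2]
  · intro hx
    exact Subtype.ext (mem_FA'.1 hx σ h.mem)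

/-- the kernel is the group of `W`-fixed elements -/
noncomputable def kerEquiv : (dif h.sg).ker ≃+ FA W where
  toFun x := ⟨(x : FA W'), h.mem_ker_dif.1 x.2⟩
  invFun y := ⟨⟨y, mem_FA'.2 fun u hu => mem_FA'.1 y.2 u (h.le hu)⟩, h.mem_ker_dif.2 y.2⟩
  left_inv x := rfl
  right_inv x := rfl
  map_add' x y := rfl

/-- **Hilbert 90** -/
theorem h90 (hcl : IsClosed (W' : Set GQ)) (x : FA W') (hx : nrm m h.sg x = 0) :
    ∃ y : FA W', dif h.sg y = x := by
  classical
  -- partial norms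
  let c : ℕ → Qb := fun i => vl ((∑ j ∈ Finset.range i, (h.sg ^ j : AddMonoid.End (FA W')) x : FA W') : Ma)
  have hc0 : c 0 = 1 := by simp [c]
  have hcs : ∀ i, c (i + 1) = vl (x : Ma) * σ (c i) := by
    intro i
    have h1 : (∑ j ∈ Finset.range (i + 1), (h.sg ^ j : AddMonoid.End (FA W')) x) =
        x + h.sg (∑ j ∈ Finset.range i, (h.sg ^ j : AddMonoid.End (FA W')) x) := by
      rw [Finset.sum_range_succ', add_comm, map_sum]
      congr 1
      refine Finset.sum_congr rfl fun j _ => ?_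
      rw [pow_succ']; rfl
    change vl ((∑ j ∈ Finset.range (i + 1), (h.sg ^ j : AddMonoid.End (FA W')) x : FA W') : Ma) = _
    rw [h1, AddSubgroup.coe_add, vl_add, coe_sg, vl_ac]
  have hcm : c m = 1 := by
    rw [nrm_apply] at hx
    change vl ((∑ j ∈ Finset.range m, (h.sg ^ j : AddMonoid.End (FA W')) x : FA W') : Ma) = 1
    rw [hx]; rfl
  -- characters
  let F := IntermediateField.fixedField W'
  have hfix : F.fixingSubgroup = W' := fixing_fixed hcl
  let χ : Fin m → F →* Qb := fun i => ((σ ^ (i : ℕ) : GQ) : Qb →* Qb).comp (algebraMap F Qb : F →* Qb)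
  have hχ : Function.Injective χ := by
    intro i j hij
    have key : ∀ a b : ℕ, a ≤ b → (∀ t : F, (σ ^ a : GQ) (t : Qb) = (σ ^ b : GQ) (t : Qb)) → m ∣ b - a := by
      intro a b hab ht
      rw [← h.pow, ← hfix, IntermediateField.mem_fixingSubgroup_iff]
      intro t htF
      have h1 := ht ⟨t, htF⟩
      have h2 : (σ ^ b : GQ) = σ ^ a * σ ^ (b - a) := by rw [← pow_add]; congr 1; omega
      rw [h2] at h1
      exact (σ ^ a : GQ).injective h1.symm
    have hij' : ∀ t : F, (σ ^ (i : ℕ) : GQ) (t : Qb) = (σ ^ (j : ℕ) : GQ) (t : Qb) :=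
      fun t => congrArg (fun f : F →* Qb => f t) hij
    rcases le_total (i : ℕ) j with hle | hle
    · have h4 := Nat.eq_zero_of_dvd_of_lt (key _ _ hle hij') (lt_of_le_of_lt (Nat.sub_le _ _) j.2)
      exact Fin.ext (by omega)
    · have h4 := Nat.eq_zero_of_dvd_of_lt (key _ _ hle fun t => (hij' t).symm)
        (lt_of_le_of_lt (Nat.sub_le _ _) i.2)
      exact Fin.ext (by omega)
  have hli := (linearIndependent_monoidHom F Qb).comp χ hχ
  rw [Fintype.linearIndependent_iff] at hli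
  obtain ⟨t, ht⟩ : ∃ t : F, ∑ i : Fin m, c i * (σ ^ (i : ℕ) : GQ) (t : Qb) ≠ 0 := by
    by_contra hcon
    push Not at hcon
    have h1 := hli (fun i => c i) (by
      funext t
      have := hcon t
      simpa [χ] using this) ⟨0, h.pos⟩
    rw [hc0] at h1
    exact one_ne_zero h1
  set y : Qb := ∑ i : Fin m, c i * (σ ^ (i : ℕ) : GQ) (t : Qb) with hy
  have hyr : y = ∑ i ∈ Finset.range m, c i * (σ ^ i : GQ) (t : Qb) := by
    rw [hy, Finset.sum_range]
  have hcfix : ∀ i, ∀ u ∈ W', u (c i) = c i := fun i u hu =>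
    mem_FA.1 ((∑ j ∈ Finset.range i, (h.sg ^ j : AddMonoid.End (FA W')) x : FA W')).2 u hu
  have htfix : ∀ u ∈ W', u (t : Qb) = t := fun u hu => t.2 ⟨u, hu⟩
  have htσ : ∀ i : ℕ, ∀ u ∈ W', u ((σ ^ i : GQ) (t : Qb)) = (σ ^ i : GQ) (t : Qb) := by
    intro i u hu
    have h1 : (σ ^ i : GQ)⁻¹ * u * σ ^ i ∈ W' := by
      have := h.conj (σ ^ i)⁻¹ (inv_mem (pow_mem h.mem i)) u hu
      rwa [inv_inv] at this
    have h2 := htfix _ h1
    have h3 : u * σ ^ i = σ ^ i * ((σ ^ i)⁻¹ * u * σ ^ i) := by group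
    calc u ((σ ^ i : GQ) (t : Qb)) = (u * σ ^ i) (t : Qb) := rfl
      _ = (σ ^ i : GQ) (((σ ^ i)⁻¹ * u * σ ^ i : GQ) (t : Qb)) := by rw [h3]; rfl
      _ = _ := by rw [h2]
  have hyfix : ∀ u ∈ W', u y = y := fun u hu => by
    rw [hyr, map_sum]
    refine Finset.sum_congr rfl fun i _ => ?_
    rw [map_mul, hcfix i u hu, htσ i u hu]
  have hσy : vl (x : Ma) * σ y = y := by
    have h1 : vl (x : Ma) * σ y = ∑ i ∈ Finset.range m, c (i + 1) * (σ ^ (i + 1) : GQ) (t : Qb) := by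
      rw [hyr, map_sum, Finset.mul_sum]
      refine Finset.sum_congr rfl fun i _ => ?_
      rw [map_mul, hcs, pow_succ', mul_assoc]
      rfl
    have h2 : (σ ^ m : GQ) (t : Qb) = t := htfix _ ((h.pow m).2 dvd_rfl)
    have h3 := Finset.sum_range_succ (fun i => c i * (σ ^ i : GQ) (t : Qb)) m
    have h4 := Finset.sum_range_succ' (fun i => c i * (σ ^ i : GQ) (t : Qb)) m
    simp only [hcm, h2] at h3
    simp only [hc0, pow_zero] at h4
    rw [h3] at h4
    have h5 : (1 : GQ) (t : Qb) = t := rfl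
    rw [h5] at h4
    have h6 := add_right_cancel h4
    rw [h1, hyr, h6]
  refine ⟨-⟨mk0 y ht, mem_FA.2 fun u hu => hyfix u hu⟩, ?_⟩
  apply Subtype.ext
  apply vl_inj.1
  rw [dif_apply, AddSubgroup.coe_sub, vl_sub, map_neg, AddSubgroup.coe_neg, AddSubgroup.coe_neg,
    vl_neg, vl_neg, coe_sg, vl_ac, vl_mk0]
  have hσy0 : σ y ≠ 0 := (_root_.map_ne_zero _).2 ht
  field_simp
  exact hσy.symm.trans (mul_comm _ _)

end Cyc

end Fermat.Agent.CFT
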