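import Fermat.Agent.CFT.Loc1

/-!
# Closed subgroups of the Galois group and degrees
-/

set_option autoImplicit false
set_option linter.unusedSectionVars false
set_option linter.unusedVariables false
set_option linter.style.haveILetI false

namespace Fermat.Agent.CFT

open scoped Pointwise
open Fermat.Agent.Places Polynomial

/-- decomposition groups -/
noncomputable def Dec (A : Pl) : Subgroup GQ := MulAction.stabilizer GQ A

theorem mem_Dec {A : Pl} {g : GQ} : g ∈ Dec A ↔ g • A = A := Iff.rfl

theorem isOpen_fix (x : Qb) (y : Qb) : IsOpen {g : GQ | g x = y} := by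
  rw [isOpen_iff_mem_nhds]
  intro g hg
  have h := (krullTopology_mem_nhds_one_iff_of_normal ℚ Qb
    ((MulAction.stabilizer GQ x : Subgroup GQ) : Set GQ)).2 (by
      obtain ⟨E, h1, h2, h3⟩ := exists_normal x
      refine ⟨E, h1, h2, fun u hu => ?_⟩
      exact (IntermediateField.mem_fixingSubgroup_iff _ _).1 hu x h3)
  have h2 : (fun u => g⁻¹ * u) ⁻¹' ((MulAction.stabilizer GQ x : Subgroup GQ) : Set GQ) ∈ nhds g := by
    refine (continuous_const_mul g⁻¹).continuousAt.preimage_mem_nhds ?_
    rwa [inv_mul_cancel]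
  refine Filter.mem_of_superset h2 fun u hu => ?_
  have h3 : (g⁻¹ * u) x = x := hu
  change u x = y
  have h4 : g ((g⁻¹ * u) x) = u x := g.apply_symm_apply (u x)
  rw [← h4, h3]
  exact hg

theorem isClosed_Dec (A : Pl) : IsClosed (Dec A : Set GQ) := by
  rw [← isOpen_compl_iff, isOpen_iff_mem_nhds]
  intro g hg
  have hg' : g • A ≠ A := hg
  -- some element distinguishes
  have h1 : ∃ x : Qb, ¬ (x ∈ A.v ↔ g x ∈ A.v) := by
    by_contra hcon
    push Not at hcon
    apply hg'
    apply Pl.ext
    rw [coe_smul_Pl]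
    ext x
    rw [mem_smul_iff]
    have := hcon (g⁻¹ x)
    have h2 : g (g⁻¹ x) = x := g.apply_symm_apply x
    rw [h2] at this
    exact this
  obtain ⟨x, hx⟩ := h1
  refine Filter.mem_of_superset ((isOpen_fix x (g x)).mem_nhds rfl) fun u hu huD => hx ?_
  have h3 : u • A = A := huD
  have h4 : u x ∈ (u • A).v ↔ x ∈ A.v := by
    rw [coe_smul_Pl, mem_smul_iff]
    have : u⁻¹ • u x = x := u.symm_apply_apply x
    rw [this]
  rw [h3] at h4
  rw [← h4, show u x = g x from hu]

/-- Relatively open subgroups of decomposition groups. -/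
structure IsLoc (A : Pl) (V : Subgroup GQ) : Prop where
  le : V ≤ Dec A
  op : ∃ N : Subgroup GQ, IsOpen (N : Set GQ) ∧ Dec A ⊓ N ≤ V

theorem isLoc_Dec (A : Pl) : IsLoc A (Dec A) := ⟨le_rfl, ⊤, isOpen_univ, inf_le_left⟩

theorem finiteIndex_of_isOpen {N : Subgroup GQ} (hN : IsOpen (N : Set GQ)) : N.FiniteIndex := by
  obtain ⟨E, h1, h2, h3⟩ := (krullTopology_mem_nhds_one_iff_of_normal ℚ Qb (N : Set GQ)).1
    (hN.mem_nhds (one_mem N))
  haveI := h1
  exact Subgroup.finiteIndex_of_le (H := E.fixingSubgroup) h3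

theorem IsLoc.relIndex {A : Pl} {V : Subgroup GQ} (h : IsLoc A V) : V.relIndex (Dec A) ≠ 0 := by
  obtain ⟨N, hN, hle⟩ := h.op
  haveI := finiteIndex_of_isOpen hN
  have h1 : N.relIndex (Dec A) ≠ 0 := Subgroup.FiniteIndex.index_ne_zero
  rw [← Subgroup.inf_relIndex_left, inf_comm] at h1
  rw [inf_comm] at h1
  exact fun h0 => h1 (Subgroup.relIndex_eq_zero_of_le_left hle h0)

theorem IsLoc.isClosed {A : Pl} {V : Subgroup GQ} (h : IsLoc A V) : IsClosed (V : Set GQ) := by
  obtain ⟨N, hN, hle⟩ := h.op
  rw [← isOpen_compl_iff, isOpen_iff_mem_nhds]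
  intro g hg
  by_cases hgD : g ∈ Dec A
  · have h1 : (fun u => g⁻¹ * u) ⁻¹' (N : Set GQ) ∈ nhds g := by
      refine (continuous_const_mul g⁻¹).continuousAt.preimage_mem_nhds ?_
      rw [inv_mul_cancel]
      exact hN.mem_nhds (one_mem N)
    refine Filter.mem_of_superset h1 fun u hu huV => hg ?_
    have h2 : g⁻¹ * u ∈ V := hle (Subgroup.mem_inf.2
      ⟨(Dec A).mul_mem ((Dec A).inv_mem hgD) (h.le huV), hu⟩)
    have h3 : u * (g⁻¹ * u)⁻¹ ∈ V := V.mul_mem huV (V.inv_mem h2)
    simpa using h3
  · refine Filter.mem_of_superset ((isClosed_Dec A).isOpen_compl.mem_nhds hgD) fun u hu huV => ?_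
    exact hu (h.le huV)

theorem fixing_fixed {V : Subgroup GQ} (h : IsClosed (V : Set GQ)) :
    (IntermediateField.fixedField V).fixingSubgroup = V :=
  InfiniteGalois.fixingSubgroup_fixedField ⟨V, h⟩

section Rel

variable {D V : Subgroup GQ} (hle : V ≤ D)

include hle in
theorem fixedField_le : IntermediateField.fixedField D ≤ IntermediateField.fixedField V :=
  fun x hx g => hx ⟨g, hle g.2⟩

/-- The larger field over the smaller one. -/
noncomputable abbrev extF : IntermediateField (IntermediateField.fixedField D) Qb :=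
  IntermediateField.extendScalars (fixedField_le hle)

theorem finrank_extF (hD : IsClosed (D : Set GQ)) (hV : IsClosed (V : Set GQ)) :
    Module.finrank (IntermediateField.fixedField D) (extF hle) = V.relIndex D := by
  rw [IntermediateField.finrank_eq_fixingSubgroup_index Qb (extF hle)]
  set K0 := IntermediateField.fixedField D
  let e := IntermediateField.fixingSubgroupEquiv K0
  have h1 : (extF hle).fixingSubgroup.index =
      ((extF hle).fixingSubgroup.comap e.toMonoidHom).index :=
    (Subgroup.index_comap_of_surjective _ e.surjective).symm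
  rw [h1]
  have h2 : (extF hle).fixingSubgroup.comap e.toMonoidHom = V.subgroupOf K0.fixingSubgroup := by
    ext g
    rw [Subgroup.mem_comap, Subgroup.mem_subgroupOf, IntermediateField.mem_fixingSubgroup_iff]
    conv_rhs => rw [← fixing_fixed hV, IntermediateField.mem_fixingSubgroup_iff]
    exact Iff.rfl
  rw [h2, ← Subgroup.relIndex, fixing_fixed hD]

end Rel

end Fermat.Agent.CFT
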