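import Fermat.Agent.CFT.Euler

/-!
# Right exact functions on representations of `p`-groups
-/

set_option autoImplicit false
set_option linter.unusedSectionVars false
set_option linter.unusedVariables false
set_option linter.style.haveILetI false

namespace Fermat.Agent.CFT

open Module

section

variable {p : ℕ} [Fact p.Prime] {G H : Type} [Group G] [Group H] {S : Sys G} {ι : H →* G}

section

variable {k : Type} [Field k] {M : Type} [AddCommGroup M] [Module k M] (U : Subgroup H)
  (ρ : Representation k H M)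

open Classical in
/-- delta function -/
noncomputable def ciDelta {A : Type} [AddCommGroup A] [Module k A] (τ : Representation k U A)
    (m : A) : CI U τ :=
  ⟨fun h => if hh : h ∈ U then τ ⟨h, hh⟩ m else 0, fun u h => by
    by_cases hh : h ∈ U
    · have h1 : (U.subtype u) * h ∈ U := U.mul_mem u.2 hh
      dsimp only
      rw [dif_pos hh, dif_pos h1, ← Module.End.mul_apply, ← map_mul]
      rfl
    · have h1 : ¬ (U.subtype u) * h ∈ U := fun h2 => hh ((U.mul_mem_cancel_left u.2).1 h2)
      dsimp only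
      rw [dif_neg hh, dif_neg h1, map_zero]⟩

theorem ciDelta_one {A : Type} [AddCommGroup A] [Module k A] (τ : Representation k U A)
    (m : A) (h : H) (hh : h ∈ U) : (ciDelta U τ m : H → A) h = τ ⟨h, hh⟩ m := dif_pos hh

theorem ciDelta_not {A : Type} [AddCommGroup A] [Module k A] (τ : Representation k U A)
    (m : A) (h : H) (hh : h ∉ U) : (ciDelta U τ m : H → A) h = 0 := dif_neg hh

theorem ciTr_delta [U.FiniteIndex] (m : M) : ciTr U ρ (ciDelta U (ρ.comp U.subtype) m) = m := by
  classical
  letI := Fintype.ofFinite (RC U)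
  rw [ciTr_apply, Finset.sum_eq_single (⟦1⟧ : RC U)]
  · have := ciTr_aux' U ρ (ciDelta U (ρ.comp U.subtype) m) 1
    change ρ (Quotient.out (s := QuotientGroup.rightRel U) ⟦1⟧)⁻¹ _ = m
    rw [this, ciDelta_one U _ m 1 (one_mem U)]
    simp
  · intro q _ hq
    rw [ciDelta_not, map_zero]
    intro hqU
    apply hq
    rw [← Quotient.out_eq q]
    apply Quotient.sound
    change QuotientGroup.rightRel U _ _
    rw [QuotientGroup.rightRel_apply]
    simpa using hqU
  · intro h; exact absurd (Finset.mem_univ _) h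

/-- functoriality of coinduction -/
def ciMap {A B : Type} [AddCommGroup A] [Module k A] [AddCommGroup B] [Module k B]
    (τ : Representation k U A) (σ : Representation k U B) (φ : A →ₗ[k] B)
    (hφ : ∀ u a, φ (τ u a) = σ u (φ a)) : CI U τ →ₗ[k] CI U σ where
  toFun f := ⟨fun h => φ ((f : H → A) h), fun u h => by
    have := CI_apply U τ f u h
    change φ ((f : H → A) (u * h)) = _
    rw [this, hφ]⟩
  map_add' f g := Subtype.ext (by funext h; simp)
  map_smul' c f := Subtype.ext (by funext h; simp)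

theorem ciMap_apply {A B : Type} [AddCommGroup A] [Module k A] [AddCommGroup B] [Module k B]
    (τ : Representation k U A) (σ : Representation k U B) (φ : A →ₗ[k] B)
    (hφ : ∀ u a, φ (τ u a) = σ u (φ a)) (f : CI U τ) (h : H) :
    ((ciMap U τ σ φ hφ f : CI U σ) : H → B) h = φ ((f : H → A) h) := rfl

theorem ciMap_equiv {A B : Type} [AddCommGroup A] [Module k A] [AddCommGroup B] [Module k B]
    (τ : Representation k U A) (σ : Representation k U B) (φ : A →ₗ[k] B)
    (hφ : ∀ u a, φ (τ u a) = σ u (φ a)) (h : H) (f : CI U τ) :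
    ciMap U τ σ φ hφ (ci U τ h f) = ci U σ h (ciMap U τ σ φ hφ f) := rfl

theorem ciMap_delta {A B : Type} [AddCommGroup A] [Module k A] [AddCommGroup B] [Module k B]
    (τ : Representation k U A) (σ : Representation k U B) (φ : A →ₗ[k] B)
    (hφ : ∀ u a, φ (τ u a) = σ u (φ a)) (m : A) :
    ciMap U τ σ φ hφ (ciDelta U τ m) = ciDelta U σ (φ m) := by
  apply Subtype.ext
  funext h
  rw [ciMap_apply]
  by_cases hh : h ∈ U
  · rw [ciDelta_one U _ _ _ hh, ciDelta_one U _ _ _ hh, hφ]
  · rw [ciDelta_not U _ _ _ hh, ciDelta_not U _ _ _ hh, map_zero]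

end

section

variable {M : Type} [AddCommGroup M] [Module (ZMod p) M] [Module.Finite (ZMod p) M]

/-- joint surjectivity of linearly independent functionals -/
theorem exists_dual_vectors (W : Submodule (ZMod p) (M →ₗ[ZMod p] ZMod p))
    (b : Basis (Fin (finrank (ZMod p) W)) (ZMod p) W) :
    ∃ e : Fin (finrank (ZMod p) W) → M, ∀ i j, (b i : M →ₗ[ZMod p] ZMod p) (e j) =
      if i = j then 1 else 0 := by
  let ev : M →ₗ[ZMod p] Module.Dual (ZMod p) W :=
    { toFun := fun m => { toFun := fun f => (f : M →ₗ[ZMod p] ZMod p) m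
                          map_add' := fun _ _ => rfl
                          map_smul' := fun _ _ => rfl }
      map_add' := fun x y => by ext f; simp
      map_smul' := fun c x => by ext f; simp }
  have hsurj : Function.Surjective ev := by
    rw [← LinearMap.range_eq_top]
    by_contra hne
    obtain ⟨Φ, hΦ0, hΦ⟩ := Submodule.exists_le_ker_of_lt_top _ (lt_top_iff_ne_top.2 hne)
    obtain ⟨f, rfl⟩ := (Module.evalEquiv (ZMod p) W).surjective Φ
    apply hΦ0
    have : f = 0 := by
      apply Subtype.ext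
      ext m
      exact hΦ ⟨m, rfl⟩
    rw [this, map_zero]
  choose e he using fun j => hsurj (b.coord j)
  refine ⟨e, fun i j => ?_⟩
  have : (b i : M →ₗ[ZMod p] ZMod p) (e j) = ev (e j) (b i) := rfl
  rw [this, he, Basis.coord_apply, Basis.repr_self, Finsupp.single_apply]

variable {U : Subgroup H} (hU : PO S ι p U) (ρ : Representation (ZMod p) H M) (hρ : TrivOn U ρ)

include hU hρ

/-- A representation is a quotient of a coinduced representation with as many generators as
there are invariant functionals. -/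
theorem exists_ci_surj : ∃ φ : CI U (Representation.trivial (ZMod p) U
      (Fin (finrank (ZMod p) (invFun ρ)) → ZMod p)) →ₗ[ZMod p] M,
    (∀ h x, φ (ci U _ h x) = ρ h (φ x)) ∧ Function.Surjective φ := by
  classical
  haveI := hU.normal
  haveI := hU.finiteIndex
  haveI : Finite M := Module.finite_of_finite (ZMod p)
  obtain ⟨m, hm⟩ := hU.index
  let b := finBasis (ZMod p) (invFun ρ)
  obtain ⟨e, he⟩ := exists_dual_vectors (invFun ρ) b
  let φ₀ : (Fin (finrank (ZMod p) (invFun ρ)) → ZMod p) →ₗ[ZMod p] M :=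
    Fintype.linearCombination (ZMod p) e
  have hφ₀ : ∀ (u : U) (a : Fin (finrank (ZMod p) (invFun ρ)) → ZMod p),
    φ₀ (Representation.trivial (ZMod p) U _ u a) = (ρ.comp U.subtype) u (φ₀ a) := fun u a => by
    rw [Representation.trivial_apply]
    exact (hρ u u.2 _).symm
  refine ⟨ciTr U ρ ∘ₗ ciMap U _ _ φ₀ hφ₀, fun h x => ?_, ?_⟩
  · rw [LinearMap.comp_apply, ciMap_equiv, ciTr_equiv]
    rfl
  · set Φ := ciTr U ρ ∘ₗ ciMap U _ _ φ₀ hφ₀ with hΦ
    have hmem : ∀ j, e j ∈ LinearMap.range Φ := fun j => by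
      refine ⟨ciDelta U _ (Pi.single j 1), ?_⟩
      rw [hΦ, LinearMap.comp_apply, ciMap_delta, ciTr_delta]
      simp [φ₀, Fintype.linearCombination_apply_single]
    rw [← LinearMap.range_eq_top]
    by_contra hne
    have hW : ∀ g, LinearMap.range Φ ≤ (LinearMap.range Φ).comap (ρ g) := fun g => by
      rintro _ ⟨x, rfl⟩
      refine ⟨ci U _ g x, ?_⟩
      rw [hΦ, LinearMap.comp_apply, ciMap_equiv, ciTr_equiv]
      rfl
    have hQ : TrivOn U (ρ.quotient (LinearMap.range Φ) hW) := fun u hu y => by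
      obtain ⟨y, rfl⟩ := Submodule.Quotient.mk_surjective _ y
      change Submodule.Quotient.mk (ρ u y) = _
      rw [hρ u hu]
    haveI : Nontrivial (M ⧸ LinearMap.range Φ) := Submodule.Quotient.nontrivial_iff.2 hne
    haveI : Finite (M ⧸ LinearMap.range Φ) := Module.finite_of_finite (ZMod p)
    obtain ⟨f, hf, hf0⟩ := exists_invFun (ρ.quotient (LinearMap.range Φ) hW) (hQ.unip hm)
    have hg : f ∘ₗ (LinearMap.range Φ).mkQ ∈ invFun ρ := fun h x => by
      have := hf h (Submodule.Quotient.mk x)
      exact this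
    have h0 : (⟨_, hg⟩ : invFun ρ) = 0 := by
      rw [← b.sum_repr ⟨_, hg⟩]
      apply Finset.sum_eq_zero
      intro j _
      have h1 : (f ∘ₗ (LinearMap.range Φ).mkQ) (e j) = 0 := by
        rw [LinearMap.comp_apply, Submodule.mkQ_apply,
          (Submodule.Quotient.mk_eq_zero _).2 (hmem j), map_zero]
      have h2 : (f ∘ₗ (LinearMap.range Φ).mkQ) (e j) = b.repr ⟨_, hg⟩ j := by
        conv_lhs => rw [show f ∘ₗ (LinearMap.range Φ).mkQ =
          ((⟨_, hg⟩ : invFun ρ) : M →ₗ[ZMod p] ZMod p) from rfl, ← b.sum_repr ⟨_, hg⟩]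
        simp only [AddSubmonoidClass.coe_finsetSum, LinearMap.sum_apply, SetLike.val_smul,
          LinearMap.smul_apply, he, smul_eq_mul]
        simp
      rw [← h2, h1, zero_smul]
    apply hf0
    ext x
    have := congrArg (fun g : invFun ρ => (g : M →ₗ[ZMod p] ZMod p) x) h0
    exact this

omit hU hρ in
/-- the maximal trivial quotient -/
theorem exists_triv_surj : ∃ φ : M →ₗ[ZMod p] (Fin (finrank (ZMod p) (invFun ρ)) → ZMod p),
    (∀ h x, φ (ρ h x) = φ x) ∧ Function.Surjective φ := by
  classical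
  let b := finBasis (ZMod p) (invFun ρ)
  obtain ⟨e, he⟩ := exists_dual_vectors (invFun ρ) b
  refine ⟨LinearMap.pi fun j => (b j : M →ₗ[ZMod p] ZMod p), fun h x => ?_, fun c => ?_⟩
  · funext j
    exact (b j).2 h x
  · refine ⟨∑ j, c j • e j, ?_⟩
    funext i
    simp [he]

/-- Right exact functions with values `≤ 1` on the regular representation and `≥ 1` on the
trivial one. -/
theorem dimF (F : ∀ (M : Type) [AddCommGroup M] [Module (ZMod p) M],
      Representation (ZMod p) H M → ℕ)
    (mono : ∀ (M M' : Type) [AddCommGroup M] [Module (ZMod p) M] [AddCommGroup M']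
      [Module (ZMod p) M'] [Module.Finite (ZMod p) M] [Module.Finite (ZMod p) M']
      (ρ : Representation (ZMod p) H M) (ρ' : Representation (ZMod p) H M')
      (φ : M →ₗ[ZMod p] M'), TrivOn U ρ → (∀ h x, φ (ρ h x) = ρ' h (φ x)) →
      Function.Surjective φ → F M' ρ' ≤ F M ρ)
    (hci : ∀ (W : Type) [AddCommGroup W] [Module (ZMod p) W] [Module.Finite (ZMod p) W],
      F (CI U (Representation.trivial (ZMod p) U W)) (ci U (Representation.trivial (ZMod p) U W)) ≤
        finrank (ZMod p) W)
    (htr : ∀ (W : Type) [AddCommGroup W] [Module (ZMod p) W] [Module.Finite (ZMod p) W],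
      finrank (ZMod p) W ≤ F W (Representation.trivial (ZMod p) H W)) :
    F M ρ = finrank (ZMod p) (invFun ρ) := by
  haveI := hU.normal
  haveI := hU.finiteIndex
  apply le_antisymm
  · obtain ⟨φ, hφ, hs⟩ := exists_ci_surj hU ρ hρ
    refine (mono _ _ _ ρ φ (trivOn_ci hU.normal) hφ hs).trans ((hci _).trans ?_)
    rw [Module.finrank_fin_fun]
  · obtain ⟨φ, hφ, hs⟩ := exists_triv_surj ρ
    refine le_trans ?_ (mono _ _ ρ (Representation.trivial (ZMod p) H _) φ hρ hφ hs)
    refine le_trans ?_ (htr _)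
    rw [Module.finrank_fin_fun]

end

/-- `h²` over local groups -/
theorem h2_eq {a : ℤ} (hB : BaseHyp S ι p a) (h2 : ∀ U : Subgroup H, PO S ι p U → (tc S ι p U).h 2 = 1)
    {M : Type} [AddCommGroup M] [Module (ZMod p) M] [Module.Finite (ZMod p) M]
    {U : Subgroup H} (hU : PO S ι p U) (ρ : Representation (ZMod p) H M) (hρ : TrivOn U ρ) :
    (cochCx S ι ρ Unit).h 2 = finrank (ZMod p) (invFun ρ) := by
  refine dimF hU ρ hρ (fun M _ _ ρ => (cochCx S ι ρ Unit).h 2) ?_ ?_ ?_
  · intro M M' _ _ _ _ _ _ ρ ρ' φ hρ hφ hs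
    have h1 := H2_surjective hB hU ρ hρ ρ' φ hφ hs
    haveI := (chi_eq hB hU ρ hρ).1 2 le_rfl
    exact LinearMap.finrank_le_finrank_of_surjective h1
  · intro W _ _ _
    rw [ci_h (hB U hU).1 le_rfl, h2 U hU, mul_one]
  · intro W _ _ _
    rw [topIso.h_eq]
    have := ((triv_num (M := W) (hB ⊤ PO.top).1).2 2).resolve_right (by norm_num)
    rw [this, h2 ⊤ PO.top, mul_one]

end

end Fermat.Agent.CFT
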