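import Fermat.Agent.CFT.Glob

/-!
# `h¹` of the dual is at most `t²`
-/

set_option autoImplicit false
set_option linter.unusedSectionVars false
set_option linter.unusedVariables false
set_option linter.style.haveILetI false

namespace Fermat.Agent.CFT

open Module

section Psi

variable {k : Type} [Field k] {H M : Type} [Group H] [AddCommGroup M] [Module k M]
  (U : Subgroup H) [U.FiniteIndex] (ρ : Representation k H M)

/-- The functional attached to a cocycle which is trivial on `U`. -/
noncomputable def psi (f : H → (M →ₗ[k] k)) : CI U (ρ.comp U.subtype) →ₗ[k] k :=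
  letI := Fintype.ofFinite (RC U)
  { toFun := fun φ => ∑ q : RC U, f q.out⁻¹ (ρ q.out⁻¹ ((φ : H → M) q.out))
    map_add' := fun φ φ' => by simp [Finset.sum_add_distrib]
    map_smul' := fun c φ => by simp [Finset.mul_sum] }

theorem psi_apply [Fintype (RC U)] (f : H → (M →ₗ[k] k)) (φ : CI U (ρ.comp U.subtype)) :
    psi U ρ f φ = ∑ q : RC U, f q.out⁻¹ (ρ q.out⁻¹ ((φ : H → M) q.out)) := by
  rw [psi]
  change Finset.sum _ _ = _
  congr!

variable {f : H → (M →ₗ[k] k)} (hf : ∀ g h, f (g * h) = f g + dl (χ1 k H) ρ g (f h))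
  (hfU : ∀ u ∈ U, f u = 0)

include hf hfU

theorem psi_aux (s : H → M) (hs : ∀ (u : U) h, s (u * h) = ρ u (s h)) (h : H) :
    f (Quotient.out (s := QuotientGroup.rightRel U) ⟦h⟧)⁻¹
      (ρ (Quotient.out (s := QuotientGroup.rightRel U) ⟦h⟧)⁻¹
        (s (Quotient.out (s := QuotientGroup.rightRel U) ⟦h⟧))) =
    f h⁻¹ (ρ h⁻¹ (s h)) := by
  have h1 := mul_out_inv_mem U h
  set q := Quotient.out (s := QuotientGroup.rightRel U) ⟦h⟧
  have h2 : h = ((⟨_, h1⟩ : U) : H) * q := by simp
  have h3 : s h = ρ (h * q⁻¹) (s q) := by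
    conv_lhs => rw [h2]
    exact hs ⟨_, h1⟩ q
  have h4 : h⁻¹ = q⁻¹ * (h * q⁻¹)⁻¹ := by group
  have h5 : f h⁻¹ = f q⁻¹ := by
    rw [h4, hf, hfU _ (inv_mem h1), map_zero, add_zero]
  rw [h5, h3, ← Module.End.mul_apply, ← map_mul]
  congr 3
  group

theorem psi_equiv (h : H) (φ : CI U (ρ.comp U.subtype)) :
    psi U ρ f (ci U _ h φ) = psi U ρ f φ + f h (ρ h (ciTr U ρ φ)) := by
  letI := Fintype.ofFinite (RC U)
  rw [psi_apply, psi_apply, ciTr_apply, map_sum, map_sum, ← Finset.sum_add_distrib]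
  refine Fintype.sum_equiv (rcMul U h) _ _ fun q => ?_
  induction q using Quotient.inductionOn' with
  | h x =>
    change f (Quotient.out (s := QuotientGroup.rightRel U) ⟦x⟧)⁻¹
        (ρ (Quotient.out (s := QuotientGroup.rightRel U) ⟦x⟧)⁻¹
        ((φ : H → M) (Quotient.out (s := QuotientGroup.rightRel U) ⟦x⟧ * h))) =
      f (Quotient.out (s := QuotientGroup.rightRel U) ⟦x * h⟧)⁻¹
        (ρ (Quotient.out (s := QuotientGroup.rightRel U) ⟦x * h⟧)⁻¹
        ((φ : H → M) (Quotient.out (s := QuotientGroup.rightRel U) ⟦x * h⟧))) +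
      f h (ρ h (ρ (Quotient.out (s := QuotientGroup.rightRel U) ⟦x * h⟧)⁻¹
        ((φ : H → M) (Quotient.out (s := QuotientGroup.rightRel U) ⟦x * h⟧))))
    rw [psi_aux U ρ hf hfU (fun y => (φ : H → M) (y * h)) (fun u y => by
        rw [mul_assoc]; exact CI_apply U _ φ u (y * h)) x,
      psi_aux U ρ hf hfU (φ : H → M) (fun u y => CI_apply U _ φ u y) (x * h),
      ciTr_aux' U ρ φ (x * h)]
    have h1 : x⁻¹ = h * (x * h)⁻¹ := by group
    rw [h1, hf, LinearMap.add_apply, dl_apply, Representation.trivial_apply, add_comm]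
    congr 1
    · congr 1
      rw [← Module.End.mul_apply, ← map_mul]
      congr 2
      group
    · rw [← Module.End.mul_apply (ρ h), ← map_mul]

end Psi

section

variable {p : ℕ} [Fact p.Prime] {G H : Type} [Group G] [Group H] {Sg Sl : Sys G}
  {ι : H →* G}

/-- Killing finitely many classes by an open subgroup. -/
theorem exists_kill {M : Type} [AddCommGroup M] [Module (ZMod p) M] [Module.Finite (ZMod p) M]
    {U : Subgroup H} (hU : PO Sg ι p U) (ρ : Representation (ZMod p) H M) (hρ : TrivOn U ρ)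
    {J : Type} [Finite J] (F : J → (cochCx Sg ι ρ Unit).X 1)
    (hF : ∀ j, (cochCx Sg ι ρ Unit).d 1 (F j) = 0) :
    ∃ U' : Subgroup H, PO Sg ι p U' ∧ U' ≤ U ∧ ∀ u ∈ U', ∀ j, inh (F j) u = 0 := by
  haveI hN := hU.normal
  haveI := hU.finiteIndex
  haveI : Finite M := Module.finite_of_finite (ZMod p)
  let U' : Subgroup H :=
    { carrier := {u | u ∈ U ∧ ∀ j, inh (F j) u = 0}
      mul_mem' := fun {a b} ha hb => ⟨mul_mem ha.1 hb.1, fun j => by
        rw [inh_mul (hF j), ha.2, hb.2, map_zero, add_zero]⟩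
      one_mem' := ⟨one_mem _, fun j => inh_one (hF j)⟩
      inv_mem' := fun {a} ha => ⟨inv_mem ha.1, fun j => by
        rw [inh_inv (hF j), ha.2, map_zero, neg_zero]⟩ }
  have hle : U' ≤ U := fun u hu => hu.1
  refine ⟨U', ⟨?_, ?_, ?_⟩, hle, fun u hu => hu.2⟩
  · refine ⟨fun u hu g => ⟨hN.conj_mem u hu.1 g, fun j => ?_⟩⟩
    rw [inh_mul (hF j), inh_mul (hF j), hu.2, map_zero, add_zero, inh_inv (hF j), map_neg,
      ← Module.End.mul_apply, ← map_mul]
    have h1 : g * u * g⁻¹ ∈ U := hN.conj_mem u hu.1 g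
    rw [hρ _ h1, add_neg_cancel]
  · let θ : U →* Multiplicative (J → M) :=
      { toFun := fun u => Multiplicative.ofAdd fun j => inh (F j) u
        map_one' := by
          apply Multiplicative.toAdd.injective
          funext j
          exact inh_one (hF j)
        map_mul' := fun u v => by
          apply Multiplicative.toAdd.injective
          funext j
          change inh (F j) ((u : H) * v) = inh (F j) u + inh (F j) v
          rw [inh_mul (hF j), hρ _ u.2] }
    have hker : θ.ker = U'.subgroupOf U := by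
      ext u
      rw [MonoidHom.mem_ker, Subgroup.mem_subgroupOf]
      constructor
      · intro h
        exact ⟨u.2, fun j => congrFun (congrArg Multiplicative.toAdd h) j⟩
      · intro h
        apply Multiplicative.toAdd.injective
        funext j
        exact h.2 j
    obtain ⟨m, hm⟩ := hU.index
    have h1 : U'.relIndex U ∣ Nat.card (Multiplicative (J → M)) := by
      rw [Subgroup.relIndex, ← hker, Subgroup.index_ker]
      exact Subgroup.card_subgroup_dvd_card θ.range
    haveI := Fintype.ofFinite J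
    haveI := Fintype.ofFinite (J → M)
    have h2 : Nat.card (Multiplicative (J → M)) = p ^ finrank (ZMod p) (J → M) := by
      rw [Nat.card_congr Multiplicative.toAdd, Nat.card_eq_fintype_card,
        Module.card_eq_pow_finrank (K := ZMod p) (V := J → M), ZMod.card]
    rw [h2] at h1
    obtain ⟨l, -, hl⟩ := (Nat.dvd_prime_pow Fact.out).1 h1
    refine ⟨l + m, ?_⟩
    rw [← Subgroup.relIndex_mul_index hle, hl, hm, pow_add]
  · obtain ⟨V, hV, hVU⟩ := hU.isOpen
    choose W hW hWF using fun j => inh_level (hF j)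
    obtain ⟨W', hW', hle'⟩ := Sg.exists_le_finite W hW
    obtain ⟨V', hV', h1, h2⟩ := Sg.directed V hV W' hW'
    exact ⟨V', hV', fun u hu => ⟨hVU (h1 hu), fun j => hWF j u (hle' j (h2 hu))⟩⟩

variable {hS : ∀ U ∈ Sg.carrier, ∃ V ∈ Sl.carrier, V ≤ U} {X : Type} [MulAction G X]
  (D : GlobData hS ι X p) {M : Type} [AddCommGroup M] [Module (ZMod p) M]
  [Module.Finite (ZMod p) M] {U : Subgroup H} (hU : PO Sg ι p U)
  (ρ : Representation (ZMod p) H M) (hρ : TrivOn U ρ)

omit [Module.Finite (ZMod p) M] in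
theorem trivOn_dl (hρ : TrivOn U ρ) : TrivOn U (dl (χ1 (ZMod p) H) ρ) := fun u hu f => by
  ext x
  rw [dl_apply, hρ _ (inv_mem hu)]
  rfl

include D hU hρ

theorem h1_dual_le : (cochCx Sg ι (dl (χ1 (ZMod p) H) ρ) Unit).h 1 ≤
    finrank (ZMod p) ((Cx.T (loc hS ι X ρ)).H 1) := by
  classical
  have hρd := trivOn_dl ρ hρ
  haveI f1 : Module.Finite (ZMod p) ((cochCx Sg ι (dl (χ1 (ZMod p) H) ρ) Unit).H 1) :=
    (chi_eq D.baseG hU _ hρd).1 1 (by norm_num)
  set m := (cochCx Sg ι (dl (χ1 (ZMod p) H) ρ) Unit).h 1 with hm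
  let b := finBasis (ZMod p) ((cochCx Sg ι (dl (χ1 (ZMod p) H) ρ) Unit).H 1)
  choose F hF hFb using fun j : Fin m => Cx.exists_cl _ (b j)
  obtain ⟨U', hU', hle, hkill⟩ := exists_kill hU (dl (χ1 (ZMod p) H) ρ) hρd F hF
  have hρ' : TrivOn U' ρ := fun u hu x => hρ u (hle hu) x
  haveI := hU'.normal
  haveI := hU'.finiteIndex
  -- the presentation
  let N := CI U' (ρ.comp U'.subtype)
  have hci : TrivOn U' (ci U' (ρ.comp U'.subtype)) := by
    rw [hρ'.comp_eq]; exact trivOn_ci hU'.normal
  let W : Submodule (ZMod p) N := LinearMap.ker (ciTr U' ρ)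
  have hW : ∀ g x, x ∈ W → ci U' (ρ.comp U'.subtype) g x ∈ W := fun g x hx => by
    rw [LinearMap.mem_ker] at hx ⊢
    rw [ciTr_equiv, hx, map_zero]
  let σ : Representation (ZMod p) H W :=
    (ci U' (ρ.comp U'.subtype)).subrepresentation W (fun g x hx => hW g x hx)
  have hσ : TrivOn U' σ := fun u hu y => Subtype.ext (hci u hu y)
  have hs := fun (S' : Sys G) (X' : Type) [MulAction G X'] (hlev : HasLevel S' ι
      (ci U' (ρ.comp U'.subtype))) => cochSES (S := S') (ι := ι) (X := X') (ρ := σ)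
    (ρ' := ci U' (ρ.comp U'.subtype)) (ρ'' := ρ)
    W.subtype (fun h x => rfl) (ciTr U' ρ) (ciTr_equiv U' ρ) W.injective_subtype
    (fun y => by
      constructor
      · intro h; exact ⟨⟨y, h⟩, rfl⟩
      · rintro ⟨x, rfl⟩; exact x.2)
    (ciTr_surjective U' ρ) hlev
  have hlev1 := hci.hasLevel hU'
  have hlev2 : HasLevel Sl ι (ci U' (ρ.comp U'.subtype)) := by
    obtain ⟨V, hV, h⟩ := hlev1
    obtain ⟨V', hV', h'⟩ := hS V hV
    exact ⟨V', hV', fun g hg => h g (h' hg)⟩
  haveI := sl_fin2 D.toLocData hS hU' σ hσ 2 le_rfl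
  haveI := sl_fin2 D.toLocData hS hU' _ hci 2 le_rfl
  haveI := sl_fin2 D.toLocData hS hU' ρ hρ' 2 le_rfl
  have hnum := T_num (hs Sg Unit hlev1) (hs Sl X hlev2)
    (a := loc hS ι X σ) (c := loc hS ι X _) (e := loc hS ι X ρ)
    (fun n x => rfl) (fun n x => rfl)
    (H2_surjective D.baseG hU' _ hci ρ _ (ciTr_equiv U' ρ) (ciTr_surjective U' ρ))
    (sl_surj D.toLocData hS hU' _ hci ρ _ (ciTr_equiv U' ρ) (ciTr_surjective U' ρ))
  rw [t3_eq D hU' σ hσ, t3_eq D hU' _ hci, t3_eq D hU' ρ hρ'] at hnum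
  haveI : Module.Finite (ZMod p) ((cochCx Sl ι ρ X).H 1) :=
    sl_fin2 D.toLocData hS hU ρ hρ 1 (by norm_num)
  haveI : Module.Finite (ZMod p) ((cochCx Sg ι ρ Unit).H 2) := (chi_eq D.baseG hU _ hρ).1 2 le_rfl
  haveI := Cx.finite_T2 (loc hS ι X ρ)
  have hck : (Tmap (a := loc hS ι X (ci U' (ρ.comp U'.subtype))) (c := loc hS ι X ρ)
      (cochMap (ciTr U' ρ) (ciTr_equiv U' ρ)) (cochMap (ciTr U' ρ) (ciTr_equiv U' ρ))
      (fun n x => rfl)).ck 1 ≤ finrank (ZMod p) ((Cx.T (loc hS ι X ρ)).H 1) :=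
    Submodule.finrank_quotient_le _
  refine le_trans ?_ hck
  -- the map `(Fin m → k) × range res → invFun σ`
  let res : invFun (ci U' (ρ.comp U'.subtype)) →ₗ[ZMod p] invFun σ :=
    { toFun := fun θ => ⟨(θ : N →ₗ[ZMod p] ZMod p) ∘ₗ W.subtype, fun h x => θ.2 h x⟩
      map_add' := fun _ _ => rfl
      map_smul' := fun _ _ => rfl }
  have hpsi : ∀ j : Fin m, ∀ g h, inh (F j) (g * h) = inh (F j) g +
    dl (χ1 (ZMod p) H) ρ g (inh (F j) h) := fun j => inh_mul (hF j)
  let Ψ : (Fin m → ZMod p) →ₗ[ZMod p] invFun σ :=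
    Fintype.linearCombination (ZMod p) (fun j => (⟨psi U' ρ (inh (F j)) ∘ₗ W.subtype, fun h x => by
      change psi U' ρ (inh (F j)) (ci U' (ρ.comp U'.subtype) h (x : N)) = _
      rw [psi_equiv U' ρ (hpsi j) (fun u hu => hkill u hu j), LinearMap.mem_ker.1 x.2, map_zero,
        map_zero, add_zero]
      rfl⟩ : invFun σ))
  -- injectivity
  have key : ∀ c θ, Ψ c = res θ → c = 0 := by
    intro c θ h
    -- `Σ c_j ψ_j - θ` vanishes on `W`
    let Θ : N →ₗ[ZMod p] ZMod p := (∑ j, c j • psi U' ρ (inh (F j))) - (θ : N →ₗ[ZMod p] ZMod p)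
    have hΘ : ∀ x ∈ W, Θ x = 0 := fun x hx => by
      have h1 := congrArg (fun g : invFun σ => (g : W →ₗ[ZMod p] ZMod p) ⟨x, hx⟩) h
      simp only [Ψ, Fintype.linearCombination_apply, AddSubmonoidClass.coe_finsetSum,
        LinearMap.sum_apply, SetLike.val_smul, LinearMap.smul_apply, LinearMap.comp_apply,
        Submodule.subtype_apply] at h1
      simp only [Θ, LinearMap.sub_apply, LinearMap.sum_apply, LinearMap.smul_apply]
      rw [h1, sub_eq_zero]
      rfl
    obtain ⟨ξ, hξ⟩ : ∃ ξ : M →ₗ[ZMod p] ZMod p, ξ ∘ₗ ciTr U' ρ = Θ := by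
      obtain ⟨s, hs'⟩ := (ciTr U' ρ).exists_rightInverse_of_surjective
        (LinearMap.range_eq_top.2 (ciTr_surjective U' ρ))
      refine ⟨Θ ∘ₗ s, ?_⟩
      ext x
      rw [LinearMap.comp_apply, LinearMap.comp_apply, ← sub_eq_zero, ← map_sub]
      apply hΘ
      rw [LinearMap.mem_ker, map_sub, ← LinearMap.comp_apply (ciTr U' ρ) s, hs',
        LinearMap.id_apply, sub_self]
    -- the combination of cocycles is a coboundary
    have h2 : ∀ h, inh (∑ j, c j • F j) h = dl (χ1 (ZMod p) H) ρ h (-ξ) - (-ξ) := by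
      intro h
      have hlin : inh (∑ j, c j • F j) h = ∑ j, c j • inh (F j) h := by
        have : ∀ s : Finset (Fin m), cv (∑ j ∈ s, c j • F j) () ![1, ι h] =
            ∑ j ∈ s, c j • cv (F j) () ![1, ι h] := by
          intro s
          induction s using Finset.induction_on with
          | empty => simp
          | insert a s ha ih =>
            rw [Finset.sum_insert ha, Finset.sum_insert ha, cv_add, Pi.add_apply, Pi.add_apply, ih]
            rfl
        exact this _
      rw [hlin]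
      ext n
      obtain ⟨φ, hφ⟩ := ciTr_surjective U' ρ (ρ h⁻¹ n)
      have h3 : Θ (ci U' _ h φ) - Θ φ = (∑ j, c j • inh (F j) h) n := by
        simp only [Θ, LinearMap.sub_apply, LinearMap.sum_apply, LinearMap.smul_apply]
        have h4 : ∀ j, psi U' ρ (inh (F j)) (ci U' (ρ.comp U'.subtype) h φ) =
            psi U' ρ (inh (F j)) φ + inh (F j) h n := fun j => by
          rw [psi_equiv U' ρ (hpsi j) (fun u hu => hkill u hu j), hφ,
            Representation.self_inv_apply]
        simp only [h4, smul_add, Finset.sum_add_distrib]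
        rw [θ.2]
        ring
      rw [← h3, ← hξ, LinearMap.comp_apply, LinearMap.comp_apply, ciTr_equiv, hφ,
        Representation.self_inv_apply]
      rw [LinearMap.sub_apply, dl_apply, LinearMap.neg_apply, LinearMap.neg_apply,
        Representation.trivial_apply]
      ring
    have hz : (cochCx Sg ι (dl (χ1 (ZMod p) H) ρ) Unit).d 1 (∑ j, c j • F j) = 0 := by
      rw [map_sum]
      exact Finset.sum_eq_zero fun j _ => by rw [map_smul, hF, smul_zero]
    have h5 := mem_B1_of_inh hz (-ξ) h2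
    have h6 : ∑ j, c j • b j = 0 := by
      have h7 : ∀ s : Finset (Fin m), ∃ hs', ∑ j ∈ s, c j • b j =
          (cochCx Sg ι (dl (χ1 (ZMod p) H) ρ) Unit).cl 1 (∑ j ∈ s, c j • F j) hs' := by
        intro s
        induction s using Finset.induction_on with
        | empty => exact ⟨by simp, by simp only [Finset.sum_empty]; rfl⟩
        | insert a s ha ih =>
          obtain ⟨hs', e⟩ := ih
          simp only [Finset.sum_insert ha]
          refine ⟨?_, ?_⟩
          · rw [map_add, hs', map_smul, hF, smul_zero, add_zero]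
          · rw [e, ← hFb a]; rfl
      obtain ⟨hs', e⟩ := h7 Finset.univ
      rw [e]
      exact (Cx.cl_eq_zero _ _).2 h5
    funext j
    exact (Fintype.linearIndependent_iff.1 b.linearIndependent) c h6 j
  -- kernel of `res`
  have hker : finrank (ZMod p) (LinearMap.ker res) ≤ finrank (ZMod p) (invFun ρ) := by
    have hex : ∀ θ : LinearMap.ker res, ∃ ξ : invFun ρ,
        (ξ : M →ₗ[ZMod p] ZMod p) ∘ₗ ciTr U' ρ = (θ : invFun (ci U' (ρ.comp U'.subtype))) := by
      intro θ
      obtain ⟨s, hs'⟩ := (ciTr U' ρ).exists_rightInverse_of_surjective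
        (LinearMap.range_eq_top.2 (ciTr_surjective U' ρ))
      have hθ : ∀ x ∈ W, ((θ : invFun (ci U' (ρ.comp U'.subtype))) : N →ₗ[ZMod p] ZMod p) x = 0 :=
        fun x hx => congrArg (fun g : invFun σ => (g : W →ₗ[ZMod p] ZMod p) ⟨x, hx⟩)
          (LinearMap.mem_ker.1 θ.2)
      have hcomp : (((θ : invFun (ci U' (ρ.comp U'.subtype))) : N →ₗ[ZMod p] ZMod p) ∘ₗ s) ∘ₗ
          ciTr U' ρ = (θ : invFun (ci U' (ρ.comp U'.subtype))) := by
        ext x
        rw [LinearMap.comp_apply, LinearMap.comp_apply, ← sub_eq_zero, ← map_sub]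
        apply hθ
        rw [LinearMap.mem_ker, map_sub, ← LinearMap.comp_apply (ciTr U' ρ) s, hs',
          LinearMap.id_apply, sub_self]
      refine ⟨⟨_, fun h n => ?_⟩, hcomp⟩
      obtain ⟨φ, rfl⟩ := ciTr_surjective U' ρ n
      have h1 := congrArg (fun g : N →ₗ[ZMod p] ZMod p => g φ) hcomp
      have h2 := congrArg (fun g : N →ₗ[ZMod p] ZMod p => g (ci U' _ h φ)) hcomp
      simp only [LinearMap.comp_apply] at h1 h2
      rw [ciTr_equiv] at h2
      exact h2.trans (((θ : invFun (ci U' (ρ.comp U'.subtype))).2 h φ).trans h1.symm)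
    choose E hE using hex
    let L : LinearMap.ker res →ₗ[ZMod p] invFun ρ :=
      { toFun := E
        map_add' := fun x y => by
          apply Subtype.ext
          have : Function.Surjective (ciTr U' ρ) := ciTr_surjective U' ρ
          rw [← LinearMap.cancel_right this, hE]
          change _ = ((E x : M →ₗ[ZMod p] ZMod p) + (E y : M →ₗ[ZMod p] ZMod p)) ∘ₗ ciTr U' ρ
          rw [LinearMap.add_comp, hE, hE]
          rfl
        map_smul' := fun c x => by
          apply Subtype.ext
          have : Function.Surjective (ciTr U' ρ) := ciTr_surjective U' ρ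
          rw [← LinearMap.cancel_right this, hE]
          change _ = (c • (E x : M →ₗ[ZMod p] ZMod p)) ∘ₗ ciTr U' ρ
          rw [LinearMap.smul_comp, hE]
          rfl }
    refine LinearMap.finrank_le_finrank_of_injective (f := L) ?_
    rw [← LinearMap.ker_eq_bot, eq_bot_iff]
    intro x hx
    have h1 : E x = 0 := hx
    have h2 := hE x
    rw [h1] at h2
    apply Subtype.ext
    apply Subtype.ext
    rw [← h2]
    rfl
  -- counting
  have hrank := LinearMap.finrank_range_add_finrank_ker res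
  have hcount : m + finrank (ZMod p) (LinearMap.range res) ≤ finrank (ZMod p) (invFun σ) := by
    have hinj : Function.Injective (Ψ.coprod (LinearMap.range res).subtype) := by
      rw [← LinearMap.ker_eq_bot, eq_bot_iff]
      rintro ⟨c, ⟨_, θ, rfl⟩⟩ h
      rw [LinearMap.mem_ker, LinearMap.coprod_apply, Submodule.subtype_apply] at h
      have h0 : res (-θ) = -(res θ) := LinearMap.map_neg res θ
      have h1 : Ψ c = res (-θ) := by
        rw [h0]
        apply Subtype.ext
        have h' : (Ψ c : W →ₗ[ZMod p] ZMod p) + (res θ : W →ₗ[ZMod p] ZMod p) = 0 :=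
          congrArg Subtype.val h
        exact eq_neg_of_add_eq_zero_left h'
      have h2 := key c _ h1
      subst h2
      rw [map_zero, zero_add] at h
      rw [Submodule.mem_bot]
      exact Prod.ext rfl (Subtype.ext h)
    have h3 := LinearMap.finrank_le_finrank_of_injective hinj
    rwa [Module.finrank_prod, Module.finrank_fin_fun] at h3
  omega

end

end Fermat.Agent.CFT
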