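import Fermat.Agent.CFT.E3

/-!
# `Ш¹` of the dual is at most `Ш²`
-/

set_option autoImplicit false
set_option linter.unusedSectionVars false
set_option linter.unusedVariables false
set_option linter.style.haveILetI false

namespace Fermat.Agent.CFT

open Module

section Ext

variable {k : Type} [Field k] {H M : Type} [Group H] [AddCommGroup M] [Module k M]

/-- powers of a character -/
def powRep (χ : Representation k H k) (m : ℕ) : Representation k H (Fin m → k) where
  toFun g := LinearMap.pi fun j => χ g ∘ₗ LinearMap.proj j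
  map_one' := by ext; simp
  map_mul' g h := by ext; simp

theorem powRep_apply (χ : Representation k H k) (m : ℕ) (g : H) (z : Fin m → k) (j : Fin m) :
    powRep χ m g z j = χ g (z j) := rfl

variable {χ : Representation k H k} {ρ : Representation k H M}

/-- The extension attached to finitely many cocycles. -/
def extRep {m : ℕ} (f : Fin m → H → (M →ₗ[k] k))
    (hf : ∀ j g h, f j (g * h) = f j g + dl χ ρ g (f j h)) :
    Representation k H (M × (Fin m → k)) where
  toFun g := LinearMap.prod (ρ g ∘ₗ LinearMap.fst k _ _)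
    (LinearMap.pi fun j => χ g ∘ₗ LinearMap.proj j ∘ₗ LinearMap.snd k _ _ +
      f j g ∘ₗ ρ g ∘ₗ LinearMap.fst k _ _)
  map_one' := by
    have h1 : ∀ j, f j 1 = 0 := fun j => by
      have := hf j 1 1
      rw [mul_one, map_one] at this
      exact left_eq_add.1 this
    apply LinearMap.ext
    rintro ⟨x, z⟩
    apply Prod.ext
    · simp
    · funext j; simp [h1]
  map_mul' g h := by
    apply LinearMap.ext
    rintro ⟨x, z⟩
    apply Prod.ext
    · simp
    · funext j
      change χ (g * h) (z j) + f j (g * h) (ρ (g * h) x) =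
        χ g (χ h (z j) + f j h (ρ h x)) + f j g (ρ g (ρ h x))
      rw [hf, map_mul, map_mul, LinearMap.add_apply, dl_apply, Module.End.mul_apply,
        Module.End.mul_apply, Representation.inv_self_apply, map_add]
      ring

theorem extRep_apply {m : ℕ} (f : Fin m → H → (M →ₗ[k] k))
    (hf : ∀ j g h, f j (g * h) = f j g + dl χ ρ g (f j h)) (g : H) (x : M) (z : Fin m → k) :
    extRep f hf g (x, z) = (ρ g x, fun j => χ g (z j) + f j g (ρ g x)) := rfl

end Ext

section

variable {k : Type} [Field k] {G H : Type} [Group G] [Group H] {Sg Sl : Sys G}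
  (hS : ∀ U ∈ Sg.carrier, ∃ V ∈ Sl.carrier, V ≤ U) (ι : H →* G) (X : Type) [MulAction G X]

/-- A class of representations on which `H²` is right exact and `T³` is known. -/
structure Cls (χ : Representation k H k) where
  /-- the class -/
  P : ∀ (M : Type) [AddCommGroup M] [Module k M], Representation k H M → Prop
  lev : ∀ {M : Type} [AddCommGroup M] [Module k M] {ρ : Representation k H M},
    P M ρ → HasLevel Sg ι ρ
  finG : ∀ {M : Type} [AddCommGroup M] [Module k M] [Module.Finite k M]
    {ρ : Representation k H M}, P M ρ → (cochCx Sg ι ρ Unit).Fin2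
  finL : ∀ {M : Type} [AddCommGroup M] [Module k M] [Module.Finite k M]
    {ρ : Representation k H M}, P M ρ → (cochCx Sl ι ρ X).Fin2
  surjG : ∀ {M M' : Type} [AddCommGroup M] [Module k M] [Module.Finite k M] [AddCommGroup M']
    [Module k M'] [Module.Finite k M'] {ρ : Representation k H M} {ρ' : Representation k H M'}
    (_ : P M ρ) (φ : M →ₗ[k] M') (hφ : ∀ h m, φ (ρ h m) = ρ' h (φ m)),
    Function.Surjective φ →
    Function.Surjective ((cochMap (S := Sg) (ι := ι) (X := Unit) (ρ := ρ) (ρ' := ρ') φ hφ).H 2)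
  surjL : ∀ {M M' : Type} [AddCommGroup M] [Module k M] [Module.Finite k M] [AddCommGroup M']
    [Module k M'] [Module.Finite k M'] {ρ : Representation k H M} {ρ' : Representation k H M'}
    (_ : P M ρ) (φ : M →ₗ[k] M') (hφ : ∀ h m, φ (ρ h m) = ρ' h (φ m)),
    Function.Surjective φ →
    Function.Surjective ((cochMap (S := Sl) (ι := ι) (X := X) (ρ := ρ) (ρ' := ρ') φ hφ).H 2)
  t3 : ∀ {M : Type} [AddCommGroup M] [Module k M] [Module.Finite k M]
    {ρ : Representation k H M}, P M ρ → (loc hS ι X ρ).ck 2 = finrank k (inv (dl χ ρ))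
  dual : ∀ {M : Type} [AddCommGroup M] [Module k M] [Module.Finite k M]
    {ρ : Representation k H M}, P M ρ → P (M →ₗ[k] k) (dl χ ρ)
  pow : ∀ m, P (Fin m → k) (powRep χ m)
  ext : ∀ {M : Type} [AddCommGroup M] [Module k M] [Module.Finite k M]
    {ρ : Representation k H M}, P M ρ → ∀ {m : ℕ} (F : Fin m → (cochCx Sg ι (dl χ ρ) Unit).X 1)
    (hF : ∀ j, (cochCx Sg ι (dl χ ρ) Unit).d 1 (F j) = 0),
    P (M × (Fin m → k)) (extRep (fun j => inh (F j)) (fun j => inh_mul (hF j)))

variable {hS ι X} {χ : Representation k H k} (K : Cls hS ι X χ)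
  {M : Type} [AddCommGroup M] [Module k M] [Module.Finite k M] (ρ : Representation k H M)
  (hρ : K.P M ρ)

include hρ

theorem sh1_le_sh2 : (loc hS ι X (dl χ ρ)).sh 1 ≤ (loc hS ι X ρ).sh 2 := by
  classical
  haveI f1 := K.finG (K.dual hρ) 1 (by norm_num)
  haveI f2 := K.finG hρ 2 le_rfl
  haveI f3 := K.finL hρ 1 (by norm_num)
  haveI f4 := K.finL hρ 2 le_rfl
  haveI := Cx.finite_T2 (loc hS ι X ρ)
  set m := (loc hS ι X (dl χ ρ)).sh 1 with hm
  let b := finBasis k (LinearMap.ker ((loc hS ι X (dl χ ρ)).H 1))
  choose F hF hFb using fun j : Fin m =>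
    Cx.exists_cl _ ((b j : LinearMap.ker ((loc hS ι X (dl χ ρ)).H 1)) :
      (cochCx Sg ι (dl χ ρ) Unit).H 1)
  have hB : ∀ j, ∃ B, (cochCx Sl ι (dl χ ρ) X).d 0 B = (loc hS ι X (dl χ ρ)).f 1 (F j) := fun j => by
    have h1 := (b j).2
    rw [← hFb j, LinearMap.mem_ker, Cx.Hom.H_cl, Cx.cl_eq_zero] at h1
    exact h1
  choose B hB using hB
  let f : Fin m → H → (M →ₗ[k] k) := fun j => inh (F j)
  have hf : ∀ j g h, f j (g * h) = f j g + dl χ ρ g (f j h) := fun j => inh_mul (hF j)
  let β : Fin m → X → (M →ₗ[k] k) := fun j a => cv (B j) a ![1]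
  have hβ : ∀ j a h, β j (ι h • a) = dl χ ρ h (β j a) - f j h := fun j a h => by
    have h1 := congrFun (congrFun (congrArg cv (hB j)) (ι h • a)) ![1, ι h]
    rw [cv_d, dfun_zero_apply, cv_loc] at h1
    have h2 := cv_equiv1 (B j) h a 1
    rw [mul_one] at h2
    rw [h2] at h1
    change cv (B j) (ι h • a) ![1] = dl χ ρ h (cv (B j) a ![1]) - cv (F j) () ![1, ι h]
    rw [← h1]; abel
  have hE : K.P (M × (Fin m → k)) (extRep f hf) := K.ext hρ F hF
  have hpow := K.pow m
  -- the exact sequence
  have hs := fun (S' : Sys G) (X' : Type) [MulAction G X'] (hlev : HasLevel S' ι (extRep f hf)) =>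
    cochSES (S := S') (ι := ι) (X := X') (ρ := powRep χ m) (ρ' := extRep f hf) (ρ'' := ρ)
    (LinearMap.inr k M (Fin m → k)) (fun h x => by
      rw [LinearMap.inr_apply, LinearMap.inr_apply, extRep_apply]
      apply Prod.ext
      · simp
      · funext j; simp [powRep_apply]) (LinearMap.fst k M (Fin m → k)) (fun h x => rfl)
    LinearMap.inr_injective
    (fun y => by
      constructor
      · intro h; exact ⟨y.2, Prod.ext h.symm rfl⟩
      · rintro ⟨x, rfl⟩; rfl)
    LinearMap.fst_surjective hlev
  have hlev1 := K.lev hE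
  have hlev2 : HasLevel Sl ι (extRep f hf) := by
    obtain ⟨V, hV, h⟩ := hlev1
    obtain ⟨V', hV', h'⟩ := hS V hV
    exact ⟨V', hV', fun g hg => h g (h' hg)⟩
  haveI := K.finL hE 2 le_rfl
  haveI := K.finL hpow 2 le_rfl
  have hnum := T_num (hs Sg Unit hlev1) (hs Sl X hlev2)
    (a := loc hS ι X (powRep χ m)) (c := loc hS ι X (extRep f hf)) (e := loc hS ι X ρ)
    (fun n x => rfl) (fun n x => rfl)
    (K.surjG hE _ (fun h x => rfl) LinearMap.fst_surjective)
    (K.surjL hE _ (fun h x => rfl) LinearMap.fst_surjective)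
  rw [K.t3 hE, K.t3 hpow, K.t3 hρ] at hnum
  -- invariant functionals
  have hinv1 : finrank k (inv (dl χ (extRep f hf))) ≤ finrank k (inv (dl χ ρ)) := by
    have hinvE : ∀ Φ : inv (dl χ (extRep f hf)), ∀ g v,
        (Φ : M × (Fin m → k) →ₗ[k] k) (extRep f hf g v) = χ g ((Φ : M × (Fin m → k) →ₗ[k] k) v) :=
      fun Φ g v => by
        have := congrArg (fun F : M × (Fin m → k) →ₗ[k] k => F (extRep f hf g v)) (Φ.2 g)
        simp only [dl_apply, Representation.inv_self_apply] at this
        exact this.symm
    have hsplit : ∀ Φ : M × (Fin m → k) →ₗ[k] k, ∀ x z, Φ (x, z) = Φ (x, 0) + Φ (0, z) :=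
      fun Φ x z => by rw [← map_add, Prod.mk_add_mk, add_zero, zero_add]
    have hzero : ∀ Φ : inv (dl χ (extRep f hf)), ∀ z,
        (Φ : M × (Fin m → k) →ₗ[k] k) (0, z) = 0 := by
      intro Φ
      let φ₀ : M →ₗ[k] k := (Φ : M × (Fin m → k) →ₗ[k] k) ∘ₗ LinearMap.inl k M _
      let L : (Fin m → k) →ₗ[k] k := (Φ : M × (Fin m → k) →ₗ[k] k) ∘ₗ LinearMap.inr k M _
      let c : Fin m → k := fun j => L fun i => if j = i then 1 else 0
      have hc : ∀ z, L z = ∑ j, z j * c j := fun z => L.pi_apply_eq_sum_univ z
      have hcob : ∀ g, inh (∑ j, c j • F j) g = dl χ ρ g φ₀ - φ₀ := by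
        intro g
        have hlin : inh (∑ j, c j • F j) g = ∑ j, c j • inh (F j) g := by
          have : ∀ s : Finset (Fin m), cv (∑ j ∈ s, c j • F j) () ![1, ι g] =
              ∑ j ∈ s, c j • cv (F j) () ![1, ι g] := by
            intro s
            induction s using Finset.induction_on with
            | empty => simp
            | insert a s ha ih =>
              rw [Finset.sum_insert ha, Finset.sum_insert ha, cv_add, Pi.add_apply, Pi.add_apply, ih]
              rfl
          exact this _
        rw [hlin]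
        ext y
        have h1 := hinvE Φ g (ρ g⁻¹ y, 0)
        rw [extRep_apply, Representation.self_inv_apply, hsplit] at h1
        have h2 : (Φ : M × (Fin m → k) →ₗ[k] k)
            (0, fun j => χ g ((0 : Fin m → k) j) + f j g y) = ∑ j, f j g y * c j := by
          have h3 := hc (fun j => χ g ((0 : Fin m → k) j) + f j g y)
          simp only [Pi.zero_apply, map_zero, zero_add] at h3 ⊢
          exact h3
        rw [h2] at h1
        simp only [LinearMap.sum_apply, LinearMap.smul_apply, LinearMap.sub_apply, dl_apply,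
          smul_eq_mul]
        change ∑ j, c j * (f j g) y = χ g ((Φ : M × (Fin m → k) →ₗ[k] k) (ρ g⁻¹ y, 0)) -
          (Φ : M × (Fin m → k) →ₗ[k] k) (y, 0)
        rw [← h1, add_sub_cancel_left]
        exact Finset.sum_congr rfl fun j _ => mul_comm _ _
      have hz : (cochCx Sg ι (dl χ ρ) Unit).d 1 (∑ j, c j • F j) = 0 := by
        rw [map_sum]
        exact Finset.sum_eq_zero fun j _ => by rw [map_smul, hF, smul_zero]
      have h5 := mem_B1_of_inh hz φ₀ hcob
      have h6 : ∑ j, c j • b j = 0 := by
        apply Subtype.ext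
        have h7 : ∀ s : Finset (Fin m), ∃ hs', ((∑ j ∈ s, c j • b j :
            LinearMap.ker ((loc hS ι X (dl χ ρ)).H 1)) : (cochCx Sg ι (dl χ ρ) Unit).H 1) =
            (cochCx Sg ι (dl χ ρ) Unit).cl 1 (∑ j ∈ s, c j • F j) hs' := by
          intro s
          induction s using Finset.induction_on with
          | empty => exact ⟨by simp, by simp only [Finset.sum_empty]; rfl⟩
          | insert a s ha ih =>
            obtain ⟨hs', e⟩ := ih
            simp only [Finset.sum_insert ha]
            refine ⟨?_, ?_⟩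
            · rw [map_add, hs', map_smul, hF, smul_zero, add_zero]
            · rw [Submodule.coe_add, e, Submodule.coe_smul, ← hFb a]; rfl
        obtain ⟨hs', e⟩ := h7 Finset.univ
        rw [e]
        exact (Cx.cl_eq_zero _ _).2 h5
      have hc0 : ∀ j, c j = 0 := (Fintype.linearIndependent_iff.1 b.linearIndependent) c h6
      intro z
      have := hc z
      simp only [hc0, mul_zero, Finset.sum_const_zero] at this
      exact this
    let R : inv (dl χ (extRep f hf)) →ₗ[k] inv (dl χ ρ) :=
      { toFun := fun Φ => ⟨(Φ : M × (Fin m → k) →ₗ[k] k) ∘ₗ LinearMap.inl k M _, fun g => by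
          ext y
          have h1 := hinvE Φ g (ρ g⁻¹ y, 0)
          rw [extRep_apply, Representation.self_inv_apply, hsplit, hzero, add_zero] at h1
          exact h1.symm⟩
        map_add' := fun _ _ => rfl
        map_smul' := fun _ _ => rfl }
    refine LinearMap.finrank_le_finrank_of_injective (f := R) ?_
    intro Φ Φ' hΦ
    apply Subtype.ext
    apply LinearMap.ext
    rintro ⟨x, z⟩
    rw [hsplit Φ.1 x z, hsplit Φ'.1 x z, hzero Φ z, hzero Φ' z, add_zero, add_zero]
    exact congrArg (fun F : inv (dl χ ρ) => (F : M →ₗ[k] k) x) hΦ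
  have hinv2 : m ≤ finrank k (inv (dl χ (powRep χ m))) := by
    let R : (Fin m → k) →ₗ[k] inv (dl χ (powRep χ m)) :=
      { toFun := fun c => ⟨Fintype.linearCombination k c, fun g => by
          ext j
          simp only [LinearMap.comp_apply, dl_apply, Fintype.linearCombination_apply, powRep_apply,
            LinearMap.coe_single, smul_eq_mul, map_sum]
          refine Finset.sum_congr rfl fun i _ => ?_
          have h1 : χ g⁻¹ ((Pi.single j (1 : k) : Fin m → k) i) * c i =
              χ g⁻¹ ((Pi.single j (1 : k) : Fin m → k) i * c i) := by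
            rw [mul_comm, ← smul_eq_mul, ← map_smul, smul_eq_mul, mul_comm]
          rw [h1, Representation.self_inv_apply]⟩
        map_add' := fun c d => by
          apply Subtype.ext
          ext j
          simp [mul_add]
        map_smul' := fun r c => by
          apply Subtype.ext
          ext j
          simp }
    have hR : Function.Injective R := by
      intro c d h
      funext j
      have h1 := congrArg (fun F : inv (dl χ (powRep χ m)) =>
        (F : (Fin m → k) →ₗ[k] k) (Pi.single j 1)) h
      simpa [R, Fintype.linearCombination_apply_single] using h1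
    have := LinearMap.finrank_le_finrank_of_injective hR
    rwa [Module.finrank_fin_fun] at this
  -- `P¹(ρ)` lies in the image of `T²(E)`
  have hle : LinearMap.range (Cx.a1 (loc hS ι X ρ)) ≤ LinearMap.range
      ((Tmap (a := loc hS ι X (extRep f hf)) (c := loc hS ι X ρ)
        (cochMap (LinearMap.fst k M (Fin m → k)) (fun h x => rfl))
        (cochMap (LinearMap.fst k M (Fin m → k)) (fun h x => rfl)) (fun n x => rfl)).H 1) := by
    rintro _ ⟨z, rfl⟩
    obtain ⟨y, hy, rfl⟩ := Cx.exists_cl _ z
    let s : X → M →ₗ[k] (M × (Fin m → k)) := fun a =>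
      LinearMap.prod LinearMap.id (LinearMap.pi fun j => -(β j a))
    have hsE : ∀ h a x, extRep f hf h (s a x) = s (ι h • a) (ρ h x) := fun h a x => by
      have h1 : s a x = (x, fun j => -(β j a x)) := rfl
      have h2 : s (ι h • a) (ρ h x) = (ρ h x, fun j => -(β j (ι h • a) (ρ h x))) := rfl
      rw [h1, h2, extRep_apply]
      refine Prod.ext rfl (funext fun j => ?_)
      simp only [hβ, LinearMap.sub_apply, dl_apply, Representation.inv_self_apply, map_neg]
      ring
    let yt : (cochCx Sl ι (extRep f hf) X).X 1 := mkc (fun a x => s a (cv y a x)) (by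
      obtain ⟨h1, V, hV, h2⟩ := cv_mem y
      exact ⟨fun h a x => by
          change s (ι h • a) (cv y (ι h • a) fun i => ι h * x i) = _
          rw [h1]; exact (hsE _ _ _).symm, V, hV, fun a x x' hx => by
          change s a (cv y a x) = s a (cv y a x')
          rw [h2 a x x' hx]⟩)
    have hyt : (cochCx Sl ι (extRep f hf) X).d 1 yt = 0 := by
      apply cv_injective
      apply funext3
      intro a x x' x''
      rw [cv_d, dfun_one_apply]
      have h1 := cocycle1 hy a x x' x''
      change s a (cv y a ![x', x'']) - s a (cv y a ![x, x'']) + s a (cv y a ![x, x']) = 0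
      rw [h1, map_add]; abel
    refine ⟨Cx.a1 (loc hS ι X (extRep f hf)) (Cx.cl _ 1 yt hyt), ?_⟩
    rw [Cx.a1_cl, Cx.a1_cl, Cx.Hom.H_cl]
    rfl
  have hfin : finrank k ((Cx.T (loc hS ι X ρ)).H 1 ⧸ LinearMap.range (Cx.a1 (loc hS ι X ρ))) =
      (loc hS ι X ρ).sh 2 := by
    rw [← Cx.ker_b1, (Cx.b1 (loc hS ι X ρ)).quotKerEquivRange.finrank_eq, Cx.range_b1]
    rfl
  have hquot : (Tmap (a := loc hS ι X (extRep f hf)) (c := loc hS ι X ρ)
        (cochMap (LinearMap.fst k M (Fin m → k)) (fun h x => rfl))
        (cochMap (LinearMap.fst k M (Fin m → k)) (fun h x => rfl)) (fun n x => rfl)).ck 1 ≤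
      (loc hS ι X ρ).sh 2 := by
    rw [← hfin]
    exact LinearMap.finrank_le_finrank_of_surjective (f := Submodule.factor hle)
      (Submodule.factor_surjective hle)
  omega

end

end Fermat.Agent.CFT
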