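import Fermat.Agent.CFT.E4

/-!
# Duality over the base field `K`
-/

set_option autoImplicit false
set_option linter.unusedSectionVars false
set_option linter.unusedVariables false
set_option linter.style.haveILetI false

namespace Fermat.Agent.CFT

open Module

section Iso

variable {k : Type} [Field k] {G H M M' : Type} [Group G] [Group H] [AddCommGroup M] [Module k M]
  [AddCommGroup M'] [Module k M'] {S : Sys G} {ι : H →* G} {X : Type} [MulAction G X]

/-- Isomorphisms of coefficients. -/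
def cochIso {ρ : Representation k H M} {ρ' : Representation k H M'} (e : M ≃ₗ[k] M')
    (he : ∀ h m, e (ρ h m) = ρ' h (e m)) : Cx.Iso (cochCx S ι ρ X) (cochCx S ι ρ' X) where
  e n := LinearEquiv.ofLinearMap
    ((cochMap (S := S) (ι := ι) (X := X) (ρ := ρ) (ρ' := ρ') e.toLinearMap he).f n)
    ((cochMap (S := S) (ι := ι) (X := X) (ρ := ρ') (ρ' := ρ) e.symm.toLinearMap (fun h m => by
      apply e.injective
      change e (e.symm (ρ' h m)) = e (ρ h (e.symm m))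
      rw [he, e.apply_symm_apply, e.apply_symm_apply])).f n)
    (by
      apply LinearMap.ext; intro F
      apply cv_injective; funext a x
      change e (e.symm (cv F a x)) = cv F a x
      simp)
    (by
      apply LinearMap.ext; intro F
      apply cv_injective; funext a x
      change e.symm (e (cv F a x)) = cv F a x
      simp)
  comm n F := (cochMap (S := S) (ι := ι) (X := X) (ρ := ρ) (ρ' := ρ') e.toLinearMap he).comm n F

theorem dd_equiv [Module.Finite k M] (χ : Representation k H k) (ρ : Representation k H M) (h : H)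
    (m : M) : Module.evalEquiv k M (ρ h m) = dl χ (dl χ ρ) h (Module.evalEquiv k M m) := by
  ext f
  rw [dl_apply]
  change f (ρ h m) = χ h ((dl χ ρ h⁻¹ f) m)
  rw [dl_apply, inv_inv, Representation.self_inv_apply]

end Iso

section

variable {k : Type} [Field k] {G H : Type} [Group G] [Group H] {Sg Sl : Sys G}
  (hS : ∀ U ∈ Sg.carrier, ∃ V ∈ Sl.carrier, V ≤ U) (ι : H →* G) (X : Type) [MulAction G X]
  {M M' : Type} [AddCommGroup M] [Module k M] [AddCommGroup M'] [Module k M']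
  {ρ : Representation k H M} {ρ' : Representation k H M'} (e : M ≃ₗ[k] M')
  (he : ∀ h m, e (ρ h m) = ρ' h (e m))

include he

theorem loc_sh_congr (n : ℕ) : (loc hS ι X ρ).sh n = (loc hS ι X ρ').sh n :=
  Cx.Hom.sh_iso _ _ (cochIso e he) (cochIso e he) (fun _ _ => rfl) n

theorem loc_ck_congr (n : ℕ) : (loc hS ι X ρ).ck n = (loc hS ι X ρ').ck n :=
  Cx.Hom.ck_iso _ _ (cochIso e he) (cochIso e he) (fun _ _ => rfl) n

theorem inv_congr : finrank k (inv ρ) = finrank k (inv ρ') := by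
  refine LinearEquiv.finrank_eq ((e.submoduleMap _).trans (LinearEquiv.ofEq _ _ ?_))
  ext y
  constructor
  · rintro ⟨x, hx, rfl⟩
    intro h
    change ρ' h (e x) = e x
    rw [← he, hx h]
  · intro hy
    refine ⟨e.symm y, ?_, e.apply_symm_apply y⟩
    intro h
    apply e.injective
    rw [he, e.apply_symm_apply, hy h]

end

section

variable {p : ℕ} [Fact p.Prime] {G H : Type} [Group G] [Group H] {Sg Sl : Sys G}
  {hS : ∀ U ∈ Sg.carrier, ∃ V ∈ Sl.carrier, V ≤ U} {ι : H →* G} {X : Type} [MulAction G X]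
  (D : GlobData hS ι X p)

/-- The class of modules which are trivial on an open normal subgroup of `p`-power index. -/
def clsK : Cls hS ι X (χ1 (ZMod p) H) where
  P M _ _ ρ := ∃ U, PO Sg ι p U ∧ TrivOn U ρ
  lev := fun ⟨U, hU, hρ⟩ => TrivOn.hasLevel hU hρ
  finG := fun ⟨U, hU, hρ⟩ => (chi_eq D.baseG hU _ hρ).1
  finL := fun ⟨U, hU, hρ⟩ => sl_fin2 D.toLocData hS hU _ hρ
  surjG := fun ⟨U, hU, hρ⟩ φ hφ hs => H2_surjective D.baseG hU _ hρ _ φ hφ hs
  surjL := fun ⟨U, hU, hρ⟩ φ hφ hs => sl_surj D.toLocData hS hU _ hρ _ φ hφ hs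
  t3 := fun ⟨U, hU, hρ⟩ => by rw [t3_eq D hU _ hρ, inv_dl_triv]
  dual := fun ⟨U, hU, hρ⟩ => ⟨U, hU, trivOn_dl _ hρ⟩
  pow m := ⟨⊤, PO.top, fun u _ z => by funext j; rfl⟩
  ext := by
    rintro M _ _ _ ρ ⟨U, hU, hρ⟩ m F hF
    obtain ⟨U', hU', hle, hkill⟩ := exists_kill hU (dl (χ1 (ZMod p) H) ρ) (trivOn_dl ρ hρ) F hF
    refine ⟨U', hU', fun u hu y => ?_⟩
    obtain ⟨x, z⟩ := y
    rw [extRep_apply]
    refine Prod.ext (hρ u (hle hu) x) (funext fun j => ?_)
    change z j + (inh (F j) u) (ρ u x) = z j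
    rw [hkill u hu j, LinearMap.zero_apply, add_zero]

variable {M : Type} [AddCommGroup M] [Module (ZMod p) M] [Module.Finite (ZMod p) M]
  {U : Subgroup H} (hU : PO Sg ι p U) (ρ : Representation (ZMod p) H M) (hρ : TrivOn U ρ)

include D hU hρ

/-- The numerical duality theorem over `K`. -/
theorem K_duality : (loc hS ι X ρ).sh 2 = (loc hS ι X (dl (χ1 (ZMod p) H) ρ)).sh 1 ∧
    (loc hS ι X ρ).rk 1 + (loc hS ι X (dl (χ1 (ZMod p) H) ρ)).rk 1 = (cochCx Sl ι ρ X).h 1 := by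
  have hρd := trivOn_dl ρ hρ
  set ρd := dl (χ1 (ZMod p) H) ρ with hρd'
  have hρdd := trivOn_dl ρd hρd
  have fG := (chi_eq D.baseG hU ρ hρ).1
  have fGd := (chi_eq D.baseG hU ρd hρd).1
  have fL := sl_fin2 D.toLocData hS hU ρ hρ
  have fLd := sl_fin2 D.toLocData hS hU ρd hρd
  haveI := fG 0 (by norm_num)
  haveI := fG 1 (by norm_num)
  haveI := fG 2 le_rfl
  haveI := fGd 0 (by norm_num)
  haveI := fGd 1 (by norm_num)
  haveI := fGd 2 le_rfl
  haveI := fL 0 (by norm_num)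
  haveI := fL 1 (by norm_num)
  haveI := fL 2 le_rfl
  haveI := fLd 0 (by norm_num)
  haveI := fLd 1 (by norm_num)
  haveI := fLd 2 le_rfl
  -- Euler characteristics
  have cG := (chi_eq D.baseG hU ρ hρ).2
  have cGd := (chi_eq D.baseG hU ρd hρd).2
  have cL := sl_chi D.toLocData hS hU ρ hρ
  have cLd := sl_chi D.toLocData hS hU ρd hρd
  have hdim : finrank (ZMod p) (M →ₗ[ZMod p] ZMod p) = finrank (ZMod p) M :=
    Subspace.dual_finrank_eq
  rw [hdim] at cGd cLd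
  rw [D.sumA] at cL cLd
  simp only [Cx.chi] at cG cGd cL cLd
  -- degree zero
  have g0 : (cochCx Sg ι ρ Unit).h 0 = finrank (ZMod p) (inv ρ) := (H0Equiv).finrank_eq
  have g0d : (cochCx Sg ι ρd Unit).h 0 = finrank (ZMod p) (inv ρd) := (H0Equiv).finrank_eq
  have hdd : finrank (ZMod p) (inv ρ) = finrank (ZMod p) (inv (dl (χ1 (ZMod p) H) ρd)) :=
    inv_congr (Module.evalEquiv (ZMod p) M) (dd_equiv _ ρ)
  -- `T³`
  have t3 : (loc hS ι X ρ).ck 2 = (cochCx Sg ι ρd Unit).h 0 := by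
    rw [t3_eq D hU ρ hρ, g0d, hρd', inv_dl_triv]
  have t3d : (loc hS ι X ρd).ck 2 = (cochCx Sg ι ρ Unit).h 0 := by
    rw [t3_eq D hU ρd hρd, g0, hdd, inv_dl_triv]
  -- local `H²`
  have l2 : (cochCx Sl ι ρ X).h 2 = (cochCx Sl ι ρd X).h 0 := by
    rw [sl_h2 D.toLocData hS hU ρ hρ, sl_h0 D.toLocData hS hU ρd hρd]
    refine Finset.sum_congr rfl fun j _ => ?_
    rw [← inv_dl_triv]
    rfl
  have l2d : (cochCx Sl ι ρd X).h 2 = (cochCx Sl ι ρ X).h 0 := by
    rw [sl_h2 D.toLocData hS hU ρd hρd, sl_h0 D.toLocData hS hU ρ hρ]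
    refine Finset.sum_congr rfl fun j _ => ?_
    have h1 : ρd.comp (stb ι (D.a j)).subtype =
      dl (χ1 (ZMod p) (stb ι (D.a j))) (ρ.comp (stb ι (D.a j)).subtype) := rfl
    rw [h1, ← inv_dl_triv]
    exact (inv_congr (ρ := ρ.comp (stb ι (D.a j)).subtype) (Module.evalEquiv (ZMod p) M)
      (dd_equiv (χ1 (ZMod p) (stb ι (D.a j))) (ρ.comp (stb ι (D.a j)).subtype))).symm
  -- ranks
  have r : ∀ (n : ℕ) (N : Type) [AddCommGroup N] [Module (ZMod p) N] (σ : Representation (ZMod p) H N)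
      [Module.Finite (ZMod p) ((cochCx Sg ι σ Unit).H n)]
      [Module.Finite (ZMod p) ((cochCx Sl ι σ X).H n)],
      (cochCx Sg ι σ Unit).h n = (loc hS ι X σ).rk n + (loc hS ι X σ).sh n ∧
      (cochCx Sl ι σ X).h n = (loc hS ι X σ).rk n + (loc hS ι X σ).ck n := by
    intro n N _ _ σ _ _
    refine ⟨?_, ?_⟩
    · exact (LinearMap.finrank_range_add_finrank_ker ((loc hS ι X σ).H n)).symm
    · have := Submodule.finrank_quotient_add_finrank (LinearMap.range ((loc hS ι X σ).H n))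
      rw [Cx.Hom.rk, Cx.Hom.ck, add_comm]
      exact this.symm
  have r2 := r 2 M ρ
  have r2d := r 2 _ ρd
  have r1 := r 1 M ρ
  have r1d := r 1 _ ρd
  have tt : finrank (ZMod p) ((Cx.T (loc hS ι X ρ)).H 1) + (loc hS ι X ρ).rk 1 =
    (cochCx Sl ι ρ X).h 1 + (loc hS ι X ρ).sh 2 := Cx.finrank_T2 (loc hS ι X ρ)
  have ttd : finrank (ZMod p) ((Cx.T (loc hS ι X ρd)).H 1) + (loc hS ι X ρd).rk 1 =
    (cochCx Sl ι ρd X).h 1 + (loc hS ι X ρd).sh 2 := Cx.finrank_T2 (loc hS ι X ρd)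
  have i1 := h1_dual_le D hU ρ hρ
  have i2 := h1_dual_le D hU ρd hρd
  have e2 : (cochCx Sg ι (dl (χ1 (ZMod p) H) ρd) Unit).h 1 = (cochCx Sg ι ρ Unit).h 1 :=
    ((cochIso (S := Sg) (ι := ι) (X := Unit) (Module.evalEquiv (ZMod p) M)
      (dd_equiv (χ1 (ZMod p) H) ρ)).h_eq 1).symm
  rw [e2] at i2
  have s1 := sh1_le_sh2 (clsK D) ρ ⟨U, hU, hρ⟩
  have s2 := sh1_le_sh2 (clsK D) ρd ⟨U, hU, hρd⟩
  have e3 : (loc hS ι X (dl (χ1 (ZMod p) H) ρd)).sh 1 = (loc hS ι X ρ).sh 1 :=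
    (loc_sh_congr hS ι X (Module.evalEquiv (ZMod p) M) (dd_equiv (χ1 (ZMod p) H) ρ) 1).symm
  rw [e3] at s2
  change (loc hS ι X ρd).sh 1 ≤ _ at s1
  change (cochCx Sg ι ρd Unit).h 1 ≤ _ at i1
  clear e2 e3 hdd g0 g0d fG fGd fL fLd r
  obtain ⟨r2a, r2b⟩ := r2
  obtain ⟨r2da, r2db⟩ := r2d
  obtain ⟨r1a, r1b⟩ := r1
  obtain ⟨r1da, r1db⟩ := r1d
  generalize (cochCx Sg ι ρ Unit).h 0 = a0 at *
  generalize (cochCx Sg ι ρ Unit).h 1 = a1 at *
  generalize (cochCx Sg ι ρ Unit).h 2 = a2 at *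
  generalize (cochCx Sg ι ρd Unit).h 0 = b0 at *
  generalize (cochCx Sg ι ρd Unit).h 1 = b1 at *
  generalize (cochCx Sg ι ρd Unit).h 2 = b2 at *
  generalize (cochCx Sl ι ρ X).h 0 = c0 at *
  generalize (cochCx Sl ι ρ X).h 1 = c1 at *
  generalize (cochCx Sl ι ρ X).h 2 = c2 at *
  generalize (cochCx Sl ι ρd X).h 0 = d0 at *
  generalize (cochCx Sl ι ρd X).h 1 = d1 at *
  generalize (cochCx Sl ι ρd X).h 2 = d2 at *
  generalize (loc hS ι X ρ).sh 1 = u1 at *
  generalize (loc hS ι X ρ).sh 2 = u2 at *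
  generalize (loc hS ι X ρd).sh 1 = u1' at *
  generalize (loc hS ι X ρd).sh 2 = u2' at *
  generalize (loc hS ι X ρ).rk 1 = q1 at *
  generalize (loc hS ι X ρ).rk 2 = q2 at *
  generalize (loc hS ι X ρd).rk 1 = q1' at *
  generalize (loc hS ι X ρd).rk 2 = q2' at *
  have w1 : -D.A * (finrank (ZMod p) M : ℤ) = -(D.A * (finrank (ZMod p) M : ℤ)) := by ring
  have w2 : -(2 * D.A) * (finrank (ZMod p) M : ℤ) = -(2 * (D.A * (finrank (ZMod p) M : ℤ))) := by
    ring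
  rw [w1] at cG cGd
  rw [w2] at cL cLd
  generalize D.A * (finrank (ZMod p) M : ℤ) = m at *
  constructor <;> omega

end

end Fermat.Agent.CFT
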