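import Fermat.Agent.CFT.Spl

/-!
# Duality over the base field
-/

set_option autoImplicit false
set_option linter.unusedSectionVars false
set_option linter.unusedVariables false
set_option linter.style.haveILetI false

namespace Fermat.Agent.CFT

open Module

section

variable {p : ℕ} [hp : Fact p.Prime] {G : Type} [Group G] {Sg Sl : Sys G}
  (hS : ∀ U ∈ Sg.carrier, ∃ V ∈ Sl.carrier, V ≤ U) (X : Type) [MulAction G X]
  (χ : Representation (ZMod p) G (ZMod p))

/-- the identity -/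
abbrev idG (G : Type) [Group G] : G →* G := MonoidHom.id G

/-- Global data without the lower bound for `T³`. -/
structure PreGlob (K : Subgroup G) extends LocData Sl ((idG G).comp K.subtype) X p where
  /-- half of the degree -/
  A : ℤ
  baseG : BaseHyp Sg ((idG G).comp K.subtype) p A
  sumA : ∑ j, nn j = 2 * A
  t3le : ∀ U : Subgroup K, PO Sg ((idG G).comp K.subtype) p U →
    (loc hS (((idG G).comp K.subtype).comp U.subtype) X
      (Representation.trivial (ZMod p) U (ZMod p))).ck 2 ≤ 1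

/-- The data over the base field. -/
structure QData where
  lev : HasLevel Sg (idG G) χ
  pre : ∀ K : Subgroup G, K.FiniteIndex → (K.index : ZMod p) ≠ 0 → (∃ V ∈ Sg.carrier, V ≤ K) →
    (∀ g ∈ K, ∀ x, χ g x = x) → PreGlob (p := p) hS X K
  t3Q : 1 ≤ (loc hS (idG G) X χ).ck 2

/-- A good subgroup for a representation. -/
structure GoodK (Sg : Sys G) {M : Type} [AddCommGroup M] [Module (ZMod p) M]
    (ρ : Representation (ZMod p) G M) (K : Subgroup G) : Prop where
  fin : K.FiniteIndex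
  idx : (K.index : ZMod p) ≠ 0
  tr : ∀ g ∈ K, ∀ x, χ g x = x
  lv : ∃ V ∈ Sg.carrier, V ≤ K ∧ (∀ v ∈ V, ∀ x, ρ v x = x) ∧ ∃ m, (V.subgroupOf K).index = p ^ m

variable {hS X χ}

theorem GoodK.op {M : Type} [AddCommGroup M] [Module (ZMod p) M]
    {ρ : Representation (ZMod p) G M} {K : Subgroup G} (h : GoodK χ Sg ρ K) :
    ∃ V ∈ Sg.carrier, V ≤ K := by
  obtain ⟨V, hV, h1, -⟩ := h.lv
  exact ⟨V, hV, h1⟩

theorem GoodK.po {M : Type} [AddCommGroup M] [Module (ZMod p) M]
    {ρ : Representation (ZMod p) G M} {K : Subgroup G} (h : GoodK χ Sg ρ K) :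
    ∃ U : Subgroup K, PO Sg ((idG G).comp K.subtype) p U ∧ TrivOn U (ρ.comp K.subtype) := by
  obtain ⟨V, hV, h1, h2, h3⟩ := h.lv
  haveI := Sg.normal V hV
  exact ⟨V.subgroupOf K, ⟨inferInstance, h3, V, hV, fun k hk => hk⟩, fun u hu x => h2 u hu x⟩

theorem GoodK.ofTriv {M M' : Type} [AddCommGroup M] [Module (ZMod p) M] [AddCommGroup M']
    [Module (ZMod p) M'] {ρ : Representation (ZMod p) G M} {ρ' : Representation (ZMod p) G M'}
    {K : Subgroup G} (h : GoodK χ Sg ρ K)
    (h' : ∀ V : Subgroup G, V.Normal → (∀ v ∈ V, ∀ x, ρ v x = x) → V ≤ K → ∀ v ∈ V, ∀ x, ρ' v x = x) :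
    GoodK χ Sg ρ' K where
  fin := h.fin
  idx := h.idx
  tr := h.tr
  lv := by
    obtain ⟨V, hV, h1, h2, h3⟩ := h.lv
    exact ⟨V, hV, h1, h' V (Sg.normal V hV) h2 h1, h3⟩

theorem GoodK.coind {M : Type} [AddCommGroup M] [Module (ZMod p) M]
    {ρ : Representation (ZMod p) G M} {K : Subgroup G} (h : GoodK χ Sg ρ K) :
    GoodK χ Sg (ci K (ρ.comp K.subtype)) K :=
  h.ofTriv fun V hN hV hVK v hv f => Subtype.ext (by
    funext g
    rw [ci_apply]
    have h1 := hN.conj_mem v hv g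
    have h2 : g * v = ((⟨_, hVK h1⟩ : K) : G) * g := by simp
    rw [h2, CI_apply]
    exact hV _ h1 _)

theorem GoodK.exists_compl {M : Type} [AddCommGroup M] [Module (ZMod p) M]
    [Module.Finite (ZMod p) M] {ρ : Representation (ZMod p) G M} {K : Subgroup G}
    (h : GoodK χ Sg ρ K) : ∃ (C : Type) (_ : AddCommGroup C) (_ : Module (ZMod p) C)
      (_ : Module.Finite (ZMod p) C) (τ : Representation (ZMod p) G C),
      GoodK χ Sg τ K ∧ Nonempty (Spl (ci K (ρ.comp K.subtype)) ρ τ) := by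
  haveI := h.fin
  refine ⟨cmpl K ρ, inferInstance, inferInstance, inferInstance, cmplRep K ρ,
    h.ofTriv (M' := cmpl K ρ) fun V hN hV hVK v hv f => Subtype.ext ?_, ⟨cmplSpl K ρ h.idx⟩⟩
  change ci K (ρ.comp K.subtype) v (f : CI K (ρ.comp K.subtype)) = f
  apply Subtype.ext
  funext g
  rw [ci_apply]
  have h1 := hN.conj_mem v hv g
  have h2 : g * v = ((⟨_, hVK h1⟩ : K) : G) * g := by simp
  rw [h2, CI_apply]
  exact hV _ h1 _

theorem GoodK.mono {M M' : Type} [AddCommGroup M] [Module (ZMod p) M] [AddCommGroup M']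
    [Module (ZMod p) M'] {ρ : Representation (ZMod p) G M} {ρ' : Representation (ZMod p) G M'}
    {K : Subgroup G} (h : GoodK χ Sg ρ K) (φ : M →ₗ[ZMod p] M')
    (hφ : ∀ h m, φ (ρ h m) = ρ' h (φ m)) (hs : Function.Surjective φ) : GoodK χ Sg ρ' K :=
  h.ofTriv fun V _ hV _ v hv x => by
    obtain ⟨y, rfl⟩ := hs x
    rw [← hφ, hV v hv y]

theorem exists_goodK (hχ : HasLevel Sg (idG G) χ) {M : Type} [AddCommGroup M] [Module (ZMod p) M]
    (ρ : Representation (ZMod p) G M) (hρ : HasLevel Sg (idG G) ρ) : ∃ K, GoodK χ Sg ρ K := by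
  obtain ⟨V1, hV1, h1⟩ := hχ
  obtain ⟨V2, hV2, h2⟩ := hρ
  obtain ⟨V, hV, hVV1, hVV2⟩ := Sg.directed V1 hV1 V2 hV2
  haveI hN := Sg.normal V hV
  haveI hF := Sg.finiteIndex V hV
  let P : Sylow p (G ⧸ V) := default
  let K : Subgroup G := (P : Subgroup (G ⧸ V)).comap (QuotientGroup.mk' V)
  have hVK : V ≤ K := fun v hv => by
    change (QuotientGroup.mk' V) v ∈ (P : Subgroup (G ⧸ V))
    rw [QuotientGroup.mk'_apply, (QuotientGroup.eq_one_iff v).2 hv]
    exact one_mem _
  have hKi : K.index = (P : Subgroup (G ⧸ V)).index :=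
    Subgroup.index_comap_of_surjective _ (QuotientGroup.mk'_surjective V)
  haveI hKF : K.FiniteIndex := Subgroup.finiteIndex_of_le hVK
  have hidx : (K.index : ZMod p) ≠ 0 := by
    rw [hKi, Ne, ZMod.natCast_eq_zero_iff]
    exact P.not_dvd_index
  -- elements of `K` have a power in `V`
  have hpow : ∀ g ∈ K, ∃ m : ℕ, g ^ p ^ m ∈ V := by
    intro g hg
    obtain ⟨m, hm⟩ := P.isPGroup' ⟨QuotientGroup.mk' V g, hg⟩
    refine ⟨m, ?_⟩
    have := congrArg Subtype.val hm
    change (QuotientGroup.mk' V g) ^ p ^ m = 1 at this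
    rw [← map_pow] at this
    exact (QuotientGroup.eq_one_iff _).1 this
  have hχc : ∀ g, ∃ c : ZMod p, ∀ x, χ g x = c * x := fun g => ⟨χ g 1, fun x => by
    have := (χ g).map_smul x 1
    rw [smul_eq_mul, mul_one, smul_eq_mul] at this
    rw [this, mul_comm]⟩
  have htr : ∀ g ∈ K, ∀ x, χ g x = x := by
    intro g hg
    obtain ⟨c, hc⟩ := hχc g
    obtain ⟨m, hm⟩ := hpow g hg
    have h3 : ∀ n : ℕ, ∀ x, χ (g ^ n) x = c ^ n * x := by
      intro n
      induction n with
      | zero => intro x; simp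
      | succ n ih => intro x; rw [pow_succ, map_mul, Module.End.mul_apply, hc, ih]; ring
    have h4 : c ^ p ^ m = 1 := by
      have h5 := h1 _ (show (idG G) (g ^ p ^ m) ∈ V1 from hVV1 hm) 1
      rw [h3, mul_one] at h5
      exact h5
    rw [ZMod.pow_card_pow] at h4
    intro x
    rw [hc, h4, one_mul]
  refine ⟨K, ⟨hKF, hidx, htr, V, hV, hVK, fun v hv x => h2 v (hVV2 hv) x, ?_⟩⟩
  · have h6 : IsPGroup p (K ⧸ V.subgroupOf K) := by
      intro q
      obtain ⟨g, rfl⟩ := QuotientGroup.mk_surjective q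
      obtain ⟨m, hm⟩ := hpow g g.2
      refine ⟨m, ?_⟩
      rw [← QuotientGroup.mk_pow]
      exact (QuotientGroup.eq_one_iff _).2 hm
    haveI : Finite (K ⧸ V.subgroupOf K) := inferInstance
    obtain ⟨n, hn⟩ := (IsPGroup.iff_card).1 h6
    exact ⟨n, hn⟩

theorem comp_triv {K : Subgroup G} (h : ∀ g ∈ K, ∀ x, χ g x = x) :
    χ.comp K.subtype = χ1 (ZMod p) K := by
  ext g
  exact h g g.2 1

/-- Global data over `K` -/
def QData.glob (D : QData hS X χ) {K : Subgroup G} (hF : K.FiniteIndex)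
    (hidx : (K.index : ZMod p) ≠ 0)
    (hop : ∃ V ∈ Sg.carrier, V ≤ K) (htr : ∀ g ∈ K, ∀ x, χ g x = x) :
    GlobData hS ((idG G).comp K.subtype) X p :=
  { D.pre K hF hidx hop htr with
    t3ge := by
      have h1 := Cx.Hom.ck_iso (loc hS (idG G) X (ci K (χ.comp K.subtype)))
        (loc hS ((idG G).comp K.subtype) X (χ.comp K.subtype))
        (shapiro K _) (shapiro K _) (fun n x => rfl) 2
      rw [comp_triv htr] at h1
      change 1 ≤ (loc hS ((idG G).comp K.subtype) X (χ1 (ZMod p) K)).ck 2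
      rw [← h1, ← comp_triv htr]
      refine D.t3Q.trans ?_
      haveI : Module.Finite (ZMod p) ((cochCx Sl (idG G) (ci K (χ.comp K.subtype)) X).H 2) := by
        rw [comp_triv htr]
        haveI := sl_fin2 (D.pre K hF hidx hop htr).toLocData hS
          (PO.top (S := Sg) (ι := (idG G).comp K.subtype))
          (χ1 (ZMod p) K) (fun u _ x => rfl) 2 le_rfl
        exact Module.Finite.equiv ((shapiro (S := Sl) (ι := idG G) (X := X) K _).H 2).symm
      refine Cx.Hom.ck_le _ _ (cochMap (ciTr K χ) (ciTr_equiv K χ))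
        (cochMap (ciTr K χ) (ciTr_equiv K χ)) (fun n x => rfl) 2 ?_
      have s := cmplSpl K χ hidx
      intro z
      refine ⟨((cmplSpl K χ hidx).Hn (S := Sl) (ι := idG G) (X := X) 2).symm (z, 0), ?_⟩
      have h2 := ((cmplSpl K χ hidx).Hn (S := Sl) (ι := idG G) (X := X) 2).apply_symm_apply (z, 0)
      rw [Spl.Hn_apply] at h2
      exact congrArg Prod.fst h2 }

end

end Fermat.Agent.CFT
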