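import Fermat.Agent.CFT.E6

/-!
# Duality over the base field: the class of all modules with a level
-/

set_option autoImplicit false
set_option linter.unusedSectionVars false
set_option linter.unusedVariables false
set_option linter.style.haveILetI false

namespace Fermat.Agent.CFT

open Module

section Gen

variable {k : Type} [Field k] {G : Type} [Group G] {S : Sys G} {X : Type} [MulAction G X]
  {M M' : Type} [AddCommGroup M] [Module k M] [AddCommGroup M'] [Module k M']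
  (K : Subgroup G) [K.FiniteIndex] (hK : (K.index : k) ≠ 0) (ρ : Representation k G M)
  (ρ' : Representation k G M')

include hK

/-- the trace is surjective on cohomology -/
theorem tr_surj (n : ℕ) : Function.Surjective
    ((cochMap (S := S) (ι := idG G) (X := X) (ciTr K ρ) (ciTr_equiv K ρ)).H n) := by
  intro z
  refine ⟨((cmplSpl K ρ hK).Hn (S := S) (ι := idG G) (X := X) n).symm (z, 0), ?_⟩
  have h2 := ((cmplSpl K ρ hK).Hn (S := S) (ι := idG G) (X := X) n).apply_symm_apply (z, 0)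
  rw [Spl.Hn_apply] at h2
  exact congrArg Prod.fst h2

theorem surj_of_K (φ : M →ₗ[k] M') (hφ : ∀ h m, φ (ρ h m) = ρ' h (φ m)) (n : ℕ)
    (hs : Function.Surjective ((cochMap (S := S) (ι := (idG G).comp K.subtype) (X := X)
      (ρ := ρ.comp K.subtype) (ρ' := ρ'.comp K.subtype) φ (fun h m => hφ _ m)).H n)) :
    Function.Surjective ((cochMap (S := S) (ι := idG G) (X := X) φ hφ).H n) := by
  intro z
  obtain ⟨w, rfl⟩ := tr_surj (S := S) (X := X) K hK ρ' n z
  obtain ⟨y', hy'⟩ := hs ((shapiro (S := S) (ι := idG G) (X := X) K (ρ'.comp K.subtype)).H n w)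
  obtain ⟨y, rfl⟩ := ((shapiro (S := S) (ι := idG G) (X := X) K (ρ.comp K.subtype)).H n).surjective y'
  refine ⟨(cochMap (S := S) (ι := idG G) (X := X) (ciTr K ρ) (ciTr_equiv K ρ)).H n y, ?_⟩
  have h1 : (cochMap (S := S) (ι := idG G) (X := X) (ciMap K (ρ.comp K.subtype)
      (ρ'.comp K.subtype) φ (fun u a => hφ _ a)) (ciMap_equiv K _ _ φ _)).H n y = w := by
    apply ((shapiro (S := S) (ι := idG G) (X := X) K (ρ'.comp K.subtype)).H n).injective
    rw [← hy']
    obtain ⟨x, hx, rfl⟩ := Cx.exists_cl _ y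
    rfl
  rw [← h1]
  obtain ⟨x, hx, rfl⟩ := Cx.exists_cl _ y
  rw [Cx.Hom.H_cl, Cx.Hom.H_cl, Cx.Hom.H_cl, Cx.Hom.H_cl]
  congr 1
  apply cv_injective
  funext a t
  change φ (ciTr K ρ (cv x a t)) = ciTr K ρ' (ciMap K (ρ.comp K.subtype) (ρ'.comp K.subtype) φ
    (fun u a => hφ _ a) (cv x a t))
  haveI := Fintype.ofFinite (RC K)
  rw [ciTr_apply, ciTr_apply, map_sum]
  refine Finset.sum_congr rfl fun q _ => ?_
  rw [hφ, ciMap_apply]

omit [K.FiniteIndex] hK

theorem single_equiv (χ : Representation k G k) (m : ℕ) (j : Fin m) (h : G) (z : k) :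
    LinearMap.single k (fun _ : Fin m => k) j (χ h z) =
      powRep χ m h (LinearMap.single k (fun _ : Fin m => k) j z) := by
  funext i
  rw [powRep_apply]
  by_cases hij : i = j
  · subst hij; simp
  · simp [Pi.single_eq_of_ne hij]

/-- cohomology of a power of a character -/
noncomputable def powEquiv (χ : Representation k G k) (m : ℕ) (n : ℕ) :
    (cochCx S (idG G) (powRep χ m) X).H n ≃ₗ[k] (Fin m → (cochCx S (idG G) χ X).H n) :=
  Cx.piEquiv (C := fun _ : Fin m => cochCx S (idG G) χ X)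
    (D := cochCx S (idG G) (powRep χ m) X)
    (fun j => cochMap (LinearMap.proj j) (fun h z => rfl))
    (fun j => cochMap (LinearMap.single k (fun _ : Fin m => k) j) (single_equiv χ m j))
    (fun j n F => by
      apply cv_injective
      funext a x
      simp [cv_cochMap])
    (fun j l hjl n F => by
      apply cv_injective
      funext a x
      simp [cv_cochMap, hjl])
    (fun n F => by
      apply cv_injective
      funext b x
      have hsum : ∀ s : Finset (Fin m), cv (∑ j ∈ s,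
          (cochMap (S := S) (ι := idG G) (X := X) (ρ := χ) (ρ' := powRep χ m)
            (LinearMap.single k (fun _ : Fin m => k) j) (single_equiv χ m j)).f n
          ((cochMap (S := S) (ι := idG G) (X := X) (ρ := powRep χ m) (ρ' := χ)
            (LinearMap.proj j) (fun h z => rfl)).f n F)) b x
          = ∑ j ∈ s, Pi.single j (cv F b x j) := by
        intro s
        induction s using Finset.induction_on with
        | empty => simp
        | insert a s ha ih =>
          rw [Finset.sum_insert ha, Finset.sum_insert ha, cv_add, Pi.add_apply, Pi.add_apply, ih]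
          rfl
      rw [hsum]
      exact Finset.univ_sum_single _) n

end Gen

section

variable {p : ℕ} [hp : Fact p.Prime] {G : Type} [Group G] {Sg Sl : Sys G}
  {hS : ∀ U ∈ Sg.carrier, ∃ V ∈ Sl.carrier, V ≤ U} {X : Type} [MulAction G X]
  {χ : Representation (ZMod p) G (ZMod p)} (D : QData hS X χ)
  {M M' : Type} [AddCommGroup M] [Module (ZMod p) M] [AddCommGroup M'] [Module (ZMod p) M']
  [Module.Finite (ZMod p) M] [Module.Finite (ZMod p) M']
  (ρ : Representation (ZMod p) G M) (ρ' : Representation (ZMod p) G M')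
  {K : Subgroup G}

/-- the data over a good subgroup -/
def QData.gl (hK : GoodK χ Sg ρ K) : GlobData hS ((idG G).comp K.subtype) X p :=
  D.glob hK.fin hK.idx hK.op hK.tr

include D

theorem q_fin (hK : GoodK χ Sg ρ K) : (cochCx Sg (idG G) ρ Unit).Fin2 ∧
    (cochCx Sl (idG G) ρ X).Fin2 := by
  haveI := hK.fin
  obtain ⟨U, hU, hρ⟩ := hK.po
  constructor
  · intro n hn
    haveI := (chi_eq (D.gl ρ hK).baseG hU _ hρ).1 n hn
    haveI : Module.Finite (ZMod p) ((cochCx Sg (idG G) (ci K (ρ.comp K.subtype)) Unit).H n) :=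
      Module.Finite.equiv ((shapiro (S := Sg) (ι := idG G) (X := Unit) K (ρ.comp K.subtype)).H n).symm
    exact Module.Finite.of_surjective _ (tr_surj (S := Sg) (X := Unit) K hK.idx ρ n)
  · intro n hn
    haveI := sl_fin2 (D.gl ρ hK).toLocData hS hU _ hρ n hn
    haveI : Module.Finite (ZMod p) ((cochCx Sl (idG G) (ci K (ρ.comp K.subtype)) X).H n) :=
      Module.Finite.equiv ((shapiro (S := Sl) (ι := idG G) (X := X) K (ρ.comp K.subtype)).H n).symm
    exact Module.Finite.of_surjective _ (tr_surj (S := Sl) (X := X) K hK.idx ρ n)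

theorem q_surj (hK : GoodK χ Sg ρ K) (φ : M →ₗ[ZMod p] M')
    (hφ : ∀ h m, φ (ρ h m) = ρ' h (φ m)) (hs : Function.Surjective φ) :
    Function.Surjective ((cochMap (S := Sg) (ι := idG G) (X := Unit) (ρ := ρ) (ρ' := ρ') φ hφ).H 2) ∧
    Function.Surjective ((cochMap (S := Sl) (ι := idG G) (X := X) (ρ := ρ) (ρ' := ρ') φ hφ).H 2) := by
  haveI := hK.fin
  obtain ⟨U, hU, hρ⟩ := hK.po
  constructor
  · exact surj_of_K K hK.idx ρ ρ' φ hφ 2
      (H2_surjective (D.gl ρ hK).baseG hU _ hρ _ φ (fun h m => hφ _ m) hs)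
  · exact surj_of_K K hK.idx ρ ρ' φ hφ 2
      (sl_surj (D.gl ρ hK).toLocData hS hU _ hρ _ φ (fun h m => hφ _ m) hs)

/-- lower bound for `T³` -/
theorem q_t3_ge (hK : GoodK χ Sg ρ K) :
    finrank (ZMod p) (inv (dl χ ρ)) ≤ (loc hS (idG G) X ρ).ck 2 := by
  classical
  set m := finrank (ZMod p) (inv (dl χ ρ)) with hm
  let b := finBasis (ZMod p) (inv (dl χ ρ))
  obtain ⟨e, he⟩ := exists_dual_vectors (inv (dl χ ρ)) b
  have hinv : ∀ j g x, (b j : M →ₗ[ZMod p] ZMod p) (ρ g x) =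
      χ g ((b j : M →ₗ[ZMod p] ZMod p) x) := fun j g x => by
    have := congrArg (fun F : M →ₗ[ZMod p] ZMod p => F (ρ g x)) ((b j).2 g)
    simp only [dl_apply, Representation.inv_self_apply] at this
    exact this.symm
  let φ : M →ₗ[ZMod p] (Fin m → ZMod p) := LinearMap.pi fun j => (b j : M →ₗ[ZMod p] ZMod p)
  have hφ : ∀ g x, φ (ρ g x) = powRep χ m g (φ x) := fun g x => by
    funext j
    exact hinv j g x
  have hs : Function.Surjective φ := fun c => by
    refine ⟨∑ j, c j • e j, ?_⟩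
    funext i
    simp [φ, he]
  have h1 := (q_surj D ρ (powRep χ m) hK φ hφ hs).2
  haveI := (q_fin D ρ hK).2 2 le_rfl
  refine le_trans ?_ (Cx.Hom.ck_le (loc hS (idG G) X ρ) (loc hS (idG G) X (powRep χ m))
    (cochMap φ hφ) (cochMap φ hφ) (fun n x => rfl) 2 h1)
  -- powers
  obtain ⟨K', hK'⟩ := exists_goodK D.lev χ D.lev
  haveI := (q_fin D χ hK').2 2 le_rfl
  have h2 : (loc hS (idG G) X (powRep χ m)).ck 2 = m * (loc hS (idG G) X χ).ck 2 := by
    rw [Cx.Hom.ck, pi_ck (powEquiv (S := Sg) (X := Unit) χ m 2) (powEquiv (S := Sl) (X := X) χ m 2) _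
      (fun _ => (loc hS (idG G) X χ).H 2) (fun z j => by
        obtain ⟨x, hx, rfl⟩ := Cx.exists_cl _ z
        rfl), Finset.sum_const, Finset.card_univ, Fintype.card_fin, smul_eq_mul, Cx.Hom.ck]
  rw [h2]
  calc m = m * 1 := (mul_one _).symm
    _ ≤ _ := Nat.mul_le_mul_left _ D.t3Q

section Sigma

variable {A : Type} [AddCommGroup A] [Module (ZMod p) A] [Module.Finite (ZMod p) A]
  (σ : Representation (ZMod p) G A) (β : A ≃ₗ[ZMod p] (M →ₗ[ZMod p] ZMod p))
  (hβ : ∀ h a, β (σ h a) = dl χ ρ h (β a))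

omit D in
include hβ in
theorem invFun_eq (htr : ∀ g ∈ K, ∀ x, χ g x = x) [K.FiniteIndex] :
    finrank (ZMod p) (invFun (ρ.comp K.subtype)) =
      finrank (ZMod p) (inv (dl χ (ci K (ρ.comp K.subtype)))) := by
  have h1 : finrank (ZMod p) (inv (σ.comp K.subtype)) =
      finrank (ZMod p) (invFun (ρ.comp K.subtype)) := by
    rw [inv_congr (ρ := σ.comp K.subtype) (ρ' := dl (χ.comp K.subtype) (ρ.comp K.subtype)) β
      (fun h m => hβ h m), comp_triv htr, inv_dl_triv]
  rw [← h1, ← inv_congr (ciDual K χ ρ σ β) (ciDual_equiv K χ ρ σ β hβ)]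
  exact (invCi K (σ.comp K.subtype)).finrank_eq.symm

include hβ in
/-- `T³` over the base. -/
theorem q_t3_aux (hK : GoodK χ Sg ρ K) :
    (loc hS (idG G) X ρ).ck 2 = finrank (ZMod p) (inv (dl χ ρ)) := by
  haveI := hK.fin
  obtain ⟨U, hU, hρ⟩ := hK.po
  have hc := hK.coind
  obtain ⟨C, _, _, _, τ, hd, ⟨s⟩⟩ := hK.exists_compl
  have e1 : (loc hS (idG G) X (ci K (ρ.comp K.subtype))).ck 2 =
      (loc hS ((idG G).comp K.subtype) X (ρ.comp K.subtype)).ck 2 :=
    Cx.Hom.ck_iso _ _ (shapiro K _) (shapiro K _) (fun n x => rfl) 2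
  have e2 := t3_eq (D.gl ρ hK) hU _ hρ
  rw [e2] at e1
  have e3 := invFun_eq ρ σ β hβ hK.tr
  have e4 := (s.dual χ).inv_add
  haveI := (q_fin D ρ hK).1 2 le_rfl
  haveI := (q_fin D ρ hK).2 2 le_rfl
  haveI := (q_fin D τ hd).1 2 le_rfl
  haveI := (q_fin D τ hd).2 2 le_rfl
  have e5 := (s.rk_ck_add hS (ι := idG G) (X := X) 2).2
  have e6 := q_t3_ge D ρ hK
  have e7 := q_t3_ge D τ hd
  omega

omit D in
theorem GoodK.dual (hβ : ∀ h a, β (σ h a) = dl χ ρ h (β a)) (hK : GoodK χ Sg ρ K) :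
    GoodK χ Sg σ K :=
  hK.ofTriv fun V hN hV hVK v hv a => by
    apply β.injective
    rw [hβ]
    apply LinearMap.ext
    intro x
    rw [dl_apply, hV _ (inv_mem hv)]
    exact hK.tr v (hVK hv) _

end Sigma

theorem q_t3 (hK : GoodK χ Sg ρ K) :
    (loc hS (idG G) X ρ).ck 2 = finrank (ZMod p) (inv (dl χ ρ)) :=
  q_t3_aux D ρ (dl χ ρ) (LinearEquiv.refl _ _) (fun h a => rfl) hK

omit D in
theorem HasLevel.dual (hχ : HasLevel Sg (idG G) χ) {M : Type} [AddCommGroup M]
    [Module (ZMod p) M] {ρ : Representation (ZMod p) G M} (h : HasLevel Sg (idG G) ρ) :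
    HasLevel Sg (idG G) (dl χ ρ) := by
  obtain ⟨V1, hV1, h1⟩ := hχ
  obtain ⟨V2, hV2, h2⟩ := h
  obtain ⟨V, hV, hVV1, hVV2⟩ := Sg.directed V1 hV1 V2 hV2
  refine ⟨V, hV, fun g hg f => ?_⟩
  apply LinearMap.ext
  intro x
  have e1 : ρ g⁻¹ x = x := h2 g⁻¹ (hVV2 (inv_mem (show g ∈ V from hg))) x
  have e2 : χ g (f x) = f x := h1 g (hVV1 hg) _
  rw [dl_apply, e1, e2]

/-- The class of all representations with a level. -/
def clsQ : Cls hS (idG G) X χ where
  P M _ _ ρ := HasLevel Sg (idG G) ρ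
  lev h := h
  finG := fun h => by
    obtain ⟨K, hK⟩ := exists_goodK D.lev _ h
    exact (q_fin D _ hK).1
  finL := fun h => by
    obtain ⟨K, hK⟩ := exists_goodK D.lev _ h
    exact (q_fin D _ hK).2
  surjG := fun h φ hφ hs => by
    obtain ⟨K, hK⟩ := exists_goodK D.lev _ h
    exact (q_surj D _ _ hK φ hφ hs).1
  surjL := fun h φ hφ hs => by
    obtain ⟨K, hK⟩ := exists_goodK D.lev _ h
    exact (q_surj D _ _ hK φ hφ hs).2
  t3 := fun h => by
    obtain ⟨K, hK⟩ := exists_goodK D.lev _ h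
    exact q_t3 D _ hK
  dual := fun h => HasLevel.dual D.lev h
  pow m := by
    obtain ⟨V, hV, h⟩ := D.lev
    exact ⟨V, hV, fun g hg z => by funext j; exact h g hg _⟩
  ext := by
    rintro M _ _ _ ρ hρ m F hF
    obtain ⟨V1, hV1, h1⟩ := D.lev
    obtain ⟨V2, hV2, h2⟩ := hρ
    obtain ⟨V3, hV3, h3⟩ := Sg.directed V1 hV1 V2 hV2
    choose W hW hWl using fun j => inh_level (hF j)
    obtain ⟨V, hV, hVV3, hVW⟩ : ∃ V ∈ Sg.carrier, V ≤ V3 ∧ ∀ j, V ≤ W j := by
      have : ∀ s : Finset (Fin m), ∃ V ∈ Sg.carrier, V ≤ V3 ∧ ∀ j ∈ s, V ≤ W j := by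
        intro s
        induction s using Finset.induction_on with
        | empty => exact ⟨V3, hV3, le_rfl, by simp⟩
        | insert a s ha ih =>
          obtain ⟨V, hV, h4, h5⟩ := ih
          obtain ⟨V', hV', h6, h7⟩ := Sg.directed V hV (W a) (hW a)
          refine ⟨V', hV', h6.trans h4, fun j hj => ?_⟩
          rcases Finset.mem_insert.1 hj with rfl | hj
          · exact h7
          · exact h6.trans (h5 j hj)
      obtain ⟨V, hV, h4, h5⟩ := this Finset.univ
      exact ⟨V, hV, h4, fun j => h5 j (Finset.mem_univ _)⟩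
    refine ⟨V, hV, fun g hg y => ?_⟩
    obtain ⟨x, z⟩ := y
    rw [extRep_apply]
    have hg' : g ∈ V := hg
    have hρg : ρ g x = x := h2 g (h3.2 (hVV3 hg')) x
    refine Prod.ext hρg (funext fun j => ?_)
    change χ g (z j) + (inh (F j) g) (ρ g x) = z j
    rw [hWl j g (hVW j hg'), LinearMap.zero_apply, add_zero, h1 g (h3.1 (hVV3 hg'))]

section Sigma

variable {A : Type} [AddCommGroup A] [Module (ZMod p) A] [Module.Finite (ZMod p) A]
  (σ : Representation (ZMod p) G A) (β : A ≃ₗ[ZMod p] (M →ₗ[ZMod p] ZMod p))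
  (hβ : ∀ h a, β (σ h a) = dl χ ρ h (β a))

include hβ in
theorem q_duality_aux (hρ : HasLevel Sg (idG G) ρ) :
    (loc hS (idG G) X ρ).sh 2 = (loc hS (idG G) X σ).sh 1 := by
  obtain ⟨K, hK⟩ := exists_goodK D.lev _ hρ
  have hKσ := GoodK.dual ρ σ β hβ hK
  haveI := hK.fin
  obtain ⟨U, hU, hρU⟩ := hK.po
  obtain ⟨C, _, _, _, τ, hd, ⟨s⟩⟩ := hK.exists_compl
  have hdl := HasLevel.dual D.lev hρ
  have hlc : HasLevel Sg (idG G) τ := by
    obtain ⟨V, hV, -, h, -⟩ := hd.lv
    exact ⟨V, hV, fun g hg => h g hg⟩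
  have i1 := sh1_le_sh2 (clsQ D) ρ hρ
  have i2 := sh1_le_sh2 (clsQ D) τ hlc
  have e0 : (loc hS (idG G) X σ).sh 1 = (loc hS (idG G) X (dl χ ρ)).sh 1 :=
    loc_sh_congr hS (idG G) X β hβ 1
  -- decompositions
  haveI := (clsQ D).finG (ρ := ρ) hρ 2 le_rfl
  haveI := (clsQ D).finG (ρ := τ) hlc 2 le_rfl
  haveI := (clsQ D).finG (ρ := dl χ ρ) ((clsQ D).dual (ρ := ρ) hρ) 1 (by norm_num)
  haveI := (clsQ D).finG (ρ := dl χ τ) ((clsQ D).dual (ρ := τ) hlc) 1 (by norm_num)
  have a2 := s.sh_add hS (ι := idG G) (X := X) 2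
  have a1 := (s.dual χ).sh_add hS (ι := idG G) (X := X) 1
  -- the coinduced module
  have b2 : (loc hS (idG G) X (ci K (ρ.comp K.subtype))).sh 2 =
      (loc hS ((idG G).comp K.subtype) X (ρ.comp K.subtype)).sh 2 :=
    Cx.Hom.sh_iso _ _ (shapiro K _) (shapiro K _) (fun n x => rfl) 2
  have b1 : (loc hS (idG G) X (ci K (σ.comp K.subtype))).sh 1 =
      (loc hS ((idG G).comp K.subtype) X (σ.comp K.subtype)).sh 1 :=
    Cx.Hom.sh_iso _ _ (shapiro K _) (shapiro K _) (fun n x => rfl) 1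
  have c1 : (loc hS (idG G) X (ci K (σ.comp K.subtype))).sh 1 =
      (loc hS (idG G) X (dl χ (ci K (ρ.comp K.subtype)))).sh 1 :=
    loc_sh_congr hS (idG G) X (ciDual K χ ρ σ β) (ciDual_equiv K χ ρ σ β hβ) 1
  have d1 : (loc hS ((idG G).comp K.subtype) X (σ.comp K.subtype)).sh 1 =
      (loc hS ((idG G).comp K.subtype) X (dl (χ.comp K.subtype) (ρ.comp K.subtype))).sh 1 :=
    loc_sh_congr hS ((idG G).comp K.subtype) X β (fun h a => hβ h a) 1
  rw [comp_triv hK.tr] at d1
  have f := (K_duality (D.gl ρ hK) hU _ hρU).1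
  change (loc hS (idG G) X (dl χ ρ)).sh 1 ≤ _ at i1
  change (loc hS (idG G) X (dl χ τ)).sh 1 ≤ _ at i2
  omega

end Sigma

/-- The duality between `Ш²` and `Ш¹`. -/
theorem q_duality (hρ : HasLevel Sg (idG G) ρ) :
    (loc hS (idG G) X ρ).sh 2 = (loc hS (idG G) X (dl χ ρ)).sh 1 :=
  q_duality_aux D ρ (dl χ ρ) (LinearEquiv.refl _ _) (fun h a => rfl) hρ

end

end Fermat.Agent.CFT
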