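import Fermat.Agent.CFT.Shapiro

/-!
# Euler characteristics and right exactness of `H²`
-/

set_option autoImplicit false
set_option linter.unusedSectionVars false
set_option linter.unusedVariables false
set_option linter.style.haveILetI false

namespace Fermat.Agent.CFT

open Module

namespace Cx

universe u v

variable {k : Type u} [Field k]

/-- the dimension of cohomology -/
noncomputable def h (C : Cx.{u, v} k) (n : ℕ) : ℕ := finrank k (C.H n)

/-- finiteness of cohomology in degrees `≤ 2` -/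
def Fin2 (C : Cx.{u, v} k) : Prop := ∀ n ≤ 2, Module.Finite k (C.H n)

/-- the truncated Euler characteristic -/
noncomputable def chi (C : Cx.{u, v} k) : ℤ := (C.h 0 : ℤ) - C.h 1 + C.h 2

theorem SES.fin2 {A C D : Cx.{u, v} k} {φ : Hom A C} {ψ : Hom C D} (hs : SES φ ψ)
    (hA : A.Fin2) (hD : D.Fin2) : C.Fin2 := fun n hn => by
  haveI := hA n hn; haveI := hD n hn
  exact hs.fin_mid

theorem SES.chi_eq {A C D : Cx.{u, v} k} {φ : Hom A C} {ψ : Hom C D} (hs : SES φ ψ)
    (hA : A.Fin2) (hD : D.Fin2) : C.chi + ψ.ck 2 = A.chi + D.chi := by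
  have hC := hs.fin2 hA hD
  haveI := hA 0 (by norm_num); haveI := hA 1 (by norm_num); haveI := hA 2 (by norm_num)
  haveI := hD 0 (by norm_num); haveI := hD 1 (by norm_num); haveI := hD 2 (by norm_num)
  haveI := hC 0 (by norm_num); haveI := hC 1 (by norm_num); haveI := hC 2 (by norm_num)
  have e0 := hs.rk_zero
  have m0 := hs.rk_mid 0
  have m1 := hs.rk_mid 1
  have m2 := hs.rk_mid 2
  have r0 := hs.rk_right 0
  have r1 := hs.rk_right 1
  have r2 := hs.rk_right 2
  have l0 : finrank k (A.H 1) = φ.rk 1 + ψ.ck 0 := hs.rk_left 0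
  have l1 : finrank k (A.H 2) = φ.rk 2 + ψ.ck 1 := hs.rk_left 1
  simp only [chi, h]
  omega

theorem Iso.h_eq {C D : Cx.{u, v} k} (e : Iso C D) (n : ℕ) : C.h n = D.h n := (e.H n).finrank_eq

theorem Iso.fin2 {C D : Cx.{u, v} k} (e : Iso C D) (hD : D.Fin2) : C.Fin2 := fun n hn => by
  haveI := hD n hn
  exact Module.Finite.equiv (e.H n).symm

theorem Iso.chi_eq {C D : Cx.{u, v} k} (e : Iso C D) : C.chi = D.chi := by
  simp only [chi, e.h_eq]

end Cx

section

variable {p : ℕ} [Fact p.Prime] {G H : Type} [Group G] [Group H] (S : Sys G) (ι : H →* G)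

/-- the complex of a subgroup with trivial coefficients -/
abbrev tc (p : ℕ) [Fact p.Prime] (U : Subgroup H) : Cx.{0, 0} (ZMod p) :=
  cochCx S (ι.comp U.subtype) (Representation.trivial (ZMod p) U (ZMod p)) Unit

/-- The family of open normal subgroups of `p`-power index. -/
structure PO (p : ℕ) (U : Subgroup H) : Prop where
  normal : U.Normal
  index : ∃ m, U.index = p ^ m
  isOpen : ∃ V ∈ S.carrier, V.comap ι ≤ U

variable {S ι}

theorem PO.top : PO S ι p (⊤ : Subgroup H) :=
  ⟨inferInstance, ⟨0, by simp⟩, S.nonempty.choose, S.nonempty.choose_spec, le_top⟩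

theorem PO.finiteIndex {U : Subgroup H} (hU : PO S ι p U) : U.FiniteIndex := by
  obtain ⟨m, hm⟩ := hU.index
  exact ⟨by rw [hm]; exact (pow_pos (Fact.out : p.Prime).pos m).ne'⟩

/-- The basic numerical hypothesis. -/
def BaseHyp (S : Sys G) (ι : H →* G) (p : ℕ) [Fact p.Prime] (a : ℤ) : Prop :=
  ∀ U : Subgroup H, PO S ι p U → (tc S ι p U).Fin2 ∧ (tc S ι p U).chi = -a * U.index

variable {M M' : Type} [AddCommGroup M] [Module (ZMod p) M] [AddCommGroup M'] [Module (ZMod p) M']

theorem TrivOn.hasLevel {U : Subgroup H} (hU : PO S ι p U) {ρ : Representation (ZMod p) H M}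
    (hρ : TrivOn U ρ) : HasLevel S ι ρ := by
  obtain ⟨V, hV, h⟩ := hU.isOpen
  exact ⟨V, hV, fun g hg x => hρ g (h hg) x⟩

theorem TrivOn.comp_eq {U : Subgroup H} {ρ : Representation (ZMod p) H M} (hρ : TrivOn U ρ) :
    ρ.comp U.subtype = Representation.trivial (ZMod p) U M := by
  ext u x
  exact hρ u u.2 x

theorem trivOn_ci {U : Subgroup H} (hN : U.Normal) :
    TrivOn U (ci U (Representation.trivial (ZMod p) U M)) := fun u hu f => Subtype.ext (by
  funext h
  rw [ci_apply]
  have h1 : h * u = ((⟨_, hN.conj_mem u hu h⟩ : U) : H) * h := by simp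
  rw [h1, CI_apply]
  rfl)

theorem triv_num {U : Subgroup H} [Module.Finite (ZMod p) M] (h : (tc S ι p U).Fin2) :
    (cochCx S (ι.comp U.subtype) (Representation.trivial (ZMod p) U M) Unit).Fin2 ∧
    ∀ n, (cochCx S (ι.comp U.subtype) (Representation.trivial (ZMod p) U M) Unit).h n =
      finrank (ZMod p) M * (tc S ι p U).h n ∨ 2 < n := by
  have e := fun n => trivEquiv (S := S) (ι := ι.comp U.subtype) (H := U) (X := Unit)
    (k := ZMod p) (W := M) n
  constructor
  · intro n hn
    haveI := h n hn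
    exact Module.Finite.equiv (e n).symm
  · intro n
    by_cases hn : n ≤ 2
    · left
      haveI := h n hn
      rw [Cx.h, (e n).finrank_eq, Module.finrank_pi_fintype, Finset.sum_const, Finset.card_univ,
        Fintype.card_fin, smul_eq_mul, Cx.h]
    · right; omega

theorem triv_chi {U : Subgroup H} [Module.Finite (ZMod p) M] (h : (tc S ι p U).Fin2) :
    (cochCx S (ι.comp U.subtype) (Representation.trivial (ZMod p) U M) Unit).chi =
      finrank (ZMod p) M * (tc S ι p U).chi := by
  obtain ⟨-, h2⟩ := triv_num (M := M) h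
  have h0 := (h2 0).resolve_right (by norm_num)
  have h1 := (h2 1).resolve_right (by norm_num)
  have h2 := (h2 2).resolve_right (by norm_num)
  simp only [Cx.chi, h0, h1, h2]
  push_cast
  ring

theorem ci_fin2 {U : Subgroup H} [Module.Finite (ZMod p) M] (h : (tc S ι p U).Fin2) :
    (cochCx S ι (ci U (Representation.trivial (ZMod p) U M)) Unit).Fin2 :=
  (shapiro (S := S) (ι := ι) (X := Unit) U _).fin2 (triv_num h).1

theorem ci_chi {U : Subgroup H} [Module.Finite (ZMod p) M] (h : (tc S ι p U).Fin2) :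
    (cochCx S ι (ci U (Representation.trivial (ZMod p) U M)) Unit).chi =
      finrank (ZMod p) M * (tc S ι p U).chi := by
  rw [(shapiro (S := S) (ι := ι) (X := Unit) U _).chi_eq, triv_chi h]

theorem ci_h {U : Subgroup H} [Module.Finite (ZMod p) M] (h : (tc S ι p U).Fin2) {n : ℕ}
    (hn : n ≤ 2) :
    (cochCx S ι (ci U (Representation.trivial (ZMod p) U M)) Unit).h n =
      finrank (ZMod p) M * (tc S ι p U).h n := by
  rw [(shapiro (S := S) (ι := ι) (X := Unit) U _).h_eq]
  exact ((triv_num h).2 n).resolve_right (by omega)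

/-- the complex of `H` itself with trivial coefficients. -/
def topIso {W : Type} [AddCommGroup W] [Module (ZMod p) W] :
    Cx.Iso (cochCx S ι (Representation.trivial (ZMod p) H W) Unit)
      (cochCx S (ι.comp (⊤ : Subgroup H).subtype) (Representation.trivial (ZMod p) _ W) Unit) :=
  trivIso (by
    ext g
    constructor
    · rintro ⟨h, rfl⟩; exact ⟨⟨h, trivial⟩, rfl⟩
    · rintro ⟨h, rfl⟩; exact ⟨h.1, rfl⟩)

variable [Module.Finite (ZMod p) M] [Module.Finite (ZMod p) M']

/-- first half of the Euler characteristic computation -/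
theorem chi_le' {a : ℤ} (f2 : (cochCx S ι (Representation.trivial (ZMod p) H (ZMod p)) Unit).Fin2)
    (c2 : (cochCx S ι (Representation.trivial (ZMod p) H (ZMod p)) Unit).chi = -a)
    {U : Subgroup H} (hU : PO S ι p U) (n : ℕ) :
    ∀ (M : Type) [AddCommGroup M] [Module (ZMod p) M] [Module.Finite (ZMod p) M]
      (ρ : Representation (ZMod p) H M), TrivOn U ρ → finrank (ZMod p) M = n →
      (cochCx S ι ρ Unit).Fin2 ∧ (cochCx S ι ρ Unit).chi ≤ -a * n := by
  induction n using Nat.strong_induction_on with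
  | _ n ih =>
    intro M _ _ _ ρ hρ hn
    haveI : Finite M := Module.finite_of_finite (ZMod p)
    rcases Nat.eq_zero_or_pos n with rfl | hpos
    · have hM : Subsingleton M := Module.finrank_zero_iff.1 hn
      have hH : ∀ i, Subsingleton ((cochCx S ι ρ Unit).H i) := fun i => by
        have : Subsingleton ((cochCx S ι ρ Unit).X i) :=
          ⟨fun F F' => cv_injective (by funext a x; exact Subsingleton.elim _ _)⟩
        infer_instance
      constructor
      · intro i _
        haveI := hH i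
        infer_instance
      · have : ∀ i, (cochCx S ι ρ Unit).h i = 0 := fun i => by
          haveI := hH i
          exact Module.finrank_zero_of_subsingleton
        simp [Cx.chi, this]
    · haveI : Nontrivial M := Module.nontrivial_of_finrank_pos (R := ZMod p) (by omega)
      haveI := hU.normal
      obtain ⟨m, hm⟩ := hU.index
      obtain ⟨x, hx0, hx⟩ := exists_fixed ρ (hρ.unip hm)
      let W := Submodule.span (ZMod p) {x}
      have hW : ∀ g, W ≤ W.comap (ρ g) := fun g => by
        rw [Submodule.span_singleton_le_iff_mem, Submodule.mem_comap, hx g]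
        exact Submodule.mem_span_singleton_self x
      have hQ : TrivOn U (ρ.quotient W hW) := fun u hu y => by
        obtain ⟨y, rfl⟩ := Submodule.Quotient.mk_surjective _ y
        change Submodule.Quotient.mk (ρ u y) = _
        rw [hρ u hu]
      have hfr : finrank (ZMod p) (M ⧸ W) + 1 = n := by
        rw [← hn, ← Submodule.finrank_quotient_add_finrank W, finrank_span_singleton hx0]
      obtain ⟨f1, c1⟩ := ih _ (by omega) (M ⧸ W) (ρ.quotient W hW) hQ rfl
      have hs := cochSES (S := S) (ι := ι) (X := Unit)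
        (ρ := Representation.trivial (ZMod p) H (ZMod p)) (ρ' := ρ) (ρ'' := ρ.quotient W hW)
        (LinearMap.toSpanSingleton (ZMod p) M x) (fun h c => by simp [hx])
        W.mkQ (fun h y => rfl)
        (fun c d hcd => by
          simp only [LinearMap.toSpanSingleton_apply] at hcd
          exact smul_left_injective _ hx0 hcd)
        (fun y => by
          rw [Submodule.mkQ_apply, Submodule.Quotient.mk_eq_zero, Submodule.mem_span_singleton]
          rfl)
        (Submodule.mkQ_surjective _) (hρ.hasLevel hU)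
      refine ⟨hs.fin2 f2 f1, ?_⟩
      have := hs.chi_eq f2 f1
      rw [c2] at this
      have h3 : (0 : ℤ) ≤ ((cochMap (S := S) (ι := ι) (X := Unit) (ρ := ρ) W.mkQ
        (ρ' := ρ.quotient W hW) (fun h y => rfl)).ck 2 : ℤ) := Int.natCast_nonneg _
      have h4 : (n : ℤ) = finrank (ZMod p) (M ⧸ W) + 1 := by exact_mod_cast hfr.symm
      rw [h4]
      linarith

/-- first half of the Euler characteristic computation -/
theorem chi_le {a : ℤ} (hB : BaseHyp S ι p a) {U : Subgroup H} (hU : PO S ι p U) (n : ℕ) :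
    ∀ (M : Type) [AddCommGroup M] [Module (ZMod p) M] [Module.Finite (ZMod p) M]
      (ρ : Representation (ZMod p) H M), TrivOn U ρ → finrank (ZMod p) M = n →
      (cochCx S ι ρ Unit).Fin2 ∧ (cochCx S ι ρ Unit).chi ≤ -a * n := by
  have ht := hB ⊤ PO.top
  exact chi_le' (topIso.fin2 ht.1) (by rw [topIso.chi_eq, ht.2]; simp) hU n

/-- The Euler characteristic. -/
theorem chi_eq {a : ℤ} (hB : BaseHyp S ι p a) {U : Subgroup H} (hU : PO S ι p U)
    (ρ : Representation (ZMod p) H M) (hρ : TrivOn U ρ) :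
    (cochCx S ι ρ Unit).Fin2 ∧ (cochCx S ι ρ Unit).chi = -a * finrank (ZMod p) M := by
  obtain ⟨f1, c1⟩ := chi_le hB hU _ M ρ hρ rfl
  refine ⟨f1, le_antisymm c1 ?_⟩
  haveI := hU.normal
  haveI := hU.finiteIndex
  have e := hρ.comp_eq
  -- embedding in the coinduced module
  let N := CI U (ρ.comp U.subtype)
  let W : Submodule (ZMod p) N := LinearMap.range (ciUnit U ρ)
  have hW : ∀ g, W ≤ W.comap (ci U (ρ.comp U.subtype) g) := fun g => by
    rintro _ ⟨m, rfl⟩
    exact ⟨ρ g m, ciUnit_equiv U ρ g m⟩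
  have hci : TrivOn U (ci U (ρ.comp U.subtype)) := by
    rw [e]; exact trivOn_ci hU.normal
  have hQ : TrivOn U ((ci U (ρ.comp U.subtype)).quotient W hW) := fun u hu y => by
    obtain ⟨y, rfl⟩ := Submodule.Quotient.mk_surjective _ y
    change Submodule.Quotient.mk (ci U (ρ.comp U.subtype) u y) = _
    rw [hci u hu]
  obtain ⟨f2, c2⟩ := chi_le hB hU _ (N ⧸ W) ((ci U (ρ.comp U.subtype)).quotient W hW) hQ rfl
  have hs := cochSES (S := S) (ι := ι) (X := Unit)
    (ρ := ρ) (ρ' := ci U (ρ.comp U.subtype)) (ρ'' := (ci U (ρ.comp U.subtype)).quotient W hW)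
    (ciUnit U ρ) (ciUnit_equiv U ρ) W.mkQ (fun h y => rfl) (ciUnit_injective U ρ)
    (fun y => by rw [Submodule.mkQ_apply, Submodule.Quotient.mk_eq_zero]; rfl)
    (Submodule.mkQ_surjective _) (hci.hasLevel hU)
  have h5 := hs.chi_eq f1 f2
  have h6 : (cochCx S ι (ci U (ρ.comp U.subtype)) Unit).chi =
      -a * (U.index * finrank (ZMod p) M) := by
    have h7 := ci_chi (M := M) (hB U hU).1
    rw [(hB U hU).2] at h7
    rw [e, h7]; ring
  have h8 : finrank (ZMod p) (N ⧸ W) + finrank (ZMod p) M = U.index * finrank (ZMod p) M := by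
    rw [← finrank_CI U (ρ.comp U.subtype), ← Submodule.finrank_quotient_add_finrank W,
      LinearMap.finrank_range_of_inj (ciUnit_injective U ρ)]
  have h9 : (0 : ℤ) ≤ ((cochMap (S := S) (ι := ι) (X := Unit) (ρ := ci U (ρ.comp U.subtype)) W.mkQ
        (ρ' := (ci U (ρ.comp U.subtype)).quotient W hW) (fun h y => rfl)).ck 2 : ℤ) :=
    Int.natCast_nonneg _
  have h10 : ((U.index : ℤ) * finrank (ZMod p) M) =
      finrank (ZMod p) (N ⧸ W) + finrank (ZMod p) M := by exact_mod_cast h8.symm
  rw [h10] at h6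
  linarith

/-- Right exactness of `H²`. -/
theorem H2_surjective {a : ℤ} (hB : BaseHyp S ι p a) {U : Subgroup H} (hU : PO S ι p U)
    (ρ : Representation (ZMod p) H M) (hρ : TrivOn U ρ) (ρ' : Representation (ZMod p) H M')
    (φ : M →ₗ[ZMod p] M') (hφ : ∀ h m, φ (ρ h m) = ρ' h (φ m)) (hsurj : Function.Surjective φ) :
    Function.Surjective ((cochMap (S := S) (ι := ι) (X := Unit) (ρ := ρ) (ρ' := ρ') φ hφ).H 2) := by
  let W : Submodule (ZMod p) M := LinearMap.ker φ
  have hW : ∀ g x, x ∈ W → ρ g x ∈ W := fun g x hx => by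
    rw [LinearMap.mem_ker] at hx ⊢
    rw [hφ, hx, map_zero]
  let σ : Representation (ZMod p) H W := ρ.subrepresentation W (fun g x hx => hW g x hx)
  have hρ' : TrivOn U ρ' := fun u hu y => by
    obtain ⟨x, rfl⟩ := hsurj y
    rw [← hφ, hρ u hu]
  have hσ : TrivOn U σ := fun u hu y => Subtype.ext (hρ u hu y)
  have hs := cochSES (S := S) (ι := ι) (X := Unit) (ρ := σ) (ρ' := ρ) (ρ'' := ρ')
    W.subtype (fun h x => rfl) φ hφ W.injective_subtype
    (fun y => by
      constructor
      · intro h; exact ⟨⟨y, h⟩, rfl⟩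
      · rintro ⟨x, rfl⟩; exact x.2)
    hsurj (hρ.hasLevel hU)
  obtain ⟨f1, c1⟩ := chi_eq hB hU σ hσ
  obtain ⟨f2, c2⟩ := chi_eq hB hU ρ hρ
  obtain ⟨f3, c3⟩ := chi_eq hB hU ρ' hρ'
  have h := hs.chi_eq f1 f3
  have h1 : finrank (ZMod p) M' + finrank (ZMod p) W = finrank (ZMod p) M := by
    rw [← LinearMap.finrank_range_add_finrank_ker φ, LinearMap.range_eq_top.2 hsurj,
      finrank_top]
  haveI := f3 2 le_rfl
  rw [← Cx.Hom.ck_eq_zero_iff]
  have h2 : (finrank (ZMod p) M : ℤ) = finrank (ZMod p) M' + finrank (ZMod p) W := by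
    exact_mod_cast h1.symm
  rw [c1, c2, c3, h2] at h
  have : (((cochMap (S := S) (ι := ι) (X := Unit) (ρ := ρ) (ρ' := ρ') φ hφ).ck 2 : ℕ) : ℤ) = 0 := by
    linarith
  exact_mod_cast this

end

end Fermat.Agent.CFT
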