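import Fermat.Agent.CFT.Gl25

/-!
# Duality for `T²` and the characterisation of global classes
-/

set_option autoImplicit false
set_option linter.unusedSectionVars false
set_option linter.unusedVariables false
set_option linter.style.haveILetI false

namespace Fermat.Agent.CFT

open Module

section

variable {k : Type} [Field k] {G H : Type} [Group G] [Group H] {Sg Sl : Sys G}
  {hS : ∀ U ∈ Sg.carrier, ∃ V ∈ Sl.carrier, V ≤ U} {ι : H →* G} {X : Type} [MulAction G X]
  {χ : Representation k H k} (K : Cls hS ι X χ)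
  {M : Type} [AddCommGroup M] [Module k M] [Module.Finite k M] (ρ : Representation k H M)
  (hρ : K.P M ρ)

/-- The map `T(E) → T(M)` for the extension attached to cocycles. -/
abbrev tE (hS : ∀ U ∈ Sg.carrier, ∃ V ∈ Sl.carrier, V ≤ U) (ι : H →* G) (X : Type)
    [MulAction G X] {m : ℕ} (f : Fin m → H → (M →ₗ[k] k)) (hf : ∀ j g h, f j (g * h) = f j g + dl χ ρ g (f j h)) :=
  Tmap (a := loc hS ι X (extRep f hf)) (c := loc hS ι X ρ)
    (cochMap (LinearMap.fst k M (Fin m → k)) (fun h x => rfl))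
    (cochMap (LinearMap.fst k M (Fin m → k)) (fun h x => rfl)) (fun n x => rfl)

include hρ

theorem ext_ck {m : ℕ} (F : Fin m → (cochCx Sg ι (dl χ ρ) Unit).X 1)
    (hF : ∀ j, (cochCx Sg ι (dl χ ρ) Unit).d 1 (F j) = 0)
    (hlin : ∀ c : Fin m → k, ∑ j, c j • F j ∈ (cochCx Sg ι (dl χ ρ) Unit).B 1 → ∀ j, c j = 0) :
    m ≤ (tE ρ hS ι X (fun j => inh (F j)) (fun j => inh_mul (hF j))).ck 1 := by
  classical
  let f : Fin m → H → (M →ₗ[k] k) := fun j => inh (F j)
  have hf : ∀ j g h, f j (g * h) = f j g + dl χ ρ g (f j h) := fun j => inh_mul (hF j)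
  have hE : K.P (M × (Fin m → k)) (extRep f hf) := K.ext hρ F hF
  have hpow := K.pow m
  have hs := fun (S' : Sys G) (X' : Type) [MulAction G X'] (hlev : HasLevel S' ι (extRep f hf)) =>
    cochSES (S := S') (ι := ι) (X := X') (ρ := powRep χ m) (ρ' := extRep f hf) (ρ'' := ρ)
    (LinearMap.inr k M (Fin m → k)) (fun h x => by
      rw [LinearMap.inr_apply, LinearMap.inr_apply, extRep_apply]
      apply Prod.ext
      · simp
      · funext j; simp [powRep_apply]) (LinearMap.fst k M (Fin m → k)) (fun h x => rfl)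
    LinearMap.inr_injective
    (fun y => by
      constructor
      · intro h; exact ⟨y.2, Prod.ext h.symm rfl⟩
      · rintro ⟨x, rfl⟩; rfl)
    LinearMap.fst_surjective hlev
  have hlev1 := K.lev hE
  have hlev2 : HasLevel Sl ι (extRep f hf) := by
    obtain ⟨V, hV, h⟩ := hlev1
    obtain ⟨V', hV', h'⟩ := hS V hV
    exact ⟨V', hV', fun g hg => h g (h' hg)⟩
  haveI := K.finL hρ 2 le_rfl
  haveI := K.finL hE 2 le_rfl
  haveI := K.finL hpow 2 le_rfl
  have hnum := T_num (hs Sg Unit hlev1) (hs Sl X hlev2)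
    (a := loc hS ι X (powRep χ m)) (c := loc hS ι X (extRep f hf)) (e := loc hS ι X ρ)
    (fun n x => rfl) (fun n x => rfl)
    (K.surjG hE _ (fun h x => rfl) LinearMap.fst_surjective)
    (K.surjL hE _ (fun h x => rfl) LinearMap.fst_surjective)
  rw [K.t3 hE, K.t3 hpow, K.t3 hρ] at hnum
  change _ + (tE ρ hS ι X (fun j => inh (F j)) (fun j => inh_mul (hF j))).ck 1 = _ at hnum
  have hinv1 : finrank k (inv (dl χ (extRep f hf))) ≤ finrank k (inv (dl χ ρ)) := by
    have hinvE : ∀ Φ : inv (dl χ (extRep f hf)), ∀ g v,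
        (Φ : M × (Fin m → k) →ₗ[k] k) (extRep f hf g v) = χ g ((Φ : M × (Fin m → k) →ₗ[k] k) v) :=
      fun Φ g v => by
        have := congrArg (fun F : M × (Fin m → k) →ₗ[k] k => F (extRep f hf g v)) (Φ.2 g)
        simp only [dl_apply, Representation.inv_self_apply] at this
        exact this.symm
    have hsplit : ∀ Φ : M × (Fin m → k) →ₗ[k] k, ∀ x z, Φ (x, z) = Φ (x, 0) + Φ (0, z) :=
      fun Φ x z => by rw [← map_add, Prod.mk_add_mk, add_zero, zero_add]
    have hzero : ∀ Φ : inv (dl χ (extRep f hf)), ∀ z,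
        (Φ : M × (Fin m → k) →ₗ[k] k) (0, z) = 0 := by
      intro Φ
      let φ₀ : M →ₗ[k] k := (Φ : M × (Fin m → k) →ₗ[k] k) ∘ₗ LinearMap.inl k M _
      let L : (Fin m → k) →ₗ[k] k := (Φ : M × (Fin m → k) →ₗ[k] k) ∘ₗ LinearMap.inr k M _
      let c : Fin m → k := fun j => L fun i => if j = i then 1 else 0
      have hc : ∀ z, L z = ∑ j, z j * c j := fun z => L.pi_apply_eq_sum_univ z
      have hcob : ∀ g, inh (∑ j, c j • F j) g = dl χ ρ g φ₀ - φ₀ := by
        intro g
        have hlin : inh (∑ j, c j • F j) g = ∑ j, c j • inh (F j) g := by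
          have : ∀ s : Finset (Fin m), cv (∑ j ∈ s, c j • F j) () ![1, ι g] =
              ∑ j ∈ s, c j • cv (F j) () ![1, ι g] := by
            intro s
            induction s using Finset.induction_on with
            | empty => simp
            | insert a s ha ih =>
              rw [Finset.sum_insert ha, Finset.sum_insert ha, cv_add, Pi.add_apply, Pi.add_apply, ih]
              rfl
          exact this _
        rw [hlin]
        ext y
        have h1 := hinvE Φ g (ρ g⁻¹ y, 0)
        rw [extRep_apply, Representation.self_inv_apply, hsplit] at h1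
        have h2 : (Φ : M × (Fin m → k) →ₗ[k] k)
            (0, fun j => χ g ((0 : Fin m → k) j) + f j g y) = ∑ j, f j g y * c j := by
          have h3 := hc (fun j => χ g ((0 : Fin m → k) j) + f j g y)
          simp only [Pi.zero_apply, map_zero, zero_add] at h3 ⊢
          exact h3
        rw [h2] at h1
        simp only [LinearMap.sum_apply, LinearMap.smul_apply, LinearMap.sub_apply, dl_apply,
          smul_eq_mul]
        change ∑ j, c j * (f j g) y = χ g ((Φ : M × (Fin m → k) →ₗ[k] k) (ρ g⁻¹ y, 0)) -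
          (Φ : M × (Fin m → k) →ₗ[k] k) (y, 0)
        rw [← h1, add_sub_cancel_left]
        exact Finset.sum_congr rfl fun j _ => mul_comm _ _
      have hz : (cochCx Sg ι (dl χ ρ) Unit).d 1 (∑ j, c j • F j) = 0 := by
        rw [map_sum]
        exact Finset.sum_eq_zero fun j _ => by rw [map_smul, hF, smul_zero]
      have h5 := mem_B1_of_inh hz φ₀ hcob
      have hc0 : ∀ j, c j = 0 := hlin c h5
      intro z
      have := hc z
      simp only [hc0, mul_zero, Finset.sum_const_zero] at this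
      exact this
    let R : inv (dl χ (extRep f hf)) →ₗ[k] inv (dl χ ρ) :=
      { toFun := fun Φ => ⟨(Φ : M × (Fin m → k) →ₗ[k] k) ∘ₗ LinearMap.inl k M _, fun g => by
          ext y
          have h1 := hinvE Φ g (ρ g⁻¹ y, 0)
          rw [extRep_apply, Representation.self_inv_apply, hsplit, hzero, add_zero] at h1
          exact h1.symm⟩
        map_add' := fun _ _ => rfl
        map_smul' := fun _ _ => rfl }
    refine LinearMap.finrank_le_finrank_of_injective (f := R) ?_
    intro Φ Φ' hΦ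
    apply Subtype.ext
    apply LinearMap.ext
    rintro ⟨x, z⟩
    rw [hsplit Φ.1 x z, hsplit Φ'.1 x z, hzero Φ z, hzero Φ' z, add_zero, add_zero]
    exact congrArg (fun F : inv (dl χ ρ) => (F : M →ₗ[k] k) x) hΦ
  have hinv2 : m ≤ finrank k (inv (dl χ (powRep χ m))) := by
    let R : (Fin m → k) →ₗ[k] inv (dl χ (powRep χ m)) :=
      { toFun := fun c => ⟨Fintype.linearCombination k c, fun g => by
          ext j
          simp only [LinearMap.comp_apply, dl_apply, Fintype.linearCombination_apply, powRep_apply,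
            LinearMap.coe_single, smul_eq_mul, map_sum]
          refine Finset.sum_congr rfl fun i _ => ?_
          have h1 : χ g⁻¹ ((Pi.single j (1 : k) : Fin m → k) i) * c i =
              χ g⁻¹ ((Pi.single j (1 : k) : Fin m → k) i * c i) := by
            rw [mul_comm, ← smul_eq_mul, ← map_smul, smul_eq_mul, mul_comm]
          rw [h1, Representation.self_inv_apply]⟩
        map_add' := fun c d => by
          apply Subtype.ext
          ext j
          simp [mul_add]
        map_smul' := fun r c => by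
          apply Subtype.ext
          ext j
          simp }
    have hR : Function.Injective R := by
      intro c d h
      funext j
      have h1 := congrArg (fun F : inv (dl χ (powRep χ m)) =>
        (F : (Fin m → k) →ₗ[k] k) (Pi.single j 1)) h
      simpa [R, Fintype.linearCombination_apply_single] using h1
    have := LinearMap.finrank_le_finrank_of_injective hR
    rwa [Module.finrank_fin_fun] at this
  omega

omit hρ in
theorem exists_basis1 (C : Cx.{0, 0} k) [Module.Finite k (C.H 1)] : ∃ F : Fin (C.h 1) → C.X 1,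
    (∀ j, C.d 1 (F j) = 0) ∧ ∀ c : Fin (C.h 1) → k, ∑ j, c j • F j ∈ C.B 1 → ∀ j, c j = 0 := by
  classical
  let b := finBasis k (C.H 1)
  choose F hF hFb using fun j : Fin (C.h 1) => C.exists_cl (b j)
  refine ⟨F, hF, fun c hc => ?_⟩
  have h6 : ∑ j, c j • b j = 0 := by
    have h7 : ∀ s : Finset (Fin (C.h 1)), ∃ hs', (∑ j ∈ s, c j • b j : C.H 1) =
        C.cl 1 (∑ j ∈ s, c j • F j) hs' := by
      intro s
      induction s using Finset.induction_on with
      | empty => exact ⟨by simp, by simp only [Finset.sum_empty]; rfl⟩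
      | insert a s ha ih =>
        obtain ⟨hs', e⟩ := ih
        simp only [Finset.sum_insert ha]
        refine ⟨?_, ?_⟩
        · rw [map_add, hs', map_smul, hF, smul_zero, add_zero]
        · rw [e, ← hFb a]; rfl
    obtain ⟨hs', e⟩ := h7 Finset.univ
    rw [e]
    exact (Cx.cl_eq_zero _ _).2 hc
  exact (Fintype.linearIndependent_iff.1 b.linearIndependent) c h6

theorem h1_le_t2 : (cochCx Sg ι (dl χ ρ) Unit).h 1 ≤ finrank k ((Cx.T (loc hS ι X ρ)).H 1) := by
  haveI f1 := K.finG (K.dual hρ) 1 (by norm_num)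
  haveI f2 := K.finG hρ 2 le_rfl
  haveI f3 := K.finL hρ 1 (by norm_num)
  haveI := Cx.finite_T2 (loc hS ι X ρ)
  obtain ⟨F, hF, hlin⟩ := exists_basis1 (cochCx Sg ι (dl χ ρ) Unit)
  refine (ext_ck K ρ hρ F hF hlin).trans ?_
  exact LinearMap.finrank_le_finrank_of_surjective (f := Submodule.mkQ _)
    (Submodule.mkQ_surjective _)

theorem rk_le : (loc hS ι X ρ).rk 1 + (loc hS ι X (dl χ ρ)).rk 1 +
    (loc hS ι X (dl χ ρ)).sh 1 ≤ (cochCx Sl ι ρ X).h 1 + (loc hS ι X ρ).sh 2 := by
  haveI f1 := K.finG (K.dual hρ) 1 (by norm_num)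
  haveI f2 := K.finG hρ 2 le_rfl
  haveI f3 := K.finL hρ 1 (by norm_num)
  have h1 := h1_le_t2 K ρ hρ
  have h2 := Cx.finrank_T2 (loc hS ι X ρ)
  have h3 := Cx.Hom.h_source (loc hS ι X (dl χ ρ)) 1
  change _ = (cochCx Sl ι ρ X).h 1 + _ at h2
  omega

end

section cup

variable {k : Type} [Field k] {G H : Type} [Group G] [Group H] {S : Sys G} {ι : H →* G} {X : Type}
  [MulAction G X] {χ : Representation k H k} {A M : Type} [AddCommGroup A] [Module k A]
  [AddCommGroup M] [Module k M] {σ : Representation k H A} {ρ : Representation k H M}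

/-- the cup product of two cochains of degree one -/
def cup1 (B : A →ₗ[k] M →ₗ[k] k) (hB : ∀ h a m, B (σ h a) (ρ h m) = χ h (B a m))
    (F : (cochCx S ι σ X).X 1) (y : (cochCx S ι ρ X).X 1) : (cochCx S ι χ X).X 2 :=
  mkc (fun a x => B (cv F a ![x 0, x 1]) (cv y a ![x 1, x 2])) (by
    constructor
    · intro h a x
      rw [← hB]
      have h1 := cv_equiv2 F h a (x 0) (x 1)
      have h2 := cv_equiv2 y h a (x 1) (x 2)
      beta_reduce
      rw [h1, h2]
    · obtain ⟨V, hV, h1⟩ := exists_level1 F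
      obtain ⟨V', hV', h2⟩ := exists_level1 y
      obtain ⟨U, hU, hUV, hUV'⟩ := S.directed V hV V' hV'
      refine ⟨U, hU, fun a x x' hx => ?_⟩
      beta_reduce
      rw [h1 a (x 0) (x 1) (x' 0) (x' 1) (hUV (hx 0)) (hUV (hx 1)),
        h2 a (x 1) (x 2) (x' 1) (x' 2) (hUV' (hx 1)) (hUV' (hx 2))])

theorem cv_cup1 (B : A →ₗ[k] M →ₗ[k] k) (hB : ∀ h a m, B (σ h a) (ρ h m) = χ h (B a m))
    (F : (cochCx S ι σ X).X 1) (y : (cochCx S ι ρ X).X 1) (a : X) (x x' x'' : G) :
    cv (cup1 B hB F y) a ![x, x', x''] = B (cv F a ![x, x']) (cv y a ![x', x'']) := rfl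

variable (B : A →ₗ[k] M →ₗ[k] k) (hB : ∀ h a m, B (σ h a) (ρ h m) = χ h (B a m))

theorem cup1_d {F : (cochCx S ι σ X).X 1} {y : (cochCx S ι ρ X).X 1}
    (hF : (cochCx S ι σ X).d 1 F = 0) (hy : (cochCx S ι ρ X).d 1 y = 0) :
    (cochCx S ι χ X).d 2 (cup1 B hB F y) = 0 := by
  apply cv_injective
  funext a x
  obtain ⟨x0, x1, x2, x3, rfl⟩ : ∃ x0 x1 x2 x3, x = ![x0, x1, x2, x3] :=
    ⟨x 0, x 1, x 2, x 3, by funext i; fin_cases i <;> rfl⟩
  rw [cv_d_two, cv_cup1, cv_cup1, cv_cup1, cv_cup1, cocycle1 hF a x0 x1 x2, cocycle1 hy a x1 x2 x3]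
  simp only [map_add, LinearMap.add_apply]
  change _ = (0 : k)
  ring

theorem cup1_add_left (F F' : (cochCx S ι σ X).X 1) (y : (cochCx S ι ρ X).X 1) :
    cup1 B hB (F + F') y = cup1 B hB F y + cup1 B hB F' y := by
  apply cv_injective
  apply funext3
  intro a x x' x''
  rw [cv_add, Pi.add_apply, Pi.add_apply, cv_cup1, cv_cup1, cv_cup1, cv_add, Pi.add_apply,
    Pi.add_apply, map_add, LinearMap.add_apply]

theorem cup1_add_right (F : (cochCx S ι σ X).X 1) (y y' : (cochCx S ι ρ X).X 1) :
    cup1 B hB F (y + y') = cup1 B hB F y + cup1 B hB F y' := by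
  apply cv_injective
  apply funext3
  intro a x x' x''
  rw [cv_add, Pi.add_apply, Pi.add_apply, cv_cup1, cv_cup1, cv_cup1, cv_add, Pi.add_apply,
    Pi.add_apply, map_add]

theorem cup1_smul_left (c : k) (F : (cochCx S ι σ X).X 1) (y : (cochCx S ι ρ X).X 1) :
    cup1 B hB (c • F) y = c • cup1 B hB F y := by
  apply cv_injective
  apply funext3
  intro a x x' x''
  rw [cv_smul, Pi.smul_apply, Pi.smul_apply, cv_cup1, cv_cup1, cv_smul, Pi.smul_apply,
    Pi.smul_apply, map_smul, LinearMap.smul_apply]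

theorem cup1_smul_right (c : k) (F : (cochCx S ι σ X).X 1) (y : (cochCx S ι ρ X).X 1) :
    cup1 B hB F (c • y) = c • cup1 B hB F y := by
  apply cv_injective
  apply funext3
  intro a x x' x''
  rw [cv_smul, Pi.smul_apply, Pi.smul_apply, cv_cup1, cv_cup1, cv_smul, Pi.smul_apply,
    Pi.smul_apply, map_smul]

/-- the cup product as a bilinear map on cocycles -/
def cupZ : (cochCx S ι σ X).Z 1 →ₗ[k] (cochCx S ι ρ X).Z 1 →ₗ[k] (cochCx S ι χ X).Z 2 :=
  LinearMap.mk₂ k (fun F y => ⟨cup1 B hB F.1 y.1, cup1_d B hB F.2 y.2⟩)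
    (fun F F' y => Subtype.ext (cup1_add_left B hB _ _ _))
    (fun c F y => Subtype.ext (cup1_smul_left B hB _ _ _))
    (fun F y y' => Subtype.ext (cup1_add_right B hB _ _ _))
    (fun c F y => Subtype.ext (cup1_smul_right B hB _ _ _))

theorem coe_cupZ (F : (cochCx S ι σ X).Z 1) (y : (cochCx S ι ρ X).Z 1) :
    (cupZ B hB F y : (cochCx S ι χ X).X 2) = cup1 B hB F y := rfl

end cup

end Fermat.Agent.CFT
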