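import Fermat.Agent.CFT.GW9

/-!
# Local duality
-/

set_option autoImplicit false
set_option linter.unusedSectionVars false
set_option linter.unusedVariables false
set_option linter.style.haveILetI false

noncomputable section

namespace Fermat.Agent.CFT

open Module Fermat.Agent.Sel
open scoped Pointwise

variable {p : ℕ} [hp : Fact p.Prime] {V V' : Type} [AddCommGroup V] [Module (ZMod p) V]
  [AddCommGroup V'] [Module (ZMod p) V'] {S : Finset ℕ}
  {r : GQ →* Module.End (ZMod p) V} {r' : GQ →* Module.End (ZMod p) V'}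
  {B : V →ₗ[ZMod p] V' →ₗ[ZMod p] ZMod p}

theorem DualReps.insert (hD : DualReps p S r r' B) {v : ℕ} (hv : v.Prime) :
    DualReps p (insert v S) r r' B where
  prime w hw := by
    rcases Finset.mem_insert.1 hw with rfl | h
    · exact hv
    · exact hD.prime w h
  mem := Finset.mem_insert_of_mem hD.mem
  lc := hD.lc
  unr l hl hlS := hD.unr l hl fun h => hlS (Finset.mem_insert_of_mem h)
  nd := hD.nd
  nd' := hD.nd'
  eq := hD.eq

theorem exists_places (hpr : ∀ v ∈ S, v.Prime) (v : S) {A0 : ValuationSubring Qb}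
    (hA0 : A0.LiesOverPrime (v : ℕ)) : ∃ A : S → ValuationSubring Qb,
      (∀ w, (A w).LiesOverPrime (w : ℕ)) ∧ A v = A0 := by
  classical
  choose P hP using fun w : S => exists_place (w : ℕ) (hpr w w.2)
  refine ⟨fun w => if w = v then A0 else (P w).v, fun w => ?_, if_pos rfl⟩
  beta_reduce
  split_ifs with h
  · rw [h]; exact hA0
  · have := (P w).liesOver_ell
    rwa [hP w] at this

variable [FiniteDimensional (ZMod p) V] [FiniteDimensional (ZMod p) V']
  (hp2 : p ≠ 2) (hD : DualReps p S r r' B) (A : S → ValuationSubring Qb)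
  (hA : ∀ v, (A v).LiesOverPrime (v : ℕ))

include hD hA in
/-- a local cup product which is a coboundary vanishes in `T³` -/
theorem null_of_cup0 (v : S) {X : (CP S r).X 1} (hX : (CP S r).d 1 X = 0)
    {y : (CP S r').X 1} (hy : (CP S r').d 1 y = 0)
    (hs : Supp (r' : Representation _ GQ V') (aA A hA hD.prime v) y)
    (hc : Cup0 r' B (GalRep.cyc p) (DD (aA A hA hD.prime) v)
      (evL (r : Representation _ GQ V) (aA A hA hD.prime) v ⟨X, hX⟩ : DD (aA A hA hD.prime) v → V)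
      (evL (r' : Representation _ GQ V') (aA A hA hD.prime) v ⟨y, hy⟩ : DD (aA A hA hD.prime) v → V')) :
    cup1 B (DualReps.eqχ hD) X y ∈ (cochCx SL (idG GQ) (χQ p) (XS S)).B 2 := by
  classical
  set a := aA A hA hD.prime v with ha
  set Z := cup1 B (DualReps.eqχ hD) X y with hZ
  have hZd : (cochCx SL (idG GQ) (χQ p) (XS S)).d 2 Z = 0 := cup1_d B (DualReps.eqχ hD) hX hy
  have hsupp : Supp (χQ p) a Z := fun b hb u => by
    have e : u = ![u 0, u 1, u 2] := by funext j; fin_cases j <;> rfl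
    rw [e, hZ, cv_cup1, hs b hb, map_zero]
  have hdec : ∀ g ∈ Dec (a : Pl), idG GQ g • a = a := fun g hg => Subtype.ext hg
  obtain ⟨f, ⟨F, hF, hf0⟩, hf⟩ := hc
  obtain ⟨VF, hVF, hVFle⟩ := SL_exists (IntermediateField.fixingSubgroup_isOpen F)
  obtain ⟨V1, hV1, h1⟩ := exists_level2 Z
  obtain ⟨V2, hV2, h2⟩ := exists_level1' y
  obtain ⟨V3, hV3, h3⟩ := SL_exists (Fz_open (p := p) 1)
  obtain ⟨W1, hW1, e1, e2⟩ := SL.directed VF hVF V1 hV1
  obtain ⟨W2, hW2, e3, e4⟩ := SL.directed V2 hV2 V3 hV3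
  obtain ⟨W, hW, e5, e6⟩ := SL.directed W1 hW1 W2 hW2
  let x' : GQ → ZMod p := fun g => if h : g ∈ DD (aA A hA hD.prime) v then f ⟨g, h⟩ else 0
  have hx' : ∀ g (h : g ∈ DD (aA A hA hD.prime) v), x' g = f ⟨g, h⟩ := fun g h => dif_pos h
  have hmem : ∀ g, g ∈ Dec (a : Pl) → g ∈ DD (aA A hA hD.prime) v := fun g hg => mem_DD.2 hg
  have hy0 : ∀ w ∈ W, cv y a ![1, w] = 0 := fun w hw => by
    have h4 := h2 a 1 1 1 (one_mem _) w (e3 (e6 hw))
    rw [one_mul, one_mul, cocycle1_self hy] at h4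
    exact h4
  have hfw : ∀ w ∈ W, ∀ (h : w ∈ DD (aA A hA hD.prime) v), f ⟨w, h⟩ = 0 := fun w hw h =>
    hf0 ⟨w, h⟩ ((IntermediateField.mem_fixingSubgroup_iff _ _).1 (hVFle (e1 (e5 hw))))
  have hxV : ∀ g ∈ Dec (a : Pl), ∀ w ∈ W, w ∈ Dec (a : Pl) → x' (g * w) = x' g := by
    intro g hg w hw hwD
    have h4 := hf ⟨g, hmem g hg⟩ ⟨w, hmem w hwD⟩
    have h5 : (evL (r' : Representation _ GQ V') (aA A hA hD.prime) v ⟨y, hy⟩ :
      DD (aA A hA hD.prime) v → V') ⟨w, hmem w hwD⟩ = 0 := hy0 w hw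
    rw [h5, map_zero, map_zero, hfw w hw, mul_zero, add_zero] at h4
    rw [hx' _ (hmem _ (mul_mem hg hwD)), hx' _ (hmem _ hg)]
    exact (sub_eq_zero.1 h4.symm).symm
  obtain ⟨E, hE1, hE2, hE3⟩ := loc2_ext (χQ p) (D := Dec (a : Pl))
    (c := fun x y z => cv Z a ![x, y, z]) (fun d hd x y z => by
      have h4 := cv_equiv3 Z d a x y z
      rw [hdec d hd] at h4
      exact h4) (by
      funext x y z w
      have h4 := congrFun (congrFun (congrArg cv hZd) a) ![x, y, z, w]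
      rw [cv_d_two] at h4
      exact h4) hW (fun x y z w hw w' hw' w'' hw'' =>
      h1 a x y z w (e2 (e5 hw)) w' (e2 (e5 hw')) w'' (e2 (e5 hw'')))
    (fun w hw m => χQ_Fz (h3 (e4 (e6 hw))) m) (x' := x') hxV (fun g hg h hh => by
      have h4 := hf ⟨g, hmem g hg⟩ ⟨h, hmem h hh⟩
      rw [hx' _ (hmem _ hh), hx' _ (hmem _ hg), hx' _ (hmem _ (mul_mem hg hh)), hZ, cv_cup1]
      have h5 := cv_equiv2 y g a 1 h
      rw [hdec g hg, mul_one] at h5
      change cv y a ![g, g * h] = _ at h5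
      rw [h5, χQ_eq_cyc]
      change GalRep.cyc p g * f ⟨h, _⟩ - f (⟨g, hmem g hg⟩ * ⟨h, hmem h hh⟩) + f ⟨g, _⟩ =
        B ((evL (r : Representation _ GQ V) (aA A hA hD.prime) v ⟨X, hX⟩ :
          DD (aA A hA hD.prime) v → V) ⟨g, hmem g hg⟩)
          (r' g ((evL (r' : Representation _ GQ V') (aA A hA hD.prime) v ⟨y, hy⟩ :
          DD (aA A hA hD.prime) v → V') ⟨h, hmem h hh⟩))
      rw [h4]
      ring)
  refine mem_B_of_supp (χQ p) hsupp ?_
  obtain ⟨E', hE'⟩ := exists_mk1 (T := SL) (ι := (idG GQ).comp (stb (idG GQ) a).subtype)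
    (ρ := (χQ p).comp (stb (idG GQ) a).subtype) (f := E)
    (fun h x y => hE1 h (mem_of_stb h.2) x y) ⟨W, hW, fun x y w hw w' hw' => hE2 x y w hw w' hw'⟩
  refine (Cx.mem_B_succ _).2 ⟨E', ?_⟩
  apply cv_injective
  apply funext3
  intro _ x y z
  rw [cv_d_one, hE', hE', hE', cv_ptRes]
  exact congrFun (congrFun (congrFun hE3 x) y) z

include hp2 in
theorem perp_top (hD : DualReps p S r r' B) (v : S) {A0 : ValuationSubring Qb}
    (hA0 : A0.LiesOverPrime (v : ℕ)) :
    Perp r' B (GalRep.cyc p) (A0.decompositionSubgroup ℚ) (Z1 r _) ≤ B1 r' _ := by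
  obtain ⟨A, hA, rfl⟩ := exists_places hD.prime v hA0
  intro c' hc'
  let D := qData (S := S) hp2 hD.mem
  obtain ⟨F, hF, hs⟩ := exists_at (a := aA A hA hD.prime) (r' : Representation _ GQ V') v ⟨c', hc'.1⟩
  have h1 : (CP S r').cl 1 F.1 F.2 = 0 := by
    refine q_nondeg D (r' : Representation _ GQ V') (DualReps.lev' hD) (r : Representation _ GQ V)
      (DualReps.lev hD) B (DualReps.eqχ hD) hD.nd hD.nd' fun x => ?_
    obtain ⟨X, hX, rfl⟩ := Cx.exists_cl _ x
    rw [ph_cl]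
    obtain ⟨l, hl⟩ := (Cx.mem_B_succ _).1 (null_of_cup0 hD A hA v hX F.2 hs (by
      have h2 := hc'.2 _ (evL (r : Representation _ GQ V) (aA A hA hD.prime) v ⟨X, hX⟩).2
      have h3 : evL (r' : Representation _ GQ V') (aA A hA hD.prime) v ⟨F.1, F.2⟩ = ⟨c', hc'.1⟩ := hF
      rw [h3]
      exact h2))
    exact Null3.of_B _ hl.symm
  rw [Cx.cl_eq_zero] at h1
  have h2 := (evL_mem_B1_iff (r' : Representation _ GQ V') (places_aA A hA hD.prime) F).1 h1 v
  rw [hF] at h2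
  exact h2

/-- **Local duality.** -/
theorem locPerpTop (hp2 : p ≠ 2) : LocPerpTop p := by
  intro V V' _ _ _ _ _ _ S r r' B hD v A hv hA
  exact perp_top hp2 (DualReps.insert hD hv) ⟨v, Finset.mem_insert_self v S⟩ hA

end Fermat.Agent.CFT
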