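import Fermat.Agent.CFT.GW10

/-!
# Dimension of orthogonal complements of local conditions
-/

set_option autoImplicit false
set_option linter.unusedSectionVars false
set_option linter.unusedVariables false
set_option linter.style.haveILetI false

noncomputable section

namespace Fermat.Agent.CFT

open Module Fermat.Agent.Sel
open scoped Pointwise

section LA

variable {k : Type*} [Field k] {V W T : Type*} [AddCommGroup V] [Module k V] [AddCommGroup W]
  [Module k W] [AddCommGroup T] [Module k T] [Module.Finite k V] [Module.Finite k W]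

theorem la_orth_le (hT : finrank k T = 1) (b : V →ₗ[k] W →ₗ[k] T)
    (hb : ∀ w, (∀ v, b v w = 0) → w = 0) (I : Submodule k V)
    (J : Submodule k W) (h : ∀ v ∈ I, ∀ w ∈ J, b v w = 0) :
    finrank k I + finrank k J ≤ finrank k V := by
  haveI : Module.Finite k T := Module.finite_of_finrank_eq_succ hT
  let Φ : V →ₗ[k] (J →ₗ[k] T) := LinearMap.lcomp k T J.subtype ∘ₗ b
  have hΦ : ∀ v (w : J), Φ v w = b v w := fun v w => rfl
  have hI : I ≤ LinearMap.ker Φ := fun v hv => by
    rw [LinearMap.mem_ker]
    ext w
    exact h v hv w w.2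
  -- the range of `Φ` is everything
  let Ψ : J →ₗ[k] ((LinearMap.range Φ) →ₗ[k] T) :=
    { toFun := fun w => (LinearMap.applyₗ w : (J →ₗ[k] T) →ₗ[k] T) ∘ₗ (LinearMap.range Φ).subtype
      map_add' := fun x y => by
        apply LinearMap.ext
        intro u
        exact map_add (u : J →ₗ[k] T) x y
      map_smul' := fun c x => by
        apply LinearMap.ext
        intro u
        exact map_smul (u : J →ₗ[k] T) c x }
  have hΨ : Function.Injective Ψ := by
    rw [injective_iff_map_eq_zero]
    intro w hw
    apply Subtype.ext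
    refine hb w fun v => ?_
    exact congrArg (fun f : (LinearMap.range Φ) →ₗ[k] T => f ⟨Φ v, v, rfl⟩) hw
  have h1 := LinearMap.finrank_le_finrank_of_injective hΨ
  rw [Module.finrank_linearMap, hT, mul_one] at h1
  have h2 := Φ.finrank_range_add_finrank_ker
  have h3 := Submodule.finrank_mono hI
  omega

end LA

variable {p : ℕ} [hp : Fact p.Prime] {V V' : Type} [AddCommGroup V] [Module (ZMod p) V]
  [AddCommGroup V'] [Module (ZMod p) V'] {S : Finset ℕ}
  {r : GQ →* Module.End (ZMod p) V} {r' : GQ →* Module.End (ZMod p) V'}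
  {B : V →ₗ[ZMod p] V' →ₗ[ZMod p] ZMod p}

variable [FiniteDimensional (ZMod p) V] [FiniteDimensional (ZMod p) V']
  (hp2 : p ≠ 2) (hD : DualReps p S r r' B) (A : S → ValuationSubring Qb)
  (hA : ∀ v, (A v).LiesOverPrime (v : ℕ))

include hp2 hD hA

theorem ph_zero (L : ∀ v : S, Submodule (ZMod p) ((A v).decompositionSubgroup ℚ → V))
    (hB : ∀ v, B1 r _ ≤ L v) (hZ : ∀ v, L v ≤ Z1 r _) {x : (CP S r).H 1} {w : (CP S r').H 1}
    (hx : x ∈ LamS (r : Representation _ GQ V) (places_aA A hA hD.prime) L)
    (hw : w ∈ LamS (r' : Representation _ GQ V') (places_aA A hA hD.prime)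
      (fun v => Perp r' B (GalRep.cyc p) _ (L v))) :
    ph (SG_SL (S := S)) (ι := idG GQ) (XS S) (χ := χQ p)
      (σ := (r : Representation _ GQ V)) (ρ := (r' : Representation _ GQ V')) B (DualReps.eqχ hD) x w = 0 := by
  classical
  obtain ⟨X, hX, rfl⟩ := Cx.exists_cl _ x
  obtain ⟨y, hy, rfl⟩ := Cx.exists_cl _ w
  have hX' := (mem_LamS (r : Representation _ GQ V) (places_aA A hA hD.prime) hB hX).1 hx
  have hy' := (mem_LamS (r' : Representation _ GQ V') (places_aA A hA hD.prime)
      (fun v => B1_le_Perp hD _ (hZ v)) hy).1 hw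
  choose F hF hs using fun v => exists_at (a := aA A hA hD.prime) (r' : Representation _ GQ V') v
    (evL (r' : Representation _ GQ V') (aA A hA hD.prime) v ⟨y, hy⟩)
  have hsum : (CP S r').cl 1 y hy = ∑ v, (CP S r').cl 1 (F v).1 (F v).2 := by
    rw [← sub_eq_zero]
    refine qL_inj (r' : Representation _ GQ V') (places_aA A hA hD.prime) fun v => ?_
    rw [map_sub, map_sum, Finset.sum_eq_single v]
    · rw [qL_cl, qL_cl, sub_eq_zero]
      have e : evL (r' : Representation _ GQ V') (aA A hA hD.prime) v ⟨(F v).1, (F v).2⟩ =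
        evL (r' : Representation _ GQ V') (aA A hA hD.prime) v ⟨y, hy⟩ := hF v
      rw [e]
    · intro u _ huv
      rw [qL_cl]
      have e : evL (r' : Representation _ GQ V') (aA A hA hD.prime) v ⟨(F u).1, (F u).2⟩ = 0 :=
        evL_supp_ne (r' : Representation _ GQ V') (places_aA A hA hD.prime) huv (hs u)
      rw [e]; rfl
    · intro h; exact absurd (Finset.mem_univ _) h
  rw [hsum, map_sum]
  refine Finset.sum_eq_zero fun v _ => ?_
  rw [ph_cl]
  obtain ⟨l, hl⟩ := (Cx.mem_B_succ _).1 (null_of_cup0 hD A hA v hX (F v).2 (hs v) (by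
    have h2 := (hy' v).2 _ (hX' v)
    have h3 : evL (r' : Representation _ GQ V') (aA A hA hD.prime) v ⟨(F v).1, (F v).2⟩ =
      evL (r' : Representation _ GQ V') (aA A hA hD.prime) v ⟨y, hy⟩ := hF v
    rw [h3]
    exact h2))
  exact Null3.of_B _ hl.symm

/-- the dimension formula for families of local conditions -/
theorem lam_finrank (L : ∀ v : S, Submodule (ZMod p) ((A v).decompositionSubgroup ℚ → V))
    (hB : ∀ v, B1 r _ ≤ L v) (hZ : ∀ v, L v ≤ Z1 r _) :
    finrank (ZMod p) (LamS (r : Representation _ GQ V) (places_aA A hA hD.prime) L) +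
      finrank (ZMod p) (LamS (r' : Representation _ GQ V') (places_aA A hA hD.prime)
      (fun v => Perp r' B (GalRep.cyc p) _ (L v))) = (CP S r).h 1 := by
  let D := qData (S := S) hp2 hD.mem
  haveI f3 := (clsQ D).finL (ρ := (r : Representation _ GQ V)) (DualReps.lev hD) 1 (by norm_num)
  haveI f4 := (clsQ D).finL (ρ := (r' : Representation _ GQ V')) (DualReps.lev' hD) 1 (by norm_num)
  have hdim := finrank_V hD
  apply le_antisymm
  · exact la_orth_le (finrank_T3q D) (ph (SG_SL (S := S)) (ι := idG GQ) (XS S) (χ := χQ p)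
      (σ := (r : Representation _ GQ V)) (ρ := (r' : Representation _ GQ V')) B (DualReps.eqχ hD))
      (fun w hw => q_nondeg D (r' : Representation _ GQ V') (DualReps.lev' hD)
        (r : Representation _ GQ V) (DualReps.lev hD) B (DualReps.eqχ hD) hD.nd hD.nd' hw) _ _
      (fun x hx w hw => ph_zero hp2 hD A hA L hB hZ hx hw)
  · have h1 := la_perp (finrank_T3q D) (ph (SG_SL (S := S)) (ι := idG GQ) (XS S) (χ := χQ p)
      (σ := (r : Representation _ GQ V)) (ρ := (r' : Representation _ GQ V')) B (DualReps.eqχ hD))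
      (LamS (r : Representation _ GQ V) (places_aA A hA hD.prime) L)
      (LamS (r' : Representation _ GQ V') (places_aA A hA hD.prime)
        (fun v => Perp r' B (GalRep.cyc p) _ (L v))) (fun w hw => by
        obtain ⟨y, hy, rfl⟩ := Cx.exists_cl _ w
        refine (mem_LamS (r' : Representation _ GQ V') (places_aA A hA hD.prime)
          (fun v => B1_le_Perp hD _ (hZ v)) hy).2 fun v => ?_
        refine ⟨(evL (r' : Representation _ GQ V') (aA A hA hD.prime) v ⟨y, hy⟩).2, fun c hc => ?_⟩
        obtain ⟨F, hF, hs⟩ := exists_at (a := aA A hA hD.prime) (r : Representation _ GQ V) v ⟨c, hZ v hc⟩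
        have h1 := hw ((CP S r).cl 1 F.1 F.2)
          ((mem_LamS (r : Representation _ GQ V) (places_aA A hA hD.prime) hB F.2).2 fun u => ?_)
        · rw [ph_cl] at h1
          exact cup0_of_null hp2 hD A hA v ⟨c, hZ v hc⟩ hF hs hy h1
        · by_cases huv : v = u
          · subst huv
            have e : (evL (r : Representation _ GQ V) (aA A hA hD.prime) v ⟨F.1, F.2⟩) = ⟨c, hZ v hc⟩ := hF
            rw [e]; exact hc
          · rw [evL_supp_ne (r : Representation _ GQ V) (places_aA A hA hD.prime) huv (F := ⟨F.1, F.2⟩) hs]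
            exact Submodule.zero_mem _)
    have h2 := q_rank_aux D (r' : Representation _ GQ V') (DualReps.lev' hD) (r : Representation _ GQ V)
      (LinearEquiv.ofBijective B ⟨(injective_iff_map_eq_zero _).2 fun a ha =>
        hD.nd a fun m => by rw [ha, LinearMap.zero_apply],
        (LinearMap.injective_iff_surjective_of_finrank_eq_finrank
        (hdim.trans (Subspace.dual_finrank_eq (K := ZMod p) (V := V')).symm)).1
        ((injective_iff_map_eq_zero _).2 fun a ha =>
        hD.nd a fun m => by rw [ha, LinearMap.zero_apply])⟩) (fun h a => by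
      apply LinearMap.ext
      intro m
      rw [dl_apply]
      change B ((r : Representation _ GQ V) h a) m = χQ p h (B a ((r' : Representation _ GQ V') h⁻¹ m))
      rw [← DualReps.eqχ hD, Representation.self_inv_apply])
    have h3 := q_rank_aux D (r : Representation _ GQ V) (DualReps.lev hD) (r' : Representation _ GQ V')
      (LinearEquiv.ofBijective B.flip ⟨(injective_iff_map_eq_zero _).2 fun a ha =>
        hD.nd' a fun m => congrArg (fun f : V →ₗ[ZMod p] ZMod p => f m) ha,
        (LinearMap.injective_iff_surjective_of_finrank_eq_finrank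
        (hdim.symm.trans (Subspace.dual_finrank_eq (K := ZMod p) (V := V)).symm)).1
        ((injective_iff_map_eq_zero _).2 fun a ha =>
        hD.nd' a fun m => congrArg (fun f : V →ₗ[ZMod p] ZMod p => f m) ha)⟩) (fun h a => by
      apply LinearMap.ext
      intro m
      rw [dl_apply]
      change B m ((r' : Representation _ GQ V') h a) = χQ p h (B ((r : Representation _ GQ V) h⁻¹ m) a)
      rw [← DualReps.eqχ hD, Representation.self_inv_apply])
    change (CP S r').h 1 ≤ _ at h1
    have h2' : (LC S r').rk 1 + (LC S r).rk 1 = (CP S r').h 1 := h2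
    have h3' : (LC S r).rk 1 + (LC S r').rk 1 = (CP S r).h 1 := h3
    omega

end Fermat.Agent.CFT
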