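import Fermat.Agent.CFT.Gl25
import Fermat.Prelude.Def_GaloisRep_ComplexConjugation

/-!
# Auxiliary statements needed for the global Euler characteristic
-/

set_option autoImplicit false
set_option linter.unusedSectionVars false
set_option linter.unusedVariables false
set_option linter.style.haveILetI false

namespace Fermat.Agent.CFT

/-- (A) Artin induction for additive functions on modular representations -/
def ArtinVanish (p : ℕ) [Fact p.Prime] : Prop :=
  ∀ (Γ : Type) [Group Γ] [Finite Γ]
    (f : ∀ (V : Type) [AddCommGroup V] [Module (ZMod p) V], Representation (ZMod p) Γ V → ℤ),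
    (∀ (A B C : Type) [AddCommGroup A] [Module (ZMod p) A] [AddCommGroup B] [Module (ZMod p) B]
      [AddCommGroup C] [Module (ZMod p) C] [Module.Finite (ZMod p) A] [Module.Finite (ZMod p) B]
      [Module.Finite (ZMod p) C] (ρA : Representation (ZMod p) Γ A) (ρB : Representation (ZMod p) Γ B)
      (ρC : Representation (ZMod p) Γ C) (i : A →ₗ[ZMod p] B) (j : B →ₗ[ZMod p] C),
      (∀ g x, i (ρA g x) = ρB g (i x)) → (∀ g x, j (ρB g x) = ρC g (j x)) →
      Function.Injective i → Function.Surjective j → (∀ y, j y = 0 ↔ ∃ x, i x = y) →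
      f B ρB = f A ρA + f C ρC) →
    (∀ C : Subgroup Γ, IsCyclic C → ¬ p ∣ Nat.card C → ∀ (W : Type) [AddCommGroup W]
      [Module (ZMod p) W] [Module.Finite (ZMod p) W] (τ : Representation (ZMod p) C W),
      f _ (Representation.coind C.subtype τ) = 0) →
    ∀ (V : Type) [AddCommGroup V] [Module (ZMod p) V] [Module.Finite (ZMod p) V]
      (ρ : Representation (ZMod p) Γ V), f V ρ = 0

/-- (B) counting homomorphisms into a lattice with a cyclic action of order prime to `p` whose
ranks of invariants are those of a permutation lattice -/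
def LatticeCount (p : ℕ) : Prop :=
  ∀ (n : ℕ), ¬ p ∣ n → ∀ (U : Type) [AddCommGroup U] [Module.Finite ℤ U] (σ : AddMonoid.End U),
    σ ^ n = 1 → ∀ (Y : Type) [Finite Y] (π : Equiv.Perm Y), π ^ n = 1 →
    (∀ d : ℕ, d ∣ n → Module.finrank ℤ (AddMonoidHom.ker (σ ^ d - 1 : AddMonoid.End U)) + 1 =
      Nat.card (MulAction.orbitRel.Quotient (Subgroup.zpowers (π ^ d)) Y)) →
    ∀ (W : Type) [AddCommGroup W] [Finite W], (∀ w : W, p • w = 0) → ∀ (s : AddMonoid.End W),
    s ^ n = 1 → ∀ (U' : Type) [AddCommGroup U'] (q : U →+ U'), Function.Surjective q →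
    (∀ u, q u = 0 ↔ ∃ v, p • v = u) → ∀ (σ' : AddMonoid.End U'), (∀ u, σ' (q u) = q (σ u)) →
    Nat.card {φ : W →+ U' // ∀ w, φ (s w) = σ' (φ w)} * Nat.card {w : W // s w = w} =
      Nat.card {φ : W →+ U // ∀ w, φ (s w) = σ (φ w)} *
        Nat.card {ψ : Y → W // ∀ y, ψ (π y) = s (ψ y)}

/-- (C) the rank of the group of `S`-units -/
def RankUS : Prop :=
  ∀ (W : Subgroup GQ), IsOpen (W : Set GQ) → ∀ (S : Finset ℕ) (s : Finset Pl), Reps W S s →
    Module.Finite ℤ (US W (OB W id s)) ∧
    Module.finrank ℤ (US W (OB W id s)) + 1 =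
      s.card + Nat.card (MulAction.orbitRel.Quotient W (GQ ⧸ Subgroup.zpowers complexConjugation))

end Fermat.Agent.CFT
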