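import Fermat.Agent.CFT.GW11
import Fermat.Agent.CFT.Need

/-!
# The defect of the global Euler characteristic is additive
-/

set_option autoImplicit false
set_option linter.unusedSectionVars false
set_option linter.unusedVariables false
set_option linter.style.haveILetI false

noncomputable section

namespace Fermat.Agent.CFT

open Module Fermat.Agent.Sel
open scoped Pointwise

section LA

variable {k : Type*} [Field k] {V1 W1 V2 W2 T : Type*} [AddCommGroup V1] [Module k V1]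
  [AddCommGroup W1] [Module k W1] [AddCommGroup V2] [Module k V2] [AddCommGroup W2] [Module k W2]
  [AddCommGroup T] [Module k T] [Module.Finite k V1] [Module.Finite k W1] [Module.Finite k V2]
  [Module.Finite k W2]

/-- ranks of adjoint maps, one inequality -/
theorem la_adj_le (hT : finrank k T = 1) (b1 : V1 →ₗ[k] W1 →ₗ[k] T) (b2 : V2 →ₗ[k] W2 →ₗ[k] T)
    (h1 : ∀ w, (∀ v, b1 v w = 0) → w = 0) (φ : V1 →ₗ[k] V2) (ψ : W2 →ₗ[k] W1)
    (h : ∀ x y, b2 (φ x) y = 0 → b1 x (ψ y) = 0) :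
    finrank k (LinearMap.range ψ) ≤ finrank k (LinearMap.range φ) := by
  haveI : Module.Finite k T := Module.finite_of_finrank_eq_succ hT
  let Ψ : W2 →ₗ[k] (LinearMap.range φ →ₗ[k] T) :=
    LinearMap.lcomp k T (LinearMap.range φ).subtype ∘ₗ b2.flip
  have hk : LinearMap.ker Ψ ≤ LinearMap.ker ψ := fun y hy => by
    rw [LinearMap.mem_ker]
    refine h1 _ fun v => h v y ?_
    exact congrArg (fun f : LinearMap.range φ →ₗ[k] T => f ⟨φ v, v, rfl⟩) hy
  have e1 := Ψ.finrank_range_add_finrank_ker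
  have e2 := ψ.finrank_range_add_finrank_ker
  have e3 := Submodule.finrank_mono hk
  have e4 := Submodule.finrank_le (LinearMap.range Ψ)
  rw [Module.finrank_linearMap, hT, mul_one] at e4
  omega

theorem la_adj (hT : finrank k T = 1) (b1 : V1 →ₗ[k] W1 →ₗ[k] T) (b2 : V2 →ₗ[k] W2 →ₗ[k] T)
    (h1 : ∀ w, (∀ v, b1 v w = 0) → w = 0) (h2 : ∀ v, (∀ w, b2 v w = 0) → v = 0)
    (φ : V1 →ₗ[k] V2) (ψ : W2 →ₗ[k] W1)
    (h : ∀ x y, b2 (φ x) y = 0 ↔ b1 x (ψ y) = 0) :
    finrank k (LinearMap.range φ) = finrank k (LinearMap.range ψ) :=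
  le_antisymm (la_adj_le hT b2.flip b1.flip h2 ψ φ fun y x hxy => (h x y).2 hxy)
    (la_adj_le hT b1 b2 h1 φ ψ fun x y hxy => (h x y).1 hxy)

theorem la_dim_le (hT : finrank k T = 1) (b : V1 →ₗ[k] W1 →ₗ[k] T)
    (h1 : ∀ w, (∀ v, b v w = 0) → w = 0) : finrank k W1 ≤ finrank k V1 := by
  haveI : Module.Finite k T := Module.finite_of_finrank_eq_succ hT
  have := LinearMap.finrank_le_finrank_of_injective (f := b.flip)
    ((injective_iff_map_eq_zero _).2 fun w hw => h1 w fun v =>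
      congrArg (fun f : V1 →ₗ[k] T => f v) hw)
  rwa [Module.finrank_linearMap, hT, mul_one] at this

end LA

section

variable {p : ℕ} [hp : Fact p.Prime] {G : Type} [Group G] {Sg Sl : Sys G}
  {hS : ∀ U ∈ Sg.carrier, ∃ V ∈ Sl.carrier, V ≤ U} {X : Type} [MulAction G X]
  {χ : Representation (ZMod p) G (ZMod p)} (D : QData hS X χ)
  {M : Type} [AddCommGroup M] [Module (ZMod p) M] [Module.Finite (ZMod p) M]
  (ρ : Representation (ZMod p) G M) (hρ : HasLevel Sg (idG G) ρ)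

/-- the evaluation pairing -/
def evB (k : Type) [Field k] (M : Type) [AddCommGroup M] [Module k M] : M →ₗ[k] (M →ₗ[k] k) →ₗ[k] k :=
  (LinearMap.id : (M →ₗ[k] k) →ₗ[k] (M →ₗ[k] k)).flip

theorem evB_eq {k G M : Type} [Field k] [Group G] [AddCommGroup M] [Module k M] (χ : Representation k G k)
    (ρ : Representation k G M) (h : G) (a : M) (f : M →ₗ[k] k) :
    evB k M (ρ h a) (dl χ ρ h f) = χ h (evB k M a f) := by
  change χ h (f (ρ h⁻¹ (ρ h a))) = _
  rw [Representation.inv_self_apply]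
  rfl

theorem evB_nd {k : Type} [Field k] {M : Type} [AddCommGroup M] [Module k M] (a : M)
    (h : ∀ f, evB k M a f = 0) : a = 0 := (Module.forall_dual_apply_eq_zero_iff k a).1 h

theorem evB_nd' {k : Type} [Field k] {M : Type} [AddCommGroup M] [Module k M] (f : M →ₗ[k] k)
    (h : ∀ a, evB k M a f = 0) : f = 0 := LinearMap.ext h

include D hρ

theorem ev_nondeg {z : (cochCx Sl (idG G) (dl χ ρ) X).H 1}
    (hz : ∀ x, ph hS X (evB (ZMod p) M) (evB_eq χ ρ) x z = 0) : z = 0 :=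
  q_nondeg D (dl χ ρ) (HasLevel.dual D.lev hρ) ρ hρ (evB (ZMod p) M) (evB_eq χ ρ) evB_nd evB_nd' hz

theorem ev_nondeg' {x : (cochCx Sl (idG G) ρ X).H 1}
    (hx : ∀ z, ph hS X (evB (ZMod p) M) (evB_eq χ ρ) x z = 0) : x = 0 := by
  refine q_nondeg D ρ hρ (dl χ ρ) (HasLevel.dual D.lev hρ) (evB (ZMod p) M).flip
    (fun h m a => evB_eq χ ρ h a m) evB_nd' evB_nd fun w => ?_
  obtain ⟨y, hy, rfl⟩ := Cx.exists_cl _ w
  obtain ⟨F, hF, rfl⟩ := Cx.exists_cl _ x
  rw [ph_cl]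
  have h1 := hx ((cochCx Sl (idG G) (dl χ ρ) X).cl 1 y hy)
  rw [ph_cl] at h1
  obtain ⟨l, hl⟩ := cup1_anti (evB (ZMod p) M) (evB_eq χ ρ) hF hy
  have h2 : cup1 (evB (ZMod p) M).flip (fun h m a => evB_eq χ ρ h a m) y F =
      -(cup1 (evB (ZMod p) M) (evB_eq χ ρ) F y) + (cochCx Sl (idG G) χ X).d 1 (-l) := by
    rw [hl, map_neg]; abel
  rw [h2]
  exact h1.neg.add (Null3.of_B _ rfl)

theorem ev_h1 : (cochCx Sl (idG G) ρ X).h 1 = (cochCx Sl (idG G) (dl χ ρ) X).h 1 := by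
  haveI f3 := (clsQ D).finL (ρ := ρ) hρ 1 (by norm_num)
  haveI f4 := (clsQ D).finL (ρ := dl χ ρ) (HasLevel.dual D.lev hρ) 1 (by norm_num)
  exact le_antisymm
    (la_dim_le (finrank_T3q D) (ph hS X (evB (ZMod p) M) (evB_eq χ ρ)).flip fun x hx =>
      ev_nondeg' D ρ hρ hx)
    (la_dim_le (finrank_T3q D) (ph hS X (evB (ZMod p) M) (evB_eq χ ρ)) fun x hx =>
      ev_nondeg D ρ hρ hx)

variable {M' : Type} [AddCommGroup M'] [Module (ZMod p) M'] [Module.Finite (ZMod p) M']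
  (ρ' : Representation (ZMod p) G M') (hρ' : HasLevel Sg (idG G) ρ') (i : M →ₗ[ZMod p] M')
  (hi : ∀ g x, i (ρ g x) = ρ' g (i x))

omit D hρ in
include hi in
theorem dual_equiv (g : G) (f : M' →ₗ[ZMod p] ZMod p) :
    LinearMap.lcomp (ZMod p) (ZMod p) i (dl χ ρ' g f) = dl χ ρ g (LinearMap.lcomp (ZMod p) (ZMod p) i f) := by
  apply LinearMap.ext
  intro x
  change χ g (f (ρ' g⁻¹ (i x))) = χ g (f (i (ρ g⁻¹ x)))
  rw [hi]

include hρ' in
theorem ev_rk : (cochMap (S := Sl) (ι := idG G) (X := X) (ρ := ρ) (ρ' := ρ') i hi).rk 1 =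
    (cochMap (S := Sl) (ι := idG G) (X := X) (ρ := dl χ ρ') (ρ' := dl χ ρ)
      (LinearMap.lcomp (ZMod p) (ZMod p) i) (dual_equiv ρ ρ' i hi)).rk 1 := by
  haveI f1 := (clsQ D).finL (ρ := ρ) hρ 1 (by norm_num)
  haveI f2 := (clsQ D).finL (ρ := dl χ ρ) (HasLevel.dual D.lev hρ) 1 (by norm_num)
  haveI f3 := (clsQ D).finL (ρ := ρ') hρ' 1 (by norm_num)
  haveI f4 := (clsQ D).finL (ρ := dl χ ρ') (HasLevel.dual D.lev hρ') 1 (by norm_num)
  refine la_adj (finrank_T3q D) (ph hS X (evB (ZMod p) M) (evB_eq χ ρ))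
    (ph hS X (evB (ZMod p) M') (evB_eq χ ρ')) (fun w hw => ev_nondeg D ρ hρ hw)
    (fun w hw => ev_nondeg' D ρ' hρ' hw) _ _ fun x y => ?_
  obtain ⟨x, hx, rfl⟩ := Cx.exists_cl _ x
  obtain ⟨y, hy, rfl⟩ := Cx.exists_cl _ y
  rw [Cx.Hom.H_cl, Cx.Hom.H_cl, ph_cl, ph_cl]
  have e : cup1 (evB (ZMod p) M') (evB_eq χ ρ')
      ((cochMap (S := Sl) (ι := idG G) (X := X) (ρ := ρ) (ρ' := ρ') i hi).f 1 x) y =
      cup1 (evB (ZMod p) M) (evB_eq χ ρ) x ((cochMap (S := Sl) (ι := idG G) (X := X) (ρ := dl χ ρ')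
        (ρ' := dl χ ρ) (LinearMap.lcomp (ZMod p) (ZMod p) i) (dual_equiv ρ ρ' i hi)).f 1 y) := by
    apply cv_injective
    apply funext3
    intro a x y z
    rw [cv_cup1, cv_cup1]
    rfl
  rw [e]

end

section inv

variable {p : ℕ} [hp : Fact p.Prime]

/-- the invariants of complex conjugation -/
abbrev Hc {W : Type} [AddCommGroup W] [Module (ZMod p) W] (r : GQ →* Module.End (ZMod p) W) :
    Submodule (ZMod p) W := H0 r (Subgroup.zpowers complexConjugation)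

theorem mem_Hc {W : Type} [AddCommGroup W] [Module (ZMod p) W] {r : GQ →* Module.End (ZMod p) W}
    {x : W} : x ∈ Hc r ↔ r complexConjugation x = x := by
  refine ⟨fun h => h _ (Subgroup.mem_zpowers _), fun h σ hσ => ?_⟩
  obtain ⟨n, rfl⟩ := hσ
  rcases Int.even_or_odd n with ⟨m, rfl⟩ | ⟨m, rfl⟩
  · beta_reduce
    rw [← two_mul, zpow_mul, zpow_two, complexConjugation_mul_self, one_zpow, map_one]; rfl
  · beta_reduce
    rw [zpow_add, zpow_mul, zpow_two, complexConjugation_mul_self, one_zpow, one_mul, zpow_one]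
    exact h

variable {A B C : Type} [AddCommGroup A] [Module (ZMod p) A] [AddCommGroup B] [Module (ZMod p) B]
  [AddCommGroup C] [Module (ZMod p) C] [Module.Finite (ZMod p) A] [Module.Finite (ZMod p) B]
  [Module.Finite (ZMod p) C]
  (rA : GQ →* Module.End (ZMod p) A) (rB : GQ →* Module.End (ZMod p) B)
  (rC : GQ →* Module.End (ZMod p) C) (i : A →ₗ[ZMod p] B) (j : B →ₗ[ZMod p] C)
  (hi : ∀ g x, i (rA g x) = rB g (i x)) (hj : ∀ g x, j (rB g x) = rC g (j x))
  (hinj : Function.Injective i) (hsurj : Function.Surjective j) (hex : ∀ y, j y = 0 ↔ ∃ x, i x = y)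

include hi hj hinj hsurj hex

theorem Hc_add (hp2 : p ≠ 2) : finrank (ZMod p) (Hc rB) = finrank (ZMod p) (Hc rA) + finrank (ZMod p) (Hc rC) := by
  let J : Hc rB →ₗ[ZMod p] Hc rC := (j ∘ₗ (Hc rB).subtype).codRestrict _ fun x => by
    rw [mem_Hc]
    change rC _ (j x) = j x
    rw [← hj, mem_Hc.1 x.2]
  have hJ : Function.Surjective J := by
    intro z
    obtain ⟨y, hy⟩ := hsurj z
    have h2 : (2 : ZMod p) ≠ 0 := by
      intro h
      have h3 : ((2 : ℕ) : ZMod p) = 0 := by exact_mod_cast h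
      rw [ZMod.natCast_eq_zero_iff] at h3
      exact hp2 ((Nat.prime_dvd_prime_iff_eq hp.out Nat.prime_two).1 h3)
    refine ⟨⟨(2 : ZMod p)⁻¹ • (y + rB complexConjugation y), ?_⟩, ?_⟩
    · rw [mem_Hc, map_smul, map_add, ← Module.End.mul_apply, ← map_mul, complexConjugation_mul_self,
        map_one, Module.End.one_apply, add_comm]
    · apply Subtype.ext
      change j ((2 : ZMod p)⁻¹ • (y + rB complexConjugation y)) = _
      rw [map_smul, map_add, hj, hy, mem_Hc.1 z.2, ← two_smul (ZMod p), smul_smul, inv_mul_cancel₀ h2,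
        one_smul]
  let I : Hc rA →ₗ[ZMod p] Hc rB := (i ∘ₗ (Hc rA).subtype).codRestrict _ fun x => by
    rw [mem_Hc]
    change rB _ (i x) = i x
    rw [← hi, mem_Hc.1 x.2]
  have hI : Function.Injective I := fun x y hxy => Subtype.ext (hinj (congrArg Subtype.val hxy))
  have hr : LinearMap.range I = LinearMap.ker J := by
    ext x
    rw [LinearMap.mem_ker]
    constructor
    · rintro ⟨a, rfl⟩
      exact Subtype.ext ((hex _).2 ⟨a, rfl⟩)
    · intro h
      obtain ⟨a, ha⟩ := (hex x).1 (congrArg Subtype.val h)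
      refine ⟨⟨a, ?_⟩, Subtype.ext ha⟩
      rw [mem_Hc]
      apply hinj
      rw [hi, ha, mem_Hc.1 x.2]
  have h1 := J.finrank_range_add_finrank_ker
  rw [LinearMap.range_eq_top.2 hJ, finrank_top, ← hr, LinearMap.finrank_range_of_inj hI] at h1
  omega

end inv

section FE

variable {p : ℕ} [hp : Fact p.Prime]

/-- the defect of the Euler characteristic -/
def FE (S : Finset ℕ) {W : Type} [AddCommGroup W] [Module (ZMod p) W]
    (r : Representation (ZMod p) GQ W) : ℤ :=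
  (CG S (dl (χQ p) r)).chi - (CP S (dl (χQ p) r)).h 2 + (CP S r).h 0 + finrank (ZMod p) (Hc r)

variable {S : Finset ℕ} {A B C : Type} [AddCommGroup A] [Module (ZMod p) A] [AddCommGroup B] [Module (ZMod p) B]
  [AddCommGroup C] [Module (ZMod p) C] [Module.Finite (ZMod p) A] [Module.Finite (ZMod p) B]
  [Module.Finite (ZMod p) C]
  (rA : Representation (ZMod p) GQ A) (rB : Representation (ZMod p) GQ B)
  (rC : Representation (ZMod p) GQ C) (i : A →ₗ[ZMod p] B) (j : B →ₗ[ZMod p] C)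
  (hi : ∀ g x, i (rA g x) = rB g (i x)) (hj : ∀ g x, j (rB g x) = rC g (j x))
  (hinj : Function.Injective i) (hsurj : Function.Surjective j) (hex : ∀ y, j y = 0 ↔ ∃ x, i x = y)
  (hA : HasLevel (SG S) (idG GQ) rA) (hB : HasLevel (SG S) (idG GQ) rB)
  (hC : HasLevel (SG S) (idG GQ) rC)

include hi hj hinj hsurj hex hA hB hC

theorem FE_add (hp2 : p ≠ 2) (hpS : p ∈ S) : FE S rB = FE S rA + FE S rC := by
  let D := qData (S := S) hp2 hpS
  have hA' := HasLevel.dual D.lev hA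
  have hB' := HasLevel.dual D.lev hB
  have hC' := HasLevel.dual D.lev hC
  -- the dual sequence
  have d1 : Function.Injective (LinearMap.lcomp (ZMod p) (ZMod p) j) := fun f g h => by
    apply LinearMap.ext
    intro z
    obtain ⟨y, rfl⟩ := hsurj z
    exact congrArg (fun u : B →ₗ[ZMod p] ZMod p => u y) h
  have d2 : Function.Surjective (LinearMap.lcomp (ZMod p) (ZMod p) i) := fun f => by
    obtain ⟨g, hg⟩ := LinearMap.exists_leftInverse_of_injective i (LinearMap.ker_eq_bot.2 hinj)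
    refine ⟨f ∘ₗ g, ?_⟩
    apply LinearMap.ext
    intro x
    exact congrArg f (congrArg (fun u : A →ₗ[ZMod p] A => u x) hg)
  have d3 : ∀ f, LinearMap.lcomp (ZMod p) (ZMod p) i f = 0 ↔ ∃ g, LinearMap.lcomp (ZMod p) (ZMod p) j g = f := by
    intro f
    constructor
    · intro h
      obtain ⟨s, hs⟩ := LinearMap.exists_rightInverse_of_surjective j (LinearMap.range_eq_top.2 hsurj)
      refine ⟨f ∘ₗ s, ?_⟩
      apply LinearMap.ext
      intro y
      have h1 : j (s (j y) - y) = 0 := by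
        rw [map_sub]
        have := congrArg (fun u : C →ₗ[ZMod p] C => u (j y)) hs
        exact sub_eq_zero.2 this
      obtain ⟨x, hx⟩ := (hex _).1 h1
      have h2 : f (i x) = 0 := congrArg (fun u : A →ₗ[ZMod p] ZMod p => u x) h
      rw [hx, map_sub, sub_eq_zero] at h2
      exact h2
    · rintro ⟨g, rfl⟩
      apply LinearMap.ext
      intro x
      change g (j (i x)) = 0
      rw [(hex _).2 ⟨x, rfl⟩, map_zero]
  have sG := cochSES (S := SG S) (ι := idG GQ) (X := Unit) (ρ := dl (χQ p) rC) (ρ' := dl (χQ p) rB)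
    (ρ'' := dl (χQ p) rA) (LinearMap.lcomp (ZMod p) (ZMod p) j) (dual_equiv rB rC j hj)
    (LinearMap.lcomp (ZMod p) (ZMod p) i) (dual_equiv rA rB i hi) d1 d3 d2 hB'
  have sP' := cochSES (S := SL) (ι := idG GQ) (X := XS S) (ρ := dl (χQ p) rC) (ρ' := dl (χQ p) rB)
    (ρ'' := dl (χQ p) rA) (LinearMap.lcomp (ZMod p) (ZMod p) j) (dual_equiv rB rC j hj)
    (LinearMap.lcomp (ZMod p) (ZMod p) i) (dual_equiv rA rB i hi) d1 d3 d2 (HasLevel.toSL hB')
  have sP := cochSES (S := SL) (ι := idG GQ) (X := XS S) (ρ := rA) (ρ' := rB)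
    (ρ'' := rC) i hi j hj hinj hex hsurj (HasLevel.toSL hB)
  -- finiteness
  have gA := (clsQ D).finG (ρ := dl (χQ p) rA) hA'
  have gB := (clsQ D).finG (ρ := dl (χQ p) rB) hB'
  have gC := (clsQ D).finG (ρ := dl (χQ p) rC) hC'
  have lA := (clsQ D).finL (ρ := dl (χQ p) rA) hA'
  have lB := (clsQ D).finL (ρ := dl (χQ p) rB) hB'
  have lC := (clsQ D).finL (ρ := dl (χQ p) rC) hC'
  have mA := (clsQ D).finL (ρ := rA) hA
  have mB := (clsQ D).finL (ρ := rB) hB
  have mC := (clsQ D).finL (ρ := rC) hC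
  haveI := gA 2 le_rfl; haveI := lA 2 le_rfl; haveI := lB 2 le_rfl; haveI := lC 2 le_rfl
  haveI := lA 1 (by norm_num); haveI := mA 1 (by norm_num); haveI := mB 0 (by norm_num)
  haveI := mC 0 (by norm_num)
  have e1 := sG.chi_eq gC gA
  have e2 := ((sG.surj 2) : _)
  have e3 := (Cx.Hom.ck_eq_zero_iff _ 2).2 ((clsQ D).surjG (ρ := dl (χQ p) rB) (ρ' := dl (χQ p) rA) hB'
    (LinearMap.lcomp (ZMod p) (ZMod p) i) (dual_equiv rA rB i hi) d2)
  have e4 := (Cx.Hom.ck_eq_zero_iff _ 2).2 ((clsQ D).surjL (ρ := dl (χQ p) rB) (ρ' := dl (χQ p) rA) hB'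
    (LinearMap.lcomp (ZMod p) (ZMod p) i) (dual_equiv rA rB i hi) d2)
  have e5 := ev_rk D rA hA rB hB i hi
  have e6 := ev_h1 D rA hA
  let φ := cochMap (S := SL) (ι := idG GQ) (X := XS S) (ρ := rA) (ρ' := rB) i hi
  let ψ := cochMap (S := SL) (ι := idG GQ) (X := XS S) (ρ := rB) (ρ' := rC) j hj
  let φ' := cochMap (S := SL) (ι := idG GQ) (X := XS S) (ρ := dl (χQ p) rC) (ρ' := dl (χQ p) rB)
    (LinearMap.lcomp (ZMod p) (ZMod p) j) (dual_equiv rB rC j hj)
  let ψ' := cochMap (S := SL) (ι := idG GQ) (X := XS S) (ρ := dl (χQ p) rB) (ρ' := dl (χQ p) rA)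
    (LinearMap.lcomp (ZMod p) (ZMod p) i) (dual_equiv rA rB i hi)
  have u1 : φ.rk 0 = finrank (ZMod p) ((CP S rA).H 0) := sP.rk_zero
  have u2 : finrank (ZMod p) ((CP S rB).H 0) = φ.rk 0 + ψ.rk 0 := sP.rk_mid 0
  have u3 : finrank (ZMod p) ((CP S rC).H 0) = ψ.rk 0 + ψ.ck 0 := sP.rk_right 0
  have u4 : finrank (ZMod p) ((CP S rA).H 1) = φ.rk 1 + ψ.ck 0 := sP.rk_left 0
  have v1 : finrank (ZMod p) ((CP S (dl (χQ p) rB)).H 2) = φ'.rk 2 + ψ'.rk 2 := sP'.rk_mid 2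
  have v2 : finrank (ZMod p) ((CP S (dl (χQ p) rA)).H 2) = ψ'.rk 2 + ψ'.ck 2 := sP'.rk_right 2
  have v3 : finrank (ZMod p) ((CP S (dl (χQ p) rC)).H 2) = φ'.rk 2 + ψ'.ck 1 := sP'.rk_left 1
  have v4 : finrank (ZMod p) ((CP S (dl (χQ p) rA)).H 1) = ψ'.rk 1 + ψ'.ck 1 := sP'.rk_right 1
  have e4' : ψ'.ck 2 = 0 := e4
  have e5' : φ.rk 1 = ψ'.rk 1 := e5
  have e6' : finrank (ZMod p) ((CP S rA).H 1) = finrank (ZMod p) ((CP S (dl (χQ p) rA)).H 1) := e6
  have w := Hc_add rA rB rC i j hi hj hinj hsurj hex hp2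
  have w' : (finrank (ZMod p) (Hc rB) : ℤ) = finrank (ZMod p) (Hc rA) + finrank (ZMod p) (Hc rC) := by
    exact_mod_cast w
  have e1' : (CG S (dl (χQ p) rB)).chi = (CG S (dl (χQ p) rC)).chi + (CG S (dl (χQ p) rA)).chi := by
    rw [e3] at e1
    push_cast at e1
    rw [add_zero] at e1
    exact e1
  have key : (finrank (ZMod p) ((CP S rB).H 0) : ℤ) - finrank (ZMod p) ((CP S (dl (χQ p) rB)).H 2) =
    (finrank (ZMod p) ((CP S rA).H 0) : ℤ) - finrank (ZMod p) ((CP S (dl (χQ p) rA)).H 2) +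
    ((finrank (ZMod p) ((CP S rC).H 0) : ℤ) - finrank (ZMod p) ((CP S (dl (χQ p) rC)).H 2)) := by
    omega
  simp only [FE, Cx.h]
  rw [w', e1']
  linarith

end FE

end Fermat.Agent.CFT
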