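import Fermat.Agent.CFT.GW12

/-!
# The defect of the Euler characteristic in terms of a dual pair
-/

set_option autoImplicit false
set_option linter.unusedSectionVars false
set_option linter.unusedVariables false
set_option linter.style.haveILetI false

noncomputable section

namespace Fermat.Agent.CFT

open Module Fermat.Agent.Sel
open scoped Pointwise

variable {p : ℕ} [hp : Fact p.Prime] {S : Finset ℕ}

section

variable {W : Type} [AddCommGroup W] [Module (ZMod p) W] [Module.Finite (ZMod p) W]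
  (r : Representation (ZMod p) GQ W)

theorem h0_loc' {a : S → XS S} (ha : Places S a) :
    (CP S r).h 0 = ∑ v : S, finrank (ZMod p) (H0 r (DD a v)) := by
  classical
  have h1 := (orbEquiv SL (idG GQ) r a ha.cover ha.disj 0).finrank_eq
  have hf : ∀ v, (cochCx SL ((idG GQ).comp (stb (idG GQ) (a v)).subtype)
      (r.comp (stb (idG GQ) (a v)).subtype) Unit).H 0 ≃ₗ[ZMod p] H0 r (DD a v) := fun v =>
    H0Equiv.trans
      ({ toFun := fun x => ⟨x.1, fun σ hσ => x.2 ⟨σ, stb_mem (mem_DD.1 hσ)⟩⟩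
         invFun := fun x => ⟨x.1, fun h => x.2 h (mem_DD.2 (mem_of_stb h.2))⟩
         map_add' := fun _ _ => rfl
         map_smul' := fun _ _ => rfl
         left_inv := fun _ => rfl
         right_inv := fun _ => rfl } :
        inv (r.comp (stb (idG GQ) (a v)).subtype) ≃ₗ[ZMod p] H0 r (DD a v))
  haveI : ∀ v, Module.Finite (ZMod p) ((cochCx SL ((idG GQ).comp (stb (idG GQ) (a v)).subtype)
      (r.comp (stb (idG GQ) (a v)).subtype) Unit).H 0) := fun v => Module.Finite.equiv (hf v).symm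
  rw [Cx.h]
  refine h1.trans ?_
  rw [Module.finrank_pi_fintype]
  exact Finset.sum_congr rfl fun v _ => (hf v).finrank_eq

theorem h0_loc (hr : HasLevel (SG S) (idG GQ) r) (hp2 : p ≠ 2) (hpS : p ∈ S) {a : S → XS S}
    (ha : Places S a) : (CP S r).h 0 = ∑ v : S, finrank (ZMod p) (H0 r (DD a v)) := h0_loc' r ha

end

section

variable {V V' : Type} [AddCommGroup V] [Module (ZMod p) V]
  [AddCommGroup V'] [Module (ZMod p) V'] [FiniteDimensional (ZMod p) V] [FiniteDimensional (ZMod p) V']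
  (r : Representation (ZMod p) GQ V) (r' : Representation (ZMod p) GQ V')
  (B : V →ₗ[ZMod p] V' →ₗ[ZMod p] ZMod p)
  (hr : HasLevel (SG S) (idG GQ) r) (hr' : HasLevel (SG S) (idG GQ) r')
  (nd : ∀ x, (∀ y, B x y = 0) → x = 0) (nd' : ∀ y, (∀ x, B x y = 0) → y = 0)
  (heq : ∀ σ x y, B (r σ x) (r' σ y) = χQ p σ (B x y)) (hp2 : p ≠ 2) (hpS : p ∈ S)

/-- the equivalence with the dual given by a perfect pairing -/
def eqB (B : V →ₗ[ZMod p] V' →ₗ[ZMod p] ZMod p)
    (nd : ∀ x, (∀ y, B x y = 0) → x = 0) (nd' : ∀ y, (∀ x, B x y = 0) → y = 0) :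
    V ≃ₗ[ZMod p] (V' →ₗ[ZMod p] ZMod p) :=
  LinearEquiv.ofBijective B ⟨(injective_iff_map_eq_zero _).2 fun a ha =>
        nd a fun m => by rw [ha, LinearMap.zero_apply],
        (LinearMap.injective_iff_surjective_of_finrank_eq_finrank
        ((pair_finrank B nd nd').trans (Subspace.dual_finrank_eq (K := ZMod p) (V := V')).symm)).1
        ((injective_iff_map_eq_zero _).2 fun a ha =>
        nd a fun m => by rw [ha, LinearMap.zero_apply])⟩

theorem eqB_apply (x : V) (y : V') : eqB B nd nd' x y = B x y := rfl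

include heq in
theorem eqB_equiv (h : GQ) (a : V) : eqB B nd nd' (r h a) = dl (χQ p) r' h (eqB B nd nd' a) := by
  apply LinearMap.ext
  intro m
  rw [dl_apply]
  change B (r h a) m = χQ p h (B a (r' h⁻¹ m))
  rw [← heq, Representation.self_inv_apply]

include hr hr' heq hp2 hpS nd nd'

theorem FE_eq : FE S r = (finrank (ZMod p) (inv r') : ℤ) - (CG S r').h 1 + (LC S r).sh 1 +
    (CP S r).h 0 - finrank (ZMod p) (inv r) + finrank (ZMod p) (Hc r) := by
  let D := qData (S := S) hp2 hpS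
  let e := eqB B.flip nd' nd
  have he : ∀ h a, e (r' h a) = dl (χQ p) r h (e a) := eqB_equiv r' r B.flip nd' nd fun σ x y => heq σ y x
  have c1 : (CG S r').chi = (CG S (dl (χQ p) r)).chi :=
    (cochIso (S := SG S) (ι := idG GQ) (X := Unit) e he).chi_eq
  have c2 : (CP S r').h 2 = (CP S (dl (χQ p) r)).h 2 :=
    (cochIso (S := SL) (ι := idG GQ) (X := XS S) e he).h_eq 2
  have g := (clsQ D).finG (ρ := r') hr'
  have l := (clsQ D).finL (ρ := r') hr'
  haveI := g 2 le_rfl; haveI := l 2 le_rfl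
  have c3 := Cx.Hom.h_source (LC S r') 2
  have c4 := Cx.Hom.h_target (LC S r') 2
  have c5 : (LC S r').sh 2 = (LC S r).sh 1 := q_duality_aux D r' r (eqB B nd nd')
    (eqB_equiv r r' B nd nd' heq) hr'
  obtain ⟨K, hK⟩ := exists_goodK D.lev _ hr'
  have c6 : (LC S r').ck 2 = finrank (ZMod p) (inv (dl (χQ p) r')) := q_t3 D r' hK
  have c7 : finrank (ZMod p) (inv r) = finrank (ZMod p) (inv (dl (χQ p) r')) :=
    inv_congr (eqB B nd nd') (eqB_equiv r r' B nd nd' heq)
  have c8 : (CG S r').h 0 = finrank (ZMod p) (inv r') := (H0Equiv).finrank_eq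
  rw [FE, ← c1, ← c2, Cx.chi, c3, c4, c5, c6, ← c7, c8]
  push_cast
  ring

end

section

variable {W W' : Type} [AddCommGroup W] [Module (ZMod p) W] [AddCommGroup W'] [Module (ZMod p) W']
  (r : Representation (ZMod p) GQ W) (r' : Representation (ZMod p) GQ W') (e : W ≃ₗ[ZMod p] W')
  (he : ∀ g x, e (r g x) = r' g (e x))

include he

theorem FE_congr : FE S r = FE S r' := by
  have he' : ∀ g x, e.dualMap (dl (χQ p) r' g x) = dl (χQ p) r g (e.dualMap x) := fun g f => by
    apply LinearMap.ext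
    intro x
    change χQ p g (f (r' g⁻¹ (e x))) = χQ p g (f (e (r g⁻¹ x)))
    rw [he]
  rw [FE, FE, (cochIso (S := SG S) (ι := idG GQ) (X := Unit) (ρ := dl (χQ p) r')
    (ρ' := dl (χQ p) r) e.dualMap he').chi_eq,
    (cochIso (S := SL) (ι := idG GQ) (X := XS S) (ρ := dl (χQ p) r')
    (ρ' := dl (χQ p) r) e.dualMap he').h_eq 2,
    (cochIso (S := SL) (ι := idG GQ) (X := XS S) (ρ := r) (ρ' := r') e he).h_eq 0]
  congr 2
  refine LinearEquiv.finrank_eq (LinearEquiv.ofBijective
      ({ toFun := fun x => ⟨e x.1, by rw [mem_Hc]; exact (he _ _).symm.trans (congrArg e (mem_Hc.1 x.2))⟩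
         map_add' := fun x y => Subtype.ext (map_add e _ _)
         map_smul' := fun c x => Subtype.ext (map_smul e _ _) } : Hc r →ₗ[ZMod p] Hc r') ⟨?_, ?_⟩)
  · intro x y h
    exact Subtype.ext (e.injective (congrArg Subtype.val h))
  · intro y
    refine ⟨⟨e.symm y, ?_⟩, Subtype.ext (e.apply_symm_apply _)⟩
    rw [mem_Hc]
    apply e.injective
    rw [e.apply_symm_apply]
    exact (he _ _).trans ((congrArg _ (e.apply_symm_apply _)).trans (mem_Hc.1 y.2))

end

variable {V V' : Type} [AddCommGroup V] [Module (ZMod p) V]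
  [AddCommGroup V'] [Module (ZMod p) V']
  {r : GQ →* Module.End (ZMod p) V} {r' : GQ →* Module.End (ZMod p) V'}
  {B : V →ₗ[ZMod p] V' →ₗ[ZMod p] ZMod p}
  [FiniteDimensional (ZMod p) V] [FiniteDimensional (ZMod p) V']
  (hp2 : p ≠ 2) (hD : DualReps p S r r' B) (A : S → ValuationSubring Qb)
  (hA : ∀ v, (A v).LiesOverPrime (v : ℕ))

include hp2 hD hA in
/-- **Greenberg–Wiles from the vanishing of the defect.** -/
theorem gw_of_FE (hFE : FE S (r : Representation _ GQ V) ≤ 0)
    (L : ∀ v : S, Submodule (ZMod p) ((A v).decompositionSubgroup ℚ → V))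
    (hB : ∀ v, B1 r _ ≤ L v) (hZ : ∀ v, L v ≤ Z1 r _) :
    (∀ v, FiniteDimensional (ZMod p) (L v)) ∧
    FiniteDimensional (ZMod p) (SelZ r S A L) ∧
    FiniteDimensional (ZMod p) (SelZ r' S A fun v => Perp r' B (GalRep.cyc p) _ (L v)) ∧
    (finrank (ZMod p) (SelZ r S A L) : ℤ) ≤
      finrank (ZMod p) (SelZ r' S A fun v => Perp r' B (GalRep.cyc p) _ (L v)) +
      ∑ v : S, ((finrank (ZMod p) (L v) : ℤ) - finrank (ZMod p) V) - finrank (ZMod p) (Hc r) := by
  refine gw_of_EC hp2 hD A hA L hB hZ _ ?_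
  have h1 := FE_eq (r : Representation _ GQ V) (r' : Representation _ GQ V') B (DualReps.lev hD)
    (DualReps.lev' hD) hD.nd hD.nd' (DualReps.eqχ hD) hp2 hD.mem
  have h2 := h0_loc (r : Representation _ GQ V) (DualReps.lev hD) hp2 hD.mem (places_aA A hA hD.prime)
  have h3 : ((CP S r).h 0 : ℤ) = ∑ v : S, (finrank (ZMod p) (H0 r ((A v).decompositionSubgroup ℚ)) : ℤ) := by
    rw [h2]; push_cast; rfl
  rw [← h3]
  linarith

end Fermat.Agent.CFT
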