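import Fermat.Agent.CFT.GW13

/-!
# The defect of the Euler characteristic of a coinduced module
-/

set_option autoImplicit false
set_option linter.unusedSectionVars false
set_option linter.unusedVariables false
set_option linter.style.haveILetI false

noncomputable section

namespace Fermat.Agent.CFT

open Module Fermat.Agent.Sel
open scoped Pointwise

section Pair

variable {k : Type} [Field k] {G M : Type} [Group G] [AddCommGroup M] [Module k M]
  (K : Subgroup G) [K.FiniteIndex] (χ : Representation k G k) (τ : Representation k K M)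

/-- the dual of a representation of a subgroup -/
abbrev dK : Representation k K (M →ₗ[k] k) := dl (χ.comp K.subtype) τ

/-- the pairing of coinduced modules -/
def ciB : CI K τ →ₗ[k] (CI K (dK K χ τ) →ₗ[k] k) :=
  letI := Fintype.ofFinite (RC K)
  LinearMap.mk₂ k (fun φ ψ => ∑ q : RC K, χ q.out⁻¹ (((ψ : G → (M →ₗ[k] k)) q.out) ((φ : G → M) q.out)))
    (fun a b c => by simp [Finset.sum_add_distrib])
    (fun a b c => by
      rw [Finset.smul_sum]
      refine Finset.sum_congr rfl fun q _ => ?_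
      change χ q.out⁻¹ (((c : G → (M →ₗ[k] k)) q.out) (a • ((b : G → M) q.out))) = _
      rw [map_smul, map_smul])
    (fun a b c => by simp [Finset.sum_add_distrib])
    (fun a b c => by
      rw [Finset.smul_sum]
      refine Finset.sum_congr rfl fun q _ => ?_
      change χ q.out⁻¹ ((a • ((c : G → (M →ₗ[k] k)) q.out)) ((b : G → M) q.out)) = _
      rw [LinearMap.smul_apply, map_smul])

theorem ciB_apply [Fintype (RC K)] (φ : CI K τ) (ψ : CI K (dK K χ τ)) : ciB K χ τ φ ψ =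
      ∑ q : RC K, χ q.out⁻¹ (((ψ : G → (M →ₗ[k] k)) q.out) ((φ : G → M) q.out)) := by
  rw [ciB]
  change Finset.sum _ _ = _
  congr!

theorem ciB_aux (φ : CI K τ) (ψ : CI K (dK K χ τ)) (h : G) :
    χ (Quotient.out (s := QuotientGroup.rightRel K) ⟦h⟧)⁻¹
      (((ψ : G → (M →ₗ[k] k)) (Quotient.out (s := QuotientGroup.rightRel K) ⟦h⟧))
        ((φ : G → M) (Quotient.out (s := QuotientGroup.rightRel K) ⟦h⟧))) =
    χ h⁻¹ (((ψ : G → (M →ₗ[k] k)) h) ((φ : G → M) h)) := by
  have h1 := mul_out_inv_mem K h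
  set q := Quotient.out (s := QuotientGroup.rightRel K) ⟦h⟧
  have h2 : h = ((⟨_, h1⟩ : K) : G) * q := by simp
  have h3 := CI_apply K _ φ ⟨_, h1⟩ q
  have h4 := CI_apply K _ ψ ⟨_, h1⟩ q
  rw [← h2] at h3 h4
  rw [h3, h4, dl_apply, Representation.inv_self_apply]
  change _ = χ h⁻¹ (χ (h * q⁻¹) _)
  rw [← Module.End.mul_apply, ← map_mul]
  congr 2
  group

theorem ciB_equiv (h : G) (φ : CI K τ) (ψ : CI K (dK K χ τ)) :
    ciB K χ τ (ci K τ h φ) (ci K _ h ψ) = χ h (ciB K χ τ φ ψ) := by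
  letI := Fintype.ofFinite (RC K)
  rw [ciB_apply, ciB_apply, map_sum]
  refine Fintype.sum_equiv (rcMul K h) _ _ fun q => ?_
  induction q using Quotient.inductionOn' with
  | h x =>
    change χ (Quotient.out (s := QuotientGroup.rightRel K) ⟦x⟧)⁻¹
        ((((ci K _ h ψ : CI K (dK K χ τ)) : G → (M →ₗ[k] k))
          (Quotient.out (s := QuotientGroup.rightRel K) ⟦x⟧))
          (((ci K τ h φ : CI K τ) : G → M) (Quotient.out (s := QuotientGroup.rightRel K) ⟦x⟧))) =
      χ h (χ (Quotient.out (s := QuotientGroup.rightRel K) ⟦x * h⟧)⁻¹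
        (((ψ : G → (M →ₗ[k] k)) (Quotient.out (s := QuotientGroup.rightRel K) ⟦x * h⟧))
          ((φ : G → M) (Quotient.out (s := QuotientGroup.rightRel K) ⟦x * h⟧))))
    rw [ciB_aux K χ τ φ ψ (x * h), ciB_aux K χ τ (ci K _ h φ) (ci K _ h ψ) x,
      ci_apply, ci_apply, ← Module.End.mul_apply, ← map_mul]
    congr 2
    group

theorem χ_inj (g : G) {c : k} (h : χ g c = 0) : c = 0 := by
  rw [← Representation.inv_self_apply χ g c, h, map_zero]

theorem ciEquiv_symm_single {A : Type} [AddCommGroup A] [Module k A] (σ : Representation k K A) [DecidableEq (RC K)]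
    (q q' : RC K) (m : A) : (((ciEquiv K σ).symm (Pi.single q m) : CI K σ) : G → A) q'.out =
      (Pi.single q m : RC K → A) q' :=
  congrFun ((ciEquiv K σ).apply_symm_apply (Pi.single q m)) q'

theorem ciB_nd (φ : CI K τ) (h : ∀ ψ, ciB K χ τ φ ψ = 0) : φ = 0 := by
  classical
  letI := Fintype.ofFinite (RC K)
  apply (ciEquiv K τ).injective
  rw [map_zero]
  funext q
  refine (Module.forall_dual_apply_eq_zero_iff k _).1 fun f => ?_
  have h1 := h ((ciEquiv K _).symm (Pi.single q f))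
  rw [ciB_apply, Finset.sum_eq_single q] at h1
  · rw [ciEquiv_symm_single, Pi.single_eq_same] at h1
    exact χ_inj χ _ h1
  · intro q' _ hq'
    rw [ciEquiv_symm_single, Pi.single_eq_of_ne hq', LinearMap.zero_apply, map_zero]
  · intro h; exact absurd (Finset.mem_univ _) h

theorem ciB_nd' (ψ : CI K (dK K χ τ)) (h : ∀ φ, ciB K χ τ φ ψ = 0) : ψ = 0 := by
  classical
  letI := Fintype.ofFinite (RC K)
  apply (ciEquiv K (dK K χ τ)).injective
  rw [map_zero]
  funext q
  apply LinearMap.ext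
  intro m
  have h1 := h ((ciEquiv K _).symm (Pi.single q m))
  rw [ciB_apply, Finset.sum_eq_single q] at h1
  · rw [ciEquiv_symm_single, Pi.single_eq_same] at h1
    exact χ_inj χ _ h1
  · intro q' _ hq'
    rw [ciEquiv_symm_single, Pi.single_eq_of_ne hq', map_zero, map_zero]
  · intro h; exact absurd (Finset.mem_univ _) h

end Pair

section

variable {p : ℕ} [hp : Fact p.Prime] {S : Finset ℕ} {W : Type} [AddCommGroup W] [Module (ZMod p) W]
  [Module.Finite (ZMod p) W] (K : Subgroup GQ) (τ : Representation (ZMod p) K W)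

/-- cochains over a subfield -/
abbrev CGK (S : Finset ℕ) {W : Type} [AddCommGroup W] [Module (ZMod p) W]
    (K : Subgroup GQ) (τ : Representation (ZMod p) K W) : Cx.{0, 0} (ZMod p) :=
  cochCx (SG S) ((idG GQ).comp K.subtype) τ Unit

/-- local cochains over a subfield -/
abbrev CPK (S : Finset ℕ) {W : Type} [AddCommGroup W] [Module (ZMod p) W]
    (K : Subgroup GQ) (τ : Representation (ZMod p) K W) : Cx.{0, 0} (ZMod p) :=
  cochCx SL ((idG GQ).comp K.subtype) τ (XS S)

/-- localisation -/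
abbrev LCK (S : Finset ℕ) {W : Type} [AddCommGroup W] [Module (ZMod p) W]
    (K : Subgroup GQ) (τ : Representation (ZMod p) K W) : Cx.Hom (CGK S K τ) (CPK S K τ) :=
  loc (Sg := SG S) (Sl := SL) SG_SL ((idG GQ).comp K.subtype) (XS S) τ

theorem sh_shapiro (n : ℕ) : (LC S (ci K τ)).sh n = (LCK S K τ).sh n :=
  Cx.Hom.sh_iso _ _ (shapiro (S := SG S) (ι := idG GQ) (X := Unit) K τ)
    (shapiro (S := SL) (ι := idG GQ) (X := XS S) K τ) (fun n F => loc_shapiro SG_SL (idG GQ) (XS S) K τ n F) n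

theorem h1_shapiro : (CG S (ci K τ)).h 1 = (CGK S K τ).h 1 :=
  (shapiro (S := SG S) (ι := idG GQ) (X := Unit) K τ).h_eq 1

theorem h0_shapiro : (CP S (ci K τ)).h 0 = (CPK S K τ).h 0 :=
  (shapiro (S := SL) (ι := idG GQ) (X := XS S) K τ).h_eq 0

theorem inv_shapiro : finrank (ZMod p) (inv (ci K τ)) = finrank (ZMod p) (inv τ) :=
  (invCi K τ).finrank_eq

/-- representations of a subgroup of finite level -/
def LevK (S : Finset ℕ) (K : Subgroup GQ) (τ : Representation (ZMod p) K W) : Prop :=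
  ∃ V ∈ (SG S).carrier, ∀ h, h ∈ V → ∃ hh : h ∈ K, ∀ a, τ ⟨h, hh⟩ a = a

variable {K τ}

theorem LevK.open (h : LevK S K τ) : IsOpen (K : Set GQ) := by
  obtain ⟨V, hV, h⟩ := h
  exact Subgroup.isOpen_mono (H₁ := V) (fun g hg => (h g hg).1) (SG_open V hV)

theorem LevK.fin (h : LevK S K τ) : K.FiniteIndex := finiteIndex_of_isOpen (LevK.open h)

theorem LevK.level (h : LevK S K τ) : HasLevel (SG S) (idG GQ) (ci K τ) := by
  haveI := LevK.fin h
  obtain ⟨V, hV, h⟩ := h
  exact hasLevel_ci K τ ⟨V, hV, h⟩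

theorem LevK.dual (hp2 : p ≠ 2) (hpS : p ∈ S) (h : LevK S K τ) : LevK S K (dK K (χQ p) τ) := by
  obtain ⟨V, hV, h⟩ := h
  obtain ⟨V', hV', h'⟩ := (qData (S := S) hp2 hpS).lev
  obtain ⟨U, hU, h1, h2⟩ := (SG S).directed V hV V' hV'
  refine ⟨U, hU, fun g hg => ⟨(h g (h1 hg)).1, fun f => ?_⟩⟩
  apply LinearMap.ext
  intro w
  change χQ p g (f (τ ⟨g, _⟩⁻¹ w)) = f w
  rw [h' g (h2 hg)]
  congr 1
  obtain ⟨h3, h4⟩ := h g⁻¹ (inv_mem (h1 hg))
  exact h4 w

variable (K τ)

set_option maxHeartbeats 1000000 in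
theorem FE_ci (hp2 : p ≠ 2) (hpS : p ∈ S) (h : LevK S K τ) :
    FE S (ci K τ) = (finrank (ZMod p) (inv (dK K (χQ p) τ)) : ℤ) - (CGK S K (dK K (χQ p) τ)).h 1 +
    (LCK S K τ).sh 1 + (CPK S K τ).h 0 - finrank (ZMod p) (inv τ) + finrank (ZMod p) (Hc (ci K τ)) := by
  haveI := LevK.fin h
  have h0 := FE_eq (S := S) (V := CI K τ) (V' := CI K (dK K (χQ p) τ)) (ci K τ)
    (ci K (dK K (χQ p) τ)) (ciB K (χQ p) τ) (LevK.level h)
    (LevK.level (LevK.dual hp2 hpS h)) (ciB_nd K (χQ p) τ) (ciB_nd' K (χQ p) τ)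
    (by
      intro σ x y
      have := ciB_equiv K (χQ p) τ σ x y
      rw [this]) hp2 hpS
  have h3 := sh_shapiro (S := S) K τ 1
  have h1 := h1_shapiro (S := S) K (dK K (χQ p) τ)
  have h2 := h0_shapiro (S := S) K τ
  have h4 := inv_shapiro K (dK K (χQ p) τ)
  have h5 := inv_shapiro K τ
  rw [h0, h3, h1, h2, h4, h5]

end

end Fermat.Agent.CFT
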