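import Fermat.Agent.CFT.GW14

/-!
# Averaging over a cyclic quotient of order prime to `p`
-/

set_option autoImplicit false
set_option linter.unusedSectionVars false
set_option linter.unusedVariables false
set_option linter.style.haveILetI false

noncomputable section

namespace Fermat.Agent.CFT

open Module Fermat.Agent.Sel
open scoped Pointwise

/-- a cyclic extension of order prime to `p` -/
structure CycD (p : ℕ) [Fact p.Prime] (S : Finset ℕ) (V0 K : Subgroup GQ) (g : GQ) (n : ℕ) : Prop where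
  hV : V0 ∈ (SG S).carrier
  mu : MuF p V0
  le : V0 ≤ K
  mem : g ∈ K
  pow : g ^ n ∈ V0
  gen : ∀ h ∈ K, ∃ i : ℕ, ∃ v ∈ V0, h = g ^ i * v
  np : ¬ p ∣ n

section Avg

variable {p : ℕ} [hp : Fact p.Prime] {S : Finset ℕ} {V0 K : Subgroup GQ} {g : GQ} {n : ℕ}
  {M : Type} [AddCommGroup M] [Module (ZMod p) M]

/-- twisting a function -/
def tw (T : Module.End (ZMod p) M) (g : GQ) (P : Type) [MulAction GQ P] : Module.End (ZMod p) (P → M) where
  toFun f x := T (f (g⁻¹ • x))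
  map_add' f f' := by funext x; exact map_add T _ _
  map_smul' c f := by funext x; exact map_smul T _ _

variable {T : Module.End (ZMod p) M} {P : Type} [MulAction GQ P]

theorem tw_apply (f : P → M) (x : P) : tw T g P f x = T (f (g⁻¹ • x)) := rfl

theorem tw_pow (i : ℕ) (f : P → M) (x : P) : (tw T g P ^ i) f x = (T ^ i) (f ((g ^ i)⁻¹ • x)) := by
  induction i generalizing x with
  | zero => simp
  | succ i ih =>
    rw [pow_succ', Module.End.mul_apply, tw_apply, ih, pow_succ' T, Module.End.mul_apply, smul_smul,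
      ← mul_inv_rev, ← pow_succ']

/-- the average -/
def avg (T : Module.End (ZMod p) M) (g : GQ) (n : ℕ) (P : Type) [MulAction GQ P] :
    Module.End (ZMod p) (P → M) := (n : ZMod p)⁻¹ • ∑ i ∈ Finset.range n, tw T g P ^ i

theorem avg_apply (f : P → M) : avg T g n P f =
    (n : ZMod p)⁻¹ • ∑ i ∈ Finset.range n, (tw T g P ^ i) f := by
  rw [avg, LinearMap.smul_apply, LinearMap.sum_apply]

theorem avg_of_fix (hn : ¬ p ∣ n) {f : P → M} (hf : tw T g P f = f) : avg T g n P f = f := by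
  have h1 : ∀ i, (tw T g P ^ i) f = f := fun i => by
    induction i with
    | zero => rfl
    | succ i ih => rw [pow_succ', Module.End.mul_apply, ih, hf]
  rw [avg_apply, Finset.sum_congr rfl fun i _ => h1 i, Finset.sum_const, Finset.card_range,
    ← Nat.cast_smul_eq_nsmul (ZMod p), smul_smul, inv_mul_cancel₀, one_smul]
  rwa [Ne, ZMod.natCast_eq_zero_iff]

theorem tw_avg {f : P → M} (hf : (tw T g P ^ n) f = f) : tw T g P (avg T g n P f) = avg T g n P f := by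
  rw [avg_apply, map_smul, map_sum]
  congr 1
  have h1 : ∀ i, tw T g P ((tw T g P ^ i) f) = (tw T g P ^ (i + 1)) f := fun i => by
    rw [pow_succ', Module.End.mul_apply]
  rw [Finset.sum_congr rfl fun i _ => h1 i]
  have h2 := Finset.sum_range_succ (fun i => (tw T g P ^ i) f) n
  rw [Finset.sum_range_succ' (fun i => (tw T g P ^ i) f) n, hf] at h2
  exact add_right_cancel h2

variable (hC : CycD p S V0 K g n) (ρ : Representation (ZMod p) K M)
  (hρ : ∀ v (hv : v ∈ V0) m, ρ ⟨v, hC.le hv⟩ m = m)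

include hC hρ

theorem T_pow_n : (ρ ⟨g, hC.mem⟩) ^ n = 1 := by
  rw [← map_pow]
  apply LinearMap.ext
  intro m
  exact hρ (g ^ n) hC.pow m

theorem conj_V0 {v : GQ} (hv : v ∈ V0) (g : GQ) : g⁻¹ * v * g ∈ V0 := by
  have := (SG S).normal _ hC.hV
  simpa using this.conj_mem v hv g⁻¹

theorem tw_inv {f : P → M} (hf : ∀ v ∈ V0, ∀ x, f (v • x) = f x) :
    ∀ v ∈ V0, ∀ x, tw (ρ ⟨g, hC.mem⟩) g P f (v • x) = tw (ρ ⟨g, hC.mem⟩) g P f x := fun v hv x => by
  have h1 : g⁻¹ • v • x = (g⁻¹ * v * g) • (g⁻¹ • x) := by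
    simp only [smul_smul]
    congr 1
    group
  rw [tw_apply, tw_apply, h1, hf _ (conj_V0 hC ρ hρ hv g)]

theorem tw_pow_n {f : P → M} (hf : ∀ v ∈ V0, ∀ x, f (v • x) = f x) :
    (tw (ρ ⟨g, hC.mem⟩) g P ^ n) f = f := by
  funext x
  rw [tw_pow, T_pow_n hC ρ hρ, hf _ (inv_mem hC.pow)]; rfl

theorem tw_pow_inv {f : P → M} (hf : ∀ v ∈ V0, ∀ x, f (v • x) = f x) (i : ℕ) :
    ∀ v ∈ V0, ∀ x, (tw (ρ ⟨g, hC.mem⟩) g P ^ i) f (v • x) = (tw (ρ ⟨g, hC.mem⟩) g P ^ i) f x := by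
  induction i with
  | zero => exact hf
  | succ i ih =>
    intro v hv x
    rw [pow_succ', Module.End.mul_apply]
    exact tw_inv hC ρ hρ ih v hv x

theorem avg_inv {f : P → M} (hf : ∀ v ∈ V0, ∀ x, f (v • x) = f x) :
    ∀ v ∈ V0, ∀ x, avg (ρ ⟨g, hC.mem⟩) g n P f (v • x) = avg (ρ ⟨g, hC.mem⟩) g n P f x := fun v hv x => by
  rw [avg_apply, Pi.smul_apply, Pi.smul_apply, Finset.sum_apply, Finset.sum_apply]
  congr 1
  exact Finset.sum_congr rfl fun i _ => tw_pow_inv hC ρ hρ hf i v hv x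

/-- a function invariant under `V0` and under twisting is equivariant -/
theorem equiv_of_tw {f : P → M} (hf : ∀ v ∈ V0, ∀ x, f (v • x) = f x)
    (h : tw (ρ ⟨g, hC.mem⟩) g P f = f) (k : K) (x : P) : f ((k : GQ) • x) = ρ k (f x) := by
  have h1 : ∀ x, f (g • x) = ρ ⟨g, hC.mem⟩ (f x) := fun x => by
    conv_lhs => rw [← h]
    rw [tw_apply, inv_smul_smul]
  have h2 : ∀ (i : ℕ) x, f (g ^ i • x) = ((ρ ⟨g, hC.mem⟩) ^ i) (f x) := fun i => by
    induction i with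
    | zero => intro x; simp
    | succ i ih =>
      intro x
      rw [pow_succ, mul_smul, ih, h1, pow_succ, Module.End.mul_apply]
  obtain ⟨i, v, hv, hk⟩ := hC.gen k k.2
  have h3 : k = (⟨g, hC.mem⟩ : K) ^ i * ⟨v, hC.le hv⟩ := Subtype.ext hk
  rw [hk, mul_smul, h2, hf v hv, h3, map_mul, Module.End.mul_apply, map_pow, hρ v hv]

/-- the averaged cochain -/
theorem avg_mem {m : ℕ} {f : (Fin (m + 1) → GQ) → M} (hf : ∀ v ∈ V0, ∀ x, f (v • x) = f x)
    (hs : ∃ U ∈ (SG S).carrier, ∀ x y, (∀ i, (x i)⁻¹ * y i ∈ U) → f x = f y) :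
    (fun (_ : Unit) x => avg (ρ ⟨g, hC.mem⟩) g n (Fin (m + 1) → GQ) f x) ∈
      coch (SG S) ((idG GQ).comp K.subtype) ρ Unit m := by
  refine mem_coch.2 ⟨fun k _ x => ?_, ?_⟩
  · exact equiv_of_tw hC ρ hρ (avg_inv hC ρ hρ hf) (tw_avg (tw_pow_n hC ρ hρ hf)) k x
  · obtain ⟨U, hU, h⟩ := hs
    refine ⟨U, hU, fun _ x y hxy => ?_⟩
    beta_reduce
    rw [avg_apply, Pi.smul_apply, Pi.smul_apply, Finset.sum_apply, Finset.sum_apply]
    congr 1
    refine Finset.sum_congr rfl fun i _ => ?_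
    rw [tw_pow, tw_pow]
    congr 1
    refine h _ _ fun j => ?_
    have : (((g ^ i)⁻¹ • x) j)⁻¹ * ((g ^ i)⁻¹ • y) j = (x j)⁻¹ * y j := by
      change ((g ^ i)⁻¹ * x j)⁻¹ * ((g ^ i)⁻¹ * y j) = _
      group
    rw [this]
    exact hxy j

/-- the averaged cochain -/
def avgX {m : ℕ} {f : (Fin (m + 1) → GQ) → M} (hf : ∀ v ∈ V0, ∀ x, f (v • x) = f x)
    (hs : ∃ U ∈ (SG S).carrier, ∀ x y, (∀ i, (x i)⁻¹ * y i ∈ U) → f x = f y) : (CGK S K ρ).X m :=
  mkc _ (avg_mem hC ρ hρ hf hs)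

theorem cv_avgX {m : ℕ} {f : (Fin (m + 1) → GQ) → M} (hf : ∀ v ∈ V0, ∀ x, f (v • x) = f x)
    (hs : ∃ U ∈ (SG S).carrier, ∀ x y, (∀ i, (x i)⁻¹ * y i ∈ U) → f x = f y) (x : Fin (m + 1) → GQ) :
    cv (avgX hC ρ hρ hf hs) () x = avg (ρ ⟨g, hC.mem⟩) g n _ f x := rfl

omit hρ in
theorem tw_cv {m : ℕ} (F : (CGK S K ρ).X m) : tw (ρ ⟨g, hC.mem⟩) g _ (cv F ()) = cv F () := by
  funext x
  rw [tw_apply]
  have h1 := (cv_mem F).1 (⟨g, hC.mem⟩ : K) () (g⁻¹ • x)
  rw [← h1]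
  congr 1
  funext i
  change g * (g⁻¹ * x i) = x i
  group

omit hC hρ in
theorem dfun_avg {m : ℕ} (f : (Fin (m + 1) → GQ) → M) (x : Fin (m + 2) → GQ) :
    dfun (ZMod p) GQ M Unit m (fun _ => avg T g n _ f) () x =
      avg T g n _ (fun x => dfun (ZMod p) GQ M Unit m (fun _ => f) () x) x := by
  rw [avg_apply, avg_apply, Pi.smul_apply, Finset.sum_apply, dfun_apply]
  simp only [Pi.smul_apply, Finset.sum_apply, tw_pow, dfun_apply, map_sum, map_smul, Finset.smul_sum]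
  rw [Finset.sum_comm]
  refine Finset.sum_congr rfl fun i _ => Finset.sum_congr rfl fun j _ => ?_
  rw [smul_comm]
  rfl

/-- A cocycle which is trivial over `V0` is trivial over `K`. -/
theorem mem_B1_of_V0 {F : (CGK S K ρ).X 1} (f : GQ → M) (hf : ∀ v ∈ V0, ∀ x, f (v * x) = f x)
    (hs : ∃ U ∈ (SG S).carrier, ∀ x, ∀ v ∈ U, f (x * v) = f x)
    (hF : ∀ x y, cv F () ![x, y] = f y - f x) : F ∈ (CGK S K ρ).B 1 := by
  have hf' : ∀ v ∈ V0, ∀ x : Fin 1 → GQ, (fun x : Fin 1 → GQ => f (x 0)) (v • x) = f (x 0) :=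
    fun v hv x => hf v hv (x 0)
  have hs' : ∃ U ∈ (SG S).carrier, ∀ x y : Fin 1 → GQ, (∀ i, (x i)⁻¹ * y i ∈ U) → f (x 0) = f (y 0) := by
    obtain ⟨U, hU, h⟩ := hs
    refine ⟨U, hU, fun x y hxy => ?_⟩
    have := h (x 0) _ (hxy 0)
    rw [mul_inv_cancel_left] at this
    exact this.symm
  refine (Cx.mem_B_succ _).2 ⟨avgX (m := 0) hC ρ hρ hf' hs', ?_⟩
  apply cv_injective
  funext a x
  rw [cv_d]
  have h1 := dfun_avg (T := ρ ⟨g, hC.mem⟩) (g := g) (n := n) (fun x : Fin 1 → GQ => f (x 0)) x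
  refine Eq.trans h1 ?_
  have h2 : (fun x => dfun (ZMod p) GQ M Unit 0 (fun _ (x : Fin 1 → GQ) => f (x 0)) () x) = cv F () := by
    funext y
    have e : y = ![y 0, y 1] := by funext j; fin_cases j <;> rfl
    rw [e, dfun_zero_apply, hF]; rfl
  rw [h2, avg_of_fix hC.np (tw_cv hC ρ F)]

end Avg

end Fermat.Agent.CFT
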