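import Fermat.Agent.CFT.GW15

/-!
# Kummer theory over a cyclic extension of order prime to `p`
-/

set_option autoImplicit false
set_option linter.unusedSectionVars false
set_option linter.unusedVariables false
set_option linter.style.haveILetI false

noncomputable section

namespace Fermat.Agent.CFT

open Module Fermat.Agent.Sel
open scoped Pointwise

/-- the places over `S` -/
abbrev OS (S : Finset ℕ) : Set Pl := {A | A.ell ∈ S}

/-- the `S`-units -/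
abbrev UU (S : Finset ℕ) (V0 : Subgroup GQ) : AddSubgroup Ma := US V0 (OS S)

section

variable {p : ℕ} [hp : Fact p.Prime] {S : Finset ℕ} {V0 K : Subgroup GQ} {g : GQ} {n : ℕ}

theorem ac_FA (hN : V0.Normal) (g : GQ) {x : Ma} (hx : x ∈ FA V0) : ac g x ∈ FA V0 := by
  refine mem_FA'.2 fun v hv => ?_
  have h1 : g⁻¹ * v * g ∈ V0 := by simpa using hN.conj_mem v hv g⁻¹
  have h2 := mem_FA'.1 hx _ h1
  conv_rhs => rw [← h2]
  rw [← am_mul, ← am_mul]
  congr 2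
  group

theorem ac_UU (hN : V0.Normal) (g : GQ) {x : Ma} (hx : x ∈ UU S V0) : ac g x ∈ UU S V0 := by
  refine ⟨ac_FA hN g hx.1, fun A hA => ?_⟩
  have h1 := od_ac A g x
  rw [od_apply, od_apply] at h1
  rw [h1]
  refine hx.2 _ fun h => hA ?_
  change (g⁻¹ • A).ell ∈ S at h
  rwa [Pl.ell_smul] at h

/-- the action on `S`-units -/
def sU (hN : V0.Normal) (g : GQ) : AddMonoid.End (UU S V0) where
  toFun x := ⟨ac g x, ac_UU hN g x.2⟩
  map_zero' := Subtype.ext (map_zero _)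
  map_add' x y := Subtype.ext (map_add _ _ _)

theorem UU_div {t : Ma} (ht : t ∈ FA V0) (h : p • t ∈ UU S V0) : t ∈ UU S V0 := by
  refine ⟨ht, fun A hA => ?_⟩
  have h1 := h.2 A hA
  rw [← od_apply, map_nsmul, od_apply, nsmul_eq_mul] at h1
  exact (mul_eq_zero.1 h1).resolve_left (Nat.cast_ne_zero.2 hp.out.ne_zero)

end

section

variable {p : ℕ} [hp : Fact p.Prime] {S : Finset ℕ} {V0 K : Subgroup GQ} {g : GQ} {n : ℕ}
  {W : Type} [AddCommGroup W] [Module (ZMod p) W]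
  {U' : Type} [AddCommGroup U'] (q : UU S V0 →+ U')

/-- the homomorphism attached to a cocycle by Kummer theory -/
def KRep (F : (Fin 2 → GQ) → (W →ₗ[ZMod p] ZMod p)) (φ : W →+ U') : Prop :=
  ∀ w, ∃ u : UU S V0, KR p (SG S) V0 (fun x y => F ![x, y] w) u ∧ q u = φ w

variable {q}

theorem KRep.add {F F' : (Fin 2 → GQ) → (W →ₗ[ZMod p] ZMod p)} {φ φ' : W →+ U'} (h : KRep q F φ)
    (h' : KRep q F' φ') : KRep q (F + F') (φ + φ') := fun w => by
  obtain ⟨u, h1, h2⟩ := h w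
  obtain ⟨u', h1', h2'⟩ := h' w
  exact ⟨u + u', h1.add h1', by rw [map_add, h2, h2']; rfl⟩

theorem KRep.neg {F : (Fin 2 → GQ) → (W →ₗ[ZMod p] ZMod p)} {φ : W →+ U'} (h : KRep q F φ) :
    KRep q (-F) (-φ) := fun w => by
  obtain ⟨u, h1, h2⟩ := h w
  exact ⟨-u, h1.neg, by rw [map_neg, h2]; rfl⟩

theorem KRep.zero : KRep q (0 : (Fin 2 → GQ) → (W →ₗ[ZMod p] ZMod p)) 0 := fun w =>
  ⟨0, ⟨C1.zero, 0, C0.zero, fun x => by simp, fun x y => by simp⟩, map_zero _⟩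

theorem KRep.sum {ι : Type} (s : Finset ι) {F : ι → (Fin 2 → GQ) → (W →ₗ[ZMod p] ZMod p)}
    {φ : ι → W →+ U'} (h : ∀ i ∈ s, KRep q (F i) (φ i)) : KRep q (∑ i ∈ s, F i) (∑ i ∈ s, φ i) := by
  classical
  induction s using Finset.induction_on with
  | empty => exact KRep.zero
  | insert a s ha ih =>
    rw [Finset.sum_insert ha, Finset.sum_insert ha]
    exact (h a (Finset.mem_insert_self _ _)).add (ih fun j hj => h j (Finset.mem_insert_of_mem hj))

theorem KRep.nsmul {F : (Fin 2 → GQ) → (W →ₗ[ZMod p] ZMod p)} {φ : W →+ U'} (h : KRep q F φ) (m : ℕ) :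
    KRep q (m • F) (m • φ) := by
  induction m with
  | zero => rw [zero_smul, zero_smul]; exact KRep.zero
  | succ m ih => rw [succ_nsmul, succ_nsmul]; exact ih.add h

theorem KRep.smul {F : (Fin 2 → GQ) → (W →ₗ[ZMod p] ZMod p)} {φ : W →+ U'} (h : KRep q F φ) (c : ZMod p) :
    KRep q (c • F) (c.val • φ) := by
  have := h.nsmul c.val
  rwa [← Nat.cast_smul_eq_nsmul (ZMod p) c.val F, ZMod.natCast_zmod_val] at this

variable (hC : CycD p S V0 K g n) (hq : ∀ u, q u = 0 ↔ ∃ v, p • v = u)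

include hC hq

theorem q_eq_zero_iff (u : UU S V0) : q u = 0 ↔ ∃ t ∈ FA V0, p • t = (u : Ma) := by
  rw [hq]
  constructor
  · rintro ⟨v, rfl⟩
    exact ⟨v, v.2.1, rfl⟩
  · rintro ⟨t, ht, h⟩
    exact ⟨⟨t, UU_div ht (by rw [h]; exact u.2)⟩, Subtype.ext h⟩

theorem KR_q {α : GQ → GQ → ZMod p} {u : UU S V0} (h : KR p (SG S) V0 α u) :
    q u = 0 ↔ ∃ f, C0 (tr p) (SG S) V0 f ∧ d0 f = α := by
  rw [q_eq_zero_iff hC hq, h.triv_iff hC.mu]

theorem KRep.unique {F : (Fin 2 → GQ) → (W →ₗ[ZMod p] ZMod p)} {φ φ' : W →+ U'} (h : KRep q F φ)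
    (h' : KRep q F φ') : φ = φ' := by
  ext w
  obtain ⟨u, h1, h2⟩ := h w
  obtain ⟨u', h1', h2'⟩ := h' w
  have h3 := h1.add h1'.neg
  have h4 : q (u + -u') = 0 := (KR_q hC hq (u := u + -u') h3).2 ⟨0, C0.zero, by
    funext x y
    change (0 : ZMod p) - 0 = _ + -_
    rw [sub_zero, add_neg_cancel]⟩
  rw [map_add, map_neg, h2, h2', ← sub_eq_add_neg, sub_eq_zero] at h4
  exact h4

end

section

variable {p : ℕ} [hp : Fact p.Prime] {S : Finset ℕ} {V0 K : Subgroup GQ} {g : GQ} {n : ℕ}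
  {W : Type} [AddCommGroup W] [Module (ZMod p) W] [Module.Finite (ZMod p) W]
  {U' : Type} [AddCommGroup U'] {q : UU S V0 →+ U'}
  (hC : CycD p S V0 K g n) (τ : Representation (ZMod p) K W)
  (hτ : ∀ v (hv : v ∈ V0) m, τ ⟨v, hC.le hv⟩ m = m)

include hτ in
theorem dK_triv (v : GQ) (hv : v ∈ V0) (m : W →ₗ[ZMod p] ZMod p) :
    dK K (χQ p) τ ⟨v, hC.le hv⟩ m = m := by
  apply LinearMap.ext
  intro w
  change χQ p v (m (τ ⟨v, hC.le hv⟩⁻¹ w)) = m w
  have h1 : τ (⟨v, hC.le hv⟩⁻¹ : K) w = w := hτ v⁻¹ (inv_mem hv) w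
  rw [h1]
  refine zt_injective p ?_
  rw [← ac_zt]
  exact hC.mu v hv _

/-- twisting by the generator -/
theorem KRep.tw {F : (Fin 2 → GQ) → (W →ₗ[ZMod p] ZMod p)} {φ : W →+ U'} (h : KRep q F φ)
    (hN : V0.Normal) {σ' : AddMonoid.End U'} (hσ : ∀ u, σ' (q u) = q (sU hN g u))
    (hφ : ∀ w, φ (τ ⟨g, hC.mem⟩ w) = σ' (φ w)) :
    KRep q (CFT.tw (dK K (χQ p) τ ⟨g, hC.mem⟩) g _ F) φ := fun w => by
  obtain ⟨u, h1, h2⟩ := h (τ (⟨g, hC.mem⟩ : K)⁻¹ w)
  refine ⟨sU hN g u, ?_, ?_⟩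
  · obtain ⟨Y, hY, hpY, hYd⟩ := h1.ex
    have hval : ∀ x y, CFT.tw (dK K (χQ p) τ ⟨g, hC.mem⟩) g _ F ![x, y] w =
        χQ p g (F ![g⁻¹ * x, g⁻¹ * y] (τ (⟨g, hC.mem⟩ : K)⁻¹ w)) := fun x y => by
      rw [tw_apply]
      have e : (g⁻¹ • ![x, y] : Fin 2 → GQ) = ![g⁻¹ * x, g⁻¹ * y] := by
        funext j; fin_cases j <;> rfl
      rw [e]; rfl
    have hconj : ∀ v ∈ V0, g⁻¹ * v * g ∈ V0 := fun v hv => by simpa using hN.conj_mem v hv g⁻¹
    refine ⟨⟨fun v hv x y => ?_, ?_⟩, t0 ac g Y, C0.t0 hY hconj, fun x => ?_, fun x y => ?_⟩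
    · beta_reduce
      rw [hval, hval, tr_apply]
      have e1 : g⁻¹ * (v * x) = (g⁻¹ * v * g) * (g⁻¹ * x) := by group
      have e2 : g⁻¹ * (v * y) = (g⁻¹ * v * g) * (g⁻¹ * y) := by group
      have h3 := h1.c1.eq _ (hconj v hv) (g⁻¹ * x) (g⁻¹ * y)
      rw [tr_apply] at h3
      beta_reduce at h3
      rw [e1, e2, h3]
    · obtain ⟨V, hV, h3⟩ := h1.c1.sm
      refine ⟨V, hV, fun x y v hv v' hv' => ?_⟩
      beta_reduce
      rw [hval, hval, ← mul_assoc, ← mul_assoc]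
      have h4 := h3 (g⁻¹ * x) (g⁻¹ * y) v hv v' hv'
      beta_reduce at h4
      rw [h4]
    · change p • ac g (Y (g⁻¹ * x)) = ac g (u : Ma)
      rw [← hpY (g⁻¹ * x), map_nsmul]
    · beta_reduce
      rw [hval, ← ac_zt]
      have h3 := hYd (g⁻¹ * x) (g⁻¹ * y)
      beta_reduce at h3
      rw [h3, map_sub]; rfl
  · rw [← hσ, h2, ← hφ, Representation.self_inv_apply]

theorem KRep.tw_pow {F : (Fin 2 → GQ) → (W →ₗ[ZMod p] ZMod p)} {φ : W →+ U'} (h : KRep q F φ)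
    (hN : V0.Normal) {σ' : AddMonoid.End U'} (hσ : ∀ u, σ' (q u) = q (sU hN g u))
    (hφ : ∀ w, φ (τ ⟨g, hC.mem⟩ w) = σ' (φ w)) (i : ℕ) :
    KRep q ((CFT.tw (dK K (χQ p) τ ⟨g, hC.mem⟩) g _ ^ i) F) φ := by
  induction i with
  | zero => exact h
  | succ i ih =>
    rw [pow_succ', Module.End.mul_apply]
    exact ih.tw hC τ hN hσ hφ

theorem KRep.avg {F : (Fin 2 → GQ) → (W →ₗ[ZMod p] ZMod p)} {φ : W →+ U'} (h : KRep q F φ)
    (hN : V0.Normal) {σ' : AddMonoid.End U'} (hσ : ∀ u, σ' (q u) = q (sU hN g u))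
    (hφ : ∀ w, φ (τ ⟨g, hC.mem⟩ w) = σ' (φ w)) :
    KRep q (CFT.avg (dK K (χQ p) τ ⟨g, hC.mem⟩) g n _ F) φ := by
  rw [avg_apply]
  have h1 := (KRep.sum (Finset.range n) fun i _ => h.tw_pow hC τ hN hσ hφ i).smul (n : ZMod p)⁻¹
  rw [Finset.sum_const, Finset.card_range] at h1
  have h2 : ((n : ZMod p)⁻¹).val • n • φ = φ := by
    ext w
    change ((n : ZMod p)⁻¹).val • n • φ w = φ w
    rw [smul_smul, ← map_nsmul, ← Nat.cast_smul_eq_nsmul (ZMod p), Nat.cast_mul, ZMod.natCast_zmod_val,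
      inv_mul_cancel₀, one_smul]
    have := hC.np
    rwa [Ne, ZMod.natCast_eq_zero_iff]
  rwa [h2] at h1

variable (hq : ∀ u, q u = 0 ↔ ∃ v, p • v = u)

include hτ

theorem c1_of (F : (CGK S K (dK K (χQ p) τ)).X 1) (w : W) :
    C1 (tr p) (SG S) V0 (fun x y => cv F () ![x, y] w) := by
  refine ⟨fun v hv x y => ?_, ?_⟩
  · beta_reduce
    have h1 := cv_equiv2 F ⟨v, hC.le hv⟩ () x y
    have h2 : cv F () ![v * x, v * y] = cv F () ![x, y] :=
      h1.trans (dK_triv hC τ hτ v hv _)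
    rw [h2, tr_apply]
  · obtain ⟨V, hV, h⟩ := exists_level1' F
    exact ⟨V, hV, fun x y v hv v' hv' => by beta_reduce; rw [h () x y v hv v' hv']⟩

/-- every cocycle has a Kummer homomorphism -/
theorem exists_KRep {s : Finset Pl} (hs : Reps V0 S s) (hP : PID V0 (OB V0 id s)) (hpS : p ∈ S)
    (hq : ∀ u, q u = 0 ↔ ∃ v, p • v = u)
    {F : (CGK S K (dK K (χQ p) τ)).X 1} (hF : (CGK S K (dK K (χQ p) τ)).d 1 F = 0) :
    ∃ φ : W →+ U', KRep q (cv F ()) φ := by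
  have hOB : OB V0 id s = OS S := by ext A; exact hs.mem_OB
  have hop : ∃ V ∈ (SG S).carrier, V ≤ V0 := ⟨V0, hC.hV, le_rfl⟩
  have h1 : ∀ w : W, ∃ u : UU S V0, KR p (SG S) V0 (fun x y => cv F () ![x, y] w) u := by
    intro w
    obtain ⟨z, hz⟩ := exists_KR_of_cocycle hC.mu SG_open (c1_of hC τ hτ F w) (by
      funext x y z
      have h2 := cocycle1 hF () x y z
      change cv F () ![y, z] w - cv F () ![x, z] w + cv F () ![x, y] w = 0
      rw [h2, LinearMap.add_apply]; ring)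
    obtain ⟨hz1, hz2⟩ := (mem_VS_SG hpS hC.mu hop).1 ⟨_, hz⟩
    obtain ⟨_, ⟨t, ht, rfl⟩, hU⟩ := clear_p (p := p) hs (le_refl S) hop hP hz1 fun A hA => by
      obtain ⟨k, hk, hk'⟩ := hz2 A hA
      obtain ⟨j, rfl⟩ := (ZMod.intCast_zmod_eq_zero_iff_dvd k p).1 hk'
      exact ⟨j, by rw [hk]; push_cast; rfl⟩
    rw [hOB] at hU
    refine ⟨⟨_, hU⟩, ?_⟩
    have h3 : KR p (SG S) V0 0 (p • t) := ⟨C1.zero, fun _ => t, C0.const ht, fun _ => rfl, fun _ _ => by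
      rw [sub_self]; exact map_zero _⟩
    have h4 := hz.add h3.neg
    rw [neg_zero, add_zero, ← sub_eq_add_neg] at h4
    exact h4
  choose u hu using h1
  refine ⟨AddMonoidHom.mk' (fun w => q (u w)) fun w w' => ?_, fun w => ⟨u w, hu w, rfl⟩⟩
  have h5 := ((hu (w + w')).add ((hu w).add (hu w')).neg)
  have h6 : q (u (w + w') + -(u w + u w')) = 0 := (KR_q hC hq (u := u (w + w') + -(u w + u w')) h5).2
    ⟨0, C0.zero, by
      funext x y
      change (0 : ZMod p) - 0 = cv F () ![x, y] (w + w') + -(cv F () ![x, y] w + cv F () ![x, y] w')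
      rw [map_add]; ring⟩
  rw [map_add, map_neg, map_add, ← sub_eq_add_neg, sub_eq_zero] at h6
  exact h6

omit hτ in
theorem KRep_equiv (hN : V0.Normal) {σ' : AddMonoid.End U'} (hσ : ∀ u, σ' (q u) = q (sU hN g u))
    (hq : ∀ u, q u = 0 ↔ ∃ v, p • v = u)
    {F : (CGK S K (dK K (χQ p) τ)).X 1} {φ : W →+ U'} (h : KRep q (cv F ()) φ) (w : W) :
    φ (τ ⟨g, hC.mem⟩ w) = σ' (φ w) := by
  obtain ⟨u, h1, h2⟩ := h w
  obtain ⟨u', h1', h2'⟩ := h (τ ⟨g, hC.mem⟩ w)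
  have hconj : ∀ v ∈ V0, g⁻¹ * v * g ∈ V0 := fun v hv => by simpa using hN.conj_mem v hv g⁻¹
  obtain ⟨Y, hY, hpY, hYd⟩ := h1.ex
  have hval : ∀ x y, cv F () ![x, y] (τ ⟨g, hC.mem⟩ w) = χQ p g (cv F () ![g⁻¹ * x, g⁻¹ * y] w) := fun x y => by
    have h3 := cv_equiv2 F ⟨g, hC.mem⟩ () (g⁻¹ * x) (g⁻¹ * y)
    have h4 : cv F () ![x, y] = dK K (χQ p) τ ⟨g, hC.mem⟩ (cv F () ![g⁻¹ * x, g⁻¹ * y]) := by
      rw [← h3]
      congr 1
      funext j
      fin_cases j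
      · change x = g * (g⁻¹ * x); group
      · change y = g * (g⁻¹ * y); group
    rw [h4]
    change χQ p g (cv F () ![g⁻¹ * x, g⁻¹ * y] (τ (⟨g, hC.mem⟩ : K)⁻¹ (τ ⟨g, hC.mem⟩ w))) = _
    rw [Representation.inv_self_apply]
  have h3 : KR p (SG S) V0 (fun x y => cv F () ![x, y] (τ ⟨g, hC.mem⟩ w)) (ac g (u : Ma)) := by
    refine ⟨h1'.c1, t0 ac g Y, C0.t0 hY hconj, fun x => ?_, fun x y => ?_⟩
    · change p • ac g (Y (g⁻¹ * x)) = ac g (u : Ma)
      rw [← hpY (g⁻¹ * x), map_nsmul]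
    · beta_reduce
      rw [hval, ← ac_zt]
      have h3 := hYd (g⁻¹ * x) (g⁻¹ * y)
      beta_reduce at h3
      rw [h3, map_sub]; rfl
  have h4 : q (u' + -(sU hN g u)) = 0 := (KR_q hC hq (u := u' + -(sU hN g u)) (h1'.add h3.neg)).2
    ⟨0, C0.zero, by
      funext x y
      change (0 : ZMod p) - 0 = _ + -_
      rw [sub_zero, add_neg_cancel]⟩
  rw [map_add, map_neg, ← hσ, h2, h2', ← sub_eq_add_neg, sub_eq_zero] at h4
  exact h4

/-- a cocycle with trivial Kummer homomorphism is a coboundary -/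
theorem mem_B1_of_KRep (hq : ∀ u, q u = 0 ↔ ∃ v, p • v = u) {F : (CGK S K (dK K (χQ p) τ)).X 1}
    (h : KRep q (cv F ()) 0) : F ∈ (CGK S K (dK K (χQ p) τ)).B 1 := by
  classical
  let b := Module.finBasis (ZMod p) W
  have h1 : ∀ i, ∃ f, C0 (tr p) (SG S) V0 f ∧ d0 f = fun x y => cv F () ![x, y] (b i) := fun i => by
    obtain ⟨u, h1, h2⟩ := h (b i)
    exact (KR_q hC hq h1).1 h2
  choose f hf hd using h1
  choose V hV hV' using fun i => (hf i).sm
  obtain ⟨V1, hV1, hV1'⟩ := (SG S).exists_le_finite V hV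
  refine mem_B1_of_V0 hC (dK K (χQ p) τ) (dK_triv hC τ hτ)
    (fun x => b.constr (ZMod p) fun i => f i x) (fun v hv x => ?_) ⟨V1, hV1, fun x v hv => ?_⟩
    fun x y => ?_
  · refine b.ext fun i => ?_
    rw [Basis.constr_basis, Basis.constr_basis, (hf i).eq v hv, tr_apply]
  · refine b.ext fun i => ?_
    rw [Basis.constr_basis, Basis.constr_basis, hV' i x v (hV1' i hv)]
  · refine b.ext fun i => ?_
    rw [LinearMap.sub_apply, Basis.constr_basis, Basis.constr_basis]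
    exact (congrFun (congrFun (hd i) x) y).symm

theorem KRep_of_B1 (hq : ∀ u, q u = 0 ↔ ∃ v, p • v = u) {F : (CGK S K (dK K (χQ p) τ)).X 1} {φ : W →+ U'}
    (h : KRep q (cv F ()) φ) (hB : F ∈ (CGK S K (dK K (χQ p) τ)).B 1) : φ = 0 := by
  obtain ⟨c, rfl⟩ := (Cx.mem_B_succ _).1 hB
  ext w
  obtain ⟨u, h1, h2⟩ := h w
  rw [← h2]
  refine (KR_q hC hq h1).2 ⟨fun x => cv c () ![x] w, ⟨fun v hv x => ?_, ?_⟩, ?_⟩
  · beta_reduce
    have h3 := cv_equiv1 c ⟨v, hC.le hv⟩ () x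
    have h4 : cv c () ![v * x] = cv c () ![x] := h3.trans (dK_triv hC τ hτ v hv _)
    rw [h4, tr_apply]
  · obtain ⟨-, V, hV, h3⟩ := cv_mem c
    refine ⟨V, hV, fun x v hv => ?_⟩
    beta_reduce
    rw [h3 () ![x] ![x * v] fun i => by
      fin_cases i
      change x⁻¹ * (x * v) ∈ V
      rw [inv_mul_cancel_left]; exact hv]
  · funext x y
    have h3 : cv ((CGK S K (dK K (χQ p) τ)).d 0 c) () ![x, y] = cv c () ![y] - cv c () ![x] := by
      rw [cv_d, dfun_zero_apply]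
    rw [h3]; rfl

/-- every equivariant homomorphism comes from a cocycle -/
theorem exists_of_hom (hN : V0.Normal) {σ' : AddMonoid.End U'} (hσ : ∀ u, σ' (q u) = q (sU hN g u))
    (hpS : p ∈ S) (hqs : Function.Surjective q) {φ : W →+ U'}
    (hφ : ∀ w, φ (τ ⟨g, hC.mem⟩ w) = σ' (φ w)) :
    ∃ F, (CGK S K (dK K (χQ p) τ)).d 1 F = 0 ∧ KRep q (cv F ()) φ := by
  classical
  let b := Module.finBasis (ZMod p) W
  have hop : ∃ V ∈ (SG S).carrier, V ≤ V0 := ⟨V0, hC.hV, le_rfl⟩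
  choose u hu using fun i => hqs (φ (b i))
  choose α hα using fun i => (mem_VS_SG (p := p) (z := (u i : Ma)) hpS hC.mu hop).2 ⟨(u i).2.1, fun A hA =>
    ⟨0, by rw [od_apply, (u i).2.2 A hA]; rfl, Int.cast_zero⟩⟩
  choose V hV hV' using fun i => (hα i).c1.sm
  obtain ⟨V1, hV1, hV1'⟩ := (SG S).exists_le_finite V hV
  let F0 : (Fin 2 → GQ) → (W →ₗ[ZMod p] ZMod p) := fun x => b.constr (ZMod p) fun i => α i (x 0) (x 1)
  have e1 : ∀ v ∈ V0, ∀ x, F0 (v • x) = F0 x := fun v hv x => by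
    refine b.ext fun i => ?_
    change (b.constr (ZMod p) fun i => α i (v * x 0) (v * x 1)) (b i) = (b.constr (ZMod p) _) (b i)
    rw [Basis.constr_basis, Basis.constr_basis, (hα i).c1.eq v hv, tr_apply]
  have e2 : ∃ U ∈ (SG S).carrier, ∀ x y, (∀ i, (x i)⁻¹ * y i ∈ U) → F0 x = F0 y := by
    refine ⟨V1, hV1, fun x y hxy => ?_⟩
    refine b.ext fun i => ?_
    change (b.constr (ZMod p) _) (b i) = (b.constr (ZMod p) _) (b i)
    rw [Basis.constr_basis, Basis.constr_basis]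
    have h1 := hV' i (x 0) (x 1) _ (hV1' i (hxy 0)) _ (hV1' i (hxy 1))
    rw [mul_inv_cancel_left, mul_inv_cancel_left] at h1
    exact h1.symm
  have hK : KRep q F0 φ := by
    intro w
    have hw : w ∈ Submodule.span (ZMod p) (Set.range b) := by rw [b.span_eq]; trivial
    induction hw using Submodule.span_induction with
    | mem x hx =>
      obtain ⟨i, rfl⟩ := hx
      refine ⟨u i, ?_, hu i⟩
      have : (fun x y => F0 ![x, y] (b i)) = α i := by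
        funext x y
        change (b.constr (ZMod p) _) (b i) = _
        rw [Basis.constr_basis]; rfl
      rw [this]
      exact hα i
    | zero => exact ⟨0, by
        have : (fun x y => F0 ![x, y] (0 : W)) = 0 := by funext x y; exact map_zero _
        rw [this]
        exact ⟨C1.zero, 0, C0.zero, fun x => by simp, fun x y => by simp⟩, by rw [map_zero, map_zero]⟩
    | add x y _ _ hx hy =>
      obtain ⟨u1, h1, h2⟩ := hx
      obtain ⟨u2, h1', h2'⟩ := hy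
      refine ⟨u1 + u2, ?_, by rw [map_add, map_add, h2, h2']⟩
      have : (fun a c => F0 ![a, c] (x + y)) = (fun a c => F0 ![a, c] x) + fun a c => F0 ![a, c] y := by
        funext a c; exact map_add _ _ _
      rw [this]
      exact h1.add h1'
    | smul c x _ hx =>
      obtain ⟨u1, h1, h2⟩ := hx
      refine ⟨c.val • u1, ?_, ?_⟩
      · have : (fun a d => F0 ![a, d] (c • x)) = c.val • fun a d => F0 ![a, d] x := by
          funext a d
          change F0 ![a, d] (c • x) = c.val • F0 ![a, d] x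
          rw [map_smul, ← Nat.cast_smul_eq_nsmul (ZMod p), ZMod.natCast_zmod_val]
        rw [this]
        exact h1.nsmul _
      · rw [map_nsmul, h2, ← map_nsmul, ← Nat.cast_smul_eq_nsmul (ZMod p), ZMod.natCast_zmod_val]
  refine ⟨avgX (m := 1) hC (dK K (χQ p) τ) (dK_triv hC τ hτ) e1 e2, ?_, ?_⟩
  · apply cv_injective
    funext _ x
    rw [cv_d]
    refine (dfun_avg (T := dK K (χQ p) τ ⟨g, hC.mem⟩) (g := g) (n := n) F0 x).trans ?_
    have h2 : (fun x => dfun (ZMod p) GQ (W →ₗ[ZMod p] ZMod p) Unit 1 (fun _ => F0) () x) = 0 := by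
      funext y
      have e : y = ![y 0, y 1, y 2] := by funext j; fin_cases j <;> rfl
      rw [e, dfun_one_apply]
      refine b.ext fun i => ?_
      rw [LinearMap.add_apply, LinearMap.sub_apply]
      change (b.constr (ZMod p) _) (b i) - (b.constr (ZMod p) _) (b i) + (b.constr (ZMod p) _) (b i) = 0
      rw [Basis.constr_basis, Basis.constr_basis, Basis.constr_basis]
      exact congrFun (congrFun (congrFun (hα i).cocycle (y 0)) (y 1)) (y 2)
    rw [h2, map_zero]; rfl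
  · exact hK.avg hC τ hN hσ hφ

/-- **Kummer theory.** -/
theorem card_H1_cyc {s : Finset Pl} (hs : Reps V0 S s) (hP : PID V0 (OB V0 id s)) (hpS : p ∈ S)
    (hq : ∀ u, q u = 0 ↔ ∃ v, p • v = u) (hqs : Function.Surjective q) (hN : V0.Normal)
    {σ' : AddMonoid.End U'} (hσ : ∀ u, σ' (q u) = q (sU hN g u)) :
    Nat.card ((CGK S K (dK K (χQ p) τ)).H 1) =
      Nat.card {φ : W →+ U' // ∀ w, φ (τ ⟨g, hC.mem⟩ w) = σ' (φ w)} := by
  choose X hX hXz using fun z : (CGK S K (dK K (χQ p) τ)).H 1 => Cx.exists_cl _ z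
  choose Φ hΦ using fun z => exists_KRep hC τ hτ hs hP hpS hq (hX z)
  refine Nat.card_congr (Equiv.ofBijective (fun z => ⟨Φ z, KRep_equiv hC τ hN hσ hq (hΦ z)⟩) ⟨?_, ?_⟩)
  · intro z z' h
    have h1 : Φ z = Φ z' := congrArg Subtype.val h
    have h2 := (hΦ z).add (hΦ z').neg
    rw [h1, add_neg_cancel, ← sub_eq_add_neg] at h2
    have h3 := mem_B1_of_KRep hC τ hτ hq (F := X z - X z') h2
    rw [← hXz z, ← hXz z', Cx.cl_eq_iff]
    exact h3
  · rintro ⟨φ, hφ⟩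
    obtain ⟨F, hF, hK⟩ := exists_of_hom hC τ hτ hN hσ hpS hqs hφ
    refine ⟨(CGK S K (dK K (χQ p) τ)).cl 1 F hF, Subtype.ext ?_⟩
    set z := (CGK S K (dK K (χQ p) τ)).cl 1 F hF with hz
    have h1 : X z - F ∈ (CGK S K (dK K (χQ p) τ)).B 1 := by
      rw [← Cx.cl_eq_iff _ (hX z) hF, hXz]
    have h2 := (hΦ z).add hK.neg
    rw [← sub_eq_add_neg, ← sub_eq_add_neg] at h2
    have h3 := KRep_of_B1 hC τ hτ hq (F := X z - F) h2 h1
    exact sub_eq_zero.1 h3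

end

end Fermat.Agent.CFT
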