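import Fermat.Agent.CFT.GW16

/-!
# The kernel of localisation vanishes when the class group does
-/

set_option autoImplicit false
set_option linter.unusedSectionVars false
set_option linter.unusedVariables false
set_option linter.unusedTactic false
set_option linter.style.haveILetI false

noncomputable section

namespace Fermat.Agent.CFT

open Module Fermat.Agent.Sel
open scoped Pointwise

variable {p : ℕ} [hp : Fact p.Prime] {S : Finset ℕ}

section

variable {V V' : Type} [AddCommGroup V] [Module (ZMod p) V]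
  [AddCommGroup V'] [Module (ZMod p) V'] [FiniteDimensional (ZMod p) V] [FiniteDimensional (ZMod p) V']
  (r : Representation (ZMod p) GQ V) (r' : Representation (ZMod p) GQ V')
  (B : V →ₗ[ZMod p] V' →ₗ[ZMod p] ZMod p) (hr' : HasLevel (SG S) (idG GQ) r')
  (nd : ∀ x, (∀ y, B x y = 0) → x = 0) (nd' : ∀ y, (∀ x, B x y = 0) → y = 0)
  (heq : ∀ σ x y, B (r σ x) (r' σ y) = χQ p σ (B x y)) (hp2 : p ≠ 2) (hpS : p ∈ S)

include hr' heq hp2 hpS nd nd' in
theorem sh_dual_pair : (LC S r').sh 2 = (LC S r).sh 1 :=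
  q_duality_aux (qData (S := S) hp2 hpS) r' r (eqB B nd nd') (eqB_equiv r r' B nd nd' heq) hr'

end

section

variable {W : Type} [AddCommGroup W] [Module (ZMod p) W] [Module.Finite (ZMod p) W]
  (K : Subgroup GQ) (τ : Representation (ZMod p) K W)

set_option maxHeartbeats 1000000 in
theorem sh_dualK (hp2 : p ≠ 2) (hpS : p ∈ S) (h : LevK S K τ) :
    (LCK S K (dK K (χQ p) τ)).sh 2 = (LCK S K τ).sh 1 := by
  haveI := LevK.fin h
  have h1 := sh_dual_pair (S := S) (V := CI K τ) (V' := CI K (dK K (χQ p) τ)) (ci K τ)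
    (ci K (dK K (χQ p) τ)) (ciB K (χQ p) τ) (LevK.level (LevK.dual hp2 hpS h))
    (ciB_nd K (χQ p) τ) (ciB_nd' K (χQ p) τ) (by
      intro σ x y
      have := ciB_equiv K (χQ p) τ σ x y
      rw [this]) hp2 hpS
  have h2 := sh_shapiro (S := S) K (dK K (χQ p) τ) 2
  have h3 := sh_shapiro (S := S) K τ 1
  rw [h2, h3] at h1
  exact h1

end

section

variable {V0 K : Subgroup GQ} {g : GQ} {n : ℕ} (hC : CycD p S V0 K g n)
  {s : Finset Pl} (hs : Reps V0 S s) (hP : PID V0 (OB V0 id s)) (hp2 : p ≠ 2) (hpS : p ∈ S)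

include hC hs hP hp2 hpS

/-- sh² of the trivial module -/
theorem sh2_triv : (LCK S V0 (Representation.trivial (ZMod p) V0 (ZMod p))).sh 2 = 0 := by
  have hr : ((idG GQ).comp V0.subtype).range = V0 := range_idG V0
  have h1 := sha_count (p := p) (S := S) (ι := (idG GQ).comp V0.subtype) (T := S) (s := s)
    (by rw [hr]; exact hs) (le_refl S) ⟨V0, hC.hV, by rw [hr]⟩ (by rw [hr]; exact hP) hp2 hpS (by rw [hr]; exact hC.mu)
  have h2 : rO S s = ∅ := Finset.filter_eq_empty_iff.2 fun B hB h => h (hs.ell_mem hB)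
  obtain ⟨-, h3⟩ := h1
  have h2' : (rO S s).card = 0 := by rw [h2]; rfl
  rw [h2', pow_zero] at h3
  have h4 := Nat.eq_one_of_mul_eq_one_left h3
  have h5 : 1 < p := hp.out.one_lt
  exact (Nat.pow_eq_one.1 h4).resolve_left (by omega)

theorem sh1_triv : (LCK S V0 (Representation.trivial (ZMod p) V0 (ZMod p))).sh 1 = 0 := by
  have hlev : LevK S V0 (Representation.trivial (ZMod p) V0 (ZMod p)) := ⟨V0, hC.hV, fun h hh => ⟨hh, fun a => rfl⟩⟩
  rw [← sh_dualK V0 _ hp2 hpS hlev, ← sh2_triv hC hs hP hp2 hpS]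
  let e : (ZMod p →ₗ[ZMod p] ZMod p) ≃ₗ[ZMod p] ZMod p := LinearMap.ringLmapEquivSelf (ZMod p) (ZMod p) (ZMod p)
  refine loc_sh_congr SG_SL _ (XS S) e (fun h m => ?_) 2
  change (χQ p h) (m 1) = m 1
  refine zt_injective p ?_
  rw [← ac_zt]
  exact hC.mu h h.2 _

variable {W : Type} [AddCommGroup W] [Module (ZMod p) W] [Module.Finite (ZMod p) W]
  (τ : Representation (ZMod p) K W) (hτ : ∀ v (hv : v ∈ V0) m, τ ⟨v, hC.le hv⟩ m = m)

include hτ

theorem sh1_zero : (LCK S K τ).sh 1 = 0 := by
  classical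
  have hN := (SG S).normal _ hC.hV
  have hlev : LevK S V0 (Representation.trivial (ZMod p) V0 (ZMod p)) := ⟨V0, hC.hV, fun h hh => ⟨hh, fun a => rfl⟩⟩
  -- finiteness over `V0`
  have htriv : LinearMap.ker ((LCK S V0 (Representation.trivial (ZMod p) V0 (ZMod p))).H 1) = ⊥ := by
    haveI := LevK.fin hlev
    haveI f1 := (clsQ (qData (S := S) hp2 hpS)).finG (ρ := ci V0 (Representation.trivial (ZMod p) V0 (ZMod p)))
      (LevK.level hlev) 1 (by norm_num)
    haveI : Module.Finite (ZMod p) ((CGK S V0 (Representation.trivial (ZMod p) V0 (ZMod p))).H 1) :=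
      Module.Finite.equiv ((shapiro (S := SG S) (ι := idG GQ) (X := Unit) V0
        (Representation.trivial (ZMod p) V0 (ZMod p))).H 1)
    exact Submodule.finrank_eq_zero.1 (sh1_triv hC hs hP hp2 hpS)
  have key : LinearMap.ker ((LCK S K τ).H 1) = ⊥ := by
    rw [eq_bot_iff]
    intro z hz
    rw [LinearMap.mem_ker] at hz
    rw [Submodule.mem_bot]
    obtain ⟨F, hF, rfl⟩ := Cx.exists_cl _ z
    rw [Cx.Hom.H_cl, Cx.cl_eq_zero, Cx.mem_B_succ] at hz
    obtain ⟨E, hE⟩ := hz
    have hE' : ∀ a x y, cv E a ![y] - cv E a ![x] = cv F () ![x, y] := fun a x y => by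
      have h1 := congrFun (congrFun (congrArg cv hE) a) ![x, y]
      rw [cv_d, dfun_zero_apply] at h1
      exact h1
    rw [Cx.cl_eq_zero]
    let b := Module.finBasis (ZMod p) W
    have hb : ∀ i, ∃ f : GQ → ZMod p, (∀ v ∈ V0, ∀ x, f (v * x) = f x) ∧
        (∃ V ∈ (SG S).carrier, ∀ x, ∀ v ∈ V, f (x * v) = f x) ∧
        ∀ x y, b.coord i (cv F () ![x, y]) = f y - f x := by
      intro i
      let G : (CGK S V0 (Representation.trivial (ZMod p) V0 (ZMod p))).X 1 :=
        mkc (fun _ x => b.coord i (cv F () x)) (by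
          refine mem_coch.2 ⟨fun v a x => ?_, ?_⟩
          · have h1 := (cv_mem F).1 ⟨v, hC.le v.2⟩ () x
            have h2 : cv F () (fun i => (v : GQ) * x i) = cv F () x := h1.trans (hτ v v.2 _)
            exact congrArg (b.coord i) h2
          · obtain ⟨-, U, hU, h⟩ := cv_mem F
            exact ⟨U, hU, fun a x y hxy => congrArg (b.coord i) (h () x y hxy)⟩)
      let E1 : (CPK S V0 (Representation.trivial (ZMod p) V0 (ZMod p))).X 0 :=
        mkc (fun a x => b.coord i (cv E a x)) (by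
          refine mem_coch.2 ⟨fun v a x => ?_, ?_⟩
          · have h1 := (cv_mem E).1 ⟨v, hC.le v.2⟩ a x
            have h2 : cv E ((v : GQ) • a) (fun i => (v : GQ) * x i) = cv E a x := h1.trans (hτ v v.2 _)
            exact congrArg (b.coord i) h2
          · obtain ⟨-, U, hU, h⟩ := cv_mem E
            exact ⟨U, hU, fun a x y hxy => congrArg (b.coord i) (h a x y hxy)⟩)
      have hG : (CGK S V0 (Representation.trivial (ZMod p) V0 (ZMod p))).d 1 G = 0 := by
        apply cv_injective
        apply funext3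
        intro a x y z
        rw [cv_d_one]
        change b.coord i (cv F () ![y, z]) - b.coord i (cv F () ![x, z]) + b.coord i (cv F () ![x, y]) = 0
        rw [cocycle1 hF () x y z, map_add]; ring
      have hGz : (CGK S V0 (Representation.trivial (ZMod p) V0 (ZMod p))).cl 1 G hG ∈
          LinearMap.ker ((LCK S V0 (Representation.trivial (ZMod p) V0 (ZMod p))).H 1) := by
        rw [LinearMap.mem_ker, Cx.Hom.H_cl, Cx.cl_eq_zero, Cx.mem_B_succ]
        refine ⟨E1, ?_⟩
        apply cv_injective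
        apply funext2
        intro a x y
        rw [cv_d, dfun_zero_apply]
        change b.coord i (cv E a ![y]) - b.coord i (cv E a ![x]) = b.coord i (cv F () ![x, y])
        rw [← map_sub, hE']
      rw [htriv, Submodule.mem_bot, Cx.cl_eq_zero, Cx.mem_B_succ] at hGz
      obtain ⟨c, hc⟩ := hGz
      refine ⟨fun x => cv c () ![x], fun v hv x => ?_, ?_, fun x y => ?_⟩
      · exact cv_equiv1 c ⟨v, hv⟩ () x
      · obtain ⟨-, U, hU, h⟩ := cv_mem c
        refine ⟨U, hU, fun x v hv => ?_⟩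
        beta_reduce
        rw [h () ![x] ![x * v] fun i => by
          fin_cases i
          change x⁻¹ * (x * v) ∈ U
          rw [inv_mul_cancel_left]; exact hv]
      · have h1 := congrFun (congrFun (congrArg cv hc) ()) ![x, y]
        rw [cv_d, dfun_zero_apply] at h1
        exact h1.symm
    choose f hf1 hf2 hf3 using hb
    choose V hV hV' using hf2
    obtain ⟨V1, hV1, hV1'⟩ := (SG S).exists_le_finite V hV
    refine mem_B1_of_V0 hC τ hτ (fun x => ∑ i, f i x • b i) (fun v hv x => ?_) ⟨V1, hV1, fun x v hv => ?_⟩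
      fun x y => ?_
    · exact Finset.sum_congr rfl fun i _ => by rw [hf1 i v hv]
    · exact Finset.sum_congr rfl fun i _ => by rw [hV' i x v (hV1' i hv)]
    · rw [← Finset.sum_sub_distrib, ← b.sum_repr (cv F () ![x, y])]
      refine Finset.sum_congr rfl fun i _ => ?_
      rw [← sub_smul, ← hf3]; rfl
  change finrank (ZMod p) (LinearMap.ker ((LCK S K τ).H 1)) = 0
  rw [key, finrank_bot]

end

end Fermat.Agent.CFT
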