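import Fermat.Agent.CFT.NeedB6
import Fermat.Agent.CFT.Need

/-!
# Counting homomorphisms into a lattice with a cyclic action
-/

set_option autoImplicit false
set_option linter.unusedSectionVars false
set_option linter.unusedVariables false
set_option linter.style.haveILetI false

open scoped TensorProduct nonZeroDivisors

namespace Fermat.Agent.CFT

namespace LC

noncomputable section

open Module AV

section card

variable {p : ℕ} [hp : Fact p.Prime] {W : Type} [AddCommGroup W] [Module (ZMod p) W]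
  [Module.Finite (ZMod p) W] {n : ℕ} [hn : NeZero n]

theorem card_hc (S : Module.End (ZMod p) W) (hS : S ^ n = 1) {A : Type} [AddCommGroup A]
    [Module (ZMod p) A] [Module.Finite (ZMod p) A] (T : Module.End (ZMod p) A) (hT : T ^ n = 1) :
    Nat.card {φ : W →+ A // ∀ w, φ (S w) = T (φ w)} =
      p ^ finrank (ZMod p) (LinearMap.ker (opW (S ^ (n - 1)) (cr hT (Multiplicative.ofAdd 1)) - 1)) := by
  have h := Module.natCard_eq_pow_finrank (K := ZMod p)
    (V := LinearMap.ker (opW (S ^ (n - 1)) (cr hT (Multiplicative.ofAdd 1)) - 1))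
  rw [Nat.card_zmod] at h
  rw [← h]
  refine Nat.card_congr
    { toFun := fun φ => ⟨AddMonoidHom.toZModLinearMap p φ.1, (mem_hc hS).2 fun w => by
        rw [cr_gen]; exact φ.2 w⟩
      invFun := fun φ => ⟨φ.1.toAddMonoidHom, fun w => by
        have h := (mem_hc hS).1 φ.2 w
        exact h.trans (LinearMap.congr_fun (cr_gen hT) _)⟩
      left_inv := fun φ => rfl
      right_inv := fun φ => Subtype.ext (LinearMap.ext fun w => rfl) }

theorem card_oY (S : Module.End (ZMod p) W) {Y : Type} [Finite Y] (π : Equiv.Perm Y) :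
    Nat.card {ψ : Y → W // ∀ y, ψ (π y) = S (ψ y)} =
      p ^ finrank (ZMod p) (LinearMap.ker (oY S π - 1)) := by
  have h := Module.natCard_eq_pow_finrank (K := ZMod p) (V := LinearMap.ker (oY S π - 1))
  rw [Nat.card_zmod] at h
  rw [← h]
  exact Nat.card_congr
    { toFun := fun φ => ⟨φ.1, mem_oY.2 φ.2⟩
      invFun := fun φ => ⟨φ.1, mem_oY.1 φ.2⟩
      left_inv := fun φ => rfl
      right_inv := fun φ => rfl }

end card

section rank

variable {U : Type} [AddCommGroup U] [Module.Finite ℤ U]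

theorem toInt_pow (σ : AddMonoid.End U) (d : ℕ) (u : U) :
    ((AddMonoidHom.toIntLinearMap σ : Module.End ℤ U) ^ d) u = (σ ^ d) u := by
  induction d generalizing u with
  | zero => rfl
  | succ d ih => rw [pow_succ, pow_succ, Module.End.mul_apply, ih]; rfl

/-- the product operator -/
def pr1 (σ : AddMonoid.End U) : Module.End ℤ (U × (Unit → ℤ)) :=
  LinearMap.prodMap (AddMonoidHom.toIntLinearMap σ) (tY ℤ (1 : Equiv.Perm Unit))

theorem pr1_pow (σ : AddMonoid.End U) (d : ℕ) (x : U × (Unit → ℤ)) :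
    (pr1 σ ^ d) x = ((σ ^ d) x.1, x.2) := by
  induction d generalizing x with
  | zero => rfl
  | succ d ih =>
    rw [pow_succ, pow_succ, Module.End.mul_apply, ih]
    rfl

theorem finrank_pr1 (σ : AddMonoid.End U) (d : ℕ) :
    finrank ℤ (LinearMap.ker (pr1 σ ^ d - 1)) =
      finrank ℤ (AddMonoidHom.ker (σ ^ d - 1 : AddMonoid.End U)) + 1 := by
  have hm : ∀ x : U × (Unit → ℤ), x ∈ LinearMap.ker (pr1 σ ^ d - 1) ↔
      x.1 ∈ AddMonoidHom.ker (σ ^ d - 1 : AddMonoid.End U) := fun x => by
    rw [LinearMap.mem_ker, LinearMap.sub_apply, pr1_pow, Module.End.one_apply, sub_eq_zero]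
    constructor
    · intro h
      change (σ ^ d) x.1 - x.1 = 0
      rw [sub_eq_zero]
      exact congrArg Prod.fst h
    · intro h
      change (σ ^ d) x.1 - x.1 = 0 at h
      rw [sub_eq_zero] at h
      exact Prod.ext h rfl
  let J : LinearMap.ker (pr1 σ ^ d - 1) →ₗ[ℤ] (Unit → ℤ) :=
    (LinearMap.snd ℤ U (Unit → ℤ)) ∘ₗ (Submodule.subtype _)
  have hJs : Function.Surjective J := fun z =>
    ⟨⟨(0, z), (hm _).2 (AddSubgroup.zero_mem _)⟩, rfl⟩
  have h1 := Submodule.finrank_quotient_add_finrank (LinearMap.ker J)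
  rw [(J.quotKerEquivOfSurjective hJs).finrank_eq] at h1
  have h2 : finrank ℤ (Unit → ℤ) = 1 := by simp
  rw [h2] at h1
  let e : AddMonoidHom.ker (σ ^ d - 1 : AddMonoid.End U) →ₗ[ℤ] LinearMap.ker J :=
    { toFun := fun u => ⟨⟨((u : U), 0), (hm _).2 u.2⟩, rfl⟩
      map_add' := fun u v => Subtype.ext (Subtype.ext (Prod.ext rfl (add_zero _).symm))
      map_smul' := fun c u => Subtype.ext (Subtype.ext (Prod.ext rfl
        (smul_zero (A := Unit → ℤ) c).symm)) }
  have he : Function.Bijective e := by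
    constructor
    · intro u v h
      have := congrArg (fun x : LinearMap.ker J => x.1.1.1) h
      exact Subtype.ext this
    · rintro ⟨⟨⟨u, z⟩, h⟩, h'⟩
      have hz : z = 0 := h'
      subst hz
      exact ⟨⟨u, (hm _).1 h⟩, rfl⟩
  rw [← h1, (LinearEquiv.ofBijective e he).finrank_eq]
  ring

end rank

end

end LC

open LC AV Module in
/-- **(B)** -/
theorem latticeCount (p : ℕ) [hp : Fact p.Prime] : LatticeCount p := by
  intro n hpn U _ _ σ hσ Y _ π hπ hrank W _ _ hW s hs U' _ q hq hqk σ' hσ'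
  have hn0 : n ≠ 0 := by rintro rfl; exact hpn (dvd_zero p)
  haveI : NeZero n := ⟨hn0⟩
  -- the module `W`
  obtain ⟨iW⟩ : Nonempty (Module (ZMod p) W) := ⟨AddCommGroup.zmodModule hW⟩
  haveI : Module.Finite (ZMod p) W := Module.Finite.of_finite
  let S : Module.End (ZMod p) W := AddMonoidHom.toZModLinearMap p s
  have hSp : ∀ (i : ℕ) w, (S ^ i) w = (s ^ i) w := fun i w => by
    induction i generalizing w with
    | zero => rfl
    | succ i ih => rw [pow_succ, pow_succ, Module.End.mul_apply, ih]; rfl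
  have hS : S ^ n = 1 := LinearMap.ext fun w => by rw [hSp, hs]; rfl
  -- the module `U'`
  have hU' : ∀ u : U', p • u = 0 := fun u => by
    obtain ⟨v, rfl⟩ := hq u
    rw [← map_nsmul, hqk]
    exact ⟨v, rfl⟩
  obtain ⟨iU'⟩ : Nonempty (Module (ZMod p) U') := ⟨AddCommGroup.zmodModule hU'⟩
  haveI : Module.Finite ℤ U' := Module.Finite.of_surjective q.toIntLinearMap hq
  haveI : Module.Finite (ZMod p) U' := Module.Finite.of_restrictScalars_finite ℤ (ZMod p) _
  let T' : Module.End (ZMod p) U' := AddMonoidHom.toZModLinearMap p σ'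
  have hT'p : ∀ (i : ℕ) u, (T' ^ i) (q u) = q ((σ ^ i) u) := fun i u => by
    induction i generalizing u with
    | zero => rfl
    | succ i ih =>
      rw [pow_succ, pow_succ, Module.End.mul_apply]
      change (T' ^ i) (σ' (q u)) = _
      rw [hσ', ih]
      rfl
  have hT' : T' ^ n = 1 := LinearMap.ext fun u => by
    obtain ⟨v, rfl⟩ := hq u
    rw [hT'p, hσ]
    rfl
  -- the torsion
  let A : AddSubgroup U := (nsmulAddMonoidHom p : U →+ U).ker
  have hA : ∀ u, u ∈ A ↔ p • u = 0 := fun u => Iff.rfl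
  obtain ⟨iA⟩ : Nonempty (Module (ZMod p) A) :=
    ⟨AddCommGroup.zmodModule (fun u => Subtype.ext ((hA _).1 u.2))⟩
  haveI : Module.Finite ℤ A := inferInstanceAs (Module.Finite ℤ (AddSubgroup.toIntSubmodule A))
  haveI : Module.Finite (ZMod p) A := Module.Finite.of_restrictScalars_finite ℤ (ZMod p) _
  have hσA : ∀ u ∈ A, σ u ∈ A := fun u hu => by
    rw [hA] at hu ⊢
    rw [← map_nsmul, hu, map_zero]
  let TA : Module.End (ZMod p) A := AddMonoidHom.toZModLinearMap p
    { toFun := fun u => ⟨σ u, hσA u u.2⟩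
      map_zero' := Subtype.ext (map_zero σ)
      map_add' := fun a b => Subtype.ext (map_add σ (a : U) b) }
  have hTAp : ∀ (i : ℕ) (u : A), (((TA ^ i) u : A) : U) = (σ ^ i) u := fun i u => by
    induction i generalizing u with
    | zero => rfl
    | succ i ih =>
      rw [pow_succ, pow_succ, Module.End.mul_apply, ih]
      rfl
  have hTA : TA ^ n = 1 := LinearMap.ext fun u => Subtype.ext (by rw [hTAp, hσ]; rfl)
  -- the lattices
  have hM : pr1 σ ^ n = 1 := LinearMap.ext fun x => by rw [pr1_pow, hσ]; rfl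
  have hM' : tY ℤ π ^ n = 1 := tY_one ℤ hπ
  have h1 : (tY (ZMod p) (1 : Equiv.Perm Unit)) ^ n = 1 := tY_one (ZMod p) (one_pow n)
  obtain ⟨ψ, hψ, hker, D, hD, hDψ⟩ := exists_compare (n := n) hM hM' (fun d hd => by
    rw [finrank_pr1, hrank d hd, tY_pow, finrank_orbits]) (fun k x hk h => by
    rcases smul_eq_zero.1 h with h | h
    · exact absurd h hk
    · exact h)
  have hψp : ∀ (i : ℕ) x, ψ ((pr1 σ ^ i) x) = (tY ℤ π ^ i) (ψ x) := fun i x => by
    induction i generalizing x with
    | zero => rfl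
    | succ i ih => rw [pow_succ, pow_succ, Module.End.mul_apply, Module.End.mul_apply, ih, hψ]
  let TU : Module.End (ZMod p) (U' × (Unit → ZMod p)) :=
    LinearMap.prodMap T' (tY (ZMod p) (1 : Equiv.Perm Unit))
  have hTUp : ∀ (i : ℕ) x, (TU ^ i) x = ((T' ^ i) x.1, x.2) := fun i x => by
    induction i generalizing x with
    | zero => rfl
    | succ i ih =>
      rw [pow_succ, pow_succ, Module.End.mul_apply, ih]
      rfl
  have hTU : TU ^ n = 1 := LinearMap.ext fun x => by rw [hTUp, hT']; rfl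
  have hf := hc_addv (p := p) (W := W) (n := n) hS hpn
  let qM : (⊤ : AddSubgroup (U × (Unit → ℤ))) →+ U' × (Unit → ZMod p) :=
    { toFun := fun x => (q (x : U × (Unit → ℤ)).1, redY p Unit ⟨(x : U × (Unit → ℤ)).2, trivial⟩)
      map_zero' := Prod.ext (map_zero q) (map_zero (redY p Unit))
      map_add' := fun a b => Prod.ext (map_add q _ _) (map_add (redY p Unit) ⟨_, trivial⟩ ⟨_, trivial⟩) }
  have hP1 := prs_perm (p := p) (Y := Unit) (n := n) (one_pow n)
  have P : Prs (crH hM) (pL p ⊤) ⊤ (U' × (Unit → ZMod p)) (cr hTU) qM :=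
    { surj := by
        rintro ⟨u, z⟩
        obtain ⟨v, rfl⟩ := hq u
        obtain ⟨y, rfl⟩ := hP1.surj z
        exact ⟨⟨(v, y), trivial⟩, rfl⟩
      ker := by
        rintro ⟨⟨u, z⟩, -⟩
        constructor
        · intro h
          obtain ⟨v, hv⟩ := (hqk u).1 (congrArg Prod.fst h)
          obtain ⟨y, -, hy⟩ := (hP1.ker ⟨z, trivial⟩).1 (congrArg Prod.snd h)
          exact ⟨(v, y), trivial, Prod.ext hv hy⟩
        · rintro ⟨⟨v, y⟩, -, h⟩
          refine Prod.ext ?_ ?_
          · exact (hqk u).2 ⟨v, congrArg Prod.fst h⟩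
          · exact (hP1.ker ⟨z, trivial⟩).2 ⟨y, trivial, congrArg Prod.snd h⟩
      act := by
        rintro g ⟨c, hc⟩ ⟨c', hc'⟩ h
        change c' = crH hM g c at h
        rw [crH_apply, pr1_pow] at h
        subst h
        rw [cr_apply, hTUp]
        refine Prod.ext ?_ rfl
        change q _ = (T' ^ _) (q _)
        rw [hT'p] }
  have hK : ∀ x, x ∈ (nsmulAddMonoidHom p : (U × (Unit → ℤ)) →+ _).ker ↔ p • x = 0 :=
    fun x => Iff.rfl
  let qA : (nsmulAddMonoidHom p : (U × (Unit → ℤ)) →+ _).ker →+ A :=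
    { toFun := fun x => ⟨(x : U × (Unit → ℤ)).1, congrArg Prod.fst ((hK _).1 x.2)⟩
      map_zero' := rfl
      map_add' := fun a b => rfl }
  have PA : Prs (crH hM) ⊥ _ A (cr hTA) qA :=
    { surj := fun u => ⟨⟨((u : U), 0), Prod.ext ((hA _).1 u.2) (smul_zero p)⟩, rfl⟩
      ker := by
        rintro ⟨⟨u, z⟩, hx⟩
        rw [AddSubgroup.mem_bot]
        constructor
        · intro h
          have hz : p • z = 0 := congrArg Prod.snd ((hK _).1 hx)
          have hz' : z = 0 := by
            funext y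
            have h2 : p • z y = 0 := congrFun hz y
            rw [nsmul_eq_mul] at h2
            exact (mul_eq_zero.1 h2).resolve_left (by exact_mod_cast hp.out.ne_zero)
          exact Prod.ext (congrArg Subtype.val h) hz'
        · intro h
          exact Subtype.ext (congrArg Prod.fst h)
      act := by
        rintro g ⟨c, hc⟩ ⟨c', hc'⟩ h
        change c' = crH hM g c at h
        rw [crH_apply, pr1_pow] at h
        subst h
        rw [cr_apply]
        refine Subtype.ext ?_
        rw [hTAp]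
        rfl }
  have e1 := main_f hf (fun k x hk h => by
    rcases smul_eq_zero.1 h with h | h
    · exact absurd h hk
    · exact h) ψ (fun g x => by
      rw [crH_apply, crH_apply, hψp]) hker hD hDψ P (prs_perm hπ) hK PA
  have e2 := hf U' (U' × (Unit → ZMod p)) (Unit → ZMod p) (cr hT') (cr hTU) (cr h1)
    (LinearMap.inl _ _ _) (LinearMap.snd _ _ _) (fun g x => by
      rw [cr_apply, cr_apply, hTUp]; rfl) (fun g x => by
      rw [cr_apply, cr_apply, hTUp, tY_pow, one_pow]; rfl) LinearMap.inl_injective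
    (fun z => ⟨(0, z), rfl⟩) (fun y => ⟨fun h => ⟨y.1, Prod.ext rfl h.symm⟩, by
      rintro ⟨x, rfl⟩; rfl⟩)
  have e3 := hc_perm (p := p) (W := W) (n := n) hS hπ
  have e4 := hc_perm (p := p) (W := W) (Y := Unit) (n := n) hS (one_pow n)
  rw [e3] at e1
  rw [e1, e4] at e2
  -- the cardinalities
  have c1 := card_hc S hS T' hT'
  have c2 := card_hc S hS TA hTA
  have c3 := card_oY S π
  have c4 := card_oY S (1 : Equiv.Perm Unit)
  have c5 : Nat.card {w : W // s w = w} =
      Nat.card {ψ : Unit → W // ∀ y, ψ ((1 : Equiv.Perm Unit) y) = S (ψ y)} :=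
    Nat.card_congr
      { toFun := fun w => ⟨fun _ => w.1, fun _ => w.2.symm⟩
        invFun := fun ψ => ⟨ψ.1 (), (ψ.2 ()).symm⟩
        left_inv := fun w => rfl
        right_inv := fun ψ => rfl }
  have c6 : Nat.card {φ : W →+ U // ∀ w, φ (s w) = σ (φ w)} =
      Nat.card {φ : W →+ A // ∀ w, φ (S w) = TA (φ w)} :=
    Nat.card_congr
      { toFun := fun φ => ⟨φ.1.codRestrict A (fun w => by
          rw [hA, ← map_nsmul, hW, map_zero]), fun w => Subtype.ext (φ.2 w)⟩
        invFun := fun φ => ⟨A.subtype.comp φ.1, fun w => congrArg Subtype.val (φ.2 w)⟩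
        left_inv := fun φ => rfl
        right_inv := fun φ => rfl }
  change Nat.card {φ : W →+ U' // ∀ w, φ (S w) = T' (φ w)} * _ = _ *
    Nat.card {ψ : Y → W // ∀ y, ψ (π y) = S (ψ y)}
  rw [c5, c6, c1, c2, c3, c4, ← pow_add, ← pow_add]
  congr 1
  have e5 : (finrank (ZMod p) (LinearMap.ker
      (opW (S ^ (n - 1)) (cr hTA (Multiplicative.ofAdd 1)) - 1)) : ℤ) +
      finrank (ZMod p) (LinearMap.ker (oY S π - 1)) = finrank (ZMod p) (LinearMap.ker
      (opW (S ^ (n - 1)) (cr hT' (Multiplicative.ofAdd 1)) - 1)) +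
      finrank (ZMod p) (LinearMap.ker (oY S (1 : Equiv.Perm Unit) - 1)) := e2
  exact_mod_cast e5.symm

end Fermat.Agent.CFT
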