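import Fermat.Agent.CFT.Need

/-!
# The rank of the group of `S`-units
-/

set_option autoImplicit false
set_option linter.unusedSectionVars false
set_option linter.unusedVariables false
set_option linter.style.haveILetI false

namespace Fermat.Agent.CFT

open Module NumberField Fermat.Agent.Places
open scoped Pointwise

section rank

/-- extensions by an infinite cyclic group -/
theorem rank_ext {A B : Type*} [AddCommGroup A] [AddCommGroup B] (i : A →+ B)
    (hi : Function.Injective i) (f : B →+ ℚ) (hker : ∀ x, f x = 0 ↔ x ∈ i.range) {d : ℕ}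
    (hd : d ≠ 0) (hf : ∀ x, ∃ m : ℤ, (d : ℚ) * f x = m) (hne : ∃ x, f x ≠ 0)
    [Module.Finite ℤ A] : Module.Finite ℤ B ∧ finrank ℤ B = finrank ℤ A + 1 := by
  have hd0 : (d : ℚ) ≠ 0 := by exact_mod_cast hd
  choose m hm using hf
  have hadd : ∀ x y, m (x + y) = m x + m y := by
    intro x y
    have h1 : ((m (x + y) : ℤ) : ℚ) = ((m x + m y : ℤ) : ℚ) := by
      rw [← hm, map_add, mul_add, hm, hm]; push_cast; rfl
    exact_mod_cast h1
  let F : B →ₗ[ℤ] ℤ := (AddMonoidHom.mk' m hadd).toIntLinearMap
  have hF : ∀ x, F x = m x := fun _ => rfl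
  have hF0 : ∀ x, F x = 0 ↔ f x = 0 := by
    intro x
    rw [hF]
    constructor
    · intro h
      have h1 := hm x
      rw [h, Int.cast_zero] at h1
      exact (mul_eq_zero.1 h1).resolve_left hd0
    · intro h
      have h1 := hm x
      rw [h, mul_zero] at h1
      exact_mod_cast h1.symm
  have hk : LinearMap.ker F = LinearMap.range i.toIntLinearMap := by
    ext x
    rw [LinearMap.mem_ker, hF0, hker]
    rfl
  have e1 : A ≃ₗ[ℤ] LinearMap.ker F :=
    (LinearEquiv.ofInjective i.toIntLinearMap hi).trans (LinearEquiv.ofEq _ _ hk.symm)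
  haveI : Module.Finite ℤ (LinearMap.ker F) := Module.Finite.equiv e1
  have hfin : Module.Finite ℤ B := by
    haveI : Module.Finite ℤ (B ⧸ LinearMap.ker F) :=
      Module.Finite.equiv (F.quotKerEquivRange).symm
    exact Module.Finite.of_submodule_quotient (LinearMap.ker F)
  refine ⟨hfin, ?_⟩
  have h1 := Submodule.finrank_quotient_add_finrank (LinearMap.ker F)
  have h2 : finrank ℤ (B ⧸ LinearMap.ker F) = 1 := by
    rw [(F.quotKerEquivRange).finrank_eq]
    have h3 : LinearMap.range F ≠ ⊥ := by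
      intro h
      obtain ⟨x, hx⟩ := hne
      apply hx
      rw [← hF0]
      have : F x ∈ LinearMap.range F := ⟨x, rfl⟩
      rw [h] at this
      exact this
    obtain ⟨a, ha⟩ := (IsPrincipalIdealRing.principal (LinearMap.range F)).principal
    have ha0 : a ≠ 0 := by
      rintro rfl
      exact h3 (by rw [ha]; simp)
    rw [ha]
    have e : ℤ ≃ₗ[ℤ] Submodule.span ℤ {a} := LinearEquiv.toSpanNonzeroSingleton ℤ ℤ a ha0
    rw [← e.finrank_eq]
    exact finrank_self ℤ
  rw [h2, ← e1.finrank_eq] at h1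
  omega

end rank

section ins

variable {W : Subgroup GQ} [NumberField (KW W)]

theorem finite_US_empty : Module.Finite ℤ (US W (∅ : Set Pl)) ∧
    finrank ℤ (US W (∅ : Set Pl)) + 1 = Fintype.card (InfinitePlace (KW W)) := by
  have e : Additive (𝓞 (KW W))ˣ ≃+ US W (∅ : Set Pl) :=
    (AddMonoidHom.ofInjective unitHom_injective).trans (AddEquiv.addSubgroupCongr range_unitHom)
  have e' : Additive (𝓞 (KW W))ˣ ≃ₗ[ℤ] US W (∅ : Set Pl) := e.toIntLinearEquiv
  refine ⟨Module.Finite.equiv e', ?_⟩
  rw [← e'.finrank_eq, NumberField.Units.finrank_eq, NumberField.Units.rank]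
  have : 0 < Fintype.card (InfinitePlace (KW W)) := Fintype.card_pos
  omega

theorem US_insert_rank (hW : IsOpen (W : Set GQ)) {T : Set Pl} (hT : StP W T) {A : Pl}
    (hA : A ∉ T) (h : Module.Finite ℤ (US W T)) :
    Module.Finite ℤ (US W (T ∪ {b | ∃ w ∈ W, w • A = b})) ∧
      finrank ℤ (US W (T ∪ {b | ∃ w ∈ W, w • A = b})) = finrank ℤ (US W T) + 1 := by
  set T' := T ∪ {b | ∃ w ∈ W, w • A = b} with hT'
  have hle : US W T ≤ US W T' := US_mono Set.subset_union_left
  obtain ⟨d, hd, hdm⟩ := ord_denom hW A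
  refine rank_ext (AddSubgroup.inclusion hle) (AddSubgroup.inclusion_injective hle)
    (ordS W T' A) ?_ hd ?_ ?_
  · intro x
    constructor
    · intro h
      refine ⟨⟨x, x.2.1, fun B hB => ?_⟩, rfl⟩
      by_cases hB' : B ∈ T'
      · rcases hB' with hB' | ⟨w, hw, rfl⟩
        · exact absurd hB' hB
        · rw [ord_fix x.2.1 hw]; exact h
      · exact x.2.2 B hB'
    · rintro ⟨y, rfl⟩
      exact y.2.2 A hA
  · rintro x
    exact hdm x x.2.1
  · obtain ⟨x, hx, h1, h2⟩ := exists_pow_elt hW A
    have hx' : x ∈ US W T' := ⟨hx, fun B hB => h2 B fun w hw hwB => hB (Or.inr ⟨w, hw, hwB⟩)⟩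
    exact ⟨⟨x, hx'⟩, h1.ne'⟩

theorem US_rank (hW : IsOpen (W : Set GQ)) {J : Type} (a : J → Pl) (s : Finset J)
    (hd : ∀ i ∈ s, ∀ j ∈ s, (∃ w ∈ W, w • a i = a j) → i = j) :
    Module.Finite ℤ (US W (OB W a s)) ∧
      finrank ℤ (US W (OB W a s)) + 1 = s.card + Fintype.card (InfinitePlace (KW W)) := by
  classical
  induction s using Finset.induction_on with
  | empty =>
    have e : OB W a ∅ = ∅ := by ext b; simp [OB]
    rw [e, Finset.card_empty, zero_add]
    exact finite_US_empty
  | insert j s hj ih =>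
    have e : OB W a (insert j s) = OB W a s ∪ {b | ∃ w ∈ W, w • a j = b} := by
      ext b
      simp only [OB, Finset.mem_insert, Set.mem_union, Set.mem_ofPred_eq]
      constructor
      · rintro ⟨i, rfl | hi, h⟩
        · exact Or.inr h
        · exact Or.inl ⟨i, hi, h⟩
      · rintro (⟨i, hi, h⟩ | h)
        · exact ⟨i, Or.inr hi, h⟩
        · exact ⟨j, Or.inl rfl, h⟩
    rw [e]
    have ih := ih fun i hi j hj => hd i (Finset.mem_insert_of_mem hi) j (Finset.mem_insert_of_mem hj)
    obtain ⟨h1, h2⟩ := US_insert_rank hW (StP_OB (a := a) (s := s)) (A := a j) (by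
      rintro ⟨i, hi, w, hw, h⟩
      exact hj (hd i (Finset.mem_insert_of_mem hi) j (Finset.mem_insert_self _ _) ⟨w, hw, h⟩ ▸ hi)) ih.1
    refine ⟨h1, ?_⟩
    rw [h2, Finset.card_insert_of_notMem hj]
    omega

end ins

section places

variable {W : Subgroup GQ}

/-- the embedding of `KW W` attached to `g` -/
noncomputable def embW (W : Subgroup GQ) (g : GQ) : KW W →+* ℂ :=
  (complexEmbedding : Qb →+* ℂ).comp (((g : Qb ≃ₐ[ℚ] Qb) : Qb →+* Qb).comp (algebraMap (KW W) Qb))

theorem embW_apply (g : GQ) (x : KW W) : embW W g x = complexEmbedding (g (x : Qb)) := rfl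

theorem embW_eq_iff (hW : IsOpen (W : Set GQ)) {g g' : GQ} :
    embW W g = embW W g' ↔ g'⁻¹ * g ∈ W := by
  have h0 : g'⁻¹ * g ∈ W ↔ g'⁻¹ * g ∈ (KW W).fixingSubgroup := by rw [fix_KW hW]
  rw [h0, IntermediateField.mem_fixingSubgroup_iff]
  constructor
  · intro h x hx
    have h1 := RingHom.congr_fun h ⟨x, hx⟩
    rw [embW_apply, embW_apply] at h1
    have h2 : g x = g' x := complexEmbedding.toRingHom.injective h1
    rw [AlgEquiv.mul_apply, h2]
    exact g'.symm_apply_apply x
  · intro h
    refine RingHom.ext fun x => ?_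
    rw [embW_apply, embW_apply]
    congr 1
    have h1 := h (x : Qb) x.2
    rw [AlgEquiv.mul_apply] at h1
    have h2 := congrArg g' h1
    rwa [show g' (g'⁻¹ (g (x : Qb))) = g (x : Qb) from g'.apply_symm_apply _] at h2

theorem conj_embW (g : GQ) : ComplexEmbedding.conjugate (embW W g) =
    embW W (complexConjugation * g) := by
  refine RingHom.ext fun x => ?_
  rw [ComplexEmbedding.conjugate_coe_eq, embW_apply, embW_apply, AlgEquiv.mul_apply,
    complexEmbedding_complexConjugation]

theorem embW_surjective (φ : KW W →+* ℂ) : ∃ g : GQ, embW W g = φ := by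
  haveI : Algebra.IsAlgebraic ℚ Qb := AlgebraicClosure.isAlgebraic ℚ
  haveI : Normal ℚ Qb := inferInstance
  letI : Algebra (KW W) ℂ := φ.toAlgebra
  haveI : IsScalarTower ℚ (KW W) ℂ := IsScalarTower.of_algebraMap_eq' (Subsingleton.elim _ _)
  let ψ : Qb →ₐ[KW W] ℂ := IsAlgClosed.lift
  let ψ' : Qb →ₐ[ℚ] ℂ := ψ.restrictScalars ℚ
  have hψ : ∀ x : KW W, ψ' (x : Qb) = φ x := fun x => ψ.commutes x
  have hr : ∀ x : Qb, ψ' x ∈ (complexEmbedding : Qb →ₐ[ℚ] ℂ).range := by
    intro x
    have hx : IsIntegral ℚ x := (Algebra.IsAlgebraic.isAlgebraic x).isIntegral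
    have h1 : ((minpoly ℚ x).map (algebraMap ℚ Qb)).Splits := IsAlgClosed.splits _
    have h2 : ψ' x ∈ (((minpoly ℚ x).map (algebraMap ℚ Qb)).map
        (complexEmbedding : Qb →+* ℂ)).roots := by
      rw [Polynomial.map_map, Polynomial.mem_roots', Polynomial.IsRoot.def, Polynomial.eval_map]
      refine ⟨?_, ?_⟩
      · exact (Polynomial.map_ne_zero (minpoly.ne_zero hx))
      · have h3 := minpoly.aeval ℚ x
        have h4 := congrArg ψ' h3
        rw [map_zero, ← Polynomial.aeval_algHom_apply] at h4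
        rw [← h4, Polynomial.aeval_def]
        congr 1
        exact Subsingleton.elim _ _
    rw [h1.roots_map, Multiset.mem_map] at h2
    obtain ⟨y, -, hy⟩ := h2
    exact ⟨y, hy⟩
  let e : Qb ≃ₐ[ℚ] (complexEmbedding : Qb →ₐ[ℚ] ℂ).range :=
    AlgEquiv.ofInjective complexEmbedding complexEmbedding.toRingHom.injective
  let g₀ : Qb →ₐ[ℚ] Qb := (e.symm : _ →ₐ[ℚ] Qb).comp (ψ'.codRestrict _ hr)
  let g : GQ := AlgEquiv.ofBijective g₀ (Algebra.IsAlgebraic.algHom_bijective g₀)
  have hg : ∀ x : Qb, complexEmbedding (g x) = ψ' x := by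
    intro x
    have h1 : e (e.symm (ψ'.codRestrict _ hr x)) = ψ'.codRestrict _ hr x := e.apply_symm_apply _
    exact congrArg Subtype.val h1
  exact ⟨g, RingHom.ext fun x => (hg x).trans (hψ x)⟩

theorem mem_zpowers_conj {g : GQ} : g ∈ Subgroup.zpowers (complexConjugation : GQ) ↔
    g = 1 ∨ g = complexConjugation := by
  constructor
  · rintro ⟨k, rfl⟩
    change complexConjugation ^ k = 1 ∨ complexConjugation ^ k = complexConjugation
    rcases Int.even_or_odd' k with ⟨m, rfl | rfl⟩
    · left
      rw [zpow_mul, zpow_ofNat, complexConjugation_sq, one_zpow]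
    · right
      rw [zpow_add, zpow_mul, zpow_ofNat, complexConjugation_sq, one_zpow, one_mul, zpow_one]
  · rintro (rfl | rfl)
    · exact one_mem _
    · exact Subgroup.mem_zpowers _

/-- the infinite places are double cosets -/
theorem card_places (hW : IsOpen (W : Set GQ)) [NumberField (KW W)] :
    Nat.card (MulAction.orbitRel.Quotient W (GQ ⧸ Subgroup.zpowers (complexConjugation : GQ))) =
      Fintype.card (InfinitePlace (KW W)) := by
  classical
  have hmk : ∀ g g' : GQ, InfinitePlace.mk (embW W g) = InfinitePlace.mk (embW W g') ↔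
      (g'⁻¹ * g ∈ W ∨ g'⁻¹ * complexConjugation * g ∈ W) := by
    intro g g'
    rw [InfinitePlace.mk_eq_iff, embW_eq_iff hW, conj_embW, embW_eq_iff hW, mul_assoc]
  let F₀ : GQ ⧸ Subgroup.zpowers (complexConjugation : GQ) → InfinitePlace (KW W) :=
    Quotient.lift (s := QuotientGroup.leftRel _) (fun g : GQ => InfinitePlace.mk (embW W g⁻¹)) (by
      intro g g' h
      have h1 : g⁻¹ * g' ∈ Subgroup.zpowers (complexConjugation : GQ) := QuotientGroup.leftRel_apply.1 h
      rw [hmk, inv_inv]
      rcases mem_zpowers_conj.1 h1 with h2 | h2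
      · left
        have : g' = g := (inv_mul_eq_one.1 h2).symm
        rw [this, mul_inv_cancel]; exact one_mem _
      · right
        have : g' = g * complexConjugation := by rw [← h2]; group
        rw [this, mul_assoc g, complexConjugation_mul_self, mul_one, mul_inv_cancel]
        exact one_mem _)
  have hF₀ : ∀ g : GQ, F₀ (QuotientGroup.mk g) = InfinitePlace.mk (embW W g⁻¹) := fun g => rfl
  let F : MulAction.orbitRel.Quotient W (GQ ⧸ Subgroup.zpowers (complexConjugation : GQ)) →
      InfinitePlace (KW W) := Quotient.lift (s := MulAction.orbitRel W _) F₀ (by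
    intro x y h
    obtain ⟨w, hw⟩ := (MulAction.orbitRel_apply.1 h)
    obtain ⟨g, rfl⟩ := QuotientGroup.mk_surjective y
    rw [← hw]
    have h1 : (fun m : W => m • (QuotientGroup.mk g : GQ ⧸ Subgroup.zpowers (complexConjugation : GQ))) w =
      QuotientGroup.mk ((w : GQ) * g) := rfl
    rw [h1, hF₀, hF₀, hmk]
    left
    rw [mul_inv_rev, inv_inv, ← mul_assoc, mul_inv_cancel, one_mul]
    exact inv_mem w.2)
  have hF : ∀ g : GQ, F (Quotient.mk _ (QuotientGroup.mk g)) = InfinitePlace.mk (embW W g⁻¹) :=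
    fun g => rfl
  have hbij : Function.Bijective F := by
    constructor
    · intro x y h
      induction x using Quotient.inductionOn with | _ x
      induction y using Quotient.inductionOn with | _ y
      obtain ⟨g, rfl⟩ := QuotientGroup.mk_surjective x
      obtain ⟨g', rfl⟩ := QuotientGroup.mk_surjective y
      rw [hF, hF, hmk, inv_inv] at h
      refine Quotient.sound (MulAction.orbitRel_apply.2 ?_)
      rcases h with h | h
      · refine ⟨⟨g * g'⁻¹, ?_⟩, ?_⟩
        · have := inv_mem h
          rwa [mul_inv_rev, inv_inv] at this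
        · change (QuotientGroup.mk (g * g'⁻¹ * g') : GQ ⧸ Subgroup.zpowers (complexConjugation : GQ)) = _
          rw [inv_mul_cancel_right]
      · refine ⟨⟨g * complexConjugation * g'⁻¹, ?_⟩, ?_⟩
        · have := inv_mem h
          rwa [mul_inv_rev, mul_inv_rev, inv_inv, complexConjugation_inv, ← mul_assoc] at this
        · change (QuotientGroup.mk (g * complexConjugation * g'⁻¹ * g') :
            GQ ⧸ Subgroup.zpowers (complexConjugation : GQ)) = _
          rw [inv_mul_cancel_right, QuotientGroup.eq]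
          rw [mul_inv_rev, inv_mul_cancel_right]
          exact inv_mem (Subgroup.mem_zpowers _)
    · intro v
      obtain ⟨g, hg⟩ := embW_surjective (W := W) v.embedding
      refine ⟨Quotient.mk _ (QuotientGroup.mk g⁻¹), ?_⟩
      rw [hF, inv_inv, hg, InfinitePlace.mk_embedding]
  rw [Nat.card_eq_of_bijective F hbij, Nat.card_eq_fintype_card]

end places

/-- **(C)** the rank of the group of `S`-units -/
theorem rankUS : RankUS := by
  intro W hW S s hs
  haveI := numberField_KW hW
  obtain ⟨h1, h2⟩ := US_rank hW (id : Pl → Pl) s fun i hi j hj h => hs.dis i hi j hj h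
  exact ⟨h1, by rw [h2, card_places hW]⟩

end Fermat.Agent.CFT
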