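import Fermat.Agent.CFT.GW17
import Fermat.Agent.CFT.NeedB
import Fermat.Agent.CFT.NeedC

/-!
# Orbits
-/

set_option autoImplicit false
set_option linter.unusedSectionVars false
set_option linter.unusedVariables false
set_option linter.unusedTactic false
set_option linter.style.haveILetI false

noncomputable section

namespace Fermat.Agent.CFT

open Module Fermat.Agent.Sel
open scoped Pointwise

section

variable {G : Type} [Group G] (V0 : Subgroup G) (hN : V0.Normal) (g : G) (P : Type) [MulAction G P]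

/-- the orbits of a normal subgroup -/
abbrev YQ : Type := MulAction.orbitRel.Quotient V0 P

variable {V0 P}

/-- the class of a point -/
abbrev yq (x : P) : YQ V0 P := Quotient.mk (MulAction.orbitRel V0 P) x

theorem yq_eq {x y : P} : yq (V0 := V0) x = yq y ↔ ∃ v ∈ V0, v • y = x := by
  rw [Quotient.eq, MulAction.orbitRel_apply]
  constructor
  · rintro ⟨v, hv⟩; exact ⟨v, v.2, hv⟩
  · rintro ⟨v, hv, h⟩; exact ⟨⟨v, hv⟩, h⟩

include hN

theorem yq_smul {x y : P} (g : G) (h : yq (V0 := V0) x = yq y) : yq (V0 := V0) (g • x) = yq (g • y) := by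
  obtain ⟨v, hv, rfl⟩ := yq_eq.1 h
  refine yq_eq.2 ⟨g * v * g⁻¹, hN.conj_mem v hv g, ?_⟩
  simp only [smul_smul]
  congr 1
  group

variable (V0 P)

/-- the permutation of the orbits -/
def πY : Equiv.Perm (YQ V0 P) where
  toFun := Quotient.map (sa := MulAction.orbitRel V0 P) (sb := MulAction.orbitRel V0 P) (fun x => g • x)
    fun x y h => Quotient.exact (yq_smul hN g (Quotient.sound h))
  invFun := Quotient.map (sa := MulAction.orbitRel V0 P) (sb := MulAction.orbitRel V0 P) (fun x => g⁻¹ • x)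
    fun x y h => Quotient.exact (yq_smul hN g⁻¹ (Quotient.sound h))
  left_inv := by
    rintro ⟨x⟩
    exact congrArg yq (inv_smul_smul g x)
  right_inv := by
    rintro ⟨x⟩
    exact congrArg yq (smul_inv_smul g x)

variable {V0 P}

theorem πY_apply (x : P) : πY V0 hN g P (yq x) = yq (g • x) := rfl

theorem πY_pow (i : ℕ) (x : P) : (πY V0 hN g P ^ i) (yq x) = yq (g ^ i • x) := by
  induction i with
  | zero => simp
  | succ i ih => rw [pow_succ', Equiv.Perm.mul_apply, ih, πY_apply, smul_smul, ← pow_succ']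

theorem πY_zpow (i : ℤ) (x : P) : (πY V0 hN g P ^ i) (yq x) = yq (g ^ i • x) := by
  induction i using Int.negInduction with
  | nat i => rw [zpow_natCast, zpow_natCast, πY_pow]
  | neg _ i =>
    rw [zpow_neg, zpow_neg, Equiv.Perm.inv_eq_iff_eq, zpow_natCast, zpow_natCast, πY_pow, smul_inv_smul]

/-- orbits of a power of the permutation -/
theorem card_orb (d : ℕ) : Nat.card (MulAction.orbitRel.Quotient (Subgroup.zpowers (πY V0 hN g P ^ d)) (YQ V0 P)) =
    Nat.card (MulAction.orbitRel.Quotient (V0 ⊔ Subgroup.zpowers (g ^ d) : Subgroup G) P) := by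
  have key : ∀ x y : P, (∃ w ∈ V0 ⊔ Subgroup.zpowers (g ^ d), w • y = x) ↔
      ∃ σ ∈ Subgroup.zpowers (πY V0 hN g P ^ d), σ • (yq (V0 := V0) y) = yq x := by
    intro x y
    constructor
    · rintro ⟨w, hw, rfl⟩
      rw [Subgroup.mem_sup_of_normal_left] at hw
      obtain ⟨v, hv, z, ⟨j, rfl⟩, rfl⟩ := hw
      refine ⟨(πY V0 hN g P ^ d) ^ j, ⟨j, rfl⟩, ?_⟩
      rw [← zpow_natCast, ← zpow_mul]
      change (πY V0 hN g P ^ ((d : ℤ) * j)) (yq y) = _
      rw [πY_zpow]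
      refine (yq_eq.2 ⟨v, hv, ?_⟩).symm
      rw [smul_smul]
      congr 2
      beta_reduce
      rw [← zpow_natCast, ← zpow_mul]
    · rintro ⟨_, ⟨j, rfl⟩, h⟩
      beta_reduce at h
      rw [← zpow_natCast, ← zpow_mul] at h
      change (πY V0 hN g P ^ ((d : ℤ) * j)) (yq y) = _ at h
      rw [πY_zpow] at h
      obtain ⟨v, hv, h'⟩ := yq_eq.1 h.symm
      refine ⟨v * g ^ ((d : ℤ) * j), mul_mem (Subgroup.mem_sup_left hv) (Subgroup.mem_sup_right ⟨j, ?_⟩), ?_⟩
      · beta_reduce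
        rw [← zpow_natCast, ← zpow_mul]
      · rw [mul_smul]; exact h'
  symm
  refine Nat.card_congr (Equiv.ofBijective (Quotient.lift (s := MulAction.orbitRel (V0 ⊔ Subgroup.zpowers (g ^ d) : Subgroup G) P)
    (fun x => (Quotient.mk (MulAction.orbitRel (Subgroup.zpowers (πY V0 hN g P ^ d)) (YQ V0 P)) (yq x))) ?_) ⟨?_, ?_⟩)
  · intro x y h
    obtain ⟨w, hw⟩ := h
    obtain ⟨σ, hσ, h'⟩ := (key x y).1 ⟨w, w.2, hw⟩
    exact Quotient.sound ⟨⟨σ, hσ⟩, h'⟩
  · rintro ⟨x⟩ ⟨y⟩ h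
    obtain ⟨σ, hσ⟩ := Quotient.exact h
    obtain ⟨w, hw, h'⟩ := (key x y).2 ⟨σ, σ.2, hσ⟩
    exact Quotient.sound ⟨⟨w, hw⟩, h'⟩
  · rintro ⟨⟨x⟩⟩
    exact ⟨Quotient.mk _ x, rfl⟩

omit hN in
/-- orbits of a disjoint union -/
theorem card_orb_sum (H : Subgroup G) (Q : Type) [MulAction G Q] [Finite (YQ H P)] [Finite (YQ H Q)] :
    Nat.card (YQ H (P ⊕ Q)) = Nat.card (YQ H P) + Nat.card (YQ H Q) := by
  rw [← Nat.card_sum]
  refine Nat.card_congr (Equiv.ofBijective (Quotient.lift (s := MulAction.orbitRel H (P ⊕ Q))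
    (fun x => Sum.elim (fun a => Sum.inl (yq a)) (fun b => Sum.inr (yq b)) x) ?_) ⟨?_, ?_⟩)
  · rintro x y ⟨w, rfl⟩
    rcases y with y | y
    · exact congrArg Sum.inl (yq_eq.2 ⟨w, w.2, rfl⟩)
    · exact congrArg Sum.inr (yq_eq.2 ⟨w, w.2, rfl⟩)
  · rintro ⟨x⟩ ⟨y⟩ h
    rcases x with x | x <;> rcases y with y | y
    · obtain ⟨v, hv, h'⟩ := yq_eq.1 (Sum.inl_injective h)
      exact yq_eq.2 ⟨v, hv, congrArg Sum.inl h'⟩
    · exact absurd h (by simp)
    · exact absurd h (by simp)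
    · obtain ⟨v, hv, h'⟩ := yq_eq.1 (Sum.inr_injective h)
      exact yq_eq.2 ⟨v, hv, congrArg Sum.inr h'⟩
  · rintro (⟨⟨x⟩⟩ | ⟨⟨x⟩⟩)
    · exact ⟨yq (Sum.inl x), rfl⟩
    · exact ⟨yq (Sum.inr x), rfl⟩

end

end Fermat.Agent.CFT
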