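import Fermat.Agent.CFT.GW18

/-!
# Counting
-/

set_option autoImplicit false
set_option linter.unusedSectionVars false
set_option linter.unusedVariables false
set_option linter.unusedTactic false
set_option linter.style.haveILetI false

noncomputable section

namespace Fermat.Agent.CFT

open Module Fermat.Agent.Sel
open scoped Pointwise

section Maps

variable {p : ℕ} [hp : Fact p.Prime] {S : Finset ℕ} {V0 K : Subgroup GQ} {g : GQ} {n : ℕ}
  {W : Type} [AddCommGroup W] [Module (ZMod p) W]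

/-- equivariant maps -/
def MapK (K : Subgroup GQ) (P : Type) [MulAction GQ P] (τ : Representation (ZMod p) K W) :
    Submodule (ZMod p) (P → W) where
  carrier := {f | ∀ (k : K) x, f ((k : GQ) • x) = τ k (f x)}
  zero_mem' k x := (map_zero _).symm
  add_mem' hf hf' k x := by rw [Pi.add_apply, Pi.add_apply, hf, hf', map_add]
  smul_mem' c f hf k x := by rw [Pi.smul_apply, Pi.smul_apply, hf, map_smul]

theorem mem_MapK {P : Type} [MulAction GQ P] {τ : Representation (ZMod p) K W} {f : P → W} :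
    f ∈ MapK K P τ ↔ ∀ (k : K) x, f ((k : GQ) • x) = τ k (f x) := Iff.rfl

/-- maps on a disjoint union -/
def MapK.sum (K : Subgroup GQ) (P Q : Type) [MulAction GQ P] [MulAction GQ Q] (τ : Representation (ZMod p) K W) :
    MapK K (P ⊕ Q) τ ≃ₗ[ZMod p] MapK K P τ × MapK K Q τ where
  toFun f := (⟨fun x => f.1 (Sum.inl x), fun k x => f.2 k (Sum.inl x)⟩,
    ⟨fun x => f.1 (Sum.inr x), fun k x => f.2 k (Sum.inr x)⟩)
  invFun f := ⟨Sum.elim f.1.1 f.2.1, fun k x => by
    rcases x with x | x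
    · exact f.1.2 k x
    · exact f.2.2 k x⟩
  left_inv f := by
    apply Subtype.ext
    funext x
    rcases x with x | x <;> rfl
  right_inv f := rfl
  map_add' _ _ := rfl
  map_smul' _ _ := rfl

/-- maps on the places -/
def MapK.place (K : Subgroup GQ) (τ : Representation (ZMod p) K W) :
    MapK K (XS S) τ ≃ₗ[ZMod p] (CPK S K τ).H 0 := by
  refine LinearEquiv.ofBijective
    ((Submodule.mkQ _) ∘ₗ LinearMap.codRestrict _
      ({ toFun := fun f : MapK K (XS S) τ => (mkc (fun a _ => f.1 a) ⟨fun h a _ => f.2 h a,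
          SL.nonempty.choose, SL.nonempty.choose_spec, fun _ _ _ _ => rfl⟩ : (CPK S K τ).X 0)
         map_add' := fun a b => rfl
         map_smul' := fun c a => rfl } : MapK K (XS S) τ →ₗ[ZMod p] (CPK S K τ).X 0)
      (fun m => by
        apply cv_injective
        funext a x
        change dfun (ZMod p) GQ W (XS S) 0 (fun a _ => m.1 a) a x = 0
        rw [dfun_apply, Fin.sum_univ_two]
        simp)) ⟨?_, ?_⟩
  · rw [← LinearMap.ker_eq_bot, eq_bot_iff]
    intro m hm
    rw [LinearMap.mem_ker] at hm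
    have h := (Cx.cl_eq_zero _ _).1 hm
    rw [Cx.mem_B_zero] at h
    apply Subtype.ext
    funext a
    exact congrFun (congrFun (congrArg cv h) a) (fun _ => 1)
  · intro z
    obtain ⟨F, hF, rfl⟩ := Cx.exists_cl _ z
    refine ⟨⟨fun a => cv F a (fun _ => 1), fun h a => ?_⟩, ?_⟩
    · rw [← (cv_mem F).1]
      exact cv_const hF _ _ _
    · refine (Cx.cl_eq_iff _ _ _).2 ?_
      rw [Cx.mem_B_zero, sub_eq_zero]
      apply cv_injective
      funext a x
      exact cv_const hF _ _ _

/-- maps on the embeddings modulo complex conjugation -/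
def MapK.emb (K : Subgroup GQ) (τ : Representation (ZMod p) K W) :
    MapK K (GQ ⧸ Subgroup.zpowers (complexConjugation : GQ)) τ ≃ₗ[ZMod p] Hc (p := p) (ci K τ) := by
  refine LinearEquiv.ofBijective
    ({ toFun := fun f => ⟨⟨fun x => f.1 (x : GQ ⧸ Subgroup.zpowers (complexConjugation : GQ)), fun k x =>
          f.2 k (x : GQ ⧸ Subgroup.zpowers (complexConjugation : GQ))⟩, by
          rw [mem_Hc]
          apply Subtype.ext
          funext x
          change f.1 ((x * complexConjugation : GQ) : GQ ⧸ Subgroup.zpowers (complexConjugation : GQ)) = _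
          rw [QuotientGroup.mk_mul_of_mem _ (Subgroup.mem_zpowers _)]⟩
       map_add' := fun _ _ => rfl
       map_smul' := fun _ _ => rfl } :
      MapK K (GQ ⧸ Subgroup.zpowers (complexConjugation : GQ)) τ →ₗ[ZMod p] Hc (p := p) (ci K τ)) ⟨?_, ?_⟩
  · intro f f' h
    apply Subtype.ext
    funext x
    induction x using QuotientGroup.induction_on with
    | H x =>
      exact congrFun (congrArg (fun t : Hc (p := p) (ci K τ) => ((t : CI K τ) : GQ → W)) h) x
  · intro f
    have hf : ∀ x, ((f : CI K τ) : GQ → W) (x * complexConjugation) = ((f : CI K τ) : GQ → W) x := fun x => by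
      have h1 := mem_Hc.1 f.2
      exact congrFun (congrArg (fun t : CI K τ => (t : GQ → W)) h1) x
    have hf' : ∀ (x y : GQ), x⁻¹ * y ∈ Subgroup.zpowers (complexConjugation : GQ) →
        ((f : CI K τ) : GQ → W) x = ((f : CI K τ) : GQ → W) y := fun x y h => by
      rcases mem_zpowers_conj.1 h with h | h
      · rw [show y = x by rw [← mul_one x, ← h, mul_inv_cancel_left]]
      · rw [show y = x * complexConjugation by rw [← h, mul_inv_cancel_left], hf]
    refine ⟨⟨fun q => Quotient.liftOn' q ((f : CI K τ) : GQ → W) fun x y h =>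
      hf' x y (QuotientGroup.leftRel_apply.1 h), fun k q => ?_⟩, ?_⟩
    · induction q using QuotientGroup.induction_on with
      | H x => exact (f : CI K τ).2 k x
    · rfl

variable (hC : CycD p S V0 K g n) (τ : Representation (ZMod p) K W)
  (hτ : ∀ v (hv : v ∈ V0) m, τ ⟨v, hC.le hv⟩ m = m)

include hτ

/-- equivariant maps as maps on the orbits -/
theorem card_MapK (hN : V0.Normal) (P : Type) [MulAction GQ P] :
    Nat.card {ψ : YQ V0 P → W // ∀ y, ψ (πY V0 hN g P y) = τ ⟨g, hC.mem⟩ (ψ y)} =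
      Nat.card (MapK K P τ) := by
  refine Nat.card_congr
    { toFun := fun ψ => ⟨fun x => ψ.1 (yq x), ?_⟩
      invFun := fun f => ⟨Quotient.lift (s := MulAction.orbitRel V0 P) f.1 ?_, ?_⟩
      left_inv := fun ψ => by
        apply Subtype.ext
        funext y
        induction y using Quotient.inductionOn with
        | h x => rfl
      right_inv := fun f => rfl }
  · intro k x
    refine equiv_of_tw hC τ hτ (f := fun x => ψ.1 (yq x)) (fun v hv x => ?_) ?_ k x
    · exact congrArg ψ.1 (yq_eq.2 ⟨v, hv, rfl⟩)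
    · funext x
      rw [tw_apply]
      have h1 := ψ.2 (yq (g⁻¹ • x))
      rw [πY_apply, smul_inv_smul] at h1
      exact h1.symm
  · rintro x y ⟨v, rfl⟩
    have h1 := f.2 ⟨v, hC.le v.2⟩ y
    exact h1.trans (hτ v v.2 _)
  · intro y
    induction y using Quotient.inductionOn with
    | h x => exact f.2 ⟨g, hC.mem⟩ x

theorem mem_inv_of {M : Type} [AddCommGroup M] [Module (ZMod p) M] (ρ : Representation (ZMod p) K M)
    (hρ : ∀ v (hv : v ∈ V0) m, ρ ⟨v, hC.le hv⟩ m = m) {m : M} (h : ρ ⟨g, hC.mem⟩ m = m) : m ∈ inv ρ := by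
  intro k
  obtain ⟨i, v, hv, hk⟩ := hC.gen k k.2
  have h3 : k = (⟨g, hC.mem⟩ : K) ^ i * ⟨v, hC.le hv⟩ := Subtype.ext hk
  rw [h3, map_mul, Module.End.mul_apply, map_pow, hρ v hv]
  clear h3 hk
  induction i with
  | zero => rfl
  | succ i ih => rw [pow_succ, Module.End.mul_apply, h, ih]

theorem card_inv : Nat.card {w : W // τ ⟨g, hC.mem⟩ w = w} = Nat.card (inv τ) :=
  Nat.card_congr
    { toFun := fun w => ⟨w.1, mem_inv_of hC τ hτ τ hτ w.2⟩
      invFun := fun w => ⟨w.1, w.2 _⟩
      left_inv := fun _ => rfl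
      right_inv := fun _ => rfl }

omit hτ in
theorem zt_mem_UU (hC : CycD p S V0 K g n) (c : ZMod p) : zt p c ∈ UU S V0 := by
  refine ⟨mem_FA'.2 fun v hv => hC.mu v hv c, fun A _ => ?_⟩
  have h1 : od A (p • zt p c) = 0 := by rw [p_zt, map_zero]
  rw [map_nsmul, nsmul_eq_mul, od_apply] at h1
  exact (mul_eq_zero.1 h1).resolve_left (Nat.cast_ne_zero.2 hp.out.ne_zero)

theorem card_inv_dual [Module.Finite (ZMod p) W] (hN : V0.Normal) :
    Nat.card {φ : W →+ UU S V0 // ∀ w, φ (τ ⟨g, hC.mem⟩ w) = sU hN g (φ w)} =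
      Nat.card (inv (dK K (χQ p) τ)) := by
  symm
  refine Nat.card_congr (Equiv.ofBijective (fun f => ⟨AddMonoidHom.mk'
    (fun w => (⟨zt p (f.1 w), zt_mem_UU hC _⟩ : UU S V0)) fun a b => Subtype.ext (by
      change zt p (f.1 (a + b)) = zt p (f.1 a) + zt p (f.1 b)
      rw [map_add, map_add]), fun w => ?_⟩) ⟨?_, ?_⟩)
  · apply Subtype.ext
    change zt p (f.1 (τ ⟨g, hC.mem⟩ w)) = ac g (zt p (f.1 w))
    rw [ac_zt]
    have h1 := congrArg (fun t : W →ₗ[ZMod p] ZMod p => t (τ ⟨g, hC.mem⟩ w)) (f.2 ⟨g, hC.mem⟩)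
    change χQ p g (f.1 (τ (⟨g, hC.mem⟩ : K)⁻¹ (τ ⟨g, hC.mem⟩ w))) = f.1 (τ ⟨g, hC.mem⟩ w) at h1
    rw [Representation.inv_self_apply] at h1
    rw [h1]
  · intro f f' h
    apply Subtype.ext
    apply LinearMap.ext
    intro w
    have h1 := congrArg (fun t : {φ : W →+ UU S V0 // ∀ w, φ (τ ⟨g, hC.mem⟩ w) = sU hN g (φ w)} =>
      ((t.1 w : UU S V0) : Ma)) h
    exact zt_injective p h1
  · rintro ⟨φ, hφ⟩
    have h1 : ∀ w, ∃ c, zt p c = (φ w : Ma) := fun w => exists_zt_eq p (by
      have h2 : p • φ w = 0 := by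
        rw [← map_nsmul, ← Nat.cast_smul_eq_nsmul (ZMod p), ZMod.natCast_self, zero_smul, map_zero]
      exact congrArg (fun t : UU S V0 => (t : Ma)) h2)
    choose c hc using h1
    let f0 : W →+ ZMod p := AddMonoidHom.mk' c fun a b => zt_injective p (by
      rw [map_add, hc, hc, hc, map_add]; rfl)
    let f : W →ₗ[ZMod p] ZMod p := f0.toZModLinearMap p
    have hf : ∀ w, f w = c w := fun w => rfl
    refine ⟨⟨f, mem_inv_of hC τ hτ (dK K (χQ p) τ) (dK_triv hC τ hτ) ?_⟩, ?_⟩
    · apply LinearMap.ext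
      intro w
      change χQ p g (f (τ (⟨g, hC.mem⟩ : K)⁻¹ w)) = f w
      apply zt_injective p
      rw [← ac_zt, hf, hf, hc, hc]
      have h2 := congrArg (fun t : UU S V0 => (t : Ma)) (hφ (τ (⟨g, hC.mem⟩ : K)⁻¹ w))
      change (φ (τ ⟨g, hC.mem⟩ (τ (⟨g, hC.mem⟩ : K)⁻¹ w)) : Ma) = ac g (φ (τ (⟨g, hC.mem⟩ : K)⁻¹ w) : Ma) at h2
      rw [Representation.self_inv_apply] at h2
      exact h2.symm
    · apply Subtype.ext
      ext w
      exact congrArg vl (hc w)

end Maps

end Fermat.Agent.CFT
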