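import Fermat.Agent.CFT.GW1

/-!
# Local classes orthogonal to global ones are global
-/

set_option autoImplicit false
set_option linter.unusedSectionVars false
set_option linter.unusedVariables false
set_option linter.style.haveILetI false

namespace Fermat.Agent.CFT

open Module

section

variable {k : Type} [Field k] {G H : Type} [Group G] [Group H] {Sg Sl : Sys G}
  {hS : ∀ U ∈ Sg.carrier, ∃ V ∈ Sl.carrier, V ≤ U} {ι : H →* G} {X : Type} [MulAction G X]
  {χ : Representation k H k} (K : Cls hS ι X χ)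
  {M : Type} [AddCommGroup M] [Module k M] [Module.Finite k M] (ρ : Representation k H M)
  (hρ : K.P M ρ)

/-- the coordinate inclusions of the extension -/
def inE {m : ℕ} (M : Type) [AddCommGroup M] [Module k M] (j : Fin m) : k →ₗ[k] M × (Fin m → k) :=
  LinearMap.inr k M (Fin m → k) ∘ₗ LinearMap.single k (fun _ : Fin m => k) j

theorem inE_equiv {m : ℕ} {f : Fin m → H → (M →ₗ[k] k)}
    (hf : ∀ j g h, f j (g * h) = f j g + dl χ ρ g (f j h)) (j : Fin m) (h : H) (z : k) :
    inE M j (χ h z) = extRep f hf h (inE M j z) := by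
  change ((0 : M), (Pi.single j (χ h z) : Fin m → k)) = extRep f hf h ((0 : M), (Pi.single j z : Fin m → k))
  rw [extRep_apply]
  refine Prod.ext (by simp) (funext fun i => ?_)
  by_cases hij : i = j
  · subst hij; simp
  · simp [hij]

variable (χ) in
/-- evaluation as an equivariant pairing -/
theorem ev_equiv (h : H) (f : M →ₗ[k] k) (m : M) :
    (LinearMap.id : (M →ₗ[k] k) →ₗ[k] (M →ₗ[k] k)) (dl χ ρ h f) (ρ h m) =
      χ h ((LinearMap.id : (M →ₗ[k] k) →ₗ[k] (M →ₗ[k] k)) f m) := by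
  rw [LinearMap.id_apply, LinearMap.id_apply, dl_apply, Representation.inv_self_apply]

/-- the class of a two-cocycle in `T³` vanishes -/
def Null3 {C L : Cx.{0, 0} k} (φ : Cx.Hom C L) (z : L.X 2) : Prop :=
  ∃ c ∈ C.Z 2, ∃ l, z = φ.f 2 c - L.d 1 l

include K hρ

theorem glob_of_orth (ht : finrank k ((Cx.T (loc hS ι X ρ)).H 1) ≤ (cochCx Sg ι (dl χ ρ) Unit).h 1)
    {y : (cochCx Sl ι ρ X).X 1} (hy : (cochCx Sl ι ρ X).d 1 y = 0)
    (horth : ∀ F, (cochCx Sg ι (dl χ ρ) Unit).d 1 F = 0 → Null3 (loc hS ι X χ)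
      (cup1 (χ := χ) LinearMap.id (ev_equiv χ ρ) ((loc hS ι X (dl χ ρ)).f 1 F) y)) :
    (cochCx Sl ι ρ X).cl 1 y hy ∈ LinearMap.range ((loc hS ι X ρ).H 1) := by
  classical
  haveI f1 := K.finG (K.dual hρ) 1 (by norm_num)
  haveI f2 := K.finG hρ 2 le_rfl
  haveI f3 := K.finL hρ 1 (by norm_num)
  haveI := Cx.finite_T2 (loc hS ι X ρ)
  obtain ⟨F, hF, hlin⟩ := exists_basis1 (cochCx Sg ι (dl χ ρ) Unit)
  have hck := ext_ck K ρ hρ F hF hlin
  set f : Fin ((cochCx Sg ι (dl χ ρ) Unit).h 1) → H → (M →ₗ[k] k) := fun j => inh (F j) with hfdef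
  have hf : ∀ j g h, f j (g * h) = f j g + dl χ ρ g (f j h) := fun j => inh_mul (hF j)
  have hrange : LinearMap.range ((tE ρ hS ι X f hf).H 1) = ⊥ := by
    have h1 := Submodule.finrank_quotient_add_finrank (LinearMap.range ((tE ρ hS ι X f hf).H 1))
    have h2 : finrank k ((Cx.T (loc hS ι X ρ)).H 1 ⧸ LinearMap.range ((tE ρ hS ι X f hf).H 1)) =
      (tE ρ hS ι X f hf).ck 1 := rfl
    have h3 : finrank k (LinearMap.range ((tE ρ hS ι X f hf).H 1)) = 0 := by
      rw [h2] at h1
      have h4 := hck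
      change _ ≤ (tE ρ hS ι X f hf).ck 1 at h4
      omega
    exact Submodule.finrank_eq_zero.1 h3
  choose c hc l hl using fun j => horth (F j) (hF j)
  -- the lift of `y`
  let yt : (cochCx Sl ι (extRep f hf) X).X 1 :=
    mkc (fun a x => (cv y a ![x 0, x 1], fun j => cv (F j) () ![1, x 0] (cv y a ![x 0, x 1]))) (by
      constructor
      · intro h a x
        have h1 := cv_equiv2 y h a (x 0) (x 1)
        beta_reduce
        rw [h1, extRep_apply]
        refine Prod.ext rfl (funext fun j => ?_)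
        have h2 := cocycle1 (hF j) () 1 (ι h) (ι h * x 0)
        have h3 := cv_equiv2 (F j) h () 1 (x 0)
        rw [mul_one] at h3
        change cv (F j) () ![ι h, ι h * x 0] = _ at h3
        rw [h3] at h2
        change cv (F j) () ![1, ι h * x 0] (ρ h (cv y a ![x 0, x 1])) =
          χ h (cv (F j) () ![1, x 0] (cv y a ![x 0, x 1])) +
            cv (F j) () ![1, ι h] (ρ h (cv y a ![x 0, x 1]))
        rw [h2, LinearMap.add_apply, dl_apply, Representation.inv_self_apply, add_comm]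
      · obtain ⟨V, hV, h1⟩ := exists_level1 y
        choose V' hV' h2 using fun j => exists_level1 (F j)
        obtain ⟨W, hW, hWV⟩ := Sg.exists_le_finite V' hV'
        obtain ⟨W', hW', hWW'⟩ := hS W hW
        obtain ⟨U, hU, hUV, hUW⟩ := Sl.directed V hV W' hW'
        refine ⟨U, hU, fun a x x' hx => ?_⟩
        beta_reduce
        rw [h1 a (x 0) (x 1) (x' 0) (x' 1) (hUV (hx 0)) (hUV (hx 1))]
        refine Prod.ext rfl (funext fun j => ?_)
        change cv (F j) () ![1, x 0] _ = cv (F j) () ![1, x' 0] _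
        rw [h2 j () 1 (x 0) 1 (x' 0) (by rw [inv_one, one_mul]; exact Subgroup.one_mem _)
          (hWV j (hWW' (hUW (hx 0))))])
  have hyt : (cochCx Sl ι (extRep f hf) X).d 1 yt =
      ∑ j, (cochMap (inE M j) (inE_equiv ρ hf j)).f 2
        (cup1 (χ := χ) LinearMap.id (ev_equiv χ ρ) ((loc hS ι X (dl χ ρ)).f 1 (F j)) y) := by
    apply cv_injective
    apply funext3
    intro a x x' x''
    have hsum : ∀ s : Finset (Fin ((cochCx Sg ι (dl χ ρ) Unit).h 1)),
        cv (∑ j ∈ s, (cochMap (inE M j) (inE_equiv ρ hf j)).f 2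
        (cup1 (χ := χ) LinearMap.id (ev_equiv χ ρ) ((loc hS ι X (dl χ ρ)).f 1 (F j)) y)) a ![x, x', x''] =
        ∑ j ∈ s, inE M j (cv (F j) () ![x, x'] (cv y a ![x', x''])) := by
      intro s
      induction s using Finset.induction_on with
      | empty => simp
      | insert b s hb ih =>
        rw [Finset.sum_insert hb, Finset.sum_insert hb, cv_add, Pi.add_apply, Pi.add_apply, ih]
        rfl
    rw [hsum, cv_d, dfun_one_apply]
    have h1 := cocycle1 hy a x x' x''
    have h2 : ∀ j, cv (F j) () ![1, x'] = cv (F j) () ![1, x] + cv (F j) () ![x, x'] := fun j =>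
      cocycle1 (hF j) () 1 x x'
    change ((cv y a ![x', x''], fun j => cv (F j) () ![1, x'] (cv y a ![x', x''])) : M × _) -
      (cv y a ![x, x''], fun j => cv (F j) () ![1, x] (cv y a ![x, x''])) +
      (cv y a ![x, x'], fun j => cv (F j) () ![1, x] (cv y a ![x, x'])) = _
    apply Prod.ext
    · rw [Prod.fst_sum]
      change cv y a ![x', x''] - cv y a ![x, x''] + cv y a ![x, x'] = _
      have h3 : ∑ j, (inE M j (cv (F j) () ![x, x'] (cv y a ![x', x'']))).1 = (0 : M) :=
        Finset.sum_eq_zero fun j _ => rfl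
      rw [h3, h1]
      abel
    · rw [Prod.snd_sum]
      funext i
      change cv (F i) () ![1, x'] (cv y a ![x', x'']) - cv (F i) () ![1, x] (cv y a ![x, x'']) +
        cv (F i) () ![1, x] (cv y a ![x, x']) = _
      rw [Finset.sum_apply, Finset.sum_eq_single i]
      · change _ = (Pi.single i (cv (F i) () ![x, x'] (cv y a ![x', x''])) : _ → k) i
        rw [Pi.single_eq_same, h2, h1, LinearMap.add_apply, map_add]
        ring
      · intro b _ hb
        change (Pi.single b (cv (F b) () ![x, x'] (cv y a ![x', x''])) : _ → k) i = 0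
        rw [Pi.single_eq_of_ne (Ne.symm hb)]
      · intro h; exact absurd (Finset.mem_univ _) h
  let cE : (cochCx Sg ι (extRep f hf) Unit).X 2 :=
    ∑ j, (cochMap (inE M j) (inE_equiv ρ hf j)).f 2 (c j)
  let lE : (cochCx Sl ι (extRep f hf) X).X 1 :=
    yt + ∑ j, (cochMap (inE M j) (inE_equiv ρ hf j)).f 1 (l j)
  have hcE : (cochCx Sg ι (extRep f hf) Unit).d 2 cE = 0 := by
    rw [map_sum]
    refine Finset.sum_eq_zero fun j _ => ?_
    have h1 := (cochMap (S := Sg) (ι := ι) (X := Unit) (ρ := χ) (ρ' := extRep f hf) (inE M j)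
      (inE_equiv ρ hf j)).comm 2 (c j)
    rw [← h1, (hc j : (cochCx Sg ι χ Unit).d 2 (c j) = 0), map_zero]
  have hlE : (loc hS ι X (extRep f hf)).f 2 cE = (cochCx Sl ι (extRep f hf) X).d 1 lE := by
    rw [map_add, hyt, map_sum, map_sum, ← Finset.sum_add_distrib]
    refine Finset.sum_congr rfl fun j _ => ?_
    have h1 := (cochMap (S := Sl) (ι := ι) (X := X) (ρ := χ) (ρ' := extRep f hf) (inE M j)
      (inE_equiv ρ hf j)).comm 1 (l j)
    have h2 : (loc hS ι X (extRep f hf)).f 2 ((cochMap (S := Sg) (ι := ι) (X := Unit) (ρ := χ)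
      (ρ' := extRep f hf) (inE M j) (inE_equiv ρ hf j)).f 2 (c j)) =
      (cochMap (S := Sl) (ι := ι) (X := X) (ρ := χ) (ρ' := extRep f hf) (inE M j)
      (inE_equiv ρ hf j)).f 2 ((loc hS ι X χ).f 2 (c j)) := rfl
    rw [← h1, ← map_add, hl j, sub_add_cancel]
    exact h2
  let z := (Cx.T (loc hS ι X (extRep f hf))).cl 1 ((⟨cE, hcE⟩ : _), ⟨lE, trivial⟩)
    ((Cx.T_d1 _ _ _).2 hlE)
  have hz : (tE ρ hS ι X f hf).H 1 z = 0 := by
    have : (tE ρ hS ι X f hf).H 1 z ∈ LinearMap.range ((tE ρ hS ι X f hf).H 1) := ⟨z, rfl⟩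
    rw [hrange] at this
    exact this
  rw [← Cx.ker_a1, LinearMap.mem_ker, Cx.a1_cl, ← hz]
  have hfst : ∀ (S' : Sys G) (X' : Type) [MulAction G X'] (n : ℕ) (j)
      (u : (cochCx S' ι χ X').X n), (cochMap (S := S') (ι := ι) (X := X')
      (ρ := extRep f hf) (ρ' := ρ) (LinearMap.fst k M (Fin _ → k)) (fun h x => rfl)).f n
      ((cochMap (S := S') (ι := ι) (X := X') (ρ := χ) (ρ' := extRep f hf) (inE M j)
      (inE_equiv ρ hf j)).f n u) = 0 := fun S' X' _ n j u => rfl
  have e1 : (cochMap (S := Sg) (ι := ι) (X := Unit) (ρ := extRep f hf) (ρ' := ρ)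
      (LinearMap.fst k M (Fin _ → k)) (fun h x => rfl)).f 2 cE = 0 := by
    rw [map_sum]
    exact Finset.sum_eq_zero fun j _ => hfst Sg Unit 2 j (c j)
  have e2 : (cochMap (S := Sl) (ι := ι) (X := X) (ρ := extRep f hf) (ρ' := ρ)
      (LinearMap.fst k M (Fin _ → k)) (fun h x => rfl)).f 1 lE = y := by
    rw [map_add, map_sum, Finset.sum_eq_zero fun j _ => hfst Sl X 1 j (l j), add_zero]
    apply cv_injective
    apply funext2
    intro a x x'
    rfl
  rw [Cx.Hom.H_cl, Cx.cl_eq_iff]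
  convert Submodule.zero_mem _ using 1
  rw [sub_eq_zero]
  exact Prod.ext (Subtype.ext e1.symm) (Subtype.ext e2.symm)

end

end Fermat.Agent.CFT
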