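import Fermat.Agent.CFT.NeedA6
import Fermat.Agent.CFT.Need

/-!
# Artin induction for additive functions on modular representations
-/

set_option autoImplicit false
set_option linter.unusedSectionVars false
set_option linter.unusedVariables false
set_option linter.style.haveILetI false

namespace Fermat.Agent.CFT

namespace AV

noncomputable section

open Module Representation

variable {p : ℕ} [hp : Fact p.Prime] {Γ : Type} [Group Γ] [Finite Γ] {f : Fn p Γ} (hf : Addv f)

include hf in
/-- from cyclic groups of order prime to `p` to cyclic groups -/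
theorem cyclic_of (hC : ∀ C : Subgroup Γ, IsCyclic C → ¬ p ∣ Nat.card C → ∀ (W : Type)
      [AddCommGroup W] [Module (ZMod p) W] [Module.Finite (ZMod p) W]
      (τ : Representation (ZMod p) C W), f _ (coind C.subtype τ) = 0)
    (C : Subgroup Γ) (hcyc : IsCyclic C) (W : Type) [AddCommGroup W] [Module (ZMod p) W]
    [Module.Finite (ZMod p) W] (τ : Representation (ZMod p) C W) :
    f _ (coind C.subtype τ) = 0 := by
  obtain ⟨c, hc⟩ := hcyc.exists_generator
  obtain ⟨k, m, hm, hk⟩ := Nat.exists_eq_pow_mul_and_not_dvd (n := Nat.card C) Nat.card_pos.ne' p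
    hp.out.ne_one
  have hpk : 0 < p ^ k := pow_pos hp.out.pos k
  have hord : orderOf c = p ^ k * m := by rw [← hk, orderOf_eq_card_of_forall_mem_zpowers hc]
  let S : Subgroup C := Subgroup.zpowers (c ^ p ^ k)
  haveI : IsMulCommutative C := ⟨⟨fun a b => by
    obtain ⟨i, rfl⟩ := Subgroup.mem_zpowers_iff.1 (hc a)
    obtain ⟨j, rfl⟩ := Subgroup.mem_zpowers_iff.1 (hc b)
    rw [← zpow_add, ← zpow_add, add_comm]⟩⟩
  have hcomm : ∀ a b : C, a * b = b * a := fun a b => mul_comm' a b
  have hScard : Nat.card S = m := by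
    rw [Nat.card_zpowers, orderOf_pow_of_dvd hpk.ne' (by rw [hord]; exact Dvd.intro _ rfl), hord,
      Nat.mul_div_cancel_left _ hpk]
  -- the additive function on `C`
  have hcf := hf.cof C
  have h1 : ∀ (X : Type) [Finite X] [MulAction C X], (∀ x : X, (c ^ p ^ k) • x = x) →
      cof C f (X → W) (fr τ X) = Nat.card X * tens τ (cof C f) (ZMod p)
        (1 : Representation (ZMod p) C (ZMod p)) := by
    intro X _ _ hX
    haveI := Fintype.ofFinite X
    rw [← hcf.tens_pm τ X]
    refine (hcf.tens τ).unip hc (k := k) (Nat.card X) (X → ZMod p) (pm p C X) ?_ ?_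
    · rw [← map_pow]
      refine LinearMap.ext fun φ => funext fun x => ?_
      rw [fr_apply]
      have h2 : (c ^ p ^ k)⁻¹ • x = x := inv_smul_eq_iff.2 (hX x).symm
      rw [h2]
      rfl
    · rw [Module.finrank_fintype_fun_eq_card, Nat.card_eq_fintype_card]
  -- the trivial set
  letI : MulAction C PUnit.{1} :=
    { smul := fun _ x => x, one_smul := fun _ => rfl, mul_smul := fun _ _ _ => rfl }
  have h2 : cof C f W τ = tens τ (cof C f) (ZMod p)
        (1 : Representation (ZMod p) C (ZMod p)) := by
    have e1 := h1 PUnit.{1} (fun _ => rfl)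
    rw [Nat.card_unique, Nat.cast_one, one_mul] at e1
    rw [← e1]
    symm
    refine hcf.iso (ρA := τ) (LinearMap.pi fun _ => LinearMap.id) (fun g x => rfl) ⟨?_, ?_⟩
    · intro x y h
      exact congrFun h PUnit.unit
    · intro y
      exact ⟨y PUnit.unit, rfl⟩
  -- the cosets
  have hstab : MulAction.stabilizer C (QuotientGroup.mk (s := S) 1) = S := by
    ext x
    rw [MulAction.mem_stabilizer_iff]
    change (QuotientGroup.mk (x * 1) : C ⧸ S) = QuotientGroup.mk 1 ↔ _
    rw [mul_one, eq_comm, QuotientGroup.eq, inv_one, one_mul]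
  have h3 : cof C f ((C ⧸ S) → W) (fr τ (C ⧸ S)) = 0 := by
    rw [hcf.transitive τ (X := C ⧸ S) (QuotientGroup.mk 1) (fun x => by
      obtain ⟨g, rfl⟩ := QuotientGroup.mk_surjective x
      exact ⟨g, congrArg QuotientGroup.mk (mul_one g)⟩), hf.coind_coind]
    refine hC _ ?_ ?_ _ _
    · rw [hstab]
      exact isCyclic_of_surjective (S.equivMapOfInjective C.subtype C.subtype_injective)
        (S.equivMapOfInjective C.subtype C.subtype_injective).surjective
    · rw [hstab, ← Nat.card_congr (S.equivMapOfInjective C.subtype C.subtype_injective).toEquiv,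
        hScard]
      exact hm
  rw [h1 (C ⧸ S) (fun x => by
    obtain ⟨g, rfl⟩ := QuotientGroup.mk_surjective x
    change (QuotientGroup.mk (c ^ p ^ k * g) : C ⧸ S) = QuotientGroup.mk g
    rw [hcomm, QuotientGroup.eq, mul_inv_rev, mul_assoc, inv_mul_cancel, mul_one]
    exact inv_mem (Subgroup.mem_zpowers _)), ← h2] at h3
  rcases mul_eq_zero.1 h3 with h | h
  · exfalso
    have : Nat.card (C ⧸ S) ≠ 0 := Nat.card_pos.ne'
    exact this (by exact_mod_cast h)
  · exact h

/-- the complement of a stable subset -/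
def compl {X : Type} [MulAction Γ X] (S : SubMulAction Γ X) : SubMulAction Γ X where
  carrier := (S : Set X)ᶜ
  smul_mem' g x hx h := hx (by
    have := S.smul_mem g⁻¹ h
    rwa [inv_smul_smul] at this)

include hf in
theorem Addv.fr_split {X : Type} [Finite X] [MulAction Γ X] (S : SubMulAction Γ X)
    {V : Type} [AddCommGroup V] [Module (ZMod p) V] [Module.Finite (ZMod p) V]
    (ρV : Representation (ZMod p) Γ V) :
    f (X → V) (fr ρV X) = f (S → V) (fr ρV S) + f (compl S → V) (fr ρV (compl S)) := by
  classical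
  rw [← hf.fr_sum]
  let e : S ⊕ compl S ≃ X := Equiv.Set.sumCompl (S : Set X)
  refine hf.fr_iso e ?_
  rintro g (x | x) <;> rfl

include hf in
/-- sets with cyclic stabilizers -/
theorem orbits_of {V : Type} [AddCommGroup V] [Module (ZMod p) V] [Module.Finite (ZMod p) V]
    (ρV : Representation (ZMod p) Γ V)
    (hC : ∀ C : Subgroup Γ, IsCyclic C → f _ (coind C.subtype (ρV.comp C.subtype)) = 0) (n : ℕ) :
    ∀ (X : Type) [Finite X] [MulAction Γ X], Nat.card X = n →
    (∀ x : X, IsCyclic (MulAction.stabilizer Γ x)) → f (X → V) (fr ρV X) = 0 := by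
  induction n using Nat.strong_induction_on with
  | _ n ih =>
    intro X _ _ hn hX
    rcases isEmpty_or_nonempty X with hE | ⟨⟨x₀⟩⟩
    · exact hf.fr_empty
    · let S : SubMulAction Γ X :=
        { carrier := MulAction.orbit Γ x₀
          smul_mem' := fun g x hx => by
            obtain ⟨h, rfl⟩ := hx
            exact ⟨g * h, mul_smul g h x₀⟩ }
      have hx₀ : x₀ ∈ S := ⟨1, one_smul _ _⟩
      rw [hf.fr_split S, ih (Nat.card (compl S)) ?_ (compl S) rfl fun x => ?_, add_zero,
        hf.transitive ρV (X := S) ⟨x₀, hx₀⟩ ?_]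
      · refine hC _ ?_
        have h1 : MulAction.stabilizer Γ (⟨x₀, hx₀⟩ : S) = MulAction.stabilizer Γ x₀ := by
          ext g
          rw [MulAction.mem_stabilizer_iff, MulAction.mem_stabilizer_iff]
          exact Subtype.ext_iff
        rw [h1]
        exact hX x₀
      · rintro ⟨_, g, rfl⟩
        exact ⟨g, rfl⟩
      · rw [← hn]
        refine Finite.card_subtype_lt (x := x₀) (fun h => h hx₀)
      · have h1 : MulAction.stabilizer Γ x = MulAction.stabilizer Γ (x : X) := by
          ext g
          rw [MulAction.mem_stabilizer_iff, MulAction.mem_stabilizer_iff]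
          exact Subtype.ext_iff
        rw [h1]
        exact hX x

end

end AV

/-- **(A)** -/
theorem artinVanish (p : ℕ) [Fact p.Prime] : ArtinVanish p := by
  intro Γ _ _ f hf hC V _ _ _ ρ
  have hf' : AV.Addv f := hf
  refine AV.vanish_of hf' ρ fun X _ _ hX => ?_
  exact AV.orbits_of hf' ρ (fun C hcyc => AV.cyclic_of hf' hC C hcyc V _) _ X rfl hX

end Fermat.Agent.CFT
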