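import Fermat.Agent.CFT.GW19
import Fermat.Agent.CFT.NeedA

/-!
# The Euler characteristic
-/

set_option autoImplicit false
set_option linter.unusedSectionVars false
set_option linter.unusedVariables false
set_option linter.unusedTactic false
set_option linter.style.haveILetI false

noncomputable section

namespace Fermat.Agent.CFT

open Module Fermat.Agent.Sel
open scoped Pointwise

variable {p : ℕ} [hp : Fact p.Prime] {S : Finset ℕ} {V0 K : Subgroup GQ} {g : GQ} {n : ℕ}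

section Rank

theorem sU_pow (hN : V0.Normal) (g : GQ) (i : ℕ) (x : UU S V0) :
    (((sU (S := S) hN g) ^ i : AddMonoid.End (UU S V0)) x : Ma) = ac (g ^ i) (x : Ma) := by
  induction i generalizing x with
  | zero => rw [pow_zero, pow_zero]; rfl
  | succ i ih =>
    rw [pow_succ, pow_succ]
    exact ih (sU hN g x)

theorem sU_pow_eq_one (hN : V0.Normal) (g : GQ) (i : ℕ) (x : UU S V0) :
    ((sU (S := S) hN g) ^ i - 1 : AddMonoid.End (UU S V0)) x = 0 ↔ ac (g ^ i) (x : Ma) = x := by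
  rw [← sU_pow hN g i x]
  constructor
  · intro h
    exact congrArg Subtype.val (sub_eq_zero.1 h)
  · intro h
    exact sub_eq_zero.2 (Subtype.ext h)

theorem End_pow {W : Type} [AddCommGroup W] [Module (ZMod p) W] (T : Module.End (ZMod p) W)
    (s : AddMonoid.End W) (hs : ∀ w, s w = T w) (i : ℕ) (w : W) : (s ^ i : AddMonoid.End W) w = (T ^ i) w := by
  induction i generalizing w with
  | zero => rfl
  | succ i ih =>
    rw [pow_succ, pow_succ]
    change (s ^ i : AddMonoid.End W) (s w) = (T ^ i) (T w)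
    rw [ih, hs]

/-- the orbits of the places -/
theorem card_orb_places {H : Subgroup GQ} {s : Finset Pl} (hs : Reps H S s) :
    Finite (YQ H (XS S)) ∧ Nat.card (YQ H (XS S)) = s.card := by
  let f : s → YQ H (XS S) := fun B => yq (⟨B, hs.ell_mem B.2⟩ : XS S)
  have hf : Function.Bijective f := by
    constructor
    · intro B B' h
      obtain ⟨v, hv, h'⟩ := yq_eq.1 h
      exact (Subtype.ext (hs.dis _ B'.2 _ B.2 ⟨v, hv, congrArg Subtype.val h'⟩)).symm
    · rintro ⟨⟨A, hA⟩⟩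
      obtain ⟨B, hB, w, hw, h⟩ := (hs.cov A).1 hA
      refine ⟨⟨B, hB⟩, (yq_eq.2 ⟨w, hw, Subtype.ext h⟩).symm⟩
  have e := Equiv.ofBijective f hf
  refine ⟨Finite.of_equiv _ e, ?_⟩
  rw [← Nat.card_congr e, Nat.card_eq_fintype_card, Fintype.card_coe]

theorem finite_orb_emb {H : Subgroup GQ} (hH : IsOpen (H : Set GQ)) :
    Finite (YQ H (GQ ⧸ Subgroup.zpowers (complexConjugation : GQ))) := by
  haveI := finiteIndex_of_isOpen hH
  haveI : Finite (RC H) := inferInstance
  refine Finite.of_surjective (fun q : RC H => Quotient.liftOn' q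
    (fun x => yq (V0 := H) (x : GQ ⧸ Subgroup.zpowers (complexConjugation : GQ))) fun x y h => ?_) ?_
  · rw [QuotientGroup.rightRel_apply] at h
    refine yq_eq.2 ⟨(y * x⁻¹)⁻¹, inv_mem h, ?_⟩
    change (((y * x⁻¹)⁻¹ * y : GQ) : GQ ⧸ Subgroup.zpowers (complexConjugation : GQ)) = _
    congr 1
    group
  · rintro ⟨x⟩
    induction x using QuotientGroup.induction_on with
    | H x => exact ⟨Quotient.mk'' x, rfl⟩

theorem open_of_ge {H : Subgroup GQ} (hV : IsOpen (V0 : Set GQ)) (h : V0 ≤ H) : IsOpen (H : Set GQ) :=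
  Subgroup.isOpen_mono h hV

/-- ranks of invariants of the units -/
theorem rank_inv (hN : V0.Normal) (hV : IsOpen (V0 : Set GQ)) (g : GQ) (d : ℕ) :
    Module.Finite ℤ (UU S V0) ∧
    finrank ℤ (AddMonoidHom.ker ((sU (S := S) hN g) ^ d - 1 : AddMonoid.End (UU S V0))) + 1 =
      Nat.card (MulAction.orbitRel.Quotient (Subgroup.zpowers
        (πY V0 hN g (XS S ⊕ (GQ ⧸ Subgroup.zpowers (complexConjugation : GQ))) ^ d))
        (YQ V0 (XS S ⊕ (GQ ⧸ Subgroup.zpowers (complexConjugation : GQ))))) := by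
  constructor
  · obtain ⟨s, h1, h2⟩ := exists_reps hV S
    have hs : Reps V0 S s := ⟨h1, h2⟩
    have h3 := (rankUS V0 hV S s hs).1
    have hOB : OB V0 id s = OS S := by ext A; exact hs.mem_OB
    rwa [hOB] at h3
  let H : Subgroup GQ := V0 ⊔ Subgroup.zpowers (g ^ d)
  have hH : IsOpen (H : Set GQ) := open_of_ge hV le_sup_left
  obtain ⟨s, h1, h2⟩ := exists_reps hH S
  have hs : Reps H S s := ⟨h1, h2⟩
  have hOB : OB H id s = OS S := by ext A; exact hs.mem_OB
  obtain ⟨-, h3⟩ := rankUS H hH S s hs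
  rw [hOB] at h3
  obtain ⟨f1, h4⟩ := card_orb_places hs
  haveI := f1
  haveI := finite_orb_emb hH
  rw [card_orb hN g d, card_orb_sum H, h4]
  change _ = s.card + Nat.card (MulAction.orbitRel.Quotient H (GQ ⧸ Subgroup.zpowers complexConjugation))
  rw [← h3]
  congr 1
  refine LinearEquiv.finrank_eq (AddEquiv.toIntLinearEquiv
    { toFun := fun x => ⟨(x : UU S V0), mem_FA'.2 fun w hw => ?_, (x : UU S V0).2.2⟩
      invFun := fun x => ⟨⟨x, mem_FA'.2 fun v hv => mem_FA'.1 x.2.1 v (Subgroup.mem_sup_left hv), x.2.2⟩, ?_⟩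
      left_inv := fun x => rfl
      right_inv := fun x => rfl
      map_add' := fun x y => rfl })
  · have hx : ac (g ^ d) (x : UU S V0) = ((x : UU S V0) : Ma) := (sU_pow_eq_one hN g d _).1 x.2
    rw [Subgroup.mem_sup_of_normal_left] at hw
    obtain ⟨v, hv, z, ⟨j, rfl⟩, rfl⟩ := hw
    have hz : ∀ j : ℤ, ac ((g ^ d) ^ j) ((x : UU S V0) : Ma) = ((x : UU S V0) : Ma) := fun j => by
      have hnat : ∀ j : ℕ, ac ((g ^ d) ^ j) ((x : UU S V0) : Ma) = ((x : UU S V0) : Ma) := fun j => by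
        induction j with
        | zero => rw [pow_zero]; rfl
        | succ j ih => rw [pow_succ, ac_mul, hx, ih]
      rcases Int.eq_nat_or_neg j with ⟨j, rfl | rfl⟩
      · rw [zpow_natCast, hnat]
      · rw [zpow_neg, zpow_natCast]
        conv_lhs => rw [← hnat j]
        rw [ac_inv_ac]
    rw [ac_mul, hz]
    exact mem_FA'.1 (x : UU S V0).2.1 v hv
  · exact (sU_pow_eq_one hN g d _).2 (mem_FA'.1 x.2.1 _ (Subgroup.mem_sup_right (Subgroup.mem_zpowers _)))

end Rank

section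

variable {W : Type} [AddCommGroup W] [Module (ZMod p) W] [Module.Finite (ZMod p) W]
  {τ : Representation (ZMod p) K W}

theorem fin_CGK (hp2 : p ≠ 2) (hpS : p ∈ S) (hlev : LevK S K τ) : Module.Finite (ZMod p) ((CGK S K τ).H 1) := by
  haveI := LevK.fin hlev
  haveI := (clsQ (qData (S := S) hp2 hpS)).finG (ρ := ci K τ) (LevK.level hlev) 1 (by norm_num)
  exact Module.Finite.equiv ((shapiro (S := SG S) (ι := idG GQ) (X := Unit) K τ).H 1)

end

section

variable (hC : CycD p S V0 K g n) {s : Finset Pl} (hs : Reps V0 S s) (hP : PID V0 (OB V0 id s))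
  (hp2 : p ≠ 2) (hpS : p ∈ S) {W : Type} [AddCommGroup W] [Module (ZMod p) W] [Module.Finite (ZMod p) W]
  (τ : Representation (ZMod p) K W) (hτ : ∀ v (hv : v ∈ V0) m, τ ⟨v, hC.le hv⟩ m = m)

include hC hs hP hp2 hpS hτ

/-- **The Euler characteristic in the cyclic case.** -/
theorem FE_cyc : FE S (ci K τ) = 0 := by
  classical
  have hN : V0.Normal := (SG S).normal _ hC.hV
  have hV : IsOpen (V0 : Set GQ) := SG_open V0 hC.hV
  have hlev : LevK S K τ := ⟨V0, hC.hV, fun h hh => ⟨hC.le hh, hτ h hh⟩⟩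
  rw [FE_ci K τ hp2 hpS hlev, sh1_zero hC hs hP hp2 hpS τ hτ]
  let Pt : Type := XS S ⊕ (GQ ⧸ Subgroup.zpowers (complexConjugation : GQ))
  haveI f1 := (card_orb_places hs).1
  haveI f2 := finite_orb_emb hV
  haveI : Finite (YQ V0 Pt) := by
    refine Finite.of_surjective (fun x : YQ V0 (XS S) ⊕ YQ V0 (GQ ⧸ Subgroup.zpowers (complexConjugation : GQ)) =>
      Sum.elim (Quotient.map (sa := MulAction.orbitRel V0 (XS S)) (sb := MulAction.orbitRel V0 Pt) Sum.inl ?_)
        (Quotient.map (sa := MulAction.orbitRel V0 (GQ ⧸ Subgroup.zpowers (complexConjugation : GQ)))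
          (sb := MulAction.orbitRel V0 Pt) Sum.inr ?_) x) ?_
    · rintro x y ⟨v, rfl⟩; exact ⟨v, rfl⟩
    · rintro x y ⟨v, rfl⟩; exact ⟨v, rfl⟩
    · rintro ⟨x | x⟩
      · exact ⟨Sum.inl (yq x), rfl⟩
      · exact ⟨Sum.inr (yq x), rfl⟩
  haveI := (rank_inv (S := S) hN hV g 0).1
  haveI : Finite W := Module.finite_of_finite (ZMod p)
  let pU : AddSubgroup (UU S V0) := (nsmulAddMonoidHom p : UU S V0 →+ UU S V0).range
  let q : UU S V0 →+ (UU S V0 ⧸ pU) := QuotientAddGroup.mk' pU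
  have hq : ∀ u, q u = 0 ↔ ∃ v, p • v = u := fun u => by
    change (u : UU S V0 ⧸ pU) = 0 ↔ _
    rw [QuotientAddGroup.eq_zero_iff]; rfl
  have hqs : Function.Surjective q := QuotientAddGroup.mk'_surjective pU
  let σ' : AddMonoid.End (UU S V0 ⧸ pU) := QuotientAddGroup.map pU pU (sU hN g) (by
    rintro _ ⟨v, rfl⟩
    exact ⟨sU hN g v, (map_nsmul _ _ _).symm⟩)
  have hσ : ∀ u, σ' (q u) = q (sU hN g u) := fun u => rfl
  have hσn : (sU (S := S) hN g) ^ n = 1 := by
    ext x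
    exact congrArg vl ((sU_pow hN g n x).trans (mem_FA'.1 x.2.1 _ hC.pow))
  have hπn : (πY V0 hN g Pt) ^ n = 1 := by
    apply Equiv.ext
    rintro ⟨x⟩
    exact (πY_pow hN g n x).trans (yq_eq.2 ⟨g ^ n, hC.pow, rfl⟩)
  let sW : AddMonoid.End W := (τ ⟨g, hC.mem⟩ : W →ₗ[ZMod p] W).toAddMonoidHom
  have hsn : sW ^ n = 1 := by
    ext w
    rw [End_pow (τ ⟨g, hC.mem⟩) sW (fun _ => rfl), T_pow_n hC τ hτ]; rfl
  have hcount := latticeCount p n hC.np (UU S V0) (sU hN g) hσn (YQ V0 Pt) (πY V0 hN g Pt) hπn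
    (fun d hd => (rank_inv (S := S) hN hV g d).2) W (fun w => by
      rw [← Nat.cast_smul_eq_nsmul (ZMod p), ZMod.natCast_self, zero_smul])
    sW hsn (UU S V0 ⧸ pU) q hqs hq σ' hσ
  have c1 := card_H1_cyc (U' := UU S V0 ⧸ pU) (q := q) hC τ hτ hs hP hpS hq hqs hN (σ' := σ') hσ
  have c2 := card_inv hC τ hτ
  have c3 := card_inv_dual (S := S) hC τ hτ hN
  have c4 := card_MapK hC τ hτ hN Pt
  have e1 : Nat.card {φ : W →+ (UU S V0 ⧸ pU) //
      ∀ w, φ (sW w) = σ' (φ w)} =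
      Nat.card ((CGK S K (dK K (χQ p) τ)).H 1) := c1.symm
  have e2 : Nat.card {w : W // sW w = w} =
      Nat.card (inv τ) := c2
  have e3 : Nat.card {φ : W →+ UU S V0 //
      ∀ w, φ (sW w) = sU hN g (φ w)} =
      Nat.card (inv (dK K (χQ p) τ)) := c3
  have e4 : Nat.card {ψ : YQ V0 Pt → W // ∀ y, ψ (πY V0 hN g Pt y) =
      sW (ψ y)} = Nat.card (MapK K Pt τ) := c4
  rw [e1, e2, e3, e4] at hcount
  haveI := LevK.fin hlev
  haveI g1 : Module.Finite (ZMod p) ((CGK S K (dK K (χQ p) τ)).H 1) :=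
    fin_CGK hp2 hpS (LevK.dual hp2 hpS hlev)
  haveI g2 : Module.Finite (ZMod p) (MapK K (XS S) τ) := by
    haveI := (clsQ (qData (S := S) hp2 hpS)).finL (ρ := ci K τ) (LevK.level hlev) 0 (by norm_num)
    exact Module.Finite.equiv (((shapiro (S := SL) (ι := idG GQ) (X := XS S) K τ).H 0).trans (MapK.place K τ).symm)
  haveI g3 : Module.Finite (ZMod p) (MapK K (GQ ⧸ Subgroup.zpowers (complexConjugation : GQ)) τ) :=
    Module.Finite.equiv (MapK.emb K τ).symm
  haveI g4 : Module.Finite (ZMod p) (MapK K Pt τ) := Module.Finite.equiv (MapK.sum K _ _ τ).symm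
  rw [Module.natCard_eq_pow_finrank (K := ZMod p) (V := (CGK S K (dK K (χQ p) τ)).H 1),
    Module.natCard_eq_pow_finrank (K := ZMod p) (V := inv τ),
    Module.natCard_eq_pow_finrank (K := ZMod p) (V := inv (dK K (χQ p) τ)),
    Module.natCard_eq_pow_finrank (K := ZMod p) (V := MapK K Pt τ), Nat.card_zmod, ← pow_add, ← pow_add] at hcount
  have h1 := Nat.pow_right_injective hp.out.two_le hcount
  have h2 : finrank (ZMod p) (MapK K Pt τ) = (CPK S K τ).h 0 + finrank (ZMod p) (Hc (p := p) (ci K τ)) := by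
    rw [(MapK.sum K _ _ τ).finrank_eq, Module.finrank_prod, (MapK.place (S := S) K τ).finrank_eq,
      (MapK.emb K τ).finrank_eq]
    rfl
  have h3 : (CGK S K (dK K (χQ p) τ)).h 1 = finrank (ZMod p) ((CGK S K (dK K (χQ p) τ)).H 1) := rfl
  rw [h2] at h1
  have h4 : (CGK S K (dK K (χQ p) τ)).h 1 + finrank (ZMod p) (inv τ) =
    finrank (ZMod p) (inv (dK K (χQ p) τ)) + ((CPK S K τ).h 0 + finrank (ZMod p) (Hc (p := p) (ci K τ))) := h1
  omega

end

end Fermat.Agent.CFT
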