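import Fermat.Agent.CFT.GW20

/-!
# The Euler characteristic by induction
-/

set_option autoImplicit false
set_option linter.unusedSectionVars false
set_option linter.unusedVariables false
set_option linter.unusedTactic false
set_option linter.style.haveILetI false

noncomputable section

namespace Fermat.Agent.CFT

open Module Fermat.Agent.Sel
open scoped Pointwise

variable {p : ℕ} [hp : Fact p.Prime] {S : Finset ℕ} {V0 : Subgroup GQ}

section

variable (hN : V0.Normal) (C : Subgroup (GQ ⧸ V0)) {W : Type} [AddCommGroup W] [Module (ZMod p) W]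
  (τ : Representation (ZMod p) C W)

/-- the preimage -/
abbrev preK : Subgroup GQ := C.comap (QuotientGroup.mk' V0)

/-- inflation -/
def infl : Representation (ZMod p) (preK hN C) W :=
  τ.comp ((QuotientGroup.mk' V0).subgroupComap C)

theorem infl_apply (k : preK hN C) (w : W) : infl hN C τ k w = τ ⟨((k : GQ) : GQ ⧸ V0), k.2⟩ w := rfl

theorem infl_triv (v : GQ) (hv : v ∈ V0) (hv' : v ∈ preK hN C) (w : W) : infl hN C τ ⟨v, hv'⟩ w = w := by
  rw [infl_apply]
  have h1 : (⟨((v : GQ) : GQ ⧸ V0), hv'⟩ : C) = 1 := Subtype.ext ((QuotientGroup.eq_one_iff v).2 hv)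
  rw [h1, map_one]; rfl

/-- coinduction and inflation -/
def coindEquiv : Representation.coindV C.subtype τ ≃ₗ[ZMod p] CI (preK hN C) (infl hN C τ) := by
  refine LinearEquiv.ofBijective
    ({ toFun := fun f => ⟨fun x => (f : (GQ ⧸ V0) → W) (x : GQ ⧸ V0), fun k x => f.2 ⟨((k : GQ) : GQ ⧸ V0), k.2⟩ x⟩
       map_add' := fun _ _ => rfl
       map_smul' := fun _ _ => rfl } :
      Representation.coindV C.subtype τ →ₗ[ZMod p] CI (preK hN C) (infl hN C τ)) ⟨?_, ?_⟩
  · intro f f' h
    apply Subtype.ext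
    funext x
    induction x using QuotientGroup.induction_on with
    | H x => exact congrFun (congrArg Subtype.val h) x
  · intro φ
    have h1 : ∀ x y : GQ, x⁻¹ * y ∈ V0 → (φ : GQ → W) x = (φ : GQ → W) y := fun x y h => by
      have h2 : y * x⁻¹ ∈ V0 := by
        have := hN.conj_mem _ h x
        have e : x * (x⁻¹ * y) * x⁻¹ = y * x⁻¹ := by group
        rwa [e] at this
      have h3 : y * x⁻¹ ∈ preK hN C := by
        change ((y * x⁻¹ : GQ) : GQ ⧸ V0) ∈ C
        rw [(QuotientGroup.eq_one_iff _).2 h2]; exact one_mem _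
      have h4 := CI_apply (preK hN C) (infl hN C τ) φ ⟨_, h3⟩ x
      rw [infl_triv hN C τ _ h2] at h4
      rw [← h4]
      have e : y * x⁻¹ * x = y := by group
      change (φ : GQ → W) (y * x⁻¹ * x) = (φ : GQ → W) y
      rw [e]
    refine ⟨⟨fun q => Quotient.liftOn' q (φ : GQ → W) fun x y h => h1 x y (QuotientGroup.leftRel_apply.1 h),
      fun c q => ?_⟩, rfl⟩
    obtain ⟨c, hc⟩ := c
    induction c using QuotientGroup.induction_on with
    | H c =>
      induction q using QuotientGroup.induction_on with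
      | H x => exact CI_apply (preK hN C) (infl hN C τ) φ ⟨c, hc⟩ x

theorem coindEquiv_equiv (g : GQ) (f : Representation.coindV C.subtype τ) :
    coindEquiv hN C τ ((Representation.coind C.subtype τ) (g : GQ ⧸ V0) f) =
      ci (preK hN C) (infl hN C τ) g (coindEquiv hN C τ f) := rfl

end

variable {s : Finset Pl} (hV : V0 ∈ (SG S).carrier) (hμ : MuF p V0) (hs : Reps V0 S s)
  (hP : PID V0 (OB V0 id s)) (hp2 : p ≠ 2) (hpS : p ∈ S)

include hV hμ hs hP hp2 hpS

theorem exists_cycD (hN : V0.Normal) (C : Subgroup (GQ ⧸ V0)) (hC : IsCyclic C) (hpC : ¬ p ∣ Nat.card C) :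
    ∃ g n, CycD p S V0 (preK hN C) g n := by
  obtain ⟨⟨c, hc⟩, hgen⟩ := hC.exists_generator
  induction c using QuotientGroup.induction_on with
  | H g =>
    refine ⟨g, Nat.card C, hV, hμ, fun v hv => ?_, hc, ?_, fun h hh => ?_, hpC⟩
    · change ((v : GQ) : GQ ⧸ V0) ∈ C
      rw [(QuotientGroup.eq_one_iff _).2 hv]; exact one_mem _
    · have h1 : (⟨(g : GQ ⧸ V0), hc⟩ : C) ^ Nat.card C = 1 := pow_card_eq_one'
      have h2 := congrArg Subtype.val h1
      rw [← QuotientGroup.eq_one_iff]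
      exact h2
    · haveI : Finite (GQ ⧸ V0) := by
        haveI := finiteIndex_of_isOpen (SG_open V0 hV)
        exact Subgroup.finite_quotient_of_finiteIndex
      obtain ⟨j, hj⟩ := (mem_powers_iff_mem_zpowers (x := (⟨(g : GQ ⧸ V0), hc⟩ : C))).2 (hgen ⟨(h : GQ ⧸ V0), hh⟩)
      have h2 := congrArg Subtype.val hj
      have h3 : ((g ^ j : GQ) : GQ ⧸ V0) = (h : GQ ⧸ V0) := h2
      rw [QuotientGroup.eq] at h3
      exact ⟨j, _, h3, by group⟩

/-- **Tate's global Euler characteristic formula (for large `S`).** -/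
theorem FE_zero {V : Type} [AddCommGroup V] [Module (ZMod p) V] [Module.Finite (ZMod p) V]
    (r : Representation (ZMod p) GQ V) (hr : ∀ v ∈ V0, r v = 1) : FE S r = 0 := by
  have hN : V0.Normal := (SG S).normal _ hV
  haveI := finiteIndex_of_isOpen (SG_open V0 hV)
  haveI : Finite (GQ ⧸ V0) := Subgroup.finite_quotient_of_finiteIndex
  have hlev : ∀ {W : Type} [AddCommGroup W] [Module (ZMod p) W] (ρ : Representation (ZMod p) (GQ ⧸ V0) W),
      HasLevel (SG S) (idG GQ) ((ρ.comp (QuotientGroup.mk' V0) : GQ →* Module.End (ZMod p) W) :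
        Representation (ZMod p) GQ W) := fun {W} _ _ ρ => ⟨V0, hV, fun g hg m => by
    have h1 : (g : GQ ⧸ V0) = 1 := (QuotientGroup.eq_one_iff g).2 hg
    change ρ (g : GQ ⧸ V0) m = m
    rw [h1, map_one]; rfl⟩
  have key := artinVanish p (GQ ⧸ V0) (fun W _ _ ρ => FE S ((ρ.comp (QuotientGroup.mk' V0) :
      GQ →* Module.End (ZMod p) W) : Representation (ZMod p) GQ W)) ?_ ?_ V (QuotientGroup.lift V0 r hr)
  · have h1 : ((QuotientGroup.lift V0 r hr).comp (QuotientGroup.mk' V0) : GQ →* Module.End (ZMod p) V) = r := by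
      ext g; rfl
    beta_reduce at key
    rw [h1] at key
    exact key
  · intro A B C _ _ _ _ _ _ _ _ _ ρA ρB ρC i j hi hj hinj hsurj hex
    exact FE_add _ _ _ i j (fun g x => hi g x) (fun g x => hj g x) hinj hsurj hex (hlev ρA) (hlev ρB)
      (hlev ρC) hp2 hpS
  · intro C hC hpC W _ _ _ τ
    obtain ⟨g, n, hD⟩ := exists_cycD hV hμ hs hP hp2 hpS hN C hC hpC
    have h1 := FE_cyc hD hs hP hp2 hpS (infl hN C τ) (fun v hv m => infl_triv hN C τ v hv _ m)
    rw [← h1]
    exact FE_congr _ _ (coindEquiv hN C τ) fun g x => coindEquiv_equiv hN C τ g x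

end Fermat.Agent.CFT
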