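import Fermat.Agent.CFT.UrDeg

/-!
# Unramified cocycles are orthogonal to each other
-/

set_option autoImplicit false
set_option linter.unusedSectionVars false
set_option linter.unusedVariables false
set_option linter.style.haveILetI false

noncomputable section

namespace Fermat.Agent.CFT.UrE

open Module Fermat.Agent.Places Fermat.Agent.Sel Fermat.Agent.GalRep

section Sums

variable {p : ℕ} [Fact p.Prime] {V : Type} [AddCommGroup V] [Module (ZMod p) V]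

/-- partial sums of the geometric series -/
def sS (T : Module.End (ZMod p) V) (ξ : V) (i : ℕ) : V := ∑ j ∈ Finset.range i, (T ^ j) ξ

theorem sS_succ (T : Module.End (ZMod p) V) (ξ : V) (i : ℕ) :
    sS T ξ (i + 1) = sS T ξ i + (T ^ i) ξ := Finset.sum_range_succ _ _

theorem sS_add (T : Module.End (ZMod p) V) (ξ : V) (i l : ℕ) :
    sS T ξ (i + l) = sS T ξ i + (T ^ i) (sS T ξ l) := by
  rw [sS, Finset.sum_range_add, sS, sS, map_sum]
  congr 1
  refine Finset.sum_congr rfl fun j _ => ?_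
  rw [pow_add]
  rfl

theorem sS_mul {T : Module.End (ZMod p) V} {n : ℕ} (hT : T ^ n = 1) (ξ : V) (k : ℕ) :
    sS T ξ (n * k) = k • sS T ξ n := by
  induction k with
  | zero => simp [sS]
  | succ k ih =>
    rw [mul_add, mul_one, sS_add, ih, pow_mul, hT, one_pow, succ_nsmul]
    rfl

theorem sS_zero {T : Module.End (ZMod p) V} {n : ℕ} (hT : T ^ n = 1) (ξ : V) (k : ℕ) :
    sS T ξ (n * p * k) = 0 := by
  have h1 : T ^ (n * p) = 1 := by rw [pow_mul, hT, one_pow]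
  rw [sS_mul h1, sS_mul hT]
  have h2 : p • sS T ξ n = 0 := by
    rw [← Nat.cast_smul_eq_nsmul (ZMod p), CharP.cast_eq_zero, zero_smul]
  rw [h2, smul_zero]

theorem exists_period [FiniteDimensional (ZMod p) V] (r : GQ →* Module.End (ZMod p) V) :
    ∃ n : ℕ, n ≠ 0 ∧ ∀ g, (r g) ^ n = 1 := by
  haveI : Finite (Module.End (ZMod p) V) := Module.finite_of_finite (ZMod p)
  refine ⟨Nat.card (Module.End (ZMod p) V)ˣ, Nat.card_pos.ne', fun g => ?_⟩
  have h1 : (r.toHomUnits g) ^ Nat.card (Module.End (ZMod p) V)ˣ = 1 := pow_card_eq_one'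
  have h2 := congrArg Units.val h1
  rwa [Units.val_pow_eq_pow_val, MonoidHom.coe_toHomUnits, Units.val_one] at h2

end Sums

section Ur

variable {p : ℕ} [Fact p.Prime] {V : Type} [AddCommGroup V] [Module (ZMod p) V]
  {r : GQ →* Module.End (ZMod p) V} {A : Pl}

theorem Ine.conj {g τ : GQ} (hg : g ∈ A.v.decompositionSubgroup ℚ) (hτ : τ ∈ A.v.inertiaSubgroupIn ℚ) :
    g⁻¹ * τ * g ∈ A.v.inertiaSubgroupIn ℚ := by
  rw [← dec_eq] at hg
  refine mem_Ine.2 ⟨mul_mem (mul_mem (inv_mem hg) (mem_Ine.1 hτ).1) hg, fun x hx => ?_⟩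
  have h1 := (mem_Ine.1 hτ).2 (g x) (Dec.map_mem hg hx)
  have h2 := Dec.nonunits (inv_mem hg) h1
  have h3 : (g⁻¹ * τ * g : GQ) x - x = g⁻¹ (τ (g x) - g x) := by
    rw [map_sub]
    congr 1
    exact (g.symm_apply_apply x).symm
  rw [h3]
  exact h2

theorem ur_inv {c : A.v.decompositionSubgroup ℚ → V} (hc : c ∈ urZ r A.v)
    {τ : A.v.decompositionSubgroup ℚ} (hτ : (τ : GQ) ∈ A.v.inertiaSubgroupIn ℚ)
    (g : A.v.decompositionSubgroup ℚ) : r τ (c g) = c g := by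
  have h1 := hc.1.1 τ g
  have h2 := hc.1.1 g (g⁻¹ * τ * g)
  rw [hc.2 τ hτ, zero_add] at h1
  rw [hc.2 (g⁻¹ * τ * g) (Ine.conj g.2 hτ), map_zero, add_zero] at h2
  rw [← h1, ← h2]
  congr 1
  group

theorem ur_pow {c : A.v.decompositionSubgroup ℚ → V} (hc : c ∈ Z1 r (A.v.decompositionSubgroup ℚ))
    (Φ : A.v.decompositionSubgroup ℚ) (i : ℕ) : c (Φ ^ i) = sS (r Φ) (c Φ) i := by
  induction i with
  | zero =>
    have h1 := hc.1 1 1
    rw [mul_one, Subgroup.coe_one, map_one] at h1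
    have : c 1 = 0 := by simpa using h1
    rw [pow_zero, this]
    simp [sS]
  | succ i ih =>
    rw [pow_succ, hc.1, ih, sS_succ, Subgroup.coe_pow, map_pow]

theorem ur_eq {c : A.v.decompositionSubgroup ℚ → V} (hc : c ∈ urZ r A.v)
    {F : IntermediateField ℚ Qb} (hF : ∀ g : A.v.decompositionSubgroup ℚ, (∀ x ∈ F, (g : GQ) x = x) → c g = 0)
    {Φ g : A.v.decompositionSubgroup ℚ} {i : ℕ} {τ : GQ} (hτ : τ ∈ A.v.inertiaSubgroupIn ℚ)
    (h : ∀ x ∈ F, (g : GQ) x = ((Φ : GQ) ^ i : GQ) (τ x)) : c g = sS (r Φ) (c Φ) i := by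
  have hτD : τ ∈ A.v.decompositionSubgroup ℚ := by rw [← dec_eq]; exact (mem_Ine.1 hτ).1
  rw [← ur_pow hc.1]
  have h1 : g = Φ ^ i * ⟨τ, hτD⟩ * ((Φ ^ i * ⟨τ, hτD⟩)⁻¹ * g) := by group
  rw [h1, hc.1.1, hF ((Φ ^ i * ⟨τ, hτD⟩)⁻¹ * g), map_zero, add_zero, hc.1.1, hc.2 ⟨τ, hτD⟩ hτ,
    map_zero, add_zero]
  exact inv_mul_fix h

end Ur

theorem urOrth (p : ℕ) [Fact p.Prime] : UrOrth p := by
  intro V V' _ _ _ _ _ _ r r' B hlev hB v A' hv hvp hA' c hc c' hc'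
  let A : Pl := ⟨A', v, hv, hA'⟩
  have hell : A.ell = v := A.ell_unique hv hA'
  obtain ⟨F0, hF0, hr0⟩ := hlev
  obtain ⟨F1, hF1, hc1⟩ := hc.1.2
  obtain ⟨F2, hF2, hc2⟩ := hc'.1.2
  obtain ⟨F3, hF3, hχ3⟩ := exists_level_cyc p
  obtain ⟨Φ, hΦ⟩ := exists_isFr A
  have hΦD : Φ ∈ A'.decompositionSubgroup ℚ := by
    have := hΦ.1
    rwa [dec_eq] at this
  let Φ' : A'.decompositionSubgroup ℚ := ⟨Φ, hΦD⟩
  obtain ⟨n1, hn1, hn1'⟩ := exists_period r
  obtain ⟨n2, hn2, hn2'⟩ := exists_period r'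
  obtain ⟨n3, hn3, hn3'⟩ : ∃ n : ℕ, n ≠ 0 ∧ (cyc p Φ) ^ n = 1 := by
    refine ⟨Nat.card (ZMod p)ˣ, Nat.card_pos.ne', ?_⟩
    have h1 : ((cyc p).toHomUnits Φ) ^ Nat.card (ZMod p)ˣ = 1 := pow_card_eq_one'
    have h2 := congrArg Units.val h1
    rwa [Units.val_pow_eq_pow_val, MonoidHom.coe_toHomUnits, Units.val_one] at h2
  have hp0 : p ≠ 0 := (Fact.out : p.Prime).ne_zero
  set n := n1 * n2 * n3 with hn
  have hn0 : n ≠ 0 := mul_ne_zero (mul_ne_zero hn1 hn2) hn3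
  have hT : (r Φ) ^ n = 1 := by rw [hn, mul_assoc, pow_mul, hn1', one_pow]
  have hT' : (r' Φ) ^ n = 1 := by
    rw [hn, mul_comm n1, mul_assoc, pow_mul, hn2', one_pow]
  have hχ : (cyc p Φ) ^ n = 1 := by rw [hn, mul_comm, pow_mul, hn3', one_pow]
  set ξ := c Φ' with hξ
  set ξ' := c' Φ' with hξ'
  let H : ℕ → ZMod p := fun i => -∑ j ∈ Finset.range i, B (sS (r Φ) ξ j) ((r' Φ ^ j) ξ')
  have hBp : ∀ (i : ℕ) (x : V) (y : V'), B ((r Φ ^ i) x) ((r' Φ ^ i) y) = cyc p Φ ^ i * B x y := by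
    intro i x y
    rw [← map_pow, ← map_pow, hB, map_pow]
  have hH : ∀ i l : ℕ, H (i + l) = H i + cyc p Φ ^ i * H l -
      B (sS (r Φ) ξ i) ((r' Φ ^ i) (sS (r' Φ) ξ' l)) := by
    intro i l
    simp only [H]
    rw [Finset.sum_range_add, neg_add, mul_neg, Finset.mul_sum]
    have h1 : ∀ j ∈ Finset.range l, B (sS (r Φ) ξ (i + j)) ((r' Φ ^ (i + j)) ξ') =
        B (sS (r Φ) ξ i) ((r' Φ ^ i) ((r' Φ ^ j) ξ')) +
        cyc p Φ ^ i * B (sS (r Φ) ξ j) ((r' Φ ^ j) ξ') := by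
      intro j _
      rw [sS_add, map_add, LinearMap.add_apply, pow_add]
      rw [← hBp i]
      rfl
    rw [Finset.sum_congr rfl h1, Finset.sum_add_distrib]
    have h2 : ∑ j ∈ Finset.range l, B (sS (r Φ) ξ i) ((r' Φ ^ i) ((r' Φ ^ j) ξ')) =
        B (sS (r Φ) ξ i) ((r' Φ ^ i) (sS (r' Φ) ξ' l)) := by
      rw [← map_sum, ← map_sum]
      rfl
    rw [h2]
    ring
  have hH0 : ∀ i, H (i + n * p * p) = H i := by
    intro i
    have h1 : ∀ k l : ℕ, H (n * p * k + l) = H (n * p * k) + H l := by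
      intro k l
      rw [hH, sS_zero hT, map_zero, LinearMap.zero_apply, sub_zero, mul_assoc n, pow_mul, hχ, one_pow,
        one_mul]
    have h3 : ∀ k : ℕ, H (n * p * k) = k • H (n * p) := by
      intro k
      induction k with
      | zero => simp [H]
      | succ k ih => rw [mul_add, mul_one, h1, ih, succ_nsmul]
    rw [hH, sS_zero hT', map_zero, map_zero, sub_zero, h3]
    have h4 : p • H (n * p) = 0 := by
      rw [← Nat.cast_smul_eq_nsmul (ZMod p), CharP.cast_eq_zero, zero_smul]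
    rw [h4, mul_zero, add_zero]
  have hm : n * p * p ≠ 0 := mul_ne_zero (mul_ne_zero hn0 hp0) hp0
  haveI : NeZero (n * p * p) := ⟨hm⟩
  obtain ⟨deg, hdadd, ⟨F4, hF4, hdF⟩, hdI, hdΦ, hdeg⟩ := exists_urdeg hΦ hm
  have hval : ∀ i : ℕ, H ((i : ZMod (n * p * p)).val) = H i := by
    intro i
    rw [ZMod.val_natCast]
    exact Function.Periodic.map_mod_nat hH0 i
  refine ⟨fun g => H (deg g).val, ⟨F4, hF4, fun g hg => ?_⟩, fun σ τ => ?_⟩
  · change H (deg g).val = 0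
    rw [hdF g hg, ZMod.val_zero]
    simp [H]
  · let E : IntermediateField ℚ Qb := F0 ⊔ F1 ⊔ F2 ⊔ F3
    have hE0 : F0 ≤ E := le_sup_left.trans (le_sup_left.trans le_sup_left)
    have hE1 : F1 ≤ E := le_sup_right.trans (le_sup_left.trans le_sup_left)
    have hE2 : F2 ≤ E := le_sup_right.trans le_sup_left
    have hE3 : F3 ≤ E := le_sup_right
    obtain ⟨i, τ1, hτ1, h1, hi⟩ := hdeg E (by infer_instance) σ
    obtain ⟨l, τ2, hτ2, h2, hl⟩ := hdeg E (by infer_instance) τ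
    have hστ : deg (σ * τ) = ((i + l : ℕ) : ZMod (n * p * p)) := by
      rw [hdadd, hi, hl, Nat.cast_add]
    change _ = H (deg σ).val + cyc p σ * H (deg τ).val - H (deg (σ * τ)).val
    rw [hi, hl, hστ, hval, hval, hval, hH]
    have hcσ : c σ = sS (r Φ) ξ i :=
      ur_eq (A := A) hc hc1 (Φ := Φ') hτ1 fun x hx => h1 x (hE1 hx)
    have hcτ : c' τ = sS (r' Φ) ξ' l :=
      ur_eq (A := A) hc' hc2 (Φ := Φ') hτ2 fun x hx => h2 x (hE2 hx)
    have hτ1D : τ1 ∈ A'.decompositionSubgroup ℚ := by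
      have := (mem_Ine (A := A)).1 hτ1
      have h3 := this.1
      rwa [dec_eq] at h3
    have hr : r' σ = (r' Φ) ^ i * r' τ1 := by
      have h3 : (σ : GQ) = Φ ^ i * τ1 * ((Φ ^ i * τ1)⁻¹ * σ) := by group
      rw [h3, map_mul, (hr0 _ (inv_mul_fix fun x hx => h1 x (hE0 hx))).2, mul_one, map_mul, map_pow]
    have hχσ : cyc p σ = (cyc p Φ) ^ i := by
      have h3 : (σ : GQ) = Φ ^ i * τ1 * ((Φ ^ i * τ1)⁻¹ * σ) := by group
      rw [h3, map_mul, hχ3 _ (inv_mul_fix fun x hx => h1 x (hE3 hx)), mul_one, map_mul, map_pow,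
        cyc_inertia ((Nat.coprime_primes hv (Fact.out : p.Prime)).2 hvp) hA' hτ1, mul_one]
    have hinv : r' τ1 (c' τ) = c' τ := ur_inv (A := A) hc' (τ := ⟨τ1, hτ1D⟩) hτ1 τ
    rw [hr, Module.End.mul_apply, hinv, hcσ, hcτ, hχσ]
    ring

end Fermat.Agent.CFT.UrE
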