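import Fermat.Agent.CFT.GW21
import Fermat.Agent.CFT.NeedD
import Fermat.Agent.CFT.NeedE

/-!
# Local Euler characteristic away from `p`: the inequality
-/

set_option autoImplicit false
set_option linter.unusedSectionVars false
set_option linter.unusedVariables false
set_option linter.unusedTactic false
set_option linter.style.haveILetI false

noncomputable section

namespace Fermat.Agent.CFT

open Module Fermat.Agent.Sel Fermat.Agent.CFT.UrE
open scoped Pointwise

variable {p : ℕ} [hp : Fact p.Prime] {V V' : Type} [AddCommGroup V] [Module (ZMod p) V]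
  [AddCommGroup V'] [Module (ZMod p) V'] {S : Finset ℕ}
  {r : GQ →* Module.End (ZMod p) V} {r' : GQ →* Module.End (ZMod p) V'}
  {B : V →ₗ[ZMod p] V' →ₗ[ZMod p] ZMod p}

variable [FiniteDimensional (ZMod p) V] [FiniteDimensional (ZMod p) V']
  (hp2 : p ≠ 2) (hD : DualReps p S r r' B) (A : S → ValuationSubring Qb)
  (hA : ∀ v, (A v).LiesOverPrime (v : ℕ))

include hp2 hD hA

theorem lam_sum (L : ∀ v : S, Submodule (ZMod p) ((A v).decompositionSubgroup ℚ → V))
    (hB : ∀ v, B1 r _ ≤ L v) (hZ : ∀ v, L v ≤ Z1 r _) :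
    ∑ v, finrank (ZMod p) (L v) + ∑ v, finrank (ZMod p) (Perp r' B (GalRep.cyc p) _ (L v)) =
      (CP S r).h 1 + ∑ v, finrank (ZMod p) (B1 r ((A v).decompositionSubgroup ℚ)) +
      ∑ v, finrank (ZMod p) (B1 r' ((A v).decompositionSubgroup ℚ)) := by
  let D := qData (S := S) hp2 hD.mem
  haveI f3 := (clsQ D).finL (ρ := (r : Representation _ GQ V)) (DualReps.lev hD) 1 (by norm_num)
  haveI f4 := (clsQ D).finL (ρ := (r' : Representation _ GQ V')) (DualReps.lev' hD) 1 (by norm_num)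
  have h1 := lam_finrank hp2 hD A hA L hB hZ
  have h2 := finrank_LamS (r : Representation _ GQ V) (HasLevel.toSL (DualReps.lev hD))
    (places_aA A hA hD.prime) hB hZ
  have h3 := finrank_LamS (r' : Representation _ GQ V') (HasLevel.toSL (DualReps.lev' hD))
    (places_aA A hA hD.prime) (fun v => B1_le_Perp hD _ (hZ v)) (fun v => by
      intro c hc; exact hc.1)
  have h2' : finrank (ZMod p) (LamS (r : Representation _ GQ V) (places_aA A hA hD.prime) L) +
    ∑ v, finrank (ZMod p) (B1 r ((A v).decompositionSubgroup ℚ)) = ∑ v, finrank (ZMod p) (L v) := h2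
  have h3' : finrank (ZMod p) (LamS (r' : Representation _ GQ V') (places_aA A hA hD.prime)
    (fun v => Perp r' B (GalRep.cyc p) _ (L v))) +
    ∑ v, finrank (ZMod p) (B1 r' ((A v).decompositionSubgroup ℚ)) =
    ∑ v, finrank (ZMod p) (Perp r' B (GalRep.cyc p) _ (L v)) := h3
  rw [← h2', ← h3', ← h1]
  ring

/-- the dimension formula at one place -/
theorem pp_one (v : S) (L : Submodule (ZMod p) ((A v).decompositionSubgroup ℚ → V))
    (hB : B1 r _ ≤ L) (hZ : L ≤ Z1 r _) :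
    finrank (ZMod p) L + finrank (ZMod p) (Perp r' B (GalRep.cyc p) _ L) =
      finrank (ZMod p) (Z1 r ((A v).decompositionSubgroup ℚ)) +
      finrank (ZMod p) (B1 r' ((A v).decompositionSubgroup ℚ)) := by
  classical
  have hZB : ∀ w, B1 r ((A w).decompositionSubgroup ℚ) ≤ Z1 r _ := fun w =>
    B1_le_Z1 (r : Representation _ GQ V) (HasLevel.toSL (DualReps.lev hD)) _
  let L1 : ∀ w : S, Submodule (ZMod p) ((A w).decompositionSubgroup ℚ → V) :=
    Function.update (fun w => Z1 r _) v L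
  have hL1 : L1 v = L := Function.update_self ..
  have hL2 : ∀ w, w ≠ v → L1 w = Z1 r _ := fun w hw => Function.update_of_ne hw _ _
  have e1 := lam_sum hp2 hD A hA L1 (fun w => by
    by_cases h : w = v
    · subst h; rw [hL1]; exact hB
    · rw [hL2 w h]; exact hZB w) (fun w => by
    by_cases h : w = v
    · subst h; rw [hL1]; exact hZ
    · rw [hL2 w h])
  have e2 := lam_sum hp2 hD A hA (fun w => Z1 r _) hZB (fun w => le_rfl)
  have e3 : Perp r' B (GalRep.cyc p) ((A v).decompositionSubgroup ℚ) (Z1 r _) = B1 r' _ :=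
    le_antisymm (perp_top hp2 hD v (hA v)) (B1_le_Perp hD _ le_rfl)
  rw [← Finset.add_sum_erase Finset.univ (fun w => finrank (ZMod p) (L1 w)) (Finset.mem_univ v),
    ← Finset.add_sum_erase Finset.univ (fun w => finrank (ZMod p)
      (Perp r' B (GalRep.cyc p) ((A w).decompositionSubgroup ℚ) (L1 w))) (Finset.mem_univ v), hL1] at e1
  rw [← Finset.add_sum_erase Finset.univ (fun w => finrank (ZMod p) (Z1 r ((A w).decompositionSubgroup ℚ)))
    (Finset.mem_univ v), ← Finset.add_sum_erase Finset.univ (fun w => finrank (ZMod p)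
      (Perp r' B (GalRep.cyc p) ((A w).decompositionSubgroup ℚ) (Z1 r _))) (Finset.mem_univ v), e3] at e2
  have e4 : ∑ w ∈ Finset.univ.erase v, finrank (ZMod p) (L1 w) =
      ∑ w ∈ Finset.univ.erase v, finrank (ZMod p) (Z1 r ((A w).decompositionSubgroup ℚ)) :=
    Finset.sum_congr rfl fun w hw => by rw [hL2 w (Finset.ne_of_mem_erase hw)]
  have e5 : ∑ w ∈ Finset.univ.erase v, finrank (ZMod p) (Perp r' B (GalRep.cyc p) _ (L1 w)) =
      ∑ w ∈ Finset.univ.erase v, finrank (ZMod p)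
        (Perp r' B (GalRep.cyc p) ((A w).decompositionSubgroup ℚ) (Z1 r _)) :=
    Finset.sum_congr rfl fun w hw => by rw [hL2 w (Finset.ne_of_mem_erase hw)]
  omega

omit hp2 hA [FiniteDimensional (ZMod p) V] [FiniteDimensional (ZMod p) V'] in
/-- coboundaries are orthogonal to everything -/
theorem cup0_B1 {D : Subgroup GQ} {c : D → V} (hc : c ∈ B1 r D) {c' : D → V'} (hc' : c' ∈ Z1 r' D) :
    Cup0 r' B (GalRep.cyc p) D c c' := by
  obtain ⟨ξ, rfl⟩ := hc
  obtain ⟨F, hF, h1⟩ := hc'.2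
  refine ⟨fun σ => B ξ (c' σ), ⟨F, hF, fun σ hσ => ?_⟩, fun σ τ => ?_⟩
  · beta_reduce
    rw [h1 σ hσ, map_zero]
  · change B (r σ ξ - ξ) (r' σ (c' τ)) = B ξ (c' σ) + GalRep.cyc p σ * B ξ (c' τ) - B ξ (c' (σ * τ))
    rw [hc'.1 σ τ, map_sub, LinearMap.sub_apply, hD.eq, map_add]
    ring

omit hA in
/-- the inequality -/
theorem locDim_ge (v : S) (hvp : (v : ℕ) ≠ p) {A0 : ValuationSubring Qb} (hA0 : A0.LiesOverPrime (v : ℕ)) :
    finrank (ZMod p) V + finrank (ZMod p) (H0 r' (A0.decompositionSubgroup ℚ)) ≤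
      finrank (ZMod p) (Z1 r (A0.decompositionSubgroup ℚ)) := by
  obtain ⟨A, hA, rfl⟩ := exists_places hD.prime v hA0
  have hZB : B1 r ((A v).decompositionSubgroup ℚ) ≤ Z1 r _ :=
    B1_le_Z1 (r : Representation _ GQ V) (HasLevel.toSL (DualReps.lev hD)) _
  have hZB' : B1 r' ((A v).decompositionSubgroup ℚ) ≤ Z1 r' _ :=
    B1_le_Z1 (r' : Representation _ GQ V') (HasLevel.toSL (DualReps.lev' hD)) _
  obtain ⟨F, hF, hlc⟩ := hD.lc
  have u1 := urDim p V r ⟨F, hF, fun σ hσ => (hlc σ hσ).1⟩ v (A v) (hD.prime v v.2) (hA v)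
  have u2 := urDim p V' r' ⟨F, hF, fun σ hσ => (hlc σ hσ).2⟩ v (A v) (hD.prime v v.2) (hA v)
  have huZ : urZ r (A v) ≤ Z1 r _ := fun c hc => hc.1
  have huZ' : urZ r' (A v) ≤ Z1 r' _ := fun c hc => hc.1
  have h1 := pp_one hp2 hD A hA v (urZ r (A v) ⊔ B1 r _) le_sup_right (sup_le huZ hZB)
  have h2 : urZ r' (A v) ⊔ B1 r' _ ≤ Perp r' B (GalRep.cyc p) _ (urZ r (A v) ⊔ B1 r _) := by
    refine sup_le (fun c' hc' => ⟨huZ' hc', fun c hc => ?_⟩) (B1_le_Perp hD _ (sup_le huZ hZB))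
    obtain ⟨c1, hc1, c2, hc2, rfl⟩ := Submodule.mem_sup.1 hc
    obtain ⟨f, hf, h3⟩ := urOrth p V V' r r' B hD.lc hD.eq v (A v) (hD.prime v v.2) hvp (hA v) c1 hc1 c' hc'
    obtain ⟨f', hf', h4⟩ := cup0_B1 hD hc2 (huZ' hc')
    refine ⟨f + f', hf.add hf', fun σ τ => ?_⟩
    rw [Pi.add_apply, map_add, LinearMap.add_apply, h3, h4, Pi.add_apply, Pi.add_apply, Pi.add_apply]
    ring
  let D := qData (S := S) hp2 hD.mem
  haveI f4 := (clsQ D).finL (ρ := (r' : Representation _ GQ V')) (DualReps.lev' hD) 1 (by norm_num)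
  haveI := finite_Z1 (r' : Representation _ GQ V') (HasLevel.toSL (DualReps.lev' hD)) (places_aA A hA hD.prime) v
  haveI : Module.Finite (ZMod p) (Perp r' B (GalRep.cyc p) ((A v).decompositionSubgroup ℚ)
      (urZ r (A v) ⊔ B1 r _)) :=
    Submodule.finiteDimensional_of_le (S₂ := Z1 r' _) (fun c hc => hc.1)
  have h3 : finrank (ZMod p) V' ≤ finrank (ZMod p) (Perp r' B (GalRep.cyc p)
      ((A v).decompositionSubgroup ℚ) (urZ r (A v) ⊔ B1 r _)) := by
    rw [← u2.2]; exact Submodule.finrank_mono h2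
  have h1' : finrank (ZMod p) V + finrank (ZMod p) (Perp r' B (GalRep.cyc p)
      ((A v).decompositionSubgroup ℚ) (urZ r (A v) ⊔ B1 r _)) =
      finrank (ZMod p) (Z1 r ((A v).decompositionSubgroup ℚ)) +
      finrank (ZMod p) (B1 r' ((A v).decompositionSubgroup ℚ)) := by
    rw [← u1.2]; exact h1
  have h4 : finrank (ZMod p) (B1 r' ((A v).decompositionSubgroup ℚ)) +
      finrank (ZMod p) (H0 r' ((A v).decompositionSubgroup ℚ)) = finrank (ZMod p) V' :=
    finrank_B1 (r' : Representation _ GQ V') _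
  omega

end Fermat.Agent.CFT
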