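import Fermat.Agent.CFT.GW22

/-!
# Local Euler characteristic away from `p`
-/

set_option autoImplicit false
set_option linter.unusedSectionVars false
set_option linter.unusedVariables false
set_option linter.unusedTactic false
set_option linter.style.haveILetI false

noncomputable section

namespace Fermat.Agent.CFT

open Module Fermat.Agent.Sel
open scoped Pointwise

variable {p : ℕ} [hp : Fact p.Prime]

/-- the defect of the local Euler characteristics -/
def EL (T : Finset ℕ) {W : Type} [AddCommGroup W] [Module (ZMod p) W]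
    (r : Representation (ZMod p) GQ W) : ℤ :=
  (CP T r).h 1 - (CP T r).h 0 - (CP T (dl (χQ p) r)).h 0

variable {S T : Finset ℕ}

section

variable {W : Type} [AddCommGroup W] [Module (ZMod p) W] [Module.Finite (ZMod p) W]
  (r : Representation (ZMod p) GQ W) (hr : HasLevel (SG S) (idG GQ) r) (hp2 : p ≠ 2) (hpS : p ∈ S)
  {K : Subgroup GQ} (hK : GoodK (χQ p) (SG S) r K)

include hK in
theorem GoodK.opn : IsOpen (K : Set GQ) := by
  obtain ⟨V, hV, hVK, -⟩ := hK.lv
  exact Subgroup.isOpen_mono (H₁ := V) hVK (SG_open V hV)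

include hp2 in
theorem goodK_data (T : Finset ℕ) (hK : GoodK (χQ p) (SG S) r K) :
    (CPK T K (r.comp K.subtype)).Fin2 ∧
    ((p ∉ T) → (CPK T K (r.comp K.subtype)).chi = 0) ∧
    (CPK T K (r.comp K.subtype)).h 2 = (CPK T K (dK K (χQ p) (r.comp K.subtype))).h 0 := by
  have hW := GoodK.opn r hK
  have hr' : ((idG GQ).comp K.subtype).range = K := range_idG K
  have hμ : MuF p ((idG GQ).comp K.subtype).range := by rw [hr']; exact muF_of hK.tr
  have hι : Function.Injective ((idG GQ).comp K.subtype) := Subtype.val_injective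
  obtain ⟨sS, hsS⟩ := exists_Reps (W := ((idG GQ).comp K.subtype).range) (by rw [hr']; exact hW) T
  let D := mkLoc (S := T) hp2 hι (by rw [hr']; exact hW) hμ hsS
  obtain ⟨U, hU, hρ⟩ := hK.po
  have hd : dK K (χQ p) (r.comp K.subtype) = dl (χ1 (ZMod p) K) (r.comp K.subtype) := by
    ext k f w
    change χQ p k (f _) = f _
    rw [hK.tr k k.2]
  have hρ' : TrivOn U (dl (χ1 (ZMod p) K) (r.comp K.subtype)) := trivOn_dl (r.comp K.subtype) hρ
  refine ⟨sl_fin2 D SG_SL hU (r.comp K.subtype) hρ, fun hpT => ?_, ?_⟩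
  · rw [sl_chi D SG_SL hU (r.comp K.subtype) hρ]
    have h0 : ∀ j : sS, D.nn j = 0 := fun j => by
      have h2 : (j : Pl).eps p = 0 := if_neg fun h => hpT (by
        have h3 : (j : Pl).ell ∈ T := hsS.ell_mem j.2
        rwa [h] at h3)
      change (((((idG GQ).comp K.subtype).comp (stb ((idG GQ).comp K.subtype)
        (⟨(j : Pl), hsS.ell_mem j.2⟩ : XS T)).subtype).range.relIndex (Dec (j : Pl)) * (j : Pl).eps p : ℕ) : ℤ) = 0
      rw [h2, mul_zero, Nat.cast_zero]
    have h1 : ∑ j, D.nn j = 0 := Finset.sum_eq_zero fun j _ => h0 j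
    rw [h1, neg_zero, zero_mul]
  · rw [sl_h2 D SG_SL hU (r.comp K.subtype) hρ, hd, sl_h0 D SG_SL hU _ hρ']
    refine Finset.sum_congr rfl fun j _ => ?_
    rw [← inv_dl_triv]
    rfl

include hp2 in
theorem fin_CP (T : Finset ℕ) (hK : GoodK (χQ p) (SG S) r K) : (CP T r).Fin2 := by
  obtain ⟨C, _, _, _, τ, hd, ⟨s⟩⟩ := hK.exists_compl
  intro n hn
  have h1 := (goodK_data r hp2 T hK).1 n hn
  haveI h2 : Module.Finite (ZMod p) ((cochCx SL (idG GQ) (ci K (r.comp K.subtype)) (XS T)).H n) :=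
    Module.Finite.equiv ((shapiro (S := SL) (ι := idG GQ) (X := XS T) K (r.comp K.subtype)).H n).symm
  haveI : Module.Finite (ZMod p) ((cochCx SL (idG GQ) r (XS T)).H n × (cochCx SL (idG GQ) τ (XS T)).H n) :=
    Module.Finite.equiv (s.Hn n)
  exact Module.Finite.of_surjective (LinearMap.fst (ZMod p) ((cochCx SL (idG GQ) r (XS T)).H n)
    ((cochCx SL (idG GQ) τ (XS T)).H n)) LinearMap.fst_surjective

end

section

variable {V V' : Type} [AddCommGroup V] [Module (ZMod p) V]
  [AddCommGroup V'] [Module (ZMod p) V'] [FiniteDimensional (ZMod p) V] [FiniteDimensional (ZMod p) V']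
  (r : Representation (ZMod p) GQ V) (r' : Representation (ZMod p) GQ V')
  (B : V →ₗ[ZMod p] V' →ₗ[ZMod p] ZMod p)
  (nd : ∀ x, (∀ y, B x y = 0) → x = 0) (nd' : ∀ y, (∀ x, B x y = 0) → y = 0)
  (heq : ∀ σ x y, B (r σ x) (r' σ y) = χQ p σ (B x y))

include heq nd nd' in
theorem h_dual_pair (T : Finset ℕ) (n : ℕ) : (CP T (dl (χQ p) r)).h n = (CP T r').h n :=
  ((cochIso (S := SL) (ι := idG GQ) (X := XS T) (eqB B.flip nd' nd)
    (eqB_equiv r' r B.flip nd' nd fun σ x y => heq σ y x)).h_eq n).symm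

end

section

variable {W : Type} [AddCommGroup W] [Module (ZMod p) W] [Module.Finite (ZMod p) W]
  (r : Representation (ZMod p) GQ W) (hr : HasLevel (SG S) (idG GQ) r) (hp2 : p ≠ 2) (hpS : p ∈ S)
  {K : Subgroup GQ} (hK : GoodK (χQ p) (SG S) r K)

set_option maxHeartbeats 1000000 in
theorem h0_dualK [K.FiniteIndex] (τ : Representation (ZMod p) K W) (T : Finset ℕ) :
    (CP T (dl (χQ p) (ci K τ))).h 0 = (CPK T K (dK K (χQ p) τ)).h 0 := by
  have h0 := h_dual_pair (V := CI K τ) (V' := CI K (dK K (χQ p) τ)) (ci K τ)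
    (ci K (dK K (χQ p) τ)) (ciB K (χQ p) τ) (ciB_nd K (χQ p) τ) (ciB_nd' K (χQ p) τ)
    (by
      intro σ x y
      have := ciB_equiv K (χQ p) τ σ x y
      rw [this]) T 0
  rw [h0, h0_shapiro (S := T) K (dK K (χQ p) τ)]

set_option maxHeartbeats 1000000 in
include hp2 hr in
theorem EL_K (hpT : p ∉ T) (hpS : p ∈ S) (hK : GoodK (χQ p) (SG S) r K) :
    EL T (ci K (r.comp K.subtype)) = 0 := by
  haveI := hK.fin
  have hlev : LevK S K (r.comp K.subtype) := by
    obtain ⟨V, hV, hVK, h, -⟩ := hK.lv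
    exact ⟨V, hV, fun g hg => ⟨hVK hg, fun a => h g hg a⟩⟩
  obtain ⟨f, h1, h2⟩ := goodK_data r hp2 T hK
  have h1 := h1 hpT
  have e1 : (CP T (ci K (r.comp K.subtype))).h 1 = (CPK T K (r.comp K.subtype)).h 1 :=
    (shapiro (S := SL) (ι := idG GQ) (X := XS T) K (r.comp K.subtype)).h_eq 1
  have e0 : (CP T (ci K (r.comp K.subtype))).h 0 = (CPK T K (r.comp K.subtype)).h 0 :=
    (shapiro (S := SL) (ι := idG GQ) (X := XS T) K (r.comp K.subtype)).h_eq 0
  have e2 := h0_dualK (r.comp K.subtype) T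
  rw [EL, e1, e0, e2, ← h2]
  simp only [Cx.chi] at h1
  omega

end

end Fermat.Agent.CFT
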