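import Fermat.Agent.CFT.GW23

/-!
# Local dimension formula away from `p`
-/

set_option autoImplicit false
set_option linter.unusedSectionVars false
set_option linter.unusedVariables false
set_option linter.unusedTactic false
set_option linter.style.haveILetI false

noncomputable section

namespace Fermat.Agent.CFT

open Module Fermat.Agent.Sel
open scoped Pointwise

variable {p : ℕ} [hp : Fact p.Prime] {S T : Finset ℕ}

theorem EL_spl {N M1 M2 : Type} [AddCommGroup N] [Module (ZMod p) N] [AddCommGroup M1] [Module (ZMod p) M1]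
    [AddCommGroup M2] [Module (ZMod p) M2] {ρ : Representation (ZMod p) GQ N}
    {ρ1 : Representation (ZMod p) GQ M1} {ρ2 : Representation (ZMod p) GQ M2} (s : Spl ρ ρ1 ρ2)
    (f1 : (CP T ρ1).Fin2) (f2 : (CP T ρ2).Fin2) (g1 : (CP T (dl (χQ p) ρ1)).Fin2)
    (g2 : (CP T (dl (χQ p) ρ2)).Fin2) : EL T ρ = EL T ρ1 + EL T ρ2 := by
  haveI := f1 1 (by norm_num); haveI := f1 0 (by norm_num); haveI := f2 1 (by norm_num)
  haveI := f2 0 (by norm_num); haveI := g1 0 (by norm_num); haveI := g2 0 (by norm_num)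
  have e1 : (CP T ρ).h 1 = (CP T ρ1).h 1 + (CP T ρ2).h 1 := s.h_add 1
  have e0 : (CP T ρ).h 0 = (CP T ρ1).h 0 + (CP T ρ2).h 0 := s.h_add 0
  have e2 : (CP T (dl (χQ p) ρ)).h 0 = (CP T (dl (χQ p) ρ1)).h 0 + (CP T (dl (χQ p) ρ2)).h 0 :=
    (s.dual (χQ p)).h_add 0
  rw [EL, EL, EL, e1, e0, e2]
  push_cast
  ring

theorem dual_of_lev {W : Type} [AddCommGroup W] [Module (ZMod p) W] [Module.Finite (ZMod p) W]
    (r : Representation (ZMod p) GQ W) (hr : HasLevel (SG S) (idG GQ) r) (hp2 : p ≠ 2) (hpS : p ∈ S)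
    (hpr : ∀ v ∈ S, v.Prime) :
    DualReps p S (r : GQ →* Module.End (ZMod p) W) (dl (χQ p) r : GQ →* Module.End (ZMod p) (W →ₗ[ZMod p] ZMod p))
      (evB (ZMod p) W) := by
  obtain ⟨V1, hV1, h1⟩ := hr
  obtain ⟨V2, hV2, h2⟩ := HasLevel.dual (qData (S := S) hp2 hpS).lev ⟨V1, hV1, h1⟩
  obtain ⟨V3, hV3, h31, h32⟩ := (SG S).directed V1 hV1 V2 hV2
  have key : ∀ σ ∈ V3, r σ = 1 ∧ dl (χQ p) r σ = 1 := fun σ hσ =>
    ⟨LinearMap.ext fun x => h1 σ (h31 hσ) x, LinearMap.ext fun x => h2 σ (h32 hσ) x⟩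
  refine ⟨hpr, hpS, ⟨IntermediateField.fixedField V3, finiteDimensional_KW (SG_open V3 hV3), fun σ hσ => ?_⟩,
    fun l hl hlS A hA σ hσ => ?_, evB_nd, evB_nd', fun σ x y => ?_⟩
  · refine key σ ?_
    rw [← fixing_fixed (Subgroup.isClosed_of_isOpen V3 (SG_open V3 hV3))]
    exact (IntermediateField.mem_fixingSubgroup_iff _ _).2 hσ
  · let P : Pl := ⟨A, l, hl, hA⟩
    have hP : P.ell = l := P.ell_unique hl hA
    exact key σ (hV3.2.2 P (by rw [hP]; exact hlS) hσ)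
  · rw [← χQ_eq_cyc]
    exact evB_eq (χQ p) r σ x y

section

variable {V V' : Type} [AddCommGroup V] [Module (ZMod p) V]
  [AddCommGroup V'] [Module (ZMod p) V'] [FiniteDimensional (ZMod p) V] [FiniteDimensional (ZMod p) V']
  {r : GQ →* Module.End (ZMod p) V} {r' : GQ →* Module.End (ZMod p) V'}
  {B : V →ₗ[ZMod p] V' →ₗ[ZMod p] ZMod p} (hp2 : p ≠ 2) (hD : DualReps p S r r' B)
  (v : S) {A0 : ValuationSubring Qb} (hA0 : A0.LiesOverPrime (v : ℕ))

include hp2 hD hA0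

theorem EL_eq : EL {(v : ℕ)} (r : Representation (ZMod p) GQ V) =
    (finrank (ZMod p) (Z1 r (A0.decompositionSubgroup ℚ)) : ℤ) - finrank (ZMod p) V -
      finrank (ZMod p) (H0 r' (A0.decompositionSubgroup ℚ)) := by
  have hpr : ∀ w ∈ ({(v : ℕ)} : Finset ℕ), w.Prime := fun w hw => by
    rw [Finset.mem_singleton.1 hw]; exact hD.prime v v.2
  let A : ({(v : ℕ)} : Finset ℕ) → ValuationSubring Qb := fun _ => A0
  have hA : ∀ w, (A w).LiesOverPrime (w : ℕ) := fun w => by rw [Finset.mem_singleton.1 w.2]; exact hA0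
  have hlev := DualReps.lev hD
  obtain ⟨K, hK⟩ := exists_goodK (qData (S := S) hp2 hD.mem).lev _ hlev
  haveI f1 := fin_CP (r : Representation _ GQ V) hp2 {(v : ℕ)} hK 1 (by norm_num)
  have hsum : ∀ f : ({(v : ℕ)} : Finset ℕ) → ℕ, ∑ w, f w = f ⟨v, Finset.mem_singleton_self _⟩ := fun f =>
    Finset.sum_eq_single_of_mem _ (Finset.mem_univ _) fun b _ hb =>
      absurd (Subtype.ext (Finset.mem_singleton.1 b.2)) hb
  have hZB : B1 r (A0.decompositionSubgroup ℚ) ≤ Z1 r _ :=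
    B1_le_Z1 (r : Representation _ GQ V) (HasLevel.toSL hlev) _
  have e1 := finrank_LamS (r : Representation _ GQ V) (HasLevel.toSL hlev) (places_aA A hA hpr)
    (L := fun w => Z1 r (A0.decompositionSubgroup ℚ)) (fun w => hZB) (fun w => le_rfl)
  have e2 : LamS (r : Representation _ GQ V) (places_aA A hA hpr)
      (fun w => Z1 r (A0.decompositionSubgroup ℚ)) = ⊤ := by
    rw [eq_top_iff]
    intro z _
    obtain ⟨F, hF, rfl⟩ := Cx.exists_cl _ z
    exact (mem_LamS (r : Representation _ GQ V) (places_aA A hA hpr) (fun w => hZB) hF).2 fun w =>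
      (evL (r : Representation _ GQ V) (aA A hA hpr) w ⟨F, hF⟩).2
  rw [e2, finrank_top, hsum, hsum] at e1
  have e3 : (CP {(v : ℕ)} r).h 1 + finrank (ZMod p) (B1 r (A0.decompositionSubgroup ℚ)) =
    finrank (ZMod p) (Z1 r (A0.decompositionSubgroup ℚ)) := e1
  have e4 : finrank (ZMod p) (B1 r (A0.decompositionSubgroup ℚ)) +
      finrank (ZMod p) (H0 r (A0.decompositionSubgroup ℚ)) = finrank (ZMod p) V :=
    finrank_B1 (r : Representation _ GQ V) _
  have h00 : ∀ {W : Type} [AddCommGroup W] [Module (ZMod p) W] [Module.Finite (ZMod p) W]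
      (ρ : GQ →* Module.End (ZMod p) W), (CP {(v : ℕ)} ρ).h 0 =
      finrank (ZMod p) (H0 ρ (A0.decompositionSubgroup ℚ)) := fun {W} _ _ _ ρ => by
    have h1 := h0_loc' (ρ : Representation _ GQ W) (places_aA A hA hpr)
    rw [hsum] at h1
    exact h1
  have e5 := h_dual_pair (r : Representation _ GQ V) (r' : Representation _ GQ V') B hD.nd hD.nd'
    (DualReps.eqχ hD) {(v : ℕ)} 0
  have e6 : (CP {(v : ℕ)} (dl (χQ p) (r : Representation _ GQ V))).h 0 =
      finrank (ZMod p) (H0 r' (A0.decompositionSubgroup ℚ)) := e5.trans (h00 r')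
  have e7 := h00 r
  rw [EL, e6]
  change (((CP {(v : ℕ)} r).h 1 : ℕ) : ℤ) - (CP {(v : ℕ)} r).h 0 - _ = _
  rw [e7]
  omega

theorem EL_nonneg (hvp : (v : ℕ) ≠ p) : 0 ≤ EL {(v : ℕ)} (r : Representation (ZMod p) GQ V) := by
  rw [EL_eq hp2 hD v hA0]
  have := locDim_ge hp2 hD v hvp hA0
  omega

theorem EL_zero (hvp : (v : ℕ) ≠ p) : EL {(v : ℕ)} (r : Representation (ZMod p) GQ V) = 0 := by
  have D := qData (S := S) hp2 hD.mem
  have hlev := DualReps.lev hD
  have hpv : p ∉ ({(v : ℕ)} : Finset ℕ) := fun h => hvp (Finset.mem_singleton.1 h).symm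
  obtain ⟨K, hK⟩ := exists_goodK D.lev (r : Representation _ GQ V) hlev
  obtain ⟨C, _, _, _, τ, hd, ⟨s⟩⟩ := hK.exists_compl
  have hlevC : HasLevel (SG S) (idG GQ) τ := by
    obtain ⟨V1, hV1, -, h, -⟩ := hd.lv
    exact ⟨V1, hV1, fun g hg => h g hg⟩
  obtain ⟨K2, hK2⟩ := exists_goodK D.lev _ (HasLevel.dual D.lev hlev)
  obtain ⟨K3, hK3⟩ := exists_goodK D.lev _ (HasLevel.dual D.lev hlevC)
  have h1 := EL_spl (T := {(v : ℕ)}) s (fin_CP _ hp2 _ hK) (fin_CP _ hp2 _ hd) (fin_CP _ hp2 _ hK2)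
    (fin_CP _ hp2 _ hK3)
  have h2 := EL_K (T := {(v : ℕ)}) (r : Representation _ GQ V) hlev hp2 hpv hD.mem hK
  have h3 := EL_nonneg hp2 hD v hA0 hvp
  have h4 := EL_nonneg hp2 (dual_of_lev τ hlevC hp2 hD.mem hD.prime) v hA0 hvp
  have h5 : 0 ≤ EL {(v : ℕ)} τ := h4
  rw [h2] at h1
  omega

theorem locDim_mem (hvp : (v : ℕ) ≠ p) : finrank (ZMod p) (Z1 r (A0.decompositionSubgroup ℚ)) =
    finrank (ZMod p) V + finrank (ZMod p) (H0 r' (A0.decompositionSubgroup ℚ)) := by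
  have h1 := EL_zero hp2 hD v hA0 hvp
  rw [EL_eq hp2 hD v hA0] at h1
  omega

end

/-- **The local Euler characteristic away from `p`.** -/
theorem locDim (hp2 : p ≠ 2) : LocDim p := by
  intro V V' _ _ _ _ _ _ S r r' B hD v A hv hvp hA
  exact locDim_mem hp2 (DualReps.insert hD hv) ⟨v, Finset.mem_insert_self v S⟩ hA hvp

end Fermat.Agent.CFT
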