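import Fermat.Agent.CFT.GW25

/-!
# The local Euler characteristic at `p`
-/

set_option autoImplicit false
set_option linter.unusedSectionVars false
set_option linter.unusedVariables false
set_option linter.unusedTactic false
set_option linter.style.haveILetI false

noncomputable section

namespace Fermat.Agent.CFT

open Module Fermat.Agent.Sel
open scoped Pointwise

variable {p : ℕ} [hp : Fact p.Prime] {S T : Finset ℕ}

section

variable {V V' : Type} [AddCommGroup V] [Module (ZMod p) V]
  [AddCommGroup V'] [Module (ZMod p) V'] [FiniteDimensional (ZMod p) V] [FiniteDimensional (ZMod p) V']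
  {r : GQ →* Module.End (ZMod p) V} {r' : GQ →* Module.End (ZMod p) V'}
  {B : V →ₗ[ZMod p] V' →ₗ[ZMod p] ZMod p} (hp2 : p ≠ 2) (hD : DualReps p S r r' B)

/-- a large set of primes, good for both representations -/
theorem exists_large_S2 (hp2 : p ≠ 2) (hD : DualReps p S r r' B) :
    ∃ T : Finset ℕ, S ⊆ T ∧ (∀ v ∈ T, v.Prime) ∧ FE T (r : Representation (ZMod p) GQ V) = 0 ∧
      FE T (r' : Representation (ZMod p) GQ V') = 0 := by
  classical
  obtain ⟨V1, hV1, h1⟩ := DualReps.lev hD
  obtain ⟨V2, hV2, h2⟩ := DualReps.lev' hD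
  obtain ⟨V3, hV3, h31, h32⟩ := (SG S).directed V1 hV1 V2 hV2
  obtain ⟨V0, hV0, h01, h02⟩ := (SG S).directed V3 hV3 _ (Fz_mem (p := p) (S := S) hD.mem 1)
  haveI := numberField_KW (SG_open V0 hV0)
  obtain ⟨T0, hT0⟩ := exists_PID (SG_open V0 hV0)
  let T : Finset ℕ := S ∪ T0.filter Nat.Prime
  have hST : S ⊆ T := Finset.subset_union_left
  obtain ⟨s, hs1, hs2⟩ := exists_reps (SG_open V0 hV0) T
  have hs : Reps V0 T s := ⟨hs1, hs2⟩
  have hV0T : V0 ∈ (SG T).carrier := ⟨hV0.1, hV0.2.1, fun A hA => hV0.2.2 A fun h => hA (hST h)⟩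
  have hPID := hT0 _ fun A hA => hs.mem_OB.2
      (Finset.mem_union_right _ (Finset.mem_filter.2 ⟨hA, A.ell_prime⟩))
  refine ⟨T, hST, fun v hv => ?_, ?_, ?_⟩
  · rcases Finset.mem_union.1 hv with h | h
    · exact hD.prime v h
    · exact (Finset.mem_filter.1 h).2
  · exact FE_zero hV0T (muF_Fz.mono h02) hs hPID hp2 (hST hD.mem) _ fun v hv =>
      LinearMap.ext fun x => h1 v (h31 (h01 hv)) x
  · exact FE_zero hV0T (muF_Fz.mono h02) hs hPID hp2 (hST hD.mem) _ fun v hv =>
      LinearMap.ext fun x => h2 v (h32 (h01 hv)) x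

omit [FiniteDimensional (ZMod p) V] [FiniteDimensional (ZMod p) V'] hp in
theorem ar_aux {i i' h h' s s' c c' q q' P a a' d Zp H : ℕ} {b : ℤ}
    (k1 : (i' : ℤ) - h' + s + c - i + a = 0) (k2 : (i : ℤ) - h + s' + c' - i' + a' = 0)
    (k3 : q + q' = P) (k4 : h' = q' + s') (k5 : h = q + s) (k6 : a + a' = d)
    (e : ((P : ℤ) + b) - (b + c) - c' = Zp - d - H) : Zp = 2 * d + H := by
  omega

include hp2 in
theorem Hc_sum (hD : DualReps p S r r' B) :
    finrank (ZMod p) (Hc r) + finrank (ZMod p) (Hc r') = finrank (ZMod p) V := by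
  have hV : finrank (ZMod p) V = finrank (ZMod p) V' := pair_finrank B hD.nd hD.nd'
  have h2 : (2 : ZMod p) ≠ 0 := by
    intro h
    have h3 : ((2 : ℕ) : ZMod p) = 0 := by exact_mod_cast h
    rw [ZMod.natCast_eq_zero_iff] at h3
    exact hp2 ((Nat.prime_dvd_prime_iff_eq hp.out Nat.prime_two).1 h3)
  have hneg : ∀ a : ZMod p, a = -a → a = 0 := fun a ha => by
    have : (2 : ZMod p) * a = 0 := by linear_combination ha
    exact (mul_eq_zero.1 this).resolve_left h2
  have hB : ∀ x y, B (r complexConjugation x) (r' complexConjugation y) = -B x y := fun x y => by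
    rw [hD.eq, GalRep.cyc_complexConjugation, neg_one_mul]
  let L : V' →ₗ[ZMod p] Module.Dual (ZMod p) (Hc r) :=
    ((Hc r).subtype.dualMap).comp (eqB B.flip hD.nd' hD.nd).toLinearMap
  have hL : ∀ y x, L y x = B x y := fun y x => rfl
  have hs : Function.Surjective L :=
    (LinearMap.dualMap_surjective_of_injective (Hc r).injective_subtype).comp
      (eqB B.flip hD.nd' hD.nd).surjective
  have hk : LinearMap.ker L = Hc r' := by
    ext y
    rw [LinearMap.mem_ker, mem_Hc]
    constructor
    · intro h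
      have h1 : ∀ x, r complexConjugation x = x → B x y = 0 := fun x hx => by
        have := LinearMap.congr_fun h (⟨x, mem_Hc.2 hx⟩ : Hc r)
        exact this
      have hcc : ∀ y, r' complexConjugation (r' complexConjugation y) = y := fun y => by
        rw [← Module.End.mul_apply, ← map_mul, complexConjugation_mul_self, map_one]; rfl
      have hcc' : ∀ y, r complexConjugation (r complexConjugation y) = y := fun y => by
        rw [← Module.End.mul_apply, ← map_mul, complexConjugation_mul_self, map_one]; rfl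
      have h3 : r' complexConjugation y - y = 0 := by
        refine hD.nd' _ fun x => ?_
        have e1 := h1 (x + r complexConjugation x) (by rw [map_add, hcc', add_comm])
        have e2 : B (r complexConjugation x) (r' complexConjugation y) = - B x y := hB x y
        have e3 : B (r complexConjugation x) y = - B x (r' complexConjugation y) := by
          have := hB x (r' complexConjugation y)
          rwa [hcc] at this
        rw [map_add, LinearMap.add_apply, e3] at e1
        rw [map_sub]
        linear_combination -e1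
      exact sub_eq_zero.1 h3
    · intro h
      apply LinearMap.ext
      intro x
      rw [hL, LinearMap.zero_apply]
      apply hneg
      have := hB x y
      rw [h, mem_Hc.1 x.2] at this
      exact this
  have h1 := L.finrank_range_add_finrank_ker
  rw [LinearMap.range_eq_top.2 hs, finrank_top, hk, Subspace.dual_finrank_eq] at h1
  rw [hV]
  exact h1

include hp2 in
/-- **The local Euler characteristic at `p`.** -/
theorem locDimP_mem (hD : DualReps p S r r' B) {A0 : ValuationSubring Qb} (hA0 : A0.LiesOverPrime p) :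
    finrank (ZMod p) (Z1 r (A0.decompositionSubgroup ℚ)) =
      2 * finrank (ZMod p) V + finrank (ZMod p) (H0 r' (A0.decompositionSubgroup ℚ)) := by
  obtain ⟨T, hST, hT, hF1, hF2⟩ := exists_large_S2 hp2 hD
  have hDT := DualReps.mono hD hST hT
  have hpT := hST hD.mem
  obtain ⟨A, hA, hAv⟩ := exists_places hT ⟨p, hpT⟩ hA0
  subst hAv
  have hV : finrank (ZMod p) V = finrank (ZMod p) V' := pair_finrank B hD.nd hD.nd'
  have hlev := DualReps.lev hDT
  have hlev' := DualReps.lev' hDT
  let D := qData (S := T) hp2 hpT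
  have hinj : ∀ a, B a = 0 → a = 0 := fun a ha => hD.nd a fun m => by rw [ha, LinearMap.zero_apply]
  have k1 := FE_eq (r : Representation _ GQ V) (r' : Representation _ GQ V') B hlev hlev' hD.nd hD.nd'
    (DualReps.eqχ hD) hp2 hpT
  have k2 := FE_eq (S := T) (r' : Representation _ GQ V') (r : Representation _ GQ V) B.flip hlev' hlev
    hD.nd' hD.nd (fun σ x y => DualReps.eqχ hD σ y x) hp2 hpT
  have k3 := q_rank_aux D (r : Representation _ GQ V) hlev (r' : Representation _ GQ V')
      (eqB B.flip hD.nd' hD.nd) (eqB_equiv (r' : Representation _ GQ V') (r : Representation _ GQ V) B.flip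
        hD.nd' hD.nd fun σ x y => DualReps.eqχ hD σ y x)
  have k3' : (LC T r).rk 1 + (LC T r').rk 1 = (CP T r).h 1 := k3
  haveI f1 := (clsQ D).finG (ρ := (r : Representation _ GQ V)) hlev 1 (by norm_num)
  haveI f2 := (clsQ D).finG (ρ := (r' : Representation _ GQ V')) hlev' 1 (by norm_num)
  haveI f3 := (clsQ D).finL (ρ := (r : Representation _ GQ V)) hlev 1 (by norm_num)
  have k4 := Cx.Hom.h_source (LC T r') 1
  have k5 := Cx.Hom.h_source (LC T r) 1
  have k6 := Hc_sum hp2 hD
  have e1 := finrank_LamS (r : Representation _ GQ V) (HasLevel.toSL hlev) (places_aA A hA hT)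
    (L := fun w => Z1 r ((A w).decompositionSubgroup ℚ)) (fun w =>
    B1_le_Z1 (r : Representation _ GQ V) (HasLevel.toSL hlev) _) (fun w => le_rfl)
  have e2 : LamS (r : Representation _ GQ V) (places_aA A hA hT)
      (fun w => Z1 r ((A w).decompositionSubgroup ℚ)) = ⊤ := by
    rw [eq_top_iff]
    intro z _
    obtain ⟨F, hF, rfl⟩ := Cx.exists_cl _ z
    exact (mem_LamS (r : Representation _ GQ V) (places_aA A hA hT) (fun w =>
      B1_le_Z1 (r : Representation _ GQ V) (HasLevel.toSL hlev) _) hF).2 fun w =>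
      (evL (r : Representation _ GQ V) (aA A hA hT) w ⟨F, hF⟩).2
  rw [e2, finrank_top] at e1
  have e3 : (CP T r).h 1 + ∑ w, finrank (ZMod p) (B1 r ((A w).decompositionSubgroup ℚ)) =
    ∑ w, finrank (ZMod p) (Z1 r ((A w).decompositionSubgroup ℚ)) := e1
  have e4 : ∀ w, finrank (ZMod p) (B1 r ((A w).decompositionSubgroup ℚ)) +
      finrank (ZMod p) (H0 r ((A w).decompositionSubgroup ℚ)) = finrank (ZMod p) V := fun w =>
    finrank_B1 (r : Representation _ GQ V) _
  have e5 := h0_loc' (r : Representation _ GQ V) (places_aA A hA hT)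
  have e5' : ((CP T r).h 0 : ℤ) = ∑ w : T, (finrank (ZMod p) (H0 r ((A w).decompositionSubgroup ℚ)) : ℤ) := by
    rw [e5]; push_cast; rfl
  have e6 := h0_loc' (r' : Representation _ GQ V') (places_aA A hA hT)
  have e6' : ((CP T r').h 0 : ℤ) = ∑ w : T, (finrank (ZMod p) (H0 r' ((A w).decompositionSubgroup ℚ)) : ℤ) := by
    rw [e6]; push_cast; rfl
  have e7 : ∀ w : T, w ≠ ⟨p, hpT⟩ → (finrank (ZMod p) (Z1 r ((A w).decompositionSubgroup ℚ)) : ℤ) -
      finrank (ZMod p) V - finrank (ZMod p) (H0 r' ((A w).decompositionSubgroup ℚ)) = 0 := fun w hw => by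
    have := locDim_mem hp2 hDT w (hA w) fun h => hw (Subtype.ext h)
    rw [this]; push_cast; ring
  have e8 : ∑ w : T, ((finrank (ZMod p) (Z1 r ((A w).decompositionSubgroup ℚ)) : ℤ) -
      finrank (ZMod p) V - finrank (ZMod p) (H0 r' ((A w).decompositionSubgroup ℚ))) =
      (finrank (ZMod p) (Z1 r ((A ⟨p, hpT⟩).decompositionSubgroup ℚ)) : ℤ) -
      finrank (ZMod p) V - finrank (ZMod p) (H0 r' ((A ⟨p, hpT⟩).decompositionSubgroup ℚ)) :=
    Finset.sum_eq_single_of_mem _ (Finset.mem_univ _) fun w _ hw => e7 w hw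
  have e9 : (∑ w : T, (finrank (ZMod p) V : ℤ)) =
      ∑ w, (finrank (ZMod p) (B1 r ((A w).decompositionSubgroup ℚ)) : ℤ) +
      ∑ w, (finrank (ZMod p) (H0 r ((A w).decompositionSubgroup ℚ)) : ℤ) := by
    rw [← Finset.sum_add_distrib]
    exact Finset.sum_congr rfl fun w _ => by rw [← e4 w]; push_cast; rfl
  have e3' : ((CP T r).h 1 : ℤ) + ∑ w, (finrank (ZMod p) (B1 r ((A w).decompositionSubgroup ℚ)) : ℤ) =
    ∑ w, (finrank (ZMod p) (Z1 r ((A w).decompositionSubgroup ℚ)) : ℤ) := by exact_mod_cast e3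
  rw [Finset.sum_sub_distrib, Finset.sum_sub_distrib, ← e3', e9, ← e5', ← e6'] at e8
  have k4' : (CG T r').h 1 = (LC T r').rk 1 + (LC T r').sh 1 := k4
  have k5' : (CG T r).h 1 = (LC T r).rk 1 + (LC T r).sh 1 := k5
  have k1' : FE T r = (finrank (ZMod p) (inv (r' : Representation _ GQ V')) : ℤ) - (CG T r').h 1 +
    (LC T r).sh 1 + (CP T r).h 0 - finrank (ZMod p) (inv (r : Representation _ GQ V)) +
    finrank (ZMod p) (Hc r) := k1
  have k2' : FE T r' = (finrank (ZMod p) (inv (r : Representation _ GQ V)) : ℤ) - (CG T r).h 1 +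
    (LC T r').sh 1 + (CP T r').h 0 - finrank (ZMod p) (inv (r' : Representation _ GQ V')) +
    finrank (ZMod p) (Hc r') := k2
  have hF1' : FE T r = 0 := hF1
  have hF2' : FE T r' = 0 := hF2
  exact ar_aux (k1'.symm.trans hF1') (k2'.symm.trans hF2') k3' k4' k5' k6 e8

end

/-- local Euler characteristic at `p` -/
def LocDimP (p : ℕ) [Fact p.Prime] : Prop :=
  ∀ (V V' : Type) [AddCommGroup V] [Module (ZMod p) V] [AddCommGroup V'] [Module (ZMod p) V']
    [FiniteDimensional (ZMod p) V] [FiniteDimensional (ZMod p) V'] (S : Finset ℕ)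
    (r : GQ →* Module.End (ZMod p) V) (r' : GQ →* Module.End (ZMod p) V')
    (B : V →ₗ[ZMod p] V' →ₗ[ZMod p] ZMod p), DualReps p S r r' B →
    ∀ A : ValuationSubring Qb, A.LiesOverPrime p →
    Module.finrank (ZMod p) (Z1 r (A.decompositionSubgroup ℚ)) =
      2 * Module.finrank (ZMod p) V + Module.finrank (ZMod p) (H0 r' (A.decompositionSubgroup ℚ))

/-- **The local Euler characteristic at `p`.** -/
theorem locDimP (hp2 : p ≠ 2) : LocDimP p := by
  intro V V' _ _ _ _ _ _ S r r' B hD A hA
  exact locDimP_mem hp2 hD hA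

end Fermat.Agent.CFT
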