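import Fermat.Agent.CFT.GW2

/-!
# The rank formula over the base field
-/

set_option autoImplicit false
set_option linter.unusedSectionVars false
set_option linter.unusedVariables false
set_option linter.style.haveILetI false

namespace Fermat.Agent.CFT

open Module

universe u v

theorem Cx.Hom.rk_iso {k : Type u} [Field k] {C L C' L' : Cx.{u, v} k} (φ : Cx.Hom C L)
    (φ' : Cx.Hom C' L') (e : Cx.Iso C C')
    (f : Cx.Iso L L') (h : ∀ n x, f.e n (φ.f n x) = φ'.f n (e.e n x)) (n : ℕ) :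
    φ.rk n = φ'.rk n := by
  have hcomm : ∀ z, f.H n (φ.H n z) = φ'.H n (e.H n z) := fun z => by
    obtain ⟨x, hx, rfl⟩ := C.exists_cl z
    change L'.cl n (f.e n (φ.f n x)) _ = L'.cl n (φ'.f n (e.e n x)) _
    simp only [h]
  refine LinearEquiv.finrank_eq ((f.H n).submoduleMap _ |>.trans (LinearEquiv.ofEq _ _ ?_))
  ext y
  constructor
  · rintro ⟨_, ⟨z, rfl⟩, rfl⟩
    exact ⟨e.H n z, (hcomm z).symm⟩
  · rintro ⟨z, rfl⟩
    refine ⟨φ.H n ((e.H n).symm z), ⟨_, rfl⟩, ?_⟩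
    change f.H n _ = _
    rw [hcomm, LinearEquiv.apply_symm_apply]

section

variable {k : Type} [Field k] {G H : Type} [Group G] [Group H] {Sg Sl : Sys G}
  (hS : ∀ U ∈ Sg.carrier, ∃ V ∈ Sl.carrier, V ≤ U) (ι : H →* G) (X : Type) [MulAction G X]
  {M M' : Type} [AddCommGroup M] [Module k M] [AddCommGroup M'] [Module k M']
  {ρ : Representation k H M} {ρ' : Representation k H M'} (e : M ≃ₗ[k] M')
  (he : ∀ h m, e (ρ h m) = ρ' h (e m))

include he

theorem loc_rk_congr (n : ℕ) : (loc hS ι X ρ).rk n = (loc hS ι X ρ').rk n :=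
  Cx.Hom.rk_iso _ _ (cochIso e he) (cochIso e he) (fun _ _ => rfl) n

end

section

variable {p : ℕ} [hp : Fact p.Prime] {G : Type} [Group G] {Sg Sl : Sys G}
  {hS : ∀ U ∈ Sg.carrier, ∃ V ∈ Sl.carrier, V ≤ U} {X : Type} [MulAction G X]
  {χ : Representation (ZMod p) G (ZMod p)} (D : QData hS X χ)
  {M : Type} [AddCommGroup M] [Module (ZMod p) M] [Module.Finite (ZMod p) M]
  (ρ : Representation (ZMod p) G M) (hρ : HasLevel Sg (idG G) ρ)
  {A : Type} [AddCommGroup A] [Module (ZMod p) A] [Module.Finite (ZMod p) A]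
  (σ : Representation (ZMod p) G A)

include D hρ

theorem q_rank_aux (β : A ≃ₗ[ZMod p] (M →ₗ[ZMod p] ZMod p))
    (hβ : ∀ h a, β (σ h a) = dl χ ρ h (β a)) :
    (loc hS (idG G) X ρ).rk 1 + (loc hS (idG G) X σ).rk 1 = (cochCx Sl (idG G) ρ X).h 1 := by
  obtain ⟨K, hK⟩ := exists_goodK D.lev _ hρ
  have hKσ := GoodK.dual ρ σ β hβ hK
  haveI := hK.fin
  obtain ⟨U, hU, hρU⟩ := hK.po
  obtain ⟨C, _, _, _, τ, hd, ⟨s⟩⟩ := hK.exists_compl
  have hdl := HasLevel.dual D.lev hρ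
  have hlc : HasLevel Sg (idG G) τ := by
    obtain ⟨V, hV, -, h, -⟩ := hd.lv
    exact ⟨V, hV, fun g hg => h g hg⟩
  have i1 := rk_le (clsQ D) ρ hρ
  have i2 := rk_le (clsQ D) τ hlc
  have j1 := q_duality D ρ hρ
  have j2 := q_duality D τ hlc
  have e0 : (loc hS (idG G) X σ).rk 1 = (loc hS (idG G) X (dl χ ρ)).rk 1 :=
    loc_rk_congr hS (idG G) X β hβ 1
  haveI := (clsQ D).finG (ρ := ρ) hρ 1 (by norm_num)
  haveI := (clsQ D).finG (ρ := τ) hlc 1 (by norm_num)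
  haveI := (clsQ D).finL (ρ := ρ) hρ 1 (by norm_num)
  haveI := (clsQ D).finL (ρ := τ) hlc 1 (by norm_num)
  haveI := (clsQ D).finG (ρ := dl χ ρ) ((clsQ D).dual (ρ := ρ) hρ) 1 (by norm_num)
  haveI := (clsQ D).finG (ρ := dl χ τ) ((clsQ D).dual (ρ := τ) hlc) 1 (by norm_num)
  haveI := (clsQ D).finL (ρ := dl χ ρ) ((clsQ D).dual (ρ := ρ) hρ) 1 (by norm_num)
  haveI := (clsQ D).finL (ρ := dl χ τ) ((clsQ D).dual (ρ := τ) hlc) 1 (by norm_num)
  have a1 := (s.rk_ck_add hS (ι := idG G) (X := X) 1).1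
  have a2 := ((s.dual χ).rk_ck_add hS (ι := idG G) (X := X) 1).1
  have a3 := s.h_add (S := Sl) (ι := idG G) (X := X) 1
  have b1 : (loc hS (idG G) X (ci K (ρ.comp K.subtype))).rk 1 =
      (loc hS ((idG G).comp K.subtype) X (ρ.comp K.subtype)).rk 1 :=
    Cx.Hom.rk_iso _ _ (shapiro K _) (shapiro K _) (fun n x => rfl) 1
  have b2 : (loc hS (idG G) X (ci K (σ.comp K.subtype))).rk 1 =
      (loc hS ((idG G).comp K.subtype) X (σ.comp K.subtype)).rk 1 :=
    Cx.Hom.rk_iso _ _ (shapiro K _) (shapiro K _) (fun n x => rfl) 1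
  have b3 : (cochCx Sl (idG G) (ci K (ρ.comp K.subtype)) X).h 1 =
      (cochCx Sl ((idG G).comp K.subtype) (ρ.comp K.subtype) X).h 1 :=
    (shapiro (S := Sl) (ι := idG G) (X := X) K _).h_eq 1
  have c1 : (loc hS (idG G) X (ci K (σ.comp K.subtype))).rk 1 =
      (loc hS (idG G) X (dl χ (ci K (ρ.comp K.subtype)))).rk 1 :=
    loc_rk_congr hS (idG G) X (ciDual K χ ρ σ β) (ciDual_equiv K χ ρ σ β hβ) 1
  have d1 : (loc hS ((idG G).comp K.subtype) X (σ.comp K.subtype)).rk 1 =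
      (loc hS ((idG G).comp K.subtype) X (dl (χ.comp K.subtype) (ρ.comp K.subtype))).rk 1 :=
    loc_rk_congr hS ((idG G).comp K.subtype) X β (fun h a => hβ h a) 1
  rw [comp_triv hK.tr] at d1
  have f := (K_duality (D.gl ρ hK) hU _ hρU).2
  omega

theorem q_rank : (loc hS (idG G) X ρ).rk 1 + (loc hS (idG G) X (dl χ ρ)).rk 1 =
    (cochCx Sl (idG G) ρ X).h 1 :=
  q_rank_aux D ρ hρ (dl χ ρ) (LinearEquiv.refl _ _) (fun h a => rfl)

theorem q_t2 : finrank (ZMod p) ((Cx.T (loc hS (idG G) X ρ)).H 1) =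
    (cochCx Sg (idG G) (dl χ ρ) Unit).h 1 := by
  haveI f1 := (clsQ D).finG ((clsQ D).dual (ρ := ρ) hρ) 1 (by norm_num)
  haveI f2 := (clsQ D).finG (ρ := ρ) hρ 2 le_rfl
  haveI f3 := (clsQ D).finL (ρ := ρ) hρ 1 (by norm_num)
  have h2 := Cx.finrank_T2 (loc hS (idG G) X ρ)
  change _ = (cochCx Sl (idG G) ρ X).h 1 + _ at h2
  have h3 := Cx.Hom.h_source (loc hS (idG G) X (dl χ ρ)) 1
  have h4 := q_rank D ρ hρ
  have h5 := q_duality D ρ hρ
  omega

/-- A local class orthogonal to all global classes is global. -/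
theorem q_glob (B : A →ₗ[ZMod p] M →ₗ[ZMod p] ZMod p)
    (hB : ∀ h a m, B (σ h a) (ρ h m) = χ h (B a m)) (hinj : ∀ a, (∀ m, B a m = 0) → a = 0)
    (hdim : finrank (ZMod p) A = finrank (ZMod p) M)
    {y : (cochCx Sl (idG G) ρ X).X 1} (hy : (cochCx Sl (idG G) ρ X).d 1 y = 0)
    (horth : ∀ F, (cochCx Sg (idG G) σ Unit).d 1 F = 0 → Null3 (loc hS (idG G) X χ)
      (cup1 B hB ((loc hS (idG G) X σ).f 1 F) y)) :
    (cochCx Sl (idG G) ρ X).cl 1 y hy ∈ LinearMap.range ((loc hS (idG G) X ρ).H 1) := by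
  have hBi : Function.Injective B := (injective_iff_map_eq_zero _).2 fun a ha =>
    hinj a fun m => by rw [ha, LinearMap.zero_apply]
  have hd : finrank (ZMod p) A = finrank (ZMod p) (M →ₗ[ZMod p] ZMod p) := by
    rw [hdim]
    exact (Subspace.dual_finrank_eq (K := ZMod p) (V := M)).symm
  let β : A ≃ₗ[ZMod p] (M →ₗ[ZMod p] ZMod p) :=
    LinearEquiv.ofBijective B ⟨hBi, (LinearMap.injective_iff_surjective_of_finrank_eq_finrank hd).1 hBi⟩
  have hβ : ∀ h a, β (σ h a) = dl χ ρ h (β a) := fun h a => by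
    apply LinearMap.ext
    intro m
    rw [dl_apply]
    change B (σ h a) m = χ h (B a (ρ h⁻¹ m))
    rw [← hB, Representation.self_inv_apply]
  refine glob_of_orth (clsQ D) ρ hρ (q_t2 D ρ hρ).le hy fun F hF => ?_
  have hβ' : ∀ h a, β.symm.toLinearMap (dl χ ρ h a) = σ h (β.symm.toLinearMap a) := fun h a => by
    change β.symm _ = σ h (β.symm a)
    rw [LinearEquiv.symm_apply_eq, hβ, LinearEquiv.apply_symm_apply]
  have h1 := horth ((cochMap (S := Sg) (ι := idG G) (X := Unit) β.symm.toLinearMap hβ').f 1 F) (by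
    have := (cochMap (S := Sg) (ι := idG G) (X := Unit) (ρ := dl χ ρ) (ρ' := σ)
      β.symm.toLinearMap hβ').comm 1 F
    rw [← this, hF, map_zero])
  convert h1 using 1
  apply cv_injective
  apply funext3
  intro a x x' x''
  rw [cv_cup1, cv_cup1]
  change cv F () ![x, x'] (cv y a ![x', x'']) = β (β.symm (cv F () ![x, x'])) (cv y a ![x', x''])
  rw [LinearEquiv.apply_symm_apply]

end

end Fermat.Agent.CFT
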