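import Fermat.Agent.CFT.GW3

/-!
# The local pairing is nondegenerate
-/

set_option autoImplicit false
set_option linter.unusedSectionVars false
set_option linter.unusedVariables false
set_option linter.style.haveILetI false

namespace Fermat.Agent.CFT

open Module

section LA

variable {k : Type*} [Field k] {V W T : Type*} [AddCommGroup V] [Module k V] [AddCommGroup W]
  [Module k W] [AddCommGroup T] [Module k T] [Module.Finite k V] [Module.Finite k W]

theorem la_nondeg (hT : finrank k T = 1) (b : V →ₗ[k] W →ₗ[k] T) (I : Submodule k V)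
    (J : Submodule k W) (h1 : ∀ w, (∀ v ∈ I, b v w = 0) → w ∈ J)
    (h2 : ∀ v, (∀ w ∈ J, b v w = 0) → v ∈ I)
    (hd : finrank k I + finrank k J ≤ finrank k V) {w : W} (hw : ∀ v, b v w = 0) : w = 0 := by
  haveI : Module.Finite k T := Module.finite_of_finrank_eq_succ hT
  let Φ : V →ₗ[k] (J →ₗ[k] T) := LinearMap.lcomp k T J.subtype ∘ₗ b
  have hΦ : ∀ v (w : J), Φ v w = b v w := fun v w => rfl
  have hker : LinearMap.ker Φ ≤ I := fun v hv => h2 v fun w hw => by
    rw [LinearMap.mem_ker] at hv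
    have := hΦ v ⟨w, hw⟩
    rw [hv] at this
    exact this.symm
  have hk := Submodule.finrank_mono hker
  have hr := Φ.finrank_range_add_finrank_ker
  have hJ : finrank k (J →ₗ[k] T) = finrank k J := by
    rw [Module.finrank_linearMap, hT, mul_one]
  have hsurj : LinearMap.range Φ = ⊤ := by
    apply Submodule.eq_top_of_finrank_eq
    apply le_antisymm (Submodule.finrank_le _)
    omega
  have hwJ : w ∈ J := h1 w fun v _ => hw v
  have hT' : Nontrivial T := Module.nontrivial_of_finrank_pos (R := k) (by omega)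
  obtain ⟨t, ht⟩ : ∃ t : T, t ≠ 0 := exists_ne 0
  have hz : (⟨w, hwJ⟩ : J) = 0 := by
    rw [← Module.forall_dual_apply_eq_zero_iff k]
    intro f
    have h3 : f.smulRight t ∈ LinearMap.range Φ := by rw [hsurj]; trivial
    obtain ⟨v, hv⟩ := h3
    have h4 := hΦ v ⟨w, hwJ⟩
    rw [hv, hw v] at h4
    exact (smul_eq_zero.1 h4).resolve_right ht
  exact congrArg Subtype.val hz

/-- dimension of the orthogonal complement -/
theorem la_perp (hT : finrank k T = 1) (b : V →ₗ[k] W →ₗ[k] T) (I : Submodule k V)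
    (J : Submodule k W) (h : ∀ w, (∀ v ∈ I, b v w = 0) → w ∈ J) :
    finrank k W ≤ finrank k I + finrank k J := by
  haveI : Module.Finite k T := Module.finite_of_finrank_eq_succ hT
  let Φ : W →ₗ[k] (I →ₗ[k] T) := LinearMap.lcomp k T I.subtype ∘ₗ b.flip
  have hΦ : ∀ w (v : I), Φ w v = b v w := fun w v => rfl
  have hker : LinearMap.ker Φ ≤ J := fun w hw => h w fun v hv => by
    rw [LinearMap.mem_ker] at hw
    have := hΦ w ⟨v, hv⟩
    rw [hw] at this
    exact this.symm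
  have hk := Submodule.finrank_mono hker
  have hr := Φ.finrank_range_add_finrank_ker
  have hI : finrank k (I →ₗ[k] T) = finrank k I := by
    rw [Module.finrank_linearMap, hT, mul_one]
  have h3 := Submodule.finrank_le (LinearMap.range Φ)
  omega

end LA

section cupB

variable {k : Type} [Field k] {G H : Type} [Group G] [Group H] {S : Sys G} {ι : H →* G} {X : Type}
  [MulAction G X] {χ : Representation k H k} {A M : Type} [AddCommGroup A] [Module k A]
  [AddCommGroup M] [Module k M] {σ : Representation k H A} {ρ : Representation k H M}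
  (B : A →ₗ[k] M →ₗ[k] k) (hB : ∀ h a m, B (σ h a) (ρ h m) = χ h (B a m))

theorem cup1_left_B {F : (cochCx S ι σ X).X 1} {y : (cochCx S ι ρ X).X 1}
    (hF : F ∈ (cochCx S ι σ X).B 1) (hy : (cochCx S ι ρ X).d 1 y = 0) :
    ∃ l, cup1 B hB F y = (cochCx S ι χ X).d 1 l := by
  obtain ⟨c, rfl⟩ := hF
  let l : (cochCx S ι χ X).X 1 := mkc (fun a x => B (cv c a ![x 0]) (cv y a ![x 0, x 1])) (by
    constructor
    · intro h a x
      beta_reduce
      rw [← hB, cv_equiv1 c h a (x 0), cv_equiv2 y h a (x 0) (x 1)]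
    · obtain ⟨V, hV, h1⟩ := exists_level1 y
      obtain ⟨V', hV', h2⟩ := (cv_mem c).2
      obtain ⟨U, hU, hUV, hUV'⟩ := S.directed V hV V' hV'
      refine ⟨U, hU, fun a x x' hx => ?_⟩
      beta_reduce
      rw [h1 a (x 0) (x 1) (x' 0) (x' 1) (hUV (hx 0)) (hUV (hx 1)),
        h2 a ![x 0] ![x' 0] fun i => by fin_cases i; exact hUV' (hx 0)])
  refine ⟨l, ?_⟩
  apply cv_injective
  apply funext3
  intro a x x' x''
  rw [cv_cup1, cv_d, cv_d, dfun_zero_apply, dfun_one_apply]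
  change _ = B (cv c a ![x']) (cv y a ![x', x'']) - B (cv c a ![x]) (cv y a ![x, x'']) +
    B (cv c a ![x]) (cv y a ![x, x'])
  rw [cocycle1 hy a x x' x'', map_sub, LinearMap.sub_apply, map_add]
  ring

theorem cup1_anti {F : (cochCx S ι σ X).X 1} {y : (cochCx S ι ρ X).X 1}
    (hF : (cochCx S ι σ X).d 1 F = 0) (hy : (cochCx S ι ρ X).d 1 y = 0) :
    ∃ l, cup1 B hB F y = - cup1 B.flip (fun h m a => hB h a m) y F - (cochCx S ι χ X).d 1 l := by
  let l : (cochCx S ι χ X).X 1 := mkc (fun a x => B (cv F a ![x 0, x 1]) (cv y a ![x 0, x 1])) (by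
    constructor
    · intro h a x
      beta_reduce
      rw [← hB, cv_equiv2 F h a (x 0), cv_equiv2 y h a (x 0) (x 1)]
    · obtain ⟨V, hV, h1⟩ := exists_level1 y
      obtain ⟨V', hV', h2⟩ := exists_level1 F
      obtain ⟨U, hU, hUV, hUV'⟩ := S.directed V hV V' hV'
      refine ⟨U, hU, fun a x x' hx => ?_⟩
      beta_reduce
      rw [h1 a (x 0) (x 1) (x' 0) (x' 1) (hUV (hx 0)) (hUV (hx 1)),
        h2 a (x 0) (x 1) (x' 0) (x' 1) (hUV' (hx 0)) (hUV' (hx 1))])
  refine ⟨l, ?_⟩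
  apply cv_injective
  apply funext3
  intro a x x' x''
  rw [cv_cup1, cv_sub, Pi.sub_apply, Pi.sub_apply, cv_neg, Pi.neg_apply, Pi.neg_apply, cv_cup1, cv_d,
    dfun_one_apply]
  change _ = -(B (cv F a ![x', x'']) (cv y a ![x, x'])) -
    (B (cv F a ![x', x'']) (cv y a ![x', x'']) - B (cv F a ![x, x'']) (cv y a ![x, x'']) +
    B (cv F a ![x, x']) (cv y a ![x, x']))
  rw [cocycle1 hy a x x' x'', cocycle1 hF a x x' x'']
  simp only [map_add, LinearMap.add_apply]
  ring

theorem cup1_right_B {F : (cochCx S ι σ X).X 1} {y : (cochCx S ι ρ X).X 1}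
    (hF : (cochCx S ι σ X).d 1 F = 0) (hy : y ∈ (cochCx S ι ρ X).B 1) :
    ∃ l, cup1 B hB F y = (cochCx S ι χ X).d 1 l := by
  have hy' : (cochCx S ι ρ X).d 1 y = 0 := (cochCx S ι ρ X).B_le_Z 1 hy
  obtain ⟨l, hl⟩ := cup1_anti B hB hF hy'
  obtain ⟨l', hl'⟩ := cup1_left_B B.flip (fun h m a => hB h a m) hy hF
  exact ⟨-l' - l, by rw [hl, hl', map_sub, map_neg]⟩

end cupB

section pair

variable {k : Type} [Field k] {G H : Type} [Group G] [Group H] {Sg Sl : Sys G}
  (hS : ∀ U ∈ Sg.carrier, ∃ V ∈ Sl.carrier, V ≤ U) {ι : H →* G} (X : Type) [MulAction G X]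
  {χ : Representation k H k} {A M : Type} [AddCommGroup A] [Module k A]
  [AddCommGroup M] [Module k M] {σ : Representation k H A} {ρ : Representation k H M}
  (B : A →ₗ[k] M →ₗ[k] k) (hB : ∀ h a m, B (σ h a) (ρ h m) = χ h (B a m))

/-- the target of the pairing -/
abbrev T3q (χ : Representation k H k) : Type :=
  (cochCx Sl ι χ X).H 2 ⧸ LinearMap.range ((loc hS ι X χ).H 2)

theorem toCk_eq_zero (z : (cochCx Sl ι χ X).Z 2) : Cx.toCk (loc hS ι X χ) z = 0 ↔
    Null3 (loc hS ι X χ) (z : (cochCx Sl ι χ X).X 2) := Cx.ker_toCk _ z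

theorem Null3.of_B {C L : Cx.{0, 0} k} (φ : Cx.Hom C L) {z : L.X 2} {l : L.X 1} (h : z = L.d 1 l) :
    Null3 φ z := ⟨0, Submodule.zero_mem _, -l, by rw [h, map_zero, map_neg, sub_neg_eq_add, zero_add]⟩

theorem Null3.neg {C L : Cx.{0, 0} k} {φ : Cx.Hom C L} {z : L.X 2} (h : Null3 φ z) : Null3 φ (-z) := by
  obtain ⟨c, hc, l, hl⟩ := h
  exact ⟨-c, Submodule.neg_mem _ hc, -l, by rw [hl, map_neg, map_neg]; abel⟩

theorem Null3.add {C L : Cx.{0, 0} k} {φ : Cx.Hom C L} {z z' : L.X 2} (h : Null3 φ z)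
    (h' : Null3 φ z') : Null3 φ (z + z') := by
  obtain ⟨c, hc, l, hl⟩ := h
  obtain ⟨c', hc', l', hl'⟩ := h'
  exact ⟨c + c', Submodule.add_mem _ hc hc', l + l', by rw [hl, hl', map_add, map_add]; abel⟩

/-- the pairing on cocycles -/
def pz : (cochCx Sl ι σ X).Z 1 →ₗ[k] (cochCx Sl ι ρ X).Z 1 →ₗ[k] T3q hS (ι := ι) X χ :=
  (cupZ (S := Sl) (X := X) B hB).compr₂ (Cx.toCk (loc hS ι X χ))

theorem pz_eq_zero (x : (cochCx Sl ι σ X).Z 1) (y : (cochCx Sl ι ρ X).Z 1) :
    pz hS X B hB x y = 0 ↔ Null3 (loc hS ι X χ) (cup1 B hB x.1 y.1) := toCk_eq_zero hS X _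

/-- the pairing, classes on the right -/
def pz1 : (cochCx Sl ι ρ X).H 1 →ₗ[k] (cochCx Sl ι σ X).Z 1 →ₗ[k] T3q hS (ι := ι) X χ :=
  Submodule.liftQ _ (pz hS X B hB).flip (fun y hy => by
    rw [LinearMap.mem_ker]
    apply LinearMap.ext
    intro x
    rw [LinearMap.flip_apply, LinearMap.zero_apply, pz_eq_zero]
    obtain ⟨l, hl⟩ := cup1_right_B B hB x.2 hy
    exact Null3.of_B _ hl)

/-- the pairing on cohomology -/
def ph : (cochCx Sl ι σ X).H 1 →ₗ[k] (cochCx Sl ι ρ X).H 1 →ₗ[k] T3q hS (ι := ι) X χ :=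
  Submodule.liftQ _ (pz1 hS X B hB).flip (fun x hx => by
    rw [LinearMap.mem_ker]
    apply LinearMap.ext
    intro z
    obtain ⟨y, hy, rfl⟩ := Cx.exists_cl _ z
    rw [LinearMap.flip_apply, LinearMap.zero_apply]
    change pz hS X B hB x ⟨y, hy⟩ = 0
    rw [pz_eq_zero]
    obtain ⟨l, hl⟩ := cup1_left_B B hB hx hy
    exact Null3.of_B _ hl)

theorem ph_cl (x : (cochCx Sl ι σ X).X 1) (hx : (cochCx Sl ι σ X).d 1 x = 0)
    (y : (cochCx Sl ι ρ X).X 1) (hy : (cochCx Sl ι ρ X).d 1 y = 0) :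
    ph hS X B hB ((cochCx Sl ι σ X).cl 1 x hx) ((cochCx Sl ι ρ X).cl 1 y hy) = 0 ↔
      Null3 (loc hS ι X χ) (cup1 B hB x y) := pz_eq_zero hS X B hB ⟨x, hx⟩ ⟨y, hy⟩

end pair

section

variable {p : ℕ} [hp : Fact p.Prime] {G : Type} [Group G] {Sg Sl : Sys G}
  {hS : ∀ U ∈ Sg.carrier, ∃ V ∈ Sl.carrier, V ≤ U} {X : Type} [MulAction G X]
  {χ : Representation (ZMod p) G (ZMod p)} (D : QData hS X χ)
  {M : Type} [AddCommGroup M] [Module (ZMod p) M] [Module.Finite (ZMod p) M]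
  (ρ : Representation (ZMod p) G M) (hρ : HasLevel Sg (idG G) ρ)
  {A : Type} [AddCommGroup A] [Module (ZMod p) A] [Module.Finite (ZMod p) A]
  (σ : Representation (ZMod p) G A) (hσ : HasLevel Sg (idG G) σ)
  (B : A →ₗ[ZMod p] M →ₗ[ZMod p] ZMod p)
  (hB : ∀ h a m, B (σ h a) (ρ h m) = χ h (B a m))
  (hn : ∀ a, (∀ m, B a m = 0) → a = 0) (hn' : ∀ m, (∀ a, B a m = 0) → m = 0)

include hn hn' in
theorem pair_finrank : finrank (ZMod p) A = finrank (ZMod p) M := by
  have hBi : Function.Injective B := (injective_iff_map_eq_zero _).2 fun a ha =>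
    hn a fun m => by rw [ha, LinearMap.zero_apply]
  have hBi' : Function.Injective B.flip := (injective_iff_map_eq_zero _).2 fun a ha =>
    hn' a fun m => by
      have := congrArg (fun f : A →ₗ[ZMod p] ZMod p => f m) ha
      exact this
  have h1 := LinearMap.finrank_le_finrank_of_injective hBi
  have h2 := LinearMap.finrank_le_finrank_of_injective hBi'
  have h3 : finrank (ZMod p) (M →ₗ[ZMod p] ZMod p) = finrank (ZMod p) M :=
    Subspace.dual_finrank_eq (K := ZMod p) (V := M)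
  have h4 : finrank (ZMod p) (A →ₗ[ZMod p] ZMod p) = finrank (ZMod p) A :=
    Subspace.dual_finrank_eq (K := ZMod p) (V := A)
  omega

include D

theorem finrank_T3q : finrank (ZMod p) (T3q hS (ι := idG G) X χ) = 1 := by
  obtain ⟨K, hK⟩ := exists_goodK D.lev _ D.lev
  have h1 := q_t3 D χ hK
  have h2 : inv (dl χ χ) = ⊤ := by
    rw [eq_top_iff]
    intro f _ g
    ext
    rw [dl_apply]
    have h3 : f (χ g⁻¹ 1) = χ g⁻¹ (f 1) := by
      have e1 : ∀ c : ZMod p, f c = c * f 1 := fun c => by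
        rw [← smul_eq_mul, ← map_smul, smul_eq_mul, mul_one]
      have e2 : ∀ c : ZMod p, χ g⁻¹ c = c * χ g⁻¹ 1 := fun c => by
        rw [← smul_eq_mul, ← map_smul, smul_eq_mul, mul_one]
      rw [e1, e2 (f 1)]; ring
    rw [h3, Representation.self_inv_apply]
  rw [h2, finrank_top] at h1
  have h3 : finrank (ZMod p) (ZMod p →ₗ[ZMod p] ZMod p) = 1 := by
    rw [Module.finrank_linearMap, finrank_self]
  rw [h3] at h1
  exact h1

include hρ hσ hn hn'

theorem q_nondeg {z : (cochCx Sl (idG G) ρ X).H 1} (hz : ∀ x, ph hS X B hB x z = 0) : z = 0 := by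
  haveI f1 := (clsQ D).finG (ρ := ρ) hρ 1 (by norm_num)
  haveI f2 := (clsQ D).finG (ρ := σ) hσ 1 (by norm_num)
  haveI f3 := (clsQ D).finL (ρ := ρ) hρ 1 (by norm_num)
  haveI f4 := (clsQ D).finL (ρ := σ) hσ 1 (by norm_num)
  have hdim := pair_finrank B hn hn'
  refine la_nondeg (finrank_T3q D) (ph hS X B hB) (LinearMap.range ((loc hS (idG G) X σ).H 1))
    (LinearMap.range ((loc hS (idG G) X ρ).H 1)) ?_ ?_ ?_ hz
  · intro w hw
    obtain ⟨y, hy, rfl⟩ := Cx.exists_cl _ w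
    refine q_glob D ρ hρ σ B hB hn hdim hy fun F hF => ?_
    have := hw ((loc hS (idG G) X σ).H 1 ((cochCx Sg (idG G) σ Unit).cl 1 F hF)) ⟨_, rfl⟩
    rw [Cx.Hom.H_cl, ph_cl] at this
    exact this
  · intro v hv
    obtain ⟨x, hx, rfl⟩ := Cx.exists_cl _ v
    refine q_glob D σ hσ ρ B.flip (fun h m a => hB h a m) hn' hdim.symm hx fun F hF => ?_
    have h1 := hv ((loc hS (idG G) X ρ).H 1 ((cochCx Sg (idG G) ρ Unit).cl 1 F hF)) ⟨_, rfl⟩
    rw [Cx.Hom.H_cl, ph_cl] at h1
    obtain ⟨l, hl⟩ := cup1_anti B hB hx ((loc hS (idG G) X ρ).map_Z hF)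
    have h2 : cup1 B.flip (fun h m a => hB h a m) ((loc hS (idG G) X ρ).f 1 F) x =
      -(cup1 B hB x ((loc hS (idG G) X ρ).f 1 F)) + (cochCx Sl (idG G) χ X).d 1 (-l) := by
      rw [hl, map_neg]; abel
    rw [h2]
    exact h1.neg.add (Null3.of_B _ rfl)
  · have h1 := q_rank_aux D ρ hρ σ
      (LinearEquiv.ofBijective B ⟨(injective_iff_map_eq_zero _).2 fun a ha =>
        hn a fun m => by rw [ha, LinearMap.zero_apply], (LinearMap.injective_iff_surjective_of_finrank_eq_finrank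
        (hdim.trans (Subspace.dual_finrank_eq (K := ZMod p) (V := M)).symm)).1
        ((injective_iff_map_eq_zero _).2 fun a ha =>
        hn a fun m => by rw [ha, LinearMap.zero_apply])⟩) (fun h a => by
      apply LinearMap.ext
      intro m
      rw [dl_apply]
      change B (σ h a) m = χ h (B a (ρ h⁻¹ m))
      rw [← hB, Representation.self_inv_apply])
    have h2 := q_rank_aux D σ hσ ρ
      (LinearEquiv.ofBijective B.flip ⟨(injective_iff_map_eq_zero _).2 fun a ha =>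
        hn' a fun m => congrArg (fun f : A →ₗ[ZMod p] ZMod p => f m) ha,
        (LinearMap.injective_iff_surjective_of_finrank_eq_finrank
        (hdim.symm.trans (Subspace.dual_finrank_eq (K := ZMod p) (V := A)).symm)).1
        ((injective_iff_map_eq_zero _).2 fun a ha =>
        hn' a fun m => congrArg (fun f : A →ₗ[ZMod p] ZMod p => f m) ha)⟩) (fun h a => by
      apply LinearMap.ext
      intro m
      rw [dl_apply]
      change B m (ρ h a) = χ h (B (σ h⁻¹ m) a)
      rw [← hB, Representation.self_inv_apply])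
    change (loc hS (idG G) X σ).rk 1 + (loc hS (idG G) X ρ).rk 1 ≤ (cochCx Sl (idG G) σ X).h 1
    omega

end

end Fermat.Agent.CFT
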