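import Fermat.Agent.CFT.GW4
import Fermat.Agent.CFT.Cmp6
import Fermat.Agent.Sel.GWdef

/-!
# Local cocycles and homogeneous cochains
-/

set_option autoImplicit false
set_option linter.unusedSectionVars false
set_option linter.unusedVariables false
set_option linter.style.haveILetI false

namespace Fermat.Agent.CFT

open Module Fermat.Agent.Sel
open scoped Pointwise

variable {k : Type} [Field k] {V : Type} [AddCommGroup V] [Module k V] (r : Representation k GQ V)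

/-- homogeneous cocycle with given inhomogeneous restriction -/
theorem exists_hom {D : Subgroup GQ} {c : GQ → V} (hc : ∀ σ ∈ D, ∀ τ ∈ D, c (σ * τ) = c σ + r σ (c τ))
    (hV : ∃ V0 ∈ SL.carrier, ∀ v ∈ V0, v ∈ D → c v = 0) :
    ∃ F : GQ → GQ → V, (∀ d ∈ D, ∀ x y, F (d * x) (d * y) = r d (F x y)) ∧
      (∃ V0 ∈ SL.carrier, ∀ x y, ∀ v ∈ V0, ∀ v' ∈ V0, F (x * v) (y * v') = F x y) ∧
      (∀ x y z, F x z = F x y + F y z) ∧ ∀ σ ∈ D, F 1 σ = c σ := by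
  obtain ⟨V0, hV0, hV⟩ := hV
  have hN := SL.normal V0 hV0
  obtain ⟨ρ, hr1, hr2, hr3⟩ := exists_retr D hN
  have hc1 : c 1 = 0 := by
    have := hc 1 (one_mem _) 1 (one_mem _)
    rw [mul_one, map_one] at this
    exact left_eq_add.1 this
  let r' : GQ → GQ := fun x => ρ x * (ρ 1)⁻¹
  have hr'1 : ∀ x, r' x ∈ D := fun x => mul_mem (hr1 x) (inv_mem (hr1 1))
  have hr'2 : ∀ d ∈ D, ∀ x, c (r' (d * x)) = c d + r d (c (r' x)) := by
    intro d hd x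
    obtain ⟨v, hv, h⟩ := hr2 d hd x
    have h1 : r' (d * x) = d * r' x * (ρ 1 * v * (ρ 1)⁻¹) := by
      change ρ (d * x) * (ρ 1)⁻¹ = d * (ρ x * (ρ 1)⁻¹) * (ρ 1 * v * (ρ 1)⁻¹)
      rw [h]; group
    have h2 : ρ 1 * v * (ρ 1)⁻¹ ∈ V0 := hN.conj_mem v hv _
    have h3 : ρ 1 * v * (ρ 1)⁻¹ ∈ D := by
      have : ρ 1 * v * (ρ 1)⁻¹ = (d * r' x)⁻¹ * r' (d * x) := by rw [h1]; group
      rw [this]
      exact mul_mem (inv_mem (mul_mem hd (hr'1 x))) (hr'1 _)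
    rw [h1, hc _ (mul_mem hd (hr'1 x)) _ h3, hV _ h2 h3, map_zero, add_zero, hc d hd _ (hr'1 x)]
  refine ⟨fun x y => c (r' y) - c (r' x), fun d hd x y => ?_, ⟨V0, hV0, fun x y v hv v' hv' => ?_⟩,
    fun x y z => ?_, fun σ hσ => ?_⟩
  · beta_reduce
    rw [hr'2 d hd, hr'2 d hd, map_sub]; abel
  · change c (ρ (y * v') * (ρ 1)⁻¹) - c (ρ (x * v) * (ρ 1)⁻¹) = _
    rw [hr3 y v' hv', hr3 x v hv]
  · beta_reduce; abel
  · have h1 : r' 1 = 1 := mul_inv_cancel _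
    have h2 := hr'2 σ hσ 1
    rw [mul_one, h1, hc1, map_zero, add_zero] at h2
    beta_reduce
    rw [h2, h1, hc1, sub_zero]

section

variable {S : Finset ℕ}

theorem stb_mem {a : XS S} {g : GQ} (hg : g ∈ Dec (a : Pl)) : g ∈ stb (idG GQ) a := Subtype.ext hg

theorem mem_of_stb {a : XS S} {g : GQ} (hg : g ∈ stb (idG GQ) a) : g ∈ Dec (a : Pl) :=
  congrArg Subtype.val hg

variable {r}

theorem ev_mul {F : (cochCx SL (idG GQ) r (XS S)).X 1}
    (hF : (cochCx SL (idG GQ) r (XS S)).d 1 F = 0) (a : XS S) {σ τ : GQ} (hσ : σ ∈ Dec (a : Pl)) :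
    cv F a ![1, σ * τ] = cv F a ![1, σ] + r σ (cv F a ![1, τ]) := by
  rw [cocycle1 hF a 1 σ (σ * τ)]
  have h1 := cv_equiv2 F σ a 1 τ
  have h2 : idG GQ σ • a = a := Subtype.ext hσ
  rw [h2, mul_one] at h1
  rw [← h1]
  rfl

theorem ev_level {F : (cochCx SL (idG GQ) r (XS S)).X 1}
    (hF : (cochCx SL (idG GQ) r (XS S)).d 1 F = 0) (a : XS S) :
    ∃ V0 ∈ SL.carrier, ∀ v ∈ V0, cv F a ![1, v] = 0 := by
  obtain ⟨V0, hV0, h⟩ := exists_level1 F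
  refine ⟨V0, hV0, fun v hv => ?_⟩
  rw [h a 1 v 1 1 (by rw [inv_one, one_mul]; exact one_mem _) (by rw [mul_one]; exact inv_mem hv)]
  exact cocycle1_self hF a 1

variable (r)

/-- a local cocycle gives a class supported at the place -/
theorem exists_supp (a : XS S) {c : GQ → V}
    (hc : ∀ σ ∈ Dec (a : Pl), ∀ τ ∈ Dec (a : Pl), c (σ * τ) = c σ + r σ (c τ))
    (hV : ∃ V0 ∈ SL.carrier, ∀ v ∈ V0, v ∈ Dec (a : Pl) → c v = 0) :
    ∃ F : (cochCx SL (idG GQ) r (XS S)).X 1, (cochCx SL (idG GQ) r (XS S)).d 1 F = 0 ∧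
      (∀ σ ∈ Dec (a : Pl), cv F a ![1, σ] = c σ) ∧
      ∀ b : XS S, (¬ ∃ g : GQ, g • a = b) → ∀ x, cv F b x = 0 := by
  obtain ⟨F0, h1, h2, h3, h4⟩ := exists_hom r hc hV
  obtain ⟨F1, hF1⟩ : ∃ F : (cochCx SL ((idG GQ).comp (stb (idG GQ) a).subtype)
      (r.comp (stb (idG GQ) a).subtype) Unit).X 1, ∀ x y, cv F () ![x, y] = F0 x y := by
    refine ⟨mkc (fun _ x => F0 (x 0) (x 1)) ⟨fun h _ x => h1 h (mem_of_stb h.2) _ _, ?_⟩, fun x y => rfl⟩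
    obtain ⟨V0, hV0, h⟩ := h2
    refine ⟨V0, hV0, fun _ x y hxy => ?_⟩
    have e : ∀ i, y i = x i * ((x i)⁻¹ * y i) := fun i => by group
    beta_reduce
    rw [e 0, e 1, h _ _ _ (hxy 0) _ (hxy 1)]
  have hd : (cochCx SL ((idG GQ).comp (stb (idG GQ) a).subtype)
      (r.comp (stb (idG GQ) a).subtype) Unit).d 1 F1 = 0 := by
    apply cv_injective
    apply funext3
    intro _ x y z
    rw [cv_d_one, hF1, hF1, hF1, h3 x y z]
    change _ = (0 : V)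
    abel
  refine ⟨(ptExt SL (idG GQ) r a).f 1 F1, (ptExt SL (idG GQ) r a).map_Z hd, fun σ hσ => ?_,
    fun b hb x => cv_ptExt_of_not (S := SL) (ι := idG GQ) (ρ := r) a F1 (b := b) hb x⟩
  have h5 := cv_ptExt (S := SL) (ι := idG GQ) (ρ := r) a F1 1 ![1, σ]
  rw [map_one, one_smul, map_one] at h5
  have h6 : (fun i => ((1 : GQ))⁻¹ * ![1, σ] i) = ![1, σ] := by
    funext i; rw [inv_one, one_mul]
  rw [h6] at h5
  rw [h5]
  change cv F1 () ![1, σ] = _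
  rw [hF1, h4 σ hσ]

/-- one place in every orbit -/
structure Places (S : Finset ℕ) (a : S → XS S) : Prop where
  ell : ∀ v, ((a v : XS S) : Pl).ell = v

variable {a : S → XS S} (ha : Places S a)

include ha

theorem Places.cover (b : XS S) : ∃ v, ∃ h : GQ, idG GQ h • a v = b := by
  obtain ⟨g, hg⟩ := exists_smul_of_ell (A := (a ⟨(b : Pl).ell, b.2⟩ : Pl)) (B := (b : Pl)) (by rw [ha.ell])
  exact ⟨⟨_, b.2⟩, g, Subtype.ext hg⟩

theorem Places.disj (i j : S) (h : ∃ h : GQ, idG GQ h • a i = a j) : i = j := by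
  obtain ⟨g, hg⟩ := h
  have h1 := congrArg (fun a : XS S => (a : Pl).ell) hg
  change (g • (a i : Pl)).ell = (a j : Pl).ell at h1
  rw [Pl.ell_smul, ha.ell, ha.ell] at h1
  exact Subtype.ext h1

theorem Places.eq_zero_iff (n : ℕ) (z : (cochCx SL (idG GQ) r (XS S)).H n) : z = 0 ↔
    ∀ v, (ptRes SL (idG GQ) r (a v)).H n z = 0 := by
  classical
  rw [← (orbEquiv SL (idG GQ) r a ha.cover ha.disj n).map_eq_zero_iff, funext_iff]
  exact Iff.rfl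

theorem Places.mem_B1_iff {F : (cochCx SL (idG GQ) r (XS S)).X 1}
    (hF : (cochCx SL (idG GQ) r (XS S)).d 1 F = 0) : F ∈ (cochCx SL (idG GQ) r (XS S)).B 1 ↔
    ∀ v, ∃ ξ : V, ∀ σ ∈ Dec (a v : Pl), cv F (a v) ![1, σ] = r σ ξ - ξ := by
  rw [← Cx.cl_eq_zero _ hF, ha.eq_zero_iff r]
  refine forall_congr' fun v => ?_
  rw [Cx.Hom.H_cl, Cx.cl_eq_zero]
  have hc := (ptRes SL (idG GQ) r (a v)).map_Z hF
  constructor
  · intro h
    obtain ⟨ξ, hξ⟩ := inh_of_mem_B1 h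
    exact ⟨ξ, fun g hg => hξ ⟨g, stb_mem hg⟩⟩
  · rintro ⟨ξ, hξ⟩
    exact mem_B1_of_inh hc ξ fun h => hξ h (mem_of_stb h.2)

end

end Fermat.Agent.CFT
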