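import Fermat.Agent.CFT.GW5
import Fermat.Agent.CFT.Cmp8

/-!
# The invariants at a place
-/

set_option autoImplicit false
set_option linter.unusedSectionVars false
set_option linter.unusedVariables false
set_option linter.style.haveILetI false

namespace Fermat.Agent.CFT

open Module Fermat.Agent.Sel
open scoped Pointwise

section

variable {k : Type} [Field k] {G H : Type} [Group G] [Group H] {S : Sys G} {ι : H →* G}
  {X : Type} [MulAction G X] {M : Type} [AddCommGroup M] [Module k M] (ρ : Representation k H M)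

/-- cochains supported on the orbit of a point -/
def Supp {n : ℕ} (a : X) (z : (cochCx S ι ρ X).X n) : Prop :=
  ∀ b : X, (¬ ∃ h : H, ι h • a = b) → ∀ x, cv z b x = 0

theorem ext_res {n : ℕ} {a : X} {z : (cochCx S ι ρ X).X n} (hz : Supp ρ a z) :
    (ptExt S ι ρ a).f n ((ptRes S ι ρ a).f n z) = z := by
  apply cv_injective
  funext b x
  by_cases hb : ∃ h : H, ι h • a = b
  · obtain ⟨h, rfl⟩ := hb
    rw [cv_ptExt, cv_ptRes]
    have h1 := (cv_mem z).1 h a (fun i => (ι h)⁻¹ * x i)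
    rw [← h1]
    congr 1
    funext i
    rw [mul_inv_cancel_left]
  · rw [hz b hb x]
    exact cv_ptExt_of_not (S := S) (ι := ι) (ρ := ρ) a _ (b := b) hb x

theorem mem_B_of_supp {n : ℕ} {a : X} {z : (cochCx S ι ρ X).X n} (hz : Supp ρ a z)
    (h : (ptRes S ι ρ a).f n z ∈ (cochCx S (ι.comp (stb ι a).subtype)
      (ρ.comp (stb ι a).subtype) Unit).B n) : z ∈ (cochCx S ι ρ X).B n := by
  rw [← ext_res ρ hz]
  exact (ptExt S ι ρ a).map_B h

theorem Null3.smul {C L : Cx.{0, 0} k} {φ : Cx.Hom C L} {z : L.X 2} (c : k) (h : Null3 φ z) :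
    Null3 φ (c • z) := by
  obtain ⟨w, hw, l, hl⟩ := h
  exact ⟨c • w, Submodule.smul_mem _ _ hw, c • l, by rw [hl, map_smul, map_smul, smul_sub]⟩

end

section

variable {p : ℕ} [hp : Fact p.Prime]

theorem exists_unr_char' (A : Pl) : ∃ (W'' : Subgroup GQ) (τ : GQ → ZMod p), W'' ≤ Dec A ∧ IsLoc A W'' ∧
    W''.relIndex (Dec A) = p ∧ SameVal A (Dec A) W'' ∧ C1 (tr p) SL (Dec A) (d0 τ) ∧
    ∀ w ∈ Dec A, (w ∈ W'' ↔ d0 τ 1 w = 0) := by
  have hD := isLoc_Dec A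
  obtain ⟨n, hn, hn2⟩ := exists_large hD p hp.out.ne_zero
  obtain ⟨m, σ, hσ⟩ := exists_cyc_RR (le_refl (Dec A)) hn
  obtain ⟨m2, rfl⟩ := hn2 m σ hσ
  obtain ⟨W'', h1, h2, h3, h4⟩ := hσ.inter
  have hL : IsLoc A W'' := hD.of_le (hD.inf_RR hn) h1 h2
  have hS : ∃ V ∈ SL.carrier, V ⊓ Dec A ≤ W'' := by
    obtain ⟨N, hN, hN2⟩ := hL.op
    obtain ⟨V, hV, hVN⟩ := SL_exists hN
    exact ⟨V, hV, fun g hg => hN2 ⟨hg.2, hVN hg.1⟩⟩
  obtain ⟨τ, t1, t2, t3, t4⟩ := h3.exists_tau hS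
  obtain ⟨ψ, ψ1, ψ2⟩ := h3.exists_char
  have t5 := t4 ψ ψ1 ψ2
  refine ⟨W'', τ, h2, hL, h3.relIndex, (sameVal_RR le_rfl hn hσ).mono_left h1, ⟨?_, ?_⟩, ?_⟩
  · intro w hw x y
    have e1 := t5 ⟨w, hw⟩ x
    have e2 := t5 ⟨w, hw⟩ y
    change τ (w * x) = _ at e1
    change τ (w * y) = _ at e2
    change τ (w * y) - τ (w * x) = τ y - τ x
    rw [e1, e2]; ring
  · obtain ⟨V, hV, h⟩ := t3
    exact ⟨V, hV, fun x y v hv v' hv' => by
      change τ (y * v') - τ (x * v) = τ y - τ x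
      rw [h y v' hv', h x v hv]⟩
  · intro w hw
    have e1 := t5 ⟨w, hw⟩ 1
    change τ (w * 1) = _ at e1
    rw [mul_one] at e1
    change _ ↔ τ w - τ 1 = 0
    rw [e1, add_sub_cancel_right, ψ1 ⟨w, hw⟩]
    exact Iff.rfl

variable {S : Finset ℕ}

/-- multiplication as an equivariant pairing -/
theorem mul_equiv (h : GQ) (a m : ZMod p) :
    LinearMap.mul (ZMod p) (ZMod p) (χQ p h a) (χ1 (ZMod p) GQ h m) =
      χQ p h (LinearMap.mul (ZMod p) (ZMod p) a m) := by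
  change χQ p h a * m = χQ p h (a * m)
  rw [χQ_apply, χQ_apply, mul_assoc]

theorem hasLevel_χ1 : HasLevel (SG S) (idG GQ) (χ1 (ZMod p) GQ) := by
  obtain ⟨V, hV⟩ := (SG S).nonempty
  exact ⟨V, hV, fun g _ x => rfl⟩

theorem exists_nonnull (hp2 : p ≠ 2) (hpS : p ∈ S) (a : XS S) :
    ∃ z : (cochCx SL (idG GQ) (χQ p) (XS S)).X 2, (cochCx SL (idG GQ) (χQ p) (XS S)).d 2 z = 0 ∧
      Supp (χQ p) a z ∧ ¬ Null3 (loc (Sg := SG S) (Sl := SL) SG_SL (idG GQ) (XS S) (χQ p)) z := by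
  let D := qData (S := S) hp2 hpS
  obtain ⟨W'', τ, h1, h2, h3, h4, h5, h6⟩ := exists_unr_char' (p := p) (a : Pl)
  obtain ⟨w, hw, hw'⟩ : ∃ w ∈ Dec (a : Pl), w ∉ W'' := by
    by_contra hcon
    push Not at hcon
    have : W''.relIndex (Dec (a : Pl)) = 1 := Subgroup.relIndex_eq_one.2 hcon
    exact hp.out.one_lt.ne' (h3.symm.trans this)
  have hτ : ∀ σ ∈ Dec (a : Pl), ∀ x, τ (σ * x) - τ σ = τ x - τ 1 := fun σ hσ x => by
    have := h5.eq σ hσ 1 x
    change τ (σ * x) - τ (σ * 1) = τ x - τ 1 at this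
    rwa [mul_one] at this
  obtain ⟨x, hx, hx1, hx2⟩ := exists_supp (χ1 (ZMod p) GQ) a (c := fun σ => τ σ - τ 1)
    (fun σ hσ t ht => by
      have := hτ σ hσ t
      change τ (σ * t) - τ 1 = τ σ - τ 1 + (τ t - τ 1)
      rw [← this]; ring) (by
      obtain ⟨V, hV, h⟩ := h5.sm
      refine ⟨V, hV, fun v hv hvD => ?_⟩
      have h7 := h 1 1 1 (one_mem _) v hv
      rw [one_mul, one_mul] at h7
      change τ v - τ 1 = τ 1 - τ 1 at h7
      rw [sub_self] at h7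
      exact h7)
  have hne : (cochCx SL (idG GQ) (χ1 (ZMod p) GQ) (XS S)).cl 1 x hx ≠ 0 := by
    intro h0
    rw [Cx.cl_eq_zero] at h0
    obtain ⟨ξ, hξ⟩ := inh_of_mem_B1 ((ptRes SL (idG GQ) (χ1 (ZMod p) GQ) a).map_B h0)
    have h8 := hξ ⟨w, stb_mem hw⟩
    have h9 := hx1 w hw
    change cv x a ![1, w] = ξ - ξ at h8
    rw [h9, sub_self] at h8
    exact hw' ((h6 w hw).2 h8)
  obtain ⟨y', hy'⟩ : ∃ y', ph (SG_SL (S := S)) (ι := idG GQ) (XS S) (χ := χQ p) (σ := χQ p)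
      (ρ := χ1 (ZMod p) GQ) (LinearMap.mul (ZMod p) (ZMod p)) mul_equiv y'
      ((cochCx SL (idG GQ) (χ1 (ZMod p) GQ) (XS S)).cl 1 x hx) ≠ 0 := by
    by_contra hcon
    push Not at hcon
    refine hne (q_nondeg D (χ1 (ZMod p) GQ) hasLevel_χ1 (χQ p) D.lev
      (LinearMap.mul (ZMod p) (ZMod p)) mul_equiv (fun a ha => ?_) (fun a ha => ?_) hcon)
    · have := ha 1
      change a * 1 = 0 at this
      rwa [mul_one] at this
    · have := ha 1
      change 1 * a = 0 at this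
      rwa [one_mul] at this
  obtain ⟨y, hy, rfl⟩ := Cx.exists_cl _ y'
  rw [Ne, ph_cl] at hy'
  refine ⟨_, cup1_d _ mul_equiv hy hx, fun b hb u => ?_, hy'⟩
  have e : u = ![u 0, u 1, u 2] := by funext j; fin_cases j <;> rfl
  rw [e, cv_cup1, hx2 b hb, map_zero]

theorem not_dvd_relIndex_Fz (D : Subgroup GQ) : ¬ p ∣ (Fz p 1 ⊓ D).relIndex D ∧
    (Fz p 1 ⊓ D).relIndex D ≠ 0 := by
  have h1 : (Fz p 1 ⊓ D).relIndex D ≤ p - 1 := by
    rw [Subgroup.inf_relIndex_right]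
    refine (relIndex_le_index' (Fz p 1) D).trans ?_
    rw [Fz_index 0, pow_zero, one_mul]
  have h2 : (Fz p 1 ⊓ D).relIndex D ≠ 0 := by
    rw [Subgroup.inf_relIndex_right]
    exact relIndex_ne_zero_of _ _
  refine ⟨fun h => ?_, h2⟩
  have h3 := Nat.le_of_dvd (Nat.pos_of_ne_zero h2) h
  have h4 := hp.out.two_le
  omega

/-- two classes at a place are proportional -/
theorem exists_rel (hp2 : p ≠ 2) (a : XS S) {z z0 : (cochCx SL (idG GQ) (χQ p) (XS S)).X 2}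
    (hz : (cochCx SL (idG GQ) (χQ p) (XS S)).d 2 z = 0)
    (hz0 : (cochCx SL (idG GQ) (χQ p) (XS S)).d 2 z0 = 0) (hs : Supp (χQ p) a z)
    (hs0 : Supp (χQ p) a z0) : ∃ u v : ZMod p, (u ≠ 0 ∨ v ≠ 0) ∧
      u • z + v • z0 ∈ (cochCx SL (idG GQ) (χQ p) (XS S)).B 2 := by
  set W : Subgroup GQ := Fz p 1 ⊓ Dec (a : Pl) with hWdef
  have hr : (W.subtype).range = W := W.range_subtype
  have hW : IsLoc (a : Pl) (W.subtype).range := by
    rw [hr]; exact isLoc_inf (Fz_open 1) (a : Pl)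
  have hμ : MuF p (W.subtype).range := by
    rw [hr]; exact fun g hg => muF_Fz g hg.1
  obtain ⟨f1, f2⟩ := fin_H2_loc (ι := W.subtype) hp2 hW hμ
  have hdec : ∀ g ∈ Dec (a : Pl), idG GQ g • a = a := fun g hg => Subtype.ext hg
  have key : ∀ z : (cochCx SL (idG GQ) (χQ p) (XS S)).X 2,
      (cochCx SL (idG GQ) (χQ p) (XS S)).d 2 z = 0 → ∃ F : (TC p SL W.subtype).X 2,
      (TC p SL W.subtype).d 2 F = 0 ∧ ∀ x y w, cv F () ![x, y, w] = cv z a ![x, y, w] := by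
    intro z hz
    obtain ⟨V, hV, hl⟩ := exists_level2 z
    obtain ⟨F, hF⟩ := C2.toX (S := SL) (ι := W.subtype) (p := p) (f := fun x y w => cv z a ![x, y, w])
      ⟨fun w hw x y u => by
        rw [hr] at hw
        have h1 := cv_equiv3 z w a x y u
        rw [hdec w hw.2] at h1
        change cv z a ![w * x, w * y, w * u] = _ at h1
        rw [h1, χQ_Fz hw.1, tr_apply], ⟨V, hV, fun x y w v hv v' hv' v'' hv'' => hl a x y w v hv v' hv' v'' hv''⟩⟩
    refine ⟨F, ?_, hF⟩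
    rw [d_two_iff]
    funext x y w t
    simp only [hF]
    have h1 := congrFun (congrFun (congrArg cv hz) a) ![x, y, w, t]
    rw [cv_d_two] at h1
    exact h1
  obtain ⟨F, hF, hFz⟩ := key z hz
  obtain ⟨F0, hF0, hFz0⟩ := key z0 hz0
  obtain ⟨u, v, huv, hrel⟩ : ∃ u v : ZMod p, (u ≠ 0 ∨ v ≠ 0) ∧
      u • (TC p SL W.subtype).cl 2 F hF + v • (TC p SL W.subtype).cl 2 F0 hF0 = 0 := by
    have f2' : finrank (ZMod p) ((TC p SL W.subtype).H 2) = 1 := f2
    obtain ⟨e, he0, he⟩ := finrank_eq_one_iff'.1 f2'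
    obtain ⟨c, hc⟩ := he ((TC p SL W.subtype).cl 2 F hF)
    obtain ⟨c0, hc0⟩ := he ((TC p SL W.subtype).cl 2 F0 hF0)
    by_cases hcz : c = 0
    · exact ⟨1, 0, Or.inl one_ne_zero, by rw [← hc, hcz]; simp⟩
    · refine ⟨c0, -c, Or.inr (neg_ne_zero.2 hcz), ?_⟩
      rw [← hc, ← hc0, smul_smul, smul_smul, ← add_smul]
      have : c0 * c + -c * c0 = 0 := by ring
      rw [this, zero_smul]
  refine ⟨u, v, huv, ?_⟩
  have hB : u • F + v • F0 ∈ (TC p SL W.subtype).B 2 := by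
    have h1 : (TC p SL W.subtype).d 2 (u • F + v • F0) = 0 := by
      rw [map_add, map_smul, map_smul, hF, hF0, smul_zero, smul_zero, add_zero]
    rw [← Cx.cl_eq_zero _ h1]
    exact hrel
  rw [mem_B2_iff, hr] at hB
  set z' := u • z + v • z0 with hz'
  have hz'd : (cochCx SL (idG GQ) (χQ p) (XS S)).d 2 z' = 0 := by
    rw [hz', map_add, map_smul, map_smul, hz, hz0, smul_zero, smul_zero, add_zero]
  have hz's : Supp (χQ p) a z' := fun b hb x => by
    rw [hz', cv_add, cv_smul, cv_smul, Pi.add_apply, Pi.add_apply, Pi.smul_apply, Pi.smul_apply,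
      Pi.smul_apply, Pi.smul_apply, hs b hb, hs0 b hb, smul_zero, smul_zero, add_zero]
  have hcc : (fun x y w => cv (u • F + v • F0) () ![x, y, w]) = fun x y w => cv z' a ![x, y, w] := by
    funext x y w
    change u • cv F () ![x, y, w] + v • cv F0 () ![x, y, w] = u • cv z a ![x, y, w] + v • cv z0 a ![x, y, w]
    rw [hFz, hFz0]
  rw [hcc] at hB
  obtain ⟨b, hb, hb1⟩ := hB
  obtain ⟨n1, n2⟩ := not_dvd_relIndex_Fz (p := p) (Dec (a : Pl))
  obtain ⟨V, hV, hl⟩ := exists_level2 z'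
  have hC2 : C2 (amx p) SL (Dec (a : Pl)) (fun x y w => cv z' a ![x, y, w]) :=
    ⟨fun w hw x y t => by
      have h1 := cv_equiv3 z' w a x y t
      rw [hdec w hw] at h1
      exact h1, ⟨V, hV, fun x y w v hv v' hv' v'' hv'' => hl a x y w v hv v' hv' v'' hv''⟩⟩
  obtain ⟨b', hb', hb1'⟩ := descend_gen (p := p) (am := amx p) (S := SL) (W := Dec (a : Pl)) (W' := W)
    inf_le_right n2 n1 hC2 (by
      funext x y w
      change p • cv z' a ![x, y, w] = 0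
      rw [nsmul_eq_mul, CharP.cast_eq_zero, zero_mul]) ⟨b, ⟨fun w hw x y => by
        rw [hb.eq w hw, tr_apply, amx_apply, χQ_Fz hw.1], hb.sm⟩, hb1⟩
  refine mem_B_of_supp (χQ p) hz's ?_
  obtain ⟨E, hE⟩ := exists_mk1 (T := SL) (ι := (idG GQ).comp (stb (idG GQ) a).subtype)
    (ρ := (χQ p).comp (stb (idG GQ) a).subtype) (f := b')
    (fun h x y => hb'.eq h (mem_of_stb h.2) x y) hb'.sm
  refine (Cx.mem_B_succ _).2 ⟨E, ?_⟩
  apply cv_injective
  apply funext3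
  intro _ x y w
  rw [cv_d_one, hE, hE, hE, cv_ptRes]
  exact congrFun (congrFun (congrFun hb1' x) y) w

/-- **The invariant at a place is injective.** -/
theorem null_supp (hp2 : p ≠ 2) (hpS : p ∈ S) {a : XS S} {z : (cochCx SL (idG GQ) (χQ p) (XS S)).X 2}
    (hz : (cochCx SL (idG GQ) (χQ p) (XS S)).d 2 z = 0) (hs : Supp (χQ p) a z)
    (hn : Null3 (loc (Sg := SG S) (Sl := SL) SG_SL (idG GQ) (XS S) (χQ p)) z) :
    z ∈ (cochCx SL (idG GQ) (χQ p) (XS S)).B 2 := by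
  obtain ⟨z0, h1, h2, h3⟩ := exists_nonnull hp2 hpS a
  obtain ⟨u, v, huv, hB⟩ := exists_rel hp2 a hz h1 hs h2
  have hv : v = 0 := by
    by_contra hv
    obtain ⟨l, hl⟩ := (Cx.mem_B_succ _).1 hB
    have h4 : z0 = v⁻¹ • ((u • z + v • z0) + -(u • z)) := by
      rw [add_neg_cancel_comm, smul_smul, inv_mul_cancel₀ hv, one_smul]
    apply h3
    rw [h4]
    exact ((Null3.of_B _ hl.symm).add (hn.smul u).neg).smul _
  subst hv
  have hu : u ≠ 0 := huv.resolve_right (fun h => h rfl)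
  rw [zero_smul, add_zero] at hB
  have h5 : z = u⁻¹ • (u • z) := by rw [smul_smul, inv_mul_cancel₀ hu, one_smul]
  rw [h5]
  exact Submodule.smul_mem _ _ hB

end

end Fermat.Agent.CFT
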