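import Fermat.Agent.CFT.GW6

/-!
# Local conditions
-/

set_option autoImplicit false
set_option linter.unusedSectionVars false
set_option linter.unusedVariables false
set_option linter.style.haveILetI false

noncomputable section

namespace Fermat.Agent.CFT

open Module Fermat.Agent.Sel
open scoped Pointwise

section LA

variable {k : Type*} [Field k] {V W : Type*} [AddCommGroup V] [Module k V] [AddCommGroup W]
  [Module k W]

/-- dimension of a preimage -/
theorem la_comap [Module.Finite k V] (f : V →ₗ[k] W) (L : Submodule k W) :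
    finrank k (L.comap f) = finrank k (LinearMap.ker f) + finrank k (LinearMap.range f ⊓ L : Submodule k W) := by
  let g : (L.comap f) →ₗ[k] W := f ∘ₗ (L.comap f).subtype
  have h1 := g.finrank_range_add_finrank_ker
  have h2 : LinearMap.range g = LinearMap.range f ⊓ L := by
    ext y
    constructor
    · rintro ⟨x, rfl⟩
      exact ⟨⟨x, rfl⟩, x.2⟩
    · rintro ⟨⟨x, rfl⟩, hx⟩
      exact ⟨⟨x, hx⟩, rfl⟩
  have h3 : finrank k (LinearMap.ker g) = finrank k (LinearMap.ker f) := by
    refine LinearEquiv.finrank_eq (LinearEquiv.ofBijective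
      ({ toFun := fun x => ⟨((x : LinearMap.ker g) : L.comap f), x.2⟩
         map_add' := fun _ _ => rfl
         map_smul' := fun _ _ => rfl } : LinearMap.ker g →ₗ[k] LinearMap.ker f) ⟨?_, ?_⟩)
    · intro x y h
      exact Subtype.ext (Subtype.ext (congrArg (fun t : LinearMap.ker f => (t : V)) h))
    · rintro ⟨x, hx⟩
      have hx' : x ∈ L.comap f := by
        rw [Submodule.mem_comap, LinearMap.mem_ker.1 hx]
        exact Submodule.zero_mem _
      exact ⟨⟨⟨x, hx'⟩, hx⟩, rfl⟩
  rw [h2, h3] at h1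
  omega

/-- dimension of an image -/
theorem la_map (f : V →ₗ[k] W) (L : Submodule k V) [Module.Finite k L] (h : LinearMap.ker f ≤ L) :
    finrank k (L.map f) + finrank k (LinearMap.ker f) = finrank k L := by
  have h1 := (f.domRestrict L).finrank_range_add_finrank_ker
  have h2 : LinearMap.range (f.domRestrict L) = L.map f := by
    rw [LinearMap.range_domRestrict]
  have h3 : finrank k (LinearMap.ker (f.domRestrict L)) = finrank k (LinearMap.ker f) := by
    refine LinearEquiv.finrank_eq (LinearEquiv.ofBijective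
      ({ toFun := fun x => ⟨((x : LinearMap.ker (f.domRestrict L)) : L), x.2⟩
         map_add' := fun _ _ => rfl
         map_smul' := fun _ _ => rfl } : LinearMap.ker (f.domRestrict L) →ₗ[k] LinearMap.ker f) ⟨?_, ?_⟩)
    · intro x y h
      exact Subtype.ext (Subtype.ext (congrArg (fun t : LinearMap.ker f => (t : V)) h))
    · rintro ⟨x, hx⟩
      exact ⟨⟨⟨x, h hx⟩, hx⟩, rfl⟩
  rw [h2, h3] at h1
  exact h1

end LA

section

variable {k : Type} [Field k] {V : Type} [AddCommGroup V] [Module k V] (r : Representation k GQ V)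
  {S : Finset ℕ}

/-- the decomposition group -/
abbrev DD (a : S → XS S) (v : S) : Subgroup GQ := ((a v : XS S) : Pl).v.decompositionSubgroup ℚ

variable {a : S → XS S}

theorem mem_DD {v : S} {g : GQ} : g ∈ DD a v ↔ g ∈ Dec (a v : Pl) := by rw [dec_eq]

variable (a) in
/-- restriction of a homogeneous cocycle -/
def evL (v : S) : (cochCx SL (idG GQ) r (XS S)).Z 1 →ₗ[k] Z1 r (DD a v) where
  toFun F := ⟨fun σ => cv F.1 (a v) ![1, (σ : GQ)], fun σ τ => ev_mul F.2 (a v) (mem_DD.1 σ.2), by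
    obtain ⟨V0, hV0, h⟩ := ev_level F.2 (a v)
    have h1 := fixing_fixed (Subgroup.isClosed_of_isOpen V0 hV0.2)
    refine ⟨IntermediateField.fixedField V0, finiteDimensional_KW hV0.2, fun σ hσ => h σ ?_⟩
    rw [← h1]
    exact (IntermediateField.mem_fixingSubgroup_iff _ _).2 hσ⟩
  map_add' _ _ := rfl
  map_smul' _ _ := rfl

theorem coe_evL (v : S) (F : (cochCx SL (idG GQ) r (XS S)).Z 1) (σ : DD a v) :
    (evL r a v F : DD a v → V) σ = cv F.1 (a v) ![1, (σ : GQ)] := rfl

theorem B1_le_Z1 (hr : HasLevel SL (idG GQ) r) (D : Subgroup GQ) : B1 r D ≤ Z1 r D := by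
  rintro _ ⟨ξ, rfl⟩
  obtain ⟨V0, hV0, h⟩ := hr
  have h1 := fixing_fixed (Subgroup.isClosed_of_isOpen V0 hV0.2)
  refine ⟨fun σ τ => ?_, IntermediateField.fixedField V0, finiteDimensional_KW hV0.2, fun σ hσ => ?_⟩
  · change r (σ * τ) ξ - ξ = (r σ ξ - ξ) + r σ (r τ ξ - ξ)
    rw [map_mul, map_sub, Module.End.mul_apply]; abel
  · change r σ ξ - ξ = 0
    rw [sub_eq_zero]
    refine h σ ?_ ξ
    rw [← h1]
    exact (IntermediateField.mem_fixingSubgroup_iff _ _).2 hσ

/-- local cocycles modulo coboundaries -/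
abbrev QZ (D : Subgroup GQ) : Type := Z1 r D ⧸ (B1 r D).submoduleOf (Z1 r D)

variable (ha : Places S a)

include ha in
theorem evL_mem_B1_iff (F : (cochCx SL (idG GQ) r (XS S)).Z 1) :
    (F : (cochCx SL (idG GQ) r (XS S)).X 1) ∈ (cochCx SL (idG GQ) r (XS S)).B 1 ↔
      ∀ v, (evL r a v F : DD a v → V) ∈ B1 r (DD a v) := by
  rw [ha.mem_B1_iff r F.2]
  refine forall_congr' fun v => ?_
  constructor
  · rintro ⟨ξ, hξ⟩
    exact ⟨ξ, funext fun σ => (hξ σ (mem_DD.1 σ.2)).symm⟩
  · rintro ⟨ξ, hξ⟩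
    exact ⟨ξ, fun σ hσ => (congrFun hξ ⟨σ, mem_DD.2 hσ⟩).symm⟩

/-- the local class at a place -/
def qL (ha : Places S a) (v : S) : (cochCx SL (idG GQ) r (XS S)).H 1 →ₗ[k] QZ r (DD a v) :=
  Submodule.liftQ _ (Submodule.mkQ _ ∘ₗ evL r a v) (fun F hF => by
    rw [LinearMap.mem_ker]
    change Submodule.Quotient.mk _ = _
    rw [Submodule.Quotient.mk_eq_zero]
    exact (evL_mem_B1_iff r ha F).1 hF v)

theorem qL_cl (v : S) (F : (cochCx SL (idG GQ) r (XS S)).X 1)
    (hF : (cochCx SL (idG GQ) r (XS S)).d 1 F = 0) :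
    qL r ha v ((cochCx SL (idG GQ) r (XS S)).cl 1 F hF) = Submodule.Quotient.mk (evL r a v ⟨F, hF⟩) := rfl

theorem qL_inj {z : (cochCx SL (idG GQ) r (XS S)).H 1} (h : ∀ v, qL r ha v z = 0) : z = 0 := by
  obtain ⟨F, hF, rfl⟩ := Cx.exists_cl _ z
  rw [Cx.cl_eq_zero]
  refine (evL_mem_B1_iff r ha ⟨F, hF⟩).2 fun v => ?_
  have := h v
  rw [qL_cl, Submodule.Quotient.mk_eq_zero] at this
  exact this

/-- a class supported at one place -/
theorem exists_at (v : S) (c : Z1 r (DD a v)) : ∃ F : (cochCx SL (idG GQ) r (XS S)).Z 1,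
    evL r a v F = c ∧ Supp r (a v) F.1 := by
  classical
  obtain ⟨F0, hF0, hfix⟩ := c.2.2
  let c' : GQ → V := fun σ => if h : σ ∈ DD a v then (c : DD a v → V) ⟨σ, h⟩ else 0
  have hc' : ∀ σ (h : σ ∈ DD a v), c' σ = (c : DD a v → V) ⟨σ, h⟩ := fun σ h => dif_pos h
  obtain ⟨F, h1, h2, h3⟩ := exists_supp r (a v) (c := c') (fun σ hσ τ hτ => by
      rw [hc' _ (mem_DD.2 (mul_mem hσ hτ)), hc' _ (mem_DD.2 hσ), hc' _ (mem_DD.2 hτ)]
      exact c.2.1 ⟨σ, mem_DD.2 hσ⟩ ⟨τ, mem_DD.2 hτ⟩) (by
      obtain ⟨V0, hV0, hle⟩ := SL_exists (IntermediateField.fixingSubgroup_isOpen F0)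
      refine ⟨V0, hV0, fun g hg hgD => ?_⟩
      rw [hc' _ (mem_DD.2 hgD)]
      exact hfix _ ((IntermediateField.mem_fixingSubgroup_iff _ _).1 (hle hg)))
  refine ⟨⟨F, h1⟩, Subtype.ext (funext fun σ => ?_), h3⟩
  rw [coe_evL]
  change cv F (a v) ![1, (σ : GQ)] = _
  rw [h2 σ (mem_DD.1 σ.2), hc' _ σ.2]

include ha in
theorem evL_supp_ne {v w : S} (hvw : v ≠ w) {F : (cochCx SL (idG GQ) r (XS S)).Z 1}
    (hF : Supp r (a v) F.1) : evL r a w F = 0 := by
  apply Subtype.ext
  funext σ
  rw [coe_evL]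
  exact hF (a w) (fun h => hvw (ha.disj v w h)) _

theorem qL_surj (y : ∀ v, QZ r (DD a v)) : ∃ z, ∀ v, qL r ha v z = y v := by
  classical
  choose c hc using fun v => Submodule.Quotient.mk_surjective _ (y v)
  choose F hF hFs using fun v => exists_at (a := a) r v (c v)
  refine ⟨∑ v, (cochCx SL (idG GQ) r (XS S)).cl 1 (F v).1 (F v).2, fun w => ?_⟩
  rw [map_sum, Finset.sum_eq_single w]
  · rw [qL_cl]
    change Submodule.Quotient.mk (evL r a w (F w)) = _
    rw [hF, hc]
  · intro v _ hv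
    rw [qL_cl]
    change Submodule.Quotient.mk (evL r a w (F v)) = _
    rw [evL_supp_ne r ha hv (hFs v)]
    rfl
  · intro h; exact absurd (Finset.mem_univ _) h

/-- the subspace of classes satisfying local conditions -/
def LamS (ha : Places S a) (L : ∀ v : S, Submodule k (DD a v → V)) :
    Submodule k ((cochCx SL (idG GQ) r (XS S)).H 1) :=
  ⨅ v, (((L v).submoduleOf (Z1 r (DD a v))).map (Submodule.mkQ _)).comap (qL r ha v)

variable {L : ∀ v : S, Submodule k (DD a v → V)} (hB : ∀ v, B1 r (DD a v) ≤ L v)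
  (hZ : ∀ v, L v ≤ Z1 r (DD a v))

include hB in
theorem mem_LamS {F : (cochCx SL (idG GQ) r (XS S)).X 1}
    (hF : (cochCx SL (idG GQ) r (XS S)).d 1 F = 0) :
    (cochCx SL (idG GQ) r (XS S)).cl 1 F hF ∈ LamS r ha L ↔
      ∀ v, (evL r a v ⟨F, hF⟩ : DD a v → V) ∈ L v := by
  rw [LamS, Submodule.mem_iInf]
  refine forall_congr' fun v => ?_
  rw [Submodule.mem_comap, qL_cl]
  constructor
  · rintro ⟨y, hy, h⟩
    have h1 : y - evL r a v ⟨F, hF⟩ ∈ (B1 r (DD a v)).submoduleOf (Z1 r (DD a v)) :=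
      (Submodule.Quotient.eq _).1 h
    have h2 := hB v h1
    have h3 := Submodule.sub_mem _ (show (y : DD a v → V) ∈ L v from hy) h2
    have h4 : (y : DD a v → V) - ((Z1 r (DD a v)).subtype (y - evL r a v ⟨F, hF⟩)) =
      (evL r a v ⟨F, hF⟩ : DD a v → V) := by
      rw [map_sub]; exact sub_sub_cancel _ _
    rwa [h4] at h3
  · intro h
    exact ⟨_, h, rfl⟩

theorem finite_QZ [Module.Finite k ((cochCx SL (idG GQ) r (XS S)).H 1)] (ha : Places S a) (v : S) :
    Module.Finite k (QZ r (DD a v)) := by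
  classical
  refine Module.Finite.of_surjective (qL r ha v) fun y => ?_
  obtain ⟨z, hz⟩ := qL_surj r ha (fun w => if h : v = w then h ▸ y else 0)
  refine ⟨z, ?_⟩
  rw [hz v, dif_pos rfl]

theorem finite_B1 [Module.Finite k V] (D : Subgroup GQ) : Module.Finite k (B1 r D) := by
  rw [B1]; infer_instance

theorem finite_Z1 [Module.Finite k V] (hr : HasLevel SL (idG GQ) r)
    [Module.Finite k ((cochCx SL (idG GQ) r (XS S)).H 1)] (ha : Places S a)
    (v : S) : Module.Finite k (Z1 r (DD a v)) := by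
  haveI := finite_QZ r ha v
  haveI := finite_B1 r (DD a v)
  haveI : Module.Finite k ((B1 r (DD a v)).submoduleOf (Z1 r (DD a v))) :=
    Module.Finite.equiv (Submodule.submoduleOfEquivOfLe (B1_le_Z1 r hr (DD a v))).symm
  exact Module.Finite.of_submodule_quotient ((B1 r (DD a v)).submoduleOf (Z1 r (DD a v)))

/-- dimension of the space of classes with local conditions -/
theorem finrank_LamS [Module.Finite k V] (hr : HasLevel SL (idG GQ) r)
    [Module.Finite k ((cochCx SL (idG GQ) r (XS S)).H 1)] (ha : Places S a)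
    {L : ∀ v : S, Submodule k (DD a v → V)} (hB : ∀ v, B1 r (DD a v) ≤ L v)
    (hZ : ∀ v, L v ≤ Z1 r (DD a v)) :
    finrank k (LamS r ha L) + ∑ v, finrank k (B1 r (DD a v)) = ∑ v, finrank k (L v) := by
  classical
  haveI := fun v => finite_QZ r ha v
  haveI := fun v => finite_Z1 r hr ha v
  haveI : ∀ v, Module.Finite k ((L v).submoduleOf (Z1 r (DD a v))) := fun v => inferInstance
  let Lq : ∀ v, Submodule k (QZ r (DD a v)) := fun v =>
    ((L v).submoduleOf (Z1 r (DD a v))).map (Submodule.mkQ _)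
  haveI : ∀ v, Module.Free k (Lq v) := fun v => Module.Free.of_divisionRing k _
  haveI : ∀ v, Module.Finite k (Lq v) := fun v => inferInstance
  have h1 : finrank k (LamS r ha L) = ∑ v, finrank k (Lq v) := by
    rw [← Module.finrank_pi_fintype k]
    refine LinearEquiv.finrank_eq (LinearEquiv.ofBijective
      (LinearMap.pi fun v => ((qL r ha v).restrict (p := LamS r ha L) (q := Lq v) fun z hz =>
        (Submodule.mem_iInf _).1 hz v) : LamS r ha L →ₗ[k] ∀ v, Lq v) ⟨?_, ?_⟩)
    · rw [injective_iff_map_eq_zero]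
      intro z hz
      apply Subtype.ext
      refine qL_inj r ha fun v => ?_
      exact congrArg Subtype.val (congrFun hz v)
    · intro y
      obtain ⟨z, hz⟩ := qL_surj r ha fun v => (y v : QZ r (DD a v))
      refine ⟨⟨z, (Submodule.mem_iInf _).2 fun v => ?_⟩, ?_⟩
      · rw [Submodule.mem_comap, hz v]; exact (y v).2
      · funext v
        exact Subtype.ext (hz v)
  have h2 : ∀ v, finrank k (Lq v) + finrank k (B1 r (DD a v)) = finrank k (L v) := fun v => by
    have h3 := la_map (Submodule.mkQ ((B1 r (DD a v)).submoduleOf (Z1 r (DD a v))))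
      ((L v).submoduleOf (Z1 r (DD a v))) (by
        rw [Submodule.ker_mkQ]
        exact Submodule.comap_mono (hB v))
    rw [Submodule.ker_mkQ, (Submodule.submoduleOfEquivOfLe (B1_le_Z1 r hr (DD a v))).finrank_eq,
      (Submodule.submoduleOfEquivOfLe (hZ v)).finrank_eq] at h3
    exact h3
  rw [h1, ← Finset.sum_add_distrib]
  exact Finset.sum_congr rfl fun v _ => h2 v

theorem finrank_B1 [Module.Finite k V] (D : Subgroup GQ) :
    finrank k (B1 r D) + finrank k (H0 r D) = finrank k V := by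
  have h1 := (LinearMap.pi fun σ : D => (r σ - 1 : Module.End k V)).finrank_range_add_finrank_ker
  have h2 : LinearMap.ker (LinearMap.pi fun σ : D => (r σ - 1 : Module.End k V)) = H0 r D := by
    ext x
    rw [LinearMap.mem_ker]
    constructor
    · intro h σ hσ
      exact sub_eq_zero.1 (congrFun h ⟨σ, hσ⟩)
    · intro h
      funext σ
      exact sub_eq_zero.2 (h σ σ.2)
  rw [h2] at h1
  exact h1

end

end Fermat.Agent.CFT
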