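import Fermat.Agent.CFT.GW7

/-!
# Selmer spaces
-/

set_option autoImplicit false
set_option linter.unusedSectionVars false
set_option linter.unusedVariables false
set_option linter.style.haveILetI false

noncomputable section

namespace Fermat.Agent.CFT

open Module Fermat.Agent.Sel
open scoped Pointwise

section

variable {p : ℕ} [hp : Fact p.Prime]

theorem χQ_eq_cyc (g : GQ) (c : ZMod p) : χQ p g c = GalRep.cyc p g * c := by
  haveI : NeZero p := ⟨hp.out.ne_zero⟩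
  rw [χQ_apply]
  congr 1
  symm
  have h1 : ∀ x : AlgebraicClosure ℚ, x ^ p = 1 → g x = x ^ (ExtCitation.cycloChar p g : ZMod p).val := by
    intro x hx
    have h2 : x ≠ 0 := fun h => by
      rw [h, zero_pow hp.out.ne_zero] at hx
      exact zero_ne_one hx
    have h3 : IsUnit x := IsUnit.mk0 x h2
    have hu : h3.unit ^ p = 1 := Units.ext (by rw [Units.val_pow_eq_pow_val, IsUnit.unit_spec, hx]; rfl)
    have h4 := modularCyclotomicCharacter.spec (L := Qb) (g := (g : Qb ≃+* Qb)) (n := p)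
      (ExtCitation.card_rootsOfUnity_eq_self p) (t := h3.unit) ((mem_rootsOfUnity p _).2 hu)
    exact h4
  rw [GalRep.cyc_eq_of_forall p g _ h1, ZMod.natCast_zmod_val]

end

section

variable {k : Type} [Field k] {V : Type} [AddCommGroup V] [Module k V] (r : Representation k GQ V)
  {S : Finset ℕ}

/-- the inhomogeneous cocycle of a global homogeneous cocycle -/
def evG (S : Finset ℕ) : (cochCx (SG S) (idG GQ) r Unit).Z 1 →ₗ[k] (GQ → V) where
  toFun F σ := cv F.1 () ![1, σ]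
  map_add' _ _ := rfl
  map_smul' _ _ := rfl

theorem cv_hom {F : (cochCx (SG S) (idG GQ) r Unit).X 1} (x y : GQ) :
    cv F () ![x, y] = r x (cv F () ![1, x⁻¹ * y]) := by
  have h1 := cv_equiv2 F x () 1 (x⁻¹ * y)
  change cv F () ![x * 1, x * (x⁻¹ * y)] = _ at h1
  rwa [mul_one, mul_inv_cancel_left] at h1

theorem evG_inj : Function.Injective (evG r S) := by
  rw [injective_iff_map_eq_zero]
  intro F hF
  apply Subtype.ext
  apply cv_injective
  apply funext2
  intro _ x y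
  rw [cv_hom]
  have h1 : cv F.1 () ![1, x⁻¹ * y] = 0 := congrFun hF (x⁻¹ * y)
  rw [h1, map_zero]
  rfl

theorem evG_mul (F : (cochCx (SG S) (idG GQ) r Unit).Z 1) (σ τ : GQ) :
    evG r S F (σ * τ) = evG r S F σ + r σ (evG r S F τ) := inh_mul F.2 σ τ

theorem evG_level (F : (cochCx (SG S) (idG GQ) r Unit).Z 1) :
    ∃ V0 ∈ (SG S).carrier, ∀ v ∈ V0, evG r S F v = 0 := inh_level F.2

theorem exists_evG (hr : HasLevel (SG S) (idG GQ) r) {c : GQ → V}
    (hc : ∀ σ τ : GQ, c (σ * τ) = c σ + r σ (c τ))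
    (hlc : ∃ F : IntermediateField ℚ Qb, FiniteDimensional ℚ F ∧
      ∀ σ : GQ, (∀ x ∈ F, σ x = x) → c σ = 0)
    (hun : ∀ A : Pl, A.ell ∉ S → ∀ σ ∈ Ine A, c σ = 0) :
    ∃ F : (cochCx (SG S) (idG GQ) r Unit).Z 1, evG r S F = c := by
  obtain ⟨V1, hV1, h1⟩ := hr
  have hr1 : ∀ g ∈ V1, ∀ x, r g x = x := h1
  have hc1 : c 1 = 0 := by
    have := hc 1 1
    rw [mul_one, map_one] at this
    exact left_eq_add.1 this
  have hci : ∀ g, c g⁻¹ = -(r g⁻¹ (c g)) := fun g => by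
    have := hc g⁻¹ g
    rw [inv_mul_cancel, hc1] at this
    exact eq_neg_of_add_eq_zero_left this.symm
  let N : Subgroup GQ :=
    { carrier := {g | g ∈ V1 ∧ c g = 0}
      one_mem' := ⟨one_mem _, hc1⟩
      mul_mem' := fun {g h} hg hh => ⟨mul_mem hg.1 hh.1, by rw [hc, hg.2, hh.2, map_zero, add_zero]⟩
      inv_mem' := fun {g} hg => ⟨inv_mem hg.1, by rw [hci, hg.2, map_zero, neg_zero]⟩ }
  have hN : N ∈ (SG S).carrier := by
    refine ⟨⟨fun n hn g => ⟨hV1.1.conj_mem n hn.1 g, ?_⟩⟩, ?_, fun A hA g hg => ⟨hV1.2.2 A hA hg, hun A hA g hg⟩⟩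
    · rw [hc, hc, hn.2, map_zero, add_zero, map_mul, Module.End.mul_apply, hr1 n hn.1, ← hc,
        mul_inv_cancel, hc1]
    · obtain ⟨F, hF, hF2⟩ := hlc
      refine Subgroup.isOpen_mono (H₁ := V1 ⊓ F.fixingSubgroup) (fun g hg => ⟨hg.1, hF2 g ?_⟩) ?_
      · exact (IntermediateField.mem_fixingSubgroup_iff _ _).1 hg.2
      · exact hV1.2.1.inter (IntermediateField.fixingSubgroup_isOpen F)
  have hsm : ∀ x y, ∀ v ∈ N, ∀ v' ∈ N, r (x * v) (c ((x * v)⁻¹ * (y * v'))) = r x (c (x⁻¹ * y)) := by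
    intro x y v hv v' hv'
    have e1 : (x * v)⁻¹ * (y * v') = v⁻¹ * ((x⁻¹ * y) * v') := by group
    have hv1 := inv_mem hv
    have hn : r v⁻¹ (c (x⁻¹ * y)) = c (x⁻¹ * y) := hr1 _ hv1.1 _
    rw [e1, hc, hv1.2, zero_add, hc, hv'.2, map_zero, add_zero, hn, map_mul, Module.End.mul_apply,
      hr1 v hv.1]
  obtain ⟨F, hF⟩ := exists_mk1 (T := SG S) (ι := idG GQ) (ρ := r) (f := fun x y => r x (c (x⁻¹ * y)))
    (fun h x y => by
      change r (h * x) (c ((h * x)⁻¹ * (h * y))) = r h (r x (c (x⁻¹ * y)))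
      have : (h * x)⁻¹ * (h * y) = x⁻¹ * y := by group
      rw [this, map_mul]; rfl) ⟨N, hN, hsm⟩
  have hd : (cochCx (SG S) (idG GQ) r Unit).d 1 F = 0 := by
    apply cv_injective
    apply funext3
    intro _ x y z
    rw [cv_d_one, hF, hF, hF]
    have h2 : x⁻¹ * z = (x⁻¹ * y) * (y⁻¹ * z) := by group
    have h3 : r x (r (x⁻¹ * y) (c (y⁻¹ * z))) = r y (c (y⁻¹ * z)) := by
      rw [← Module.End.mul_apply, ← map_mul, mul_inv_cancel_left]
    rw [h2, hc (x⁻¹ * y) (y⁻¹ * z), map_add, h3]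
    change _ = (0 : V)
    abel
  refine ⟨⟨F, hd⟩, funext fun σ => ?_⟩
  change cv F () ![1, σ] = c σ
  rw [hF, map_one, inv_one, one_mul]
  rfl

variable (A : S → ValuationSubring Qb) (hA : ∀ v, (A v).LiesOverPrime (v : ℕ))
  (hpr : ∀ v ∈ S, v.Prime)

/-- the points given by the places -/
abbrev aA (hA : ∀ v, (A v).LiesOverPrime (v : ℕ)) (hpr : ∀ v ∈ S, v.Prime) (v : S) : XS S :=
  ⟨⟨A v, (v : ℕ), hpr v v.2, hA v⟩, by
    rw [Pl.ell_unique ⟨A v, (v : ℕ), hpr v v.2, hA v⟩ (hpr v v.2) (hA v)]; exact v.2⟩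

theorem places_aA : Places S (aA A hA hpr) :=
  ⟨fun v => Pl.ell_unique ⟨A v, (v : ℕ), hpr v v.2, hA v⟩ (hpr v v.2) (hA v)⟩

/-- localisation of cocycles -/
def locZ (S : Finset ℕ) : (cochCx (SG S) (idG GQ) r Unit).Z 1 →ₗ[k] (cochCx SL (idG GQ) r (XS S)).Z 1 :=
  (loc (Sg := SG S) (Sl := SL) SG_SL (idG GQ) (XS S) r).mapZ 1

theorem evL_locZ (v : S) (F : (cochCx (SG S) (idG GQ) r Unit).Z 1) :
    (evL r (aA A hA hpr) v (locZ r S F) : (A v).decompositionSubgroup ℚ → V) =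
      fun σ : (A v).decompositionSubgroup ℚ => evG r S F (σ : GQ) := rfl

variable (L : ∀ v : S, Submodule k ((A v).decompositionSubgroup ℚ → V))

theorem mem_SelZ_iff (hr : HasLevel (SG S) (idG GQ) r) (c : GQ → V) : c ∈ SelZ r S A L ↔
    ∃ F : (cochCx (SG S) (idG GQ) r Unit).Z 1, evG r S F = c ∧
      ∀ v, (evL r (aA A hA hpr) v (locZ r S F) : (A v).decompositionSubgroup ℚ → V) ∈ L v := by
  constructor
  · rintro ⟨h1, h2, h3, h4⟩
    obtain ⟨F, hF⟩ := exists_evG r hr h1 h2 (fun B hB σ hσ => h3 B.ell B.ell_prime hB B.v B.liesOver_ell σ hσ)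
    refine ⟨F, hF, fun v => ?_⟩
    rw [evL_locZ, hF]
    exact h4 v
  · rintro ⟨F, rfl, hL⟩
    obtain ⟨V0, hV0, h⟩ := evG_level r F
    have h1 := fixing_fixed (Subgroup.isClosed_of_isOpen V0 hV0.2.1)
    refine ⟨evG_mul r F, ⟨IntermediateField.fixedField V0, finiteDimensional_KW hV0.2.1, fun σ hσ => h σ ?_⟩,
      fun l hl hlS B hB σ hσ => h σ ?_, fun v => ?_⟩
    · rw [← h1]
      exact (IntermediateField.mem_fixingSubgroup_iff _ _).2 hσ
    · refine hV0.2.2 ⟨B, l, hl, hB⟩ ?_ hσ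
      rw [Pl.ell_unique ⟨B, l, hl, hB⟩ hl hB]
      exact hlS
    · have := hL v
      rwa [evL_locZ] at this

/-- coboundaries -/
def cobZ (hr : HasLevel (SG S) (idG GQ) r) : V →ₗ[k] (cochCx (SG S) (idG GQ) r Unit).Z 1 where
  toFun ξ := ⟨mkc (fun _ x => r (x 1) ξ - r (x 0) ξ) (by
    constructor
    · intro h _ x
      change r (h * x 1) ξ - r (h * x 0) ξ = r h (r (x 1) ξ - r (x 0) ξ)
      rw [map_mul, map_mul, map_sub]; rfl
    · obtain ⟨V1, hV1, h1⟩ := hr
      refine ⟨V1, hV1, fun _ x y hxy => ?_⟩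
      have h2 : ∀ i, r (x i) ξ = r (y i) ξ := fun i => by
        have e : y i = x i * ((x i)⁻¹ * y i) := by group
        rw [e, map_mul, Module.End.mul_apply]
        exact (congrArg (r (x i)) (h1 _ (hxy i) ξ)).symm
      beta_reduce
      rw [h2, h2]), by
    apply cv_injective
    apply funext3
    intro _ x y z
    rw [cv_d_one]
    change (r z ξ - r y ξ) - (r z ξ - r x ξ) + (r y ξ - r x ξ) = 0
    abel⟩
  map_add' ξ η := by
    apply Subtype.ext
    apply cv_injective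
    apply funext2
    intro _ x y
    change r y (ξ + η) - r x (ξ + η) = (r y ξ - r x ξ) + (r y η - r x η)
    rw [map_add, map_add]; abel
  map_smul' c ξ := by
    apply Subtype.ext
    apply cv_injective
    apply funext2
    intro _ x y
    change r y (c • ξ) - r x (c • ξ) = c • (r y ξ - r x ξ)
    rw [map_smul, map_smul, smul_sub]

theorem cv_cobZ (hr : HasLevel (SG S) (idG GQ) r) (ξ : V) (x y : GQ) :
    cv (cobZ r hr ξ).1 () ![x, y] = r y ξ - r x ξ := rfl

theorem ker_cobZ (hr : HasLevel (SG S) (idG GQ) r) : LinearMap.ker (cobZ r hr) = inv r := by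
  ext ξ
  rw [LinearMap.mem_ker, mem_inv]
  constructor
  · intro h g
    have h1 := congrArg (fun F : (cochCx (SG S) (idG GQ) r Unit).Z 1 => cv F.1 () ![1, g]) h
    change r g ξ - r 1 ξ = 0 at h1
    rw [map_one, sub_eq_zero] at h1
    exact h1
  · intro h
    apply Subtype.ext
    apply cv_injective
    apply funext2
    intro _ x y
    rw [cv_cobZ, h, h, sub_self]
    rfl

theorem range_cobZ (hr : HasLevel (SG S) (idG GQ) r) : LinearMap.range (cobZ r hr) =
    ((cochCx (SG S) (idG GQ) r Unit).B 1).submoduleOf ((cochCx (SG S) (idG GQ) r Unit).Z 1) := by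
  ext F
  constructor
  · rintro ⟨ξ, rfl⟩
    refine mem_B1_of_inh (cobZ r hr ξ).2 ξ fun h => ?_
    change r h ξ - r 1 ξ = _
    rw [map_one]; rfl
  · intro h
    obtain ⟨ξ, hξ⟩ := inh_of_mem_B1 h
    refine ⟨ξ, ?_⟩
    apply evG_inj
    funext σ
    have h2 : cv F.1 () ![1, σ] = r σ ξ - ξ := hξ σ
    change r σ ξ - r 1 ξ = cv F.1 () ![1, σ]
    rw [h2, map_one]; rfl

theorem finrank_SelZ [Module.Finite k V] (hr : HasLevel (SG S) (idG GQ) r)
    [Module.Finite k ((cochCx (SG S) (idG GQ) r Unit).H 1)]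
    (hB : ∀ v, B1 r ((A v).decompositionSubgroup ℚ) ≤ L v) :
    Module.Finite k (SelZ r S A L) ∧ finrank k (SelZ r S A L) + finrank k (inv r) =
      finrank k V + (loc (Sg := SG S) (Sl := SL) SG_SL (idG GQ) (XS S) r).sh 1 +
      finrank k (LinearMap.range ((loc (Sg := SG S) (Sl := SL) SG_SL (idG GQ) (XS S) r).H 1) ⊓
        LamS r (places_aA A hA hpr) L : Submodule k _) := by
  set C := cochCx (SG S) (idG GQ) r Unit with hC
  let Q : C.Z 1 →ₗ[k] C.H 1 := Submodule.mkQ _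
  let Λ := LamS r (places_aA A hA hpr) L
  have hker : LinearMap.ker Q = LinearMap.range (cobZ r hr) := by
    rw [range_cobZ]; exact Submodule.ker_mkQ _
  haveI : Module.Finite k ((C.B 1).submoduleOf (C.Z 1)) := by
    rw [← range_cobZ r hr]; infer_instance
  haveI : Module.Finite k (C.Z 1) := Module.Finite.of_submodule_quotient ((C.B 1).submoduleOf (C.Z 1))
  have h1 := la_comap Q (Λ.comap ((loc (Sg := SG S) (Sl := SL) SG_SL (idG GQ) (XS S) r).H 1))
  have h2 := la_comap ((loc (Sg := SG S) (Sl := SL) SG_SL (idG GQ) (XS S) r).H 1) Λ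
  have h3 : LinearMap.range Q = ⊤ := Submodule.range_mkQ _
  rw [h3, top_inf_eq, hker] at h1
  have h4 := (cobZ r hr).finrank_range_add_finrank_ker
  rw [ker_cobZ] at h4
  have h5 : SelZ r S A L =
      ((Λ.comap ((loc (Sg := SG S) (Sl := SL) SG_SL (idG GQ) (XS S) r).H 1)).comap Q).map (evG r S) := by
    ext c
    rw [mem_SelZ_iff r A hA hpr L hr]
    constructor
    · rintro ⟨F, rfl, hF⟩
      refine ⟨F, ?_, rfl⟩
      exact (mem_LamS r (places_aA A hA hpr) hB (locZ r S F).2).2 hF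
    · rintro ⟨F, hF, rfl⟩
      exact ⟨F, rfl, (mem_LamS r (places_aA A hA hpr) hB (locZ r S F).2).1 hF⟩
  have h6 : finrank k (SelZ r S A L) =
      finrank k ((Λ.comap ((loc (Sg := SG S) (Sl := SL) SG_SL (idG GQ) (XS S) r).H 1)).comap Q) := by
    rw [h5]
    exact (Submodule.equivMapOfInjective (evG r S) (evG_inj r) _).finrank_eq.symm
  refine ⟨by rw [h5]; infer_instance, ?_⟩
  have h7 : finrank k (LinearMap.ker ((loc (Sg := SG S) (Sl := SL) SG_SL (idG GQ) (XS S) r).H 1)) =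
    (loc (Sg := SG S) (Sl := SL) SG_SL (idG GQ) (XS S) r).sh 1 := rfl
  change finrank k (SelZ r S A L) + finrank k (inv r) = finrank k V + _ + finrank k
    (LinearMap.range ((loc (Sg := SG S) (Sl := SL) SG_SL (idG GQ) (XS S) r).H 1) ⊓ Λ : Submodule k _)
  have h8 := h6.trans h1
  rw [h8, h2, h7]
  have h9 : finrank k (LinearMap.range (cobZ r hr)) + finrank k (inv r) = finrank k V := h4
  rw [← h9]
  ring

end

end Fermat.Agent.CFT
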