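import Fermat.Agent.CFT.GW8

/-!
# The inequality of Greenberg and Wiles, given the Euler characteristic
-/

set_option autoImplicit false
set_option linter.unusedSectionVars false
set_option linter.unusedVariables false
set_option linter.style.haveILetI false

noncomputable section

namespace Fermat.Agent.CFT

open Module Fermat.Agent.Sel
open scoped Pointwise

variable {p : ℕ} [hp : Fact p.Prime] {V V' : Type} [AddCommGroup V] [Module (ZMod p) V]
  [AddCommGroup V'] [Module (ZMod p) V'] {S : Finset ℕ}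
  {r : GQ →* Module.End (ZMod p) V} {r' : GQ →* Module.End (ZMod p) V'}
  {B : V →ₗ[ZMod p] V' →ₗ[ZMod p] ZMod p}

theorem hasLevel_of_unr {k W : Type} [Field k] [AddCommGroup W] [Module k W]
    (r : GQ →* Module.End k W)
    (h1 : ∃ F : IntermediateField ℚ Qb, FiniteDimensional ℚ F ∧ ∀ σ : GQ, (∀ x ∈ F, σ x = x) → r σ = 1)
    (h2 : ∀ l : ℕ, l.Prime → l ∉ S → ∀ A : ValuationSubring Qb, A.LiesOverPrime l →
      ∀ σ ∈ A.inertiaSubgroupIn ℚ, r σ = 1) : HasLevel (SG S) (idG GQ) (r : Representation k GQ W) := by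
  obtain ⟨F, hF, h⟩ := h1
  refine ⟨r.ker, ⟨MonoidHom.normal_ker r, ?_, fun A hA σ hσ => ?_⟩, fun g hg m => ?_⟩
  · refine Subgroup.isOpen_mono (H₁ := F.fixingSubgroup) (fun g hg => ?_)
      (IntermediateField.fixingSubgroup_isOpen F)
    exact MonoidHom.mem_ker.2 (h g ((IntermediateField.mem_fixingSubgroup_iff _ _).1 hg))
  · exact MonoidHom.mem_ker.2 (h2 A.ell A.ell_prime hA A.v A.liesOver_ell σ hσ)
  · have : r g = 1 := MonoidHom.mem_ker.1 hg
    change r g m = m
    rw [this]; rfl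

theorem DualReps.lev (hD : DualReps p S r r' B) : HasLevel (SG S) (idG GQ) (r : Representation _ GQ V) :=
  hasLevel_of_unr r (by
    obtain ⟨F, hF, h⟩ := hD.lc
    exact ⟨F, hF, fun σ hσ => (h σ hσ).1⟩) fun l hl hlS A hA σ hσ => (hD.unr l hl hlS A hA σ hσ).1

theorem DualReps.lev' (hD : DualReps p S r r' B) : HasLevel (SG S) (idG GQ) (r' : Representation _ GQ V') :=
  hasLevel_of_unr r' (by
    obtain ⟨F, hF, h⟩ := hD.lc
    exact ⟨F, hF, fun σ hσ => (h σ hσ).2⟩) fun l hl hlS A hA σ hσ => (hD.unr l hl hlS A hA σ hσ).2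

theorem DualReps.eqχ (hD : DualReps p S r r' B) (h : GQ) (a : V) (m : V') :
    B ((r : Representation _ GQ V) h a) ((r' : Representation _ GQ V') h m) = χQ p h (B a m) := by
  rw [χQ_eq_cyc]; exact hD.eq h a m

theorem HasLevel.toSL {k W : Type} [Field k] [AddCommGroup W] [Module k W]
    {r : Representation k GQ W} (h : HasLevel (SG S) (idG GQ) r) : HasLevel SL (idG GQ) r := by
  obtain ⟨V, hV, h⟩ := h
  exact ⟨V, ⟨hV.1, hV.2.1⟩, h⟩

theorem B1_le_Perp (hD : DualReps p S r r' B) (D : Subgroup GQ) {L : Submodule (ZMod p) (D → V)}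
    (hZ : L ≤ Z1 r D) : B1 r' D ≤ Perp r' B (GalRep.cyc p) D L := by
  rintro _ ⟨ξ, rfl⟩
  refine ⟨B1_le_Z1 (r' : Representation _ GQ V') (HasLevel.toSL (DualReps.lev' hD)) D ⟨ξ, rfl⟩, fun c hc => ?_⟩
  have hc := hZ hc
  obtain ⟨F, hF, h1⟩ := hc.2
  refine ⟨fun σ => -(B (c σ) (r' σ ξ)), ⟨F, hF, fun σ hσ => ?_⟩, fun σ τ => ?_⟩
  · beta_reduce
    rw [h1 σ hσ, map_zero, LinearMap.zero_apply, neg_zero]
  · have h2 : B (r σ (c τ)) (r' (σ * τ) ξ) = GalRep.cyc p σ * B (c τ) (r' τ ξ) := by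
      rw [map_mul, Module.End.mul_apply]; exact hD.eq _ _ _
    change B (c σ) (r' σ (r' τ ξ - ξ)) = -(B (c σ) (r' σ ξ)) + GalRep.cyc p σ * -(B (c τ) (r' τ ξ)) -
      -(B (c (σ * τ)) (r' (σ * τ : GQ) ξ))
    rw [hc.1 σ τ, map_add, LinearMap.add_apply, h2, map_sub, map_sub, map_mul, Module.End.mul_apply]
    ring

variable [FiniteDimensional (ZMod p) V] [FiniteDimensional (ZMod p) V']
  (hp2 : p ≠ 2) (hD : DualReps p S r r' B) (A : S → ValuationSubring Qb)
  (hA : ∀ v, (A v).LiesOverPrime (v : ℕ))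

/-- global cochains -/
abbrev CG (S : Finset ℕ) {W : Type} [AddCommGroup W] [Module (ZMod p) W]
    (r : GQ →* Module.End (ZMod p) W) : Cx.{0, 0} (ZMod p) :=
  cochCx (SG S) (idG GQ) (r : Representation (ZMod p) GQ W) Unit

/-- local cochains -/
abbrev CP (S : Finset ℕ) {W : Type} [AddCommGroup W] [Module (ZMod p) W]
    (r : GQ →* Module.End (ZMod p) W) : Cx.{0, 0} (ZMod p) :=
  cochCx SL (idG GQ) (r : Representation (ZMod p) GQ W) (XS S)

/-- localisation -/
abbrev LC (S : Finset ℕ) {W : Type} [AddCommGroup W] [Module (ZMod p) W]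
    (r : GQ →* Module.End (ZMod p) W) : Cx.Hom (CG S r) (CP S r) :=
  loc (Sg := SG S) (Sl := SL) SG_SL (idG GQ) (XS S) (r : Representation (ZMod p) GQ W)

include hp2 hD

/-- A cocycle supported at one place, orthogonal to `w` in `T³`, is orthogonal to `w` locally. -/
theorem cup0_of_null (v : S) (c : Z1 (r : Representation _ GQ V) (DD (aA A hA hD.prime) v))
    {F : (CP S r).Z 1} (hF : evL (r : Representation _ GQ V) (aA A hA hD.prime) v F = c)
    (hs : Supp (r : Representation _ GQ V) (aA A hA hD.prime v) F.1) {y : (CP S r').X 1}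
    (hy : (CP S r').d 1 y = 0)
    (hn : Null3 (loc (Sg := SG S) (Sl := SL) SG_SL (idG GQ) (XS S) (χQ p))
      (cup1 B (DualReps.eqχ hD) F.1 y)) :
    Cup0 r' B (GalRep.cyc p) (DD (aA A hA hD.prime) v) c
      (evL (r' : Representation _ GQ V') (aA A hA hD.prime) v ⟨y, hy⟩ : DD (aA A hA hD.prime) v → V') := by
  have hsupp : Supp (χQ p) (aA A hA hD.prime v) (cup1 B (DualReps.eqχ hD) F.1 y) := fun b hb u => by
    have e : u = ![u 0, u 1, u 2] := by funext j; fin_cases j <;> rfl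
    rw [e, cv_cup1, hs b hb, map_zero, LinearMap.zero_apply]
  obtain ⟨l, hl⟩ := (Cx.mem_B_succ _).1 (null_supp hp2 hD.mem (cup1_d B (DualReps.eqχ hD) F.2 hy) hsupp hn)
  have key : ∀ x y' z, B (cv F.1 (aA A hA hD.prime v) ![x, y']) (cv y (aA A hA hD.prime v) ![y', z]) =
      cv l (aA A hA hD.prime v) ![y', z] - cv l (aA A hA hD.prime v) ![x, z] +
        cv l (aA A hA hD.prime v) ![x, y'] := fun x y' z => by
    have h1 := congrFun (congrFun (congrArg cv hl) (aA A hA hD.prime v)) ![x, y', z]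
    rw [cv_d_one, cv_cup1] at h1
    exact h1.symm
  obtain ⟨V0, hV0, h0⟩ := exists_level1 l
  have hl1 : cv l (aA A hA hD.prime v) ![1, 1] = 0 := by
    have h2 := key 1 1 1
    rw [cocycle1_self F.2, map_zero, LinearMap.zero_apply] at h2
    rw [sub_self, zero_add] at h2
    exact h2.symm
  have hfix := fixing_fixed (Subgroup.isClosed_of_isOpen V0 hV0.2)
  refine ⟨fun σ => cv l (aA A hA hD.prime v) ![1, (σ : GQ)],
    ⟨IntermediateField.fixedField V0, finiteDimensional_KW hV0.2, fun σ hσ => ?_⟩, fun σ τ => ?_⟩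
  · have hσ' : (σ : GQ) ∈ V0 := by
      rw [← hfix]
      exact (IntermediateField.mem_fixingSubgroup_iff _ _).2 hσ
    rw [← hl1]
    exact h0 _ _ _ _ _ (by rw [inv_one, one_mul]; exact one_mem _) (by rw [mul_one]; exact inv_mem hσ')
  · have hσ : idG GQ (σ : GQ) • (aA A hA hD.prime v) = aA A hA hD.prime v :=
      Subtype.ext (mem_DD.1 σ.2 : (σ : GQ) • ((aA A hA hD.prime v : XS S) : Pl) = _)
    have h1 := key 1 σ (σ * τ : GQ)
    have h2 := cv_equiv2 y (σ : GQ) (aA A hA hD.prime v) 1 τ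
    have h3 := cv_equiv2 l (σ : GQ) (aA A hA hD.prime v) 1 τ
    rw [hσ, mul_one] at h2 h3
    change cv y (aA A hA hD.prime v) ![(σ : GQ), σ * τ] = _ at h2
    change cv l (aA A hA hD.prime v) ![(σ : GQ), σ * τ] = _ at h3
    rw [h2, h3, χQ_eq_cyc] at h1
    rw [← hF]
    change B (cv F.1 (aA A hA hD.prime v) ![1, (σ : GQ)])
      (r' σ (cv y (aA A hA hD.prime v) ![1, (τ : GQ)])) = _
    refine Eq.trans h1 ?_
    change _ = cv l (aA A hA hD.prime v) ![1, (σ : GQ)] + GalRep.cyc p (σ : GQ) *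
      cv l (aA A hA hD.prime v) ![1, (τ : GQ)] - cv l (aA A hA hD.prime v) ![1, (σ * τ : GQ)]
    ring

omit hp2 in
theorem finrank_V : finrank (ZMod p) V = finrank (ZMod p) V' := pair_finrank B hD.nd hD.nd'

/-- the orthogonality statement for Selmer conditions -/
theorem orth_mem (L : ∀ v : S, Submodule (ZMod p) ((A v).decompositionSubgroup ℚ → V))
    (hB : ∀ v, B1 r _ ≤ L v) (hZ : ∀ v, L v ≤ Z1 r _) {w : (CP S r').H 1}
    (hw : ∀ x ∈ LinearMap.range ((LC S r).H 1) ⊔ LamS (r : Representation _ GQ V)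
      (places_aA A hA hD.prime) L, ph (SG_SL (S := S)) (ι := idG GQ) (XS S) (χ := χQ p)
      (σ := (r : Representation _ GQ V)) (ρ := (r' : Representation _ GQ V')) B (DualReps.eqχ hD) x w = 0) :
    w ∈ LinearMap.range ((LC S r').H 1) ⊓ LamS (r' : Representation _ GQ V')
      (places_aA A hA hD.prime) (fun v => Perp r' B (GalRep.cyc p) _ (L v)) := by
  let D := qData (S := S) hp2 hD.mem
  have hdim := finrank_V hD
  obtain ⟨y, hy, rfl⟩ := Cx.exists_cl _ w
  refine ⟨?_, ?_⟩
  · refine q_glob D (r' : Representation _ GQ V') (DualReps.lev' hD) (r : Representation _ GQ V) B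
      (DualReps.eqχ hD) hD.nd hdim hy fun F hF => ?_
    have h1 := hw _ (Submodule.mem_sup_left ⟨(CG S r).cl 1 F hF, rfl⟩)
    rw [Cx.Hom.H_cl, ph_cl] at h1
    exact h1
  · refine (mem_LamS (r' : Representation _ GQ V') (places_aA A hA hD.prime)
      (fun v => B1_le_Perp hD _ (hZ v)) hy).2 ?_
    intro v
    refine ⟨(evL (r' : Representation _ GQ V') (aA A hA hD.prime) v ⟨y, hy⟩).2, fun c hc => ?_⟩
    obtain ⟨F, hF, hs⟩ := exists_at (a := aA A hA hD.prime) (r : Representation _ GQ V) v ⟨c, hZ v hc⟩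
    have h1 := hw ((CP S r).cl 1 F.1 F.2) (Submodule.mem_sup_right
      ((mem_LamS (r : Representation _ GQ V) (places_aA A hA hD.prime) hB F.2).2 fun u => ?_))
    · rw [ph_cl] at h1
      exact cup0_of_null hp2 hD A hA v ⟨c, hZ v hc⟩ hF hs hy h1
    · by_cases huv : v = u
      · subst huv
        have e : (evL (r : Representation _ GQ V) (aA A hA hD.prime) v ⟨F.1, F.2⟩) = ⟨c, hZ v hc⟩ := hF
        rw [e]; exact hc
      · rw [evL_supp_ne (r : Representation _ GQ V) (places_aA A hA hD.prime) huv (F := ⟨F.1, F.2⟩) hs]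
        exact Submodule.zero_mem _

include hA in
/-- **The Greenberg–Wiles inequality, given the Euler characteristic.** -/
theorem gw_of_EC (L : ∀ v : S, Submodule (ZMod p) ((A v).decompositionSubgroup ℚ → V))
    (hB : ∀ v, B1 r _ ≤ L v) (hZ : ∀ v, L v ≤ Z1 r _) (h0 : ℤ)
    (hEC : (finrank (ZMod p) (inv (r' : Representation _ GQ V')) : ℤ) - (CG S r').h 1 +
      (LC S r).sh 1 + ∑ v : S, (finrank (ZMod p) (H0 r ((A v).decompositionSubgroup ℚ)) : ℤ) -
      finrank (ZMod p) (inv (r : Representation _ GQ V)) + h0 ≤ 0) :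
    (∀ v, FiniteDimensional (ZMod p) (L v)) ∧
    FiniteDimensional (ZMod p) (SelZ r S A L) ∧
    FiniteDimensional (ZMod p) (SelZ r' S A fun v => Perp r' B (GalRep.cyc p) _ (L v)) ∧
    (finrank (ZMod p) (SelZ r S A L) : ℤ) ≤
      finrank (ZMod p) (SelZ r' S A fun v => Perp r' B (GalRep.cyc p) _ (L v)) +
      ∑ v : S, ((finrank (ZMod p) (L v) : ℤ) - finrank (ZMod p) V) - h0 := by
  let D := qData (S := S) hp2 hD.mem
  haveI f1 := (clsQ D).finG (ρ := (r : Representation _ GQ V)) (DualReps.lev hD) 1 (by norm_num)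
  haveI f2 := (clsQ D).finG (ρ := (r' : Representation _ GQ V')) (DualReps.lev' hD) 1 (by norm_num)
  haveI f3 := (clsQ D).finL (ρ := (r : Representation _ GQ V)) (DualReps.lev hD) 1 (by norm_num)
  haveI f4 := (clsQ D).finL (ρ := (r' : Representation _ GQ V')) (DualReps.lev' hD) 1 (by norm_num)
  have hdim := finrank_V hD
  have hsl := HasLevel.toSL (DualReps.lev hD)
  have a1 := finrank_SelZ (r : Representation _ GQ V) A hA hD.prime L (DualReps.lev hD) hB
  have a2 := finrank_SelZ (r' : Representation _ GQ V') A hA hD.prime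
    (fun v => Perp r' B (GalRep.cyc p) _ (L v)) (DualReps.lev' hD) (fun v => B1_le_Perp hD _ (hZ v))
  have a3 := finrank_LamS (r : Representation _ GQ V) hsl (places_aA A hA hD.prime) hB hZ
  have a4 : ∀ v, finrank (ZMod p) (B1 r ((A v).decompositionSubgroup ℚ)) +
      finrank (ZMod p) (H0 r ((A v).decompositionSubgroup ℚ)) = finrank (ZMod p) V := fun v =>
    finrank_B1 (r : Representation _ GQ V) _
  set I := LinearMap.range ((LC S r).H 1) with hI
  set I' := LinearMap.range ((LC S r').H 1) with hI'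
  set Λ := LamS (r : Representation _ GQ V) (places_aA A hA hD.prime) L with hΛ
  set Λ' := LamS (r' : Representation _ GQ V') (places_aA A hA hD.prime)
    (fun v => Perp r' B (GalRep.cyc p) _ (L v)) with hΛ'
  have a5 := Submodule.finrank_sup_add_finrank_inf_eq I Λ
  have a6 := la_perp (finrank_T3q D) (ph (SG_SL (S := S)) (ι := idG GQ) (XS S) (χ := χQ p)
      (σ := (r : Representation _ GQ V)) (ρ := (r' : Representation _ GQ V')) B (DualReps.eqχ hD))
      (I ⊔ Λ) (I' ⊓ Λ') (fun w hw => orth_mem hp2 hD A hA L hB hZ hw)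
  have a7 := q_rank_aux D (r' : Representation _ GQ V') (DualReps.lev' hD) (r : Representation _ GQ V)
      (LinearEquiv.ofBijective B ⟨(injective_iff_map_eq_zero _).2 fun a ha =>
        hD.nd a fun m => by rw [ha, LinearMap.zero_apply],
        (LinearMap.injective_iff_surjective_of_finrank_eq_finrank
        (hdim.trans (Subspace.dual_finrank_eq (K := ZMod p) (V := V')).symm)).1
        ((injective_iff_map_eq_zero _).2 fun a ha =>
        hD.nd a fun m => by rw [ha, LinearMap.zero_apply])⟩) (fun h a => by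
      apply LinearMap.ext
      intro m
      rw [dl_apply]
      change B ((r : Representation _ GQ V) h a) m = χQ p h (B a ((r' : Representation _ GQ V') h⁻¹ m))
      rw [← DualReps.eqχ hD, Representation.self_inv_apply])
  have a8 := Cx.Hom.h_source (LC S r') 1
  refine ⟨fun v => ?_, a1.1, a2.1, ?_⟩
  · haveI := finite_Z1 (r : Representation _ GQ V) hsl (places_aA A hA hD.prime) v
    exact Submodule.finiteDimensional_of_le (hZ v)
  have b1 : (finrank (ZMod p) I : ℤ) = (LC S r).rk 1 := rfl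
  have b2 : (finrank (ZMod p) ((CP S r').H 1) : ℤ) = (LC S r').rk 1 + (LC S r).rk 1 := by
    have h1 : (LC S r').rk 1 + (LC S r).rk 1 = (CP S r').h 1 := a7
    exact_mod_cast h1.symm
  have b3 : ((CG S r').h 1 : ℤ) = (LC S r').rk 1 + (LC S r').sh 1 := by exact_mod_cast a8
  have b4 : (∑ v : S, (finrank (ZMod p) (B1 r ((A v).decompositionSubgroup ℚ)) : ℤ)) =
      ∑ v : S, ((finrank (ZMod p) V : ℤ) - finrank (ZMod p) (H0 r ((A v).decompositionSubgroup ℚ))) :=
    Finset.sum_congr rfl fun v _ => by have := a4 v; omega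
  have b5 : (finrank (ZMod p) Λ : ℤ) + ∑ v : S, (finrank (ZMod p) (B1 r ((A v).decompositionSubgroup ℚ)) : ℤ) =
      ∑ v : S, (finrank (ZMod p) (L v) : ℤ) := by exact_mod_cast a3
  rw [Finset.sum_sub_distrib] at b4 ⊢
  have c1 := a1.2
  have c2 := a2.2
  have c1' : (finrank (ZMod p) (SelZ r S A L) : ℤ) + finrank (ZMod p) (inv (r : Representation _ GQ V)) =
      finrank (ZMod p) V + (LC S r).sh 1 + finrank (ZMod p) (I ⊓ Λ : Submodule _ _) := by exact_mod_cast c1
  have c2' : (finrank (ZMod p) (SelZ r' S A fun v => Perp r' B (GalRep.cyc p) _ (L v)) : ℤ) +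
      finrank (ZMod p) (inv (r' : Representation _ GQ V')) =
      finrank (ZMod p) V' + (LC S r').sh 1 + finrank (ZMod p) (I' ⊓ Λ' : Submodule _ _) := by
    exact_mod_cast c2
  have c3 : (finrank (ZMod p) (I ⊔ Λ : Submodule _ _) : ℤ) + finrank (ZMod p) (I ⊓ Λ : Submodule _ _) =
      finrank (ZMod p) I + finrank (ZMod p) Λ := by exact_mod_cast a5
  have c4 : (finrank (ZMod p) ((CP S r').H 1) : ℤ) ≤ finrank (ZMod p) (I ⊔ Λ : Submodule _ _) +
      finrank (ZMod p) (I' ⊓ Λ' : Submodule _ _) := by exact_mod_cast a6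
  have c5 : (finrank (ZMod p) V : ℤ) = finrank (ZMod p) V' := by exact_mod_cast hdim
  linarith

end Fermat.Agent.CFT
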