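import Fermat.Agent.Places.InertiaLift
import Fermat.Agent.Places.Existence

/-!
# Transitivity over number fields
-/

set_option autoImplicit false
set_option linter.unusedSectionVars false
set_option linter.unusedVariables false
set_option linter.style.haveILetI false

namespace Fermat.Agent.CFT

open NumberField Ideal Fermat.Agent.Places
open scoped Pointwise

attribute [-instance] DivisionRing.toRatAlgebra

variable {L : Type*} [Field L] [CharZero L] [inst : Algebra ℚ L] [IsGalois ℚ L]

theorem exists_smul_center (E : IntermediateField ℚ L) (A B : ValuationSubring L)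
    (h : (center A).comap (inclInt E) = (center B).comap (inclInt E)) :
    ∃ g : L ≃ₐ[E] L, (AlgEquiv.restrictScalars ℚ g) • A = B := by
  letI algB : Algebra (𝓞 E) (integralClosure ℤ L) := (inclInt E).toAlgebra
  haveI : SMulCommClass (L ≃ₐ[E] L) (𝓞 E) (integralClosure ℤ L) := ⟨fun g a b => by
    apply Subtype.ext
    change g (((a : E) : L) * (b : L)) = ((a : E) : L) * g (b : L)
    rw [map_mul]
    congr 1
    exact g.commutes (a : E)⟩
  letI : TopologicalSpace (integralClosure ℤ L) := ⊥
  haveI : DiscreteTopology (integralClosure ℤ L) := ⟨rfl⟩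
  haveI : ContinuousSMul (L ≃ₐ[E] L) (integralClosure ℤ L) := continuousSMul_intermediate E
  haveI : Algebra.IsInvariant (𝓞 E) (integralClosure ℤ L) (L ≃ₐ[E] L) :=
    isInvariant_intermediate E
  obtain ⟨g, hg⟩ := Algebra.IsInvariant.exists_smul_of_under_eq_of_profinite (A := 𝓞 E)
    (G := L ≃ₐ[E] L) (center A) (center B) h
  refine ⟨g, eq_of_center_eq ?_⟩
  rw [center_smul, hg]
  rfl

theorem exists_place_over (E : IntermediateField ℚ L) (P : Ideal (𝓞 E)) [hP : P.IsMaximal] :
    ∃ A : ValuationSubring L, (center A).comap (inclInt E) = P := by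
  letI algB : Algebra (𝓞 E) (integralClosure ℤ L) := (inclInt E).toAlgebra
  haveI : Algebra.IsIntegral (𝓞 E) (integralClosure ℤ L) := ⟨fun x => by
    haveI : IsScalarTower ℤ (𝓞 E) (integralClosure ℤ L) := IsScalarTower.of_algebraMap_eq' (by
      ext; simp)
    exact (Algebra.IsIntegral.isIntegral (R := ℤ) x).tower_top⟩
  obtain ⟨Q, -, hQprime, hQ⟩ := Ideal.exists_ideal_over_prime_of_isIntegral P
    (⊥ : Ideal (integralClosure ℤ L)) (by
      change Ideal.comap (inclInt E) ⊥ ≤ P
      rw [Ideal.comap_bot_of_injective _ (inclInt_injective E)]; exact bot_le)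
  haveI hQmax : Q.IsMaximal := Ideal.isMaximal_of_isIntegral_of_isMaximal_comap Q
    (by rw [hQ]; exact hP)
  obtain ⟨A, hA⟩ := exists_center_eq Q
  exact ⟨A, by rw [hA]; exact hQ⟩

end Fermat.Agent.CFT
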