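import Fermat.Agent.CFT.Kum
import Fermat.Agent.CFT.Gl0

/-!
# Number fields
-/

set_option autoImplicit false
set_option linter.unusedSectionVars false
set_option linter.unusedVariables false
set_option linter.style.haveILetI false

namespace Fermat.Agent.CFT

open Module NumberField Fermat.Agent.Places
open scoped Pointwise

/-- the fixed field -/
noncomputable abbrev KW (W : Subgroup GQ) : IntermediateField ℚ Qb := IntermediateField.fixedField W

section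

variable {W : Subgroup GQ}

theorem mem_KW {x : Qb} : x ∈ KW W ↔ ∀ g ∈ W, g x = x := IntermediateField.mem_fixedField_iff _ _

variable (hW : IsOpen (W : Set GQ))

include hW

theorem fix_KW : (KW W).fixingSubgroup = W := fixing_fixed (Subgroup.isClosed_of_isOpen W hW)

theorem finiteDimensional_KW : FiniteDimensional ℚ (KW W) := by
  rw [← InfiniteGalois.isOpen_iff_finite]
  have h := fix_KW hW
  rw [h]
  exact hW

theorem finrank_KW : finrank ℚ (KW W) = W.index := by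
  rw [IntermediateField.finrank_eq_fixingSubgroup_index, fix_KW hW]

theorem numberField_KW : NumberField (KW W) := by
  have h := finiteDimensional_KW hW
  refine @NumberField.mk _ _ inferInstance ?_
  convert h

theorem finrank_KW' : @finrank ℚ (KW W) _ _ (DivisionRing.toRatAlgebra).toModule = W.index := by
  rw [← finrank_KW hW]

end

/-- the prime below a place -/
noncomputable def PrA (A : Pl) (W : Subgroup GQ) : Ideal (𝓞 (KW W)) := (center A.v).comap (inclInt (KW W))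

section

variable {A : Pl} {W : Subgroup GQ}

theorem mem_PrA {x : 𝓞 (KW W)} : x ∈ PrA A W ↔ ((x : KW W) : Qb) ∈ A.v.nonunits := Iff.rfl

theorem mem_PrA' {x : 𝓞 (KW W)} (hx : ((x : KW W) : Qb) ≠ 0) : x ∈ PrA A W ↔ 0 < A.ord ((x : KW W) : Qb) := by
  rw [A.ord_pos_iff hx, mem_PrA]

theorem ord_int_nonneg {x : Qb} (hx : IsIntegral ℤ x) (hx0 : x ≠ 0) : 0 ≤ A.ord x := by
  rw [A.ord_nonneg_iff hx0]
  exact mem_of_isIntegral_int A.v hx

instance : (PrA A W).IsPrime := by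
  rw [PrA]; infer_instance

theorem PrA_ne_bot : PrA A W ≠ ⊥ := by
  intro h
  have h1 : ((A.ell : ℕ) : 𝓞 (KW W)) ∈ PrA A W := by
    rw [mem_PrA]
    have : ((((A.ell : ℕ) : 𝓞 (KW W)) : KW W) : Qb) = (A.ell : Qb) := by push_cast; rfl
    rw [this]
    exact A.ell_mem
  rw [h, Ideal.mem_bot, Nat.cast_eq_zero] at h1
  exact A.ell_prime.ne_zero h1

/-- transitivity -/
theorem exists_smul_of_PrA {A B : Pl} (hW : IsOpen (W : Set GQ)) (h : PrA A W = PrA B W) :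
    ∃ w ∈ W, w • A = B := by
  obtain ⟨g, hg⟩ := exists_smul_center (KW W) A.v B.v h
  have h1 : AlgEquiv.restrictScalars ℚ g ∈ (KW W).fixingSubgroup := by
    rw [IntermediateField.mem_fixingSubgroup_iff]
    intro x hx
    exact g.commutes ⟨x, hx⟩
  have h2 := fix_KW hW
  exact ⟨AlgEquiv.restrictScalars ℚ g, h2.le h1, Pl.ext hg⟩

theorem ell_dvd_of_mem {n : ℕ} (h : (n : 𝓞 (KW W)) ∈ PrA A W) : A.ell ∣ n := by
  by_contra hn
  have h1 : ¬ (A.ell : ℤ) ∣ (n : ℤ) := fun h => hn (Int.natCast_dvd_natCast.1 h)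
  have h2 := A.val_int h1
  rw [mem_PrA, Places.mem_nonunits_iff] at h
  have : ((((n : ℕ) : 𝓞 (KW W)) : KW W) : Qb) = ((n : ℤ) : Qb) := by push_cast; rfl
  rw [this, h2] at h
  exact lt_irrefl _ h

end

/-- coercion -/
noncomputable abbrev cK {W : Subgroup GQ} (x : 𝓞 (KW W)) : Qb := ((x : KW W) : Qb)

section NF

variable {A : Pl} {W : Subgroup GQ}

theorem cK_ne_zero {x : 𝓞 (KW W)} (hx : x ≠ 0) : cK x ≠ 0 := by
  intro h
  apply hx
  apply RingOfIntegers.ext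
  exact Subtype.ext h

theorem cK_mul (x y : 𝓞 (KW W)) : cK (x * y) = cK x * cK y := by
  simp [cK]

theorem cK_pow (x : 𝓞 (KW W)) (n : ℕ) : cK (x ^ n) = cK x ^ n := by
  simp [cK]

theorem cK_integral (x : 𝓞 (KW W)) : IsIntegral ℤ (cK x) := isIntegral_coe (KW W) x

theorem ord_cK_nonneg {x : 𝓞 (KW W)} (hx : x ≠ 0) : 0 ≤ A.ord (cK x) :=
  ord_int_nonneg (cK_integral x) (cK_ne_zero hx)

theorem ord_cK_eq_zero {x : 𝓞 (KW W)} (hx : x ∉ PrA A W) : A.ord (cK x) = 0 := by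
  have hx0 : x ≠ 0 := fun h => hx (h ▸ zero_mem _)
  refine le_antisymm (not_lt.1 fun h => hx ((mem_PrA' (cK_ne_zero hx0)).2 h)) (ord_cK_nonneg hx0)

theorem ord_cK_pos {x : 𝓞 (KW W)} (hx0 : x ≠ 0) (hx : x ∈ PrA A W) : 0 < A.ord (cK x) :=
  (mem_PrA' (cK_ne_zero hx0)).1 hx

variable [NumberField (KW W)]

instance PrA_isMaximal : (PrA A W).IsMaximal :=
  Ideal.IsPrime.isMaximal inferInstance PrA_ne_bot

theorem exists_mult {a : 𝓞 (KW W)} (ha : a ≠ 0) :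
    ∃ k, a ∈ PrA A W ^ k ∧ a ∉ PrA A W ^ (k + 1) := by
  classical
  have h1 : ∃ k, a ∉ PrA A W ^ k := by
    by_contra hcon
    push Not at hcon
    have h2 : a ∈ ⨅ i : ℕ, PrA A W ^ i := (Submodule.mem_iInf _).2 hcon
    rw [Ideal.iInf_pow_eq_bot_of_isDomain _ (PrA_isMaximal (A := A) (W := W)).ne_top] at h2
    exact ha h2
  have h2 := Nat.find_spec h1
  have h3 : Nat.find h1 ≠ 0 := fun h => by
    rw [h, pow_zero] at h2
    exact h2 (by simp)
  obtain ⟨k, hk⟩ := Nat.exists_eq_succ_of_ne_zero h3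
  refine ⟨k, ?_, by rw [← Nat.succ_eq_add_one, ← hk]; exact h2⟩
  by_contra h4
  have := Nat.find_min' h1 h4
  omega

/-- decomposition of an element -/
theorem exists_factor {b : 𝓞 (KW W)} (hb : b ≠ 0) {l : ℕ} (h1 : b ∈ PrA A W ^ l)
    (h2 : b ∉ PrA A W ^ (l + 1)) : ∃ J : Ideal (𝓞 (KW W)), Ideal.span {b} = PrA A W ^ l * J ∧
      ¬ J ≤ PrA A W := by
  have h3 : Ideal.span {b} ≤ PrA A W ^ l := (Ideal.span_singleton_le_iff_mem _).2 h1
  obtain ⟨J, hJ⟩ := Ideal.dvd_iff_le.2 h3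
  refine ⟨J, hJ, fun hle => h2 ?_⟩
  rw [← Ideal.span_singleton_le_iff_mem, hJ, pow_succ]
  exact Ideal.mul_mono_right hle

theorem exists_mul_pow {b : 𝓞 (KW W)} (hb : b ≠ 0) {l : ℕ} (h1 : b ∈ PrA A W ^ l)
    (h2 : b ∉ PrA A W ^ (l + 1)) (n : ℕ) {a : 𝓞 (KW W)} (ha : a ∈ PrA A W ^ (l * n)) :
    ∃ s ∉ PrA A W, ∃ u, s * a = b ^ n * u := by
  obtain ⟨J, hJ, hJP⟩ := exists_factor hb h1 h2
  have h3 : ¬ J ^ n ≤ PrA A W := fun h => by
    rcases Nat.eq_zero_or_pos n with rfl | hn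
    · rw [pow_zero, Ideal.one_eq_top] at h
      exact (PrA_isMaximal (A := A) (W := W)).ne_top (top_le_iff.1 h)
    · exact hJP ((Ideal.IsPrime.pow_le_iff hn.ne').1 h)
  obtain ⟨s, hs, hsP⟩ := Set.not_subset.1 h3
  refine ⟨s, hsP, ?_⟩
  have h4 : s * a ∈ Ideal.span {b ^ n} := by
    rw [← Ideal.span_singleton_pow, hJ, mul_pow, ← pow_mul]
    exact Ideal.mul_mem_mul_rev ha hs
  obtain ⟨u, hu⟩ := Ideal.mem_span_singleton.1 h4
  exact ⟨u, hu⟩

theorem ord_eq_mult {π a : 𝓞 (KW W)} (h1 : π ∈ PrA A W) (h2 : π ∉ PrA A W ^ 2) {k : ℕ}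
    (h3 : a ∈ PrA A W ^ k) (h4 : a ∉ PrA A W ^ (k + 1)) :
    A.ord (cK a) = k * A.ord (cK π) := by
  have hπ : π ≠ 0 := fun h => h2 (h ▸ zero_mem _)
  have ha : a ≠ 0 := fun h => h4 (h ▸ zero_mem _)
  obtain ⟨s, hs, u, hu⟩ := exists_mul_pow (A := A) (W := W) (l := 1) hπ (by rwa [pow_one]) h2 k
    (a := a) (by rwa [one_mul])
  have hs0 : s ≠ 0 := fun h => hs (h ▸ zero_mem _)
  have hu1 : u ∉ PrA A W := by
    intro hu1
    have h5 : s * a ∈ PrA A W ^ (k + 1) := by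
      rw [hu, pow_succ]; exact Ideal.mul_mem_mul (Ideal.pow_mem_pow h1 k) hu1
    exact (Ideal.IsPrime.mul_mem_pow _ h5).elim hs h4
  have hu0 : u ≠ 0 := fun h => hu1 (h ▸ zero_mem _)
  have h5 := congrArg (fun x => A.ord (cK x)) hu
  simp only [cK_mul, cK_pow] at h5
  rw [A.ord_mul (cK_ne_zero hs0) (cK_ne_zero ha), A.ord_mul (pow_ne_zero _ (cK_ne_zero hπ))
    (cK_ne_zero hu0), A.ord_pow (cK_ne_zero hπ), ord_cK_eq_zero hs, ord_cK_eq_zero hu1] at h5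
  linarith

theorem exists_div {x : Qb} (hx : x ∈ KW W) : ∃ a b : 𝓞 (KW W), b ≠ 0 ∧ x = cK a / cK b := by
  obtain ⟨a, b, hb, hab⟩ := IsFractionRing.div_surjective (A := 𝓞 (KW W)) (⟨x, hx⟩ : KW W)
  refine ⟨a, b, nonZeroDivisors.ne_zero hb, ?_⟩
  have := congrArg (fun y : KW W => (y : Qb)) hab
  simp only at this
  rw [← this]
  simp [cK]

/-- the set of primes -/
theorem finite_support {a : 𝓞 (KW W)} (ha : a ≠ 0) : ∃ T : Finset ℕ, ∀ B : Pl, B.ell ∉ T → B.ord (cK a) = 0 := by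
  refine ⟨(Ideal.absNorm (Ideal.span {a})).primeFactors, fun B hB => ?_⟩
  apply ord_cK_eq_zero
  intro h
  apply hB
  have h1 : Ideal.absNorm (Ideal.span {a}) ≠ 0 := by
    rw [Ne, Ideal.absNorm_eq_zero_iff, Ideal.span_singleton_eq_bot]; exact ha
  rw [Nat.mem_primeFactors]
  refine ⟨B.ell_prime, ell_dvd_of_mem (W := W) ?_, h1⟩
  exact (Ideal.span_singleton_le_iff_mem _).2 h (Ideal.absNorm_mem _)

theorem finite_support' {x : Qb} (hx : x ∈ KW W) (hx0 : x ≠ 0) :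
    ∃ T : Finset ℕ, ∀ B : Pl, B.ell ∉ T → B.ord x = 0 := by
  obtain ⟨a, b, hb, rfl⟩ := exists_div hx
  have ha : a ≠ 0 := fun h => hx0 (by rw [h]; simp [cK])
  obtain ⟨T, hT⟩ := finite_support ha
  obtain ⟨T', hT'⟩ := finite_support hb
  refine ⟨T ∪ T', fun B hB => ?_⟩
  rw [Finset.mem_union, not_or] at hB
  rw [B.ord_div (cK_ne_zero ha) (cK_ne_zero hb), hT B hB.1, hT' B hB.2, sub_zero]

/-- uniformizers generate the value group -/
theorem ord_mult_of {π : 𝓞 (KW W)} (h1 : π ∈ PrA A W) (h2 : π ∉ PrA A W ^ 2) {x : Qb}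
    (hx : x ∈ KW W) (hx0 : x ≠ 0) : ∃ k : ℤ, A.ord x = k * A.ord (cK π) := by
  obtain ⟨a, b, hb, rfl⟩ := exists_div hx
  have ha : a ≠ 0 := fun h => hx0 (by rw [h]; simp [cK])
  obtain ⟨k, hk, hk'⟩ := exists_mult (A := A) ha
  obtain ⟨l, hl, hl'⟩ := exists_mult (A := A) hb
  refine ⟨k - l, ?_⟩
  rw [A.ord_div (cK_ne_zero ha) (cK_ne_zero hb), ord_eq_mult h1 h2 hk hk', ord_eq_mult h1 h2 hl hl']
  push_cast; ring

/-- principal powers of prime ideals -/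
theorem exists_principal_pow (hW : IsOpen (W : Set GQ)) : ∃ h : ℕ, 0 < h ∧ ∀ A : Pl, ∃ x : 𝓞 (KW W), x ≠ 0 ∧
    Ideal.span {x} = PrA A W ^ h ∧ ∀ B : Pl, (∀ w ∈ W, w • A ≠ B) → B.ord (cK x) = 0 := by
  classical
  refine ⟨Fintype.card (ClassGroup (𝓞 (KW W))), Fintype.card_pos, fun A => ?_⟩
  have h0 : PrA A W ∈ nonZeroDivisors (Ideal (𝓞 (KW W))) := mem_nonZeroDivisors_iff_ne_zero.2 PrA_ne_bot
  have h1 : ClassGroup.mk0 ((⟨PrA A W, h0⟩ : nonZeroDivisors (Ideal (𝓞 (KW W)))) ^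
      Fintype.card (ClassGroup (𝓞 (KW W)))) = 1 := by
    rw [map_pow, pow_card_eq_one]
  rw [ClassGroup.mk0_eq_one_iff] at h1
  obtain ⟨x, hx⟩ := h1.principal
  have hx' : Ideal.span {x} = PrA A W ^ Fintype.card (ClassGroup (𝓞 (KW W))) := hx.symm
  refine ⟨x, ?_, hx', fun B hB => ord_cK_eq_zero fun hxB => ?_⟩
  · rintro rfl
    rw [Ideal.span_singleton_zero] at hx'
    exact pow_ne_zero _ (PrA_ne_bot (A := A) (W := W)) hx'.symm
  · have h2 : PrA A W ≤ PrA B W := by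
      refine (Ideal.IsPrime.pow_le_iff (n := Fintype.card (ClassGroup (𝓞 (KW W)))) Fintype.card_pos.ne').1 ?_
      rw [← hx']; exact (Ideal.span_singleton_le_iff_mem _).2 hxB
    obtain ⟨w, hw, h3⟩ := exists_smul_of_PrA hW ((PrA_isMaximal (A := A) (W := W)).eq_of_le
      (Ideal.IsPrime.ne_top inferInstance) h2)
    exact hB w hw h3

/-- large sets of places are principal -/
theorem exists_principal (hW : IsOpen (W : Set GQ)) : ∃ T : Finset ℕ, ∀ A : Pl, A.ell ∉ T →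
    ∃ x : 𝓞 (KW W), x ≠ 0 ∧ x ∈ PrA A W ∧ x ∉ PrA A W ^ 2 ∧
      ∀ B : Pl, B.ell ∉ T → (∀ w ∈ W, w • A ≠ B) → B.ord (cK x) = 0 := by
  classical
  choose J hJ using ClassGroup.mk0_surjective (R := 𝓞 (KW W))
  refine ⟨Finset.univ.biUnion fun c => (Ideal.absNorm (J c : Ideal (𝓞 (KW W)))).primeFactors, fun A hA => ?_⟩
  have h0 : PrA A W ∈ nonZeroDivisors (Ideal (𝓞 (KW W))) := mem_nonZeroDivisors_iff_ne_zero.2 PrA_ne_bot
  have hnot : ∀ (B : Pl) c, B.ell ∉ (Finset.univ.biUnion fun c =>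
      (Ideal.absNorm (J c : Ideal (𝓞 (KW W)))).primeFactors) → ¬ (J c : Ideal (𝓞 (KW W))) ≤ PrA B W := by
    intro B c hB hle
    apply hB
    rw [Finset.mem_biUnion]
    refine ⟨c, Finset.mem_univ _, ?_⟩
    rw [Nat.mem_primeFactors]
    refine ⟨B.ell_prime, ell_dvd_of_mem (W := W) (hle (Ideal.absNorm_mem _)), ?_⟩
    rw [Ne, Ideal.absNorm_eq_zero_iff]
    exact nonZeroDivisors.ne_zero (J c).2
  set c := (ClassGroup.mk0 (⟨PrA A W, h0⟩ : nonZeroDivisors (Ideal (𝓞 (KW W)))))⁻¹ with hc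
  have h1 : ClassGroup.mk0 ((⟨PrA A W, h0⟩ : nonZeroDivisors (Ideal (𝓞 (KW W)))) * J c) = 1 := by
    rw [map_mul, hJ, hc, mul_inv_cancel]
  rw [ClassGroup.mk0_eq_one_iff] at h1
  obtain ⟨x, hx⟩ := h1.principal
  have hx' : Ideal.span {x} = PrA A W * (J c : Ideal (𝓞 (KW W))) := hx.symm
  have hx0 : x ≠ 0 := by
    rintro rfl
    rw [Ideal.span_singleton_zero] at hx'
    exact mul_ne_zero (PrA_ne_bot (A := A) (W := W)) (nonZeroDivisors.ne_zero (J c).2) hx'.symm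
  refine ⟨x, hx0, ?_, ?_, ?_⟩
  · rw [← Ideal.span_singleton_le_iff_mem, hx']; exact Ideal.mul_le_left.trans le_rfl
  · intro h2
    rw [← Ideal.span_singleton_le_iff_mem, hx', pow_two, ← Ideal.dvd_iff_le,
      mul_dvd_mul_iff_left (PrA_ne_bot (A := A) (W := W)), Ideal.dvd_iff_le] at h2
    exact hnot A c hA h2
  · intro B hB hB' 
    refine ord_cK_eq_zero fun hxB => ?_
    rw [← Ideal.span_singleton_le_iff_mem, hx', Ideal.IsPrime.mul_le (inferInstance : (PrA B W).IsPrime)] at hxB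
    rcases hxB with h | h
    · obtain ⟨w, hw, h3⟩ := exists_smul_of_PrA hW ((PrA_isMaximal (A := A) (W := W)).eq_of_le
        (Ideal.IsPrime.ne_top inferInstance) h)
      exact hB' w hw h3
    · exact hnot B c hB h

end NF

end Fermat.Agent.CFT
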