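import Fermat.Agent.CFT.Gl9

/-!
# The Hasse norm theorem
-/

set_option autoImplicit false
set_option linter.unusedSectionVars false
set_option linter.unusedVariables false
set_option linter.style.haveILetI false

namespace Fermat.Agent.CFT

open Module NumberField Fermat.Agent.Places
open scoped Pointwise

variable {p : ℕ} [hp : Fact p.Prime] {W : Subgroup GQ} {J : Type}

/-- Chevalley data -/
structure Chev (p : ℕ) [Fact p.Prime] (W : Subgroup GQ) (a : J → Pl) (s : Finset J) {k : ℕ}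
    (A : Fin k → Pl) (x : Fin k → Ma) : Prop where
  dec : ∀ i, Dec (A i) ≤ W
  notin : ∀ i, A i ∉ OB W a s
  dis : ∀ i j, (∃ w ∈ W, w • A i = A j) → i = j
  xm : ∀ i, x i ∈ US W (OB W a s)
  xp : ∀ i j, i ≠ j → x j ∈ pFA p (Dec (A i))
  xn : ∀ i, x i ∉ pFA p (Dec (A i))

/-- the joint family -/
abbrev aS {k : ℕ} (a : J → Pl) (A : Fin k → Pl) : J ⊕ Fin k → Pl := Sum.elim a A

/-- the joint index set -/
abbrev sS (k : ℕ) (s : Finset J) : Finset (J ⊕ Fin k) := s.disjSum Finset.univ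

theorem mem_OB_sum {k : ℕ} {a : J → Pl} {s : Finset J} {A : Fin k → Pl} {b : Pl} :
    b ∈ OB W (aS a A) (sS k s) ↔ b ∈ OB W a s ∨ ∃ i, ∃ w ∈ W, w • A i = b := by
  constructor
  · rintro ⟨j, hj, w, hw, h⟩
    rcases Finset.mem_disjSum.1 hj with ⟨j', hj', rfl⟩ | ⟨i, -, rfl⟩
    · exact Or.inl ⟨j', hj', w, hw, h⟩
    · exact Or.inr ⟨i, w, hw, h⟩
  · rintro (⟨j, hj, w, hw, h⟩ | ⟨i, w, hw, h⟩)
    · exact ⟨Sum.inl j, Finset.inl_mem_disjSum.2 hj, w, hw, h⟩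
    · exact ⟨Sum.inr i, Finset.inr_mem_disjSum.2 (Finset.mem_univ _), w, hw, h⟩

theorem OB_le_sum {k : ℕ} {a : J → Pl} {s : Finset J} {A : Fin k → Pl} :
    OB W a s ⊆ OB W (aS a A) (sS k s) := fun b hb => mem_OB_sum.2 (Or.inl hb)

variable {a : J → Pl} {s : Finset J} {k : ℕ} {A : Fin k → Pl} {x : Fin k → Ma}

theorem Chev.disj (C : Chev p W a s A x) (hd : ∀ i ∈ s, ∀ j ∈ s, (∃ w ∈ W, w • a i = a j) → i = j) :
    ∀ i ∈ sS k s, ∀ j ∈ sS k s, (∃ w ∈ W, w • aS a A i = aS a A j) → i = j := by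
  intro i hi j hj h
  rcases Finset.mem_disjSum.1 hi with ⟨i', hi', rfl⟩ | ⟨i', -, rfl⟩
  · rcases Finset.mem_disjSum.1 hj with ⟨j', hj', rfl⟩ | ⟨j', -, rfl⟩
    · exact congrArg _ (hd i' hi' j' hj' h)
    · exfalso
      obtain ⟨w, hw, h⟩ := h
      exact C.notin j' ⟨i', hi', w, hw, h⟩
  · rcases Finset.mem_disjSum.1 hj with ⟨j', hj', rfl⟩ | ⟨j', -, rfl⟩
    · exfalso
      obtain ⟨w, hw, h⟩ := h
      refine C.notin i' ⟨j', hj', w⁻¹, inv_mem hw, ?_⟩
      have h' : w • A i' = a j' := h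
      rw [← h', inv_smul_smul]
    · exact congrArg _ (C.dis i' j' h)

theorem mem_LN_of_dec {W' : Subgroup GQ} {A : Pl} {z : Ma} (h : z ∈ pFA p (W ⊓ Dec A)) : z ∈ LN p W W' A :=
  pFA_le_LN h

theorem unif_one {T : Set Pl} {A : Pl} (hA : A ∉ T) (hW : IsOpen (W : Set GQ)) (hI : Ine A ≤ W)
    (hP : PID W T) : ∃ x ∈ FA W, A.ord (vl x) = 1 ∧ ∀ B ∉ T, (∀ w ∈ W, w • A ≠ B) → B.ord (vl x) = 0 := by
  obtain ⟨x, hx, h1, h2, h3⟩ := hP A hA
  refine ⟨x, hx, ?_, h3⟩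
  obtain ⟨m, hm⟩ := int_ord' hW hI (FA_mono inf_le_left hx)
  obtain ⟨k, hk⟩ := h2 _ (ellM_mem (A := A) W)
  rw [ord_ellM, hm] at hk
  rw [hm] at h1 ⊢
  have h4 : (1 : ℤ) = k * m := by exact_mod_cast hk
  have h5 : (0 : ℤ) < m := by exact_mod_cast h1
  have h6 : m ∣ 1 := ⟨k, by rw [h4]; ring⟩
  have h7 := Int.eq_one_of_dvd_one h5.le h6
  exact_mod_cast h7

/-- **Claim 1** -/
theorem claim1 (hp2 : p ≠ 2) (hW : IsOpen (W : Set GQ)) (hμ : MuF p W)
    (hd : ∀ i ∈ s, ∀ j ∈ s, (∃ w ∈ W, w • a i = a j) → i = j) (hP : PID W (OB W a s))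
    (hI : ∀ A ∉ OB W a s, Ine A ≤ W) (hpT : ∀ A : Pl, A.ell = p → A ∈ OB W a s) (C : Chev p W a s A x)
    {y : Ma} (hy : p • y ∈ US W (OB W (aS a A) (sS k s))) (hy2 : ∀ j ∈ s, p • y ∈ pFA p (W ⊓ Dec (a j))) :
    y ∈ FA W := by
  classical
  by_contra hyW
  obtain ⟨σ, hσ1, hσ⟩ := kummer_cyc hμ hy.1 hyW
  set T' := OB W (aS a A) (sS k s) with hT'
  have hW'o : IsOpen ((St W y : Subgroup GQ) : Set GQ) := hW.inter (isOpen_fixMa y)
  have hell : ∀ B ∉ OB W a s, B.ell ≠ p := fun B hB h => hB (hpT B h)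
  -- inertia
  have hIne : ∀ B ∉ T', Ine B ≤ St W y := by
    intro B hB g hg
    have hB' : B ∉ OB W a s := fun h => hB (OB_le_sum h)
    have hgW := hI B hB' hg
    refine ⟨hgW, ?_⟩
    obtain ⟨c, hc⟩ := exists_zt_eq p (x := ac g y - y) (by
      rw [nsmul_sub, ← map_nsmul, mem_FA'.1 hy.1 g hgW, sub_self])
    have h1 : ac g y = y + zt p c := by rw [hc]; abel
    have h2 : B.ord (vl y) = 0 := by
      have h3 := hy.2 B hB
      rw [vl_nsmul, B.ord_pow (vl_ne_zero _)] at h3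
      exact (mul_eq_zero.1 h3).resolve_left (by exact_mod_cast hp.out.ne_zero)
    have h3 := ine_fix (hell B hB') ⟨0, by rw [h2]; simp⟩ hg h1
    rw [h1, h3, map_zero, add_zero]
  obtain ⟨b, hb⟩ := first_ineq hp2 hW hW'o hσ hμ (aS a A) (sS k s) (C.disj hd)
    (hP.mono OB_le_sum) (unrO_of hW'o hIne)
  -- local data at the auxiliary places
  have hWD : ∀ i, W ⊓ Dec (A i) = Dec (A i) := fun i => inf_eq_right.2 (C.dec i)
  let bi : (i : Fin k) → Ma := fun i => b ⟨Sum.inr i, Finset.inr_mem_disjSum.2 (Finset.mem_univ _)⟩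
  have hbi : ∀ i, bi i ∈ FA (Dec (A i)) := fun i => by
    exact FA_mono (hWD i).ge (b ⟨Sum.inr i, Finset.inr_mem_disjSum.2 (Finset.mem_univ _)⟩).2
  choose n hn using fun i => (A i).exists_ord_int (vl_ne_zero (bi i)) fun g hg => mem_FA.1 (hbi i) g hg
  choose t ht ht1 ht0 using fun i => unif_one (C.notin i) hW (hI _ (C.notin i)) hP
  let τ : Ma := ∑ i, n i • t i
  have hτ : τ ∈ FA W := sum_mem fun i _ => zsmul_mem (ht i) _
  have hordτ : ∀ B : Pl, B.ord (vl τ) = ∑ i, n i * B.ord (vl (t i)) := by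
    intro B
    simp only [τ]
    rw [vl_sum, B.ord_prod _ _ fun i _ => vl_ne_zero _]
    refine Finset.sum_congr rfl fun i _ => ?_
    rw [vl_zsmul, B.ord_zpow (vl_ne_zero _)]
  have hordτA : ∀ i, (A i).ord (vl τ) = n i := by
    intro i
    rw [hordτ, Finset.sum_eq_single i]
    · rw [ht1, mul_one]
    · intro j _ hji
      rw [ht0 j (A i) (C.notin i) (fun w hw h => hji (C.dis j i ⟨w, hw, h⟩)), mul_zero]
    · intro h; exact absurd (Finset.mem_univ _) h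
  -- units
  have hu : ∀ i, ∃ c : ℕ, (bi i - τ) - c • x i ∈ pFA p (Dec (A i)) := by
    intro i
    refine unit_span hp2 (isLoc_Dec (A i)) (hμ.mono (C.dec i)) (hell _ (C.notin i))
      ⟨FA_mono (C.dec i) (C.xm i).1, (C.xm i).2 _ (C.notin i)⟩ (C.xn i) ⟨sub_mem (hbi i) (FA_mono (C.dec i) hτ), ?_⟩
    rw [sub_eq_add_neg, vl_add, vl_neg, (A i).ord_mul (vl_ne_zero _) (inv_ne_zero (vl_ne_zero _)),
      (A i).ord_inv (vl_ne_zero _), hordτA, hn, add_neg_cancel]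
  choose c hc using hu
  let X : Ma := τ + ∑ i, c i • x i
  have hX : X ∈ US W T' := by
    refine ⟨add_mem hτ (sum_mem fun i _ => nsmul_mem (C.xm i).1 _), fun B hB => ?_⟩
    have hB' : B ∉ OB W a s := fun h => hB (OB_le_sum h)
    have e1 : B.ord (vl X) = B.ord (vl τ) + B.ord (vl (∑ i, c i • x i)) := by
      rw [← B.ord_mul (vl_ne_zero _) (vl_ne_zero _), ← vl_add]
    have e2 : B.ord (vl τ) = 0 := by
      rw [hordτ]
      refine Finset.sum_eq_zero fun i _ => ?_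
      rw [ht0 i B hB' (fun w hw h => hB (mem_OB_sum.2 (Or.inr ⟨i, w, hw, h⟩))), mul_zero]
    have e3 : B.ord (vl (∑ i, c i • x i)) = 0 := by
      rw [vl_sum, B.ord_prod _ _ fun i _ => vl_ne_zero _]
      refine Finset.sum_eq_zero fun i _ => ?_
      rw [vl_nsmul, B.ord_pow (vl_ne_zero _), (C.xm i).2 B hB', mul_zero]
    rw [e1, e2, e3, add_zero]
  obtain ⟨⟨j, hj⟩, hjb⟩ := hb X hX
  apply hjb
  rcases Finset.mem_disjSum.1 hj with ⟨j', hj', rfl⟩ | ⟨i, -, rfl⟩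
  · -- split places
    have hs : SplP W (St W y) (a j') := by
      intro g hg
      refine ⟨hg.1, ?_⟩
      obtain ⟨t', ht', h1⟩ := hy2 j' hj'
      obtain ⟨c', hc'⟩ := exists_zt_eq p (x := y - t') (by rw [nsmul_sub, h1, sub_self])
      have h2 : y = t' + zt p c' := by rw [hc']; abel
      rw [h2, map_add, mem_FA'.1 ht' g hg, hμ g hg.1]
    change X - (b ⟨Sum.inl j', hj⟩ : Ma) ∈ LN p W (St W y) (a j')
    rw [LN_split hs]
    exact sub_mem (FA_mono inf_le_left hX.1) (b ⟨Sum.inl j', hj⟩).2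
  · apply pFA_le_LN
    change X - bi i ∈ pFA p (W ⊓ Dec (A i))
    rw [hWD i]
    have h1 : X - bi i = (∑ j ∈ Finset.univ.erase i, c j • x j) - ((bi i - τ) - c i • x i) := by
      simp only [X]
      rw [← Finset.add_sum_erase Finset.univ (fun j => c j • x j) (Finset.mem_univ i)]
      abel
    rw [h1]
    refine sub_mem (sum_mem fun j hj => nsmul_mem (C.xp i j (Ne.symm (Finset.ne_of_mem_erase hj))) _) (hc i)

/-- The hyperplane. -/
theorem hyperplane (hp2 : p ≠ 2) (hW : IsOpen (W : Set GQ)) (hμ : MuF p W)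
    (hd : ∀ i ∈ s, ∀ j ∈ s, (∃ w ∈ W, w • a i = a j) → i = j) (hP : PID W (OB W a s))
    (hI : ∀ A ∉ OB W a s, Ine A ≤ W) (hpT : ∀ A : Pl, A.ell = p → A ∈ OB W a s) (C : Chev p W a s A x)
    {m : ℕ} (hm : W.index = 2 * m) (hk : k + 1 = m + s.card) :
    (US W (OB W (aS a A) (sS k s)) ⊓ ⨅ j : s, pFA p (W ⊓ Dec (a j)) : AddSubgroup Ma).relIndex
      (US W (OB W (aS a A) (sS k s))) * p = ∏ j : s, (pFA p (W ⊓ Dec (a j))).relIndex (FA (W ⊓ Dec (a j))) := by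
  classical
  set X := US W (OB W (aS a A) (sS k s)) with hX
  have h1 : (X ⊓ ⨅ j : s, pFA p (W ⊓ Dec (a j)) : AddSubgroup Ma).relIndex X = p ^ (m + (sS k s).card) := by
    rw [← index_US hμ hW hp2 (aS a A) (sS k s) (C.disj hd) hm, AddSubgroup.relIndex]
    congr 1
    ext z
    rw [AddSubgroup.mem_addSubgroupOf, AddSubgroup.mem_inf, AddSubgroup.mem_iInf]
    constructor
    · rintro ⟨-, h⟩
      obtain ⟨y, hy⟩ := exists_proot (p := p) (z : Ma)
      have hyW := claim1 hp2 hW hμ hd hP hI hpT C (y := y) (by rw [hy]; exact z.2)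
        (fun j hj => by rw [hy]; exact h ⟨j, hj⟩)
      obtain ⟨t, ht, htz⟩ := US_inf_pFA z.2 ⟨y, hyW, hy⟩
      exact ⟨⟨t, ht⟩, Subtype.ext htz⟩
    · rintro ⟨t, rfl⟩
      exact ⟨((mulN p X) t).2, fun j => ⟨t, FA_mono inf_le_left t.2.1, rfl⟩⟩
  rw [h1, ← pow_succ]
  have h2 : ∀ j : s, (pFA p (W ⊓ Dec (a j))).relIndex (FA (W ⊓ Dec (a j))) =
      p ^ (2 + (W ⊓ Dec (a j)).relIndex (Dec (a j)) * (a j).eps p) := fun j => by
    rw [relIndex_pFA, index_FA (isLoc_inf hW (a j)) hp2 (fun g hg ζ hζ => hμ.root g hg.1 ζ hζ)]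
  rw [Finset.prod_congr rfl fun j _ => h2 j, Finset.prod_pow_eq_pow_sum]
  congr 1
  rw [Finset.card_disjSum, Finset.card_univ, Fintype.card_fin,
    Finset.sum_coe_sort s (fun j => 2 + (W ⊓ Dec (a j)).relIndex (Dec (a j)) * (a j).eps p),
    Finset.sum_add_distrib, Finset.sum_const, smul_eq_mul]
  have h3 : ∑ j ∈ s, (W ⊓ Dec (a j)).relIndex (Dec (a j)) * (a j).eps p =
      ∑ j ∈ s.filter (fun j => (a j).ell = p), (W ⊓ Dec (a j)).relIndex (Dec (a j)) := by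
    rw [Finset.sum_filter]
    refine Finset.sum_congr rfl fun j _ => ?_
    rw [Pl.eps]
    split_ifs <;> simp
  rw [h3, sum_local hW (q := p) a (s.filter (fun j => (a j).ell = p)) (exists_place p hp.out)
    (fun j hj => (Finset.mem_filter.1 hj).2)
    (fun B hB => by
      obtain ⟨j, hj, w, hw, h⟩ := hpT B hB
      refine ⟨j, Finset.mem_filter.2 ⟨hj, ?_⟩, w, hw, h⟩
      rw [← h, Pl.ell_smul] at hB; exact hB)
    (fun i hi j hj => hd i (Finset.mem_of_mem_filter i hi) j (Finset.mem_of_mem_filter j hj)), hm]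
  omega

/-- **The Hasse norm theorem** for cyclic extensions of prime degree. -/
theorem hasse_norm (hp2 : p ≠ 2) (hW : IsOpen (W : Set GQ)) (hμ : MuF p W) {W' : Subgroup GQ}
    (hW' : IsOpen (W' : Set GQ)) {σ : GQ} (h : Cyc p W W' σ) {z : Ma} (hz : z ∈ FA W)
    (hzl : ∀ A : Pl, z ∈ LN p W W' A) : z ∈ Cyc.NG p W' σ := by
  classical
  haveI := numberField_KW hW
  haveI := numberField_KW hW'
  obtain ⟨m, hm, -, -⟩ := phi_units hW hp2 hμ
  obtain ⟨T1, hT1⟩ := exists_PID hW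
  obtain ⟨T2, hT2⟩ := exists_PID hW'
  obtain ⟨T3, hT3⟩ := exists_unram hW'
  obtain ⟨s, hs, hsd⟩ := exists_reps hW (T1 ∪ T2 ∪ T3 ∪ {p})
  have hOB : ∀ B : Pl, B ∈ OB W (id : Pl → Pl) s ↔ B.ell ∈ T1 ∪ T2 ∪ T3 ∪ {p} := fun B => (hs B).symm
  have hP : PID W (OB W (id : Pl → Pl) s) := hT1 _ fun B hB => (hOB B).2 (by simp [hB])
  have hP' : PID W' (OB W (id : Pl → Pl) s) := hT2 _ fun B hB => (hOB B).2 (by simp [hB])
  have hI' : ∀ B ∉ OB W (id : Pl → Pl) s, Ine B ≤ W' := fun B hB => hT3 B fun h => hB ((hOB B).2 (by simp [h]))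
  have hI : ∀ B ∉ OB W (id : Pl → Pl) s, Ine B ≤ W := fun B hB => (hI' B hB).trans h.le
  have hpT : ∀ B : Pl, B.ell = p → B ∈ OB W (id : Pl → Pl) s := fun B hB => (hOB B).2 (by simp [hB])
  have hd : ∀ i ∈ s, ∀ j ∈ s, (∃ w ∈ W, w • (id : Pl → Pl) i = (id : Pl → Pl) j) → i = j := hsd
  -- a Kummer generator
  obtain ⟨y0, hy0W, hy0W', hy0p, hy0σ, hy0St⟩ := cyc_kummer hμ h (Subgroup.isClosed_of_isOpen W' hW')
  obtain ⟨g, hg, hgz⟩ := clear hW hW (T := OB W (id : Pl → Pl) s) StP_OB (G1 := pFA p W)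
    (by rintro _ ⟨t, ht, rfl⟩; exact nsmul_mem ht _) hy0p (fun w hw A _ => ord_fix hy0p hw A) (by
      intro A hA
      obtain ⟨t, ht, ht1, ht0⟩ := unif_one hA hW (hI A hA) hP
      obtain ⟨n, hn⟩ := int_ord' hW' (hI' A hA) (FA_mono inf_le_left hy0W')
      refine ⟨p • (n • t), ⟨_, zsmul_mem ht n, rfl⟩, ?_, fun B hB hB' => ?_⟩
      · rw [vl_nsmul, vl_zsmul, vl_nsmul, A.ord_pow (zpow_ne_zero _ (vl_ne_zero _)),
          A.ord_pow (vl_ne_zero _), A.ord_zpow (vl_ne_zero _), ht1, hn, mul_one]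
      · rw [vl_nsmul, vl_zsmul, B.ord_pow (zpow_ne_zero _ (vl_ne_zero _)), B.ord_zpow (vl_ne_zero _),
          ht0 B hB hB', mul_zero, mul_zero])
  obtain ⟨t0, ht0, rfl⟩ := hg
  set y1 := y0 - t0 with hy1
  have hy1p : p • y1 ∈ US W (OB W (id : Pl → Pl) s) := by
    rw [hy1, nsmul_sub]
    exact ⟨sub_mem hy0p (nsmul_mem ht0 _), hgz⟩
  have hy1W : y1 ∉ FA W := fun h1 => hy0W (by
    have : y0 = y1 + t0 := by rw [hy1]; abel
    rw [this]; exact add_mem h1 ht0)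
  have hy1fix : ∀ g ∈ W, ac g y1 = y1 → g ∈ W' := fun g hg h1 => by
    rw [← hy0St]
    refine ⟨hg, ?_⟩
    have : y0 = y1 + t0 := by rw [hy1]; abel
    rw [this, map_add, h1, mem_FA'.1 ht0 g hg]
  obtain ⟨k, A, x, hk, c1, c2, c3, c4, c5, c6, c7, -⟩ := exists_chev hμ hW hp2 id s hd hm hy1p hy1W ∅
  have C : Chev p W id s A x := ⟨c1, c3, c4, c5, c6, c7⟩
  set T' := OB W (aS id A) (sS k s) with hT'
  have hle : OB W (id : Pl → Pl) s ⊆ T' := OB_le_sum
  have hsplA : ∀ i, SplP W W' (A i) := fun i g hg => hy1fix g hg.1 (mem_FA'.1 (c2 i) g hg.2)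
  -- clear `z`
  obtain ⟨g, hg, hgz⟩ := clear hW hW (T := T') StP_OB (G1 := Cyc.NG p W' σ) h.NG_le hz
    (fun w hw A _ => ord_fix hz hw A) (by
      intro B hB
      have hB0 : B ∉ OB W (id : Pl → Pl) s := fun h => hB (hle h)
      by_cases hBs : SplP W W' B
      · -- split
        obtain ⟨t, ht, ht1, ht0⟩ := unif_one hB hW' (hI' B hB0) (hP'.mono hle)
        obtain ⟨n, hn⟩ := int_ord' hW (hI B hB0) (FA_mono inf_le_left hz)
        have hnm : ∀ D : Pl, D.ord (vl (Cyc.nm p σ (n • t))) =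
            ∑ i ∈ Finset.range p, n * ((σ ^ i)⁻¹ • D).ord (vl t) := by
          intro D
          rw [Cyc.nm, vl_sum, D.ord_prod _ _ fun i _ => vl_ne_zero _]
          refine Finset.sum_congr rfl fun i _ => ?_
          have h3 := ord_ac (σ ^ i) ((σ ^ i)⁻¹ • D) (n • t)
          rw [smul_inv_smul] at h3
          rw [h3, vl_zsmul, Pl.ord_zpow _ (vl_ne_zero _)]
        have hnotin : ∀ (D : Pl), D ∉ T' → ∀ i : ℕ, (σ ^ i)⁻¹ • D ∉ T' := fun D hD i =>
          StP_OB.compl (inv_mem (pow_mem h.mem i)) hD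
        refine ⟨_, ⟨n • t, zsmul_mem ht n, rfl⟩, ?_, fun D hD hD' => ?_⟩
        · rw [hnm, Finset.sum_eq_single 0]
          · rw [pow_zero, inv_one, one_smul, ht1, hn, mul_one]
          · intro i hi hi0
            rw [ht0 _ (hnotin B hB i) (fun w hw h1 => ?_), mul_zero]
            -- contradiction
            have h2 : σ ^ i * w ∈ W ⊓ Dec B := by
              refine ⟨mul_mem (pow_mem h.mem i) (h.le hw), ?_⟩
              change (σ ^ i * w) • B = B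
              rw [mul_smul, h1, smul_inv_smul]
            have h3 := hBs h2
            have h4 : σ ^ i ∈ W' := (W'.mul_mem_cancel_right hw).1 h3
            rw [h.pow] at h4
            exact hi0 (Nat.eq_zero_of_dvd_of_lt h4 (Finset.mem_range.1 hi))
          · intro h1; exact absurd (Finset.mem_range.2 hp.out.pos) h1
        · rw [hnm]
          refine Finset.sum_eq_zero fun i _ => ?_
          rw [ht0 _ (hnotin D hD i) (fun w hw h1 => ?_), mul_zero]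
          refine hD' (σ ^ i * w) (mul_mem (pow_mem h.mem i) (h.le hw)) ?_
          rw [mul_smul, h1, smul_inv_smul]
      · -- nonsplit
        obtain ⟨τ, hτ', hτ⟩ := exists_cyc_loc h hBs
        obtain ⟨t, ht, ht1, ht0⟩ := unif_one hB hW (hI B hB0) (hP.mono hle)
        obtain ⟨v, hv, hvz⟩ := (hzl B).2 τ hτ
        obtain ⟨n, hn⟩ := int_ord' hW' (hI' B hB0) hv
        have h1 : B.ord (vl z) = p * n := by
          rw [← hvz, Cyc.nm, vl_sum, B.ord_prod _ _ fun i _ => vl_ne_zero _]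
          have h1 : ∀ i ∈ Finset.range p, B.ord (vl (ac (τ ^ i) v)) = n := fun i _ => by
            rw [vl_ac, ← hn]
            exact Dec.ord ((Dec B).pow_mem hτ.mem.2 i) (vl_ne_zero _)
          rw [Finset.sum_congr rfl h1, Finset.sum_const, Finset.card_range, nsmul_eq_mul]
        refine ⟨p • (n • t), ⟨n • t, FA_mono h.le (zsmul_mem ht n), Cyc.nm_of_mem (zsmul_mem ht n) h.mem⟩,
          ?_, fun D hD hD' => ?_⟩
        · rw [vl_nsmul, vl_zsmul, B.ord_pow (zpow_ne_zero _ (vl_ne_zero _)), B.ord_zpow (vl_ne_zero _),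
            ht1, h1, mul_one]
        · rw [vl_nsmul, vl_zsmul, D.ord_pow (zpow_ne_zero _ (vl_ne_zero _)), D.ord_zpow (vl_ne_zero _),
            ht0 D hD hD', mul_zero, mul_zero])
  have hzg : z - g ∈ US W T' := ⟨sub_mem hz (h.NG_le hg), hgz⟩
  have hzgl : ∀ B : Pl, z - g ∈ LN p W W' B := fun B => sub_mem (hzl B) (NG_le_LN h B hg)
  -- second inequality
  have hhyp := hyperplane hp2 hW hμ hd hP hI hpT C hm hk
  let t : Finset (Pl ⊕ Fin k) := s.map Function.Embedding.inl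
  have hts : t ⊆ sS k s := fun j hj => by
    obtain ⟨j', hj', rfl⟩ := Finset.mem_map.1 hj
    exact Finset.inl_mem_disjSum.2 hj'
  have h1 : z - g ∈ Cyc.NG p W' σ := by
    refine second_ineq hp2 hW hW' h hμ (aS id A) (sS k s) t hts (C.disj hd) (hP.mono hle)
      (unrO_of hW' fun B hB => hI' B fun h => hB (hle h)) (fun j hj hjt => ?_) ?_ hzg (fun j _ => hzgl _)
    · rcases Finset.mem_disjSum.1 hj with ⟨j', hj', rfl⟩ | ⟨i, -, rfl⟩
      · exact absurd (Finset.mem_map.2 ⟨j', hj', rfl⟩) hjt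
      · exact hsplA i
    · let e0 : s → t := fun j => ⟨Sum.inl (j : Pl), Finset.mem_map.2 ⟨j, j.2, rfl⟩⟩
      have he0 : Function.Bijective e0 := by
        refine ⟨fun i j hij => Subtype.ext (Sum.inl_injective (congrArg Subtype.val hij)), fun j => ?_⟩
        obtain ⟨j', hj', h2⟩ := Finset.mem_map.1 j.2
        exact ⟨⟨j', hj'⟩, Subtype.ext h2⟩
      let e : s ≃ t := Equiv.ofBijective e0 he0
      rw [← Equiv.prod_comp e (fun j : t => (pFA p (W ⊓ Dec (aS id A j))).relIndex (FA (W ⊓ Dec (aS id A j)))),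
        ← Equiv.iInf_comp (g := fun j : t => pFA p (W ⊓ Dec (aS id A j))) e]
      exact hhyp
  have : z = (z - g) + g := by abel
  rw [this]
  exact add_mem h1 hg

end Fermat.Agent.CFT
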