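import Fermat.Agent.CFT.Gl10

/-!
# The Hasse principle for `H²`
-/

set_option autoImplicit false
set_option linter.unusedSectionVars false
set_option linter.unusedVariables false
set_option linter.style.haveILetI false

namespace Fermat.Agent.CFT

open Module NumberField Fermat.Agent.Places
open scoped Pointwise

variable {p : ℕ} [hp : Fact p.Prime]

/-- restriction of invariants -/
theorem ZR.res {S : Sys GQ} {m : ℕ} {W W' : Subgroup GQ} {σ : GQ} (h : Cyc m W W' σ) {D : Subgroup GQ}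
    {τ : GQ} (hτ : σ⁻¹ * τ ∈ W') {c : GQ → GQ → GQ → Ma} {z : Ma} (hz : ZR S m W' σ c z) :
    ZR S m (W' ⊓ D) τ c z := by
  obtain ⟨b, hb, hbc, a, ha, had, hna⟩ := hz
  have hpow : ∀ j : ℕ, (σ ^ j)⁻¹ * τ ^ j ∈ W' := by
    intro j
    induction j with
    | zero => simp
    | succ j ih =>
      have h1 : (σ ^ (j + 1))⁻¹ * τ ^ (j + 1) = (σ⁻¹ * ((σ ^ j)⁻¹ * τ ^ j) * σ) * (σ⁻¹ * τ) := by
        rw [pow_succ, pow_succ]; group
      rw [h1]
      exact mul_mem (h.conj_inv' h.mem _ ih) hτ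
  refine ⟨b, hb.mono inf_le_left, hbc, a, ha.mono inf_le_left, ?_, fun x => ?_⟩
  · rw [had]
    congr 1
    funext x y
    simp only [t1]
    have h1 : τ = σ * (σ⁻¹ * τ) := by group
    have h2 : ∀ x, τ⁻¹ * x = (σ⁻¹ * τ)⁻¹ * (σ⁻¹ * x) := fun x => by group
    rw [h2, h2, hb.eq _ (inv_mem hτ), ← ac_mul]
    congr 2
    group
  · rw [← hna x]
    simp only [nmF]
    refine Finset.sum_congr rfl fun j _ => ?_
    have h2 : (τ ^ j)⁻¹ • x = ((σ ^ j)⁻¹ * τ ^ j)⁻¹ * ((σ ^ j)⁻¹ • x) := by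
      simp only [smul_eq_mul]; group
    rw [h2, ha.eq _ (inv_mem (hpow j)), ← ac_mul]
    congr 2
    group

theorem hasse_pow (hp2 : p ≠ 2) (k : ℕ) : ∀ {P V' : Subgroup GQ}, IsOpen (P : Set GQ) → IsOpen (V' : Set GQ) →
    V' ≤ P → (V'.subgroupOf P).Normal → V'.relIndex P = p ^ k → MuF p P →
    ∀ c, C2 (tr p) SL P c → TrP p SL V' c → (∀ A : Pl, TrP p SL (P ⊓ Dec A) c) → TrP p SL P c := by
  induction k with
  | zero =>
    intro P V' hP hV' hle hN hidx hμ c hc hT _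
    rw [pow_zero] at hidx
    exact hT.mono (Subgroup.relIndex_eq_one.1 hidx)
  | succ k ih =>
    intro P V' hP hV' hle hN hidx hμ c hc hT hloc
    obtain ⟨P1, h1, h2, h3, h4, h5⟩ := exists_index_p hle hN hidx
    have hP1 : IsOpen (P1 : Set GQ) := Subgroup.isOpen_mono h1 hV'
    have hN' : (V'.subgroupOf P1).Normal := ⟨fun u hu w => hN.conj_mem ⟨u, h2 u.2⟩ hu ⟨w, h2 w.2⟩⟩
    have hT1 := ih hP1 hV' h1 hN' h5 (hμ.mono h2) c (hc.mono h2) hT (fun A => (hloc A).mono (inf_le_inf_right _ h2))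
    obtain ⟨σ, hσ⟩ : ∃ σ, Cyc p P P1 σ := by
      rcases cyc_or_eq h2 h3 h4 (Q := P) le_rfl with h6 | ⟨σ, hσ⟩
      · exfalso
        have h7 : P ≤ P1 := inf_eq_left.1 h6
        rw [Subgroup.relIndex_eq_one.2 h7] at h4
        exact hp.out.one_lt.ne h4
      · exact ⟨σ, by rwa [inf_eq_right.2 h2] at hσ⟩
    obtain ⟨b, hb, hbc⟩ := (trP_SL (hμ.mono hσ.le) c).1 hT1
    obtain ⟨z, hzP, hz⟩ := exists_ZR hσ SL_open (hc.z2 hμ) hb hbc
    have hloc' : ∀ A : Pl, z ∈ LN p P P1 A := by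
      intro A
      by_cases hs : SplP P P1 A
      · rw [LN_split hs]; exact FA_mono inf_le_left hzP
      · obtain ⟨d, hd, hd'⟩ := Set.not_subset.1 hs
        obtain ⟨u, hu, i, -, hui⟩ := (hσ.change hd.1 hd').exists_pow hσ.mem
        have hτ1 : σ⁻¹ * d ^ i ∈ P1 := by
          have : σ⁻¹ * d ^ i = σ⁻¹ * u⁻¹ * σ := by
            have h6 : d ^ i = u⁻¹ * σ := by rw [hui]; group
            rw [h6]; group
          rw [this]
          exact hσ.conj_inv' hσ.mem _ (inv_mem hu)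
        have hσP1 : σ ∉ P1 := fun h6 => by
          have := (hσ.pow 1).1 (by rwa [pow_one])
          exact hp.out.one_lt.ne' (Nat.dvd_one.1 this)
        have hdi : d ^ i ∉ P1 := fun h6 => hσP1 (by
          have h7 : σ = d ^ i * (σ⁻¹ * d ^ i)⁻¹ := by group
          rw [h7]; exact mul_mem h6 (inv_mem hτ1))
        have hc' := hσ.inf (D := Dec A) (show d ^ i ∈ P ⊓ Dec A from
          ⟨P.pow_mem hd.1 i, (Dec A).pow_mem hd.2 i⟩) hdi
        rw [LN_eq hc']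
        obtain ⟨b', hb', hbc'⟩ := (trP_SL (hμ.mono inf_le_left) c).1 (hloc A)
        exact (hz.res hσ hτ1).norm hc' SL_open hb' hbc'
    have hN1 := hasse_norm hp2 hP hμ hP1 hσ hzP hloc'
    obtain ⟨V, hV, hVP⟩ := SL_exists hP1
    rw [trP_SL hμ]
    exact hz.trivial hσ ⟨V, hV, fun g hg => hVP hg.1⟩ hN1

/-- **The Hasse principle for `H²`.** -/
theorem hasse_H2 (hp2 : p ≠ 2) {W : Subgroup GQ} (hW : IsOpen (W : Set GQ)) (hμ : MuF p W)
    {c : GQ → GQ → GQ → ZMod p} (hc : C2 (tr p) SL W c) (hd : d2 c = 0)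
    (hloc : ∀ A : Pl, TrP p SL (W ⊓ Dec A) c) : TrP p SL W c := by
  obtain ⟨V, hV, hsm⟩ := hc.sm
  have s1 := exists_split hc hd hV hsm
  have hN := sub_inf_normal (W := W) (SL.normal V hV)
  haveI := SL.finiteIndex V hV
  have hfin : (V ⊓ W).relIndex W ≠ 0 := by
    rw [Subgroup.inf_relIndex_right]
    exact (inferInstance : (V.subgroupOf W).FiniteIndex).index_ne_zero
  obtain ⟨P, hVP, hPW, hPi, k, hk⟩ := exists_sylow (p := p) inf_le_right hN hfin
  have hVW : IsOpen ((V ⊓ W : Subgroup GQ) : Set GQ) := (SL_open V hV).inter hW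
  have hP : IsOpen (P : Set GQ) := Subgroup.isOpen_mono hVP hVW
  have hN' : ((V ⊓ W).subgroupOf P).Normal := ⟨fun u hu w => hN.conj_mem ⟨u, hPW u.2⟩ hu ⟨w, hPW w.2⟩⟩
  have h1 := hasse_pow hp2 k hP hVW hVP hN' hk (hμ.mono hPW) c (hc.mono hPW) s1
    (fun A => (hloc A).mono (inf_le_inf_right _ hPW))
  exact h1.descend hPW (fun h0 => hPi (by rw [h0]; exact dvd_zero _)) hPi hc

end Fermat.Agent.CFT
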