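import Fermat.Agent.CFT.Gl11

/-!
# The system of subgroups unramified outside a finite set; unramified classes are locally trivial
-/

set_option autoImplicit false
set_option linter.unusedSectionVars false
set_option linter.unusedVariables false
set_option linter.style.haveILetI false

namespace Fermat.Agent.CFT

open Module
open scoped Pointwise

/-- The order as a homomorphism. -/
noncomputable def od (A : Pl) : Ma →+ ℚ where
  toFun x := A.ord (vl x)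
  map_zero' := A.ord_one
  map_add' x y := by rw [vl_add, A.ord_mul (vl_ne_zero _) (vl_ne_zero _)]

theorem od_apply (A : Pl) (x : Ma) : od A x = A.ord (vl x) := rfl

theorem od_ac (A : Pl) (g : GQ) (x : Ma) : od A (ac g x) = od (g⁻¹ • A) x := by
  have := ord_ac g (g⁻¹ • A) x
  rw [smul_inv_smul] at this
  exact this

theorem od_ac_dec {A : Pl} {g : GQ} (hg : g ∈ Dec A) (x : Ma) : od A (ac g x) = od A x := by
  rw [od_ac, mem_Dec.1 (inv_mem hg)]

theorem od_tors {A : Pl} {x : Ma} {n : ℕ} (hn : n ≠ 0) (h : n • x = 0) : od A x = 0 := by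
  have h1 := congrArg (od A) h
  rw [map_nsmul, map_zero, nsmul_eq_mul] at h1
  exact (mul_eq_zero.1 h1).resolve_left (Nat.cast_ne_zero.2 hn)

theorem od_zt {p : ℕ} [hp : Fact p.Prime] {A : Pl} (c : ZMod p) : od A (zt p c) = 0 :=
  od_tors hp.out.ne_zero (p_zt p c)

theorem Ine_le_Dec {A : Pl} : Ine A ≤ Dec A := fun g hg => (mem_Ine.1 hg).1

theorem Ine_smul {A : Pl} {g n : GQ} (hn : n ∈ Ine A) : g * n * g⁻¹ ∈ Ine (g • A) := by
  obtain ⟨h1, h2⟩ := mem_Ine.1 hn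
  refine mem_Ine.2 ⟨?_, fun x hx => ?_⟩
  · rw [mem_Dec, mul_smul, inv_smul_smul, mul_smul, mem_Dec.1 h1]
  · rw [smul_mem_nonunits_iff]
    have h3 : g⁻¹ x ∈ A.v := by
      rw [← Pl.ge_zero_iff] at hx ⊢
      exact (Pl.ge_smul' g).1 hx
    have h4 := h2 _ h3
    have h5 : g⁻¹ ((g * n * g⁻¹) x - x) = n (g⁻¹ x) - g⁻¹ x := by
      rw [map_sub]
      congr 1
      change (g⁻¹ * (g * n * g⁻¹)) x = (n * g⁻¹) x
      congr 1
      group
    rw [h5]
    exact h4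

/-- The open normal subgroups containing the inertia groups outside `S`. -/
def SG (S : Finset ℕ) : Sys GQ where
  carrier := {V | V.Normal ∧ IsOpen (V : Set GQ) ∧ ∀ A : Pl, A.ell ∉ S → Ine A ≤ V}
  nonempty := ⟨⊤, inferInstance, isOpen_univ, fun _ _ => le_top⟩
  normal V h := h.1
  finiteIndex V h := finiteIndex_of_isOpen h.2.1
  directed U hU V hV := ⟨U ⊓ V, ⟨by
    haveI := hU.1; haveI := hV.1; infer_instance, hU.2.1.inter hV.2.1,
    fun A hA => le_inf (hU.2.2 A hA) (hV.2.2 A hA)⟩, inf_le_left, inf_le_right⟩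

variable {S : Finset ℕ}

theorem SG_open : ∀ V ∈ (SG S).carrier, IsOpen (V : Set GQ) := fun _ h => h.2.1

theorem SG_SL : ∀ U ∈ (SG S).carrier, ∃ V ∈ SL.carrier, V ≤ U := fun U h => ⟨U, ⟨h.1, h.2.1⟩, le_rfl⟩

theorem SG_exists {N : Subgroup GQ} (hN : IsOpen (N : Set GQ)) (h : ∀ A : Pl, A.ell ∉ S → Ine A ≤ N) :
    ∃ V ∈ (SG S).carrier, V ≤ N := by
  refine ⟨N.normalCore, ⟨inferInstance, ?_, fun A hA n hn g => ?_⟩, Subgroup.normalCore_le N⟩
  · obtain ⟨V, hV, hle⟩ := SL_exists hN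
    haveI := hV.1
    exact Subgroup.isOpen_mono (Subgroup.normal_le_normalCore.2 hle) hV.2
  · exact h (g • A) (by rw [A.ell_smul]; exact hA) (Ine_smul hn)

section Val

variable {T : Sys GQ} {W : Subgroup GQ} {M : Type} [AddCommGroup M] {am : GQ →* AddMonoid.End M}

theorem C0.val_fix {f : GQ → M} (hf : C0 am T W f) (hop : ∃ V ∈ T.carrier, V ≤ W) :
    ∃ V ∈ T.carrier, V ≤ W ∧ ∀ x, ∀ v ∈ V, am v (f x) = f x := by
  obtain ⟨V1, hV1, h1⟩ := hf.sm
  obtain ⟨V0, hV0, h0⟩ := hop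
  obtain ⟨V, hV, hle, hle'⟩ := T.directed V0 hV0 V1 hV1
  refine ⟨V, hV, hle.trans h0, fun x v hv => ?_⟩
  rw [← hf.eq v (h0 (hle hv))]
  have h2 : v * x = x * (x⁻¹ * v * x) := by group
  rw [h2, h1]
  have := (T.normal V hV).conj_mem v hv x⁻¹
  rw [inv_inv] at this
  exact hle' this

theorem C1.val_fix {f : GQ → GQ → M} (hf : C1 am T W f) (hop : ∃ V ∈ T.carrier, V ≤ W) :
    ∃ V ∈ T.carrier, V ≤ W ∧ ∀ x y, ∀ v ∈ V, am v (f x y) = f x y := by
  obtain ⟨V1, hV1, h1⟩ := hf.sm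
  obtain ⟨V0, hV0, h0⟩ := hop
  obtain ⟨V, hV, hle, hle'⟩ := T.directed V0 hV0 V1 hV1
  refine ⟨V, hV, hle.trans h0, fun x y v hv => ?_⟩
  rw [← hf.eq v (h0 (hle hv))]
  have h2 : ∀ x, v * x = x * (x⁻¹ * v * x) := fun x => by group
  have h3 : ∀ x, x⁻¹ * v * x ∈ V1 := fun x => by
    have := (T.normal V hV).conj_mem v hv x⁻¹
    rw [inv_inv] at this
    exact hle' this
  rw [h2, h2 y, h1 _ _ _ (h3 x) _ (h3 y)]

end Val

variable {p : ℕ} [hp : Fact p.Prime]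

/-- roots of elements of level `S` with integral orders -/
theorem root_lvl (hpS : p ∈ S) {y : Ma} (hz : ∃ V ∈ (SG S).carrier, ∀ v ∈ V, ac v (p • y) = p • y)
    (ho : ∀ A : Pl, A.ell ∉ S → ∃ k : ℤ, od A y = k) : ∃ V ∈ (SG S).carrier, ∀ v ∈ V, ac v y = y := by
  obtain ⟨V, hV, h⟩ := hz
  obtain ⟨V', hV', hle⟩ := SG_exists (S := S) (N := St V y) (by
      have : ((St V y : Subgroup GQ) : Set GQ) = (V : Set GQ) ∩ {g : GQ | ac g y = y} := by
        ext g; exact Iff.rfl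
      rw [this]
      exact (SG_open V hV).inter (isOpen_fixMa y)) (fun A hA g hg => by
    have h1 : g ∈ V := hV.2.2 A hA hg
    refine mem_St.2 ⟨h1, ?_⟩
    have h2 : p • (ac g y - y) = 0 := by
      rw [nsmul_sub, ← map_nsmul, h g h1, sub_self]
    obtain ⟨c, hc⟩ := exists_zt_eq p h2
    have h3 : ac g y = y + zt p c := by rw [hc]; abel
    have h4 : c = 0 := ine_fix (A := A) (by rintro rfl; exact hA hpS) (ho A hA) hg h3
    rw [h3, h4, map_zero, add_zero])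
  exact ⟨V', hV', fun v hv => (hle hv).2⟩

omit hp in
theorem fix_int {V : Subgroup GQ} (hV : V ∈ (SG S).carrier) {y : Ma} (hy : ∀ v ∈ V, ac v y = y) (A : Pl)
    (hA : A.ell ∉ S) : ∃ k : ℤ, od A y = k := by
  refine int_ord' (W := V) (SG_open V hV) (hV.2.2 A hA) ?_
  exact mem_FA'.2 fun g hg => hy g hg.1

/-- intermediate subgroups of a cyclic pair -/
theorem Cyc.quot {m : ℕ} {W W' V : Subgroup GQ} {σ : GQ} (h : Cyc m W W' σ) (h1 : W' ≤ V) (h2 : V ≤ W) :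
    ∃ τ, Cyc (V.relIndex W) W V τ := by
  classical
  haveI : NeZero m := ⟨h.pos.ne'⟩
  obtain ⟨ψ, hψ, -⟩ := h.exists_char
  let K : Subgroup (Multiplicative (ZMod m)) := (V.subgroupOf W).map ψ
  let f : W →* Multiplicative (ZMod m) ⧸ K := (QuotientGroup.mk' K).comp ψ
  haveI : IsCyclic (Multiplicative (ZMod m) ⧸ K) := inferInstance
  haveI : Finite (Multiplicative (ZMod m) ⧸ K) := inferInstance
  obtain ⟨τ, hτ⟩ := cyc_of_hom f inferInstance inferInstance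
  have hker : f.ker.map W.subtype = V := by
    ext g
    constructor
    · rintro ⟨w, hw, rfl⟩
      have h3 : ψ w ∈ K := (QuotientGroup.eq_one_iff _).1 hw
      obtain ⟨v, hv, hvw⟩ := h3
      have h4 : ψ (v⁻¹ * w) = 1 := by rw [map_mul, map_inv, hvw, inv_mul_cancel]
      have h5 := h1 ((hψ _).2 h4)
      have h6 : ((w : W) : GQ) = v * ((v⁻¹ * w : W) : GQ) := by simp
      change (w : GQ) ∈ V
      rw [h6]
      exact mul_mem hv h5
    · intro hg
      refine ⟨⟨g, h2 hg⟩, ?_, rfl⟩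
      exact (QuotientGroup.eq_one_iff _).2 ⟨⟨g, h2 hg⟩, hg, rfl⟩
  rw [hker] at hτ
  have := hτ.relIndex
  rw [← this] at hτ
  exact ⟨τ, hτ⟩

theorem C2.toSL {M : Type} [AddCommGroup M] {am : GQ →* AddMonoid.End M} {W : Subgroup GQ}
    {c : GQ → GQ → GQ → M} (h : C2 am (SG S) W c) : C2 am SL W c :=
  ⟨h.eq, by obtain ⟨V, hV, h'⟩ := h.sm; exact ⟨V, ⟨hV.1, hV.2.1⟩, h'⟩⟩

theorem C1.toSL {M : Type} [AddCommGroup M] {am : GQ →* AddMonoid.End M} {W : Subgroup GQ}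
    {c : GQ → GQ → M} (h : C1 am (SG S) W c) : C1 am SL W c :=
  ⟨h.eq, by obtain ⟨V, hV, h'⟩ := h.sm; exact ⟨V, ⟨hV.1, hV.2.1⟩, h'⟩⟩

theorem C0.toSL {M : Type} [AddCommGroup M] {am : GQ →* AddMonoid.End M} {W : Subgroup GQ}
    {c : GQ → M} (h : C0 am (SG S) W c) : C0 am SL W c :=
  ⟨h.eq, by obtain ⟨V, hV, h'⟩ := h.sm; exact ⟨V, ⟨hV.1, hV.2.1⟩, h'⟩⟩

theorem TrP.toSL {W : Subgroup GQ} {c : GQ → GQ → GQ → ZMod p} (h : TrP p (SG S) W c) : TrP p SL W c := by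
  obtain ⟨b, hb, hd⟩ := h
  exact ⟨b, hb.toSL, hd⟩

theorem unr_aux (hp2 : p ≠ 2) {A : Pl} {k : ℕ} {P V' : Subgroup GQ} {σ : GQ} (h : Cyc (p ^ k) P V' σ)
    (hP : IsLoc A P) (hV' : IsLoc A V') (hI : Ine A ≤ V') (hA : A.ell ∉ S) (hμ : MuF p P)
    {c : GQ → GQ → GQ → ZMod p} (hc : C2 (tr p) (SG S) P c) {β : GQ → GQ → ZMod p}
    (hβ : C1 (tr p) (SG S) V' β) (hd : d1 β = c) (hS : ∃ V ∈ (SG S).carrier, V ⊓ P ≤ V') :
    TrP p SL P c := by
  have hμ' := hμ.mono h.le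
  have hc' := hc.z2 hμ
  have hb := hβ.z1 hμ'
  have hbc : d1 (z1 p β) = z2 p c := by rw [← hd, z2_d1]
  obtain ⟨z, hz, a, ha, had, hn⟩ := exists_ZR' h SG_open hc' hb hbc
  -- the orders of the values of `a`
  have hconst : ∀ x y, od A (a y) = od A (a x) := by
    intro x y
    have h1 := congrFun (congrFun had x) y
    simp only [d0, t1, z1, Pi.sub_apply] at h1
    have h2 : a y = a x + (ac σ (zt p (β (σ⁻¹ * x) (σ⁻¹ * y))) - zt p (β x y)) := by rw [← h1]; abel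
    have h3 : od A (ac σ (zt p (β (σ⁻¹ * x) (σ⁻¹ * y)))) = 0 :=
      od_tors hp.out.ne_zero (by rw [← map_nsmul, p_zt, map_zero])
    rw [h2, map_add, map_sub, od_zt, h3, sub_zero, add_zero]
  have hint : ∃ k : ℤ, od A (a 1) = k := by
    obtain ⟨V1, hV1, h1⟩ := ha.sm
    have h2 : a 1 ∈ FA (V1 ⊓ V') := by
      rw [mem_FA']
      intro g hg
      rw [← ha.eq g hg.2, mul_one]
      have := h1 1 g hg.1
      rwa [one_mul] at this
    exact int_ord (hV'.inf_open (SG_open V1 hV1)) (le_inf (hV1.2.2 A hA) hI) h2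
  obtain ⟨j, hj⟩ := hint
  have hord : od A z = (p ^ k : ℕ) * j := by
    rw [← hn 1, nmF, map_sum, Finset.sum_congr rfl (g := fun _ => (j : ℚ)), Finset.sum_const,
      Finset.card_range, nsmul_eq_mul]
    intro i _
    rw [od_ac_dec (hP.le (pow_mem h.mem i)), hconst 1, hj]
  have hOG : z ∈ OG A P (p ^ k) := by
    refine mem_OG.2 ⟨hz, j • ellM A, (FA P).zsmul_mem (ellM_mem P) j, ?_⟩
    change od A z = _ * od A (j • ellM A)
    rw [hord, map_zsmul, od_apply, ord_ellM, zsmul_eq_mul, mul_one]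
  have hsv : SameVal A P V' := fun x hx => by
    obtain ⟨i, hi⟩ := int_ord hV' hI hx
    refine ⟨i • ellM A, (FA P).zsmul_mem (ellM_mem P) i, ?_⟩
    change od A (i • ellM A) = _
    rw [map_zsmul, od_apply, ord_ellM, zsmul_eq_mul, mul_one, hi]
  have hNG := OG_le_NG_pow hp2 k h hP hV' hsv hOG
  obtain ⟨b', hb', hd'⟩ := ZR.trivial h hS ⟨_, hb, hbc, a, ha, had, hn⟩ hNG
  exact (trP_SL hμ c).2 ⟨b', hb'.toSL, hd'⟩

/-- Classes of level `S` are locally trivial outside `S`. -/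
theorem unr_triv (hp2 : p ≠ 2) {W : Subgroup GQ} (hμ : MuF p W) (hop : ∃ V ∈ (SG S).carrier, V ≤ W)
    {c : GQ → GQ → GQ → ZMod p} (hc : C2 (tr p) (SG S) W c) (hd : d2 c = 0) {A : Pl} (hA : A.ell ∉ S) :
    TrP p SL (W ⊓ Dec A) c := by
  obtain ⟨V0, hV0, hV0W⟩ := hop
  have hW : IsOpen (W : Set GQ) := Subgroup.isOpen_mono hV0W (SG_open V0 hV0)
  have hD := isLoc_inf hW A
  set D := W ⊓ Dec A with hDdef
  have hID : Ine A ≤ D := le_inf ((hV0.2.2 A hA).trans hV0W) Ine_le_Dec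
  have hμD : MuF p D := hμ.mono inf_le_left
  have hcD : C2 (tr p) (SG S) D c := hc.mono inf_le_left
  obtain ⟨V, hV, hVc⟩ := hc.sm
  have hsp := exists_split hcD hd hV hVc
  have hV'loc : IsLoc A (V ⊓ D) := hD.inf_open (SG_open V hV)
  have hle : V ⊓ D ≤ D := inf_le_right
  have hI : Ine A ≤ V ⊓ D := le_inf (hV.2.2 A hA) hID
  have hfin : (V ⊓ D).relIndex D ≠ 0 := by
    have h1 := hV'loc.relIndex
    have h2 := Subgroup.relIndex_mul_relIndex (V ⊓ D) D (Dec A) hle hD.le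
    intro h
    rw [h, zero_mul] at h2
    exact h1 h2.symm
  obtain ⟨P, h1, h2, h3, k, hk⟩ := exists_sylow (p := p) hle (sub_inf_normal hV.1) hfin
  have hP : IsLoc A P := hD.of_le hV'loc h1 h2
  obtain ⟨n, hn0, hn⟩ := exists_RR_le hV'loc hI
  obtain ⟨m, σ, hσ⟩ := exists_cyc_RR hP.le hn0
  obtain ⟨τ, hτ⟩ := hσ.quot (inf_le_right.trans hn) h1
  rw [hk] at hτ
  obtain ⟨β, hβ, hdβ⟩ := hsp
  refine TrP.descend h2 (fun h => ?_) h3 hcD.toSL ?_
  · have := Subgroup.relIndex_mul_relIndex (V ⊓ D) P D h1 h2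
    rw [h, mul_zero] at this
    exact hfin this.symm
  · exact unr_aux hp2 hτ hP hV'loc hI hA (hμD.mono h2) (hcD.mono h2) hβ hdβ
      ⟨V, hV, inf_le_inf_left V h2⟩

end Fermat.Agent.CFT
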