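import Fermat.Agent.CFT.Gl12

/-!
# Descent of the level
-/

set_option autoImplicit false
set_option linter.unusedSectionVars false
set_option linter.unusedVariables false
set_option linter.style.haveILetI false

namespace Fermat.Agent.CFT

open Module
open scoped Pointwise

variable {S : Finset ℕ} {p : ℕ} [hp : Fact p.Prime] {W : Subgroup GQ}

theorem level_descend (hμ : MuF p W) (hop : ∃ V ∈ (SG S).carrier, V ≤ W) {c : GQ → GQ → GQ → ZMod p}
    (hc : C2 (tr p) (SG S) W c) (hd : d2 c = 0) (ht : TrP p SL W c) :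
    ∃ g, C1 ac (SG S) W g ∧ d1 g = z2 p c := by
  classical
  obtain ⟨V0, hV0, hV0W⟩ := hop
  obtain ⟨V1, hV1, hVc⟩ := hc.sm
  obtain ⟨β0, hβ0, hdβ0⟩ := exists_split hc hd hV1 hVc
  obtain ⟨V2, hV2, hβl⟩ := hβ0.sm
  obtain ⟨V3, hV3, h31, h32⟩ := (SG S).directed V1 hV1 V2 hV2
  obtain ⟨V, hV, hV0', hV3'⟩ := (SG S).directed V0 hV0 V3 hV3
  have hVW : V ≤ W := hV0'.trans hV0W
  haveI hVn := hV.1
  obtain ⟨β, hβ, hdβ⟩ := ht
  have hβ0V : C1 (tr p) (SG S) V β0 := hβ0.mono (le_inf (hV3'.trans h31) hVW)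
  have hδ : C1 (tr p) SL V (β - β0) := (hβ.mono hVW).sub hβ0V.toSL
  have hdδ : d1 (β - β0) = 0 := by rw [d1_sub, hdβ, hdβ0, sub_self]
  obtain ⟨z, hz⟩ := exists_KR_of_cocycle (hμ.mono hVW) SL_open hδ hdδ
  obtain ⟨Y, hY, hpY, hYd⟩ := hz.ex
  have diag : ∀ b : GQ → GQ → ZMod p, d1 b = c → ∀ x, b x x = c x x x := fun b hb x => by
    rw [← hb]; simp [d1]
  have hcos : ∀ x y : GQ, (x : GQ ⧸ V) = (y : GQ ⧸ V) → Y y - Y x = zt p (β x y) - zt p (β x x) := by
    intro x y hxy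
    rw [QuotientGroup.eq] at hxy
    have h1 : β0 x y = β0 x x := by
      have := hβl x x 1 (one_mem _) (x⁻¹ * y) (h32 (hV3' hxy))
      rwa [mul_one, mul_inv_cancel_left] at this
    rw [← hYd, Pi.sub_apply, Pi.sub_apply, h1, diag β0 hdβ0, ← diag β hdβ, map_sub]
  haveI : V.FiniteIndex := (SG S).finiteIndex V hV
  obtain ⟨f, hf1, hf2⟩ := exists_equivariant (H := W) (P := GQ ⧸ V) (M := GQ → Ma)
    (fun w h => t0 ac (w : GQ) h) (fun h => by funext x; simp [t0, am_one])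
    (fun g h m => by
      funext x
      simp only [t0, Subgroup.coe_mul]
      rw [ac_mul, mul_inv_rev, mul_assoc])
    (fun q h => (∀ x y : GQ, (x : GQ ⧸ V) = q → (y : GQ ⧸ V) = q → h y - h x = zt p (β x y) - zt p (β x x)) ∧
      ∃ V3 ∈ SL.carrier, ∀ x : GQ, (x : GQ ⧸ V) = q → ∀ v ∈ V3, h (x * v) = h x)
    (by
      rintro w q h ⟨h1, V3, hV3, h2⟩
      have key : ∀ x : GQ, (x : GQ ⧸ V) = w • q → (((w : GQ)⁻¹ * x : GQ) : GQ ⧸ V) = q := fun x hx =>
        mk_eq_inv_mul (w : GQ) x q hx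
      refine ⟨fun x y hx hy => ?_, V3, hV3, fun x hx v hv => ?_⟩
      · simp only [t0]
        rw [← map_sub, h1 _ _ (key x hx) (key y hy), map_sub, hμ _ w.2, hμ _ w.2,
          hβ.eq _ (inv_mem w.2), hβ.eq _ (inv_mem w.2)]
        rfl
      · simp only [t0]
        rw [← mul_assoc, h2 _ (key x hx) v hv])
    (by
      intro q
      refine ⟨fun x => if (x : GQ ⧸ V) = q then Y x else 0, ⟨fun x y hx hy => ?_, ?_⟩, fun w hw => ?_⟩
      · beta_reduce
        rw [if_pos hx, if_pos hy]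
        exact hcos x y (hx.trans hy.symm)
      · obtain ⟨V3, hV3, h3⟩ := hY.sm
        obtain ⟨V4, hV4, hle, hle'⟩ := SL.directed V3 hV3 V ⟨hVn, hV.2.1⟩
        refine ⟨V4, hV4, fun x hx v hv => ?_⟩
        have h5 : ((x * v : GQ) : GQ ⧸ V) = q := by
          rw [← hx, eq_comm, QuotientGroup.eq, inv_mul_cancel_left]
          exact hle' hv
        beta_reduce
        rw [if_pos h5, if_pos hx, h3 x v (hle hv)]
      · have hwV : (w : GQ) ∈ V := mem_of_smul_eq (U := V) (w : GQ) q hw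
        funext x
        simp only [t0]
        by_cases hx : (x : GQ ⧸ V) = q
        · have h5 : (((w : GQ)⁻¹ * x : GQ) : GQ ⧸ V) = q := mk_eq_inv_mul _ _ _ (by rw [hx]; exact hw.symm)
          rw [if_pos h5, if_pos hx, ← hY.eq _ hwV, mul_inv_cancel_left]
        · have h5 : ¬ (((w : GQ)⁻¹ * x : GQ) : GQ ⧸ V) = q := fun h5 => hx (by
            have h6 : (x : GQ ⧸ V) = (w : GQ) • (((w : GQ)⁻¹ * x : GQ) : GQ ⧸ V) := by
              change _ = (((w : GQ) * ((w : GQ)⁻¹ * x) : GQ) : GQ ⧸ V)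
              rw [mul_inv_cancel_left]
            rw [h6, h5]
            exact hw)
          rw [if_neg h5, if_neg hx, map_zero])
  choose hf3 V4 hV4 hf4 using hf2
  obtain ⟨V5, hV5, hle5⟩ := SL.exists_le_finite V4 hV4
  obtain ⟨V6, hV6, h65, h6V⟩ := SL.directed V5 hV5 V ⟨hVn, hV.2.1⟩
  let h' : GQ → Ma := fun x => f (x : GQ ⧸ V) x
  have hh' : C0 ac SL W h' := by
    refine ⟨fun w hw x => ?_, V6, hV6, fun x v hv => ?_⟩
    · have h1 := hf1 ⟨w, hw⟩ (x : GQ ⧸ V)
      have h2 := congrFun h1 (w * x)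
      simp only [t0, inv_mul_cancel_left] at h2
      exact h2
    · have h5 : ((x * v : GQ) : GQ ⧸ V) = (x : GQ ⧸ V) := by
        rw [eq_comm, QuotientGroup.eq, inv_mul_cancel_left]
        exact h6V hv
      simp only [h', h5]
      exact hf4 _ x rfl v (hle5 _ (h65 hv))
  let g : GQ → GQ → Ma := z1 p β - d0 h'
  have hg : C1 ac SL W g := (hβ.z1 hμ).sub hh'.d0
  have hdg : d1 g = z2 p c := by rw [d1_sub, d1_d0, sub_zero, ← z2_d1, hdβ]
  have hgV : ∀ x v, v ∈ V → g x (x * v) = zt p (β x x) := by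
    intro x v hv
    have h5 : ((x * v : GQ) : GQ ⧸ V) = (x : GQ ⧸ V) := by
      rw [eq_comm, QuotientGroup.eq, inv_mul_cancel_left]
      exact hv
    have h6 := hf3 (x : GQ ⧸ V) x (x * v) rfl h5
    simp only [g, Pi.sub_apply, z1, d0, h', h5]
    rw [h6]
    abel
  have hgV' : ∀ x v, v ∈ V → g (x * v) x = zt p (β x x) := by
    intro x v hv
    have h1 := hgV (x * v) v⁻¹ (inv_mem hv)
    rw [mul_inv_cancel_right] at h1
    rw [h1, diag β hdβ, diag β hdβ, hVc _ _ _ _ (h31 (hV3' hv)) _ (h31 (hV3' hv)) _ (h31 (hV3' hv))]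
  refine ⟨g, ⟨hg.eq, V, hV, fun x y v hv v' hv' => ?_⟩, hdg⟩
  have e1 : ∀ x y v, v ∈ V → g (x * v) y = g x y := by
    intro x y v hv
    have h1 := congrFun (congrFun (congrFun hdg (x * v)) x) y
    have h2 := hVc x x y v (h31 (hV3' hv)) 1 (one_mem _) 1 (one_mem _)
    rw [mul_one, mul_one] at h2
    have h3 : c x x y = β x x := by rw [← hdβ]; simp [d1]
    simp only [d1, z2] at h1
    rw [hgV' x v hv, h2, h3] at h1
    have h4 : g x y - g (x * v) y = 0 := by
      have : g x y - g (x * v) y = (g x y - g (x * v) y + zt p (β x x)) - zt p (β x x) := by abel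
      rw [this, h1, sub_self]
    exact (sub_eq_zero.1 h4).symm
  have e2 : ∀ x y v, v ∈ V → g x (y * v) = g x y := by
    intro x y v hv
    have h1 := congrFun (congrFun (congrFun hdg x) y) (y * v)
    have h2 := hVc x y y 1 (one_mem _) 1 (one_mem _) v (h31 (hV3' hv))
    rw [mul_one, mul_one] at h2
    have h3 : c x y y = β y y := by rw [← hdβ]; simp [d1]
    simp only [d1, z2] at h1
    rw [hgV y v hv, h2, h3] at h1
    have h4 : g x y - g x (y * v) = 0 := by
      have : g x y - g x (y * v) = (zt p (β y y) - g x (y * v) + g x y) - zt p (β y y) := by abel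
      rw [this, h1, sub_self]
    exact (sub_eq_zero.1 h4).symm
  rw [e1 _ _ _ hv, e2 _ _ _ hv']

end Fermat.Agent.CFT
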