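import Fermat.Agent.CFT.Gl13

/-!
# Classes of ideals and `H²`
-/

set_option autoImplicit false
set_option linter.unusedSectionVars false
set_option linter.unusedVariables false
set_option linter.style.haveILetI false

namespace Fermat.Agent.CFT

open Module
open scoped Pointwise

variable {S : Finset ℕ} {p : ℕ} [hp : Fact p.Prime]

/-- orders modulo `p` -/
def OrdP (p : ℕ) (S : Finset ℕ) (x : Ma) (n : Pl → ZMod p) : Prop :=
  ∀ A : Pl, A.ell ∉ S → ∃ k : ℤ, od A x = k ∧ (k : ZMod p) = n A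

section OrdP

variable {x y : Ma} {n n' : Pl → ZMod p}

theorem OrdP.add (h : OrdP p S x n) (h' : OrdP p S y n') : OrdP p S (x + y) (n + n') := fun A hA => by
  obtain ⟨k, h1, h2⟩ := h A hA
  obtain ⟨k', h1', h2'⟩ := h' A hA
  exact ⟨k + k', by rw [map_add, h1, h1']; push_cast; rfl, by push_cast; rw [h2, h2']; rfl⟩

theorem OrdP.neg (h : OrdP p S x n) : OrdP p S (-x) (-n) := fun A hA => by
  obtain ⟨k, h1, h2⟩ := h A hA
  exact ⟨-k, by rw [map_neg, h1]; push_cast; rfl, by push_cast; rw [h2]; rfl⟩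

theorem OrdP.sub (h : OrdP p S x n) (h' : OrdP p S y n') : OrdP p S (x - y) (n - n') := by
  rw [sub_eq_add_neg, sub_eq_add_neg]; exact h.add h'.neg

theorem OrdP.zero : OrdP p S 0 (0 : Pl → ZMod p) := fun A hA => ⟨0, by simp, by simp⟩

theorem OrdP.nsmul (h : OrdP p S x n) (k : ℕ) : OrdP p S (k • x) (k • n) := by
  induction k with
  | zero => rw [zero_smul, zero_smul]; exact OrdP.zero
  | succ k ih => rw [succ_nsmul, succ_nsmul]; exact ih.add h

theorem OrdP.unique (h : OrdP p S x n) (h' : OrdP p S x n') {A : Pl} (hA : A.ell ∉ S) : n A = n' A := by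
  obtain ⟨k, h1, h2⟩ := h A hA
  obtain ⟨k', h1', h2'⟩ := h' A hA
  rw [h1] at h1'
  rw [← h2, ← h2', Int.cast_injective h1']

theorem OrdP.congr (h : OrdP p S x n) (h' : ∀ A : Pl, A.ell ∉ S → n A = n' A) : OrdP p S x n' := fun A hA => by
  obtain ⟨k, h1, h2⟩ := h A hA
  exact ⟨k, h1, h2.trans (h' A hA)⟩

theorem OrdP.of_psmul (h : ∀ A : Pl, A.ell ∉ S → ∃ k : ℤ, od A y = k) : OrdP p S (p • y) 0 := fun A hA => by
  obtain ⟨k, hk⟩ := h A hA
  refine ⟨p * k, by rw [map_nsmul, hk, nsmul_eq_mul]; push_cast; rfl, ?_⟩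
  push_cast
  rw [ZMod.natCast_self, zero_mul]
  rfl

theorem OrdP.root (h : OrdP p S (p • y) 0) : ∀ A : Pl, A.ell ∉ S → ∃ k : ℤ, od A y = k := fun A hA => by
  obtain ⟨k, h1, h2⟩ := h A hA
  obtain ⟨j, rfl⟩ := (ZMod.intCast_zmod_eq_zero_iff_dvd k p).1 h2
  refine ⟨j, ?_⟩
  rw [map_nsmul, nsmul_eq_mul] at h1
  push_cast at h1
  exact mul_left_cancel₀ (Nat.cast_ne_zero.2 hp.out.ne_zero) h1

theorem OrdP.int (h : OrdP p S x n) : ∀ A : Pl, A.ell ∉ S → ∃ k : ℤ, od A x = k := fun A hA => by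
  obtain ⟨k, h1, -⟩ := h A hA
  exact ⟨k, h1⟩

end OrdP

/-- The class attached to a divisor. -/
def CR (p : ℕ) [Fact p.Prime] (S : Finset ℕ) (W : Subgroup GQ) (c : GQ → GQ → GQ → ZMod p)
    (n : Pl → ZMod p) : Prop :=
  ∃ f g, C0 ac (SG S) W f ∧ C1 ac (SG S) W g ∧ p • g = d0 f ∧ d1 g = z2 p c ∧ ∀ x, OrdP p S (f x) n

variable {W : Subgroup GQ} {c c' : GQ → GQ → GQ → ZMod p} {n n' : Pl → ZMod p}

theorem CR.add (h : CR p S W c n) (h' : CR p S W c' n') : CR p S W (c + c') (n + n') := by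
  obtain ⟨f, g, h1, h2, h3, h4, h5⟩ := h
  obtain ⟨f', g', h1', h2', h3', h4', h5'⟩ := h'
  exact ⟨f + f', g + g', h1.add h1', h2.add h2', by rw [nsmul_add, h3, h3', d0_add],
    by rw [d1_add, h4, h4', z2_add], fun x => (h5 x).add (h5' x)⟩

theorem CR.neg (h : CR p S W c n) : CR p S W (-c) (-n) := by
  obtain ⟨f, g, h1, h2, h3, h4, h5⟩ := h
  exact ⟨-f, -g, h1.neg, h2.neg, by rw [d0_neg, ← h3]; funext x y; simp,
    by rw [d1_neg, h4, z2_neg], fun x => (h5 x).neg⟩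

theorem CR.zero : CR p S W (0 : GQ → GQ → GQ → ZMod p) (0 : Pl → ZMod p) :=
  ⟨0, 0, C0.zero, C1.zero, by funext x y; simp [d0], by funext x y z; simp [d1, z2],
    fun x => OrdP.zero⟩

theorem CR.nsmul (h : CR p S W c n) (k : ℕ) : CR p S W (k • c) (k • n) := by
  induction k with
  | zero => rw [zero_smul, zero_smul]; exact CR.zero
  | succ k ih => rw [succ_nsmul, succ_nsmul]; exact ih.add h

theorem CR.congr (h : CR p S W c n) (h' : ∀ A : Pl, A.ell ∉ S → n A = n' A) : CR p S W c n' := by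
  obtain ⟨f, g, h1, h2, h3, h4, h5⟩ := h
  exact ⟨f, g, h1, h2, h3, h4, fun x => (h5 x).congr h'⟩

theorem C2.of_z2 (hμ : MuF p W) {T : Sys GQ} (h : C2 ac T W (CFT.z2 p c)) : C2 (tr p) T W c := by
  obtain ⟨V, hV, h'⟩ := h.sm
  refine ⟨fun w hw x y z => ?_, V, hV, fun x y z v hv v' hv' v'' hv'' => ?_⟩
  · apply zt_injective p
    have := h.eq w hw x y z
    rw [CFT.z2, CFT.z2, hμ w hw] at this
    exact this
  · apply zt_injective p
    exact h' x y z v hv v' hv' v'' hv''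

theorem CR.c2 (hμ : MuF p W) (h : CR p S W c n) : C2 (tr p) (SG S) W c := by
  obtain ⟨f, g, h1, h2, h3, h4, h5⟩ := h
  refine C2.of_z2 hμ ?_
  rw [← h4]
  exact h2.d1

theorem CR.cocycle (h : CR p S W c n) : d2 c = 0 := by
  obtain ⟨f, g, h1, h2, h3, h4, h5⟩ := h
  have h6 : d2 (z2 p c) = 0 := by rw [← h4, d2_d1]
  funext x y z w
  apply zt_injective p
  have := congrFun (congrFun (congrFun (congrFun h6 x) y) z) w
  simp only [d2, z2, Pi.zero_apply] at this ⊢
  rw [map_zero, map_sub, map_add, map_sub]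
  exact this

theorem CR.triv_SL (hμ : MuF p W) (h : CR p S W c n) : TrP p SL W c := by
  obtain ⟨f, g, h1, h2, h3, h4, h5⟩ := h
  exact (trP_SL hμ c).2 ⟨g, h2.toSL, h4⟩

/-- Triviality of the class of a divisor. -/
theorem CR.triv_iff (hpS : p ∈ S) (hμ : MuF p W) (hop : ∃ V ∈ (SG S).carrier, V ≤ W) (h : CR p S W c n) :
    TrP p (SG S) W c ↔ ∃ z ∈ FA W, OrdP p S z n := by
  obtain ⟨f, g, h1, h2, h3, h4, h5⟩ := h
  constructor
  · rintro ⟨β, hβ, hd⟩
    have h6 : d1 (g - z1 p β) = 0 := by rw [d1_sub, h4, ← z2_d1, hd, sub_self]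
    obtain ⟨e, he, hed⟩ := H90 SG_open (h2.sub (hβ.z1 hμ)) h6
    have h7 : d0 (p • e) = d0 f := by
      rw [d0_nsmul, hed, nsmul_sub, h3]
      have : p • z1 p β = 0 := by funext x y; exact p_zt p _
      rw [this, sub_zero]
    have h8 : ∀ x, (f - p • e) x = (f - p • e) 1 := fun x => by
      have h9 : d0 (f - p • e) = 0 := by rw [d0_sub, h7, sub_self]
      have := congrFun (congrFun h9 1) x
      exact sub_eq_zero.1 this
    refine ⟨(f - p • e) 1, mem_FA'.2 fun g hg => ?_, ?_⟩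
    · have h9 := (h1.sub (he.nsmul p)).eq g hg 1
      rw [← h9, h8]
    · have h10 : OrdP p S (p • e 1) 0 := OrdP.of_psmul fun A hA => by
        obtain ⟨V, hV, -, hV'⟩ := he.val_fix hop
        exact fix_int hV (hV' 1) A hA
      have := (h5 1).sub h10
      rw [sub_zero] at this
      exact this
  · rintro ⟨z, hz, hzn⟩
    have h6 : C0 ac (SG S) W (f - fun _ => z) := h1.sub (C0.const hz)
    obtain ⟨V, hV, -, hV'⟩ := h6.val_fix hop
    obtain ⟨f', hf', hpf⟩ := exists_root0 (p := p) h6 fun x => by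
      obtain ⟨y, hy⟩ := exists_proot (p := p) ((f - fun _ => z : GQ → Ma) x)
      refine ⟨y, hy, root_lvl hpS ⟨V, hV, fun v hv => by rw [hy]; exact hV' x v hv⟩ ?_⟩
      refine OrdP.root (p := p) ?_
      rw [hy]
      have := (h5 x).sub hzn
      rw [sub_self] at this
      exact this
    have h7 : p • (g - d0 f') = 0 := by
      rw [nsmul_sub, h3, ← d0_nsmul, hpf, d0_sub]
      funext x y
      simp [d0]
    obtain ⟨β, hβ, hβ'⟩ := exists_of_psmul hμ (h2.sub hf'.d0) h7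
    refine ⟨β, hβ, z2_injective ?_⟩
    rw [z2_d1, hβ', d1_sub, d1_d0, sub_zero, h4]

/-- Construction of classes. -/
theorem exists_CR_of_f (hpS : p ∈ S) (hop : ∃ V ∈ (SG S).carrier, V ≤ W) {f : GQ → Ma}
    (hf : C0 ac (SG S) W f) (hn : ∀ x, OrdP p S (f x) n) : ∃ c, CR p S W c n := by
  obtain ⟨V, hV, -, hV'⟩ := hf.val_fix hop
  obtain ⟨g, hg, hg'⟩ := lift1 (am := ac) (S := SG S) (W := W) (fun x y m => p • m = f y - f x)
    (fun w hw x y m hm => by rw [hf.eq w hw, hf.eq w hw, ← map_sub, ← hm, map_nsmul])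
    (by
      obtain ⟨V, hV, h⟩ := hf.sm
      exact ⟨V, hV, fun x y v hv v' hv' m hm => by rw [hm, h x v hv, h y v' hv']⟩)
    (fun x y => by
      obtain ⟨m, hm⟩ := exists_proot (p := p) (f y - f x)
      refine ⟨m, hm, root_lvl hpS ⟨V, hV, fun v hv => by rw [hm, map_sub, hV' y v hv, hV' x v hv]⟩ ?_⟩
      refine OrdP.root (p := p) ?_
      rw [hm]
      have := (hn y).sub (hn x)
      rw [sub_self] at this
      exact this)
  have h1 : p • g = d0 f := by funext x y; exact hg' x y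
  have h2 : ∀ x y z, p • (d1 g x y z) = 0 := fun x y z => by
    have h3 : p • d1 g = 0 := by rw [← d1_nsmul, h1, d1_d0]
    exact congrFun (congrFun (congrFun h3 x) y) z
  choose c hc using fun x y z => exists_zt_eq p (h2 x y z)
  exact ⟨c, f, g, hf, hg, h1, by funext x y z; exact (hc x y z).symm, hn⟩

/-- Every everywhere locally trivial class comes from a divisor. -/
theorem exists_CR (hμ : MuF p W) (hop : ∃ V ∈ (SG S).carrier, V ≤ W) (hc : C2 (tr p) (SG S) W c)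
    (hd : d2 c = 0) (ht : TrP p SL W c) : ∃ f, C0 ac (SG S) W f ∧ ∃ n, (∀ x, OrdP p S (f x) n) ∧ CR p S W c n := by
  obtain ⟨g, hg, hdg⟩ := level_descend hμ hop hc hd ht
  have h1 : d1 (p • g) = 0 := by
    rw [d1_nsmul, hdg]
    funext x y z
    exact p_zt p _
  obtain ⟨f, hf, hfd⟩ := H90 SG_open (hg.nsmul p) h1
  obtain ⟨V, hV, -, hV'⟩ := hf.val_fix hop
  obtain ⟨V2, hV2, -, hV2'⟩ := hg.val_fix hop
  classical
  have h2 : ∀ A : Pl, A.ell ∉ S → ∃ k : ℤ, od A (f 1) = k := fun A hA => fix_int hV (hV' 1) A hA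
  let n : Pl → ZMod p := fun A => if h : A.ell ∉ S then ((h2 A h).choose : ZMod p) else 0
  have hn1 : OrdP p S (f 1) n := fun A hA => ⟨(h2 A hA).choose, (h2 A hA).choose_spec, by
    simp only [n]
    rw [dif_pos hA]⟩
  have hn : ∀ x, OrdP p S (f x) n := fun x => by
    have h3 : f x = f 1 + p • g 1 x := by
      have := congrFun (congrFun hfd 1) x
      simp only [d0, Pi.smul_apply] at this
      rw [← this]; abel
    rw [h3]
    have h4 := hn1.add (OrdP.of_psmul (p := p) (y := g 1 x) fun A hA => fix_int hV2 (hV2' 1 x) A hA)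
    rwa [add_zero] at h4
  exact ⟨f, hf, n, hn, f, g, hf, hg, hfd.symm, hdg, hn⟩

/-- roots of higher order -/
theorem root_lvl_pow (hpS : p ∈ S) (a : ℕ) : ∀ x : Ma, (∃ V ∈ (SG S).carrier, ∀ v ∈ V, ac v x = x) →
    (∀ A : Pl, A.ell ∉ S → ∃ k : ℤ, od A x = p ^ a * k) →
    ∃ y, p ^ a • y = x ∧ ∃ V ∈ (SG S).carrier, ∀ v ∈ V, ac v y = y := by
  induction a with
  | zero => intro x hx _; exact ⟨x, by simp, hx⟩
  | succ a ih =>
    intro x hx h
    obtain ⟨y, hy⟩ := exists_proot (p := p) x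
    have h1 : ∀ A : Pl, A.ell ∉ S → ∃ k : ℤ, od A y = p ^ a * k := fun A hA => by
      obtain ⟨k, hk⟩ := h A hA
      refine ⟨k, ?_⟩
      rw [← hy, map_nsmul, nsmul_eq_mul, pow_succ'] at hk
      refine mul_left_cancel₀ (Nat.cast_ne_zero.2 hp.out.ne_zero : (p : ℚ) ≠ 0) ?_
      rw [hk]; ring
    obtain ⟨y', hy', hV⟩ := ih y (root_lvl hpS (by rw [hy]; exact hx) fun A hA => by
      obtain ⟨k, hk⟩ := h1 A hA
      exact ⟨p ^ a * k, by rw [hk]; push_cast; rfl⟩) h1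
    exact ⟨y', by rw [pow_succ', mul_smul, hy', hy], hV⟩

end Fermat.Agent.CFT
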