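import Fermat.Agent.CFT.Gl14

/-!
# Counting: `S`-units, divisors
-/

set_option autoImplicit false
set_option linter.unusedSectionVars false
set_option linter.unusedVariables false
set_option linter.style.haveILetI false

namespace Fermat.Agent.CFT

open Module
open scoped Pointwise

variable {S : Finset ℕ} {p : ℕ} [hp : Fact p.Prime] {W : Subgroup GQ}

open Classical in
/-- the indicator of an orbit -/
noncomputable def ind (p : ℕ) (W : Subgroup GQ) (A0 : Pl) (A : Pl) : ZMod p :=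
  if ∃ w ∈ W, w • A0 = A then 1 else 0

theorem orb_iff {w : GQ} (hw : w ∈ W) {A0 A : Pl} : (∃ w' ∈ W, w' • A0 = w • A) ↔ ∃ w' ∈ W, w' • A0 = A := by
  constructor
  · rintro ⟨w', hw', h⟩
    exact ⟨w⁻¹ * w', mul_mem (inv_mem hw) hw', by rw [mul_smul, h, inv_smul_smul]⟩
  · rintro ⟨w', hw', h⟩
    exact ⟨w * w', mul_mem hw hw', by rw [mul_smul, h]⟩

theorem od_fix {x : Ma} (hx : x ∈ FA W) {w : GQ} (hw : w ∈ W) (A : Pl) : od (w • A) x = od A x :=
  ord_fix hx hw A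

theorem isOpen_of_SG (hop : ∃ V ∈ (SG S).carrier, V ≤ W) : IsOpen (W : Set GQ) := by
  obtain ⟨V, hV, h⟩ := hop
  exact Subgroup.isOpen_mono h (SG_open V hV)

theorem ine_of_SG (hop : ∃ V ∈ (SG S).carrier, V ≤ W) {A : Pl} (hA : A.ell ∉ S) : Ine A ≤ W := by
  obtain ⟨V, hV, h⟩ := hop
  exact (hV.2.2 A hA).trans h

theorem FA_int (hop : ∃ V ∈ (SG S).carrier, V ≤ W) {x : Ma} (hx : x ∈ FA W) {A : Pl} (hA : A.ell ∉ S) :
    ∃ k : ℤ, od A x = k :=
  int_ord' (isOpen_of_SG hop) (ine_of_SG hop hA) (FA_mono inf_le_left hx)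

theorem exists_CR_ind (hpS : p ∈ S) (hop : ∃ V ∈ (SG S).carrier, V ≤ W) {A0 : Pl} (hA0 : A0.ell ∉ S) :
    ∃ c, CR p S W c (ind p W A0) := by
  classical
  have hW := isOpen_of_SG hop
  haveI := numberField_KW hW
  obtain ⟨x, hx, hpos, hoth⟩ := exists_pow_elt hW A0
  obtain ⟨N, hN⟩ := FA_int hop hx hA0
  have hN0 : 0 < N := by
    change 0 < od A0 x at hpos
    rw [hN] at hpos
    exact_mod_cast hpos
  obtain ⟨N, rfl⟩ := Int.eq_ofNat_of_zero_le hN0.le
  have hN1 : N ≠ 0 := by rintro rfl; exact lt_irrefl _ hN0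
  obtain ⟨a, h', hh', hNa⟩ := Nat.exists_eq_pow_mul_and_not_dvd hN1 p hp.out.ne_one
  have hord : ∀ A : Pl, od A x = p ^ a * ((if ∃ w ∈ W, w • A0 = A then (h' : ℤ) else 0 : ℤ) : ℚ) := by
    intro A
    split_ifs with h
    · obtain ⟨w, hw, rfl⟩ := h
      rw [od_fix hx hw, hN, hNa]
      push_cast; rfl
    · rw [Int.cast_zero, mul_zero]
      exact hoth A fun w hw hA => h ⟨w, hw, hA⟩
  obtain ⟨V0, hV0, hV0W⟩ := hop
  obtain ⟨y, hy, V, hV, hVy⟩ := root_lvl_pow hpS a x ⟨V0, hV0, fun v hv => mem_FA'.1 hx v (hV0W hv)⟩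
    (fun A hA => ⟨_, hord A⟩)
  have hordy : ∀ A : Pl, od A y = ((if ∃ w ∈ W, w • A0 = A then (h' : ℤ) else 0 : ℤ) : ℚ) := by
    intro A
    have h1 := hord A
    rw [← hy, map_nsmul, nsmul_eq_mul] at h1
    push_cast at h1 ⊢
    exact mul_left_cancel₀ (pow_ne_zero _ (Nat.cast_ne_zero.2 hp.out.ne_zero : (p : ℚ) ≠ 0)) h1
  obtain ⟨f, hf, hf'⟩ := lift0 (am := ac) (S := SG S) (W := W)
    (fun _ m => ∀ A : Pl, od A m = ((if ∃ w ∈ W, w • A0 = A then (h' : ℤ) else 0 : ℤ) : ℚ))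
    (fun w hw _ m hm A => by
      rw [od_ac, hm]
      simp only [orb_iff (inv_mem hw)])
    ⟨V, hV, fun x v hv m hm => hm⟩ (fun _ => ⟨y, hordy, V, hV, hVy⟩)
  obtain ⟨c, hc⟩ := exists_CR_of_f (p := p) (W := W)
    (n := fun A => ((if ∃ w ∈ W, w • A0 = A then (h' : ℤ) else 0 : ℤ) : ZMod p)) hpS
    ⟨V0, hV0, hV0W⟩ hf (fun x A hA => ⟨_, hf' x A, rfl⟩)
  have hne : (h' : ZMod p) ≠ 0 := fun h => hh' ((ZMod.natCast_eq_zero_iff _ _).1 h)
  refine ⟨((h' : ZMod p)⁻¹).val • c, (hc.nsmul ((h' : ZMod p)⁻¹).val).congr fun A hA => ?_⟩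
  rw [Pi.smul_apply, nsmul_eq_mul, ZMod.natCast_zmod_val, ind]
  split_ifs with h
  · rw [Int.cast_natCast, inv_mul_cancel₀ hne]
  · simp

/-! ### Representatives -/

/-- representatives of the orbits on the places over `T` -/
structure Reps (W : Subgroup GQ) (T : Finset ℕ) (s : Finset Pl) : Prop where
  cov : ∀ A : Pl, A.ell ∈ T ↔ ∃ B ∈ s, ∃ w ∈ W, w • B = A
  dis : ∀ B ∈ s, ∀ B' ∈ s, (∃ w ∈ W, w • B = B') → B = B'

theorem Reps.mem_OB {T : Finset ℕ} {s : Finset Pl} (h : Reps W T s) {A : Pl} :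
    A ∈ OB W id s ↔ A.ell ∈ T := (h.cov A).symm

theorem Reps.ell_mem {T : Finset ℕ} {s : Finset Pl} (h : Reps W T s) {B : Pl} (hB : B ∈ s) : B.ell ∈ T :=
  (h.cov B).2 ⟨B, hB, 1, one_mem _, one_smul _ _⟩

section Cnt

variable {T : Finset ℕ} {s : Finset Pl} (hs : Reps W T s) (hST : S ⊆ T) (hop : ∃ V ∈ (SG S).carrier, V ≤ W)
  (hP : PID W (OB W id s))

/-- the orders modulo `p` -/
noncomputable def numP (p : ℕ) (A : Pl) (x : Ma) : ZMod p := ((od A x).num : ZMod p)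

theorem numP_eq {A : Pl} {x : Ma} {k : ℤ} (h : od A x = k) : numP p A x = k := by
  rw [numP, h, Rat.num_intCast]

/-- the representatives outside `S` -/
noncomputable abbrev rO (S : Finset ℕ) (s : Finset Pl) : Finset Pl := s.filter fun B => B.ell ∉ S

theorem mem_rO {B : Pl} : B ∈ rO S s ↔ B ∈ s ∧ B.ell ∉ S := Finset.mem_filter

include hop in
theorem OrdP_num {x : Ma} (hx : x ∈ FA W) : OrdP p S x (fun A => numP p A x) := fun A hA => by
  obtain ⟨k, hk⟩ := FA_int hop hx hA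
  exact ⟨k, hk, (numP_eq hk).symm⟩

/-- the divisor with given multiplicities -/
noncomputable def EE (p : ℕ) [Fact p.Prime] (W : Subgroup GQ) (R : Finset Pl) : (R → ZMod p) →ₗ[ZMod p] (Pl → ZMod p) where
  toFun m A := ∑ B : R, m B * ind p W B A
  map_add' m m' := by funext A; simp [add_mul, Finset.sum_add_distrib]
  map_smul' c m := by funext A; simp [Finset.mul_sum, mul_assoc]

theorem EE_apply {R : Finset Pl} (m : R → ZMod p) (A : Pl) : EE p W R m A = ∑ B : R, m B * ind p W B A := rfl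

include hs in
theorem EE_self (m : rO S s → ZMod p) (B : rO S s) {A : Pl} (hA : ∃ w ∈ W, w • (B : Pl) = A) :
    EE p W _ m A = m B := by
  rw [EE_apply, Finset.sum_eq_single B]
  · rw [ind, if_pos hA, mul_one]
  · intro B' _ hne
    rw [ind, if_neg, mul_zero]
    rintro ⟨w', hw', h'⟩
    obtain ⟨w, hw, h⟩ := hA
    refine hne (Subtype.ext (hs.dis _ (mem_rO.1 B'.2).1 _ (mem_rO.1 B.2).1 ⟨w⁻¹ * w', mul_mem (inv_mem hw) hw', ?_⟩))
    rw [mul_smul, h', ← h, inv_smul_smul]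
  · intro h; exact absurd (Finset.mem_univ _) h

include hs in
theorem EE_out (m : rO S s → ZMod p) {A : Pl} (hA : A.ell ∉ T) : EE p W _ m A = 0 := by
  rw [EE_apply]
  refine Finset.sum_eq_zero fun B _ => ?_
  rw [ind, if_neg, mul_zero]
  rintro ⟨w, hw, rfl⟩
  rw [Pl.ell_smul] at hA
  exact hA (hs.ell_mem (mem_rO.1 B.2).1)

include hs in
theorem cases_out {A : Pl} (hA : A.ell ∉ S) : (∃ B : rO S s, ∃ w ∈ W, w • (B : Pl) = A) ∨ A.ell ∉ T := by
  by_cases h : A.ell ∈ T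
  · left
    obtain ⟨B, hB, w, hw, h⟩ := (hs.cov A).1 h
    refine ⟨⟨B, mem_rO.2 ⟨hB, ?_⟩⟩, w, hw, h⟩
    rw [← h, Pl.ell_smul] at hA
    exact hA
  · right; exact h

/-- the orders of units -/
noncomputable def psiU (p : ℕ) [Fact p.Prime] (s : Finset Pl) (hop : ∃ V ∈ (SG S).carrier, V ≤ W) :
    US W (OB W id s) →+ (rO S s → ZMod p) :=
  AddMonoidHom.mk' (fun x B => numP p B x) (fun x y => by
    funext B
    obtain ⟨k, hk⟩ := FA_int hop x.2.1 (mem_rO.1 B.2).2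
    obtain ⟨k', hk'⟩ := FA_int hop y.2.1 (mem_rO.1 B.2).2
    have h : od (B : Pl) ((x + y : US W (OB W id s)) : Ma) = ((k + k' : ℤ) : ℚ) := by
      rw [AddSubgroup.coe_add, map_add, hk, hk']; push_cast; rfl
    change numP p _ _ = numP p _ _ + numP p _ _
    rw [numP_eq hk, numP_eq hk', numP_eq h]
    push_cast; rfl)

theorem psiU_apply (x : US W (OB W id s)) (B : rO S s) : psiU p s hop x B = numP p B x := rfl

include hs hST in
theorem OrdP_psi (x : US W (OB W id s)) : OrdP p S (x : Ma) (EE p W _ (psiU p s hop x)) := by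
  refine (OrdP_num hop x.2.1).congr fun A hA => ?_
  rcases cases_out hs hA with ⟨B, hB⟩ | h
  · rw [EE_self hs _ B hB, psiU_apply]
    obtain ⟨w, hw, rfl⟩ := hB
    rw [numP, od_fix x.2.1 hw]; rfl
  · rw [EE_out hs _ h, numP, od_apply, x.2.2 A (fun h' => h (hs.mem_OB.1 h'))]
    simp

include hs hST hop hP in
theorem clear_p {z : Ma} (hz : z ∈ FA W) (h : ∀ A : Pl, A.ell ∉ T → ∃ k : ℤ, od A z = p * k) :
    ∃ g ∈ pFA p W, z - g ∈ US W (OB W id s) := by
  have hW := isOpen_of_SG hop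
  have hpf : pFA p W ≤ FA W := by
    rintro _ ⟨t, ht, rfl⟩; exact (FA W).nsmul_mem ht p
  obtain ⟨g, hg, hg'⟩ := clear hW hW (T := OB W id s) StP_OB (G1 := pFA p W) hpf hz
    (fun w hw A _ => ord_fix hz hw A) (fun A hA => by
      have hAT : A.ell ∉ T := fun h' => hA (hs.mem_OB.2 h')
      obtain ⟨k, hk⟩ := h A hAT
      obtain ⟨x, hx, hx1, hx2⟩ := unif_one hA hW (ine_of_SG hop fun h' => hAT (hST h')) hP
      refine ⟨p • (k • x), ⟨k • x, (FA W).zsmul_mem hx k, rfl⟩, ?_, fun B hB hAB => ?_⟩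
      · change od A _ = od A z
        rw [map_nsmul, map_zsmul, hk, od_apply, hx1]; simp
      · change od B _ = 0
        rw [map_nsmul, map_zsmul, od_apply, hx2 B hB hAB]; simp)
  exact ⟨g, hg, (FA W).sub_mem hz (hpf hg), hg'⟩

include hs hST hP in
theorem mem_range_psi {m : rO S s → ZMod p} :
    m ∈ (psiU p s hop).range ↔ ∃ z ∈ FA W, OrdP p S z (EE p W _ m) := by
  constructor
  · rintro ⟨x, rfl⟩
    exact ⟨x, x.2.1, OrdP_psi hs hST hop x⟩
  · rintro ⟨z, hz, hzm⟩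
    obtain ⟨g, hg, hgz⟩ := clear_p (p := p) hs hST hop hP hz fun A hA => by
      obtain ⟨k, hk, hk'⟩ := hzm A fun h => hA (hST h)
      rw [EE_out hs m hA] at hk'
      obtain ⟨j, rfl⟩ := (ZMod.intCast_zmod_eq_zero_iff_dvd k p).1 hk'
      exact ⟨j, by rw [hk]; push_cast; rfl⟩
    refine ⟨⟨_, hgz⟩, ?_⟩
    funext B
    rw [psiU_apply]
    obtain ⟨t, ht, rfl⟩ := hg
    have h1 : OrdP p S (z - p • t) (EE p W _ m) := by
      have := hzm.sub (OrdP.of_psmul (p := p) fun A hA => FA_int hop ht hA)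
      rwa [sub_zero] at this
    have h2 := h1.unique (OrdP_num hop ((FA W).sub_mem hz ((FA W).nsmul_mem ht p))) (mem_rO.1 B.2).2
    rw [EE_self hs m B ⟨1, one_mem _, one_smul _ _⟩] at h2
    exact h2.symm

/-- elements whose orders are divisible by `p` outside `S` -/
theorem mem_VS_SG (hpS : p ∈ S) (hμ : MuF p W) (hop : ∃ V ∈ (SG S).carrier, V ≤ W) {z : Ma} :
    z ∈ VS p (SG S) W ↔ z ∈ FA W ∧ OrdP p S z 0 := by
  constructor
  · rintro ⟨α, hα⟩
    refine ⟨hα.mem, ?_⟩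
    obtain ⟨Y, hY, hpY, -⟩ := hα.ex
    obtain ⟨V, hV, -, hV'⟩ := hY.val_fix hop
    rw [← hpY 1]
    exact OrdP.of_psmul fun A hA => fix_int hV (hV' 1) A hA
  · rintro ⟨hz, h0⟩
    obtain ⟨y, hy⟩ := exists_proot (p := p) z
    obtain ⟨V0, hV0, hV0W⟩ := hop
    refine exists_KR hμ hz hy (root_lvl hpS ⟨V0, hV0, fun v hv => ?_⟩ (OrdP.root (p := p) (by rw [hy]; exact h0)))
    rw [hy]
    exact mem_FA'.1 hz v (hV0W hv)

include hs hST hP in
/-- **The number of Kummer classes unramified outside `S`.** -/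
theorem VS_count (hp2 : p ≠ 2) (hpS : p ∈ S) (hμ : MuF p W) {m : ℕ} (hm : W.index = 2 * m) :
    (pFA p W).relIndex (VS p (SG S) W) * Nat.card (psiU p s hop).range = p ^ (m + s.card) := by
  have hW := isOpen_of_SG hop
  set U := US W (OB W id s) with hU
  have hUF : U ≤ FA W := fun x hx => hx.1
  -- the `p`-th powers
  let PU : AddSubgroup Ma := (mulN p U).range.map U.subtype
  have hPU : ∀ x, x ∈ PU ↔ ∃ t ∈ U, p • t = x := by
    intro x
    constructor
    · rintro ⟨_, ⟨t, rfl⟩, rfl⟩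
      exact ⟨t, t.2, rfl⟩
    · rintro ⟨t, ht, rfl⟩
      exact ⟨_, ⟨⟨t, ht⟩, rfl⟩, rfl⟩
  have h1 : PU.relIndex U = p ^ (m + s.card) := by
    rw [← index_eq_relIndex_map]
    exact index_US hμ hW hp2 id s (fun i hi j hj h => hs.dis i hi j hj h) hm
  have h2 : PU = pFA p W ⊓ U := by
    ext x
    rw [hPU]
    constructor
    · rintro ⟨t, ht, rfl⟩
      exact ⟨⟨t, ht.1, rfl⟩, U.nsmul_mem ht p⟩
    · rintro ⟨hx, hxU⟩
      exact US_inf_pFA hxU hx
  set VU : AddSubgroup Ma := VS p (SG S) W ⊓ U with hVU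
  have h3 : VU.relIndex U = Nat.card (psiU p s hop).range := by
    have h4 : (psiU p s hop).ker = VU.addSubgroupOf U := by
      ext x
      rw [AddMonoidHom.mem_ker, AddSubgroup.mem_addSubgroupOf]
      constructor
      · intro h
        refine ⟨(mem_VS_SG hpS hμ hop).2 ⟨x.2.1, ?_⟩, x.2⟩
        have := OrdP_psi (p := p) hs hST hop x
        rwa [h, map_zero] at this
      · intro h
        have h5 := ((mem_VS_SG hpS hμ hop).1 h.1).2
        funext B
        have h6 := h5.unique (OrdP_num hop x.2.1) (mem_rO.1 B.2).2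
        rw [psiU_apply]
        exact h6.symm
    rw [AddSubgroup.relIndex, ← h4]
    exact Nat.card_congr (QuotientAddGroup.quotientKerEquivRange _).toEquiv
  have h5 : PU ≤ VU := by
    intro x hx
    obtain ⟨t, ht, rfl⟩ := (hPU x).1 hx
    exact ⟨pFA_le_VS ⟨t, ht.1, rfl⟩, U.nsmul_mem ht p⟩
  have h6 := AddSubgroup.relIndex_mul_relIndex PU VU U h5 inf_le_right
  have h7 : (pFA p W).relIndex (VS p (SG S) W) = PU.relIndex VU := by
    have e1 : VS p (SG S) W = VU ⊔ pFA p W := by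
      apply le_antisymm
      · intro z hz
        obtain ⟨hzF, hz0⟩ := (mem_VS_SG hpS hμ hop).1 hz
        obtain ⟨g, hg, hgz⟩ := clear_p (p := p) hs hST hop hP hzF fun A hA => by
          obtain ⟨k, hk, hk'⟩ := hz0 A fun h => hA (hST h)
          obtain ⟨j, rfl⟩ := (ZMod.intCast_zmod_eq_zero_iff_dvd k p).1 hk'
          exact ⟨j, by rw [hk]; push_cast; rfl⟩
        have : z = (z - g) + g := by abel
        rw [this]
        refine add_mem (AddSubgroup.mem_sup_left ⟨?_, hgz⟩) (AddSubgroup.mem_sup_right hg)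
        exact (VS p (SG S) W).sub_mem hz (pFA_le_VS hg)
      · exact sup_le inf_le_left pFA_le_VS
    rw [e1, AddSubgroup.relIndex_sup_right, h2]
    have e2 : pFA p W ⊓ U = pFA p W ⊓ U ⊓ VU := by
      apply le_antisymm
      · intro x hx
        exact ⟨hx, pFA_le_VS hx.1, hx.2⟩
      · exact inf_le_left
    have e3 : (pFA p W).relIndex VU = (pFA p W ⊓ VU).relIndex VU := (AddSubgroup.inf_relIndex_right _ _).symm
    rw [e3]
    congr 1
    ext x
    constructor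
    · rintro ⟨h, h'⟩; exact ⟨h, h'.2⟩
    · rintro ⟨h, h'⟩; exact ⟨h, pFA_le_VS h, h'⟩
  rw [h7, ← h3, h6, h1]

end Cnt

end Fermat.Agent.CFT
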