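import Fermat.Agent.CFT.Gl15

/-!
# The kernel of the localisation map in degree two
-/

set_option autoImplicit false
set_option linter.unusedSectionVars false
set_option linter.unusedVariables false
set_option linter.style.haveILetI false

namespace Fermat.Agent.CFT

open Module
open scoped Pointwise

/-- the places over `S` -/
abbrev XS (S : Finset ℕ) : Type := {A : Pl // A.ell ∈ S}

noncomputable instance instXS (S : Finset ℕ) : MulAction GQ (XS S) where
  smul g a := ⟨g • a.1, by rw [Pl.ell_smul]; exact a.2⟩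
  one_smul a := Subtype.ext (one_smul _ _)
  mul_smul g h a := Subtype.ext (mul_smul _ _ _)

theorem coe_smul_XS {S : Finset ℕ} (g : GQ) (a : XS S) : ((g • a : XS S) : Pl) = g • (a : Pl) := rfl

variable {S : Finset ℕ} {p : ℕ} [hp : Fact p.Prime] {H : Type} [Group H] {ι : H →* GQ}

/-- the localisation map -/
noncomputable abbrev lc (p : ℕ) [Fact p.Prime] (S : Finset ℕ) {H : Type} [Group H] (ι : H →* GQ) :=
  loc (Sg := SG S) (Sl := SL) SG_SL ι (XS S) (Representation.trivial (ZMod p) H (ZMod p))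

/-- the function of a cochain -/
noncomputable def c2f {T : Sys GQ} (F : (TC p T ι).X 2) (x y z : GQ) : ZMod p := cv F () ![x, y, z]

theorem range_stb (a : XS S) : (ι.comp (stb ι a).subtype).range = ι.range ⊓ Dec (a : Pl) := by
  ext g
  constructor
  · rintro ⟨h, rfl⟩
    exact ⟨⟨h, rfl⟩, congrArg Subtype.val h.2⟩
  · rintro ⟨⟨h, rfl⟩, h2⟩
    exact ⟨⟨h, Subtype.ext h2⟩, rfl⟩

theorem ker_lc {F : (TC p (SG S) ι).X 2} (hF : (TC p (SG S) ι).d 2 F = 0)
    (h : (lc p S ι).H 2 ((TC p (SG S) ι).cl 2 F hF) = 0) (a : XS S) :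
    TrP p SL (ι.range ⊓ Dec (a : Pl)) (c2f F) := by
  have h1 := congrArg ((ptRes SL ι (Representation.trivial (ZMod p) H (ZMod p)) a).H 2) h
  rw [Cx.Hom.H_cl, Cx.Hom.H_cl, map_zero, Cx.cl_eq_zero] at h1
  obtain ⟨E, hE⟩ := (Cx.mem_B_succ _).1 h1
  have h2 := C1.ofX (p := p) (S := SL) (ι := ι.comp (stb ι a).subtype) E
  rw [range_stb] at h2
  refine ⟨_, h2, ?_⟩
  funext x y z
  have h3 := d1_ofX (p := p) (S := SL) (ι := ι.comp (stb ι a).subtype) E x y z
  rw [← h3]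
  exact congrFun (congrFun (congrArg cv hE) ()) ![x, y, z]

theorem lc_zero {F : (TC p (SG S) ι).X 2} (hF : (TC p (SG S) ι).d 2 F = 0)
    (h : TrP p SL ι.range (c2f F)) : (lc p S ι).H 2 ((TC p (SG S) ι).cl 2 F hF) = 0 := by
  obtain ⟨b, hb, hd⟩ := h
  obtain ⟨E, hE⟩ := hb.toX
  rw [Cx.Hom.H_cl, Cx.cl_eq_zero, Cx.mem_B_succ]
  refine ⟨(loc (Sg := SL) (Sl := SL) (fun U h => ⟨U, h, le_rfl⟩) ι (XS S)
    (Representation.trivial (ZMod p) H (ZMod p))).f 1 E, ?_⟩
  rw [← Cx.Hom.comm]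
  apply cv_injective
  funext a x
  have e : x = ![x 0, x 1, x 2] := by funext j; fin_cases j <;> rfl
  rw [e]
  have h1 := d1_ofX E (x 0) (x 1) (x 2)
  have h2 : (fun x y => cv E () ![x, y]) = b := by funext x y; exact hE x y
  rw [h2, hd] at h1
  exact h1

section HR

variable {u u' : (TC p (SG S) ι).H 2} {n n' : Pl → ZMod p}

/-- the class of a divisor -/
def HR (u : (TC p (SG S) ι).H 2) (n : Pl → ZMod p) : Prop :=
  ∃ F hF, (TC p (SG S) ι).cl 2 F hF = u ∧ CR p S ι.range (c2f F) n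

theorem HR.add (h : HR u n) (h' : HR u' n') : HR (u + u') (n + n') := by
  obtain ⟨F, hF, rfl, h1⟩ := h
  obtain ⟨F', hF', rfl, h1'⟩ := h'
  exact ⟨F + F', by rw [map_add, hF, hF', add_zero], rfl, h1.add h1'⟩

theorem HR.zero : HR (0 : (TC p (SG S) ι).H 2) 0 := ⟨0, map_zero _, rfl, CR.zero⟩

theorem HR.nsmul (h : HR u n) (k : ℕ) : HR (k • u) (k • n) := by
  induction k with
  | zero => rw [zero_smul, zero_smul]; exact HR.zero
  | succ k ih => rw [succ_nsmul, succ_nsmul]; exact ih.add h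

theorem HR.smul (h : HR u n) (c : ZMod p) : HR (c • u) (c • n) := by
  have := h.nsmul c.val
  rwa [← Nat.cast_smul_eq_nsmul (ZMod p), ← Nat.cast_smul_eq_nsmul (ZMod p), ZMod.natCast_zmod_val] at this

theorem HR.sum {J : Type} (s : Finset J) (v : J → (TC p (SG S) ι).H 2) (e : J → Pl → ZMod p)
    (h : ∀ j ∈ s, HR (v j) (e j)) : HR (∑ j ∈ s, v j) (∑ j ∈ s, e j) := by
  classical
  induction s using Finset.induction_on with
  | empty => exact HR.zero
  | insert a s ha ih =>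
    rw [Finset.sum_insert ha, Finset.sum_insert ha]
    exact (h a (Finset.mem_insert_self _ _)).add (ih fun j hj => h j (Finset.mem_insert_of_mem hj))

theorem HR.triv_iff (hpS : p ∈ S) (hμ : MuF p ι.range) (hop : ∃ V ∈ (SG S).carrier, V ≤ ι.range)
    (h : HR u n) : u = 0 ↔ ∃ z ∈ FA ι.range, OrdP p S z n := by
  obtain ⟨F, hF, rfl, h1⟩ := h
  rw [Cx.cl_eq_zero, mem_B2_iff, ← h1.triv_iff hpS hμ hop]
  exact Iff.rfl

theorem HR.lc (hμ : MuF p ι.range) (h : HR u n) : (lc p S ι).H 2 u = 0 := by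
  obtain ⟨F, hF, rfl, h1⟩ := h
  exact lc_zero hF (h1.triv_SL hμ)

theorem HR.congr (h : HR u n) (h' : ∀ A : Pl, A.ell ∉ S → n A = n' A) : HR u n' := by
  obtain ⟨F, hF, rfl, h1⟩ := h
  exact ⟨F, hF, rfl, h1.congr h'⟩

theorem exists_HR_ind (hpS : p ∈ S) (hμ : MuF p ι.range) (hop : ∃ V ∈ (SG S).carrier, V ≤ ι.range)
    {A0 : Pl} (hA0 : A0.ell ∉ S) : ∃ u : (TC p (SG S) ι).H 2, HR u (ind p ι.range A0) := by
  obtain ⟨c, hc⟩ := exists_CR_ind hpS hop hA0
  obtain ⟨F, hF⟩ := (hc.c2 hμ).toX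
  have h1 : c2f F = c := by funext x y z; exact hF x y z
  have h2 : (TC p (SG S) ι).d 2 F = 0 := (d_two_iff _).2 (by
    change d2 (c2f F) = 0
    rw [h1]; exact hc.cocycle)
  exact ⟨_, F, h2, rfl, by rw [h1]; exact hc⟩

end HR

section Approx

variable {W : Subgroup GQ} {T : Finset ℕ} {s : Finset Pl} (hs : Reps W T s) (hST : S ⊆ T)
  (hop : ∃ V ∈ (SG S).carrier, V ≤ W) (hP : PID W (OB W id s))

include hs hST hop hP in
theorem exists_approx_div {n : Pl → ZMod p} (hn : ∀ A : Pl, A.ell ∉ S → ∀ w ∈ W, n (w • A) = n A)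
    {T1 : Finset ℕ} (hn0 : ∀ A : Pl, A.ell ∉ S → A.ell ∉ T1 → n A = 0) :
    ∃ z ∈ FA W, ∃ m : rO S s → ZMod p, OrdP p S z (n - EE p W _ m) := by
  classical
  have hW := isOpen_of_SG hop
  obtain ⟨s2, h1, h2⟩ := exists_reps hW (T ∪ T1)
  let s3 := s2.filter fun B => B.ell ∉ T
  have hx : ∀ B : s3, ∃ x ∈ FA W, (B : Pl).ord (vl x) = 1 ∧
      ∀ B' ∉ OB W id s, (∀ w ∈ W, w • (B : Pl) ≠ B') → B'.ord (vl x) = 0 := fun B => by
    have h3 := (Finset.mem_filter.1 B.2).2
    exact unif_one (fun h' => h3 (hs.mem_OB.1 h')) hW (ine_of_SG hop fun h' => h3 (hST h')) hP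
  choose x hxF hx1 hx2 using hx
  let z : Ma := ∑ B : s3, (n B).val • x B
  have hz : z ∈ FA W := sum_mem fun B _ => (FA W).nsmul_mem (hxF B) _
  -- the orders of `z`
  have hz1 : ∀ A : Pl, A.ell ∉ T → ∃ k : ℤ, od A z = k ∧ (k : ZMod p) = n A := by
    intro A hA
    have hAS : A.ell ∉ S := fun h => hA (hST h)
    have hAO : A ∉ OB W id s := fun h' => hA (hs.mem_OB.1 h')
    by_cases hc : ∃ B : s3, ∃ w ∈ W, w • (B : Pl) = A
    · obtain ⟨B, w, hw, hBA⟩ := hc
      refine ⟨(n B).val, ?_, ?_⟩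
      · rw [map_sum, Finset.sum_eq_single B]
        · rw [map_nsmul, ← hBA, od_fix (hxF B) hw, od_apply, hx1 B]; simp
        · intro B' _ hne
          rw [map_nsmul, od_apply, hx2 B' A hAO, smul_zero]
          intro w' hw' h'
          refine hne (Subtype.ext (h2 _ (Finset.mem_filter.1 B'.2).1 _ (Finset.mem_filter.1 B.2).1
            ⟨w⁻¹ * w', mul_mem (inv_mem hw) hw', ?_⟩))
          rw [mul_smul, h', ← hBA, inv_smul_smul]
        · intro h; exact absurd (Finset.mem_univ _) h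
      · rw [Int.cast_natCast, ZMod.natCast_zmod_val, ← hBA]
        refine (hn _ ?_ w hw).symm
        intro h
        rw [← hBA, Pl.ell_smul] at hAS
        exact hAS h
    · refine ⟨0, ?_, ?_⟩
      · rw [map_sum, Int.cast_zero]
        refine Finset.sum_eq_zero fun B _ => ?_
        rw [map_nsmul, od_apply, hx2 B A hAO fun w hw h => hc ⟨B, w, hw, h⟩, smul_zero]
      · rw [Int.cast_zero]
        by_cases hA1 : A.ell ∈ T1
        · exfalso
          obtain ⟨B, hB, w, hw, h⟩ := (h1 A).1 (Finset.mem_union_right _ hA1)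
          refine hc ⟨⟨B, Finset.mem_filter.2 ⟨hB, ?_⟩⟩, w, hw, h⟩
          rw [← h, Pl.ell_smul] at hA
          exact hA
        · exact (hn0 A hAS hA1).symm
  refine ⟨z, hz, fun B => n B - numP p B z, ?_⟩
  refine (OrdP_num hop hz).congr fun A hA => ?_
  rw [Pi.sub_apply]
  rcases cases_out hs hA with ⟨B, hB⟩ | h
  · rw [EE_self hs _ B hB]
    obtain ⟨w, hw, rfl⟩ := hB
    rw [hn _ (mem_rO.1 B.2).2 w hw, numP, numP, od_fix hz hw]
    ring
  · rw [EE_out hs _ h, sub_zero]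
    obtain ⟨k, hk, hk'⟩ := hz1 A h
    rw [numP_eq hk, hk']

end Approx

section Sha

variable {T : Finset ℕ} {s : Finset Pl} (hs : Reps ι.range T s) (hST : S ⊆ T)
  (hop : ∃ V ∈ (SG S).carrier, V ≤ ι.range) (hP : PID ι.range (OB ι.range id s))

include hs hST hop hP in
theorem exists_HR (hp2 : p ≠ 2) (hpS : p ∈ S) (hμ : MuF p ι.range) (u : (TC p (SG S) ι).H 2)
    (hu : (lc p S ι).H 2 u = 0) : ∃ z ∈ FA ι.range, ∃ m : rO S s → ZMod p, ∃ n, HR u n ∧
      OrdP p S z (n - EE p ι.range _ m) := by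
  obtain ⟨F, hF, rfl⟩ := Cx.exists_cl _ u
  have hc : C2 (tr p) (SG S) ι.range (c2f F) := C2.ofX F
  have hd : d2 (c2f F) = 0 := (d_two_iff F).1 hF
  have hloc : ∀ A : Pl, TrP p SL (ι.range ⊓ Dec A) (c2f F) := fun A => by
    by_cases hA : A.ell ∈ S
    · exact ker_lc hF hu ⟨A, hA⟩
    · exact unr_triv hp2 hμ hop hc hd hA
  have ht := hasse_H2 hp2 (isOpen_of_SG hop) hμ hc.toSL hd hloc
  obtain ⟨f, hf, n, hn, hCR⟩ := exists_CR hμ hop hc hd ht
  -- properties of `n`
  have hinv : ∀ A : Pl, A.ell ∉ S → ∀ w ∈ ι.range, n (w • A) = n A := by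
    intro A hA w hw
    obtain ⟨k, hk, hk'⟩ := hn w (w • A) (by rw [Pl.ell_smul]; exact hA)
    obtain ⟨j, hj, hj'⟩ := hn 1 A hA
    have h1 : f w = ac w (f 1) := by rw [← hf.eq w hw, mul_one]
    rw [h1, od_ac, inv_smul_smul, hj] at hk
    rw [← hk', ← hj', Int.cast_injective hk]
  obtain ⟨V, hV, -, hV'⟩ := hf.val_fix hop
  haveI := numberField_KW (SG_open V hV)
  obtain ⟨T1, hT1⟩ := finite_support' (W := V) (x := vl (f 1))
    (FA_KW.1 (mem_FA'.2 fun v hv => hV' 1 v hv)) (vl_ne_zero _)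
  have hn0 : ∀ A : Pl, A.ell ∉ S → A.ell ∉ T1 → n A = 0 := by
    intro A hA hA1
    obtain ⟨k, hk, hk'⟩ := hn 1 A hA
    rw [od_apply, hT1 A hA1] at hk
    rw [← hk', ← (show (0 : ℤ) = k by exact_mod_cast hk), Int.cast_zero]
  obtain ⟨z, hz, m, hm⟩ := exists_approx_div hs hST hop hP hinv hn0
  exact ⟨z, hz, m, n, ⟨F, hF, rfl, hCR⟩, hm⟩

include hs hST hop hP in
theorem sha_count (hp2 : p ≠ 2) (hpS : p ∈ S) (hμ : MuF p ι.range) :
    Module.Finite (ZMod p) (LinearMap.ker ((lc p S ι).H 2)) ∧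
    Nat.card (psiU p s hop).range * p ^ (lc p S ι).sh 2 = p ^ (rO S s).card := by
  classical
  choose v hv using fun B : rO S s => exists_HR_ind hpS hμ hop (A0 := B) (mem_rO.1 B.2).2
  let Φ : (rO S s → ZMod p) →ₗ[ZMod p] (TC p (SG S) ι).H 2 := Fintype.linearCombination (ZMod p) v
  have hΦ : ∀ m, HR (Φ m) (EE p ι.range _ m) := by
    intro m
    have h1 : Φ m = ∑ B, m B • v B := Fintype.linearCombination_apply _ _ _
    have h2 : EE p ι.range _ m = ∑ B : rO S s, m B • ind p ι.range B := by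
      funext A
      rw [EE_apply, Finset.sum_apply]
      rfl
    rw [h1, h2]
    exact HR.sum _ _ _ fun B _ => (hv B).smul (m B)
  have hker : ∀ m, m ∈ LinearMap.ker Φ ↔ m ∈ (psiU p s hop).range := fun m => by
    rw [LinearMap.mem_ker, (hΦ m).triv_iff hpS hμ hop, mem_range_psi hs hST hop hP]
  have hrange : LinearMap.range Φ = LinearMap.ker ((lc p S ι).H 2) := by
    apply le_antisymm
    · rintro _ ⟨m, rfl⟩
      exact (hΦ m).lc hμ
    · intro u hu
      obtain ⟨z, hz, m, n, hn, hm⟩ := exists_HR hs hST hop hP hp2 hpS hμ u hu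
      refine ⟨m, ?_⟩
      have h1 := hn.add ((hΦ m).smul (-1))
      have h2 : u + (-1 : ZMod p) • Φ m = 0 := (h1.triv_iff hpS hμ hop).2 ⟨z, hz, by
        rw [neg_smul, one_smul, ← sub_eq_add_neg]; exact hm⟩
      rw [neg_smul, one_smul, ← sub_eq_add_neg, sub_eq_zero] at h2
      exact h2.symm
  haveI : Module.Finite (ZMod p) (LinearMap.ker ((lc p S ι).H 2)) := by
    rw [← hrange]; infer_instance
  refine ⟨this, ?_⟩
  have h3 := LinearMap.finrank_range_add_finrank_ker Φ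
  rw [Module.finrank_pi, Fintype.card_coe] at h3
  have h4 : Nat.card (psiU p s hop).range = p ^ finrank (ZMod p) (LinearMap.ker Φ) := by
    have h5 := Module.natCard_eq_pow_finrank (K := ZMod p) (V := LinearMap.ker Φ)
    rw [Nat.card_zmod] at h5
    rw [← h5]
    exact Nat.card_congr (Equiv.subtypeEquivRight fun m => (hker m).symm)
  rw [h4, ← pow_add]
  congr 1
  have h6 : (lc p S ι).sh 2 = finrank (ZMod p) (LinearMap.range Φ) := by rw [hrange]; rfl
  rw [h6, ← h3, add_comm]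

end Sha

/-- **Degrees of cohomology over a global field.** -/
theorem glob_h1 (hp2 : p ≠ 2) (hpS : p ∈ S) (hμ : MuF p ι.range) (hop : ∃ V ∈ (SG S).carrier, V ≤ ι.range)
    {m : ℕ} (hm : ι.range.index = 2 * m) {sS : Finset Pl} (hsS : Reps ι.range S sS) :
    Module.Finite (ZMod p) (LinearMap.ker ((lc p S ι).H 2)) ∧ Module.Finite (ZMod p) ((TC p (SG S) ι).H 1) ∧
    (TC p (SG S) ι).h 1 = m + sS.card + (lc p S ι).sh 2 := by
  classical
  have hW := isOpen_of_SG hop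
  haveI := numberField_KW hW
  obtain ⟨T0, hT0⟩ := exists_PID hW
  obtain ⟨s, h1, h2⟩ := exists_reps hW (T0 ∪ S)
  have hs : Reps ι.range (T0 ∪ S) s := ⟨h1, h2⟩
  have hST : S ⊆ T0 ∪ S := Finset.subset_union_right
  have hP : PID ι.range (OB ι.range id s) := hT0 _ fun A hA => hs.mem_OB.2 (Finset.mem_union_left _ hA)
  obtain ⟨f1, h3⟩ := sha_count hs hST hop hP hp2 hpS hμ
  have h4 := VS_count hs hST hop hP hp2 hpS hμ hm
  have h5 : (s.filter fun B => B.ell ∈ S).card = sS.card := by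
    refine Finset.card_bij' (fun B hB => if h : ∃ B' ∈ sS, ∃ w ∈ ι.range, w • B' = B then h.choose else B)
      (fun B hB => if h : ∃ B' ∈ s, ∃ w ∈ ι.range, w • B' = B then h.choose else B) ?_ ?_ ?_ ?_
    · intro B hB
      have h := (hsS.cov B).1 (Finset.mem_filter.1 hB).2
      rw [dif_pos h]
      exact h.choose_spec.1
    · intro B hB
      have h6 := hsS.ell_mem hB
      have h := (h1 B).1 (Finset.mem_union_right _ h6)
      rw [dif_pos h]
      refine Finset.mem_filter.2 ⟨h.choose_spec.1, ?_⟩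
      obtain ⟨w, hw, h7⟩ := h.choose_spec.2
      rw [← h7, Pl.ell_smul] at h6
      exact h6
    · intro B hB
      beta_reduce
      have h := (hsS.cov B).1 (Finset.mem_filter.1 hB).2
      rw [dif_pos h]
      obtain ⟨w, hw, h7⟩ := h.choose_spec.2
      have h' : ∃ B' ∈ s, ∃ w ∈ ι.range, w • B' = h.choose :=
        ⟨B, (Finset.mem_filter.1 hB).1, w⁻¹, inv_mem hw, inv_smul_eq_iff.2 h7.symm⟩
      rw [dif_pos h']
      obtain ⟨w', hw', h8⟩ := h'.choose_spec.2
      refine h2 _ h'.choose_spec.1 _ (Finset.mem_filter.1 hB).1 ⟨w * w', mul_mem hw hw', ?_⟩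
      rw [mul_smul, h8, h7]
    · intro B hB
      beta_reduce
      have h := (h1 B).1 (Finset.mem_union_right _ (hsS.ell_mem hB))
      rw [dif_pos h]
      obtain ⟨w, hw, h7⟩ := h.choose_spec.2
      have h' : ∃ B' ∈ sS, ∃ w ∈ ι.range, w • B' = h.choose :=
        ⟨B, hB, w⁻¹, inv_mem hw, inv_smul_eq_iff.2 h7.symm⟩
      rw [dif_pos h']
      obtain ⟨w', hw', h8⟩ := h'.choose_spec.2
      refine hsS.dis _ h'.choose_spec.1 _ hB ⟨w * w', mul_mem hw hw', ?_⟩
      rw [mul_smul, h8, h7]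
  have h6 : s.card = sS.card + (rO S s).card := by
    rw [← h5]
    exact (Finset.card_filter_add_card_filter_not (s := s) (fun B => B.ell ∈ S)).symm
  have hpp : ∀ k, p ^ k ≠ 0 := fun k => pow_ne_zero _ hp.out.ne_zero
  have h7 : (pFA p ι.range).relIndex (VS p (SG S) ι.range) = p ^ (m + sS.card + (lc p S ι).sh 2) := by
    have h8 : Nat.card (psiU p s hop).range ≠ 0 := fun h => by
      rw [h, zero_mul] at h3; exact hpp _ h3.symm
    have h9 : (pFA p ι.range).relIndex (VS p (SG S) ι.range) * p ^ (rO S s).card =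
        p ^ (m + s.card) * p ^ (lc p S ι).sh 2 := by
      rw [← h3, ← h4]; ring
    rw [h6, ← pow_add] at h9
    refine Nat.eq_of_mul_eq_mul_right (Nat.pos_of_ne_zero (hpp (rO S s).card)) ?_
    rw [h9, ← pow_add]
    congr 1
    ring
  obtain ⟨f2, h8⟩ := fin_H1 SG_open hμ h7
  exact ⟨f1, f2, h8⟩

end Fermat.Agent.CFT
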