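import Fermat.Agent.CFT.Gl16

/-!
# The cyclotomic tower
-/

set_option autoImplicit false
set_option linter.unusedSectionVars false
set_option linter.unusedVariables false
set_option linter.style.haveILetI false

namespace Fermat.Agent.CFT

open Module Polynomial
open scoped Pointwise

variable {S : Finset ℕ} {p : ℕ} [hp : Fact p.Prime]

/-- the fixer of the roots of unity of order `p ^ n` -/
def Fz (p n : ℕ) : Subgroup GQ where
  carrier := {g | ∀ z : Qb, z ^ p ^ n = 1 → g z = z}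
  one_mem' := fun z _ => rfl
  mul_mem' := by
    intro a b ha hb z hz
    change a (b z) = z
    rw [hb z hz, ha z hz]
  inv_mem' := by
    intro a ha z hz
    have h1 := ha z hz
    conv_lhs => rw [← h1]
    exact a.symm_apply_apply z

theorem mem_Fz {n : ℕ} {g : GQ} : g ∈ Fz p n ↔ ∀ z : Qb, z ^ p ^ n = 1 → g z = z := Iff.rfl

theorem exists_primZ (p : ℕ) [hp : Fact p.Prime] (n : ℕ) : ∃ ζ : Qb, IsPrimitiveRoot ζ (p ^ n) := by
  haveI : NeZero ((p ^ n : ℕ) : Qb) := ⟨Nat.cast_ne_zero.2 (pow_ne_zero _ hp.out.ne_zero)⟩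
  haveI : NeZero (p ^ n) := ⟨pow_ne_zero _ hp.out.ne_zero⟩
  exact HasEnoughRootsOfUnity.exists_primitiveRoot Qb (p ^ n)

theorem mem_Fz_iff {n : ℕ} {ζ : Qb} (hζ : IsPrimitiveRoot ζ (p ^ n)) {g : GQ} : g ∈ Fz p n ↔ g ζ = ζ := by
  constructor
  · intro h; exact h ζ hζ.pow_eq_one
  · intro h z hz
    haveI : NeZero (p ^ n) := ⟨pow_ne_zero _ hp.out.ne_zero⟩
    obtain ⟨i, -, rfl⟩ := hζ.eq_pow_of_pow_eq_one hz
    rw [map_pow, h]

theorem Fz_open (n : ℕ) : IsOpen (Fz p n : Set GQ) := by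
  obtain ⟨ζ, hζ⟩ := exists_primZ p n
  have : (Fz p n : Set GQ) = {g : GQ | g ζ = ζ} := by ext g; exact mem_Fz_iff hζ
  rw [this]
  exact isOpen_fix ζ ζ

theorem Fz_mem (hpS : p ∈ S) (n : ℕ) : Fz p n ∈ (SG S).carrier := by
  refine ⟨⟨fun g hg h z hz => ?_⟩, Fz_open n, fun A hA g hg z hz => ?_⟩
  · change h (g (h⁻¹ z)) = z
    rw [hg (h⁻¹ z) (by rw [← map_pow, hz, map_one])]
    exact h.apply_symm_apply z
  · refine Ine.root hg (N := p ^ n) (fun h => hA ?_) hz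
    have := (Nat.prime_dvd_prime_iff_eq A.ell_prime hp.out).1 (A.ell_prime.dvd_of_dvd_pow h)
    rw [this]; exact hpS

omit hp in
theorem relIndex_ne_zero_of (V D : Subgroup GQ) [hV : V.FiniteIndex] : V.relIndex D ≠ 0 := fun h => by
  have h1 := Subgroup.relIndex_le_of_le_right (H := V) (K := D) (L := ⊤) le_top
    (by rw [Subgroup.relIndex_top_right]; exact hV.index_ne_zero)
  have h2 := Subgroup.index_eq_zero_of_relIndex_eq_zero h
  exact hV.index_ne_zero h2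

theorem deg_unr {A : Pl} (hA : A.ell ≠ p) (n : ℕ) :
    p ^ n < A.ell ^ (Fz p n ⊓ Dec A).relIndex (Dec A) := by
  obtain ⟨Φ, hΦ⟩ := exists_isFr A
  obtain ⟨ζ, hζ⟩ := exists_primZ p n
  have h0 : (Fz p n ⊓ Dec A).relIndex (Dec A) ≠ 0 := by
    rw [Subgroup.inf_relIndex_right]
    haveI := finiteIndex_of_isOpen (Fz_open (p := p) n)
    exact relIndex_ne_zero_of _ _
  obtain ⟨i, hi, hi', hmem⟩ := Subgroup.exists_pow_mem_of_relIndex_ne_zero h0 hΦ.1
  have hN : ¬ A.ell ∣ p ^ n := fun h =>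
    hA ((Nat.prime_dvd_prime_iff_eq A.ell_prime hp.out).1 (A.ell_prime.dvd_of_dvd_pow h))
  have h1 := hΦ.root hN hζ.pow_eq_one i
  rw [hmem.1.1 ζ hζ.pow_eq_one] at h1
  have h2 : ζ ^ (A.ell ^ i - 1) = 1 := by
    have h3 : ζ * ζ ^ (A.ell ^ i - 1) = ζ * 1 := by
      rw [← pow_succ', Nat.sub_add_cancel (Nat.one_le_pow _ _ A.ell_pos), mul_one]
      exact h1.symm
    exact mul_left_cancel₀ (hζ.ne_zero (pow_ne_zero _ hp.out.ne_zero)) h3
  have h3 := hζ.dvd_of_pow_eq_one _ h2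
  have h4 : 1 < A.ell ^ i := Nat.one_lt_pow hi.ne' A.ell_prime.one_lt
  have h5 := Nat.le_of_dvd (by omega) h3
  have h6 : A.ell ^ i ≤ A.ell ^ (Fz p n ⊓ Dec A).relIndex (Dec A) := Nat.pow_le_pow_right A.ell_pos hi'
  omega

theorem deg_ram {A : Pl} (hA : A.ell = p) (n : ℕ) :
    p ^ n * (p - 1) ≤ (Fz p (n + 1) ⊓ Dec A).relIndex (Dec A) := by
  obtain ⟨ζ, hζ⟩ := exists_primZ p (n + 1)
  set V := Fz p (n + 1) ⊓ Dec A with hV
  have hVl : IsLoc A V := by
    rw [hV, inf_comm]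
    exact ⟨inf_le_left, Fz p (n + 1), Fz_open _, le_rfl⟩
  have hpn : p ^ (n + 1) ≠ 0 := pow_ne_zero _ hp.out.ne_zero
  have h1 : ζ ≠ 1 := fun h => by
    have h2 := hζ.dvd_of_pow_eq_one 1 (by rw [h, one_pow])
    have h3 : 1 < p ^ (n + 1) := Nat.one_lt_pow (by omega) hp.out.one_lt
    exact absurd (Nat.le_of_dvd one_pos h2) (by omega)
  have h2 : (1 : Qb) - ζ ≠ 0 := sub_ne_zero.2 (Ne.symm h1)
  have hζ0 : A.ord ζ = 0 := A.ord_pow_eq_one hpn hζ.pow_eq_one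
  -- the product formula
  have h3 : (p : Qb) = ∏ μ ∈ primitiveRoots (p ^ (n + 1)) Qb, (1 - μ) := by
    rw [← eval_one_cyclotomic_prime_pow (R := Qb) n, cyclotomic_eq_prod_X_sub_primitiveRoots hζ, eval_prod]
    simp
  have hne : ∀ μ ∈ primitiveRoots (p ^ (n + 1)) Qb, (1 : Qb) - μ ≠ 0 := fun μ hμ h => by
    have h4 : ∏ μ ∈ primitiveRoots (p ^ (n + 1)) Qb, (1 - μ) = 0 := Finset.prod_eq_zero hμ h
    rw [← h3] at h4
    exact Nat.cast_ne_zero.2 hp.out.ne_zero h4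
  have h4 : ∀ μ ∈ primitiveRoots (p ^ (n + 1)) Qb, A.ord (1 - ζ) ≤ A.ord (1 - μ) := fun μ hμ => by
    have h5 := (mem_primitiveRoots (Nat.pos_of_ne_zero hpn)).1 hμ
    haveI : NeZero (p ^ (n + 1)) := ⟨hpn⟩
    obtain ⟨i, -, rfl⟩ := hζ.eq_pow_of_pow_eq_one h5.pow_eq_one
    exact (Pl.ge_one_sub_pow hζ0 i).resolve_left (hne _ hμ)
  have h5 : A.ord (p : Qb) = 1 := by rw [← hA]; exact A.ord_ell
  have h6 : ((p ^ n * (p - 1) : ℕ) : ℚ) * A.ord (1 - ζ) ≤ 1 := by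
    rw [← h5, h3, A.ord_prod _ _ hne]
    have h7 : (primitiveRoots (p ^ (n + 1)) Qb).card = p ^ n * (p - 1) := by
      rw [hζ.card_primitiveRoots, Nat.totient_prime_pow_succ hp.out]
    calc _ = ∑ μ ∈ primitiveRoots (p ^ (n + 1)) Qb, A.ord (1 - ζ) := by
          rw [Finset.sum_const, h7, nsmul_eq_mul]
      _ ≤ _ := Finset.sum_le_sum h4
  have h8 : 0 < A.ord (1 - ζ) := by
    by_contra hc
    -- `1 - μ` all have order zero then
    have h9 : ∀ μ ∈ primitiveRoots (p ^ (n + 1)) Qb, A.ord (1 - μ) = A.ord (1 - ζ) := fun μ hμ => by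
      refine le_antisymm ?_ (h4 μ hμ)
      have h5 := (mem_primitiveRoots (Nat.pos_of_ne_zero hpn)).1 hμ
      haveI : NeZero (p ^ (n + 1)) := ⟨hpn⟩
      obtain ⟨i, -, hi⟩ := h5.eq_pow_of_pow_eq_one hζ.pow_eq_one
      have h10 := Pl.ge_one_sub_pow (A.ord_pow_eq_one hpn h5.pow_eq_one) i
      rw [hi] at h10
      exact h10.resolve_left h2
    have h10 : A.ord (p : Qb) = (primitiveRoots (p ^ (n + 1)) Qb).card • A.ord (1 - ζ) := by
      conv_lhs => rw [h3]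
      rw [A.ord_prod _ _ hne, Finset.sum_congr rfl h9, Finset.sum_const]
    rw [h5, nsmul_eq_mul] at h10
    have h11 : ((primitiveRoots (p ^ (n + 1)) Qb).card : ℚ) * A.ord (1 - ζ) ≤ 0 :=
      mul_nonpos_of_nonneg_of_nonpos (Nat.cast_nonneg _) (not_lt.1 hc)
    rw [← h10] at h11
    norm_num at h11
  -- integrality
  have h9 : mk0 (1 - ζ) h2 ∈ FA V := fun g hg => by
    rw [vl_mk0, map_sub, map_one, hg.1 ζ hζ.pow_eq_one]
  obtain ⟨k, hk⟩ := ordH_int hVl ⟨_, h9⟩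
  rw [ordH_apply, vl_mk0] at hk
  have h10 : 0 < (V.relIndex (Dec A) : ℚ) := by
    have := hVl.relIndex
    positivity
  have h11 : (1 : ℚ) ≤ (V.relIndex (Dec A) : ℚ) * A.ord (1 - ζ) := by
    have h12 : 0 < (V.relIndex (Dec A) : ℚ) * A.ord (1 - ζ) := mul_pos h10 h8
    rw [hk] at h12 ⊢
    exact_mod_cast h12
  have h12 : ((p ^ n * (p - 1) : ℕ) : ℚ) * A.ord (1 - ζ) ≤ (V.relIndex (Dec A) : ℚ) * A.ord (1 - ζ) :=
    h6.trans h11
  exact_mod_cast le_of_mul_le_mul_right h12 h8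

/-- local degrees in the cyclotomic tower are unbounded -/
theorem exists_deg (S : Finset ℕ) (p : ℕ) [hp : Fact p.Prime] (N : ℕ) : ∃ n, ∀ A : Pl, A.ell ∈ S →
    N ≤ (Fz p (n + 1) ⊓ Dec A).relIndex (Dec A) := by
  refine ⟨N + ∑ l ∈ S, l ^ N, fun A hA => ?_⟩
  set n := N + ∑ l ∈ S, l ^ N with hn
  by_cases h : A.ell = p
  · refine le_trans ?_ (deg_ram h n)
    have h1 : N ≤ p ^ n := (show N ≤ n by omega).trans (Nat.lt_pow_self hp.out.one_lt).le
    have h2 : 1 ≤ p - 1 := by have := hp.out.two_le; omega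
    calc N ≤ p ^ n * 1 := by rw [mul_one]; exact h1
      _ ≤ _ := Nat.mul_le_mul_left _ h2
  · by_contra hc
    have h1 := deg_unr h (n + 1)
    have h2 : A.ell ^ (Fz p (n + 1) ⊓ Dec A).relIndex (Dec A) ≤ A.ell ^ N :=
      Nat.pow_le_pow_right A.ell_pos (by omega)
    have h3 : A.ell ^ N ≤ ∑ l ∈ S, l ^ N := Finset.single_le_sum (f := fun l => l ^ N) (fun _ _ => Nat.zero_le _) hA
    have h4 : n + 1 < p ^ (n + 1) := Nat.lt_pow_self hp.out.one_lt
    omega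

/-- the number of places in the tower -/
theorem card_reps_le {W : Subgroup GQ} (hW : IsOpen (W : Set GQ)) {s : Finset Pl} (hs : Reps W S s) {N : ℕ}
    (hN : ∀ A : Pl, A.ell ∈ S → N ≤ (W ⊓ Dec A).relIndex (Dec A)) : s.card * N ≤ S.card * W.index := by
  classical
  have h1 : s.card = ∑ q ∈ S, (s.filter fun B => B.ell = q).card :=
    Finset.card_eq_sum_card_fiberwise fun B hB => hs.ell_mem hB
  rw [h1, Finset.sum_mul, ← smul_eq_mul (a := S.card), ← Finset.sum_const]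
  refine Finset.sum_le_sum fun q hq => ?_
  by_cases hex : ∃ A : Pl, A.ell = q
  · rw [← sum_local hW (q := q) (fun A : Pl => A) (s.filter fun B => B.ell = q) hex
      (fun j hj => (Finset.mem_filter.1 hj).2) (fun A hA => by
        obtain ⟨B, hB, w, hw, h⟩ := (hs.cov A).1 (by rw [hA]; exact hq)
        refine ⟨B, Finset.mem_filter.2 ⟨hB, ?_⟩, w, hw, h⟩
        rw [← hA, ← h, Pl.ell_smul]) (fun i hi j hj h =>
        hs.dis i (Finset.mem_filter.1 hi).1 j (Finset.mem_filter.1 hj).1 h),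
      ← smul_eq_mul, ← Finset.sum_const]
    refine Finset.sum_le_sum fun B hB => hN B ?_
    rw [(Finset.mem_filter.1 hB).2]; exact hq
  · have : (s.filter fun B => B.ell = q) = ∅ := Finset.filter_eq_empty_iff.2 fun B _ h => hex ⟨B, h⟩
    rw [this]; simp

section PO

variable {H : Type} [Group H] {ι : H →* GQ}

/-- the fixer of the roots of unity is of `p`-power index -/
theorem PO_Fz (hpS : p ∈ S) (hμ : MuF p ι.range) (n : ℕ) : PO (SG S) ι p ((Fz p (n + 1)).comap ι) := by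
  haveI hN := (Fz_mem (S := S) hpS (n + 1)).1
  haveI : (Fz p (n + 1)).FiniteIndex := finiteIndex_of_isOpen (Fz_open _)
  refine ⟨inferInstance, ?_, _, Fz_mem hpS (n + 1), le_rfl⟩
  haveI : ((Fz p (n + 1)).comap ι).FiniteIndex := ⟨by
    rw [Subgroup.index_comap]; exact relIndex_ne_zero_of _ _⟩
  obtain ⟨ζ, hζ⟩ := exists_primZ p (n + 1)
  have hpn : p ^ (n + 1) ≠ 0 := pow_ne_zero _ hp.out.ne_zero
  haveI : NeZero (p ^ (n + 1)) := ⟨hpn⟩
  have h6 : IsPGroup p (H ⧸ (Fz p (n + 1)).comap ι) := by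
    intro q
    obtain ⟨g, rfl⟩ := QuotientGroup.mk_surjective q
    refine ⟨n, ?_⟩
    rw [← QuotientGroup.mk_pow]
    refine (QuotientGroup.eq_one_iff _).2 ?_
    rw [Subgroup.mem_comap, map_pow, mem_Fz_iff hζ]
    -- `ι g` acts through an exponent congruent to one
    obtain ⟨c, -, hc⟩ := hζ.eq_pow_of_pow_eq_one (ξ := ι g ζ) (by rw [← map_pow, hζ.pow_eq_one, map_one])
    have hpow : ∀ k : ℕ, ((ι g) ^ k) ζ = ζ ^ c ^ k := by
      intro k
      induction k with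
      | zero => simp
      | succ k ih =>
        rw [pow_succ']
        change (ι g) (((ι g) ^ k) ζ) = _
        rw [ih, map_pow, ← hc, ← pow_mul, pow_succ']
    rw [hpow]
    have hc0 : c ≠ 0 := by
      rintro rfl
      rw [pow_zero] at hc
      have h1 : ζ = 1 := (ι g).injective (by rw [← hc, map_one])
      have h2 := hζ.dvd_of_pow_eq_one 1 (by rw [h1, one_pow])
      have h3 : 1 < p ^ (n + 1) := Nat.one_lt_pow (by omega) hp.out.one_lt
      exact absurd (Nat.le_of_dvd one_pos h2) (by omega)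
    have h1 : (ζ ^ p ^ n) ^ c = ζ ^ p ^ n := by
      have h2 : (ι g) (ζ ^ p ^ n) = ζ ^ p ^ n := by
        refine hμ.root (ι g) ⟨g, rfl⟩ _ ?_
        rw [← pow_mul, ← pow_succ, hζ.pow_eq_one]
      rw [map_pow, ← hc] at h2
      rw [← pow_mul, mul_comm, pow_mul, h2]
    have h2 : IsPrimitiveRoot (ζ ^ p ^ n) p := by
      refine hζ.pow (Nat.pos_of_ne_zero hpn) (pow_succ _ _)
    have h3 : (p : ℤ) ∣ (c : ℤ) - 1 := by
      have h4 : (ζ ^ p ^ n) ^ (c - 1) = 1 := by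
        have h5 : ζ ^ p ^ n * (ζ ^ p ^ n) ^ (c - 1) = ζ ^ p ^ n * 1 := by
          rw [← pow_succ', Nat.sub_add_cancel (Nat.one_le_iff_ne_zero.2 hc0), mul_one, h1]
        exact mul_left_cancel₀ (pow_ne_zero _ (hζ.ne_zero hpn)) h5
      have h6 := h2.dvd_of_pow_eq_one _ h4
      have h7 : ((c - 1 : ℕ) : ℤ) = (c : ℤ) - 1 := by
        rw [Nat.cast_sub (Nat.one_le_iff_ne_zero.2 hc0)]; rfl
      rw [← h7]
      exact_mod_cast h6
    have h4 := dvd_sub_pow_of_dvd_sub h3 n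
    rw [one_pow] at h4
    have h5 : p ^ (n + 1) ∣ c ^ p ^ n - 1 := by
      have h6 : 1 ≤ c ^ p ^ n := Nat.one_le_pow _ _ (Nat.pos_of_ne_zero hc0)
      have h7 : ((p ^ (n + 1) : ℕ) : ℤ) ∣ ((c ^ p ^ n - 1 : ℕ) : ℤ) := by
        rw [Nat.cast_sub h6]; push_cast; exact h4
      exact_mod_cast h7
    obtain ⟨k, hk⟩ := h5
    have h6 : 1 ≤ c ^ p ^ n := Nat.one_le_pow _ _ (Nat.pos_of_ne_zero hc0)
    have h7 : c ^ p ^ n = p ^ (n + 1) * k + 1 := by omega
    rw [h7, pow_succ, pow_mul, hζ.pow_eq_one, one_pow, one_mul]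
  exact (IsPGroup.iff_card).1 h6

end PO

end Fermat.Agent.CFT
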