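import Fermat.Agent.CFT.Gl17
import Fermat.Agent.CFT.E6

/-!
# The global data
-/

set_option autoImplicit false
set_option linter.unusedSectionVars false
set_option linter.unusedVariables false
set_option linter.style.haveILetI false

namespace Fermat.Agent.CFT

open Module
open scoped Pointwise

variable {S : Finset ℕ} {p : ℕ} [hp : Fact p.Prime] {H : Type} [Group H] {ι : H →* GQ}

theorem exists_Reps {W : Subgroup GQ} (hW : IsOpen (W : Set GQ)) (T : Finset ℕ) : ∃ s, Reps W T s := by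
  obtain ⟨s, h1, h2⟩ := exists_reps hW T
  exact ⟨s, h1, h2⟩

section Loc

variable (hp2 : p ≠ 2) (hι : Function.Injective ι) (hW : IsOpen (ι.range : Set GQ)) (hμ : MuF p ι.range)
  {sS : Finset Pl} (hsS : Reps ι.range S sS)

theorem inj_stb (hι : Function.Injective ι) (a : XS S) : Function.Injective (ι.comp (stb ι a).subtype) :=
  hι.comp Subtype.val_injective

theorem isLoc_stb (hW : IsOpen (ι.range : Set GQ)) (a : XS S) :
    IsLoc (a : Pl) (ι.comp (stb ι a).subtype).range := by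
  rw [range_stb]; exact isLoc_inf hW _

theorem muF_stb (hμ : MuF p ι.range) (a : XS S) : MuF p (ι.comp (stb ι a).subtype).range := by
  rw [range_stb]; exact hμ.mono inf_le_left

include hp2 in
/-- The local data. -/
noncomputable def mkLoc : LocData SL ι (XS S) p where
  J := sS
  fin := inferInstance
  dec := Classical.decEq _
  a j := ⟨j, hsS.ell_mem j.2⟩
  cover b := by
    obtain ⟨B, hB, _, ⟨h, rfl⟩, h'⟩ := (hsS.cov b).1 b.2
    exact ⟨⟨B, hB⟩, h, Subtype.ext h'⟩
  disj i j h := by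
    obtain ⟨h, h'⟩ := h
    exact Subtype.ext (hsS.dis _ i.2 _ j.2 ⟨ι h, ⟨h, rfl⟩, congrArg Subtype.val h'⟩)
  nn j := (((ι.comp (stb ι (⟨j, hsS.ell_mem j.2⟩ : XS S)).subtype).range.relIndex (Dec (j : Pl)) *
    (j : Pl).eps p : ℕ) : ℤ)
  base j := (base_loc hp2 (inj_stb hι _) (isLoc_stb hW _) (muF_stb hμ _)).1
  h2 j := (base_loc hp2 (inj_stb hι _) (isLoc_stb hW _) (muF_stb hμ _)).2

theorem sum_nn (hpS : p ∈ S) : ∑ j, (mkLoc hp2 hι hW hμ hsS).nn j = (ι.range.index : ℤ) := by
  classical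
  change ∑ j : sS, (((ι.comp (stb ι (⟨j, hsS.ell_mem j.2⟩ : XS S)).subtype).range.relIndex (Dec (j : Pl)) *
    (j : Pl).eps p : ℕ) : ℤ) = _
  rw [← Nat.cast_sum]
  congr 1
  let f : Pl → ℕ := fun j => (ι.range ⊓ Dec j).relIndex (Dec j) * j.eps p
  have h1 : ∀ j : sS, (ι.comp (stb ι (⟨j, hsS.ell_mem j.2⟩ : XS S)).subtype).range.relIndex (Dec (j : Pl)) *
    (j : Pl).eps p = f j := fun j => by rw [range_stb]
  rw [Finset.sum_congr rfl fun j _ => h1 j, Finset.sum_coe_sort sS f,
    ← sum_local hW (q := p) (fun A : Pl => A) (sS.filter fun B => B.ell = p) (exists_place p hp.out)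
      (fun j hj => (Finset.mem_filter.1 hj).2) (fun A hA => by
        obtain ⟨B, hB, w, hw, h⟩ := (hsS.cov A).1 (by rw [hA]; exact hpS)
        refine ⟨B, Finset.mem_filter.2 ⟨hB, ?_⟩, w, hw, h⟩
        rw [← hA, ← h, Pl.ell_smul]) (fun i hi j hj h =>
        hsS.dis i (Finset.mem_filter.1 hi).1 j (Finset.mem_filter.1 hj).1 h), Finset.sum_filter]
  refine Finset.sum_congr rfl fun j _ => ?_
  simp only [f, Pl.eps]
  split_ifs with h
  · rw [mul_one]
  · rw [mul_zero]

end Loc

/-- The Euler characteristic up to `T³`. -/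
theorem chi_glob (hp2 : p ≠ 2) (hpS : p ∈ S) (hι : Function.Injective ι)
    (hop : ∃ V ∈ (SG S).carrier, V ≤ ι.range) (hμ : MuF p ι.range) {m : ℕ} (hm : ι.range.index = 2 * m)
    {sS : Finset Pl} (hsS : Reps ι.range S sS) :
    (TC p (SG S) ι).Fin2 ∧ (TC p (SG S) ι).chi = 1 - m - (lc p S ι).ck 2 ∧ (lc p S ι).ck 2 ≤ sS.card := by
  have hW := isOpen_of_SG hop
  obtain ⟨f1, f2, e1⟩ := glob_h1 hp2 hpS hμ hop hm hsS
  obtain ⟨f0, e0⟩ := fin_H0 (p := p) (S := SG S) (ι := ι)
  set D := mkLoc hp2 hι hW hμ hsS with hD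
  have hfL := sl_fin2 (Sg := SG S) D SG_SL PO.top (Representation.trivial (ZMod p) H (ZMod p)) (fun u _ x => rfl)
  have hL2 : (cochCx SL ι (Representation.trivial (ZMod p) H (ZMod p)) (XS S)).h 2 = sS.card := by
    rw [sl_h (Sg := SG S) D SG_SL PO.top (Representation.trivial (ZMod p) H (ZMod p)) (fun u _ x => rfl) le_rfl]
    have h1 : ∀ j, (cochCx SL (ι.comp (stb ι (D.a j)).subtype)
        ((Representation.trivial (ZMod p) H (ZMod p)).comp (stb ι (D.a j)).subtype) Unit).h 2 = 1 := fun j =>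
      (fin_H2_loc (p := p) hp2 (isLoc_stb hW (D.a j)) (muF_stb hμ _)).2
    rw [Finset.sum_congr rfl fun j _ => h1 j, Finset.sum_const, Finset.card_univ, smul_eq_mul, mul_one]
    exact Fintype.card_coe sS
  haveI := hfL 2 le_rfl
  haveI fH2 : Module.Finite (ZMod p) ((TC p (SG S) ι).H 2) := by
    haveI : Module.Finite (ZMod p) (LinearMap.range ((lc p S ι).H 2)) := inferInstance
    haveI : Module.Finite (ZMod p) ((TC p (SG S) ι).H 2 ⧸ LinearMap.ker ((lc p S ι).H 2)) :=
      Module.Finite.equiv ((lc p S ι).H 2).quotKerEquivRange.symm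
    exact Module.Finite.of_submodule_quotient (LinearMap.ker ((lc p S ι).H 2))
  have h3 := (lc p S ι).h_source 2
  have h4 := (lc p S ι).h_target 2
  rw [hL2] at h4
  refine ⟨fun n hn => ?_, ?_, by omega⟩
  · interval_cases n
    · exact f0
    · exact f2
    · exact fH2
  · rw [Cx.chi, e0, e1, h3]
    push_cast
    have h5 : (sS.card : ℤ) = (lc p S ι).rk 2 + (lc p S ι).ck 2 := by exact_mod_cast h4
    rw [h5]; ring

theorem range_comp_sub (U : Subgroup H) : (ι.comp U.subtype).range = U.map ι := by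
  rw [MonoidHom.range_comp, Subgroup.range_subtype]

theorem index_comp_sub (hι : Function.Injective ι) (U : Subgroup H) :
    (ι.comp U.subtype).range.index = U.index * ι.range.index := by
  have hle : (ι.comp U.subtype).range ≤ ι.range := by rw [range_comp_sub]; exact Subgroup.map_le_range _ _
  rw [← Subgroup.relIndex_mul_index hle]
  congr 1
  rw [range_comp_sub, MonoidHom.range_eq_map, Subgroup.relIndex_map_map_of_injective _ _ hι,
    Subgroup.relIndex_top_right]

theorem hop_comp_sub (hop : ∃ V ∈ (SG S).carrier, V ≤ ι.range) {U : Subgroup H} (hU : PO (SG S) ι p U) :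
    ∃ V ∈ (SG S).carrier, V ≤ (ι.comp U.subtype).range := by
  obtain ⟨V, hV, hVU⟩ := hU.isOpen
  obtain ⟨V1, hV1, h1⟩ := hop
  obtain ⟨V2, hV2, h2, h3⟩ := (SG S).directed V hV V1 hV1
  refine ⟨V2, hV2, fun g hg => ?_⟩
  obtain ⟨h, rfl⟩ := h1 (h3 hg)
  exact ⟨⟨h, hVU (h2 hg)⟩, rfl⟩

theorem mu_comp_sub (hμ : MuF p ι.range) (U : Subgroup H) : MuF p (ι.comp U.subtype).range :=
  hμ.mono (by rw [range_comp_sub]; exact Subgroup.map_le_range _ _)

/-- **`T³` is at most one-dimensional.** -/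
theorem ck_le_one (hp2 : p ≠ 2) (hpS : p ∈ S) (hι : Function.Injective ι)
    (hop : ∃ V ∈ (SG S).carrier, V ≤ ι.range) (hμ : MuF p ι.range) : (lc p S ι).ck 2 ≤ 1 := by
  by_contra hcon
  have hW := isOpen_of_SG hop
  haveI := numberField_KW hW
  obtain ⟨m, hm, hm0, -⟩ := phi_units hW hp2 hμ
  obtain ⟨sS, hsS⟩ := exists_Reps hW S
  obtain ⟨n, hn⟩ := exists_deg S p (S.card * ι.range.index)
  have hU := PO_Fz hpS hμ n
  set U := (Fz p (n + 1)).comap ι with hUdef
  have hop' := hop_comp_sub hop hU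
  have hμ' := mu_comp_sub hμ U
  have hι' : Function.Injective (ι.comp U.subtype) := hι.comp Subtype.val_injective
  have hW' := isOpen_of_SG hop'
  have hidx := index_comp_sub hι U
  obtain ⟨sS', hsS'⟩ := exists_Reps hW' S
  obtain ⟨F1, c1, b1⟩ := chi_glob hp2 hpS hι hop hμ hm hsS
  obtain ⟨F2, c2, b2⟩ := chi_glob hp2 hpS hι' hop' hμ' (m := U.index * m) (by rw [hidx, hm]; ring) hsS'
  -- the number of places
  have hN : ∀ A : Pl, A.ell ∈ S → S.card * ι.range.index ≤ ((ι.comp U.subtype).range ⊓ Dec A).relIndex (Dec A) := by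
    intro A hA
    refine (hn A hA).trans (Subgroup.relIndex_le_of_le_left ?_ (isLoc_inf hW' A).relIndex)
    refine inf_le_inf_right _ ?_
    rintro _ ⟨u, rfl⟩
    exact u.2
  have h1 := card_reps_le hW' hsS' hN
  have hpos : 0 < S.card * ι.range.index := by
    refine Nat.mul_pos (Finset.card_pos.2 ⟨p, hpS⟩) ?_
    rw [hm]; omega
  have h2 : sS'.card ≤ U.index := by
    rw [hidx] at h1
    have h3 : sS'.card * (S.card * ι.range.index) ≤ U.index * (S.card * ι.range.index) := by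
      calc _ ≤ _ := h1
        _ = _ := by ring
    exact Nat.le_of_mul_le_mul_right h3 hpos
  -- the inequality for the coinduced module
  haveI := hU.normal
  haveI := hU.finiteIndex
  obtain ⟨-, h3⟩ := chi_le' (a := -(1 - m - (lc p S ι).ck 2)) F1 (by rw [neg_neg]; exact c1) hU _
    (CI U (Representation.trivial (ZMod p) U (ZMod p))) (ci U _) (trivOn_ci hU.normal) rfl
  rw [(shapiro (S := SG S) (ι := ι) (X := Unit) U _).chi_eq, finrank_CI, finrank_self, mul_one, neg_neg] at h3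
  change (TC p (SG S) (ι.comp U.subtype)).chi ≤ _ at h3
  rw [c2] at h3
  push_cast at h3
  have h4 : (1 : ℤ) - (lc p S (ι.comp U.subtype)).ck 2 ≤ U.index * (1 - (lc p S ι).ck 2) := by nlinarith
  have h5 : ((lc p S (ι.comp U.subtype)).ck 2 : ℤ) ≤ U.index := by exact_mod_cast b2.trans h2
  have h6 : (2 : ℤ) ≤ (lc p S ι).ck 2 := by exact_mod_cast (not_le.1 hcon)
  have h7 : (0 : ℤ) ≤ U.index := Int.natCast_nonneg _
  nlinarith

end Fermat.Agent.CFT
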