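import Fermat.Agent.CFT.Gl18

/-!
# Corestriction
-/

set_option autoImplicit false
set_option linter.unusedSectionVars false
set_option linter.unusedVariables false
set_option linter.style.haveILetI false

namespace Fermat.Agent.CFT

open Module
open scoped Pointwise

section

variable {M : Type} [AddCommGroup M] {am : GQ →* AddMonoid.End M} {S : Sys GQ} {W W' : Subgroup GQ}

/-- Corestriction. -/
theorem cores_gen (hle : W' ≤ W) (hfin : W'.relIndex W ≠ 0) {c : GQ → GQ → GQ → M} (hc : C2 am S W c)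
    (h : ∃ b, C1 am S W' b ∧ d1 b = c) : ∃ b, C1 am S W b ∧ d1 b = W'.relIndex W • c := by
  classical
  obtain ⟨b, hb, hbc⟩ := h
  haveI : (W'.subgroupOf W).FiniteIndex := ⟨hfin⟩
  haveI : Finite (W ⧸ W'.subgroupOf W) := inferInstance
  letI := Fintype.ofFinite (W ⧸ W'.subgroupOf W)
  set r := W'.relIndex W with hrdef
  have hcard : Fintype.card (W ⧸ W'.subgroupOf W) = r := by
    rw [← Nat.card_eq_fintype_card]; rfl
  let φ : W → GQ → GQ → M := fun w x y => am (w : GQ) (b ((w : GQ)⁻¹ * x) ((w : GQ)⁻¹ * y))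
  have hφ : ∀ (w : W) x y, φ ((w : W ⧸ W'.subgroupOf W).out) x y = φ w x y := by
    intro w x y
    have h1 : (w : W)⁻¹ * (w : W ⧸ W'.subgroupOf W).out ∈ W'.subgroupOf W := by
      rw [← QuotientGroup.eq]; exact (QuotientGroup.out_eq' _).symm
    set v := (w : W)⁻¹ * (w : W ⧸ W'.subgroupOf W).out with hv
    have h3 : ((w : W ⧸ W'.subgroupOf W).out : W) = w * v := by rw [hv]; group
    rw [h3]
    have h4 : (v : GQ) ∈ W' := h1
    have h5 := hb.eq _ (inv_mem h4) ((w : GQ)⁻¹ * x) ((w : GQ)⁻¹ * y)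
    change am ((w * v : W) : GQ) (b (((w * v : W) : GQ)⁻¹ * x) (((w * v : W) : GQ)⁻¹ * y)) = _
    rw [Subgroup.coe_mul, mul_inv_rev, mul_assoc, mul_assoc, h5, am_mul, ← am_mul (v : GQ), mul_inv_cancel,
      am_one]
  let B : GQ → GQ → M := fun x y => ∑ q : W ⧸ W'.subgroupOf W, φ q.out x y
  refine ⟨B, ⟨fun w hw x y => ?_, ?_⟩, ?_⟩
  · change ∑ q : W ⧸ W'.subgroupOf W, φ q.out (w * x) (w * y) = am w (∑ q : W ⧸ W'.subgroupOf W, φ q.out x y)
    rw [map_sum]
    refine (Fintype.sum_equiv (MulAction.toPerm (⟨w, hw⟩ : W)) _ _ fun q => ?_).symm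
    obtain ⟨v, rfl⟩ := QuotientGroup.mk_surjective q
    rw [hφ]
    change _ = φ (((⟨w, hw⟩ * v : W) : W ⧸ W'.subgroupOf W).out) _ _
    rw [hφ]
    simp only [φ, Subgroup.coe_mul]
    rw [am_mul]
    congr 3 <;> group
  · obtain ⟨V, hV, hsm⟩ := hb.sm
    refine ⟨V, hV, fun x y v hv v' hv' => ?_⟩
    simp only [B, φ]
    refine Finset.sum_congr rfl fun q _ => ?_
    rw [← mul_assoc, ← mul_assoc, hsm _ _ v hv v' hv']
  · funext x y z
    have h1 : ∀ q : W ⧸ W'.subgroupOf W, φ q.out y z - φ q.out x z + φ q.out x y = c x y z := by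
      intro q
      have h2 := congrFun (congrFun (congrFun hbc (((q.out : W) : GQ)⁻¹ * x)) (((q.out : W) : GQ)⁻¹ * y))
        (((q.out : W) : GQ)⁻¹ * z)
      rw [hc.eq _ (inv_mem (q.out : W).2)] at h2
      have h3 := congrArg (am ((q.out : W) : GQ)) h2
      rw [← am_mul, mul_inv_cancel, am_one] at h3
      simp only [d1, map_add, map_sub] at h3
      exact h3
    have h2 : B y z - B x z + B x y = ∑ q : W ⧸ W'.subgroupOf W,
        (φ q.out y z - φ q.out x z + φ q.out x y) := by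
      simp only [B, Finset.sum_add_distrib, Finset.sum_sub_distrib]
    change B y z - B x z + B x y = _
    rw [h2, Finset.sum_congr rfl fun q _ => h1 q, Finset.sum_const, Finset.card_univ, hcard]
    rfl

theorem descend_gen {p : ℕ} [hp : Fact p.Prime] (hle : W' ≤ W) (hfin : W'.relIndex W ≠ 0)
    (hr : ¬ p ∣ W'.relIndex W) {c : GQ → GQ → GQ → M} (hc : C2 am S W c) (hpc : p • c = 0)
    (h : ∃ b, C1 am S W' b ∧ d1 b = c) : ∃ b, C1 am S W b ∧ d1 b = c := by
  obtain ⟨b, hb, hbc⟩ := cores_gen hle hfin hc h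
  have hcop : Nat.Coprime (W'.relIndex W) p := ((hp.out.coprime_iff_not_dvd).2 hr).symm
  obtain ⟨k, -, hk⟩ := Nat.exists_mul_mod_eq_one_of_coprime hcop hp.out.one_lt
  refine ⟨k • b, hb.nsmul k, ?_⟩
  rw [d1_nsmul, hbc, smul_smul, mul_comm k, ← Nat.div_add_mod (W'.relIndex W * k) p, hk, add_smul, one_smul,
    mul_comm p, mul_smul, hpc, smul_zero, zero_add]

end

end Fermat.Agent.CFT
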