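import Fermat.Agent.CFT.Gl1

/-!
# `S`-units
-/

set_option autoImplicit false
set_option linter.unusedSectionVars false
set_option linter.unusedVariables false
set_option linter.style.haveILetI false

namespace Fermat.Agent.CFT

open Module NumberField Fermat.Agent.Places
open scoped Pointwise

section NF

variable {A : Pl} {W : Subgroup GQ} [NumberField (KW W)]

theorem exists_unifP : ∃ π, π ∈ PrA A W ∧ π ∉ PrA A W ^ 2 := by
  obtain ⟨x, hx, hx'⟩ := Ideal.exists_mem_pow_notMem_pow_succ (PrA A W) PrA_ne_bot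
    (Ideal.IsPrime.ne_top inferInstance) 1
  exact ⟨x, by rwa [pow_one] at hx, hx'⟩

theorem exists_Pl_over (P : Ideal (𝓞 (KW W))) [hP : P.IsMaximal] (hP0 : P ≠ ⊥) : ∃ A : Pl, PrA A W = P := by
  obtain ⟨A, hA⟩ := exists_place_over (KW W) P
  have h1 : Ideal.absNorm P ≠ 0 := by rwa [Ne, Ideal.absNorm_eq_zero_iff]
  have h2 := Ideal.absNorm_mem P
  obtain ⟨q, hq, hqP⟩ : ∃ q : ℕ, q.Prime ∧ (q : 𝓞 (KW W)) ∈ P := by
    have key : ∀ n : ℕ, n ≠ 0 → (n : 𝓞 (KW W)) ∈ P → ∃ q : ℕ, q.Prime ∧ (q : 𝓞 (KW W)) ∈ P := by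
      intro n
      induction n using Nat.recOnMul with
      | zero => intro h; exact absurd rfl h
      | one => intro _ h; exact absurd ((Ideal.eq_top_iff_one _).2 (by simpa using h)) hP.ne_top
      | prime p hp => intro _ h; exact ⟨p, hp, h⟩
      | mul a b iha ihb =>
        intro h h'
        push_cast at h'
        rcases hP.isPrime.mem_or_mem h' with h3 | h3
        · exact iha (by rintro rfl; exact h (by simp)) h3
        · exact ihb (by rintro rfl; exact h (by simp)) h3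
    exact key _ h1 h2
  refine ⟨⟨A, q, hq, ?_⟩, hA⟩
  rw [← hA] at hqP
  have h3 : ((((q : ℕ) : 𝓞 (KW W)) : KW W) : Qb) ∈ A.nonunits := hqP
  have h4 : ((((q : ℕ) : 𝓞 (KW W)) : KW W) : Qb) = (q : Qb) := by push_cast; rfl
  rwa [h4] at h3

theorem integral_of_ord {x : Qb} (hx : x ∈ KW W) (h : ∀ A : Pl, x ≠ 0 → 0 ≤ A.ord x) : IsIntegral ℤ x := by
  by_cases hx0 : x = 0
  · rw [hx0]; exact isIntegral_zero
  obtain ⟨a, b, hb, hxab⟩ := exists_div hx
  have ha : a ≠ 0 := fun h => hx0 (by rw [hxab, h]; simp [cK])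
  have hdiv : b ∣ a := by
    rw [← Ideal.mem_span_singleton]
    by_contra hcon
    let I : Ideal (𝓞 (KW W)) := (Ideal.span {b}).colon {a}
    have hI : I ≠ ⊤ := fun hI => hcon (by
      have h1 : (1 : 𝓞 (KW W)) ∈ I := by rw [hI]; trivial
      rw [Submodule.mem_colon_singleton] at h1
      rwa [one_smul] at h1)
    obtain ⟨P, hP, hIP⟩ := Ideal.exists_le_maximal I hI
    have hP0 : P ≠ ⊥ := by
      rintro rfl
      have : b ∈ I := by
        rw [Submodule.mem_colon_singleton, smul_eq_mul]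
        exact Ideal.mem_span_singleton.2 (dvd_mul_right _ _)
      exact hb (by simpa using hIP this)
    obtain ⟨A, rfl⟩ := exists_Pl_over P hP0
    obtain ⟨π, h1, h2⟩ := exists_unifP (A := A) (W := W)
    obtain ⟨k, hk, hk'⟩ := exists_mult (A := A) ha
    obtain ⟨l, hl, hl'⟩ := exists_mult (A := A) hb
    have h3 := h A hx0
    have hπ : π ≠ 0 := fun h => h2 (h ▸ zero_mem _)
    have h4 := ord_cK_pos hπ h1
    rw [hxab, A.ord_div (cK_ne_zero ha) (cK_ne_zero hb), ord_eq_mult h1 h2 hk hk',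
      ord_eq_mult h1 h2 hl hl', sub_nonneg] at h3
    have h5 : l ≤ k := by exact_mod_cast le_of_mul_le_mul_right h3 h4
    obtain ⟨s, hs, u, hu⟩ := exists_mul_pow (A := A) hb hl hl' 1 (a := a) (by
      rw [mul_one]; exact Ideal.pow_le_pow_right h5 hk)
    refine hs (hIP ?_)
    rw [Submodule.mem_colon_singleton, smul_eq_mul, hu, pow_one]
    exact Ideal.mem_span_singleton.2 (dvd_mul_right _ _)
  obtain ⟨c, rfl⟩ := hdiv
  have : x = cK c := by
    rw [hxab, cK_mul, mul_div_cancel_left₀ _ (cK_ne_zero hb)]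
  rw [this]
  exact cK_integral c

end NF

/-- units outside a set of places -/
def US (W : Subgroup GQ) (T : Set Pl) : AddSubgroup Ma where
  carrier := {x | x ∈ FA W ∧ ∀ A ∉ T, A.ord (vl x) = 0}
  add_mem' := by
    rintro a b ⟨ha, ha'⟩ ⟨hb, hb'⟩
    refine ⟨add_mem ha hb, fun A hA => ?_⟩
    rw [vl_add, A.ord_mul (vl_ne_zero _) (vl_ne_zero _), ha' A hA, hb' A hA, add_zero]
  zero_mem' := ⟨zero_mem _, fun A _ => by rw [vl_zero, A.ord_one]⟩
  neg_mem' := by
    rintro a ⟨ha, ha'⟩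
    refine ⟨neg_mem ha, fun A hA => ?_⟩
    rw [vl_neg, A.ord_inv (vl_ne_zero _), ha' A hA, neg_zero]

theorem mem_US {W : Subgroup GQ} {T : Set Pl} {x : Ma} :
    x ∈ US W T ↔ x ∈ FA W ∧ ∀ A ∉ T, A.ord (vl x) = 0 := Iff.rfl

theorem US_mono {W : Subgroup GQ} {T T' : Set Pl} (h : T ⊆ T') : US W T ≤ US W T' :=
  fun x hx => ⟨hx.1, fun A hA => hx.2 A fun hA' => hA (h hA')⟩

theorem FA_KW {W : Subgroup GQ} {x : Ma} : x ∈ FA W ↔ vl x ∈ KW W := by
  rw [mem_KW]; exact mem_FA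

section Units

variable {W : Subgroup GQ} [NumberField (KW W)]

/-- units -/
noncomputable def unitHom : Additive (𝓞 (KW W))ˣ →+ Ma :=
  MonoidHom.toAdditive (Units.map (((algebraMap (KW W) Qb).comp (algebraMap (𝓞 (KW W)) (KW W)) : _ →+* Qb) : _ →* Qb))

theorem vl_unitHom (u : Additive (𝓞 (KW W))ˣ) : vl (unitHom u) = cK ((Additive.toMul u : (𝓞 (KW W))ˣ) : 𝓞 (KW W)) := rfl

theorem unitHom_injective : Function.Injective (unitHom (W := W)) := by
  intro u v h
  have h1 : vl (unitHom u) = vl (unitHom v) := by rw [h]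
  rw [vl_unitHom, vl_unitHom] at h1
  apply Additive.toMul.injective
  apply Units.ext
  apply RingOfIntegers.ext
  exact Subtype.ext h1

theorem range_unitHom : (unitHom (W := W)).range = US W ∅ := by
  ext x
  constructor
  · rintro ⟨u, rfl⟩
    set v := (Additive.toMul u : (𝓞 (KW W))ˣ) with hv
    refine ⟨FA_KW.2 (by rw [vl_unitHom]; exact SetLike.coe_mem _), fun A _ => ?_⟩
    rw [vl_unitHom, ← hv]
    apply ord_cK_eq_zero
    intro h
    exact (Ideal.IsPrime.ne_top (inferInstance : (PrA A W).IsPrime)) (Ideal.eq_top_of_isUnit_mem _ h v.isUnit)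
  · rintro ⟨h1, h2⟩
    have h3 : IsIntegral ℤ (vl x) := integral_of_ord (FA_KW.1 h1) fun A _ => (h2 A (by simp)).ge
    have h4 : IsIntegral ℤ (vl (-x)) := integral_of_ord (FA_KW.1 (neg_mem h1)) fun A _ => by
      rw [vl_neg, A.ord_inv (vl_ne_zero _), h2 A (by simp), neg_zero]
    have mk : ∀ y : Ma, y ∈ FA W → IsIntegral ℤ (vl y) → ∃ a : 𝓞 (KW W), cK a = vl y := by
      intro y hy hi
      refine ⟨⟨⟨vl y, FA_KW.1 hy⟩, ?_⟩, rfl⟩
      exact (isIntegral_algebraMap_iff (algebraMap (KW W) Qb).injective).1 hi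
    obtain ⟨a, ha⟩ := mk x h1 h3
    obtain ⟨b, hb⟩ := mk (-x) (neg_mem h1) h4
    have hab : a * b = 1 := by
      apply RingOfIntegers.ext
      apply Subtype.ext
      change cK (a * b) = 1
      rw [cK_mul, ha, hb, vl_neg, mul_inv_cancel₀ (vl_ne_zero _)]
    refine ⟨Additive.ofMul ⟨a, b, hab, by rw [mul_comm]; exact hab⟩, ?_⟩
    apply vl_inj.1
    rw [vl_unitHom]
    exact ha

variable {p : ℕ} [hp : Fact p.Prime]

/-- the unit theorem -/
theorem phi_units (hW : IsOpen (W : Set GQ)) (hp2 : p ≠ 2) (hμ : MuF p W) : ∃ m, W.index = 2 * m ∧ 0 < m ∧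
    QF (mulN p (US W ∅)) ∧ qi (mulN p (US W ∅)) = (p : ℚ) ^ (m - 1) := by
  obtain ⟨ζ, hζ⟩ := exists_prim p
  have hζW : ζ ∈ KW W := mem_KW.2 fun g hg => hμ.root g hg ζ hζ.pow_eq_one
  have hζ' : IsPrimitiveRoot (⟨ζ, hζW⟩ : KW W) p :=
    IsPrimitiveRoot.of_map_of_injective (f := algebraMap (KW W) Qb) (by exact hζ) (algebraMap (KW W) Qb).injective
  have h2p : 2 < p := lt_of_le_of_ne hp.out.two_le (Ne.symm hp2)
  have h1 : InfinitePlace.nrRealPlaces (KW W) = 0 := InfinitePlace.IsPrimitiveRoot.nrRealPlaces_eq_zero_of_two_lt h2p hζ'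
  have h2 := InfinitePlace.card_add_two_mul_card_eq_rank (KW W)
  have h3 := InfinitePlace.card_eq_nrRealPlaces_add_nrComplexPlaces (K := KW W)
  rw [h1, zero_add] at h2 h3
  rw [finrank_KW' hW] at h2
  have h4 : W.index ≠ 0 := (finiteIndex_of_isOpen hW).index_ne_zero
  obtain ⟨h5, h6⟩ := phi_fg (A := Additive (𝓞 (KW W))ˣ) p
  rw [NumberField.Units.finrank_eq, NumberField.Units.rank, h3] at h6
  have e : Additive (𝓞 (KW W))ˣ ≃+ US W ∅ :=
    (AddMonoidHom.ofInjective unitHom_injective).trans (AddEquiv.addSubgroupCongr range_unitHom)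
  rw [QF_equiv p e] at h5
  rw [qi_equiv p e] at h6
  exact ⟨_, h2.symm, by omega, h5, h6⟩

end Units

end Fermat.Agent.CFT
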