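import Fermat.Agent.CFT.Gl19

/-!
# The cyclic extension of degree `p` inside the field of `p²`-th roots of unity
-/

set_option autoImplicit false
set_option linter.unusedSectionVars false
set_option linter.unusedVariables false
set_option linter.style.haveILetI false

namespace Fermat.Agent.CFT

open Module Polynomial
open scoped Pointwise

variable {p : ℕ} [hp : Fact p.Prime]

theorem relIndex_le_index' (V D : Subgroup GQ) [hV : V.FiniteIndex] : V.relIndex D ≤ V.index := by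
  rw [← Subgroup.relIndex_top_right]
  exact Subgroup.relIndex_le_of_le_right le_top (by rw [Subgroup.relIndex_top_right]; exact hV.index_ne_zero)

instance Fz_finiteIndex (n : ℕ) : (Fz p n).FiniteIndex := finiteIndex_of_isOpen (Fz_open n)

theorem exists_theta (n : ℕ) (hn : n ≠ 0) : ∃ Θ : GQ →* (ZMod (p ^ n))ˣ, Θ.ker = Fz p n := by
  obtain ⟨ζ, hζ⟩ := exists_primZ p n
  haveI : NeZero (p ^ n) := ⟨pow_ne_zero _ hp.out.ne_zero⟩
  haveI : Fact (1 < p ^ n) := ⟨Nat.one_lt_pow hn hp.out.one_lt⟩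
  refine ⟨hζ.autToPow ℚ, ?_⟩
  ext g
  rw [MonoidHom.mem_ker, mem_Fz_iff hζ, ← hζ.autToPow_spec ℚ g]
  constructor
  · intro h
    rw [h, Units.val_one, ZMod.val_one, pow_one]
  · intro h
    have h1 : (hζ.autToPow ℚ g : ZMod (p ^ n)).val = 1 := by
      refine hζ.pow_inj (ZMod.val_lt _) (Nat.one_lt_pow hn hp.out.one_lt) ?_
      rw [h, pow_one]
    apply Units.ext
    rw [Units.val_one, ← ZMod.natCast_zmod_val (hζ.autToPow ℚ g : ZMod (p ^ n)), h1, Nat.cast_one]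

theorem Fz_index_dvd (n : ℕ) (hn : n ≠ 0) : (Fz p n).index ∣ (p ^ n).totient := by
  obtain ⟨Θ, hΘ⟩ := exists_theta (p := p) n hn
  haveI : NeZero (p ^ n) := ⟨pow_ne_zero _ hp.out.ne_zero⟩
  rw [← hΘ, Subgroup.index_ker, ← ZMod.card_units_eq_totient, ← Nat.card_eq_fintype_card]
  exact Subgroup.card_subgroup_dvd_card _

theorem Fz_relIndex {A : Pl} (hA : A.ell = p) (n : ℕ) : (Fz p (n + 1)).relIndex (Dec A) = p ^ n * (p - 1) ∧
    (Fz p (n + 1)).index = p ^ n * (p - 1) := by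
  have h1 := deg_ram hA n
  rw [Subgroup.inf_relIndex_right] at h1
  have h2 := relIndex_le_index' (Fz p (n + 1)) (Dec A)
  have h3 := Nat.le_of_dvd (Nat.totient_pos.2 (pow_pos hp.out.pos _)) (Fz_index_dvd (p := p) (n + 1) (by omega))
  rw [Nat.totient_prime_pow_succ hp.out] at h3
  omega

theorem Fz_index (n : ℕ) : (Fz p (n + 1)).index = p ^ n * (p - 1) := by
  obtain ⟨A, hA⟩ := exists_place p hp.out
  exact (Fz_relIndex hA n).2

theorem Fz_le {m n : ℕ} (h : m ≤ n) : Fz p n ≤ Fz p m := fun g hg z hz => hg z (by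
  obtain ⟨k, rfl⟩ := Nat.exists_eq_add_of_le h
  rw [pow_add, pow_mul, hz, one_pow])


/-- the element `p` -/
noncomputable def pM (p : ℕ) [hp : Fact p.Prime] : Ma := mk0 (p : Qb) (Nat.cast_ne_zero.2 hp.out.ne_zero)

theorem nm_zeta {ζ : Qb} (n : ℕ) (hζ : IsPrimitiveRoot ζ (p ^ (n + 1))) {σ : GQ}
    (h : Cyc (p ^ n * (p - 1)) ⊤ (Fz p (n + 1)) σ) (h0 : (1 : Qb) - ζ ≠ 0) :
    Cyc.nm (p ^ n * (p - 1)) σ (mk0 (1 - ζ) h0) = pM p := by
  classical
  have hpn : p ^ (n + 1) ≠ 0 := pow_ne_zero _ hp.out.ne_zero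
  rw [← vl_inj, Cyc.nm, vl_sum, pM, vl_mk0]
  have h3 : (p : Qb) = ∏ μ ∈ primitiveRoots (p ^ (n + 1)) Qb, (1 - μ) := by
    rw [← eval_one_cyclotomic_prime_pow (R := Qb) n, cyclotomic_eq_prod_X_sub_primitiveRoots hζ, eval_prod]
    simp
  have key : ∀ i j : ℕ, i ≤ j → j < p ^ n * (p - 1) → (σ ^ i) ζ = (σ ^ j) ζ → i = j := by
    intro i j hij hj he
    have h1 : (σ ^ (j - i)) ζ = ζ := by
      apply (σ ^ i).injective
      rw [he]
      conv_rhs => rw [← Nat.add_sub_cancel' hij, pow_add]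
      rfl
    have h2 := (h.pow _).1 ((mem_Fz_iff hζ).2 h1)
    by_contra hne
    exact absurd (Nat.le_of_dvd (by omega) h2) (by omega)
  have hinj : Set.InjOn (fun i => (σ ^ i) ζ) (Finset.range (p ^ n * (p - 1)) : Set ℕ) := by
    intro i hi j hj he
    rw [Finset.coe_range, Set.mem_Iio] at hi hj
    rcases Nat.le_total i j with hij | hij
    · exact key i j hij hj he
    · exact (key j i hij hi he.symm).symm
  have himg : (Finset.range (p ^ n * (p - 1))).image (fun i => (σ ^ i) ζ) = primitiveRoots (p ^ (n + 1)) Qb := by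
    refine Finset.eq_of_subset_of_card_le ?_ ?_
    · intro μ hμ
      obtain ⟨i, -, rfl⟩ := Finset.mem_image.1 hμ
      rw [mem_primitiveRoots (Nat.pos_of_ne_zero hpn)]
      exact hζ.map_of_injective (f := (σ ^ i)) (σ ^ i).injective
    · rw [Finset.card_image_of_injOn hinj, Finset.card_range, hζ.card_primitiveRoots,
        Nat.totient_prime_pow_succ hp.out]
  rw [h3, ← himg, Finset.prod_image hinj]
  refine Finset.prod_congr rfl fun i _ => ?_
  rw [vl_ac, vl_mk0, map_sub, map_one]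

theorem exists_E (hp2 : p ≠ 2) : ∃ (E : Subgroup GQ) (σ : GQ), Fz p 2 ≤ E ∧ Cyc p ⊤ E σ ∧ σ ∈ Fz p 1 ∧
    E ⊓ Fz p 1 = Fz p 2 ∧ (Fz p 2).relIndex E = p - 1 ∧ pM p ∈ Cyc.NG p E σ := by
  obtain ⟨Θ, hΘ⟩ := exists_theta (p := p) 2 (by norm_num)
  obtain ⟨ζ, hζ⟩ := exists_primZ p 2
  have hpn : p ^ 2 ≠ 0 := pow_ne_zero _ hp.out.ne_zero
  haveI : NeZero (p ^ 2) := ⟨hpn⟩
  haveI := ZMod.isCyclic_units_of_prime_pow p hp.out hp2 2
  let f : (⊤ : Subgroup GQ) →* (ZMod (p ^ 2))ˣ := Θ.comp (Subgroup.subtype ⊤)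
  obtain ⟨σ0, hσ0⟩ := cyc_of_hom f inferInstance inferInstance
  have hker : f.ker.map (Subgroup.subtype ⊤) = Fz p 2 := by
    rw [← hΘ]
    ext g
    constructor
    · rintro ⟨w, hw, rfl⟩; exact hw
    · intro hg; exact ⟨⟨g, trivial⟩, hg, rfl⟩
  rw [hker] at hσ0
  have hm : Nat.card f.range = p * (p - 1) := by
    rw [← hσ0.relIndex, Subgroup.relIndex_top_right, Fz_index 1, pow_one]
  rw [hm] at hσ0
  have h1 : (1 : Qb) - ζ ≠ 0 := sub_ne_zero.2 fun h => by
    have h2 := hζ.dvd_of_pow_eq_one 1 (by rw [← h, one_pow])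
    have h3 : 1 < p ^ 2 := Nat.one_lt_pow (by omega) hp.out.one_lt
    exact absurd (Nat.le_of_dvd one_pos h2) (by omega)
  have hnm := nm_zeta 1 hζ (σ := σ0) (by rw [pow_one]; exact hσ0) h1
  obtain ⟨E, hE1, -, hE2, hE3⟩ := hσ0.inter
  have hF1 : (Fz p 1).index = p - 1 := by rw [Fz_index 0, pow_zero, one_mul]
  have hF2 : (Fz p 2).relIndex (Fz p 1) = p := by
    have h2 := Subgroup.relIndex_mul_index (Fz_le (p := p) (show 1 ≤ 2 by norm_num))
    rw [hF1, Fz_index 1, pow_one] at h2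
    exact Nat.eq_of_mul_eq_mul_right (Nat.sub_pos_of_lt hp.out.one_lt) h2
  haveI hN : (Fz p 2).Normal := (Fz_mem (S := {p}) (Finset.mem_singleton_self p) 2).1
  have hinf : E ⊓ Fz p 1 = Fz p 2 := by
    apply le_antisymm
    · rintro g ⟨g1, g2⟩
      have h3 : g ^ (p - 1) ∈ Fz p 2 := by
        rw [← hE3.relIndex]
        exact Subgroup.pow_relIndex_mem _ g1
      have h4 : g ^ p ∈ Fz p 2 := by
        conv => enter [2]; rw [← hF2]
        exact Subgroup.pow_relIndex_mem _ g2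
      have h5 : g = g ^ p * (g ^ (p - 1))⁻¹ := by
        have : g ^ p = g * g ^ (p - 1) := by
          rw [← pow_succ', Nat.sub_add_cancel hp.out.one_lt.le]
        rw [this, mul_inv_cancel_right]
      rw [h5]
      exact mul_mem h4 (inv_mem h3)
    · exact le_inf hE1 (Fz_le (by norm_num))
  obtain ⟨d, hd, hd'⟩ : ∃ d ∈ Fz p 1, d ∉ E := by
    by_contra hcon
    push Not at hcon
    have h3 : Fz p 1 ≤ Fz p 2 := by
      rw [← hinf]; exact le_inf hcon le_rfl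
    rw [Subgroup.relIndex_eq_one.2 h3] at hF2
    exact hp.out.one_lt.ne hF2
  have hcd := hE2.change (Subgroup.mem_top d) hd'
  refine ⟨E, d, hE1, hcd, hd, hinf, hE3.relIndex, ?_⟩
  rw [← NG_indep hE2 hcd]
  rw [pow_one, ← nm_tower] at hnm
  refine ⟨_, ?_, hnm⟩
  refine hE3.NG_le ⟨mk0 (1 - ζ) h1, mem_FA'.2 fun g hg => ?_, rfl⟩
  rw [← vl_inj, vl_ac, vl_mk0, map_sub, map_one, (mem_Fz_iff hζ).1 hg]

end Fermat.Agent.CFT
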