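import Fermat.Agent.CFT.Gl20

/-!
# The reciprocity law over the rational numbers
-/

set_option autoImplicit false
set_option linter.unusedSectionVars false
set_option linter.unusedVariables false
set_option linter.style.haveILetI false

namespace Fermat.Agent.CFT

open Module Polynomial
open scoped Pointwise

variable {p : ℕ} [hp : Fact p.Prime]

/-- a nontrivial symbol -/
theorem loc_symbol (hp2 : p ≠ 2) {A : Pl} {W : Subgroup GQ} (hW : IsLoc A W) (hμ : MuF p W) :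
    ∃ α β x z, KR p SL W α x ∧ KR p SL W β z ∧ ¬ TrP p SL W (cup α β) := by
  have h1 := index_FA hW hp2 (p := p) fun g hg ζ hζ => hμ.root g hg ζ hζ
  have h2 : (mulN p (FA W)).range.index ≠ 1 := by
    rw [h1]
    exact (Nat.one_lt_pow (by omega) hp.out.one_lt).ne'
  have h3 : ∃ z ∈ FA W, ∀ t ∈ FA W, p • t ≠ z := by
    by_contra hcon
    push Not at hcon
    refine h2 (AddSubgroup.index_eq_one.2 ?_)
    rw [eq_top_iff]
    rintro ⟨z, hz⟩ -
    obtain ⟨t, ht, htz⟩ := hcon z hz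
    exact ⟨⟨t, ht⟩, Subtype.ext htz⟩
  obtain ⟨z, hz, hzt⟩ := h3
  obtain ⟨y, hy⟩ := exists_proot (p := p) z
  have hyW : y ∉ FA W := fun h => hzt y h hy
  obtain ⟨σ, h4, h5⟩ := kummer_cyc hμ (by rw [hy]; exact hz) hyW
  have hL : IsLoc A (St W y) := hW.St y
  have h6 := norm_index hp2 h5 hW hL
  obtain ⟨t, ht, htN⟩ : ∃ t ∈ FA W, t ∉ Cyc.NG p (St W y) σ := by
    by_contra hcon
    push Not at hcon
    have := AddSubgroup.relIndex_eq_one.2 (show FA W ≤ Cyc.NG p (St W y) σ from hcon)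
    rw [h6] at this
    exact hp.out.one_lt.ne' this
  subst hy
  obtain ⟨α, hα⟩ := SL_KR hμ hz
  obtain ⟨β, hβ⟩ := SL_KR hμ ht
  exact ⟨α, β, _, _, hα, hβ, fun h =>
    htN ((symbol_trivial_iff hW hμ h5 (mem_FA_St W y) h4 hL hα hβ).1 h)⟩

/-- local classes are split by every cyclic extension of degree `p` -/
theorem loc_kill (hp2 : p ≠ 2) {A : Pl} {W : Subgroup GQ} (hW : IsLoc A W) (hμ : MuF p W)
    {c : GQ → GQ → GQ → ZMod p} (hc : C2 (tr p) SL W c) (hd : d2 c = 0) {Wu : Subgroup GQ} {σu : GQ}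
    (hu : Cyc p W Wu σu) (hWu : IsLoc A Wu) : TrP p SL Wu c := by
  obtain ⟨α, β, x, z, hα, hβ, hn⟩ := loc_symbol hp2 hW hμ
  obtain ⟨l, l', hl, hT⟩ := loc_comb hp2 hW hμ hc (cup_c2 hα.c1 hβ.c1) hd (cup_cocycle hα.cocycle hβ.cocycle)
  have h1 := symbol_unram hp2 hW hμ hα hβ hu hWu
  have inv : ∀ {V : Subgroup GQ} {e : GQ → GQ → GQ → ZMod p} {k : ℕ}, ¬ p ∣ k → TrP p SL V (k • e) →
      TrP p SL V e := by
    intro V e k hk h
    have hk0 : (k : ZMod p) ≠ 0 := fun h' => hk ((ZMod.natCast_eq_zero_iff _ _).1 h')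
    have h2 := h.nsmul (((k : ZMod p)⁻¹).val)
    rw [smul_smul] at h2
    have h3 : (((k : ZMod p)⁻¹).val * k) • e = e := by
      funext a b c
      simp only [Pi.smul_apply, nsmul_eq_mul]
      push_cast
      rw [ZMod.natCast_zmod_val, inv_mul_cancel₀ hk0, one_mul]
    rwa [h3] at h2
  by_cases hpl : p ∣ l
  · exfalso
    have h2 : ¬ p ∣ l' := fun h => hl ⟨hpl, h⟩
    refine hn (inv h2 ?_)
    have h3 : l • c = 0 := by
      obtain ⟨k, rfl⟩ := hpl
      funext a b c'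
      simp
    rwa [h3, zero_add] at hT
  · refine inv hpl ?_
    have h2 := (hT.mono hu.le).add (h1.nsmul l').neg
    have h3 : l • c + l' • cup α β + -(l' • cup α β) = l • c := by abel
    rwa [h3] at h2

/-- local generators -/
theorem exists_gen_loc {P P1 : Subgroup GQ} {σ : GQ} (hσ : Cyc p P P1 σ) {D : Subgroup GQ} (hD : D ≤ P)
    (hs : ¬ D ≤ P1) : ∃ τ ∈ D, σ⁻¹ * τ ∈ P1 ∧ τ ∉ P1 := by
  obtain ⟨d, hd, hd'⟩ := Set.not_subset.1 hs
  obtain ⟨u, hu, i, -, hui⟩ := (hσ.change (hD hd) hd').exists_pow hσ.mem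
  have hτ1 : σ⁻¹ * d ^ i ∈ P1 := by
    have : σ⁻¹ * d ^ i = σ⁻¹ * u⁻¹ * σ := by
      have h6 : d ^ i = u⁻¹ * σ := by rw [hui]; group
      rw [h6]; group
    rw [this]
    exact hσ.conj_inv' hσ.mem _ (inv_mem hu)
  have hσP1 : σ ∉ P1 := fun h6 => by
    have := (hσ.pow 1).1 (by rwa [pow_one])
    exact hp.out.one_lt.ne' (Nat.dvd_one.1 this)
  refine ⟨d ^ i, D.pow_mem hd i, hτ1, fun h6 => hσP1 (by
    have h7 : σ = d ^ i * (σ⁻¹ * d ^ i)⁻¹ := by group
    rw [h7]; exact mul_mem h6 (inv_mem hτ1))⟩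

/-- orders of natural numbers -/
theorem ord_nat_fact (A : Pl) {n : ℕ} (hn : n ≠ 0) : A.ord (n : Qb) = n.factorization A.ell := by
  have h1 := Nat.ordProj_mul_ordCompl_eq_self n A.ell
  have h2 := Nat.not_dvd_ordCompl A.ell_prime hn
  conv_lhs => rw [← h1]
  push_cast
  have h3 : ((n / A.ell ^ n.factorization A.ell : ℕ) : Qb) ≠ 0 := Nat.cast_ne_zero.2 fun h => by
    rw [h] at h2; exact h2 (dvd_zero _)
  rw [A.ord_mul (pow_ne_zero _ A.ell_ne_zero) h3, A.ord_pow A.ell_ne_zero, A.ord_ell, A.ord_nat h2]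
  ring

/-- the element of a natural number -/
noncomputable def nM (n : ℕ) : Ma := if h : n = 0 then 0 else mk0 (n : Qb) (Nat.cast_ne_zero.2 h)

theorem vl_nM {n : ℕ} (hn : n ≠ 0) : vl (nM n) = n := by
  rw [nM, dif_neg hn, vl_mk0]

theorem nM_mem (n : ℕ) (V : Subgroup GQ) : nM n ∈ FA V := by
  by_cases hn : n = 0
  · rw [nM, dif_pos hn]; exact zero_mem _
  · intro g _
    rw [vl_nM hn, map_natCast]

theorem nM_mul {a b : ℕ} (ha : a ≠ 0) (hb : b ≠ 0) : nM (a * b) = nM a + nM b := by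
  rw [← vl_inj, vl_add, vl_nM ha, vl_nM hb, vl_nM (mul_ne_zero ha hb)]
  push_cast; rfl

theorem nM_pow {a : ℕ} (ha : a ≠ 0) (k : ℕ) : nM (a ^ k) = k • nM a := by
  rw [← vl_inj, vl_nsmul, vl_nM ha, vl_nM (pow_ne_zero _ ha)]
  push_cast; rfl

section Good

variable {A : Pl} (hA : A.ell = p) (hp2 : p ≠ 2)

include hA hp2 in
/-- primes congruent to a root of unity modulo `p²` are `p`-th powers locally -/
theorem good_pow {l : ℕ} (hl : l.Prime) (hg : p ^ 2 ∣ l ^ (p - 1) - 1) : nM l ∈ pFA p (Dec A) := by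
  have hl0 := hl.ne_zero
  have h1 : 1 ≤ l ^ (p - 1) := Nat.one_le_pow _ _ hl.pos
  have hp3 : 3 ≤ p := by
    have := hp.out.two_le
    omega
  have hx1 : ((l ^ (p - 1) : ℕ) : Qb) ≠ 1 := fun h => by
    have h2 : l ^ (p - 1) = 1 := by exact_mod_cast h
    have h3 := (Nat.pow_eq_one.1 h2).resolve_right (by omega)
    exact hl.ne_one h3
  obtain ⟨k, hk⟩ := hg
  have hk0 : k ≠ 0 := by
    rintro rfl
    rw [mul_zero] at hk
    apply hx1
    have : l ^ (p - 1) = 1 := by omega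
    exact_mod_cast this
  have h2 : (1 : Qb) - ((l ^ (p - 1) : ℕ) : Qb) = -((p ^ 2 * k : ℕ) : Qb) := by
    rw [← hk, Nat.cast_sub h1]; push_cast; ring
  have h3 : (2 : ℚ) ≤ A.ord (1 - ((l ^ (p - 1) : ℕ) : Qb)) := by
    have h4 : A.ord (-((p ^ 2 * k : ℕ) : Qb)) = A.ord ((p ^ 2 * k : ℕ) : Qb) := by
      have h5 : -((p ^ 2 * k : ℕ) : Qb) = (-1) * ((p ^ 2 * k : ℕ) : Qb) := by ring
      rw [h5, A.ord_mul (by norm_num) (Nat.cast_ne_zero.2 (mul_ne_zero (pow_ne_zero _ hp.out.ne_zero) hk0)),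
        A.ord_pow_eq_one (n := 2) (by norm_num) (by norm_num), zero_add]
    rw [h2, h4, ord_nat_fact A (mul_ne_zero (pow_ne_zero _ hp.out.ne_zero) hk0), hA,
      Nat.factorization_mul (pow_ne_zero _ hp.out.ne_zero) hk0, hp.out.factorization_pow]
    simp
  obtain ⟨y, hy, -, hyf⟩ := A.exists_root (p := p) (x := ((l ^ (p - 1) : ℕ) : Qb)) (by
    refine lt_of_lt_of_le ?_ h3
    rw [Pl.eps, if_pos hA]
    have h5 : (3 : ℚ) ≤ p := by exact_mod_cast hp3
    rw [div_lt_iff₀ (by linarith)]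
    push_cast
    linarith) hx1
  have hy0 : y ≠ 0 := by
    rintro rfl
    rw [zero_pow hp.out.ne_zero] at hy
    exact pow_ne_zero (p - 1) (Nat.cast_ne_zero.2 hl0 : (l : Qb) ≠ 0) (by rw [hy]; push_cast; rfl)
  refine ⟨nM l - mk0 y hy0, (FA _).sub_mem (nM_mem l _) (fun g hg => ?_), ?_⟩
  · rw [vl_mk0]
    exact hyf g hg (map_natCast g _)
  · have h6 : p • mk0 y hy0 = nM (l ^ (p - 1)) := by
      rw [← vl_inj, vl_nsmul, vl_mk0, hy, vl_nM (pow_ne_zero _ hl0)]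
    rw [nsmul_sub, h6, nM_pow hl0]
    have h7 : p • nM l = (p - 1) • nM l + nM l := by
      rw [← succ_nsmul, Nat.sub_add_cancel hp.out.one_lt.le]
    rw [h7]; abel

end Good

end Fermat.Agent.CFT
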