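import Fermat.Agent.CFT.Gl21

/-!
# The reciprocity law over the rational numbers, II
-/

set_option autoImplicit false
set_option linter.unusedSectionVars false
set_option linter.unusedVariables false
set_option linter.style.haveILetI false

namespace Fermat.Agent.CFT

open Module Polynomial
open scoped Pointwise

variable {p : ℕ} [hp : Fact p.Prime]

theorem muF_Fz : MuF p (Fz p 1) := by
  intro g hg c
  rw [← vl_inj, vl_ac]
  refine hg _ ?_
  rw [pow_one, ← vl_nsmul, p_zt]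
  rfl

theorem ine_Fz {A : Pl} (hA : A.ell ≠ p) (n : ℕ) : Ine A ≤ Fz p n :=
  (Fz_mem (S := {p}) (Finset.mem_singleton_self p) n).2.2 A (fun h => hA (Finset.mem_singleton.1 h))

theorem nM_mem_of (N : AddSubgroup Ma) (hpN : nM p ∈ N) (hgood : ∀ l : ℕ, l.Prime → p ^ 2 ∣ l ^ (p - 1) - 1 → nM l ∈ N)
    (hpow : ∀ l : ℕ, p • nM l ∈ N) (n : ℕ) : n ≠ 0 →
    (∀ l : ℕ, l.Prime → l ≠ p → p ^ 2 ∣ l ^ (p - 1) - 1 ∨ p ∣ n.factorization l) → nM n ∈ N := by
  induction n using Nat.recOnPosPrimePosCoprime with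
  | prime_pow l k hl hk =>
    intro _ h
    rw [nM_pow hl.ne_zero]
    by_cases hlp : l = p
    · rw [hlp]; exact N.nsmul_mem hpN k
    · rcases h l hl hlp with h1 | h1
      · exact N.nsmul_mem (hgood l hl h1) k
      · rw [hl.factorization_pow, Finsupp.single_eq_same] at h1
        obtain ⟨j, rfl⟩ := h1
        rw [mul_comm, mul_smul]
        exact N.nsmul_mem (hpow l) j
  | zero => intro h; exact absurd rfl h
  | one =>
    intro _ _
    have : nM 1 = 0 := by rw [← vl_inj, vl_nM one_ne_zero, Nat.cast_one]; rfl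
    rw [this]; exact N.zero_mem
  | coprime a b ha hb hab iha ihb =>
    intro _ h
    have ha0 : a ≠ 0 := by omega
    have hb0 : b ≠ 0 := by omega
    rw [nM_mul ha0 hb0]
    have key : ∀ l : ℕ, l.Prime → l ≠ p → p ^ 2 ∣ l ^ (p - 1) - 1 ∨
        (p ∣ a.factorization l ∧ p ∣ b.factorization l) := by
      intro l hl hlp
      rcases h l hl hlp with h1 | h1
      · exact Or.inl h1
      · right
        rw [Nat.factorization_mul ha0 hb0, Finsupp.add_apply] at h1
        have h2 : a.factorization l = 0 ∨ b.factorization l = 0 := by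
          by_contra hcon
          push Not at hcon
          have h3 : l ∣ a := Nat.dvd_of_factorization_pos hcon.1
          have h4 : l ∣ b := Nat.dvd_of_factorization_pos hcon.2
          exact hl.one_lt.ne' (Nat.dvd_one.1 (hab ▸ Nat.dvd_gcd h3 h4))
        rcases h2 with h2 | h2
        · rw [h2, zero_add] at h1; rw [h2]; exact ⟨dvd_zero _, h1⟩
        · rw [h2, add_zero] at h1; rw [h2]; exact ⟨h1, dvd_zero _⟩
    refine N.add_mem (iha ha0 fun l hl hlp => ?_) (ihb hb0 fun l hl hlp => ?_)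
    · exact (key l hl hlp).imp id And.left
    · exact (key l hl hlp).imp id And.right

/-- **The reciprocity law.** -/
theorem recip (hp2 : p ≠ 2) {c : GQ → GQ → GQ → ZMod p} (hz : C2 ac SL ⊤ (z2 p c))
    (hcF : C2 (tr p) SL (Fz p 1) c) (hd : d2 c = 0)
    (hloc : ∀ A : Pl, A.ell ≠ p → TrP p SL (Fz p 1 ⊓ Dec A) c) (A : Pl) (hA : A.ell = p) :
    TrP p SL (Fz p 1 ⊓ Dec A) c := by
  obtain ⟨E, σ, hE1, hσ, hσF, hEF, hidx, hpN⟩ := exists_E hp2
  have hμ1 := muF_Fz (p := p)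
  have h21 : Fz p 2 ≤ Fz p 1 := Fz_le (by norm_num)
  have hμ2 := hμ1.mono h21
  have hEo : IsOpen (E : Set GQ) := Subgroup.isOpen_mono hE1 (Fz_open 2)
  have hED : ∀ A : Pl, E ⊓ (Fz p 1 ⊓ Dec A) = Fz p 2 ⊓ Dec A := fun A => by rw [← inf_assoc, hEF]
  -- `E` is not split at `p`
  have hns : ∀ A : Pl, A.ell = p → ¬ Fz p 1 ⊓ Dec A ≤ E := by
    intro A hA h
    have h1 : Fz p 1 ⊓ Dec A ≤ Fz p 2 := by rw [← hEF]; exact le_inf h inf_le_left
    have h2 := Subgroup.relIndex_le_of_le_left (L := Dec A) h1 (isLoc_inf (Fz_open 1) A).relIndex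
    rw [Subgroup.inf_relIndex_right, (Fz_relIndex hA 0).1, (Fz_relIndex hA 1).1, pow_one, pow_zero, one_mul] at h2
    have h3 : 0 < p - 1 := Nat.sub_pos_of_lt hp.out.one_lt
    have h4 := hp.out.two_le
    nlinarith
  -- the class is split by `E`
  have hR1 : TrP p SL (Fz p 2) c := by
    refine hasse_H2 hp2 (Fz_open 2) hμ2 (hcF.mono h21) hd fun A => ?_
    by_cases hA : A.ell = p
    · obtain ⟨τ, hτ, hτ1, hτE⟩ := exists_gen_loc hσ le_top (hns A hA)
      have hc1 := hσ.inf (D := Fz p 1 ⊓ Dec A) ⟨Subgroup.mem_top _, hτ⟩ hτE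
      rw [top_inf_eq] at hc1
      have := loc_kill hp2 (isLoc_inf (Fz_open 1) A) (hμ1.mono inf_le_left) (hcF.mono inf_le_left) hd hc1
        (by rw [hED]; exact isLoc_inf (Fz_open 2) A)
      rwa [hED] at this
    · exact (hloc A hA).mono (inf_le_inf_right _ h21)
  obtain ⟨b, hb, hbc⟩ : ∃ b, C1 ac SL E b ∧ d1 b = z2 p c := by
    refine descend_gen (p := p) hE1 ?_ ?_ (hz.mono le_top) ?_ ((trP_SL hμ2 c).1 hR1)
    · rw [hidx]; exact (Nat.sub_pos_of_lt hp.out.one_lt).ne'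
    · rw [hidx]
      intro h
      have := Nat.le_of_dvd (Nat.sub_pos_of_lt hp.out.one_lt) h
      have := hp.out.two_le
      omega
    · funext x y w
      exact p_zt p _
  obtain ⟨z, hzQ, hZ⟩ := exists_ZR hσ SL_open hz hb hbc
  -- local structure
  have hloc2 : ∀ A : Pl, ¬ Fz p 1 ⊓ Dec A ≤ E → ∃ τ, σ⁻¹ * τ ∈ E ∧ τ ∉ E ∧
      Cyc p (Fz p 1 ⊓ Dec A) (E ⊓ (Fz p 1 ⊓ Dec A)) τ ∧ ZR SL p (E ⊓ (Fz p 1 ⊓ Dec A)) τ (z2 p c) z := by
    intro A hA
    obtain ⟨τ, hτ, hτ1, hτE⟩ := exists_gen_loc hσ le_top hA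
    have hc1 := hσ.inf (D := Fz p 1 ⊓ Dec A) ⟨Subgroup.mem_top _, hτ⟩ hτE
    rw [top_inf_eq] at hc1
    exact ⟨τ, hτ1, hτE, hc1, hZ.res hσ hτ1⟩
  have hdiv : ∀ A : Pl, A.ell ≠ p → ¬ Fz p 1 ⊓ Dec A ≤ E → ∃ k : ℤ, od A z = p * k := by
    intro A hA hs
    obtain ⟨τ, -, -, hc1, hZ1⟩ := hloc2 A hs
    obtain ⟨b', hb', hbc'⟩ := (trP_SL (hμ1.mono inf_le_left) c).1 (hloc A hA)
    have h1 := hZ1.norm hc1 SL_open hb' hbc'
    have hl1 := isLoc_inf (Fz_open (p := p) 1) A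
    have hl2 : IsLoc A (E ⊓ (Fz p 1 ⊓ Dec A)) := by rw [hED]; exact isLoc_inf (Fz_open 2) A
    have hI1 : Ine A ≤ Fz p 1 ⊓ Dec A := le_inf (ine_Fz hA 1) Ine_le_Dec
    have hI2 : Ine A ≤ E ⊓ (Fz p 1 ⊓ Dec A) := by rw [hED]; exact le_inf (ine_Fz hA 2) Ine_le_Dec
    have hsv : SameVal A (Fz p 1 ⊓ Dec A) (E ⊓ (Fz p 1 ⊓ Dec A)) := fun x hx => by
      obtain ⟨i, hi⟩ := int_ord hl2 hI2 hx
      refine ⟨i • ellM A, (FA _).zsmul_mem (ellM_mem _) i, ?_⟩
      change od A (i • ellM A) = _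
      rw [map_zsmul, od_apply, ord_ellM, zsmul_eq_mul, mul_one, hi]
    obtain ⟨-, y, hy, hyz⟩ := NG_le_OG hc1 inf_le_right hsv h1
    obtain ⟨k, hk⟩ := int_ord hl1 hI1 hy
    exact ⟨k, by rw [od_apply, hyz, hk]⟩
  -- primes which do not split
  have hprime : ∀ l : ℕ, l.Prime → l ≠ p → ¬ p ^ 2 ∣ l ^ (p - 1) - 1 → ∃ A : Pl, A.ell = l ∧
      ¬ Fz p 1 ⊓ Dec A ≤ E := by
    intro l hl hlp hg
    obtain ⟨A, hA⟩ := exists_place l hl
    refine ⟨A, hA, fun h => hg ?_⟩
    have h1 : Fz p 1 ⊓ Dec A ≤ Fz p 2 := by rw [← hEF]; exact le_inf h inf_le_left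
    obtain ⟨Φ, hΦ⟩ := exists_isFr A
    haveI hN : (Fz p 1).Normal := (Fz_mem (S := {p}) (Finset.mem_singleton_self p) 1).1
    have h2 : Φ ^ (p - 1) ∈ Fz p 1 := by
      have := Subgroup.pow_index_mem (Fz p 1) Φ
      rwa [Fz_index 0, pow_zero, one_mul] at this
    have h3 := h1 ⟨h2, (Dec A).pow_mem hΦ.1 (p - 1)⟩
    obtain ⟨ζ, hζ⟩ := exists_primZ p 2
    have hN' : ¬ A.ell ∣ p ^ 2 := fun h => hlp (by
      rw [hA] at h
      exact (Nat.prime_dvd_prime_iff_eq hl hp.out).1 (hl.dvd_of_dvd_pow h))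
    have h4 := hΦ.root hN' hζ.pow_eq_one (p - 1)
    rw [(mem_Fz_iff hζ).1 h3, hA] at h4
    have h5 : ζ ^ (l ^ (p - 1) - 1) = 1 := by
      have h6 : ζ * ζ ^ (l ^ (p - 1) - 1) = ζ * 1 := by
        rw [← pow_succ', Nat.sub_add_cancel (Nat.one_le_pow _ _ hl.pos), mul_one]
        exact h4.symm
      exact mul_left_cancel₀ (hζ.ne_zero (pow_ne_zero _ hp.out.ne_zero)) h6
    exact hζ.dvd_of_pow_eq_one _ h5
  -- the conclusion at `p`
  obtain ⟨τ, hτ1, hτE, hc1, hZ1⟩ := hloc2 A (hns A hA)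
  set D1 := Fz p 1 ⊓ Dec A with hD1
  set N := Cyc.NG p (E ⊓ D1) τ with hN
  have hpF : pFA p (Dec A) ≤ N := by
    rintro _ ⟨t, ht, rfl⟩
    exact ⟨t, FA_mono (inf_le_right.trans inf_le_right) ht, Cyc.nm_of_mem ht hc1.mem.2⟩
  have hpM : nM p ∈ N := by
    obtain ⟨x, hx, hxp⟩ := hpN
    refine ⟨x, FA_mono inf_le_left hx, ?_⟩
    rw [nm_indep (hσ.change (Subgroup.mem_top τ) hτE) hσ hx, hxp, ← vl_inj, vl_nM hp.out.ne_zero, pM, vl_mk0]
  have hnat := nM_mem_of N hpM (fun l hl hg => hpF (good_pow hA hp2 hl hg))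
    (fun l => hpF ⟨nM l, nM_mem l _, rfl⟩)
  obtain ⟨r, hr⟩ := mem_rat_of_fixed (x := vl z) fun g => hzQ g (Subgroup.mem_top g)
  have hr0 : r ≠ 0 := by
    rintro rfl
    exact vl_ne_zero z (by rw [← hr, Rat.cast_zero])
  have hnum : r.num.natAbs ≠ 0 := Int.natAbs_ne_zero.2 (Rat.num_ne_zero.2 hr0)
  have hden : r.den ≠ 0 := r.den_nz
  -- `z` up to sign
  set s := z - nM r.num.natAbs + nM r.den with hs
  have hvs : vl s = ((r * r.den / r.num.natAbs : ℚ) : Qb) := by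
    rw [hs, vl_add, sub_eq_add_neg, vl_add, vl_neg, vl_nM hnum, vl_nM hden, ← hr]
    push_cast
    ring
  have hsq : vl s = 1 ∨ vl s = -1 := by
    rw [hvs, Rat.mul_den_eq_num]
    have hn0 : (r.num.natAbs : ℚ) ≠ 0 := Nat.cast_ne_zero.2 hnum
    rcases Int.natAbs_eq r.num with h | h
    · left
      have h1 : ((r.num : ℤ) : ℚ) = (r.num.natAbs : ℚ) := by
        conv_lhs => rw [h]
        exact Int.cast_natCast _
      rw [h1, div_self hn0]
      exact Rat.cast_one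
    · right
      have h1 : ((r.num : ℤ) : ℚ) = -(r.num.natAbs : ℚ) := by
        conv_lhs => rw [h]
        rw [Int.cast_neg, Int.cast_natCast]
      rw [h1, neg_div, div_self hn0, Rat.cast_neg, Rat.cast_one]
  have hsN : s ∈ N := by
    refine hpF ⟨s, fun g _ => ?_, ?_⟩
    · rw [hvs]; exact map_ratCast g _
    · rw [← vl_inj, vl_nsmul]
      rcases hsq with h | h
      · rw [h, one_pow]
      · rw [h, Odd.neg_one_pow (hp.out.odd_of_ne_two hp2)]
  have hzN : z ∈ N := by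
    have e1 : z = s + nM r.num.natAbs - nM r.den := by rw [hs]; abel
    -- the conditions on the orders
    have key : ∀ l : ℕ, l.Prime → l ≠ p → p ^ 2 ∣ l ^ (p - 1) - 1 ∨
        (p ∣ r.num.natAbs.factorization l ∧ p ∣ r.den.factorization l) := by
      intro l hl hlp
      by_cases hg : p ^ 2 ∣ l ^ (p - 1) - 1
      · exact Or.inl hg
      · right
        obtain ⟨B, hB, hBs⟩ := hprime l hl hlp hg
        obtain ⟨k, hk⟩ := hdiv B (by rw [hB]; exact hlp) hBs
        have h1 : od B s = 0 := by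
          refine od_tors (n := 2) (by norm_num) ?_
          rw [← vl_inj, vl_nsmul]
          rcases hsq with h | h <;> rw [h] <;> norm_num <;> rfl
        rw [e1, map_sub, map_add, h1, od_apply, od_apply, vl_nM hnum, vl_nM hden, ord_nat_fact B hnum,
          ord_nat_fact B hden, hB, zero_add] at hk
        have hcop := r.reduced
        have h2 : r.num.natAbs.factorization l = 0 ∨ r.den.factorization l = 0 := by
          by_contra hcon
          push Not at hcon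
          have h3 : l ∣ r.num.natAbs := Nat.dvd_of_factorization_pos hcon.1
          have h4 : l ∣ r.den := Nat.dvd_of_factorization_pos hcon.2
          exact hl.one_lt.ne' (Nat.dvd_one.1 (hcop ▸ Nat.dvd_gcd h3 h4))
        have h5 : ((r.num.natAbs.factorization l : ℤ) - (r.den.factorization l : ℤ)) = p * k := by exact_mod_cast hk
        rcases h2 with h2 | h2
        · rw [h2] at h5 ⊢
          refine ⟨dvd_zero _, ?_⟩
          have h6 : ((r.den.factorization l : ℕ) : ℤ) = p * (-k) := by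
            push_cast at h5; linarith
          exact_mod_cast (Dvd.intro _ h6.symm)
        · rw [h2] at h5 ⊢
          refine ⟨?_, dvd_zero _⟩
          have h6 : ((r.num.natAbs.factorization l : ℕ) : ℤ) = p * k := by
            push_cast at h5 ⊢; linarith
          exact_mod_cast (Dvd.intro _ h6.symm)
    rw [e1]
    refine N.sub_mem (N.add_mem hsN (hnat _ hnum fun l hl hlp => ?_)) (hnat _ hden fun l hl hlp => ?_)
    · exact (key l hl hlp).imp id And.left
    · exact (key l hl hlp).imp id And.right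
  rw [trP_SL (hμ1.mono inf_le_left)]
  refine hZ1.trivial hc1 ⟨Fz p 2, ⟨(Fz_mem (S := {p}) (Finset.mem_singleton_self p) 2).1, Fz_open 2⟩, ?_⟩ hzN
  rw [hED]
  exact le_inf inf_le_left (inf_le_right.trans inf_le_right)

end Fermat.Agent.CFT
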