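import Fermat.Agent.CFT.Gl22
import Fermat.Prelude.Def_ExtCitation_KummerBridge

/-!
# The local class at `p` with cyclotomic coefficients
-/

set_option autoImplicit false
set_option linter.unusedSectionVars false
set_option linter.unusedVariables false
set_option linter.style.haveILetI false

namespace Fermat.Agent.CFT

open Module
open scoped Pointwise

section Gen

variable {k : Type} [Field k] {G H : Type} [Group G] [Group H] {S : Sys G} {ι : H →* G}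
  {X : Type} [MulAction G X] {M : Type} [AddCommGroup M] [Module k M] {ρ : Representation k H M}

theorem cv_equiv3 (F : (cochCx S ι ρ X).X 2) (h : H) (a : X) (x y z : G) :
    cv F (ι h • a) ![ι h * x, ι h * y, ι h * z] = ρ h (cv F a ![x, y, z]) := by
  rw [← vmul3]; exact (cv_mem F).1 h a _

theorem exists_level2 (F : (cochCx S ι ρ X).X 2) : ∃ V ∈ S.carrier, ∀ a x y z, ∀ v ∈ V, ∀ v' ∈ V,
    ∀ v'' ∈ V, cv F a ![x * v, y * v', z * v''] = cv F a ![x, y, z] := by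
  obtain ⟨V, hV, h⟩ := (cv_mem F).2
  refine ⟨V, hV, fun a x y z v hv v' hv' v'' hv'' => (h a _ _ fun i => ?_).symm⟩
  fin_cases i
  · change x⁻¹ * (x * v) ∈ V
    rwa [inv_mul_cancel_left]
  · change y⁻¹ * (y * v') ∈ V
    rwa [inv_mul_cancel_left]
  · change z⁻¹ * (z * v'') ∈ V
    rwa [inv_mul_cancel_left]

theorem exists_level1' (F : (cochCx S ι ρ X).X 1) : ∃ V ∈ S.carrier, ∀ a x y, ∀ v ∈ V, ∀ v' ∈ V,
    cv F a ![x * v, y * v'] = cv F a ![x, y] := by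
  obtain ⟨V, hV, h⟩ := (cv_mem F).2
  refine ⟨V, hV, fun a x y v hv v' hv' => (h a _ _ fun i => ?_).symm⟩
  fin_cases i
  · change x⁻¹ * (x * v) ∈ V
    rwa [inv_mul_cancel_left]
  · change y⁻¹ * (y * v') ∈ V
    rwa [inv_mul_cancel_left]

theorem exists_mk2 {f : G → G → G → M} (h1 : ∀ h x y z, f (ι h * x) (ι h * y) (ι h * z) = ρ h (f x y z))
    (h2 : ∃ V ∈ S.carrier, ∀ x y z, ∀ v ∈ V, ∀ v' ∈ V, ∀ v'' ∈ V, f (x * v) (y * v') (z * v'') = f x y z) :
    ∃ F : (cochCx S ι ρ Unit).X 2, ∀ x y z, cv F () ![x, y, z] = f x y z := by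
  obtain ⟨V, hV, h⟩ := h2
  have hl : ∀ {x y : G}, x⁻¹ * y ∈ V → ∃ v ∈ V, y = x * v := fun {x y} h => ⟨_, h, by simp⟩
  refine ⟨mkc (fun _ x => f (x 0) (x 1) (x 2)) ⟨fun g a x => h1 _ _ _ _, V, hV, fun a x y hxy => ?_⟩,
    fun x y z => rfl⟩
  beta_reduce
  obtain ⟨v, hv, hv'⟩ := hl (hxy 0)
  obtain ⟨w, hw, hw'⟩ := hl (hxy 1)
  obtain ⟨u, hu, hu'⟩ := hl (hxy 2)
  rw [hv', hw', hu', h _ _ _ v hv w hw u hu]

theorem cv_d_two (F : (cochCx S ι ρ X).X 2) (a : X) (x y z w : G) :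
    cv ((cochCx S ι ρ X).d 2 F) a ![x, y, z, w] =
      cv F a ![y, z, w] - cv F a ![x, z, w] + cv F a ![x, y, w] - cv F a ![x, y, z] := by
  rw [cv_d, dfun_two_apply]

theorem cv_d_one (F : (cochCx S ι ρ X).X 1) (a : X) (x y z : G) :
    cv ((cochCx S ι ρ X).d 1 F) a ![x, y, z] =
      cv F a ![y, z] - cv F a ![x, z] + cv F a ![x, y] := by
  rw [cv_d, dfun_one_apply]

end Gen

variable (p : ℕ) [hp : Fact p.Prime]

/-- the cyclotomic character modulo `p` -/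
noncomputable def χQ : Representation (ZMod p) GQ (ZMod p) where
  toFun g := LinearMap.lsmul (ZMod p) (ZMod p) (ExtCitation.cycloChar p g : ZMod p)
  map_one' := by
    rw [map_one]
    exact LinearMap.ext fun x => one_mul x
  map_mul' g h := by
    rw [map_mul, Units.val_mul]
    exact LinearMap.ext fun x => mul_assoc _ _ x

variable {p}

theorem χQ_apply (g : GQ) (c : ZMod p) : χQ p g c = (ExtCitation.cycloChar p g : ZMod p) * c := rfl

theorem χQ_mul (g : GQ) (a b : ZMod p) : χQ p g (a * b) = a * χQ p g b := by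
  rw [χQ_apply, χQ_apply]; ring

theorem ac_zt (g : GQ) (c : ZMod p) : ac g (zt p c) = zt p (χQ p g c) := by
  have h1 : ∀ x : Ma, p • x = 0 → ac g x = (ExtCitation.cycloChar p g : ZMod p).val • x := by
    intro x hx
    rw [← vl_inj, vl_ac, vl_nsmul]
    haveI : NeZero p := ⟨hp.out.ne_zero⟩
    have hx1 : vl x ^ p = 1 := by rw [← vl_nsmul, hx]; rfl
    have h2 : (Additive.toMul x : Qbˣ) ∈ rootsOfUnity p Qb := by
      rw [mem_rootsOfUnity, ← Units.val_inj, Units.val_pow_eq_pow_val]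
      exact hx1
    have h3 := modularCyclotomicCharacter.spec (L := Qb) (g := (g : Qb ≃+* Qb))
      (n := p) (ExtCitation.card_rootsOfUnity_eq_self p) h2
    exact h3
  rw [h1 _ (p_zt p c), ← map_nsmul, χQ_apply]
  congr 1
  rw [nsmul_eq_mul, ZMod.natCast_zmod_val]

theorem χQ_Fz {g : GQ} (hg : g ∈ Fz p 1) (c : ZMod p) : χQ p g c = c :=
  zt_injective p ((ac_zt g c).symm.trans (muF_Fz g hg c))

/-- the action on `ZMod p` through the cyclotomic character -/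
noncomputable def amx (p : ℕ) [hp : Fact p.Prime] : GQ →* AddMonoid.End (ZMod p) where
  toFun g := (χQ p g).toAddMonoidHom
  map_one' := by rw [map_one]; rfl
  map_mul' g h := by rw [map_mul]; rfl

theorem amx_apply (g : GQ) (c : ZMod p) : amx p g c = χQ p g c := rfl

section

variable {A : Pl} (hA : A.ell = p) (hp2 : p ≠ 2)
include hA

theorem relIndex_D1 : (Fz p 1 ⊓ Dec A).relIndex (Dec A) = p - 1 := by
  rw [Subgroup.inf_relIndex_right, (Fz_relIndex hA 0).1, pow_zero, one_mul]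

/-- An unramified cocycle of order `p` over the decomposition group. -/
theorem exists_unr_char : ∃ (W'' : Subgroup GQ) (τ : GQ → ZMod p), W'' ≤ Dec A ∧ IsLoc A W'' ∧
    W''.relIndex (Dec A) = p ∧ SameVal A (Dec A) W'' ∧ C1 (tr p) SL (Dec A) (d0 τ) ∧
    ∀ w ∈ Dec A, (w ∈ W'' ↔ d0 τ 1 w = 0) := by
  have hD := isLoc_Dec A
  obtain ⟨n, hn, hn2⟩ := exists_large hD p hp.out.ne_zero
  obtain ⟨m, σ, hσ⟩ := exists_cyc_RR (le_refl (Dec A)) hn
  obtain ⟨m2, rfl⟩ := hn2 m σ hσ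
  obtain ⟨W'', h1, h2, h3, h4⟩ := hσ.inter
  have hL : IsLoc A W'' := hD.of_le (hD.inf_RR hn) h1 h2
  have hS : ∃ V ∈ SL.carrier, V ⊓ Dec A ≤ W'' := by
    obtain ⟨N, hN, hN2⟩ := hL.op
    obtain ⟨V, hV, hVN⟩ := SL_exists hN
    exact ⟨V, hV, fun g hg => hN2 ⟨hg.2, hVN hg.1⟩⟩
  obtain ⟨τ, t1, t2, t3, t4⟩ := h3.exists_tau hS
  obtain ⟨ψ, ψ1, ψ2⟩ := h3.exists_char
  have t5 := t4 ψ ψ1 ψ2
  refine ⟨W'', τ, h2, hL, h3.relIndex, (sameVal_RR le_rfl hn hσ).mono_left h1, ⟨?_, ?_⟩, ?_⟩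
  · intro w hw x y
    have e1 := t5 ⟨w, hw⟩ x
    have e2 := t5 ⟨w, hw⟩ y
    change τ (w * x) = _ at e1
    change τ (w * y) = _ at e2
    change τ (w * y) - τ (w * x) = τ y - τ x
    rw [e1, e2]; ring
  · obtain ⟨V, hV, h⟩ := t3
    exact ⟨V, hV, fun x y v hv v' hv' => by
      change τ (y * v') - τ (x * v) = τ y - τ x
      rw [h y v' hv', h x v hv]⟩
  · intro w hw
    have e1 := t5 ⟨w, hw⟩ 1
    change τ (w * 1) = _ at e1
    rw [mul_one] at e1
    change _ ↔ τ w - τ 1 = 0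
    rw [e1, add_sub_cancel_right, ψ1 ⟨w, hw⟩]
    exact Iff.rfl

omit hA in
/-- The Kummer cocycle of `p`. -/
theorem exists_beta : ∃ β : GQ → GQ → ZMod p, C1 (amx p) SL ⊤ β ∧ d1 β = 0 ∧
    ∀ D : Subgroup GQ, MuF p D → KR p SL D β (pM p) := by
  have hpM : pM p ∈ FA (⊤ : Subgroup GQ) := fun g _ => by
    rw [pM, vl_mk0, map_natCast]
  obtain ⟨Y, hY, hYp⟩ := SL_root (p := p) (W := ⊤) (fun _ => pM p) (C0.const hpM)
  have hYp' : ∀ x, p • Y x = pM p := fun x => congrFun hYp x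
  have hβ : ∀ x y, ∃ c, zt p c = Y y - Y x := fun x y => exists_zt_eq p (by
    rw [nsmul_sub, hYp', hYp', sub_self])
  choose β hβ using hβ
  have hsm : ∃ V ∈ SL.carrier, ∀ x y, ∀ v ∈ V, ∀ v' ∈ V, β (x * v) (y * v') = β x y := by
    obtain ⟨V, hV, h⟩ := hY.sm
    refine ⟨V, hV, fun x y v hv v' hv' => zt_injective p ?_⟩
    rw [hβ, hβ, h x v hv, h y v' hv']
  refine ⟨β, ⟨fun w hw x y => zt_injective p ?_, hsm⟩, ?_, fun D hD => ⟨⟨fun w hw x y => zt_injective p ?_, hsm⟩,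
    Y, hY.mono le_top, hYp', hβ⟩⟩
  · rw [hβ, amx_apply, ← ac_zt, hβ, hY.eq w hw, hY.eq w hw, map_sub]
  · funext x y z
    apply zt_injective p
    change zt p (β y z - β x z + β x y) = zt p 0
    rw [map_add, map_sub, hβ, hβ, hβ, map_zero]
    abel
  · rw [hβ, tr_apply, hY.eq w (Subgroup.mem_top w), hY.eq w (Subgroup.mem_top w), ← map_sub, ← hβ, hD w hw]

omit hA in
theorem od_nm {m : ℕ} {σ : GQ} (hσ : σ ∈ Dec A) (x : Ma) : od A (Cyc.nm m σ x) = m * od A x := by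
  unfold Cyc.nm
  rw [map_sum, Finset.sum_congr rfl fun i _ => od_ac_dec ((Dec A).pow_mem hσ i) x, Finset.sum_const,
    Finset.card_range, nsmul_eq_mul]

/-- **The local class at `p`.** -/
theorem local_class (hp2 : p ≠ 2) : ∃ c : GQ → GQ → GQ → ZMod p, C2 (amx p) SL (Dec A) c ∧ d2 c = 0 ∧
    ¬ TrP p SL (Fz p 1 ⊓ Dec A) c := by
  obtain ⟨W'', τ, hWD, hWL, hWi, hv, hα, hτ⟩ := exists_unr_char hA
  obtain ⟨β, hβ, hdβ, hK⟩ := exists_beta (p := p)
  set D1 := Fz p 1 ⊓ Dec A with hD1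
  have hμ : MuF p D1 := muF_Fz.mono inf_le_left
  have hD1L : IsLoc A D1 := isLoc_inf (Fz_open 1) A
  have hD1i : D1.relIndex (Dec A) = p - 1 := relIndex_D1 hA
  have hp1 := hp.out.two_le
  refine ⟨cup (d0 τ) β, ⟨fun w hw x y z => ?_, ?_⟩, cup_cocycle (d1_d0 τ) hdβ, fun ht => ?_⟩
  · change d0 τ (w * x) (w * y) * β (w * y) (w * z) = χQ p w (d0 τ x y * β y z)
    rw [hα.eq w hw, hβ.eq w (Subgroup.mem_top w), χQ_mul]
    rfl
  · obtain ⟨V1, hV1, h1⟩ := hα.sm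
    obtain ⟨V2, hV2, h2⟩ := hβ.sm
    obtain ⟨V, hV, hle1, hle2⟩ := SL.directed V1 hV1 V2 hV2
    exact ⟨V, hV, fun x y z v hv v' hv' v'' hv'' => by
      change d0 τ (x * v) (y * v') * β (y * v') (z * v'') = _
      rw [h1 x y v (hle1 hv) v' (hle1 hv'), h2 y z v' (hle2 hv') v'' (hle2 hv'')]
      rfl⟩
  · obtain ⟨z', hz'⟩ := exists_KR_of_cocycle hμ SL_open (hα.mono (inf_le_right : D1 ≤ Dec A)) (d1_d0 τ)
    obtain ⟨Y, hY, hYz, hYτ⟩ := hz'.ex
    set y := Y 1 with hy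
    have hyp : p • y = z' := hYz 1
    have hact : ∀ w ∈ D1, ac w y = y + zt p (d0 τ 1 w) := fun w hw => by
      rw [hYτ, ← hY.eq w hw, mul_one]; abel
    have hSt : St D1 y ≤ W'' := by
      intro w hw
      rw [mem_St] at hw
      rw [hτ w hw.1.2]
      have h1 := hact w hw.1
      rw [hw.2] at h1
      exact (zt_eq_zero p).1 (left_eq_add.1 h1)
    have hy' : y ∉ FA D1 := by
      intro h
      have h1 : D1 ≤ W'' := fun w hw => hSt ⟨hw, mem_FA'.1 h w hw⟩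
      have h2 := Subgroup.relIndex_mul_relIndex D1 W'' (Dec A) h1 hWD
      rw [hWi, hD1i] at h2
      have h3 : p ∣ p - 1 := ⟨_, by rw [← h2, mul_comm]⟩
      have := Nat.le_of_dvd (by omega) h3
      omega
    obtain ⟨σ, hσy, hσ⟩ := kummer_cyc hμ (by rw [hyp]; exact hz'.mem) hy'
    rw [← hyp] at hz'
    have h1 := (symbol_trivial_iff hD1L hμ hσ (mem_FA_St D1 y) hσy (hD1L.St y) hz' (hK D1 hμ)).1 ht
    obtain ⟨x, hx, hxp⟩ := h1
    have h2 : (p : ℚ) * od A x = 1 := by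
      rw [← od_nm (A := A) hσ.mem.2, hxp, od_apply, pM, vl_mk0, Pl.ord_p, Pl.eps, if_pos hA, Nat.cast_one]
    -- the norm down to `W''`
    have hVL : IsLoc A (St D1 y) := hD1L.St y
    have hidx : (St D1 y).relIndex W'' = p - 1 := by
      have e1 := Subgroup.relIndex_mul_relIndex (St D1 y) W'' (Dec A) hSt hWD
      have e2 := Subgroup.relIndex_mul_relIndex (St D1 y) D1 (Dec A) (St_le _ _) inf_le_right
      rw [hσ.relIndex, hD1i] at e2
      rw [hWi, ← e2, mul_comm] at e1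
      exact Nat.eq_of_mul_eq_mul_left hp.out.pos e1
    haveI : Finite (W'' ⧸ (St D1 y).subgroupOf W'') := by
      have : ((St D1 y).subgroupOf W'').index ≠ 0 := by
        change (St D1 y).relIndex W'' ≠ 0
        rw [hidx]; omega
      haveI : ((St D1 y).subgroupOf W'').FiniteIndex := ⟨this⟩
      infer_instance
    have h3 := ord_NmC hWD (V := St D1 y) (vl_ne_zero x)
    have h4 : NmC (St D1 y) W'' (vl x) ≠ 0 := NmC_ne_zero (vl_ne_zero x)
    have h5 : mk0 _ h4 ∈ FA W'' := fun g hg => by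
      rw [vl_mk0]
      exact NmC_fixed hx ⟨g, hg⟩
    obtain ⟨t, ht1, ht2⟩ := hv _ h5
    obtain ⟨k, hk⟩ := Pl.exists_ord_int A (vl_ne_zero t) ht1
    rw [vl_mk0, h3, hidx, hk] at ht2
    rw [od_apply] at h2
    have h6 : ((p - 1 : ℕ) : ℚ) = p * k := by
      rw [ht2]
      calc ((p - 1 : ℕ) : ℚ) = ((p - 1 : ℕ) : ℚ) * (p * A.ord (vl x)) := by rw [h2, mul_one]
        _ = _ := by ring
    have h7 : ((p - 1 : ℕ) : ℤ) = p * k := by exact_mod_cast h6
    have h8 : p ∣ p - 1 := by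
      have : (p : ℤ) ∣ ((p - 1 : ℕ) : ℤ) := ⟨k, h7⟩
      exact_mod_cast this
    have := Nat.le_of_dvd (by omega) h8
    omega

end

end Fermat.Agent.CFT
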