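import Fermat.Agent.CFT.Gl23
import Fermat.Agent.CFT.Gl18
import Fermat.Agent.CFT.E7

/-!
# The lower bound for `T³` of the roots of unity
-/

set_option autoImplicit false
set_option linter.unusedSectionVars false
set_option linter.unusedVariables false
set_option linter.style.haveILetI false

namespace Fermat.Agent.CFT

open Module
open scoped Pointwise

variable {p : ℕ} [hp : Fact p.Prime] {S : Finset ℕ}

theorem range_idG (K : Subgroup GQ) : ((idG GQ).comp K.subtype).range = K := by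
  ext g
  exact ⟨by rintro ⟨h, rfl⟩; exact h.2, fun h => ⟨⟨g, h⟩, rfl⟩⟩

/-- finiteness of the local cohomology -/
theorem fin_loc_χQ (hp2 : p ≠ 2) : Module.Finite (ZMod p) ((cochCx SL (idG GQ) (χQ p) (XS S)).H 2) := by
  set K := Fz p 1 with hK
  set ι := (idG GQ).comp K.subtype with hι
  have hr : ι.range = K := range_idG K
  have hinj : Function.Injective ι := Subtype.val_injective
  have hW : IsOpen (ι.range : Set GQ) := by rw [hr]; exact Fz_open 1
  have hμ : MuF p ι.range := by rw [hr]; exact muF_Fz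
  obtain ⟨sS, hsS⟩ := exists_Reps hW S
  have htr : ∀ g ∈ K, ∀ x, χQ p g x = x := fun g hg x => χQ_Fz hg x
  have hidx : (K.index : ZMod p) ≠ 0 := by
    rw [hK, Fz_index 0, pow_zero, one_mul, Ne, ZMod.natCast_eq_zero_iff]
    intro h
    have h1 := hp.out.two_le
    have := Nat.le_of_dvd (by omega) h
    omega
  haveI : Module.Finite (ZMod p) ((cochCx SL (idG GQ) (ci K ((χQ p).comp K.subtype)) (XS S)).H 2) := by
    rw [comp_triv htr]
    haveI := sl_fin2 (mkLoc hp2 hinj hW hμ hsS) (SG_SL (S := S))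
      (PO.top (S := SG S) (ι := (idG GQ).comp K.subtype))
      (χ1 (ZMod p) K) (fun u _ x => rfl) 2 le_rfl
    exact Module.Finite.equiv ((shapiro (S := SL) (ι := idG GQ) (X := XS S) K _).H 2).symm
  exact Module.Finite.of_surjective _ (tr_surj (S := SL) (X := XS S) K hidx (χQ p) 2)

theorem trP_of {b : GQ → GQ → ZMod p} {D : Subgroup GQ} {c : GQ → GQ → GQ → ZMod p}
    (h1 : ∀ w ∈ D, ∀ x y, b (w * x) (w * y) = χQ p w (b x y))
    (h2 : ∃ V ∈ SL.carrier, ∀ x y, ∀ v ∈ V, ∀ v' ∈ V, b (x * v) (y * v') = b x y) (h3 : d1 b = c) :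
    TrP p SL (Fz p 1 ⊓ D) c :=
  ⟨b, ⟨fun w hw x y => by rw [h1 w hw.2, χQ_Fz hw.1, tr_apply], h2⟩, h3⟩

/-- **The lower bound for `T³`.** -/
theorem t3Q (hp2 : p ≠ 2) (hpS : p ∈ S) :
    1 ≤ (loc (Sg := SG S) (Sl := SL) SG_SL (idG GQ) (XS S) (χQ p)).ck 2 := by
  by_contra hcon
  haveI := fin_loc_χQ (S := S) hp2
  have hsurj := (Cx.Hom.ck_eq_zero_iff (loc (Sg := SG S) (Sl := SL) SG_SL (idG GQ) (XS S) (χQ p)) 2).1
    (by omega)
  obtain ⟨A, hA⟩ := exists_place p hp.out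
  obtain ⟨c0, hc0, hd0, hn0⟩ := local_class hA hp2
  let a : XS S := ⟨A, by rw [hA]; exact hpS⟩
  -- the local cochain
  obtain ⟨F0, hF0⟩ := exists_mk2 (S := SL) (ι := (idG GQ).comp (stb (idG GQ) a).subtype)
    (ρ := (χQ p).comp (stb (idG GQ) a).subtype) (f := c0)
    (fun h x y z => hc0.eq h (congrArg Subtype.val h.2) x y z) hc0.sm
  have hF0c : (cochCx SL ((idG GQ).comp (stb (idG GQ) a).subtype)
      ((χQ p).comp (stb (idG GQ) a).subtype) Unit).d 2 F0 = 0 := by
    apply cv_injective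
    funext u x
    have e : x = ![x 0, x 1, x 2, x 3] := by funext j; fin_cases j <;> rfl
    rw [e, cv_d_two]
    rw [hF0, hF0, hF0, hF0]
    exact congrFun (congrFun (congrFun (congrFun hd0 (x 0)) (x 1)) (x 2)) (x 3)
  obtain ⟨u, hu⟩ := hsurj ((ptExt SL (idG GQ) (χQ p) a).H 2 (Cx.cl _ 2 F0 hF0c))
  obtain ⟨F, hF, rfl⟩ := Cx.exists_cl _ u
  rw [Cx.Hom.H_cl, Cx.Hom.H_cl, Cx.cl_eq_iff] at hu
  obtain ⟨E, hE⟩ := (Cx.mem_B_succ _).1 hu
  set c : GQ → GQ → GQ → ZMod p := fun x y z => cv F () ![x, y, z] with hc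
  have hcE : ∀ (b : XS S) x y z, c x y z = cv ((ptExt SL (idG GQ) (χQ p) a).f 2 F0) b ![x, y, z] +
      d1 (fun x y => cv E b ![x, y]) x y z := by
    intro b x y z
    have h1 := congrFun (congrFun (congrArg cv hE) b) ![x, y, z]
    rw [cv_d_one] at h1
    have h2 : cv ((loc (Sg := SG S) (Sl := SL) SG_SL (idG GQ) (XS S) (χQ p)).f 2 F -
      (ptExt SL (idG GQ) (χQ p) a).f 2 F0) b ![x, y, z] = c x y z -
        cv ((ptExt SL (idG GQ) (χQ p) a).f 2 F0) b ![x, y, z] := rfl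
    rw [h2] at h1
    rw [← sub_eq_iff_eq_add', ← h1]
    rfl
  have hEe : ∀ (b : XS S), ∀ w ∈ Dec (b : Pl), ∀ x y, cv E b ![w * x, w * y] = χQ p w (cv E b ![x, y]) := by
    intro b w hw x y
    have h1 := cv_equiv2 E w b x y
    have h2 : idG GQ w • b = b := Subtype.ext hw
    rw [h2] at h1
    exact h1
  have hEs : ∀ b : XS S, ∃ V ∈ SL.carrier, ∀ x y, ∀ v ∈ V, ∀ v' ∈ V, cv E b ![x * v, y * v'] = cv E b ![x, y] := by
    intro b
    obtain ⟨V, hV, h⟩ := exists_level1' E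
    exact ⟨V, hV, fun x y v hv v' hv' => h b x y v hv v' hv'⟩
  have hd : d2 c = 0 := by
    funext x y z w
    have h1 := congrFun (congrFun (congrArg cv hF) ()) ![x, y, z, w]
    rw [cv_d_two] at h1
    exact h1
  have hcS : ∃ V ∈ (SG S).carrier, ∀ x y z, ∀ v ∈ V, ∀ v' ∈ V, ∀ v'' ∈ V, c (x * v) (y * v') (z * v'') = c x y z := by
    obtain ⟨V, hV, h⟩ := exists_level2 F
    exact ⟨V, hV, fun x y z v hv v' hv' v'' hv'' => h () x y z v hv v' hv' v'' hv''⟩
  have hcL : ∃ V ∈ SL.carrier, ∀ x y z, ∀ v ∈ V, ∀ v' ∈ V, ∀ v'' ∈ V, c (x * v) (y * v') (z * v'') = c x y z := by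
    obtain ⟨V, hV, h⟩ := hcS
    obtain ⟨V', hV', hle⟩ := SG_SL V hV
    exact ⟨V', hV', fun x y z v hv v' hv' v'' hv'' => h x y z v (hle hv) v' (hle hv') v'' (hle hv'')⟩
  have hce : ∀ w x y z, c (w * x) (w * y) (w * z) = χQ p w (c x y z) := fun w x y z => cv_equiv3 F w () x y z
  have hcF : C2 (tr p) (SG S) (Fz p 1) c := ⟨fun w hw x y z => by rw [hce, χQ_Fz hw, tr_apply], hcS⟩
  have h1 := recip hp2 (c := c) ⟨fun w _ x y z => by
      change zt p _ = ac w (zt p _)
      rw [ac_zt, hce], by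
      obtain ⟨V, hV, h⟩ := hcL
      exact ⟨V, hV, fun x y z v hv v' hv' v'' hv'' => by
        change zt p _ = zt p _
        rw [h x y z v hv v' hv' v'' hv'']⟩⟩ hcF.toSL hd (fun B hB => ?_) A hA
  · refine hn0 ?_
    -- the class at `A`
    have h2 : TrP p SL (Fz p 1 ⊓ Dec A) (d1 fun x y => cv E a ![x, y]) := trP_of (hEe a) (hEs a) rfl
    have h3 : c + -(d1 fun x y => cv E a ![x, y]) = c0 := by
      funext x y z
      have h4 := hcE a x y z
      have h5 := cv_ptExt (S := SL) (ι := idG GQ) (ρ := χQ p) a F0 1 ![x, y, z]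
      rw [map_one, one_smul, map_one] at h5
      have h6 : (fun i => ((1 : GQ))⁻¹ * ![x, y, z] i) = ![x, y, z] := by
        funext i; rw [inv_one, one_mul]
      rw [h6, hF0] at h5
      change c x y z + -_ = _
      rw [h4, h5]
      simp
    rw [← h3]
    exact h1.add h2.neg
  · by_cases hBS : B.ell ∈ S
    · let b : XS S := ⟨B, hBS⟩
      refine trP_of (b := fun x y => cv E b ![x, y]) (hEe b) (hEs b) ?_
      funext x y z
      have h4 := hcE b x y z
      rw [cv_ptExt_of_not (S := SL) (ι := idG GQ) (ρ := χQ p) (a := a) (F := F0) (b := b) (hb := ?_), zero_add] at h4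
      · exact h4.symm
      · rintro ⟨g, hg⟩
        apply hB
        have := congrArg (fun t : XS S => (t : Pl).ell) hg
        change (g • A).ell = B.ell at this
        rw [Pl.ell_smul, hA] at this
        exact this.symm
    · exact unr_triv hp2 muF_Fz ⟨Fz p 1, Fz_mem hpS 1, le_rfl⟩ hcF hd hBS

end Fermat.Agent.CFT
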