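import Fermat.Agent.CFT.Gl24

/-!
# The duality data over the rational numbers
-/

set_option autoImplicit false
set_option linter.unusedSectionVars false
set_option linter.unusedVariables false
set_option linter.style.haveILetI false

namespace Fermat.Agent.CFT

open Module
open scoped Pointwise

variable {p : ℕ} [hp : Fact p.Prime] {S : Finset ℕ}

theorem muF_of {K : Subgroup GQ} (htr : ∀ g ∈ K, ∀ x, χQ p g x = x) : MuF p K := fun g hg c => by
  rw [ac_zt, htr g hg]

section

variable (hp2 : p ≠ 2) (hpS : p ∈ S) {K : Subgroup GQ} (hF : K.FiniteIndex) (hidx : (K.index : ZMod p) ≠ 0)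
  (hop : ∃ V ∈ (SG S).carrier, V ≤ K) (htr : ∀ g ∈ K, ∀ x, χQ p g x = x)

include hp2 hpS hF hidx hop htr

theorem t3_ge_K : 1 ≤ (lc p S ((idG GQ).comp K.subtype)).ck 2 := by
  have hr := range_idG K
  have hW : IsOpen (((idG GQ).comp K.subtype).range : Set GQ) := by rw [hr]; exact isOpen_of_SG hop
  have hμ : MuF p ((idG GQ).comp K.subtype).range := by rw [hr]; exact muF_of htr
  obtain ⟨sS, hsS⟩ := exists_Reps hW S
  have h1 := Cx.Hom.ck_iso (loc (SG_SL (S := S)) (idG GQ) (XS S) (ci K ((χQ p).comp K.subtype)))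
    (loc (SG_SL (S := S)) ((idG GQ).comp K.subtype) (XS S) ((χQ p).comp K.subtype))
    (shapiro K _) (shapiro K _) (fun n x => rfl) 2
  rw [comp_triv htr] at h1
  change 1 ≤ (loc (SG_SL (S := S)) ((idG GQ).comp K.subtype) (XS S) (χ1 (ZMod p) K)).ck 2
  rw [← h1, ← comp_triv htr]
  refine (t3Q hp2 hpS).trans ?_
  haveI : Module.Finite (ZMod p) ((cochCx SL (idG GQ) (ci K ((χQ p).comp K.subtype)) (XS S)).H 2) := by
    rw [comp_triv htr]
    haveI := sl_fin2 (mkLoc hp2 (Subtype.val_injective : Function.Injective ((idG GQ).comp K.subtype)) hW hμ hsS)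
      (SG_SL (S := S)) (PO.top (S := SG S) (ι := (idG GQ).comp K.subtype))
      (χ1 (ZMod p) K) (fun u _ x => rfl) 2 le_rfl
    exact Module.Finite.equiv ((shapiro (S := SL) (ι := idG GQ) (X := XS S) K _).H 2).symm
  exact Cx.Hom.ck_le _ _ (cochMap (ciTr K (χQ p)) (ciTr_equiv K (χQ p)))
    (cochMap (ciTr K (χQ p)) (ciTr_equiv K (χQ p))) (fun n x => rfl) 2
    (tr_surj (S := SL) (X := XS S) K hidx (χQ p) 2)

theorem exists_pre : Nonempty (PreGlob (p := p) (SG_SL (S := S)) (XS S) K) := by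
  have hr := range_idG K
  have hinj : Function.Injective ((idG GQ).comp K.subtype) := Subtype.val_injective
  have hop' : ∃ V ∈ (SG S).carrier, V ≤ ((idG GQ).comp K.subtype).range := by rw [hr]; exact hop
  have hW : IsOpen (((idG GQ).comp K.subtype).range : Set GQ) := isOpen_of_SG hop'
  have hμ : MuF p ((idG GQ).comp K.subtype).range := by rw [hr]; exact muF_of htr
  haveI := numberField_KW hW
  obtain ⟨m, hm, -, -⟩ := phi_units hW hp2 hμ
  obtain ⟨sS, hsS⟩ := exists_Reps hW S
  obtain ⟨F1, c1, -⟩ := chi_glob hp2 hpS hinj hop' hμ hm hsS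
  have ht : (lc p S ((idG GQ).comp K.subtype)).ck 2 = 1 :=
    le_antisymm (ck_le_one hp2 hpS hinj hop' hμ) (t3_ge_K hp2 hpS hF hidx hop htr)
  rw [ht] at c1
  have c1' : (TC p (SG S) ((idG GQ).comp K.subtype)).chi = -(m : ℤ) := by rw [c1]; push_cast; ring
  have hle : ∀ U : Subgroup K, PO (SG S) ((idG GQ).comp K.subtype) p U →
      (lc p S (((idG GQ).comp K.subtype).comp U.subtype)).ck 2 ≤ 1 := fun U hU =>
    ck_le_one hp2 hpS (hinj.comp Subtype.val_injective) (hop_comp_sub hop' hU) (mu_comp_sub hμ U)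
  refine ⟨{ mkLoc hp2 hinj hW hμ hsS with A := m, baseG := ?_, sumA := ?_, t3le := hle }⟩
  · intro U hU
    have hop2 := hop_comp_sub hop' hU
    have hμ2 := mu_comp_sub hμ U
    have hinj2 : Function.Injective (((idG GQ).comp K.subtype).comp U.subtype) := hinj.comp Subtype.val_injective
    obtain ⟨sS', hsS'⟩ := exists_Reps (isOpen_of_SG hop2) S
    obtain ⟨F2, c2, -⟩ := chi_glob hp2 hpS hinj2 hop2 hμ2 (m := U.index * m)
      (by rw [index_comp_sub hinj U, hm]; ring) hsS'
    haveI := hU.normal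
    haveI := hU.finiteIndex
    obtain ⟨-, h3⟩ := chi_le' F1 c1' hU _
      (CI U (Representation.trivial (ZMod p) U (ZMod p))) (ci U _) (trivOn_ci hU.normal) rfl
    rw [(shapiro (S := SG S) (ι := (idG GQ).comp K.subtype) (X := Unit) U _).chi_eq, finrank_CI,
      finrank_self, mul_one] at h3
    change (TC p (SG S) (((idG GQ).comp K.subtype).comp U.subtype)).chi ≤ _ at h3
    refine ⟨F2, ?_⟩
    change (TC p (SG S) (((idG GQ).comp K.subtype).comp U.subtype)).chi = _
    rw [c2] at h3 ⊢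
    have h4 := hle U hU
    push_cast at h3 ⊢
    have h5 : ((lc p S (((idG GQ).comp K.subtype).comp U.subtype)).ck 2 : ℤ) ≤ 1 := by exact_mod_cast h4
    nlinarith
  · have := sum_nn hp2 hinj hW hμ hsS hpS
    rw [hm] at this
    push_cast at this
    exact this

end

/-- **The duality data over the rational numbers.** -/
noncomputable def qData (hp2 : p ≠ 2) (hpS : p ∈ S) : QData (SG_SL (S := S)) (XS S) (χQ p) where
  lev := ⟨Fz p 1, Fz_mem hpS 1, fun h hh x => χQ_Fz hh x⟩
  pre K hF hidx hop htr := (exists_pre hp2 hpS hF hidx hop htr).some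
  t3Q := t3Q hp2 hpS

/-- **Duality.** -/
theorem sha_duality (hp2 : p ≠ 2) (hpS : p ∈ S) {M : Type} [AddCommGroup M] [Module (ZMod p) M]
    [Module.Finite (ZMod p) M] (ρ : Representation (ZMod p) GQ M) (hρ : HasLevel (SG S) (idG GQ) ρ) :
    (loc (SG_SL (S := S)) (idG GQ) (XS S) ρ).sh 2 = (loc (SG_SL (S := S)) (idG GQ) (XS S) (dl (χQ p) ρ)).sh 1 :=
  q_duality (qData hp2 hpS) ρ hρ

end Fermat.Agent.CFT
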