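import Fermat.Agent.CFT.LH4
import Fermat.Agent.CFT.DimF

/-!
# Comparison of the cochain complexes, `H¹`, local Euler characteristic
-/

set_option autoImplicit false
set_option linter.unusedSectionVars false
set_option linter.unusedVariables false
set_option linter.style.haveILetI false

namespace Fermat.Agent.CFT

open Module

variable {p : ℕ} [hp : Fact p.Prime]

section Cmp

variable {H : Type} [Group H] {S : Sys GQ} {ι : H →* GQ}

/-- the trivial complex -/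
noncomputable abbrev TC (p : ℕ) [Fact p.Prime] (S : Sys GQ) (ι : H →* GQ) : Cx.{0, 0} (ZMod p) :=
  cochCx S ι (Representation.trivial (ZMod p) H (ZMod p)) Unit

theorem sm_of {n : ℕ} {F : Unit → (Fin (n + 1) → GQ) → ZMod p} {V : Subgroup GQ} (hVn : V.Normal)
    (h : ∀ a x y, (∀ i, (x i)⁻¹ * y i ∈ V) → F a x = F a y) : True := trivial

theorem C0.ofX (F : (TC p S ι).X 0) : C0 (tr p) S ι.range (fun x => cv F () ![x]) := by
  obtain ⟨h1, V, hV, h2⟩ := cv_mem F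
  refine ⟨?_, V, hV, fun x v hv => ?_⟩
  · rintro _ ⟨h, rfl⟩ x
    rw [tr_apply, ← Representation.trivial_apply (ZMod p) (V := ZMod p) h (cv F () ![x]), ← h1]
    congr 1; funext i; fin_cases i; rfl
  · refine (h2 () _ _ fun i => ?_).symm
    fin_cases i
    simpa using hv

theorem C1.ofX (F : (TC p S ι).X 1) : C1 (tr p) S ι.range (fun x y => cv F () ![x, y]) := by
  obtain ⟨h1, V, hV, h2⟩ := cv_mem F
  refine ⟨?_, V, hV, fun x y v hv v' hv' => ?_⟩
  · rintro _ ⟨h, rfl⟩ x y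
    rw [tr_apply, ← Representation.trivial_apply (ZMod p) (V := ZMod p) h (cv F () ![x, y]), ← h1]
    congr 1; funext i; fin_cases i <;> rfl
  · refine (h2 () _ _ fun i => ?_).symm
    fin_cases i
    · simpa using hv
    · simpa using hv'

theorem C2.ofX (F : (TC p S ι).X 2) : C2 (tr p) S ι.range (fun x y z => cv F () ![x, y, z]) := by
  obtain ⟨h1, V, hV, h2⟩ := cv_mem F
  refine ⟨?_, V, hV, fun x y z v hv v' hv' v'' hv'' => ?_⟩
  · rintro _ ⟨h, rfl⟩ x y z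
    rw [tr_apply, ← Representation.trivial_apply (ZMod p) (V := ZMod p) h (cv F () ![x, y, z]), ← h1]
    congr 1; funext i; fin_cases i <;> rfl
  · refine (h2 () _ _ fun i => ?_).symm
    fin_cases i
    · simpa using hv
    · simpa using hv'
    · simpa using hv''

theorem inv_mul_mem_iff {V : Subgroup GQ} {x y : GQ} (h : x⁻¹ * y ∈ V) : ∃ v ∈ V, y = x * v :=
  ⟨_, h, by group⟩

theorem C0.toX {f : GQ → ZMod p} (hf : C0 (tr p) S ι.range f) :
    ∃ F : (TC p S ι).X 0, ∀ x, cv F () ![x] = f x := by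
  obtain ⟨V, hV, h⟩ := hf.sm
  refine ⟨mkc (fun _ x => f (x 0)) ⟨fun g a x => ?_, V, hV, fun a x y hxy => ?_⟩, fun x => rfl⟩
  · beta_reduce
    rw [hf.eq _ ⟨g, rfl⟩]; rfl
  · beta_reduce
    obtain ⟨v, hv, hv'⟩ := inv_mul_mem_iff (hxy 0)
    rw [hv', h _ v hv]

theorem C1.toX {f : GQ → GQ → ZMod p} (hf : C1 (tr p) S ι.range f) :
    ∃ F : (TC p S ι).X 1, ∀ x y, cv F () ![x, y] = f x y := by
  obtain ⟨V, hV, h⟩ := hf.sm
  refine ⟨mkc (fun _ x => f (x 0) (x 1)) ⟨fun g a x => ?_, V, hV, fun a x y hxy => ?_⟩, fun x y => rfl⟩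
  · beta_reduce
    rw [hf.eq _ ⟨g, rfl⟩]; rfl
  · beta_reduce
    obtain ⟨v, hv, hv'⟩ := inv_mul_mem_iff (hxy 0)
    obtain ⟨w, hw, hw'⟩ := inv_mul_mem_iff (hxy 1)
    rw [hv', hw', h _ _ v hv w hw]

theorem C2.toX {f : GQ → GQ → GQ → ZMod p} (hf : C2 (tr p) S ι.range f) :
    ∃ F : (TC p S ι).X 2, ∀ x y z, cv F () ![x, y, z] = f x y z := by
  obtain ⟨V, hV, h⟩ := hf.sm
  refine ⟨mkc (fun _ x => f (x 0) (x 1) (x 2)) ⟨fun g a x => ?_, V, hV, fun a x y hxy => ?_⟩,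
    fun x y z => rfl⟩
  · beta_reduce
    rw [hf.eq _ ⟨g, rfl⟩]; rfl
  · beta_reduce
    obtain ⟨v, hv, hv'⟩ := inv_mul_mem_iff (hxy 0)
    obtain ⟨w, hw, hw'⟩ := inv_mul_mem_iff (hxy 1)
    obtain ⟨u, hu, hu'⟩ := inv_mul_mem_iff (hxy 2)
    rw [hv', hw', hu', h _ _ _ v hv w hw u hu]

theorem X_ext1 {F F' : (TC p S ι).X 1} (h : ∀ x y, cv F () ![x, y] = cv F' () ![x, y]) : F = F' :=
  cv_injective (funext2 fun _ x y => h x y)

theorem X_ext0 {F F' : (TC p S ι).X 0} (h : ∀ x, cv F () ![x] = cv F' () ![x]) : F = F' :=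
  cv_injective (funext1 fun _ x => h x)

theorem X_ext2 {F F' : (TC p S ι).X 2} (h : ∀ x y z, cv F () ![x, y, z] = cv F' () ![x, y, z]) :
    F = F' :=
  cv_injective (funext3 fun _ x y z => h x y z)

theorem d0_ofX (F : (TC p S ι).X 0) (x y : GQ) : cv ((TC p S ι).d 0 F) () ![x, y] =
    d0 (fun x => cv F () ![x]) x y := by
  rw [cv_d, dfun_zero_apply]; rfl

theorem d1_ofX (F : (TC p S ι).X 1) (x y z : GQ) : cv ((TC p S ι).d 1 F) () ![x, y, z] =
    d1 (fun x y => cv F () ![x, y]) x y z := by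
  rw [cv_d, dfun_one_apply]; rfl

theorem d2_ofX (F : (TC p S ι).X 2) (x y z w : GQ) : cv ((TC p S ι).d 2 F) () ![x, y, z, w] =
    d2 (fun x y z => cv F () ![x, y, z]) x y z w := by
  rw [cv_d, dfun_two_apply]; rfl

theorem mem_B1_iff (F : (TC p S ι).X 1) : F ∈ (TC p S ι).B 1 ↔
    ∃ f, C0 (tr p) S ι.range f ∧ d0 f = fun x y => cv F () ![x, y] := by
  rw [Cx.mem_B_succ]
  constructor
  · rintro ⟨E, rfl⟩
    refine ⟨_, C0.ofX E, ?_⟩
    funext x y
    exact (d0_ofX E x y).symm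
  · rintro ⟨f, hf, hd⟩
    obtain ⟨E, hE⟩ := hf.toX
    refine ⟨E, X_ext1 fun x y => ?_⟩
    rw [d0_ofX, ← congrFun (congrFun hd x) y]
    simp only [d0, hE]

theorem mem_B2_iff (F : (TC p S ι).X 2) : F ∈ (TC p S ι).B 2 ↔
    TrP p S ι.range (fun x y z => cv F () ![x, y, z]) := by
  rw [Cx.mem_B_succ]
  constructor
  · rintro ⟨E, rfl⟩
    refine ⟨_, C1.ofX E, ?_⟩
    funext x y z
    exact (d1_ofX E x y z).symm
  · rintro ⟨f, hf, hd⟩
    obtain ⟨E, hE⟩ := hf.toX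
    refine ⟨E, X_ext2 fun x y z => ?_⟩
    rw [d1_ofX, ← congrFun (congrFun (congrFun hd x) y) z]
    simp only [d1, hE]

theorem d_one_iff (F : (TC p S ι).X 1) : (TC p S ι).d 1 F = 0 ↔ d1 (fun x y => cv F () ![x, y]) = 0 := by
  constructor
  · intro h
    funext x y z
    rw [← d1_ofX, h]; rfl
  · intro h
    apply X_ext2
    intro x y z
    rw [d1_ofX, h]; rfl

theorem d_two_iff (F : (TC p S ι).X 2) : (TC p S ι).d 2 F = 0 ↔ d2 (fun x y z => cv F () ![x, y, z]) = 0 := by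
  constructor
  · intro h
    funext x y z w
    rw [← d2_ofX, h]; rfl
  · intro h
    apply cv_injective
    funext a x
    have e : x = ![x 0, x 1, x 2, x 3] := by funext j; fin_cases j <;> rfl
    rw [e]
    have := d2_ofX F (x 0) (x 1) (x 2) (x 3)
    rw [h] at this
    exact this

end Cmp

/-! ### `H¹` via Kummer theory -/

section H1

variable {H : Type} [Group H] {S : Sys GQ} {ι : H →* GQ}

/-- elements with a Kummer cocycle of level in `S` -/
def VS (p : ℕ) [Fact p.Prime] (S : Sys GQ) (W : Subgroup GQ) : AddSubgroup Ma where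
  carrier := {z | ∃ α, KR p S W α z}
  add_mem' := by rintro a b ⟨α, hα⟩ ⟨β, hβ⟩; exact ⟨_, hα.add hβ⟩
  zero_mem' := ⟨0, C1.zero, 0, C0.zero, fun x => by simp, fun x y => by simp⟩
  neg_mem' := by rintro a ⟨α, hα⟩; exact ⟨_, hα.neg⟩

theorem mem_VS {W : Subgroup GQ} {z : Ma} : z ∈ VS p S W ↔ ∃ α, KR p S W α z := Iff.rfl

/-- `p`-th powers -/
def pFA (p : ℕ) (W : Subgroup GQ) : AddSubgroup Ma where
  carrier := {z | ∃ t ∈ FA W, p • t = z}
  add_mem' := by rintro _ _ ⟨a, ha, rfl⟩ ⟨b, hb, rfl⟩; exact ⟨a + b, add_mem ha hb, nsmul_add _ _ _⟩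
  zero_mem' := ⟨0, zero_mem _, nsmul_zero _⟩
  neg_mem' := by rintro _ ⟨a, ha, rfl⟩; exact ⟨-a, neg_mem ha, neg_nsmul _ _⟩

theorem mem_pFA {W : Subgroup GQ} {z : Ma} : z ∈ pFA p W ↔ ∃ t ∈ FA W, p • t = z := Iff.rfl

theorem VS_le {W : Subgroup GQ} : VS p S W ≤ FA W := by
  rintro z ⟨α, hα⟩; exact hα.mem

theorem pFA_le_VS {W : Subgroup GQ} : pFA p W ≤ VS p S W := by
  rintro _ ⟨t, ht, rfl⟩
  refine ⟨0, C1.zero, fun _ => t, C0.const ht, fun x => rfl, fun x y => ?_⟩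
  simp

/-- The Kummer isomorphism. -/
theorem card_H1 (hSo : ∀ V ∈ S.carrier, IsOpen (V : Set GQ)) (hμ : MuF p ι.range) :
    Nat.card ((TC p S ι).H 1) = (pFA p ι.range).relIndex (VS p S ι.range) := by
  classical
  choose α hα using fun z : VS p S ι.range => mem_VS.1 z.2
  have hF : ∀ z, ∃ F : (TC p S ι).X 1, ∀ x y, cv F () ![x, y] = α z x y := fun z => (hα z).c1.toX
  choose F hF using hF
  have hFα : ∀ z, (fun x y => cv (F z) () ![x, y]) = α z := fun z => by funext x y; exact hF z x y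
  have hFd : ∀ z, (TC p S ι).d 1 (F z) = 0 := fun z => (d_one_iff _).2 (by rw [hFα]; exact (hα z).cocycle)
  let φ : VS p S ι.range →+ (TC p S ι).H 1 := AddMonoidHom.mk' (fun z => (TC p S ι).cl 1 (F z) (hFd z)) (by
    intro a b
    change _ = (TC p S ι).cl 1 (F a + F b) _
    refine (Cx.cl_eq_iff _ _ _).2 ?_
    rw [mem_B1_iff]
    have h1 := (hα (a + b)).add ((hα a).add (hα b)).neg
    obtain ⟨f, hf, hd⟩ := (KR.triv_iff hμ h1).1 ⟨0, zero_mem _, by
      rw [nsmul_zero, AddSubgroup.coe_add, add_neg_cancel]⟩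
    refine ⟨f, hf, ?_⟩
    rw [hd]
    funext x y
    simp only [cv_sub, cv_add, Pi.sub_apply, Pi.add_apply, Pi.neg_apply, hF]
    ring)
  have hsurj : Function.Surjective φ := by
    intro c
    obtain ⟨E, hE, rfl⟩ := Cx.exists_cl _ c
    obtain ⟨z, hz⟩ := exists_KR_of_cocycle hμ hSo (C1.ofX E) ((d_one_iff _).1 hE)
    refine ⟨⟨z, _, hz⟩, ?_⟩
    change (TC p S ι).cl 1 _ _ = _
    refine (Cx.cl_eq_iff _ _ _).2 ?_
    rw [mem_B1_iff]
    have h1 := (hα ⟨z, _, hz⟩).add hz.neg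
    obtain ⟨f, hf, hd⟩ := (KR.triv_iff hμ h1).1 ⟨0, zero_mem _, by
      rw [nsmul_zero, add_neg_cancel]⟩
    refine ⟨f, hf, ?_⟩
    rw [hd]
    funext x y
    simp only [cv_sub, Pi.sub_apply, Pi.add_apply, Pi.neg_apply, hF]
    ring
  have hker : φ.ker = (pFA p ι.range).addSubgroupOf (VS p S ι.range) := by
    ext z
    rw [AddMonoidHom.mem_ker, AddSubgroup.mem_addSubgroupOf, mem_pFA, KR.triv_iff hμ (hα z)]
    change (TC p S ι).cl 1 _ _ = 0 ↔ _
    rw [Cx.cl_eq_zero, mem_B1_iff, hFα]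
  rw [AddSubgroup.relIndex, ← hker]
  exact (Nat.card_congr (QuotientAddGroup.quotientKerEquivOfSurjective φ hsurj).toEquiv).symm

theorem fin_H1 (hSo : ∀ V ∈ S.carrier, IsOpen (V : Set GQ)) (hμ : MuF p ι.range) {n : ℕ}
    (h : (pFA p ι.range).relIndex (VS p S ι.range) = p ^ n) :
    Module.Finite (ZMod p) ((TC p S ι).H 1) ∧ (TC p S ι).h 1 = n := by
  have h1 := card_H1 hSo hμ
  rw [h] at h1
  haveI : Finite ((TC p S ι).H 1) := Nat.finite_of_card_ne_zero (by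
    rw [h1]; exact pow_ne_zero _ hp.out.ne_zero)
  haveI : Module.Finite (ZMod p) ((TC p S ι).H 1) := Module.Finite.of_finite
  refine ⟨inferInstance, ?_⟩
  have h2 := Module.natCard_eq_pow_finrank (K := ZMod p) (V := (TC p S ι).H 1)
  rw [h1, Nat.card_zmod] at h2
  exact (Nat.pow_right_injective hp.out.two_le h2).symm

theorem fin_H0 : Module.Finite (ZMod p) ((TC p S ι).H 0) ∧ (TC p S ι).h 0 = 1 := by
  have e := H0Equiv (k := ZMod p) (S := S) (ι := ι) (ρ := Representation.trivial (ZMod p) H (ZMod p))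
  have h1 : inv (Representation.trivial (ZMod p) H (ZMod p)) = ⊤ := by
    rw [eq_top_iff]; intro x _; exact fun h => rfl
  have e2 : (TC p S ι).H 0 ≃ₗ[ZMod p] ZMod p :=
    e.trans ((LinearEquiv.ofEq _ _ h1).trans Submodule.topEquiv)
  refine ⟨Module.Finite.equiv e2.symm, ?_⟩
  rw [Cx.h, e2.finrank_eq, finrank_self]

end H1

section Local

variable {A : Pl} {H : Type} [Group H] {ι : H →* GQ}

theorem fin_H2_loc (hp2 : p ≠ 2) (hW : IsLoc A ι.range) (hμ : MuF p ι.range) :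
    Module.Finite (ZMod p) ((TC p SL ι).H 2) ∧ (TC p SL ι).h 2 = 1 := by
  obtain ⟨c, hc, hd, ht⟩ := loc_exists hp2 hW hμ
  obtain ⟨F, hF⟩ := hc.toX
  have hFc : (fun x y z => cv F () ![x, y, z]) = c := by funext x y z; exact hF x y z
  have hFd : (TC p SL ι).d 2 F = 0 := (d_two_iff _).2 (by rw [hFc]; exact hd)
  have hne : (TC p SL ι).cl 2 F hFd ≠ 0 := by
    rw [Ne, Cx.cl_eq_zero, mem_B2_iff, hFc]; exact ht
  have hall : ∀ w : (TC p SL ι).H 2, ∃ a : ZMod p, a • (TC p SL ι).cl 2 F hFd = w := by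
    intro w
    obtain ⟨E, hE, rfl⟩ := Cx.exists_cl _ w
    obtain ⟨l, l', hl, hT⟩ := loc_comb hp2 hW hμ hc (C2.ofX E) hd ((d_two_iff _).1 hE)
    have h1 : l • (TC p SL ι).cl 2 F hFd + l' • (TC p SL ι).cl 2 E hE = 0 := by
      change (TC p SL ι).cl 2 (l • F + l' • E) _ = 0
      rw [Cx.cl_eq_zero, mem_B2_iff]
      convert hT using 1
      rw [← hFc]
      rfl
    by_cases hl' : p ∣ l'
    · exfalso
      have h2 : (l' : ZMod p) = 0 := (ZMod.natCast_eq_zero_iff _ _).2 hl'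
      have h3 : (l : ZMod p) ≠ 0 := fun h => hl ⟨(ZMod.natCast_eq_zero_iff _ _).1 h, hl'⟩
      rw [← Nat.cast_smul_eq_nsmul (ZMod p) l', h2, zero_smul, add_zero,
        ← Nat.cast_smul_eq_nsmul (ZMod p) l] at h1
      exact hne ((smul_eq_zero.1 h1).resolve_left h3)
    · have h2 : (l' : ZMod p) ≠ 0 := fun h => hl' ((ZMod.natCast_eq_zero_iff _ _).1 h)
      refine ⟨-(l' : ZMod p)⁻¹ * l, ?_⟩
      rw [← Nat.cast_smul_eq_nsmul (ZMod p) l', ← Nat.cast_smul_eq_nsmul (ZMod p) l] at h1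
      rw [mul_smul, neg_smul, eq_neg_of_add_eq_zero_left h1, smul_neg, neg_neg, smul_smul,
        inv_mul_cancel₀ h2, one_smul]
  have h1 := (finrank_eq_one_iff' (K := ZMod p) (V := (TC p SL ι).H 2)).2 ⟨_, hne, hall⟩
  exact ⟨Module.finite_of_finrank_eq_succ h1, h1⟩

theorem VS_SL {W : Subgroup GQ} (hμ : MuF p W) : VS p SL W = FA W :=
  le_antisymm VS_le fun z hz => SL_KR hμ hz

theorem relIndex_pFA {W : Subgroup GQ} : (pFA p W).relIndex (FA W) = (mulN p (FA W)).range.index := by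
  have h1 : (pFA p W).addSubgroupOf (FA W) = (mulN p (FA W)).range := by
    ext z
    rw [AddSubgroup.mem_addSubgroupOf, mem_pFA]
    constructor
    · rintro ⟨t, ht, h⟩; exact ⟨⟨t, ht⟩, Subtype.ext h⟩
    · rintro ⟨t, rfl⟩; exact ⟨t, t.2, rfl⟩
  rw [AddSubgroup.relIndex, h1]

theorem base_loc (hp2 : p ≠ 2) (hι : Function.Injective ι) (hW : IsLoc A ι.range) (hμ : MuF p ι.range) :
    BaseHyp SL ι p ((ι.range.relIndex (Dec A) * A.eps p : ℕ) : ℤ) ∧
    ∀ U : Subgroup H, PO SL ι p U → (tc SL ι p U).h 2 = 1 := by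
  have key : ∀ U : Subgroup H, PO SL ι p U → IsLoc A (ι.comp U.subtype).range ∧
      MuF p (ι.comp U.subtype).range ∧ (ι.comp U.subtype).range.relIndex (Dec A) =
        U.index * ι.range.relIndex (Dec A) := by
    intro U hU
    have h1 : (ι.comp U.subtype).range = U.map ι := by
      rw [MonoidHom.range_comp, Subgroup.range_subtype]
    have hle : (ι.comp U.subtype).range ≤ ι.range := by rw [h1]; exact Subgroup.map_le_range _ _
    obtain ⟨V, hV, hVU⟩ := hU.isOpen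
    have h2 : IsLoc A (ι.comp U.subtype).range := by
      obtain ⟨N, hN, hNle⟩ := hW.op
      refine ⟨hle.trans hW.le, N ⊓ V, hN.inter (SL_open V hV), ?_⟩
      rintro g ⟨g1, g2, g3⟩
      obtain ⟨h, rfl⟩ := hNle ⟨g1, g2⟩
      exact ⟨⟨h, hVU g3⟩, rfl⟩
    refine ⟨h2, hμ.mono hle, ?_⟩
    have h3 : (ι.comp U.subtype).range.relIndex ι.range = U.index := by
      rw [h1, MonoidHom.range_eq_map, Subgroup.relIndex_map_map_of_injective _ _ hι, Subgroup.relIndex_top_right]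
    rw [← h3]
    exact (Subgroup.relIndex_mul_relIndex _ _ _ hle hW.le).symm
  constructor
  · intro U hU
    obtain ⟨h1, h2, h3⟩ := key U hU
    obtain ⟨f0, e0⟩ := fin_H0 (p := p) (S := SL) (ι := ι.comp U.subtype)
    obtain ⟨f2, e2⟩ := fin_H2_loc hp2 h1 h2
    obtain ⟨f1, e1⟩ := fin_H1 (S := SL) SL_open h2 (n := 2 + (ι.comp U.subtype).range.relIndex (Dec A) * A.eps p)
      (by rw [VS_SL h2, relIndex_pFA, index_FA h1 hp2 fun g hg ζ hζ => h2.root g hg ζ hζ])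
    refine ⟨fun n hn => ?_, ?_⟩
    · interval_cases n
      · exact f0
      · exact f1
      · exact f2
    · change ((TC p SL (ι.comp U.subtype)).h 0 : ℤ) - (TC p SL (ι.comp U.subtype)).h 1 +
        (TC p SL (ι.comp U.subtype)).h 2 = _
      rw [e0, e1, e2, h3]
      push_cast; ring
  · intro U hU
    obtain ⟨h1, h2, h3⟩ := key U hU
    exact (fin_H2_loc hp2 h1 h2).2

end Local

end Fermat.Agent.CFT
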