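import Fermat.Agent.CFT.Gl2
import Fermat.Agent.CFT.LH5

/-!
# `S`-units, II
-/

set_option autoImplicit false
set_option linter.unusedSectionVars false
set_option linter.unusedVariables false
set_option linter.style.haveILetI false

namespace Fermat.Agent.CFT

open Module NumberField Fermat.Agent.Places
open scoped Pointwise

section Cyc1

variable {p : ℕ} [hp : Fact p.Prime]

theorem phi_cyc {R : AddSubgroup ℚ} {d : ℕ} (hd : d ≠ 0) (hR : ∀ x ∈ R, ∃ m : ℤ, (d : ℚ) * x = m)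
    (hne : ∃ x ∈ R, x ≠ 0) : QF (mulN p R) ∧ qi (mulN p R) = p := by
  have hd0 : (d : ℚ) ≠ 0 := by exact_mod_cast hd
  let f : ℤ →+ ℚ :=
    { toFun := fun n => n / d
      map_zero' := by simp
      map_add' := fun a b => by push_cast; ring }
  obtain ⟨a, ha⟩ := Int.subgroup_cyclic (R.comap f)
  rw [← AddSubgroup.zmultiples_eq_closure] at ha
  have hr : R = AddSubgroup.zmultiples ((a : ℚ) / d) := by
    ext r
    constructor
    · intro hx
      obtain ⟨m, hm⟩ := hR r hx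
      have h1 : r = (m : ℚ) / d := by rw [← hm]; field_simp
      have h2 : m ∈ R.comap f := by
        rw [AddSubgroup.mem_comap]
        change (m : ℚ) / d ∈ R
        rw [← h1]; exact hx
      rw [ha, AddSubgroup.mem_zmultiples_iff] at h2
      obtain ⟨k, rfl⟩ := h2
      rw [h1, AddSubgroup.mem_zmultiples_iff]
      refine ⟨k, ?_⟩
      simp only [zsmul_eq_mul, smul_eq_mul]
      push_cast; ring
    · intro h
      rw [AddSubgroup.mem_zmultiples_iff] at h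
      obtain ⟨k, rfl⟩ := h
      have h1 : a ∈ R.comap f := by rw [ha]; exact AddSubgroup.mem_zmultiples a
      rw [AddSubgroup.mem_comap] at h1
      exact AddSubgroup.zsmul_mem _ h1 k
  have ha0 : (a : ℚ) / d ≠ 0 := by
    intro h0
    obtain ⟨x, hx, hx0⟩ := hne
    rw [hr, h0] at hx
    simp at hx
    exact hx0 hx
  have hinj : Function.Injective (zmultiplesHom ℚ ((a : ℚ) / d)) := fun m n h => by
    simp only [zmultiplesHom_apply, zsmul_eq_mul] at h
    have := mul_right_cancel₀ ha0 h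
    exact_mod_cast this
  have hran : (zmultiplesHom ℚ ((a : ℚ) / d)).range = R := by
    conv_rhs => rw [hr]
    rfl
  have e1 : ℤ ≃+ R := (AddMonoidHom.ofInjective hinj).trans (AddEquiv.addSubgroupCongr hran)
  have e2 : (Fin 1 → ℤ) ≃+ ℤ := (AddEquiv.funUnique (Fin 1) ℤ)
  obtain ⟨h1, h2⟩ := phi_pi p 1
  rw [QF_equiv p (e2.trans e1)] at h1
  rw [qi_equiv p (e2.trans e1)] at h2
  exact ⟨h1, by rw [h2]; simp⟩

end Cyc1

section Basics

variable {W : Subgroup GQ}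

theorem ord_fix {x : Ma} (hx : x ∈ FA W) {w : GQ} (hw : w ∈ W) (A : Pl) :
    (w • A).ord (vl x) = A.ord (vl x) := by
  have h1 := A.ord_smul w (vl_ne_zero x)
  rwa [← vl_ac, mem_FA'.1 hx w hw] at h1

theorem ord_ac (g : GQ) (A : Pl) (x : Ma) : (g • A).ord (vl (ac g x)) = A.ord (vl x) := by
  rw [vl_ac]; exact A.ord_smul g (vl_ne_zero x)

theorem isLoc_inf (hW : IsOpen (W : Set GQ)) (A : Pl) : IsLoc A (W ⊓ Dec A) :=
  ⟨inf_le_right, W, hW, fun g hg => ⟨hg.2, hg.1⟩⟩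

theorem ord_denom (hW : IsOpen (W : Set GQ)) (A : Pl) : ∃ d : ℕ, d ≠ 0 ∧ ∀ x ∈ FA W, ∃ m : ℤ,
    (d : ℚ) * A.ord (vl x) = m := by
  refine ⟨_, (isLoc_inf hW A).relIndex, fun x hx => ?_⟩
  exact ordH_int (isLoc_inf hW A) ⟨x, FA_mono inf_le_left hx⟩

/-- stability -/
def StP (W : Subgroup GQ) (T : Set Pl) : Prop := ∀ w ∈ W, ∀ A ∈ T, w • A ∈ T

theorem StP.mono {W' : Subgroup GQ} {T : Set Pl} (h : StP W T) (hle : W' ≤ W) : StP W' T :=
  fun w hw => h w (hle hw)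

theorem StP.compl {T : Set Pl} (h : StP W T) {w : GQ} (hw : w ∈ W) {A : Pl} (hA : A ∉ T) : w • A ∉ T :=
  fun h' => hA (by have := h w⁻¹ (inv_mem hw) _ h'; rwa [inv_smul_smul] at this)

/-- the order homomorphism -/
noncomputable def ordS (W : Subgroup GQ) (T : Set Pl) (A : Pl) : US W T →+ ℚ where
  toFun x := A.ord (vl (x : Ma))
  map_zero' := by rw [AddSubgroup.coe_zero, vl_zero, A.ord_one]
  map_add' x y := by rw [AddSubgroup.coe_add, vl_add, A.ord_mul (vl_ne_zero _) (vl_ne_zero _)]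

theorem ordS_apply {T : Set Pl} {A : Pl} (x : US W T) : ordS W T A x = A.ord (vl (x : Ma)) := rfl

/-- orbits -/
def OB {J : Type} (W : Subgroup GQ) (a : J → Pl) (s : Finset J) : Set Pl :=
  {b | ∃ j ∈ s, ∃ w ∈ W, w • a j = b}

theorem StP_OB {J : Type} {a : J → Pl} {s : Finset J} : StP W (OB W a s) := by
  rintro w hw _ ⟨j, hj, w', hw', rfl⟩
  exact ⟨j, hj, w * w', mul_mem hw hw', mul_smul _ _ _⟩

variable [NumberField (KW W)] {p : ℕ} [hp : Fact p.Prime]

theorem exists_pow_elt (hW : IsOpen (W : Set GQ)) (A : Pl) : ∃ x ∈ FA W, 0 < A.ord (vl x) ∧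
    ∀ B : Pl, (∀ w ∈ W, w • A ≠ B) → B.ord (vl x) = 0 := by
  obtain ⟨h, hh, hx⟩ := exists_principal_pow hW
  obtain ⟨x, hx0, hx1, hx2⟩ := hx A
  refine ⟨mk0 (cK x) (cK_ne_zero hx0), ?_, ?_, fun B hB => ?_⟩
  · rw [FA_KW, vl_mk0]; exact SetLike.coe_mem _
  · rw [vl_mk0]
    refine ord_cK_pos hx0 ?_
    have h1 : x ∈ PrA A W ^ h := by rw [← hx1]; exact Ideal.mem_span_singleton_self x
    exact Ideal.pow_le_self hh.ne' h1
  · rw [vl_mk0]; exact hx2 B hB

theorem US_insert (hW : IsOpen (W : Set GQ)) {T : Set Pl} (hT : StP W T) {A : Pl} (hA : A ∉ T)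
    (h : QF (mulN p (US W T))) :
    QF (mulN p (US W (T ∪ {b | ∃ w ∈ W, w • A = b}))) ∧
    qi (mulN p (US W (T ∪ {b | ∃ w ∈ W, w • A = b}))) = qi (mulN p (US W T)) * p := by
  set T' := T ∪ {b | ∃ w ∈ W, w • A = b} with hT'
  have hle : US W T ≤ US W T' := US_mono Set.subset_union_left
  obtain ⟨d, hd, hdm⟩ := ord_denom hW A
  obtain ⟨h3, h4⟩ := phi_cyc (p := p) (R := (ordS W T' A).range) hd (by
    rintro _ ⟨x, rfl⟩
    exact hdm x x.2.1) (by
    obtain ⟨x, hx, h1, h2⟩ := exists_pow_elt hW A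
    have hx' : x ∈ US W T' := ⟨hx, fun B hB => h2 B fun w hw hwB => hB (Or.inr ⟨w, hw, hwB⟩)⟩
    exact ⟨ordS W T' A ⟨x, hx'⟩, ⟨_, rfl⟩, h1.ne'⟩)
  obtain ⟨h5, h6⟩ := ses_mid p (i := AddSubgroup.inclusion hle) (π := (ordS W T' A).rangeRestrict)
    (AddSubgroup.inclusion_injective hle) (AddMonoidHom.rangeRestrict_surjective _)
    (by
      rw [AddMonoidHom.ker_rangeRestrict]
      ext x
      constructor
      · intro h
        refine ⟨⟨x, x.2.1, fun B hB => ?_⟩, rfl⟩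
        by_cases hB' : B ∈ T'
        · rcases hB' with hB' | ⟨w, hw, rfl⟩
          · exact absurd hB' hB
          · rw [ord_fix x.2.1 hw]; exact h
        · exact x.2.2 B hB'
      · rintro ⟨y, rfl⟩
        exact y.2.2 A hA) h h3
  exact ⟨h5, by rw [h6, h4]⟩

/-- **The unit theorem for `S`-units.** -/
theorem phi_US (hW : IsOpen (W : Set GQ)) (hp2 : p ≠ 2) (hμ : MuF p W) {J : Type} (a : J → Pl)
    (s : Finset J) (hd : ∀ i ∈ s, ∀ j ∈ s, (∃ w ∈ W, w • a i = a j) → i = j) {m : ℕ} (hm : W.index = 2 * m) :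
    QF (mulN p (US W (OB W a s))) ∧ (p : ℚ) * qi (mulN p (US W (OB W a s))) = (p : ℚ) ^ (m + s.card) := by
  classical
  induction s using Finset.induction_on with
  | empty =>
    obtain ⟨m', h1, h2, h3, h4⟩ := phi_units hW hp2 hμ
    have e : OB W a ∅ = ∅ := by ext b; simp [OB]
    rw [e]
    have : m' = m := by omega
    subst this
    refine ⟨h3, ?_⟩
    rw [h4, Finset.card_empty, add_zero, ← pow_succ']
    congr 1; omega
  | insert j s hj ih =>
    have e : OB W a (insert j s) = OB W a s ∪ {b | ∃ w ∈ W, w • a j = b} := by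
      ext b
      simp only [OB, Finset.mem_insert, Set.mem_union, Set.mem_ofPred_eq]
      constructor
      · rintro ⟨i, rfl | hi, h⟩
        · exact Or.inr h
        · exact Or.inl ⟨i, hi, h⟩
      · rintro (⟨i, hi, h⟩ | h)
        · exact ⟨i, Or.inr hi, h⟩
        · exact ⟨j, Or.inl rfl, h⟩
    rw [e]
    have ih := ih fun i hi j hj => hd i (Finset.mem_insert_of_mem hi) j (Finset.mem_insert_of_mem hj)
    obtain ⟨h1, h2⟩ := US_insert (p := p) hW (StP_OB (a := a) (s := s)) (A := a j) (by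
      rintro ⟨i, hi, w, hw, h⟩
      exact hj (hd i (Finset.mem_insert_of_mem hi) j (Finset.mem_insert_self _ _) ⟨w, hw, h⟩ ▸ hi)) ih.1
    refine ⟨h1, ?_⟩
    rw [h2, ← mul_assoc, ih.2, Finset.card_insert_of_notMem hj, ← add_assoc, pow_succ]

/-- principal outside `T` -/
def PID (W : Subgroup GQ) (T : Set Pl) : Prop := ∀ A ∉ T, ∃ x ∈ FA W, 0 < A.ord (vl x) ∧
  (∀ y ∈ FA W, ∃ k : ℤ, A.ord (vl y) = k * A.ord (vl x)) ∧
  ∀ B ∉ T, (∀ w ∈ W, w • A ≠ B) → B.ord (vl x) = 0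

omit [NumberField (KW W)] in
theorem PID.mono {T T' : Set Pl} (h : PID W T) (hT : T ⊆ T') : PID W T' := fun A hA => by
  obtain ⟨x, hx, h1, h2, h3⟩ := h A fun h => hA (hT h)
  exact ⟨x, hx, h1, h2, fun B hB => h3 B fun h => hB (hT h)⟩

theorem exists_PID (hW : IsOpen (W : Set GQ)) : ∃ T0 : Finset ℕ, ∀ T : Set Pl,
    (∀ A : Pl, A.ell ∈ T0 → A ∈ T) → PID W T := by
  obtain ⟨T0, h⟩ := exists_principal hW
  refine ⟨T0, fun T hT A hA => ?_⟩
  obtain ⟨x, hx0, h1, h2, h3⟩ := h A fun h => hA (hT A h)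
  refine ⟨mk0 (cK x) (cK_ne_zero hx0), ?_, ?_, fun y hy => ?_, fun B hB hB' => ?_⟩
  · rw [FA_KW, vl_mk0]; exact SetLike.coe_mem _
  · rw [vl_mk0]
    exact ord_cK_pos hx0 h1
  · rw [vl_mk0]
    exact ord_mult_of h1 h2 (FA_KW.1 hy) (vl_ne_zero y)
  · rw [vl_mk0]; exact h3 B (fun h => hB (hT B h)) hB'

end Basics

section Clear

theorem exists_place (q : ℕ) (hq : q.Prime) : ∃ A : Pl, A.ell = q := by
  obtain ⟨A, hA⟩ := exists_liesOverPrime Qb hq
  exact ⟨⟨A, q, hq, hA⟩, Pl.ell_unique _ hq hA⟩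

theorem exists_smul_of_ell {A B : Pl} (h : A.ell = B.ell) : ∃ g : GQ, g • A = B := by
  obtain ⟨g, hg⟩ := exists_smul_eq_of_liesOverPrime A.ell_prime A.v B.v A.liesOver_ell
    (by rw [h]; exact B.liesOver_ell)
  exact ⟨g, Pl.ext hg⟩

/-- finitely many orbits -/
theorem finite_orbits {W : Subgroup GQ} (hW : IsOpen (W : Set GQ)) (T0 : Finset ℕ) :
    ∃ L : Finset Pl, ∀ A : Pl, A.ell ∈ T0 → ∃ B ∈ L, ∃ w ∈ W, w • B = A := by
  classical
  haveI := finiteIndex_of_isOpen hW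
  haveI : Finite (GQ ⧸ W) := inferInstance
  letI := Fintype.ofFinite (GQ ⧸ W)
  induction T0 using Finset.induction_on with
  | empty => exact ⟨∅, by simp⟩
  | insert q s hq ih =>
    obtain ⟨L, hL⟩ := ih
    by_cases hqp : ∃ A : Pl, A.ell = q
    · obtain ⟨A0, hA0⟩ := hqp
      refine ⟨L ∪ Finset.univ.image (fun c : GQ ⧸ W => c.out⁻¹ • A0), fun A hA => ?_⟩
      rw [Finset.mem_insert] at hA
      rcases hA with hA | hA
      · obtain ⟨g, hg⟩ := exists_smul_of_ell (A := A0) (B := A) (by rw [hA0, hA])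
        refine ⟨((g⁻¹ : GQ) : GQ ⧸ W).out⁻¹ • A0, Finset.mem_union_right _ (Finset.mem_image_of_mem _
          (Finset.mem_univ _)), g * ((g⁻¹ : GQ) : GQ ⧸ W).out, ?_, ?_⟩
        · have h1 : (g⁻¹)⁻¹ * ((g⁻¹ : GQ) : GQ ⧸ W).out ∈ W := by
            rw [← QuotientGroup.eq]; exact (QuotientGroup.out_eq' _).symm
          rwa [inv_inv] at h1
        · rw [smul_smul, mul_assoc, mul_inv_cancel, mul_one, hg]
      · obtain ⟨B, hB, h⟩ := hL A hA
        exact ⟨B, Finset.mem_union_left _ hB, h⟩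
    · refine ⟨L, fun A hA => ?_⟩
      rw [Finset.mem_insert] at hA
      rcases hA with hA | hA
      · exact absurd ⟨A, hA⟩ hqp
      · exact hL A hA

/-- clearing orders -/
theorem clear_aux {W : Subgroup GQ} {T : Set Pl} (hT : StP W T) {G1 : AddSubgroup Ma} (hG1 : G1 ≤ FA W)
    (L : Finset Pl) : ∀ z : Ma, (∀ w ∈ W, ∀ A ∉ T, (w • A).ord (vl z) = A.ord (vl z)) →
    (∀ A ∉ T, A.ord (vl z) ≠ 0 → ∃ B ∈ L, ∃ w ∈ W, w • B = A) →
    (∀ A ∉ T, ∃ g ∈ G1, A.ord (vl g) = A.ord (vl z) ∧ ∀ B ∉ T, (∀ w ∈ W, w • A ≠ B) → B.ord (vl g) = 0) →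
    ∃ g ∈ G1, ∀ A ∉ T, A.ord (vl (z - g)) = 0 := by
  classical
  induction L using Finset.induction_on with
  | empty =>
    intro z _ h _
    refine ⟨0, zero_mem _, fun A hA => ?_⟩
    rw [sub_zero]
    by_contra hne
    obtain ⟨B, hB, -⟩ := h A hA hne
    simp at hB
  | insert B L hB ih =>
    intro z hinv h1 h2
    by_cases hBT : B ∈ T
    · refine ih z hinv (fun A hA hne => ?_) h2
      obtain ⟨B', hB', w, hw, rfl⟩ := h1 A hA hne
      rw [Finset.mem_insert] at hB'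
      rcases hB' with rfl | hB'
      · exact absurd (hT w hw _ hBT) hA
      · exact ⟨B', hB', w, hw, rfl⟩
    obtain ⟨g, hg, hgB, hgo⟩ := h2 B hBT
    have hsub : ∀ A : Pl, A.ord (vl (z - g)) = A.ord (vl z) - A.ord (vl g) := fun A => by
      rw [sub_eq_add_neg, vl_add, vl_neg, A.ord_mul (vl_ne_zero _) (inv_ne_zero (vl_ne_zero _)),
        A.ord_inv (vl_ne_zero _), sub_eq_add_neg]
    have hzero : ∀ A ∉ T, (∃ w ∈ W, w • B = A) → A.ord (vl (z - g)) = 0 := by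
      rintro _ hA ⟨w, hw, rfl⟩
      rw [hsub, hinv w hw B hBT, ord_fix (hG1 hg) hw, hgB, sub_self]
    have hother : ∀ A ∉ T, ¬ (∃ w ∈ W, w • B = A) → A.ord (vl (z - g)) = A.ord (vl z) := by
      intro A hA hne
      rw [hsub, hgo A hA (fun w hw h => hne ⟨w, hw, h⟩), sub_zero]
    obtain ⟨g', hg', h3⟩ := ih (z - g) (by
        intro w hw A hA
        rw [hsub, hsub, hinv w hw A hA, ord_fix (hG1 hg) hw])
      (by
        intro A hA hne
        by_cases hc : ∃ w ∈ W, w • B = A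
        · exact absurd (hzero A hA hc) hne
        · rw [hother A hA hc] at hne
          obtain ⟨B', hB', w, hw, rfl⟩ := h1 A hA hne
          rw [Finset.mem_insert] at hB'
          rcases hB' with rfl | hB'
          · exact absurd ⟨w, hw, rfl⟩ hc
          · exact ⟨B', hB', w, hw, rfl⟩)
      (by
        intro A hA
        by_cases hc : ∃ w ∈ W, w • B = A
        · refine ⟨0, zero_mem _, ?_, fun B' _ _ => by rw [vl_zero, B'.ord_one]⟩
          rw [vl_zero, A.ord_one, hzero A hA hc]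
        · obtain ⟨g', hg', h3, h4⟩ := h2 A hA
          exact ⟨g', hg', by rw [h3, hother A hA hc], h4⟩)
    refine ⟨g + g', add_mem hg hg', fun A hA => ?_⟩
    have := h3 A hA
    rwa [sub_sub] at this

theorem clear {W : Subgroup GQ} (hW : IsOpen (W : Set GQ)) {W' : Subgroup GQ} (hW' : IsOpen (W' : Set GQ))
    {T : Set Pl} (hT : StP W T) {G1 : AddSubgroup Ma} (hG1 : G1 ≤ FA W) {z : Ma} (hz : z ∈ FA W')
    (hinv : ∀ w ∈ W, ∀ A ∉ T, (w • A).ord (vl z) = A.ord (vl z))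
    (h : ∀ A ∉ T, ∃ g ∈ G1, A.ord (vl g) = A.ord (vl z) ∧
      ∀ B ∉ T, (∀ w ∈ W, w • A ≠ B) → B.ord (vl g) = 0) :
    ∃ g ∈ G1, ∀ A ∉ T, A.ord (vl (z - g)) = 0 := by
  haveI := numberField_KW hW'
  obtain ⟨T0, hT0⟩ := finite_support' (FA_KW.1 hz) (vl_ne_zero z)
  obtain ⟨L, hL⟩ := finite_orbits hW T0
  refine clear_aux hT hG1 L z hinv (fun A hA hne => hL A ?_) h
  by_contra hn
  exact hne (hT0 A hn)

end Clear

end Fermat.Agent.CFT
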