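import Fermat.Agent.CFT.Gl3

/-!
# Norm index of `S`-units
-/

set_option autoImplicit false
set_option linter.unusedSectionVars false
set_option linter.unusedVariables false
set_option linter.style.haveILetI false

namespace Fermat.Agent.CFT

open Module NumberField Fermat.Agent.Places
open scoped Pointwise

variable {p : ℕ} [hp : Fact p.Prime] {W W' : Subgroup GQ} {σ : GQ}

/-- any element outside `W'` is a generator -/
theorem Cyc.change (h : Cyc p W W' σ) {d : GQ} (hd : d ∈ W) (hd' : d ∉ W') : Cyc p W W' d := by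
  haveI := h.normal
  let Q := W ⧸ W'.subgroupOf W
  have hcard : Nat.card Q = p := h.relIndex
  haveI : Finite Q := Nat.finite_of_card_ne_zero (by rw [hcard]; exact hp.out.ne_zero)
  set δ : Q := ((⟨d, hd⟩ : W) : Q) with hδ
  have hδ1 : δ ≠ 1 := by
    rw [hδ, Ne, QuotientGroup.eq_one_iff]
    exact hd'
  have hpow : ∀ i : ℕ, d ^ i ∈ W' ↔ δ ^ i = 1 := by
    intro i
    rw [hδ, ← QuotientGroup.mk_pow, QuotientGroup.eq_one_iff]
    exact Iff.rfl
  have hord : orderOf δ = p := by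
    have h1 : orderOf δ ∣ p := by rw [← hcard]; exact orderOf_dvd_natCard δ
    rcases (Nat.dvd_prime hp.out).1 h1 with h2 | h2
    · exact absurd (orderOf_eq_one_iff.1 h2) hδ1
    · exact h2
  refine ⟨h.pos, h.le, h.conj, hd, fun w hw => ?_, fun i => ?_⟩
  · obtain ⟨k, hk⟩ := mem_powers_of_prime_card hcard hδ1 (g' := ((⟨w, hw⟩ : W) : Q))
    refine ⟨k % p, Nat.mod_lt _ hp.out.pos, ?_⟩
    have h1 : δ ^ (k % p) = ((⟨w, hw⟩ : W) : Q) := by
      rw [← hord, pow_mod_orderOf]; exact hk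
    rw [hδ, ← QuotientGroup.mk_pow, QuotientGroup.eq] at h1
    exact h1
  · rw [hpow, ← orderOf_dvd_iff_pow_eq_one, hord]

theorem Cyc.exists_pow (h : Cyc p W W' σ) {w : GQ} (hw : w ∈ W) : ∃ u ∈ W', ∃ i < p, w = u * σ ^ i := by
  obtain ⟨i, hi, hi'⟩ := h.gen w hw
  refine ⟨σ ^ i * ((σ ^ i)⁻¹ * w) * (σ ^ i)⁻¹, h.conj _ (pow_mem h.mem i) _ hi', i, hi, ?_⟩
  group

section Res

variable {m : ℕ}

/-- restriction to a stable subgroup -/
noncomputable def rsB (B : AddSubgroup Ma) (σ : GQ) (hB : ∀ x ∈ B, ac σ x ∈ B) : AddMonoid.End B :=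
  (((ac σ : AddMonoid.End Ma) : Ma →+ Ma).comp B.subtype).codRestrict B (fun x => hB x x.2)

variable {B : AddSubgroup Ma} (hB : ∀ x ∈ B, ac σ x ∈ B)

theorem coe_rsB (x : B) : ((rsB B σ hB x : B) : Ma) = ac σ x := rfl

theorem coe_rsB_pow (i : ℕ) (x : B) : (((rsB B σ hB ^ i : AddMonoid.End B) x : B) : Ma) = ac (σ ^ i) x := by
  induction i generalizing x with
  | zero => rfl
  | succ i ih =>
    rw [pow_succ, pow_succ]
    change (((rsB B σ hB ^ i : AddMonoid.End B) (rsB B σ hB x) : B) : Ma) = _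
    rw [ih, coe_rsB, ac_mul]

theorem coe_nrmB (x : B) : ((nrm m (rsB B σ hB) x : B) : Ma) = Cyc.nm m σ x := by
  rw [nrm_apply, AddSubgroup.val_finsetSum, Cyc.nm]
  exact Finset.sum_congr rfl fun i _ => coe_rsB_pow hB i x

variable (h : Cyc m W W' σ) (hBW : B ≤ FA W')

include h hBW

theorem rsB_pow : rsB B σ hB ^ m = 1 := by
  ext x
  rw [coe_rsB_pow]
  exact congrArg _ (mem_FA'.1 (hBW x.2) _ ((h.pow m).2 dvd_rfl))

theorem mem_ker_difB {x : B} : x ∈ (dif (rsB B σ hB)).ker ↔ (x : Ma) ∈ FA W := by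
  have h1 := h.mem_ker_dif (x := ⟨x, hBW x.2⟩)
  rw [← h1, AddMonoidHom.mem_ker, AddMonoidHom.mem_ker, dif_apply, dif_apply, sub_eq_zero, sub_eq_zero,
    Subtype.ext_iff, Subtype.ext_iff]
  rfl

/-- the norms -/
noncomputable def NB (m : ℕ) (B : AddSubgroup Ma) (σ : GQ) : AddSubgroup Ma where
  carrier := {z | ∃ x ∈ B, Cyc.nm m σ x = z}
  add_mem' := by
    rintro _ _ ⟨x, hx, rfl⟩ ⟨y, hy, rfl⟩
    exact ⟨x + y, add_mem hx hy, by simp [Cyc.nm, Finset.sum_add_distrib]⟩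
  zero_mem' := ⟨0, zero_mem _, by simp [Cyc.nm]⟩
  neg_mem' := by
    rintro _ ⟨x, hx, rfl⟩
    exact ⟨-x, neg_mem hx, by simp [Cyc.nm]⟩

noncomputable def kerEquivB : (dif (rsB B σ hB)).ker ≃+ (B ⊓ FA W : AddSubgroup Ma) where
  toFun x := ⟨(x : B), (x : B).2, (mem_ker_difB hB h hBW).1 x.2⟩
  invFun y := ⟨⟨y, y.2.1⟩, (mem_ker_difB hB h hBW).2 y.2.2⟩
  left_inv x := rfl
  right_inv x := rfl
  map_add' x y := rfl

theorem range_relIndexB : (nrm m (rsB B σ hB)).range.relIndex (dif (rsB B σ hB)).ker =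
    (NB m B σ).relIndex (B ⊓ FA W) := by
  have hinj : Function.Injective B.subtype := Subtype.val_injective
  rw [← AddSubgroup.relIndex_map_map_of_injective _ _ hinj]
  congr 1
  · ext z
    constructor
    · rintro ⟨_, ⟨x, rfl⟩, rfl⟩
      exact ⟨x, x.2, (coe_nrmB hB x).symm⟩
    · rintro ⟨x, hx, rfl⟩
      exact ⟨_, ⟨⟨x, hx⟩, rfl⟩, coe_nrmB hB _⟩
  · ext z
    constructor
    · rintro ⟨x, hx, rfl⟩
      exact ⟨x.2, (mem_ker_difB hB h hBW).1 hx⟩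
    · intro hz
      exact ⟨⟨z, hz.1⟩, (mem_ker_difB hB h hBW).2 hz.2, rfl⟩

end Res

omit hp in
theorem mem_NB {m : ℕ} {B : AddSubgroup Ma} {z : Ma} : z ∈ NB m B σ ↔ ∃ x ∈ B, Cyc.nm m σ x = z := Iff.rfl

/-- unramified outside `T` -/
def UnrO (W W' : Subgroup GQ) (T : Set Pl) : Prop := ∀ A ∉ T, SameVal A W W'

theorem US_inf {T : Set Pl} (hle : W' ≤ W) : US W' T ⊓ FA W = US W T := by
  ext x
  exact ⟨fun h => ⟨h.2, h.1.2⟩, fun h => ⟨⟨FA_mono hle h.1, h.2⟩, h.1⟩⟩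

theorem US_stable {m : ℕ} (h : Cyc m W W' σ) {T : Set Pl} (hT : StP W T) : ∀ x ∈ US W' T, ac σ x ∈ US W' T := by
  rintro x ⟨h1, h2⟩
  refine ⟨h.ac_mem h1 h.mem, fun A hA => ?_⟩
  have h3 := ord_ac σ (σ⁻¹ • A) x
  rw [smul_inv_smul] at h3
  rw [h3]
  exact h2 _ (hT.compl (inv_mem h.mem) hA)

/-- `H¹` of the `S`-units vanishes. -/
theorem h1_units (hW : IsOpen (W : Set GQ)) (hW' : IsOpen (W' : Set GQ)) {m : ℕ} (h : Cyc m W W' σ)
    {T : Set Pl} (hT : StP W T) (hP : PID W T) (hu : UnrO W W' T) :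
    (dif (rsB (US W' T) σ (US_stable h hT))).range.relIndex (nrm m (rsB (US W' T) σ (US_stable h hT))).ker = 1 := by
  rw [AddSubgroup.relIndex_eq_one]
  intro x hx
  have hx1 : Cyc.nm m σ (x : Ma) = 0 := by
    rw [← coe_nrmB (US_stable h hT)]
    exact congrArg Subtype.val hx
  obtain ⟨y, hy⟩ := h.h90 (Subgroup.isClosed_of_isOpen W' hW') ⟨x, x.2.1⟩ (by
    apply Subtype.ext
    rw [h.coe_nrm]; exact hx1)
  have hy' : ac σ (y : Ma) - y = x := congrArg Subtype.val hy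
  -- invariance of orders
  have hσ : ∀ A ∉ T, (σ • A).ord (vl (y : Ma)) = A.ord (vl (y : Ma)) := by
    intro A hA
    have h1 : ac σ (y : Ma) = y + x := by rw [← hy']; abel
    have h2 := ord_ac σ A (y : Ma)
    rw [h1, vl_add, (σ • A).ord_mul (vl_ne_zero _) (vl_ne_zero _), x.2.2 _ (hT.compl h.mem hA),
      add_zero] at h2
    exact h2
  have hσi : ∀ i : ℕ, ∀ A ∉ T, (σ ^ i • A).ord (vl (y : Ma)) = A.ord (vl (y : Ma)) := by
    intro i
    induction i with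
    | zero => intro A _; rw [pow_zero, one_smul]
    | succ i ih =>
      intro A hA
      rw [pow_succ', mul_smul, hσ _ (hT.compl (pow_mem h.mem i) hA), ih A hA]
  have hinv : ∀ w ∈ W, ∀ A ∉ T, (w • A).ord (vl (y : Ma)) = A.ord (vl (y : Ma)) := by
    intro w hw A hA
    obtain ⟨i, hi, hi'⟩ := h.gen w hw
    have h1 : w = (σ ^ i * ((σ ^ i)⁻¹ * w) * (σ ^ i)⁻¹) * σ ^ i := by group
    rw [h1, mul_smul, ord_fix y.2 (h.conj _ (pow_mem h.mem i) _ hi'), hσi i A hA]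
  obtain ⟨g, hg, hgz⟩ := clear hW hW' hT (le_refl (FA W)) y.2 hinv (by
    intro A hA
    obtain ⟨t, ht, h1, h2, h3⟩ := hP A hA
    obtain ⟨y', hy', hyy⟩ := hu A hA y y.2
    obtain ⟨k, hk⟩ := h2 y' hy'
    refine ⟨k • t, zsmul_mem ht k, ?_, fun B hB hB' => ?_⟩
    · rw [vl_zsmul, A.ord_zpow (vl_ne_zero _), ← hk, hyy]
    · rw [vl_zsmul, B.ord_zpow (vl_ne_zero _), h3 B hB hB', mul_zero])
  refine ⟨⟨y - g, sub_mem y.2 (FA_mono h.le hg), fun A hA => hgz A hA⟩, ?_⟩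
  apply Subtype.ext
  change ac σ ((y : Ma) - g) - ((y : Ma) - g) = x
  rw [map_sub, mem_FA'.1 hg σ h.mem, ← hy']
  abel

end Fermat.Agent.CFT
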