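import Fermat.Agent.CFT.Gl4

/-!
# Norm index of `S`-units, II
-/

set_option autoImplicit false
set_option linter.unusedSectionVars false
set_option linter.unusedVariables false
set_option linter.style.haveILetI false

namespace Fermat.Agent.CFT

open Module NumberField Fermat.Agent.Places
open scoped Pointwise

variable {p : ℕ} [hp : Fact p.Prime] {W W' : Subgroup GQ} {σ : GQ} {J : Type}

/-- split places -/
def SplP (W W' : Subgroup GQ) (A : Pl) : Prop := W ⊓ Dec A ≤ W'

open Classical in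
/-- orbit representatives for the smaller group -/
noncomputable def sRep (p : ℕ) (W W' : Subgroup GQ) (a : J → Pl) (s : Finset J) : Finset (J × ℕ) :=
  (s ×ˢ Finset.range p).filter (fun x => SplP W W' (a x.1) ∨ x.2 = 0)

/-- orbit representatives -/
noncomputable def aRep (σ : GQ) (a : J → Pl) (x : J × ℕ) : Pl := σ ^ x.2 • a x.1

open Classical in
theorem mem_sRep {a : J → Pl} {s : Finset J} {x : J × ℕ} :
    x ∈ sRep p W W' a s ↔ (x.1 ∈ s ∧ x.2 < p) ∧ (SplP W W' (a x.1) ∨ x.2 = 0) := by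
  rw [sRep, Finset.mem_filter, Finset.mem_product, Finset.mem_range]

theorem OB_rep (h : Cyc p W W' σ) (a : J → Pl) (s : Finset J) :
    OB W' (aRep σ a) (sRep p W W' a s) = OB W a s := by
  ext b
  constructor
  · rintro ⟨x, hx, w, hw, rfl⟩
    rw [mem_sRep] at hx
    exact ⟨x.1, hx.1.1, w * σ ^ x.2, mul_mem (h.le hw) (pow_mem h.mem _), mul_smul _ _ _⟩
  · rintro ⟨j, hj, w, hw, rfl⟩
    obtain ⟨u, hu, i, hi, rfl⟩ := h.exists_pow hw
    by_cases hs : SplP W W' (a j)
    · exact ⟨(j, i), mem_sRep.2 ⟨⟨hj, hi⟩, Or.inl hs⟩, u, hu, (mul_smul _ _ _).symm⟩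
    · obtain ⟨d, hd, hd'⟩ := Set.not_subset.1 hs
      have hc := h.change hd.1 hd'
      obtain ⟨v, hv, k, hk, hvk⟩ := hc.exists_pow (pow_mem h.mem i)
      refine ⟨(j, 0), mem_sRep.2 ⟨⟨hj, hp.out.pos⟩, Or.inr rfl⟩, u * v, mul_mem hu hv, ?_⟩
      have h1 : d ^ k • a j = a j := pow_mem (show d ∈ Dec (a j) from hd.2) k
      change (u * v) • (σ ^ 0 • a j) = (u * σ ^ i) • a j
      rw [pow_zero, one_smul, hvk, ← mul_assoc, mul_smul (u * v), h1]

theorem disj_rep (h : Cyc p W W' σ) (a : J → Pl) (s : Finset J)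
    (hd : ∀ i ∈ s, ∀ j ∈ s, (∃ w ∈ W, w • a i = a j) → i = j) :
    ∀ x ∈ sRep p W W' a s, ∀ y ∈ sRep p W W' a s, (∃ w ∈ W', w • aRep σ a x = aRep σ a y) → x = y := by
  rintro ⟨j, i⟩ hx ⟨j', i'⟩ hy ⟨w, hw, hwe⟩
  rw [mem_sRep] at hx hy
  simp only [aRep] at hwe hx hy
  have h1 : ((σ ^ i')⁻¹ * w * σ ^ i) • a j = a j' := by
    rw [mul_smul, mul_smul, hwe, inv_smul_smul]
  have hmem : (σ ^ i')⁻¹ * w * σ ^ i ∈ W :=
    mul_mem (mul_mem (inv_mem (pow_mem h.mem _)) (h.le hw)) (pow_mem h.mem _)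
  obtain rfl := hd j hx.1.1 j' hy.1.1 ⟨_, hmem, h1⟩
  rcases hx.2 with hs | hs
  · have h2 := hs ⟨hmem, h1⟩
    have h3 : (σ ^ i')⁻¹ * σ ^ i ∈ W' := by
      have h4 : (σ ^ i')⁻¹ * w * σ ^ i = ((σ ^ i')⁻¹ * w * σ ^ i') * ((σ ^ i')⁻¹ * σ ^ i) := by group
      rw [h4] at h2
      exact (W'.mul_mem_cancel_left (h.conj_inv' (pow_mem h.mem _) w hw)).1 h2
    have h5 : i = i' := by
      rcases le_total i' i with hle | hle
      · have h6 : (σ ^ i')⁻¹ * σ ^ i = σ ^ (i - i') := by
          rw [pow_sub σ hle]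
          exact ((Commute.refl σ).pow_pow _ _).inv_left.eq
        rw [h6, h.pow] at h3
        have := Nat.eq_zero_of_dvd_of_lt h3 (lt_of_le_of_lt (Nat.sub_le _ _) hx.1.2)
        omega
      · have h6 : (σ ^ i')⁻¹ * σ ^ i = (σ ^ (i' - i))⁻¹ := by
          rw [pow_sub σ hle, mul_inv_rev, inv_inv]
          exact ((Commute.refl σ).pow_pow _ _).inv_left.eq
        rw [h6, inv_mem_iff, h.pow] at h3
        have := Nat.eq_zero_of_dvd_of_lt h3 (lt_of_le_of_lt (Nat.sub_le _ _) hy.1.2)
        omega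
    rw [h5]
  · rcases hy.2 with hs' | hs'
    · have h2 := hs' ⟨hmem, h1⟩
      rw [hs, pow_zero, mul_one] at h2
      have h3 : (σ ^ i')⁻¹ ∈ W' := (W'.mul_mem_cancel_right hw).1 h2
      rw [inv_mem_iff, h.pow] at h3
      have := Nat.eq_zero_of_dvd_of_lt h3 hy.1.2
      rw [hs, this]
    · rw [hs, hs']

open Classical in
/-- the number of nonsplit orbits -/
noncomputable def nsp (W W' : Subgroup GQ) (a : J → Pl) (s : Finset J) : Finset J :=
  s.filter (fun j => ¬ SplP W W' (a j))

open Classical in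
theorem card_sRep (a : J → Pl) (s : Finset J) :
    (sRep p W W' a s).card + (p - 1) * (nsp W W' a s).card = p * s.card := by
  induction s using Finset.induction_on with
  | empty => simp [sRep, nsp]
  | insert j s hj ih =>
    have h1 : sRep p W W' a (insert j s) = (({j} : Finset J) ×ˢ Finset.range p).filter
        (fun x => SplP W W' (a x.1) ∨ x.2 = 0) ∪ sRep p W W' a s := by
      rw [sRep, sRep, ← Finset.filter_union, Finset.insert_eq, Finset.union_product]
    have hdis : Disjoint ((({j} : Finset J) ×ˢ Finset.range p).filter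
        (fun x => SplP W W' (a x.1) ∨ x.2 = 0)) (sRep p W W' a s) := by
      rw [Finset.disjoint_left]
      rintro x hx hx'
      rw [Finset.mem_filter, Finset.mem_product, Finset.mem_singleton] at hx
      rw [mem_sRep] at hx'
      exact hj (hx.1.1 ▸ hx'.1.1)
    rw [h1, Finset.card_union_of_disjoint hdis, Finset.card_insert_of_notMem hj]
    have hp1 := hp.out.pos
    by_cases hs : SplP W W' (a j)
    · have h2 : (({j} : Finset J) ×ˢ Finset.range p).filter
          (fun x => SplP W W' (a x.1) ∨ x.2 = 0) = ({j} : Finset J) ×ˢ Finset.range p := by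
        apply Finset.filter_true_of_mem
        intro x hx
        rw [Finset.mem_product, Finset.mem_singleton] at hx
        left; rw [hx.1]; exact hs
      have h3 : nsp W W' a (insert j s) = nsp W W' a s := by
        rw [nsp, Finset.filter_insert, if_neg (not_not.2 hs)]; rfl
      rw [h2, h3, Finset.card_product, Finset.card_singleton, Finset.card_range, one_mul]
      rw [mul_add, mul_one, ← ih]; ring
    · have h2 : (({j} : Finset J) ×ˢ Finset.range p).filter
          (fun x => SplP W W' (a x.1) ∨ x.2 = 0) = {(j, 0)} := by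
        ext x
        rw [Finset.mem_filter, Finset.mem_product, Finset.mem_singleton, Finset.mem_singleton,
          Finset.mem_range]
        constructor
        · rintro ⟨⟨h3, h4⟩, h5 | h5⟩
          · rw [h3] at h5; exact absurd h5 hs
          · exact Prod.ext h3 h5
        · rintro rfl
          exact ⟨⟨rfl, hp1⟩, Or.inr rfl⟩
      have h3 : nsp W W' a (insert j s) = insert j (nsp W W' a s) := by
        rw [nsp, Finset.filter_insert, if_pos hs]; rfl
      have h4 : j ∉ nsp W W' a s := fun h => hj (Finset.mem_of_mem_filter _ h)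
      rw [h2, h3, Finset.card_singleton, Finset.card_insert_of_notMem h4, mul_add, mul_one,
        mul_add, mul_one]
      omega

/-- **The norm index of `S`-units.** -/
theorem unit_index (hp2 : p ≠ 2) (hW : IsOpen (W : Set GQ)) (hW' : IsOpen (W' : Set GQ))
    (h : Cyc p W W' σ) (hμ : MuF p W) (a : J → Pl) (s : Finset J)
    (hd : ∀ i ∈ s, ∀ j ∈ s, (∃ w ∈ W, w • a i = a j) → i = j)
    (hP : PID W (OB W a s)) (hu : UnrO W W' (OB W a s)) :
    (NB p (US W' (OB W a s)) σ).relIndex (US W (OB W a s)) * p = p ^ (nsp W W' a s).card := by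
  haveI := numberField_KW hW
  haveI := numberField_KW hW'
  obtain ⟨m, hm, hm0, -⟩ := phi_units hW hp2 hμ
  have hm' : W'.index = 2 * (p * m) := by
    have h1 := Subgroup.relIndex_mul_index h.le
    rw [h.relIndex, hm] at h1
    rw [← h1]; ring
  set T := OB W a s with hT
  have hTs : StP W T := StP_OB
  obtain ⟨q1, q2⟩ := phi_US hW hp2 hμ a s hd hm
  obtain ⟨q3, q4⟩ := phi_US hW' hp2 (hμ.mono h.le) (aRep σ a) (sRep p W W' a s) (disj_rep h a s hd) hm'
  rw [OB_rep h, ← hT] at q3 q4
  rw [← hT] at q1 q2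
  have hB := US_stable h hTs
  have hBW : US W' T ≤ FA W' := fun x hx => hx.1
  have hinf : (US W' T ⊓ FA W : AddSubgroup Ma) = US W T := US_inf h.le
  have e : (dif (rsB (US W' T) σ hB)).ker ≃+ US W T :=
    (kerEquivB hB h hBW).trans (AddEquiv.addSubgroupCongr hinf)
  obtain ⟨h5, h6, h7⟩ := herbrand p (rsB (US W' T) σ hB) (rsB_pow hB h hBW) q3 ((QF_equiv p e).2 q1)
  rw [qi_equiv p e, h1_units hW hW' h hTs hP hu, range_relIndexB hB h hBW, hinf, Nat.cast_one, div_one] at h7
  set N := (NB p (US W' T) σ).relIndex (US W T) with hN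
  set r := (nsp W W' a s).card with hr
  have hc := card_sRep (p := p) (W := W) (W' := W') a s
  rw [← hr] at hc
  set c' := (sRep p W W' a s).card with hc'
  have hp0 : (p : ℚ) ≠ 0 := by exact_mod_cast hp.out.ne_zero
  have hne : p - 1 ≠ 0 := by have := hp.out.two_le; omega
  -- compute
  have k1 : ((N : ℚ) * p) ^ (p - 1) = (p : ℚ) ^ ((p - 1) * r) := by
    have e1 : ((p : ℚ) * qi (mulN p (US W T))) ^ p = (p : ℚ) ^ p * ((N : ℚ) ^ (p - 1) * qi (mulN p (US W' T))) := by
      rw [mul_pow, h7]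
    rw [q2, ← pow_mul] at e1
    have e2 : (p : ℚ) ^ p = (p : ℚ) ^ (p - 1) * p := by
      rw [← pow_succ]; congr 1; omega
    have e3 : (p : ℚ) ^ p * ((N : ℚ) ^ (p - 1) * qi (mulN p (US W' T))) =
        ((N : ℚ) * p) ^ (p - 1) * ((p : ℚ) * qi (mulN p (US W' T))) := by
      rw [e2, mul_pow]; ring
    rw [e3, q4] at e1
    have e4 : (m + s.card) * p = (p - 1) * r + (p * m + c') := by
      rw [add_mul, mul_comm s.card p, ← hc]; ring
    rw [e4, pow_add] at e1
    exact (mul_right_cancel₀ (pow_ne_zero _ hp0) e1).symm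
  have k2 : (N * p) ^ (p - 1) = (p ^ r) ^ (p - 1) := by
    rw [← pow_mul, mul_comm r]; exact_mod_cast k1
  exact Nat.pow_left_injective hne k2

end Fermat.Agent.CFT
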