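import Fermat.Agent.CFT.Gl5

/-!
# Local norm groups
-/

set_option autoImplicit false
set_option linter.unusedSectionVars false
set_option linter.unusedVariables false
set_option linter.style.haveILetI false

namespace Fermat.Agent.CFT

open Module NumberField Fermat.Agent.Places
open scoped Pointwise

section Grp

variable {M : Type*} [AddCommGroup M] {X : AddSubgroup M} {I : Type*} [Fintype I]
  {Y : I → AddSubgroup M} (P L : I → AddSubgroup M) (hX : ∀ i, X ≤ Y i)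

/-- diagonal map -/
def DG : X →+ ((i : I) → Y i ⧸ (P i).addSubgroupOf (Y i)) :=
  AddMonoidHom.pi fun i => (QuotientAddGroup.mk' _).comp (AddSubgroup.inclusion (hX i))

theorem DG_apply (x : X) (i : I) : DG P hX x i = ((⟨x, hX i x.2⟩ : Y i) : Y i ⧸ (P i).addSubgroupOf (Y i)) := rfl

theorem mem_ker_DG (x : X) : x ∈ (DG P hX).ker ↔ ∀ i, (x : M) ∈ P i := by
  rw [AddMonoidHom.mem_ker, funext_iff]
  refine forall_congr' fun i => ?_
  rw [DG_apply, Pi.zero_apply, QuotientAddGroup.eq_zero_iff, AddSubgroup.mem_addSubgroupOf]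

theorem card_DG : Nat.card ((i : I) → Y i ⧸ (P i).addSubgroupOf (Y i)) = ∏ i, (P i).relIndex (Y i) := by
  rw [Nat.card_pi]; rfl

theorem ker_DG : (X ⊓ ⨅ i, P i : AddSubgroup M).relIndex X = Nat.card (DG P hX).range := by
  rw [← AddSubgroup.index_ker, AddSubgroup.relIndex]
  congr 1
  ext x
  rw [mem_ker_DG, AddSubgroup.mem_addSubgroupOf, AddSubgroup.mem_inf, AddSubgroup.mem_iInf]
  exact ⟨fun h => h.2, fun h => ⟨x.2, h⟩⟩

include hX

theorem relIndex_of_surj (h : ∀ b : (i : I) → Y i, ∃ x ∈ X, ∀ i, x - (b i : M) ∈ P i) :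
    (X ⊓ ⨅ i, P i : AddSubgroup M).relIndex X = ∏ i, (P i).relIndex (Y i) := by
  rw [ker_DG P hX, ← card_DG P]
  have h1 : (DG P hX).range = ⊤ := by
    rw [eq_top_iff]
    intro c _
    choose b hb using fun i => QuotientAddGroup.mk_surjective (c i)
    obtain ⟨x, hx, hxb⟩ := h b
    refine ⟨⟨x, hx⟩, funext fun i => ?_⟩
    rw [DG_apply, ← hb, eq_comm, QuotientAddGroup.eq, AddSubgroup.mem_addSubgroupOf]
    have := hxb i
    change -(b i : M) + x ∈ P i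
    rwa [neg_add_eq_sub]
  rw [h1]
  exact Nat.card_congr AddSubgroup.topEquiv.toEquiv

theorem relIndex_of_le {c : ℕ} (hPL : ∀ i, P i ≤ L i)
    (hP : (X ⊓ ⨅ i, P i : AddSubgroup M).relIndex X * c = ∏ i, (P i).relIndex (Y i))
    (hP0 : (X ⊓ ⨅ i, P i : AddSubgroup M).relIndex X ≠ 0) :
    ∃ d, d ∣ c ∧ (X ⊓ ⨅ i, L i : AddSubgroup M).relIndex X * d = ∏ i, (L i).relIndex (Y i) := by
  rw [ker_DG P hX, ← card_DG P] at hP
  rw [ker_DG P hX] at hP0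
  rw [ker_DG L hX, ← card_DG L]
  have hle : ∀ i, (P i).addSubgroupOf (Y i) ≤ ((L i).addSubgroupOf (Y i)).comap (AddMonoidHom.id _) :=
    fun i x hx => hPL i hx
  let G : ((i : I) → Y i ⧸ (P i).addSubgroupOf (Y i)) →+ ((i : I) → Y i ⧸ (L i).addSubgroupOf (Y i)) :=
    AddMonoidHom.pi fun i => (QuotientAddGroup.map _ _ (AddMonoidHom.id _) (hle i)).comp (Pi.evalAddMonoidHom _ i)
  have hG : Function.Surjective G := by
    intro c
    choose b hb using fun i => QuotientAddGroup.mk_surjective (c i)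
    exact ⟨fun i => (b i : Y i ⧸ (P i).addSubgroupOf (Y i)), funext fun i => hb i⟩
  have hmap : (DG P hX).range.map G = (DG L hX).range := by
    rw [AddMonoidHom.map_range]
    congr 1
  have h1 := AddSubgroup.index_map_dvd (H := (DG P hX).range) hG
  rw [hmap] at h1
  have h2 := AddSubgroup.card_mul_index (DG P hX).range
  have h3 := AddSubgroup.card_mul_index (DG L hX).range
  have h4 : (DG P hX).range.index = c := by
    rw [← hP] at h2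
    exact Nat.eq_of_mul_eq_mul_left (Nat.pos_of_ne_zero hP0) h2
  exact ⟨_, h4 ▸ h1, h3⟩

end Grp

variable {p : ℕ} [hp : Fact p.Prime] {W W' : Subgroup GQ} {σ : GQ}

/-- norms do not depend on the generator -/
theorem nm_eq_NmC {m : ℕ} {V V' : Subgroup GQ} {τ : GQ} (h : Cyc m V V' τ) {x : Ma} (hx : x ∈ FA V') :
    vl (Cyc.nm m τ x) = NmC V' V (vl x) := by
  classical
  have hfin : V'.relIndex V ≠ 0 := by rw [h.relIndex]; exact h.pos.ne'
  haveI : Finite (V ⧸ V'.subgroupOf V) := Nat.finite_of_card_ne_zero hfin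
  letI := Fintype.ofFinite (V ⧸ V'.subgroupOf V)
  rw [Cyc.nm, vl_sum, NmC, finprod_eq_prod_of_fintype, ← Fin.prod_univ_eq_prod_range (fun i => vl (ac (τ ^ i) x)) m]
  refine Fintype.prod_bijective (fun i : Fin m => ((⟨τ ^ (i : ℕ), pow_mem h.mem _⟩ : V) : V ⧸ V'.subgroupOf V))
    ?_ _ _ fun i => ?_
  · rw [Fintype.bijective_iff_surjective_and_card]
    refine ⟨fun q => ?_, ?_⟩
    · obtain ⟨w, rfl⟩ := QuotientGroup.mk_surjective q
      obtain ⟨i, hi, hi'⟩ := h.gen w w.2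
      exact ⟨⟨i, hi⟩, QuotientGroup.eq.2 hi'⟩
    · rw [Fintype.card_fin, ← Nat.card_eq_fintype_card]
      exact h.relIndex.symm
  · rw [smul_out (mem_FA.1 hx), vl_ac]

theorem nm_indep {m : ℕ} {V V' : Subgroup GQ} {τ τ' : GQ} (h : Cyc m V V' τ) (h' : Cyc m V V' τ') {x : Ma}
    (hx : x ∈ FA V') : Cyc.nm m τ x = Cyc.nm m τ' x := by
  rw [← vl_inj, nm_eq_NmC h hx, nm_eq_NmC h' hx]

theorem NG_indep {m : ℕ} {V V' : Subgroup GQ} {τ τ' : GQ} (h : Cyc m V V' τ) (h' : Cyc m V V' τ') :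
    Cyc.NG m V' τ = Cyc.NG m V' τ' := by
  ext z
  constructor
  · rintro ⟨x, hx, rfl⟩; exact ⟨x, hx, nm_indep h' h hx⟩
  · rintro ⟨x, hx, rfl⟩; exact ⟨x, hx, nm_indep h h' hx⟩

/-- restriction to decomposition groups -/
theorem Cyc.inf (h : Cyc p W W' σ) {D : Subgroup GQ} {d : GQ} (hd : d ∈ W ⊓ D) (hd' : d ∉ W') :
    Cyc p (W ⊓ D) (W' ⊓ D) d := by
  have h1 := h.change hd.1 hd'
  refine ⟨h1.pos, inf_le_inf_right _ h.le, fun w hw u hu => ⟨h1.conj w hw.1 u hu.1,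
    D.mul_mem (D.mul_mem hw.2 hu.2) (D.inv_mem hw.2)⟩, hd, fun w hw => ?_, fun i => ?_⟩
  · obtain ⟨i, hi, hi'⟩ := h1.gen w hw.1
    exact ⟨i, hi, hi', D.mul_mem (D.inv_mem (D.pow_mem hd.2 i)) hw.2⟩
  · rw [← h1.pow]
    exact ⟨fun h => h.1, fun h => ⟨h, D.pow_mem hd.2 i⟩⟩

/-- the local norm group -/
def LN (p : ℕ) (W W' : Subgroup GQ) (A : Pl) : AddSubgroup Ma where
  carrier := {z | z ∈ FA (W ⊓ Dec A) ∧ ∀ τ, Cyc p (W ⊓ Dec A) (W' ⊓ Dec A) τ → z ∈ Cyc.NG p (W' ⊓ Dec A) τ}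
  add_mem' := by
    rintro a b ⟨ha, ha'⟩ ⟨hb, hb'⟩
    exact ⟨add_mem ha hb, fun τ hτ => add_mem (ha' τ hτ) (hb' τ hτ)⟩
  zero_mem' := ⟨zero_mem _, fun τ _ => zero_mem _⟩
  neg_mem' := by
    rintro a ⟨ha, ha'⟩
    exact ⟨neg_mem ha, fun τ hτ => neg_mem (ha' τ hτ)⟩

theorem mem_LN {A : Pl} {z : Ma} : z ∈ LN p W W' A ↔ z ∈ FA (W ⊓ Dec A) ∧
    ∀ τ, Cyc p (W ⊓ Dec A) (W' ⊓ Dec A) τ → z ∈ Cyc.NG p (W' ⊓ Dec A) τ := Iff.rfl

theorem LN_le {A : Pl} : LN p W W' A ≤ FA (W ⊓ Dec A) := fun z hz => hz.1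

theorem LN_eq {A : Pl} {τ : GQ} (hτ : Cyc p (W ⊓ Dec A) (W' ⊓ Dec A) τ) :
    LN p W W' A = Cyc.NG p (W' ⊓ Dec A) τ := by
  apply le_antisymm
  · intro z hz; exact hz.2 τ hτ
  · intro z hz
    exact ⟨hτ.NG_le hz, fun τ' hτ' => by rw [NG_indep hτ' hτ]; exact hz⟩

theorem pFA_le_LN {A : Pl} : pFA p (W ⊓ Dec A) ≤ LN p W W' A := by
  rintro _ ⟨t, ht, rfl⟩
  refine ⟨nsmul_mem ht _, fun τ hτ => ⟨t, FA_mono hτ.le ht, Cyc.nm_of_mem ht hτ.mem⟩⟩

theorem LN_split {A : Pl} (h : SplP W W' A) : LN p W W' A = FA (W ⊓ Dec A) := by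
  refine le_antisymm LN_le fun z hz => ⟨hz, fun τ hτ => ?_⟩
  exfalso
  have h1 := (hτ.pow 1).1 (by rw [pow_one]; exact ⟨h hτ.mem, hτ.mem.2⟩)
  exact hp.out.one_lt.ne' (Nat.dvd_one.1 h1)

theorem exists_cyc_loc (h : Cyc p W W' σ) {A : Pl} (hA : ¬ SplP W W' A) :
    ∃ τ, τ ∉ W' ∧ Cyc p (W ⊓ Dec A) (W' ⊓ Dec A) τ := by
  obtain ⟨d, hd, hd'⟩ := Set.not_subset.1 hA
  exact ⟨d, hd', h.inf hd hd'⟩

open Classical in
theorem LN_index (hp2 : p ≠ 2) (hW : IsOpen (W : Set GQ)) (hW' : IsOpen (W' : Set GQ)) (h : Cyc p W W' σ)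
    (A : Pl) : (LN p W W' A).relIndex (FA (W ⊓ Dec A)) = if SplP W W' A then 1 else p := by
  split_ifs with hA
  · rw [LN_split hA, AddSubgroup.relIndex_self]
  · obtain ⟨τ, -, hτ⟩ := exists_cyc_loc h hA
    rw [LN_eq hτ]
    exact norm_index hp2 hτ (isLoc_inf hW A) (isLoc_inf hW' A)

/-- global norms are local norms -/
theorem NG_le_LN (h : Cyc p W W' σ) (A : Pl) : Cyc.NG p W' σ ≤ LN p W W' A := by
  rintro _ ⟨x, hx, rfl⟩
  have h1 : Cyc.nm p σ x ∈ FA W := h.NG_le ⟨x, hx, rfl⟩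
  refine ⟨FA_mono inf_le_left h1, fun τ hτ => ?_⟩
  have h2 : τ ∉ W' := fun h2 => by
    have h1 := (hτ.pow 1).1 (by rw [pow_one]; exact ⟨h2, hτ.mem.2⟩)
    exact hp.out.one_lt.ne' (Nat.dvd_one.1 h1)
  exact ⟨x, FA_mono inf_le_left hx, nm_indep (h.change hτ.mem.1 h2) h hx⟩

variable {J : Type}

theorem prod_LN (hp2 : p ≠ 2) (hW : IsOpen (W : Set GQ)) (hW' : IsOpen (W' : Set GQ)) (h : Cyc p W W' σ)
    (a : J → Pl) (s : Finset J) :
    ∏ j : s, (LN p W W' (a j)).relIndex (FA (W ⊓ Dec (a j))) = p ^ (nsp W W' a s).card := by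
  classical
  rw [Finset.prod_coe_sort s (fun j => (LN p W W' (a j)).relIndex (FA (W ⊓ Dec (a j))))]
  rw [Finset.prod_congr rfl fun j _ => LN_index hp2 hW hW' h (a j)]
  rw [Finset.prod_ite, Finset.prod_const_one, one_mul, Finset.prod_const]
  rfl

/-- **A form of the first inequality.** -/
theorem first_ineq (hp2 : p ≠ 2) (hW : IsOpen (W : Set GQ)) (hW' : IsOpen (W' : Set GQ))
    (h : Cyc p W W' σ) (hμ : MuF p W) (a : J → Pl) (s : Finset J)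
    (hd : ∀ i ∈ s, ∀ j ∈ s, (∃ w ∈ W, w • a i = a j) → i = j)
    (hP : PID W (OB W a s)) (hu : UnrO W W' (OB W a s)) :
    ∃ b : (j : s) → FA (W ⊓ Dec (a j)), ∀ x ∈ US W (OB W a s), ∃ j : s, x - (b j : Ma) ∉ LN p W W' (a j) := by
  by_contra hcon
  push Not at hcon
  have h1 := relIndex_of_surj (X := US W (OB W a s)) (fun j : s => LN p W W' (a j))
    (Y := fun j : s => FA (W ⊓ Dec (a j))) (fun j x hx => FA_mono inf_le_left hx.1) hcon
  rw [prod_LN hp2 hW hW' h] at h1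
  have h2 := unit_index hp2 hW hW' h hμ a s hd hP hu
  have h3 : NB p (US W' (OB W a s)) σ ≤ US W (OB W a s) ⊓ ⨅ j : s, LN p W W' (a j) := by
    rintro z ⟨x, hx, rfl⟩
    refine ⟨?_, AddSubgroup.mem_iInf.2 fun j => NG_le_LN h _ ⟨x, hx.1, rfl⟩⟩
    refine ⟨h.NG_le ⟨x, hx.1, rfl⟩, fun A hA => ?_⟩
    rw [Cyc.nm, vl_sum, A.ord_prod _ _ fun i _ => vl_ne_zero _]
    refine Finset.sum_eq_zero fun i _ => ?_
    have h3 := ord_ac (σ ^ i) ((σ ^ i)⁻¹ • A) x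
    rw [smul_inv_smul] at h3
    rw [h3]
    exact hx.2 _ (StP_OB.compl (inv_mem (pow_mem h.mem i)) hA)
  have h4 := AddSubgroup.relIndex_mul_relIndex _ _ _ h3 inf_le_left
  rw [h1] at h4
  rw [← h4] at h2
  have h5 : p ^ (nsp W W' a s).card ≠ 0 := pow_ne_zero _ hp.out.ne_zero
  have h6 : (NB p (US W' (OB W a s)) σ).relIndex (US W (OB W a s) ⊓ ⨅ j : s, LN p W W' (a j)) * p = 1 := by
    apply Nat.eq_of_mul_eq_mul_right (Nat.pos_of_ne_zero h5)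
    rw [one_mul]
    conv_rhs => rw [← h2]
    ring
  have := Nat.eq_one_of_mul_eq_one_left h6
  exact hp.out.one_lt.ne' this

/-- norms of `S`-units are `S`-units -/
theorem NB_le (h : Cyc p W W' σ) {T : Set Pl} (hT : StP W T) : NB p (US W' T) σ ≤ US W T := by
  rintro z ⟨x, hx, rfl⟩
  refine ⟨h.NG_le ⟨x, hx.1, rfl⟩, fun A hA => ?_⟩
  rw [Cyc.nm, vl_sum, A.ord_prod _ _ fun i _ => vl_ne_zero _]
  refine Finset.sum_eq_zero fun i _ => ?_
  have h3 := ord_ac (σ ^ i) ((σ ^ i)⁻¹ • A) x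
  rw [smul_inv_smul] at h3
  rw [h3]
  exact hx.2 _ (hT.compl (inv_mem (pow_mem h.mem i)) hA)

/-- **Local norms are global norms, for units, assuming an index estimate.** -/
theorem second_ineq (hp2 : p ≠ 2) (hW : IsOpen (W : Set GQ)) (hW' : IsOpen (W' : Set GQ))
    (h : Cyc p W W' σ) (hμ : MuF p W) (a : J → Pl) (s t : Finset J) (hts : t ⊆ s)
    (hd : ∀ i ∈ s, ∀ j ∈ s, (∃ w ∈ W, w • a i = a j) → i = j)
    (hP : PID W (OB W a s)) (hu : UnrO W W' (OB W a s)) (hspl : ∀ j ∈ s, j ∉ t → SplP W W' (a j))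
    (hidx : (US W (OB W a s) ⊓ ⨅ j : t, pFA p (W ⊓ Dec (a j)) : AddSubgroup Ma).relIndex (US W (OB W a s)) * p =
      ∏ j : t, (pFA p (W ⊓ Dec (a j))).relIndex (FA (W ⊓ Dec (a j))))
    {z : Ma} (hz : z ∈ US W (OB W a s)) (hzl : ∀ j ∈ t, z ∈ LN p W W' (a j)) : z ∈ Cyc.NG p W' σ := by
  classical
  have hX : ∀ j : t, US W (OB W a s) ≤ FA (W ⊓ Dec (a j)) := fun j x hx => FA_mono inf_le_left hx.1
  have h0 : (US W (OB W a s) ⊓ ⨅ j : t, pFA p (W ⊓ Dec (a j)) : AddSubgroup Ma).relIndex (US W (OB W a s)) ≠ 0 := by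
    intro h0
    rw [h0, zero_mul] at hidx
    obtain ⟨j, -, hj⟩ := Finset.prod_eq_zero_iff.1 hidx.symm
    rw [relIndex_pFA, index_FA (isLoc_inf hW (a j)) hp2 (fun g hg ζ hζ => hμ.root g hg.1 ζ hζ)] at hj
    exact pow_ne_zero _ hp.out.ne_zero hj
  obtain ⟨d, hd1, hd2⟩ := relIndex_of_le (X := US W (OB W a s)) (fun j : t => pFA p (W ⊓ Dec (a j)))
    (fun j : t => LN p W W' (a j)) (Y := fun j : t => FA (W ⊓ Dec (a j))) hX (fun j => pFA_le_LN) hidx h0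
  rw [prod_LN hp2 hW hW' h] at hd2
  have hn : nsp W W' a t = nsp W W' a s := by
    ext j
    simp only [nsp, Finset.mem_filter]
    constructor
    · rintro ⟨h1, h2⟩; exact ⟨hts h1, h2⟩
    · rintro ⟨h1, h2⟩
      refine ⟨?_, h2⟩
      by_contra hjt
      exact h2 (hspl j h1 hjt)
  rw [hn] at hd2
  have h2 := unit_index hp2 hW hW' h hμ a s hd hP hu
  set KL : AddSubgroup Ma := US W (OB W a s) ⊓ ⨅ j : t, LN p W W' (a j) with hKL
  have h3 : NB p (US W' (OB W a s)) σ ≤ KL := by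
    intro z hz
    refine ⟨NB_le h StP_OB hz, AddSubgroup.mem_iInf.2 fun j => ?_⟩
    obtain ⟨x, hx, rfl⟩ := hz
    exact NG_le_LN h _ ⟨x, hx.1, rfl⟩
  have h4 := AddSubgroup.relIndex_mul_relIndex _ _ _ h3 (inf_le_left : KL ≤ US W (OB W a s))
  rw [← h4] at h2
  -- `n k p = k d`
  have hk : KL.relIndex (US W (OB W a s)) ≠ 0 := by
    intro hk
    rw [hk, zero_mul] at hd2
    exact pow_ne_zero _ hp.out.ne_zero hd2.symm
  have h5 : (NB p (US W' (OB W a s)) σ).relIndex KL * p = d := by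
    apply Nat.eq_of_mul_eq_mul_left (Nat.pos_of_ne_zero hk)
    rw [hd2, ← h2]; ring
  have h6 : (NB p (US W' (OB W a s)) σ).relIndex KL = 1 := by
    rw [← h5] at hd1
    have h7 : (NB p (US W' (OB W a s)) σ).relIndex KL * p ∣ 1 * p := by rwa [one_mul]
    exact Nat.dvd_one.1 (Nat.dvd_of_mul_dvd_mul_right hp.out.pos h7)
  rw [AddSubgroup.relIndex_eq_one] at h6
  obtain ⟨x, hx, hxz⟩ := h6 (show z ∈ KL from ⟨hz, AddSubgroup.mem_iInf.2 fun j => hzl j j.2⟩)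
  exact ⟨x, hx.1, hxz⟩

end Fermat.Agent.CFT
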