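import Fermat.Agent.CFT.Gl6

/-!
# Kummer characters and dual families
-/

set_option autoImplicit false
set_option linter.unusedSectionVars false
set_option linter.unusedVariables false
set_option linter.style.haveILetI false

namespace Fermat.Agent.CFT

open Module NumberField Fermat.Agent.Places
open scoped Pointwise

variable {p : ℕ} [hp : Fact p.Prime]

/-- Characters and points. -/
theorem exists_ev {X : Type} [Group X] (V : Submodule (ZMod p) (X → ZMod p)) [Module.Finite (ZMod p) V]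
    (hom : ∀ v ∈ V, ∀ g h, v (g * h) = v g + v h) (v1 : V) (hv1 : v1 ≠ 0) :
    ∃ (k : ℕ) (g : Fin k → X) (v : Fin k → V), k + 1 = finrank (ZMod p) V ∧
      (∀ i j, (v j : X → ZMod p) (g i) = if i = j then 1 else 0) ∧ ∀ i, (v1 : X → ZMod p) (g i) = 0 := by
  have h1 : ∀ v ∈ V, v 1 = 0 := fun v hv => by
    have := hom v hv 1 1
    rw [mul_one] at this
    exact left_eq_add.1 this
  have hinv : ∀ v ∈ V, ∀ g, v g⁻¹ = -v g := fun v hv g => by
    have := hom v hv g g⁻¹
    rw [mul_inv_cancel, h1 v hv] at this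
    exact (neg_eq_of_add_eq_zero_right this.symm).symm
  let E0 : AddSubgroup (V →ₗ[ZMod p] ZMod p) :=
    { carrier := {φ | ∃ g : X, ∀ v : V, φ v = (v : X → ZMod p) g}
      add_mem' := by
        rintro _ _ ⟨g, hg⟩ ⟨h, hh⟩
        exact ⟨g * h, fun v => by rw [LinearMap.add_apply, hg, hh, hom v v.2]⟩
      zero_mem' := ⟨1, fun v => by rw [LinearMap.zero_apply, h1 v v.2]⟩
      neg_mem' := by
        rintro _ ⟨g, hg⟩
        exact ⟨g⁻¹, fun v => by rw [LinearMap.neg_apply, hg, hinv v v.2]⟩ }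
  let E := AddSubgroup.toZModSubmodule p E0
  have hE : E = ⊤ := by
    by_contra hne
    obtain ⟨Φ, hΦ0, hΦ⟩ := Submodule.exists_le_ker_of_lt_top _ (lt_top_iff_ne_top.2 hne)
    obtain ⟨v, rfl⟩ := (Module.evalEquiv (ZMod p) V).surjective Φ
    apply hΦ0
    have : v = 0 := by
      apply Subtype.ext
      funext g
      let φ : V →ₗ[ZMod p] ZMod p := (LinearMap.proj g).comp V.subtype
      have hφ : φ ∈ E := ⟨g, fun v => rfl⟩
      exact hΦ hφ
    rw [this, map_zero]
  let ev1 : (V →ₗ[ZMod p] ZMod p) →ₗ[ZMod p] ZMod p := Module.Dual.eval (ZMod p) V v1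
  let H := LinearMap.ker ev1
  obtain ⟨φ0, hφ0⟩ : ∃ φ0 : V →ₗ[ZMod p] ZMod p, φ0 v1 ≠ 0 := by
    by_contra hcon
    push Not at hcon
    exact hv1 ((Module.forall_dual_apply_eq_zero_iff (ZMod p) v1).1 hcon)
  have hsurj : LinearMap.range ev1 = ⊤ := LinearMap.range_eq_top.2 (by
    intro c
    refine ⟨(c / φ0 v1) • φ0, ?_⟩
    change (c / φ0 v1) • φ0 v1 = c
    rw [smul_eq_mul, div_mul_cancel₀ _ hφ0])
  have hfr : finrank (ZMod p) H + 1 = finrank (ZMod p) V := by
    have h2 := LinearMap.finrank_range_add_finrank_ker ev1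
    rw [hsurj, finrank_top, finrank_self] at h2
    have h3 : finrank (ZMod p) (V →ₗ[ZMod p] ZMod p) = finrank (ZMod p) V := Subspace.dual_finrank_eq
    rw [h3] at h2
    rw [← h2, add_comm]
  let b := finBasis (ZMod p) H
  obtain ⟨e, he⟩ := exists_dual_vectors H b
  have hg : ∀ i, ∃ g : X, ∀ v : V, (b i : V →ₗ[ZMod p] ZMod p) v = (v : X → ZMod p) g := fun i => by
    have : (b i : V →ₗ[ZMod p] ZMod p) ∈ E := by rw [hE]; trivial
    exact this
  choose g hg using hg
  refine ⟨_, g, e, hfr, fun i j => ?_, fun i => ?_⟩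
  · rw [← hg, he]
  · rw [← hg]
    exact (b i).2

variable {W : Subgroup GQ}

section Kummer

/-- a `p`-th root -/
noncomputable def rt (p : ℕ) [Fact p.Prime] (x : Ma) : Ma := (exists_proot (p := p) x).choose

theorem p_rt (x : Ma) : p • rt p x = x := (exists_proot (p := p) x).choose_spec

theorem exists_chr {x : Ma} (hx : x ∈ FA W) (g : W) : ∃ c : ZMod p, zt p c = ac (g : GQ) (rt p x) - rt p x := by
  apply exists_zt_eq
  rw [nsmul_sub, ← map_nsmul, p_rt, mem_FA'.1 hx g g.2, sub_self]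

variable (hμ : MuF p W)

/-- Kummer characters -/
noncomputable def chr (p : ℕ) [Fact p.Prime] (W : Subgroup GQ) (x : FA W) (g : W) : ZMod p :=
  (exists_chr x.2 g).choose

theorem chr_spec (x : FA W) (g : W) : zt p (chr p W x g) = ac (g : GQ) (rt p x) - rt p x :=
  (exists_chr x.2 g).choose_spec

include hμ

theorem chr_eq (x : FA W) {y : Ma} (hy : p • y = x) (g : W) : zt p (chr p W x g) = ac (g : GQ) y - y := by
  obtain ⟨c, hc⟩ := exists_zt_eq p (x := y - rt p x) (by rw [nsmul_sub, hy, p_rt, sub_self])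
  have h1 : y = rt p x + zt p c := by rw [hc]; abel
  rw [h1, map_add, hμ g g.2, chr_spec]; abel

theorem chr_add (x x' : FA W) (g : W) : chr p W (x + x') g = chr p W x g + chr p W x' g := by
  apply zt_injective p
  rw [map_add, chr_spec x, chr_spec x', chr_eq hμ (x + x') (y := rt p x + rt p x') (by
    rw [nsmul_add, p_rt, p_rt]; rfl), map_add]
  abel

theorem chr_mul (x : FA W) (g h : W) : chr p W x (g * h) = chr p W x g + chr p W x h := by
  apply zt_injective p
  have h1 : ac ((h : W) : GQ) (rt p x) = zt p (chr p W x h) + rt p x := by rw [chr_spec]; abel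
  rw [map_add, chr_spec x g, chr_spec, Subgroup.coe_mul, ac_mul, h1, map_add, hμ g g.2]
  abel

theorem chr_zero_iff (x : FA W) : chr p W x = 0 ↔ (x : Ma) ∈ pFA p W := by
  constructor
  · intro h
    refine ⟨rt p x, mem_FA'.2 fun g hg => ?_, p_rt _⟩
    have h1 := chr_spec (p := p) x ⟨g, hg⟩
    rw [h, Pi.zero_apply, map_zero] at h1
    exact (sub_eq_zero.1 h1.symm)
  · rintro ⟨t, ht, hx⟩
    funext g
    apply zt_injective p
    rw [chr_eq hμ x hx, mem_FA'.1 ht g g.2, sub_self, Pi.zero_apply, map_zero]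

/-- the character homomorphism -/
noncomputable def chrH (X : AddSubgroup Ma) (hX : X ≤ FA W) : X →+ (W → ZMod p) :=
  AddMonoidHom.mk' (fun x => chr p W ⟨x, hX x.2⟩) (fun x y => by
    funext g
    exact chr_add hμ ⟨x, hX x.2⟩ ⟨y, hX y.2⟩ g)

omit hμ in
theorem US_inf_pFA {T : Set Pl} {x : Ma} (hx : x ∈ US W T) (hx' : x ∈ pFA p W) : ∃ t ∈ US W T, p • t = x := by
  obtain ⟨t, ht, rfl⟩ := hx'
  refine ⟨t, ⟨ht, fun A hA => ?_⟩, rfl⟩
  have h1 := hx.2 A hA
  rw [vl_nsmul, A.ord_pow (vl_ne_zero _)] at h1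
  exact (mul_eq_zero.1 h1).resolve_left (by exact_mod_cast hp.out.ne_zero)

/-- torsion of `S`-units -/
theorem card_tors_US {T : Set Pl} : Nat.card (mulN p (US W T)).ker = p := by
  refine (Nat.card_congr ?_).trans (card_tors (p := p) (W := W) fun g hg ζ hζ => hμ.root g hg ζ hζ)
  refine ⟨fun x => ⟨⟨(x.1 : Ma), x.1.2.1⟩, ?_⟩, fun x => ⟨⟨(x.1 : Ma), x.1.2, fun A _ => ?_⟩, ?_⟩,
    fun x => rfl, fun x => rfl⟩
  · apply Subtype.ext
    have := congrArg Subtype.val x.2
    exact this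
  · have h1 : p • (x.1 : Ma) = 0 := by
      have := congrArg Subtype.val x.2
      exact this
    have h2 : vl (p • (x.1 : Ma)) = 1 := by rw [h1, vl_zero]
    have h3 := congrArg A.ord h2
    rw [vl_nsmul, A.ord_pow (vl_ne_zero _), A.ord_one] at h3
    exact (mul_eq_zero.1 h3).resolve_left (by exact_mod_cast hp.out.ne_zero)
  · apply Subtype.ext
    have := congrArg Subtype.val x.2
    exact this

/-- the index of `p`-th powers of `S`-units -/
theorem index_US (hW : IsOpen (W : Set GQ)) (hp2 : p ≠ 2) {J : Type} (a : J → Pl)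
    (s : Finset J) (hd : ∀ i ∈ s, ∀ j ∈ s, (∃ w ∈ W, w • a i = a j) → i = j) {m : ℕ} (hm : W.index = 2 * m) :
    (mulN p (US W (OB W a s))).range.index = p ^ (m + s.card) := by
  haveI := numberField_KW hW
  obtain ⟨h1, h2⟩ := phi_US hW hp2 hμ a s hd hm
  rw [qi, card_tors_US hμ, mul_div_cancel₀ _ (by exact_mod_cast hp.out.ne_zero)] at h2
  exact_mod_cast h2

theorem ker_chrH {T : Set Pl} : (chrH hμ (US W T) (fun x hx => hx.1)).ker = (mulN p (US W T)).range := by
  ext x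
  rw [AddMonoidHom.mem_ker]
  change chr p W ⟨(x : Ma), x.2.1⟩ = 0 ↔ _
  rw [chr_zero_iff hμ]
  constructor
  · intro h
    obtain ⟨t, ht, htx⟩ := US_inf_pFA x.2 h
    exact ⟨⟨t, ht⟩, Subtype.ext htx⟩
  · rintro ⟨t, ht⟩
    exact ⟨t, t.2.1, congrArg Subtype.val ht⟩

/-- **Dual families.** -/
theorem exists_dual_family (hW : IsOpen (W : Set GQ)) (hp2 : p ≠ 2) {J : Type} (a : J → Pl)
    (s : Finset J) (hd : ∀ i ∈ s, ∀ j ∈ s, (∃ w ∈ W, w • a i = a j) → i = j) {m : ℕ} (hm : W.index = 2 * m)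
    {y1 : Ma} (hy1 : p • y1 ∈ US W (OB W a s)) (hy1' : y1 ∉ FA W) :
    ∃ (k : ℕ) (g : Fin k → GQ) (y : Fin k → Ma), k + 1 = m + s.card ∧ (∀ i, g i ∈ W) ∧
      (∀ i, p • y i ∈ US W (OB W a s)) ∧ (∀ i j, ac (g i) (y j) = y j + zt p (if i = j then 1 else 0)) ∧
      ∀ i, ac (g i) y1 = y1 := by
  set X := US W (OB W a s) with hX
  let f := chrH hμ X (fun x hx => hx.1)
  let V := AddSubgroup.toZModSubmodule p f.range
  have hcard : Nat.card V = p ^ (m + s.card) := by
    rw [← index_US hμ hW hp2 a s hd hm, ← ker_chrH hμ, AddSubgroup.index_ker]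
    rfl
  haveI : Finite V := Nat.finite_of_card_ne_zero (by rw [hcard]; exact pow_ne_zero _ hp.out.ne_zero)
  haveI : Module.Finite (ZMod p) V := Module.Finite.of_finite
  have hfr : finrank (ZMod p) V = m + s.card := by
    have h2 := Module.natCard_eq_pow_finrank (K := ZMod p) (V := V)
    rw [hcard, Nat.card_zmod] at h2
    exact (Nat.pow_right_injective hp.out.two_le h2).symm
  have hhom : ∀ v ∈ V, ∀ g h, v (g * h) = v g + v h := by
    rintro _ ⟨x, rfl⟩ g h
    exact chr_mul hμ ⟨(x : Ma), x.2.1⟩ g h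
  have hv1 : f ⟨p • y1, hy1⟩ ∈ V := ⟨_, rfl⟩
  have hv1' : (⟨_, hv1⟩ : V) ≠ 0 := by
    intro h
    have h1 : f ⟨p • y1, hy1⟩ = 0 := congrArg Subtype.val h
    obtain ⟨t, ht, h2⟩ := (chr_zero_iff hμ _).1 h1
    obtain ⟨c, hc⟩ := exists_zt_eq p (x := y1 - t) (by rw [nsmul_sub, h2, sub_self])
    apply hy1'
    have : y1 = t + zt p c := by rw [hc]; abel
    rw [this]
    exact add_mem ht (hμ.mem c)
  obtain ⟨k, g, v, h1, h2, h3⟩ := exists_ev V hhom ⟨_, hv1⟩ hv1'
  choose x hx using fun j => (v j).2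
  refine ⟨k, fun i => g i, fun j => rt p (x j), by rw [h1, hfr], fun i => (g i).2, fun i => ?_,
    fun i j => ?_, fun i => ?_⟩
  · rw [p_rt]; exact (x i).2
  · have h4 : chr p W ⟨(x j : Ma), (x j).2.1⟩ (g i) = if i = j then 1 else 0 := by
      rw [← h2 i j, ← hx j]; rfl
    have h5 := chr_spec (p := p) ⟨(x j : Ma), (x j).2.1⟩ (g i)
    rw [h4] at h5
    rw [h5]
    abel
  · have h4 : chr p W ⟨p • y1, hy1.1⟩ (g i) = 0 := h3 i
    have h5 := chr_eq hμ ⟨p • y1, hy1.1⟩ (y := y1) rfl (g i)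
    rw [h4, map_zero] at h5
    exact sub_eq_zero.1 h5.symm

end Kummer

end Fermat.Agent.CFT
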