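import Fermat.Agent.CFT.Gl7
import Fermat.Agent.Cheb.Places

/-!
# Frobenius elements with prescribed behaviour
-/

set_option autoImplicit false
set_option linter.unusedSectionVars false
set_option linter.unusedVariables false
set_option linter.style.haveILetI false

namespace Fermat.Agent.CFT

open Module NumberField Fermat.Agent.Places
open scoped Pointwise

/-- only finitely many primes ramify -/
theorem exists_unram {N : Subgroup GQ} (hN : IsOpen (N : Set GQ)) :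
    ∃ S0 : Finset ℕ, ∀ A : Pl, A.ell ∉ S0 → Ine A ≤ N := by
  classical
  obtain ⟨E, h1, h2, h3⟩ := (krullTopology_mem_nhds_one_iff_of_normal ℚ Qb (N : Set GQ)).1
    (hN.mem_nhds (one_mem N))
  haveI := h1
  set W' : Subgroup GQ := E.fixingSubgroup with hW'
  have hW'o : IsOpen (W' : Set GQ) := IntermediateField.fixingSubgroup_isOpen E
  haveI := numberField_KW hW'o
  haveI := finiteIndex_of_isOpen hW'o
  have hn : W'.Normal := @fixing_normal E h2
  letI := Fintype.ofFinite (GQ ⧸ W')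
  have hmem : ∀ x ∈ E, x ∈ KW W' := fun x hx => mem_KW.2 fun g hg =>
    (IntermediateField.mem_fixingSubgroup_iff _ _).1 hg x hx
  -- finite sets
  have hfin : ∀ x ∈ E, ∀ g : GQ, ∃ T : Finset ℕ, ∀ B : Pl, B.ell ∉ T → g x - x ≠ 0 → B.ord (g x - x) = 0 := by
    intro x hx g
    by_cases h0 : g x - x = 0
    · exact ⟨∅, fun B _ h => absurd h0 h⟩
    · have hgx : g x ∈ KW W' := mem_KW.2 fun w hw => by
        have h4 : g⁻¹ * w * g ∈ W' := by
          have := hn.conj_mem w hw g⁻¹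
          rwa [inv_inv] at this
        have h5 := mem_KW.1 (hmem x hx) _ h4
        have h6 := congrArg g h5
        exact (g.apply_symm_apply (w (g x))).symm.trans h6
      obtain ⟨T, hT⟩ := finite_support' (sub_mem hgx (hmem x hx)) h0
      exact ⟨T, fun B hB _ => hT B hB⟩
  have hfin0 : ∀ x ∈ E, ∃ T : Finset ℕ, ∀ B : Pl, B.ell ∉ T → x ∈ B.v := by
    intro x hx
    by_cases h0 : x = 0
    · exact ⟨∅, fun B _ => by rw [h0]; exact zero_mem _⟩
    · obtain ⟨T, hT⟩ := finite_support' (hmem _ hx) h0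
      exact ⟨T, fun B hB => (B.ord_nonneg_iff h0).1 (hT B hB).ge⟩
  let b := finBasis ℚ E
  choose T hT using fun (i : Fin (finrank ℚ E)) (q : GQ ⧸ W') => hfin (b i : Qb) (b i).2 q.out
  choose T0 hT0 using fun (i : Fin (finrank ℚ E)) => hfin0 (b i : Qb) (b i).2
  refine ⟨(Finset.univ.biUnion fun i => Finset.univ.biUnion fun q => T i q) ∪
    Finset.univ.biUnion T0, fun A hA g hg => h3 ?_⟩
  rw [Finset.mem_union, not_or] at hA
  simp only [Finset.mem_biUnion, Finset.mem_univ, true_and, not_exists] at hA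
  have hb : ∀ i, g (b i : Qb) = b i := by
    intro i
    by_contra hne
    have h4 : g (b i : Qb) = ((g : GQ ⧸ W').out : GQ) (b i : Qb) := by
      have h5 : g⁻¹ * ((g : GQ ⧸ W').out : GQ) ∈ W' := by
        rw [← QuotientGroup.eq]; exact (QuotientGroup.out_eq' _).symm
      have h6 := (IntermediateField.mem_fixingSubgroup_iff _ _).1 h5 (b i : Qb) (b i).2
      have h7 := congrArg g h6
      rw [← h7]
      exact (g.apply_symm_apply _)
    have h5 := (mem_Ine.1 hg).2 (b i : Qb) (hT0 i A (hA.2 i))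
    have h6 : g (b i : Qb) - b i ≠ 0 := sub_ne_zero.2 hne
    have h7 := (A.ord_pos_iff h6).2 h5
    rw [h4] at h6 h7
    rw [hT i _ A (hA.1 i _) h6] at h7
    exact lt_irrefl _ h7
  refine (IntermediateField.mem_fixingSubgroup_iff E g).2 ?_
  intro x hx
  have h4 : (g.toLinearMap ∘ₗ E.val.toLinearMap : E →ₗ[ℚ] Qb) = E.val.toLinearMap :=
    b.ext fun i => hb i
  exact LinearMap.congr_fun h4 ⟨x, hx⟩

/-- Frobenius density -/
theorem exists_frob (S0 : Finset ℕ) {N : Subgroup GQ} (hN : IsOpen (N : Set GQ)) (g : GQ) :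
    ∃ A : Pl, A.ell ∉ S0 ∧ ∃ Φ, IsFr A Φ ∧ ∃ n m : ℕ, g⁻¹ * Φ ^ n ∈ N ∧ Φ⁻¹ * g ^ m ∈ N := by
  obtain ⟨ℓ, hℓ, hℓS, A, hA, τ, hτ, n, m, h1, h2⟩ := Cheb.exists_isFrobeniusAt_pow_mem (L := Qb)
    (S0 : Set ℕ) S0.finite_toSet N hN g
  let A' : Pl := ⟨A, ℓ, hℓ, hA⟩
  have he : A'.ell = ℓ := A'.ell_unique hℓ hA
  refine ⟨A', by rw [he]; exact hℓS, τ, isFr_of (by rw [he]; exact hτ), n, m, h1, h2⟩

/-- decomposition groups at unramified places are generated by Frobenius -/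
theorem dec_frob {A : Pl} {N : Subgroup GQ} (hN : IsOpen (N : Set GQ)) (hNn : N.Normal)
    (hI : Ine A ≤ N) {Φ : GQ} (hΦ : IsFr A Φ) {d : GQ} (hd : d ∈ Dec A) : ∃ i : ℕ, (Φ ^ i)⁻¹ * d ∈ N := by
  obtain ⟨E, h1, h2, h3⟩ := (krullTopology_mem_nhds_one_iff_of_normal ℚ Qb (N : Set GQ)).1
    (hN.mem_nhds (one_mem N))
  haveI := h1
  obtain ⟨i, τ, hτ, h⟩ := exists_frob_inertia hΦ hd E
  refine ⟨i, ?_⟩
  have h4 : (Φ ^ i * τ)⁻¹ * d ∈ N := by
    apply h3
    refine (IntermediateField.mem_fixingSubgroup_iff E _).2 fun x hx => ?_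
    have h5 := h x hx
    change (Φ ^ i * τ)⁻¹ (d x) = x
    rw [h5]
    exact (Φ ^ i * τ).symm_apply_apply x
  have h5 : (Φ ^ i)⁻¹ * d = τ * ((Φ ^ i * τ)⁻¹ * d) := by group
  rw [h5]
  exact mul_mem (hI hτ) h4

variable {p : ℕ} [hp : Fact p.Prime] {W : Subgroup GQ} {J : Type}

theorem ac_fix_of {N : Subgroup GQ} {y : Ma} (hy : ∀ n ∈ N, ac n y = y) {g h : GQ} (hgh : g⁻¹ * h ∈ N) :
    ac g y = ac h y := by
  have := hy _ hgh
  have h1 : h = g * (g⁻¹ * h) := by group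
  rw [h1, ac_mul, this]

theorem ac_pow_zt (hμ : MuF p W) {g : GQ} (hg : g ∈ W) {y : Ma} {c : ZMod p} (h : ac g y = y + zt p c) (n : ℕ) :
    ac (g ^ n) y = y + zt p (n * c) := by
  induction n with
  | zero => simp
  | succ n ih =>
    rw [pow_succ, ac_mul, h, map_add, ih, hμ _ (pow_mem hg n)]
    push_cast
    rw [add_mul, one_mul, map_add]; abel

/-- **Chevalley's auxiliary places.** -/
theorem exists_chev (hμ : MuF p W) (hW : IsOpen (W : Set GQ)) (hp2 : p ≠ 2) (a : J → Pl)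
    (s : Finset J) (hd : ∀ i ∈ s, ∀ j ∈ s, (∃ w ∈ W, w • a i = a j) → i = j) {m : ℕ} (hm : W.index = 2 * m)
    {y1 : Ma} (hy1 : p • y1 ∈ US W (OB W a s)) (hy1' : y1 ∉ FA W) (S1 : Finset ℕ) :
    ∃ (k : ℕ) (A : Fin k → Pl) (x : Fin k → Ma), k + 1 = m + s.card ∧ (∀ i, Dec (A i) ≤ W) ∧
      (∀ i, y1 ∈ FA (Dec (A i))) ∧ (∀ i, A i ∉ OB W a s) ∧ (∀ i j, (∃ w ∈ W, w • A i = A j) → i = j) ∧
      (∀ i, x i ∈ US W (OB W a s)) ∧ (∀ i j, i ≠ j → x j ∈ pFA p (Dec (A i))) ∧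
      (∀ i, x i ∉ pFA p (Dec (A i))) ∧ ∀ i, (A i).ell ∉ S1 := by
  classical
  obtain ⟨k, g, y, h1, h2, h3, h4, h5⟩ := exists_dual_family hμ hW hp2 a s hd hm hy1 hy1'
  -- a small open subgroup
  obtain ⟨N, hNS, hNW, hNy1, hNy⟩ : ∃ N ∈ SL.carrier, N ≤ W ∧ (∀ n ∈ N, ac n y1 = y1) ∧
      ∀ i, ∀ n ∈ N, ac n (y i) = y i := by
    obtain ⟨N0, hN0, hN0W⟩ := SL_exists hW
    obtain ⟨N1, hN1, hN1y⟩ := SL_fix y1
    choose N2 hN2 hN2y using fun i => SL_fix (y i)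
    have key : ∀ t : Finset (Fin k), ∃ N ∈ SL.carrier, N ≤ N0 ∧ N ≤ N1 ∧ ∀ i ∈ t, N ≤ N2 i := by
      intro t
      induction t using Finset.induction_on with
      | empty =>
        obtain ⟨N, hN, h6, h7⟩ := SL.directed _ hN0 _ hN1
        exact ⟨N, hN, h6, h7, by simp⟩
      | insert i t _ ih =>
        obtain ⟨N, hN, h6, h7, h8⟩ := ih
        obtain ⟨N', hN', h9, h10⟩ := SL.directed _ hN _ (hN2 i)
        refine ⟨N', hN', h9.trans h6, h9.trans h7, fun j hj => ?_⟩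
        rcases Finset.mem_insert.1 hj with rfl | hj
        · exact h10
        · exact h9.trans (h8 j hj)
    obtain ⟨N, hN, h6, h7, h8⟩ := key Finset.univ
    exact ⟨N, hN, h6.trans hN0W, fun n hn => hN1y n (h7 hn), fun i n hn => hN2y i n (h8 i (Finset.mem_univ _) hn)⟩
  obtain ⟨S0, hS0⟩ := exists_unram (SL_open N hNS)
  choose A hA Φ hΦ n m' hn hm' using fun i => exists_frob (S0 ∪ S1 ∪ s.image fun j => (a j).ell) (SL_open N hNS) (g i)
  have hAS0 : ∀ i, (A i).ell ∉ S0 := fun i h => hA i (by simp [h])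
  have hAS1 : ∀ i, (A i).ell ∉ S1 := fun i h => hA i (by simp [h])
  have hAs : ∀ i, ∀ j ∈ s, (A i).ell ≠ (a j).ell := fun i j hj h => hA i (by
    rw [Finset.mem_union]; right; rw [h]; exact Finset.mem_image_of_mem _ hj)
  haveI hNn := SL.normal N hNS
  have hfr : ∀ i, ∀ d ∈ Dec (A i), ∃ l : ℕ, (Φ i ^ l)⁻¹ * d ∈ N := fun i d hd =>
    dec_frob (SL_open N hNS) hNn (hS0 (A i) (hAS0 i)) (hΦ i) hd
  have hΦW : ∀ i, Φ i ∈ W := fun i => by
    have h6 : (Φ i)⁻¹ * g i ^ m' i ∈ W := hNW (hm' i)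
    have h7 : g i ^ m' i ∈ W := pow_mem (h2 i) _
    have h8 : (Φ i)⁻¹ ∈ W := (W.mul_mem_cancel_right h7).1 h6
    exact inv_mem_iff.1 h8
  have hDW : ∀ i, Dec (A i) ≤ W := fun i d hd => by
    obtain ⟨l, hl⟩ := hfr i d hd
    have : d = Φ i ^ l * ((Φ i ^ l)⁻¹ * d) := by group
    rw [this]
    exact mul_mem (pow_mem (hΦW i) l) (hNW hl)
  -- action of `Φ`
  have hΦy : ∀ i j, ac (Φ i) (y j) = y j + zt p (m' i * (if i = j then 1 else 0)) := fun i j => by
    rw [ac_fix_of (hNy j) (hm' i), ac_pow_zt hμ (h2 i) (h4 i j)]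
  have hΦy1 : ∀ i, ac (Φ i) y1 = y1 := fun i => by
    rw [ac_fix_of hNy1 (hm' i)]
    have h6 : ac (g i) y1 = y1 + zt p 0 := by rw [map_zero, add_zero]; exact h5 i
    rw [ac_pow_zt hμ (h2 i) h6, mul_zero, map_zero, add_zero]
  have hmne : ∀ i, (m' i : ZMod p) ≠ 0 := by
    intro i h0
    have h6 : ac (Φ i) (y i) = y i + zt p 0 := by
      rw [hΦy, if_pos rfl, h0, zero_mul]
    have h7 := ac_pow_zt hμ (hΦW i) h6 (n i)
    rw [mul_zero, ← ac_fix_of (hNy i) (hn i), h4 i i, if_pos rfl] at h7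
    have h8 := add_left_cancel h7
    exact one_ne_zero (zt_injective p h8)
  have hfixj : ∀ i j, i ≠ j → y j ∈ FA (Dec (A i)) := by
    intro i j hij
    rw [mem_FA']
    intro d hd
    obtain ⟨l, hl⟩ := hfr i d hd
    rw [← ac_fix_of (hNy j) hl, ac_pow_zt hμ (hΦW i) (hΦy i j), if_neg hij, mul_zero, mul_zero, map_zero,
      add_zero]
  have hnfix : ∀ i, y i ∉ FA (Dec (A i)) := by
    intro i h
    have h6 := mem_FA'.1 h (Φ i) (hΦ i).1
    rw [hΦy, if_pos rfl, mul_one] at h6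
    have h7 : zt p (m' i : ZMod p) = 0 := by
      have := h6; rwa [add_eq_left] at this
    exact hmne i (zt_eq_zero p |>.1 h7)
  refine ⟨k, A, fun i => p • y i, h1, hDW, fun i => ?_, fun i => ?_, fun i j => ?_, h3, fun i j hij =>
    ⟨y j, hfixj i j hij, rfl⟩, fun i => ?_, hAS1⟩
  · rw [mem_FA']
    intro d hd
    obtain ⟨l, hl⟩ := hfr i d hd
    rw [← ac_fix_of hNy1 hl]
    have h6 : ac (Φ i) y1 = y1 + zt p 0 := by rw [map_zero, add_zero]; exact hΦy1 i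
    rw [ac_pow_zt hμ (hΦW i) h6, mul_zero, map_zero, add_zero]
  · rintro ⟨j, hj, w, hw, h6⟩
    apply hAs i j hj
    rw [← h6, Pl.ell_smul]
  · rintro ⟨w, hw, h6⟩
    by_contra hij
    have h7 : w * Φ i * w⁻¹ ∈ Dec (A j) := by
      rw [mem_Dec, ← h6, mul_smul, mul_smul, inv_smul_smul]
      congr 1
      exact (hΦ i).1
    have h8 := mem_FA'.1 (hfixj j i (Ne.symm hij)) _ h7
    -- `y i` is fixed by `w Φ w⁻¹`
    obtain ⟨c, hc⟩ := exists_chr (p := p) (W := W) (h3 i).1 ⟨w⁻¹, inv_mem hw⟩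
    obtain ⟨c', hc'⟩ := exists_zt_eq p (x := ac w⁻¹ (y i) - y i) (by
      rw [nsmul_sub, ← map_nsmul, mem_FA'.1 (h3 i).1 _ (inv_mem hw), sub_self])
    have h9 : ac w⁻¹ (y i) = y i + zt p c' := by rw [hc']; abel
    rw [ac_mul, ac_mul, h9, map_add, hμ _ (hΦW i), hΦy, if_pos rfl, mul_one] at h8
    have h10 := congrArg (ac w⁻¹) h8
    rw [ac_inv_ac, h9] at h10
    have h11 : zt p (m' i : ZMod p) = 0 := by
      have : y i + zt p (m' i : ZMod p) + zt p c' = (y i + zt p c') + zt p (m' i : ZMod p) := by abel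
      rw [this, add_eq_left] at h10
      exact h10
    exact hmne i (zt_eq_zero p |>.1 h11)
  · rintro ⟨t, ht, htx⟩
    obtain ⟨c, hc⟩ := exists_zt_eq p (x := y i - t) (by rw [nsmul_sub, htx, sub_self])
    apply hnfix i
    have : y i = t + zt p c := by rw [hc]; abel
    rw [this]
    exact add_mem ht ((hμ.mono (hDW i)).mem c)

end Fermat.Agent.CFT
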