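import Fermat.Agent.CFT.Gl8

/-!
# Unramified places
-/

set_option autoImplicit false
set_option linter.unusedSectionVars false
set_option linter.unusedVariables false
set_option linter.style.haveILetI false

namespace Fermat.Agent.CFT

open Module NumberField Fermat.Agent.Places
open scoped Pointwise

section Int

variable {A : Pl}

/-- local groups containing inertia contain some `RR` -/
theorem exists_RR_le {V : Subgroup GQ} (hV : IsLoc A V) (hI : Ine A ≤ V) : ∃ n, n ≠ 0 ∧ RR A n ≤ V := by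
  obtain ⟨N, hN, hNV⟩ := hV.op
  obtain ⟨E, h1, h2, h3⟩ := (krullTopology_mem_nhds_one_iff_of_normal ℚ Qb (N : Set GQ)).1
    (hN.mem_nhds (one_mem N))
  haveI := h1
  obtain ⟨n, hn0, hn⟩ := exists_pow_residue A E
  refine ⟨n, hn0, fun g hg => ?_⟩
  obtain ⟨hgD, hgr⟩ := mem_RR.1 hg
  obtain ⟨i, hi⟩ := exists_frob_pow hgD hn0
  -- `x ^ (ℓ ^ i) ≡ x`
  have hli : A.ell ^ n - 1 ∣ A.ell ^ i - 1 := by
    obtain ⟨ζ, hζ⟩ := exists_primN (A := A) hn0
    have hN0 := ell_pow_sub_one_ne_zero (A := A) hn0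
    have hNd := not_dvd_pow_sub_one (A := A) hn0
    have h4 : ζ ^ A.ell ^ n = ζ := by
      have : A.ell ^ n = A.ell ^ n - 1 + 1 := by omega
      rw [this, pow_succ, hζ.pow_eq_one, one_mul]
    have h5 := hi ζ (mem_v_of_root hN0 hζ.pow_eq_one) (by
      rw [h4, sub_self]; exact zero_mem_nonunits A.v)
    rw [hgr ζ hζ.pow_eq_one] at h5
    have h6 : ζ = ζ ^ A.ell ^ i := Pl.eq_of_root hNd hζ.pow_eq_one (by
      rw [← pow_mul, mul_comm, pow_mul, hζ.pow_eq_one, one_pow]) h5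
    have h7 : 1 ≤ A.ell ^ i := Nat.one_le_pow _ _ A.ell_pos
    apply hζ.dvd_of_pow_eq_one
    have hζ0 : ζ ≠ 0 := hζ.ne_zero hN0
    have h8 : A.ell ^ i = A.ell ^ i - 1 + 1 := by omega
    rw [h8, pow_succ] at h6
    have h9 : 1 * ζ = ζ ^ (A.ell ^ i - 1) * ζ := by rw [one_mul]; exact h6
    exact (mul_right_cancel₀ hζ0 h9).symm
  have key : ∀ x ∈ A.v, x ^ A.ell ^ n - x ∈ A.v.nonunits → g x - x ∈ A.v.nonunits := by
    intro x hx hxn
    have h4 := hi x hx hxn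
    have h5 : x ^ A.ell ^ i - x ∈ A.v.nonunits := by
      obtain ⟨c, hc⟩ := hli
      have h7 : 1 ≤ A.ell ^ i := Nat.one_le_pow _ _ A.ell_pos
      have h7' : 1 ≤ A.ell ^ n := Nat.one_le_pow _ _ A.ell_pos
      by_cases hxu : x ∈ A.v.nonunits
      · have h8 : A.ell ^ i = A.ell ^ i - 1 + 1 := by omega
        rw [h8, pow_succ]
        have h9 : x ^ (A.ell ^ i - 1) * x - x = x * (x ^ (A.ell ^ i - 1) - 1) := by ring
        rw [h9]
        exact mul_mem_nonunits A.v hxu (sub_mem (pow_mem hx _) (one_mem _))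
      · have h8 : x * (x ^ (A.ell ^ n - 1) - 1) ∈ A.v.nonunits := by
          have : x * (x ^ (A.ell ^ n - 1) - 1) = x ^ A.ell ^ n - x := by
            have h8 : A.ell ^ n = A.ell ^ n - 1 + 1 := by omega
            conv_rhs => rw [h8, pow_succ]
            ring
          rwa [this]
        have h9 : x ^ (A.ell ^ n - 1) - 1 ∈ A.v.nonunits :=
          (mem_nonunits_or_of_mul A.v hx (sub_mem (pow_mem hx _) (one_mem _)) h8).resolve_left hxu
        have h10 : x ^ (A.ell ^ i - 1) - 1 ∈ A.v.nonunits := by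
          rw [hc, pow_mul]
          have := pow_sub_pow_mem (pow_mem hx _) (one_mem _) h9 c
          rwa [one_pow] at this
        have h11 : A.ell ^ i = A.ell ^ i - 1 + 1 := by omega
        rw [h11, pow_succ]
        have h12 : x ^ (A.ell ^ i - 1) * x - x = (x ^ (A.ell ^ i - 1) - 1) * x := by ring
        rw [h12]
        exact mul_mem_nonunits A.v h10 hx
    have := add_mem_nonunits A.v h4 h5
    rwa [sub_add_sub_cancel] at this
  obtain ⟨τ, hτ, hτE⟩ := exists_inertia_eq E A.v g (congrArg Pl.v hgD) A.ell_prime A.liesOver_ell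
    (fun z hz hzi => key z (mem_of_isIntegral_int A.v hzi) (hn z hz hzi))
  have h4 : τ⁻¹ * g ∈ N := by
    apply h3
    refine (IntermediateField.mem_fixingSubgroup_iff E _).2 fun x hx => ?_
    change τ⁻¹ (g x) = x
    rw [← hτE x hx]
    exact τ.symm_apply_apply x
  have hτI : τ ∈ Ine A := hτ
  have h5 : τ⁻¹ * g ∈ V := hNV ⟨(Dec A).mul_mem ((Dec A).inv_mem (hV.le (hI hτI))) hgD, h4⟩
  have h6 : g = τ * (τ⁻¹ * g) := by group
  rw [h6]
  exact mul_mem (hI hτI) h5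

/-- **unramified fields have integral orders** -/
theorem int_ord {V : Subgroup GQ} (hV : IsLoc A V) (hI : Ine A ≤ V) {z : Ma} (hz : z ∈ FA V) :
    ∃ m : ℤ, A.ord (vl z) = m := by
  obtain ⟨n, hn, hle⟩ := exists_RR_le hV hI
  obtain ⟨m, σ, hσ⟩ := exists_cyc_RR (A := A) (le_refl (Dec A)) hn
  obtain ⟨y, hy, hyz⟩ := sameVal_RR (le_refl (Dec A)) hn hσ z (FA_mono (inf_le_right.trans hle) hz)
  rw [← hyz]
  exact A.exists_ord_int (vl_ne_zero y) fun g hg => mem_FA.1 hy g hg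

theorem int_ord' {W : Subgroup GQ} (hW : IsOpen (W : Set GQ)) (hI : Ine A ≤ W) {z : Ma}
    (hz : z ∈ FA (W ⊓ Dec A)) : ∃ m : ℤ, A.ord (vl z) = m :=
  int_ord (isLoc_inf hW A) (le_inf hI fun g hg => (mem_Ine.1 hg).1) hz

/-- the residue characteristic as an element -/
noncomputable def ellM (A : Pl) : Ma := mk0 (A.ell : Qb) A.ell_ne_zero

theorem ellM_mem (W : Subgroup GQ) : ellM A ∈ FA W := fun g _ => by
  rw [ellM, vl_mk0, map_natCast]

theorem ord_ellM : A.ord (vl (ellM A)) = 1 := by rw [ellM, vl_mk0, A.ord_ell]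

theorem unrO_of {W W' : Subgroup GQ} {T : Set Pl} (hW' : IsOpen (W' : Set GQ))
    (h : ∀ A ∉ T, Ine A ≤ W') : UnrO W W' T := by
  intro A hA x hx
  obtain ⟨m, hm⟩ := int_ord' hW' (h A hA) (FA_mono inf_le_left hx)
  refine ⟨m • ellM A, zsmul_mem (ellM_mem W) m, ?_⟩
  rw [vl_zsmul, A.ord_zpow (vl_ne_zero _), ord_ellM, hm, mul_one]

variable {p : ℕ} [hp : Fact p.Prime]

/-- inertia fixes `p`-th roots -/
theorem ine_fix (hell : A.ell ≠ p) {y : Ma} {c : ZMod p} (hk : ∃ k : ℤ, A.ord (vl y) = k) {g : GQ}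
    (hg : g ∈ Ine A) (h : ac g y = y + zt p c) : c = 0 := by
  obtain ⟨k, hk⟩ := hk
  set u : Ma := y - k • ellM A with hu
  have h1 : A.ord (vl u) = 0 := by
    rw [hu, sub_eq_add_neg, vl_add, vl_neg, A.ord_mul (vl_ne_zero _) (inv_ne_zero (vl_ne_zero _)),
      A.ord_inv (vl_ne_zero _), vl_zsmul, A.ord_zpow (vl_ne_zero _), ord_ellM, hk]
    ring
  have h2 : ac g u = u + zt p c := by
    have h3 : ac g (k • ellM A) = k • ellM A := by
      rw [map_zsmul, mem_FA'.1 (ellM_mem ⊤) g (Subgroup.mem_top g)]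
    rw [hu, map_sub, h, h3]; abel
  have hu0 : vl u ∈ A.v := (A.ord_nonneg_iff (vl_ne_zero u)).1 h1.ge
  have h3 := (mem_Ine.1 hg).2 _ hu0
  rw [← vl_ac, h2, vl_add] at h3
  have h4 : vl u * vl (zt p c) - vl u = vl u * (vl (zt p c) - 1) := by ring
  rw [h4] at h3
  have hroot : (vl (zt p c)) ^ p = 1 := by rw [← vl_nsmul, p_zt, vl_zero]
  have h5 : vl u ∉ A.v.nonunits := fun h => by
    have := (A.ord_pos_iff (vl_ne_zero u)).2 h
    rw [h1] at this; exact lt_irrefl _ this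
  have hpz : vl (zt p c) ∈ A.v := mem_v_of_root hp.out.ne_zero hroot
  have h6 := (mem_nonunits_or_of_mul A.v hu0 (sub_mem hpz (one_mem _)) h3).resolve_left h5
  have hnd : ¬ A.ell ∣ p := fun h => hell ((Nat.prime_dvd_prime_iff_eq A.ell_prime hp.out).1 h)
  have h7 : vl (zt p c) = 1 := Pl.eq_of_root hnd hroot (one_pow _) h6
  rw [← vl_zero, vl_inj] at h7
  exact (zt_eq_zero p).1 h7

/-- units modulo `p`-th powers -/
theorem unit_span (hp2 : p ≠ 2) {V : Subgroup GQ} (hV : IsLoc A V) (hμ : MuF p V) (hell : A.ell ≠ p)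
    {ξ u : Ma} (hξ : ξ ∈ UA V A) (hξ' : ξ ∉ pFA p V) (hu : u ∈ UA V A) : ∃ c : ℕ, u - c • ξ ∈ pFA p V := by
  obtain ⟨h1, h2⟩ := phi_UA hV hp2
  have heps : A.eps p = 0 := if_neg hell
  rw [heps, pow_zero, qi] at h2
  have htors : Nat.card (mulN p (UA V A)).ker = p := by
    refine (Nat.card_congr ?_).trans (card_tors (p := p) (W := V) fun g hg ζ hζ => hμ.root g hg ζ hζ)
    refine ⟨fun x => ⟨⟨(x.1 : Ma), x.1.2.1⟩, ?_⟩, fun x => ⟨⟨(x.1 : Ma), x.1.2, ?_⟩, ?_⟩,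
      fun x => rfl, fun x => rfl⟩
    · apply Subtype.ext
      have := congrArg Subtype.val x.2
      exact this
    · have h1 : p • (x.1 : Ma) = 0 := by
        have := congrArg Subtype.val x.2
        exact this
      have h2 : vl (p • (x.1 : Ma)) = 1 := by rw [h1, vl_zero]
      have h3 := congrArg A.ord h2
      rw [vl_nsmul, A.ord_pow (vl_ne_zero _), A.ord_one] at h3
      exact (mul_eq_zero.1 h3).resolve_left (by exact_mod_cast hp.out.ne_zero)
    · apply Subtype.ext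
      have := congrArg Subtype.val x.2
      exact this
  rw [htors, div_eq_one_iff_eq (by exact_mod_cast hp.out.ne_zero)] at h2
  have h3 : (mulN p (UA V A)).range.relIndex ⊤ = p := by
    rw [AddSubgroup.relIndex_top_right]; exact_mod_cast h2
  obtain ⟨c, hc⟩ := exists_nsmul_sub_mem (z' := (⟨ξ, hξ⟩ : UA V A)) (z := (⟨u, hu⟩ : UA V A)) h3
    (AddSubgroup.mem_top _) (fun ⟨t, ht⟩ => hξ' ⟨t, t.2.1, congrArg Subtype.val ht⟩) (AddSubgroup.mem_top _)
  obtain ⟨t, ht⟩ := hc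
  exact ⟨c, t, t.2.1, congrArg Subtype.val ht⟩

end Int

section Reps

/-- orbit representatives -/
theorem exists_reps {W : Subgroup GQ} (hW : IsOpen (W : Set GQ)) (T0 : Finset ℕ) :
    ∃ s : Finset Pl, (∀ A : Pl, A.ell ∈ T0 ↔ ∃ B ∈ s, ∃ w ∈ W, w • B = A) ∧
      ∀ B ∈ s, ∀ B' ∈ s, (∃ w ∈ W, w • B = B') → B = B' := by
  classical
  obtain ⟨L, hL⟩ := finite_orbits hW T0
  have key : ∀ L : Finset Pl, ∃ s ⊆ L, (∀ B ∈ L, ∃ B' ∈ s, ∃ w ∈ W, w • B' = B) ∧
      ∀ B ∈ s, ∀ B' ∈ s, (∃ w ∈ W, w • B = B') → B = B' := by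
    intro L
    induction L using Finset.induction_on with
    | empty => exact ⟨∅, by simp, by simp, by simp⟩
    | insert C L hC ih =>
      obtain ⟨s, h1, h2, h3⟩ := ih
      by_cases hc : ∃ B' ∈ s, ∃ w ∈ W, w • B' = C
      · refine ⟨s, h1.trans (Finset.subset_insert _ _), fun B hB => ?_, h3⟩
        rcases Finset.mem_insert.1 hB with rfl | hB
        · exact hc
        · exact h2 B hB
      · refine ⟨insert C s, Finset.insert_subset_insert _ h1, fun B hB => ?_, fun B hB B' hB' h => ?_⟩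
        · rcases Finset.mem_insert.1 hB with rfl | hB
          · exact ⟨B, Finset.mem_insert_self _ _, 1, one_mem _, one_smul _ _⟩
          · obtain ⟨B', hB', h⟩ := h2 B hB
            exact ⟨B', Finset.mem_insert_of_mem hB', h⟩
        · obtain ⟨w, hw, h⟩ := h
          rcases Finset.mem_insert.1 hB with h4 | hB
          · rcases Finset.mem_insert.1 hB' with h5 | hB'
            · rw [h4, h5]
            · exfalso
              refine hc ⟨B', hB', w⁻¹, inv_mem hw, ?_⟩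
              rw [← h, inv_smul_smul, h4]
          · rcases Finset.mem_insert.1 hB' with h5 | hB'
            · exfalso
              exact hc ⟨B, hB, w, hw, by rw [h, h5]⟩
            · exact h3 B hB B' hB' ⟨w, hw, h⟩
  obtain ⟨s, h1, h2, h3⟩ := key (L.filter fun A => A.ell ∈ T0)
  refine ⟨s, fun A => ⟨fun hA => ?_, ?_⟩, h3⟩
  · obtain ⟨B, hB, w, hw, h⟩ := hL A hA
    have hBe : B.ell ∈ T0 := by rw [← h, Pl.ell_smul] at hA; exact hA
    obtain ⟨B', hB', w', hw', h'⟩ := h2 B (Finset.mem_filter.2 ⟨hB, hBe⟩)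
    exact ⟨B', hB', w * w', mul_mem hw hw', by rw [mul_smul, h', h]⟩
  · rintro ⟨B, hB, w, hw, rfl⟩
    rw [Pl.ell_smul]
    exact (Finset.mem_filter.1 (h1 hB)).2

/-- **The sum of local degrees.** -/
theorem sum_local {W : Subgroup GQ} (hW : IsOpen (W : Set GQ)) {q : ℕ} {J : Type} (a : J → Pl) (s : Finset J)
    (hex : ∃ A : Pl, A.ell = q)
    (hell : ∀ j ∈ s, (a j).ell = q) (hcov : ∀ A : Pl, A.ell = q → ∃ j ∈ s, ∃ w ∈ W, w • a j = A)
    (hd : ∀ i ∈ s, ∀ j ∈ s, (∃ w ∈ W, w • a i = a j) → i = j) :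
    ∑ j ∈ s, (W ⊓ Dec (a j)).relIndex (Dec (a j)) = W.index := by
  classical
  obtain ⟨A0, hA0⟩ := hex
  haveI := finiteIndex_of_isOpen hW
  choose h hh using fun j : s => exists_smul_of_ell (A := A0) (B := a j) (by rw [hA0, hell j j.2])
  let F : (Σ j : s, Dec (a j) ⧸ (W ⊓ Dec (a j)).subgroupOf (Dec (a j))) → GQ ⧸ W := fun x =>
    Quotient.liftOn' x.2 (fun d => (((h x.1)⁻¹ * (d : GQ) : GQ) : GQ ⧸ W)) (fun d d' hdd => by
      rw [QuotientGroup.leftRel_apply] at hdd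
      apply QuotientGroup.eq.2
      have h1 : (d : GQ)⁻¹ * d' ∈ W := (show ((d⁻¹ * d' : Dec (a x.1)) : GQ) ∈ W ⊓ Dec (a x.1) from hdd).1
      have h2 : ((h x.1)⁻¹ * (d : GQ))⁻¹ * ((h x.1)⁻¹ * (d' : GQ)) = (d : GQ)⁻¹ * d' := by group
      rw [h2]; exact h1)
  have hF : ∀ (j : s) (d : Dec (a j)), F ⟨j, (d : Dec (a j) ⧸ _)⟩ = (((h j)⁻¹ * (d : GQ) : GQ) : GQ ⧸ W) :=
    fun j d => rfl
  have hFinj : Function.Injective F := by
    rintro ⟨i, x⟩ ⟨j, y⟩ hxy
    obtain ⟨d, rfl⟩ := QuotientGroup.mk_surjective x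
    obtain ⟨d', rfl⟩ := QuotientGroup.mk_surjective y
    rw [hF, hF, QuotientGroup.eq] at hxy
    have h1 : ((h i)⁻¹ * (d : GQ))⁻¹ * ((h j)⁻¹ * (d' : GQ)) = (d : GQ)⁻¹ * h i * (h j)⁻¹ * d' := by group
    rw [h1] at hxy
    have h2 : ((d : GQ)⁻¹ * h i * (h j)⁻¹ * d') • a j = a i := by
      have e1 : (d' : GQ) • a j = a j := d'.2
      have e2 : (h j)⁻¹ • a j = A0 := by rw [← hh j, inv_smul_smul]
      have e3 : (d : GQ)⁻¹ • a i = a i := inv_mem d.2
      rw [mul_smul, mul_smul, mul_smul, e1, e2, hh i, e3]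
    obtain rfl : j = i := Subtype.ext (hd j j.2 i i.2 ⟨_, hxy, h2⟩)
    congr 1
    apply QuotientGroup.eq.2
    have h3 : (d : GQ)⁻¹ * h j * (h j)⁻¹ * d' = (d : GQ)⁻¹ * d' := by group
    rw [h3] at hxy
    exact (⟨hxy, (Dec (a j)).mul_mem ((Dec (a j)).inv_mem d.2) d'.2⟩ : ((d⁻¹ * d' : Dec (a j)) : GQ) ∈ W ⊓ Dec (a j))
  have hFsurj : Function.Surjective F := by
    intro x
    obtain ⟨g, rfl⟩ := QuotientGroup.mk_surjective x
    obtain ⟨j, hj, w, hw, hwj⟩ := hcov (g⁻¹ • A0) (by rw [Pl.ell_smul, hA0])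
    have hd0 : (h ⟨j, hj⟩) * g * w ∈ Dec (a j) := by
      change ((h ⟨j, hj⟩) * g * w) • a j = a j
      rw [mul_smul, mul_smul, hwj, smul_inv_smul]
      exact hh ⟨j, hj⟩
    refine ⟨⟨⟨j, hj⟩, ((⟨_, hd0⟩ : Dec (a j)) : Dec (a j) ⧸ _)⟩, ?_⟩
    rw [hF]
    apply QuotientGroup.eq.2
    have : ((h ⟨j, hj⟩)⁻¹ * ((h ⟨j, hj⟩) * g * w))⁻¹ * g = w⁻¹ := by group
    rw [this]; exact inv_mem hw
  have h1 := Nat.card_congr (Equiv.ofBijective F ⟨hFinj, hFsurj⟩)
  haveI : ∀ j : s, Finite (Dec (a j) ⧸ (W ⊓ Dec (a j)).subgroupOf (Dec (a j))) := fun j =>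
    Nat.finite_of_card_ne_zero (isLoc_inf hW (a j)).relIndex
  rw [Nat.card_sigma] at h1
  rw [← Finset.sum_coe_sort s (fun j => (W ⊓ Dec (a j)).relIndex (Dec (a j)))]
  exact h1

end Reps

end Fermat.Agent.CFT
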