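import Fermat.Agent.CFT.Low

/-!
# Global data: `T³` and the lower bound for `T²`
-/

set_option autoImplicit false
set_option linter.unusedSectionVars false
set_option linter.unusedVariables false
set_option linter.style.haveILetI false

namespace Fermat.Agent.CFT

open Module

section Dual

variable {k : Type} [Field k] {H M : Type} [Group H] [AddCommGroup M] [Module k M]

/-- The dual representation, twisted by a character. -/
abbrev dl (χ : Representation k H k) (ρ : Representation k H M) : Representation k H (M →ₗ[k] k) :=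
  Representation.linHom ρ χ

theorem dl_apply (χ : Representation k H k) (ρ : Representation k H M) (h : H) (f : M →ₗ[k] k)
    (x : M) : dl χ ρ h f x = χ h (f (ρ h⁻¹ x)) := rfl

/-- the trivial character -/
abbrev χ1 (k : Type) [Field k] (H : Type) [Group H] : Representation k H k :=
  Representation.trivial k H k

theorem inv_dl_triv (ρ : Representation k H M) : inv (dl (χ1 k H) ρ) = invFun ρ := by
  ext f
  rw [mem_inv, mem_invFun]
  constructor
  · intro h g x
    have := congrArg (fun f : M →ₗ[k] k => f x) (h g⁻¹)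
    simpa [dl_apply] using this
  · intro h g
    ext x
    rw [dl_apply]
    exact h _ _

end Dual

section

variable {p : ℕ} [Fact p.Prime] {G H : Type} [Group G] [Group H] {Sg Sl : Sys G}
  (hS : ∀ U ∈ Sg.carrier, ∃ V ∈ Sl.carrier, V ≤ U) (ι : H →* G) (X : Type) [MulAction G X]

/-- Global data. -/
structure GlobData (p : ℕ) [Fact p.Prime] extends LocData Sl ι X p where
  /-- half of the degree -/
  A : ℤ
  baseG : BaseHyp Sg ι p A
  sumA : ∑ j, nn j = 2 * A
  t3le : ∀ U : Subgroup H, PO Sg ι p U →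
    (loc hS (ι.comp U.subtype) X (Representation.trivial (ZMod p) U (ZMod p))).ck 2 ≤ 1
  t3ge : 1 ≤ (loc hS ι X (Representation.trivial (ZMod p) H (ZMod p))).ck 2

variable {hS ι X} (D : GlobData hS ι X p)

/-- Restriction of global data to numbers: the semilocal complex of a subgroup is finite. -/
theorem GlobData.fin_sub (D : GlobData hS ι X p) {U : Subgroup H} (hU : PO Sg ι p U) :
    Module.Finite (ZMod p)
      ((cochCx Sl (ι.comp U.subtype) (Representation.trivial (ZMod p) U (ZMod p)) X).H 2) := by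
  haveI := hU.normal
  haveI := hU.finiteIndex
  have h1 := sl_fin2 D.toLocData hS hU (ci U (Representation.trivial (ZMod p) U (ZMod p)))
    (trivOn_ci hU.normal) 2 le_rfl
  exact Module.Finite.equiv ((shapiro (S := Sl) (ι := ι) (X := X) U _).H 2)

variable {M M' : Type} [AddCommGroup M] [Module (ZMod p) M] [Module.Finite (ZMod p) M]
  [AddCommGroup M'] [Module (ZMod p) M'] [Module.Finite (ZMod p) M'] {U : Subgroup H}
  (hU : PO Sg ι p U) (ρ : Representation (ZMod p) H M) (hρ : TrivOn U ρ)

include D hU hρ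

/-- `T³(M)` is dual to the invariants of the dual of `M`. -/
theorem t3_eq : (loc hS ι X ρ).ck 2 = finrank (ZMod p) (invFun ρ) := by
  refine dimF hU ρ hρ (fun M _ _ ρ => (loc hS ι X ρ).ck 2) ?_ ?_ ?_
  · intro M M' _ _ _ _ _ _ ρ ρ' φ hρ hφ hs
    haveI := sl_fin2 D.toLocData hS hU ρ hρ 2 le_rfl
    exact Cx.Hom.ck_le _ _ (cochMap φ hφ) (cochMap φ hφ) (fun n x => rfl) 2
      (sl_surj D.toLocData hS hU ρ hρ ρ' φ hφ hs)
  · intro W _ _ _
    have h1 := Cx.Hom.ck_iso (loc hS ι X (ci U (Representation.trivial (ZMod p) U W)))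
      (loc hS (ι.comp U.subtype) X (Representation.trivial (ZMod p) U W))
      (shapiro U _) (shapiro U _) (fun n x => rfl) 2
    haveI := D.fin_sub hU
    rw [h1, triv_ck]
    have := D.t3le U hU
    calc _ ≤ finrank (ZMod p) W * 1 := Nat.mul_le_mul_left _ this
      _ = _ := mul_one _
  · intro W _ _ _
    haveI : Module.Finite (ZMod p)
      ((cochCx Sl ι (Representation.trivial (ZMod p) H (ZMod p)) X).H 2) :=
      sl_fin2 D.toLocData hS (PO.top (S := Sg) (ι := ι)) _ (fun u _ x => rfl) 2 le_rfl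
    rw [triv_ck]
    calc _ = finrank (ZMod p) W * 1 := (mul_one _).symm
      _ ≤ _ := Nat.mul_le_mul_left _ D.t3ge

end

/-! ### The exact sequence of `T` -/

section TSES

universe u v

variable {k : Type u} [Field k] {A C E A' C' E' : Cx.{u, v} k} {f : Cx.Hom A C} {g : Cx.Hom C E}
  {f' : Cx.Hom A' C'} {g' : Cx.Hom C' E'} {a : Cx.Hom A A'} {c : Cx.Hom C C'} {e : Cx.Hom E E'}

/-- map of `T` complexes -/
def Tmap (f : Cx.Hom A C) (f' : Cx.Hom A' C') (h : ∀ n x, f'.f n (a.f n x) = c.f n (f.f n x)) :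
    Cx.Hom (Cx.T a) (Cx.T c) :=
  Cx.coneMap f.trunc f'.trunc (fun n x => Subtype.ext (h n x.1))

theorem T_SES (hs : Cx.SES f g) (hs' : Cx.SES f' g')
    (h1 : ∀ n x, f'.f n (a.f n x) = c.f n (f.f n x))
    (h2 : ∀ n x, g'.f n (c.f n x) = e.f n (g.f n x))
    (hg : Function.Surjective (g.H 2)) (hg' : Function.Surjective (g'.H 2)) :
    Cx.SES (Tmap f f' h1) (Tmap g g' h2) :=
  Cx.SES.cone (hs.trunc hg) (hs'.trunc hg') _ _

theorem T_subsingleton {C L : Cx.{u, v} k} (φ : Cx.Hom C L) : Subsingleton ((Cx.T φ).H 3) := by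
  have : Subsingleton ((Cx.T φ).X 3) :=
    ⟨fun x y => Prod.ext (Subtype.ext (x.1.2.trans y.1.2.symm)) (Subtype.ext (x.2.2.trans y.2.2.symm))⟩
  infer_instance

/-- numerical consequences -/
theorem T_num (hs : Cx.SES f g) (hs' : Cx.SES f' g')
    (h1 : ∀ n x, f'.f n (a.f n x) = c.f n (f.f n x))
    (h2 : ∀ n x, g'.f n (c.f n x) = e.f n (g.f n x))
    (hg : Function.Surjective (g.H 2)) (hg' : Function.Surjective (g'.H 2))
    [Module.Finite k (A'.H 2)] [Module.Finite k (C'.H 2)] [Module.Finite k (E'.H 2)] :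
    c.ck 2 + (Tmap g g' h2).ck 1 = a.ck 2 + e.ck 2 := by
  have hT := T_SES hs hs' h1 h2 hg hg'
  haveI := Cx.finite_T3 a
  haveI := Cx.finite_T3 c
  haveI := Cx.finite_T3 e
  haveI := T_subsingleton a
  haveI := T_subsingleton c
  have e1 : finrank k ((Cx.T a).H 2) = (Tmap f f' h1).rk 2 + (Tmap g g' h2).ck 1 := hT.rk_left 1
  have e2 := hT.rk_mid 2
  have e3 := hT.rk_right 2
  have e4 : finrank k ((Cx.T a).H 3) = (Tmap f f' h1).rk 3 + (Tmap g g' h2).ck 2 := hT.rk_left 2
  rw [Module.finrank_zero_of_subsingleton] at e4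
  rw [Cx.finrank_T3] at e1 e2 e3
  omega

end TSES

end Fermat.Agent.CFT
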