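import Mathlib

/-!
# Index calculus and Herbrand quotients
-/

set_option autoImplicit false
set_option linter.unusedSectionVars false
set_option linter.unusedVariables false
set_option linter.style.haveILetI false

namespace Fermat.Agent.CFT

section Index

variable {A B C : Type*} [AddCommGroup A] [AddCommGroup B] [AddCommGroup C]

/-- index of the image divided by the order of the kernel -/
noncomputable def qi (f : A →+ B) : ℚ := (f.range.index : ℚ) / (Nat.card f.ker : ℚ)

/-- finiteness -/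
def QF (f : A →+ B) : Prop := f.range.index ≠ 0 ∧ Nat.card f.ker ≠ 0

theorem QF.qi_ne_zero {f : A →+ B} (h : QF f) : qi f ≠ 0 :=
  div_ne_zero (by exact_mod_cast h.1) (by exact_mod_cast h.2)

theorem comp_numbers (f : A →+ B) (g : B →+ C) : ∃ s u v : ℕ,
    (g.comp f).range.index = s * g.range.index ∧ f.range.index = u * s ∧
    Nat.card g.ker = v * u ∧ Nat.card (g.comp f).ker = Nat.card f.ker * v := by
  refine ⟨(f.range ⊔ g.ker).index, f.range.relIndex g.ker,
    Nat.card (f.range ⊓ g.ker : AddSubgroup B), ?_, ?_, ?_, ?_⟩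
  · have h1 : (g.comp f).range = f.range.map g := AddMonoidHom.range_comp g f
    have h2 : g.range = (⊤ : AddSubgroup B).map g := AddMonoidHom.range_eq_map g
    rw [h1, ← AddSubgroup.relIndex_mul_index (H := f.range.map g) (K := g.range) (by
      rw [h2]; exact AddSubgroup.map_mono le_top)]
    congr 1
    conv_lhs => rw [h2]
    rw [AddSubgroup.relIndex_map_map, top_sup_eq, AddSubgroup.relIndex_top_right]
  · rw [← AddSubgroup.relIndex_mul_index (H := f.range) (K := f.range ⊔ g.ker) le_sup_left,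
      AddSubgroup.relIndex_sup_left]
  · have h1 := AddSubgroup.relIndex_mul_relIndex (⊥ : AddSubgroup B) (f.range ⊓ g.ker) g.ker
      bot_le inf_le_right
    rw [AddSubgroup.relIndex_bot_left, AddSubgroup.relIndex_bot_left,
      AddSubgroup.inf_relIndex_right] at h1
    exact h1.symm
  · have hle : f.ker ≤ (g.comp f).ker := fun x hx => by
      rw [AddMonoidHom.mem_ker] at hx ⊢
      rw [AddMonoidHom.comp_apply, hx, map_zero]
    have h1 := AddSubgroup.relIndex_mul_relIndex (⊥ : AddSubgroup A) f.ker (g.comp f).ker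
      bot_le hle
    rw [AddSubgroup.relIndex_bot_left, AddSubgroup.relIndex_bot_left,
      AddSubgroup.relIndex_ker] at h1
    rw [← h1]
    congr 2
    have h2 : (g.comp f).ker = g.ker.comap f := rfl
    rw [h2, AddSubgroup.map_comap_eq]

theorem qi_comp {f : A →+ B} {g : B →+ C} (hf : QF f) (hg : QF g) :
    QF (g.comp f) ∧ qi (g.comp f) = qi g * qi f := by
  obtain ⟨s, u, v, h1, h2, h3, h4⟩ := comp_numbers f g
  have hs : s ≠ 0 := by rintro rfl; exact hf.1 (by rw [h2, mul_zero])
  have hu : u ≠ 0 := by rintro rfl; exact hf.1 (by rw [h2, zero_mul])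
  have hv : v ≠ 0 := by rintro rfl; exact hg.2 (by rw [h3, zero_mul])
  have hs' : (s : ℚ) ≠ 0 := by exact_mod_cast hs
  have hu' : (u : ℚ) ≠ 0 := by exact_mod_cast hu
  have hv' : (v : ℚ) ≠ 0 := by exact_mod_cast hv
  have hf' : (Nat.card f.ker : ℚ) ≠ 0 := by exact_mod_cast hf.2
  refine ⟨⟨?_, ?_⟩, ?_⟩
  · rw [h1]; exact mul_ne_zero hs hg.1
  · rw [h4]; exact mul_ne_zero hf.2 hv
  · simp only [qi]
    rw [h1, h2, h3, h4]
    push_cast
    field_simp

/-- the reverse: finiteness of the factors -/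
theorem QF.of_comp {f : A →+ B} {g : B →+ C} (hf : QF f) (h : QF (g.comp f)) : QF g := by
  obtain ⟨s, u, v, h1, h2, h3, h4⟩ := comp_numbers f g
  have hu : u ≠ 0 := by rintro rfl; exact hf.1 (by rw [h2, zero_mul])
  have hv : v ≠ 0 := by rintro rfl; exact h.2 (by rw [h4, mul_zero])
  have hg : g.range.index ≠ 0 := by
    intro h0; rw [h0, mul_zero] at h1; exact h.1 h1
  exact ⟨hg, by rw [h3]; exact mul_ne_zero hv hu⟩

theorem QF.of_comp' {f : A →+ B} {g : B →+ C} (hg : QF g) (h : QF (g.comp f)) : QF f := by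
  obtain ⟨s, u, v, h1, h2, h3, h4⟩ := comp_numbers f g
  have hu : u ≠ 0 := by rintro rfl; exact hg.2 (by rw [h3, mul_zero])
  have hs : s ≠ 0 := by rintro rfl; exact h.1 (by rw [h1, zero_mul])
  have hf : Nat.card f.ker ≠ 0 := by
    intro h0; rw [h0, zero_mul] at h4; exact h.2 h4
  exact ⟨by rw [h2]; exact mul_ne_zero hu hs, hf⟩

/-- multiplication by `n` -/
abbrev mulN (n : ℕ) (A : Type*) [AddCommGroup A] : A →+ A := nsmulAddMonoidHom n

/-- the numbers in a short exact sequence -/
theorem ses_numbers (n : ℕ) {i : B →+ A} {π : A →+ C} (hi : Function.Injective i)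
    (hπ : Function.Surjective π) (hex : π.ker = i.range) : ∃ x y z u v : ℕ,
    (mulN n C).range.index = x ∧ (mulN n A).range.index = y * x ∧
    (mulN n B).range.index = z * y ∧ Nat.card (mulN n C).ker = u * z ∧
    Nat.card (mulN n A).ker = v * u ∧ Nat.card (mulN n B).ker = v := by
  set nA := (mulN n A).range with hnA
  set tA := (mulN n A).ker with htA
  set Bi := i.range with hBi
  set nB := Bi.map (mulN n A) with hnB
  set Cc := Bi.comap (mulN n A) with hCc
  have hnBi : (mulN n B).range.map i = nB := by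
    ext y
    constructor
    · rintro ⟨_, ⟨b, rfl⟩, rfl⟩
      exact ⟨i b, ⟨b, rfl⟩, by simp [map_nsmul]⟩
    · rintro ⟨_, ⟨b, rfl⟩, rfl⟩
      exact ⟨n • b, ⟨b, rfl⟩, by simp [map_nsmul]⟩
  have hCcn : Cc.map (mulN n A) = nA ⊓ Bi := by
    rw [hCc, AddSubgroup.map_comap_eq]
  have htCc : tA ≤ Cc := fun x hx => by
    rw [hCc, AddSubgroup.mem_comap, (AddMonoidHom.mem_ker).1 hx]
    exact zero_mem _
  have hBiCc : Bi ≤ Cc := by
    rintro _ ⟨b, rfl⟩
    exact ⟨n • b, by simp [map_nsmul]⟩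
  have hnBle : nB ≤ nA ⊓ Bi := by
    rw [← hCcn]
    exact AddSubgroup.map_mono hBiCc
  refine ⟨(nA ⊔ Bi).index, nA.relIndex Bi, nB.relIndex (nA ⊓ Bi), Bi.relIndex tA,
    Nat.card (Bi ⊓ tA : AddSubgroup A), ?_, ?_, ?_, ?_, ?_, ?_⟩
  · have h1 : (mulN n C).range = nA.map π := by
      ext y
      constructor
      · rintro ⟨c, rfl⟩
        obtain ⟨a, rfl⟩ := hπ c
        exact ⟨n • a, ⟨a, rfl⟩, by simp [map_nsmul]⟩
      · rintro ⟨_, ⟨a, rfl⟩, rfl⟩
        exact ⟨π a, by simp [map_nsmul]⟩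
    have h2 : (⊤ : AddSubgroup A).map π = ⊤ := by
      rw [← AddMonoidHom.range_eq_map]
      exact AddMonoidHom.range_eq_top.2 hπ
    rw [h1, ← AddSubgroup.relIndex_top_right, ← h2, AddSubgroup.relIndex_map_map, top_sup_eq,
      AddSubgroup.relIndex_top_right, hex]
  · rw [← AddSubgroup.relIndex_mul_index (H := nA) (K := nA ⊔ Bi) le_sup_left,
      AddSubgroup.relIndex_sup_left]
  · have h1 : (mulN n B).range.index = nB.relIndex Bi := by
      rw [← AddSubgroup.relIndex_top_right, ← AddSubgroup.relIndex_map_map_of_injective _ _ hi,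
        hnBi, ← AddMonoidHom.range_eq_map]
    rw [h1, ← AddSubgroup.relIndex_mul_relIndex nB (nA ⊓ Bi) Bi hnBle inf_le_right,
      AddSubgroup.inf_relIndex_right]
  · have h1 : (mulN n C).ker = Cc.map π := by
      ext y
      constructor
      · intro hy
        obtain ⟨a, rfl⟩ := hπ y
        refine ⟨a, ?_, rfl⟩
        have h2 : π (n • a) = 0 := by rw [map_nsmul]; exact hy
        have h3 : n • a ∈ π.ker := h2
        rw [hex] at h3
        exact h3
      · rintro ⟨a, ha, rfl⟩
        have h2 : n • a ∈ π.ker := by rw [hex]; exact ha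
        change n • π a = 0
        rw [← map_nsmul]
        exact h2
    rw [h1, ← AddSubgroup.relIndex_ker, hex]
    have h2 := AddSubgroup.relIndex_mul_relIndex Bi (Bi ⊔ tA) Cc le_sup_left
      (sup_le hBiCc htCc)
    rw [AddSubgroup.relIndex_sup_left] at h2
    rw [← h2]
    congr 1
    have h3 := AddSubgroup.relIndex_map_map (mulN n A) Bi Cc
    rw [hCcn, ← htA, sup_eq_left.2 htCc] at h3
    exact h3.symm
  · have h1 := AddSubgroup.relIndex_mul_relIndex (⊥ : AddSubgroup A) (Bi ⊓ tA) tA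
      bot_le inf_le_right
    rw [AddSubgroup.relIndex_bot_left, AddSubgroup.relIndex_bot_left,
      AddSubgroup.inf_relIndex_right] at h1
    exact h1.symm
  · have h1 : (mulN n B).ker.map i = Bi ⊓ tA := by
      ext y
      constructor
      · rintro ⟨b, hb, rfl⟩
        refine ⟨⟨b, rfl⟩, ?_⟩
        change n • i b = 0
        rw [← map_nsmul, show n • b = 0 from hb, map_zero]
      · rintro ⟨⟨b, rfl⟩, hb⟩
        refine ⟨b, ?_, rfl⟩
        change n • b = 0
        apply hi
        rw [map_nsmul, map_zero]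
        exact hb
    rw [← h1]
    exact (Nat.card_congr ((mulN n B).ker.equivMapOfInjective i hi).toEquiv)

section Ses

variable (n : ℕ) {i : B →+ A} {π : A →+ C} (hi : Function.Injective i)
    (hπ : Function.Surjective π) (hex : π.ker = i.range)

include hi hπ hex

theorem ses_mid (hB : QF (mulN n B)) (hC : QF (mulN n C)) : QF (mulN n A) ∧
    qi (mulN n A) = qi (mulN n B) * qi (mulN n C) := by
  obtain ⟨x, y, z, u, v, h1, h2, h3, h4, h5, h6⟩ := ses_numbers n hi hπ hex
  obtain ⟨hB1, hB2⟩ := hB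
  obtain ⟨hC1, hC2⟩ := hC
  rw [h1] at hC1; rw [h4] at hC2; rw [h3] at hB1; rw [h6] at hB2
  have hx := hC1
  have hy := (mul_ne_zero_iff.1 hB1).2
  have hz := (mul_ne_zero_iff.1 hB1).1
  have hu := (mul_ne_zero_iff.1 hC2).1
  refine ⟨⟨by rw [h2]; exact mul_ne_zero hy hx, by rw [h5]; exact mul_ne_zero hB2 hu⟩, ?_⟩
  simp only [qi]
  rw [h1, h2, h3, h4, h5, h6]
  have hx' : (x : ℚ) ≠ 0 := by exact_mod_cast hx
  have hy' : (y : ℚ) ≠ 0 := by exact_mod_cast hy
  have hz' : (z : ℚ) ≠ 0 := by exact_mod_cast hz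
  have hu' : (u : ℚ) ≠ 0 := by exact_mod_cast hu
  have hv' : (v : ℚ) ≠ 0 := by exact_mod_cast hB2
  push_cast
  field_simp

theorem ses_right (hB : QF (mulN n B)) (hA : QF (mulN n A)) : QF (mulN n C) ∧
    qi (mulN n A) = qi (mulN n B) * qi (mulN n C) := by
  obtain ⟨x, y, z, u, v, h1, h2, h3, h4, h5, h6⟩ := ses_numbers n hi hπ hex
  have hC : QF (mulN n C) := by
    obtain ⟨hB1, hB2⟩ := hB
    obtain ⟨hA1, hA2⟩ := hA
    rw [h2] at hA1; rw [h5] at hA2; rw [h3] at hB1; rw [h6] at hB2
    exact ⟨by rw [h1]; exact (mul_ne_zero_iff.1 hA1).2,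
      by rw [h4]; exact mul_ne_zero (mul_ne_zero_iff.1 hA2).2 (mul_ne_zero_iff.1 hB1).1⟩
  exact ⟨hC, (ses_mid n hi hπ hex hB hC).2⟩

theorem ses_left (hA : QF (mulN n A)) (hC : QF (mulN n C)) : QF (mulN n B) ∧
    qi (mulN n A) = qi (mulN n B) * qi (mulN n C) := by
  obtain ⟨x, y, z, u, v, h1, h2, h3, h4, h5, h6⟩ := ses_numbers n hi hπ hex
  have hB : QF (mulN n B) := by
    obtain ⟨hC1, hC2⟩ := hC
    obtain ⟨hA1, hA2⟩ := hA
    rw [h2] at hA1; rw [h5] at hA2; rw [h1] at hC1; rw [h4] at hC2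
    exact ⟨by rw [h3]; exact mul_ne_zero (mul_ne_zero_iff.1 hC2).2 (mul_ne_zero_iff.1 hA1).1,
      by rw [h6]; exact (mul_ne_zero_iff.1 hA2).1⟩
  exact ⟨hB, (ses_mid n hi hπ hex hB hC).2⟩

end Ses

/-- invariance under isomorphism -/
theorem mulN_equiv (n : ℕ) (e : A ≃+ B) : (mulN n A).range.index = (mulN n B).range.index ∧
    Nat.card (mulN n A).ker = Nat.card (mulN n B).ker := by
  constructor
  · have h1 : (mulN n A).range.map e.toAddMonoidHom = (mulN n B).range := by
      ext y
      constructor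
      · rintro ⟨_, ⟨a, rfl⟩, rfl⟩
        exact ⟨e a, by simp [map_nsmul]⟩
      · rintro ⟨b, rfl⟩
        exact ⟨n • e.symm b, ⟨e.symm b, rfl⟩, by simp [map_nsmul]⟩
    rw [← h1]
    exact (AddSubgroup.index_map_equiv _ e).symm
  · have h1 : (mulN n A).ker.map e.toAddMonoidHom = (mulN n B).ker := by
      ext y
      constructor
      · rintro ⟨a, ha, rfl⟩
        change n • e a = 0
        rw [← map_nsmul, show n • a = 0 from ha, map_zero]
      · intro hy
        refine ⟨e.symm y, ?_, by simp⟩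
        change n • e.symm y = 0
        rw [← map_nsmul, show n • y = 0 from hy, map_zero]
    rw [← h1]
    exact Nat.card_congr ((mulN n A).ker.equivMapOfInjective e.toAddMonoidHom e.injective).toEquiv

theorem QF_equiv (n : ℕ) (e : A ≃+ B) : QF (mulN n A) ↔ QF (mulN n B) := by
  rw [QF, QF, (mulN_equiv n e).1, (mulN_equiv n e).2]

theorem qi_equiv (n : ℕ) (e : A ≃+ B) : qi (mulN n A) = qi (mulN n B) := by
  rw [qi, qi, (mulN_equiv n e).1, (mulN_equiv n e).2]

theorem QF_finite (n : ℕ) [Finite A] : QF (mulN n A) ∧ qi (mulN n A) = 1 := by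
  have h1 : (mulN n A).range.index ≠ 0 := AddSubgroup.index_ne_zero_of_finite
  have h2 : Nat.card (mulN n A).ker ≠ 0 := Nat.card_pos.ne'
  refine ⟨⟨h1, h2⟩, ?_⟩
  have h3 := AddSubgroup.index_ker (mulN n A)
  have h4 := AddSubgroup.card_mul_index (mulN n A).ker
  have h5 := AddSubgroup.card_mul_index (mulN n A).range
  rw [h3] at h4
  have h6 : Nat.card (mulN n A).range ≠ 0 := Nat.card_pos.ne'
  have h7 : (mulN n A).range.index = Nat.card (mulN n A).ker := by
    apply Nat.eq_of_mul_eq_mul_left (Nat.pos_of_ne_zero h6)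
    rw [h5, ← h4, mul_comm]
  rw [qi, h7, div_self (by exact_mod_cast h2)]

end Index

section Abstract

variable {A : Type*} [AddCommGroup A]

theorem index_eq_relIndex_map (K : AddSubgroup A) (L : AddSubgroup K) :
    L.index = (L.map K.subtype).relIndex K := by
  have h : Function.Injective K.subtype := Subtype.val_injective
  have h1 := AddSubgroup.relIndex_map_map_of_injective L ⊤ h
  rw [← AddMonoidHom.range_eq_map, AddSubgroup.range_subtype, AddSubgroup.relIndex_top_right] at h1
  exact h1.symm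

/-- Index lemma -/
theorem herb_aux (n : ℕ) (T N : A →+ A) (hTN : ∀ a, T (N a) = 0) (hNT : ∀ a, N (T a) = 0)
    (hN : ∀ a, T a = 0 → N a = n • a)
    (hA : QF (mulN n A)) (hB : QF (mulN n T.range)) (TB : T.range →+ T.range)
    (hTB : ∀ b, (TB b : A) = T b) (hTBf : QF TB)
    (e : ℕ) (hqe : qi TB ^ e = qi (mulN n T.range)) :
    (N.range.relIndex T.ker) ≠ 0 ∧ (T.range.relIndex N.ker) ≠ 0 ∧
    QF (mulN n T.ker) ∧
    ((N.range.relIndex T.ker : ℚ) / (T.range.relIndex N.ker : ℚ)) ^ e * qi (mulN n A) =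
      qi (mulN n T.ker) ^ (e + 1) := by
  -- short exact sequence
  have hses := ses_left n (i := T.ker.subtype) (π := T.rangeRestrict)
    (Subtype.val_injective) (AddMonoidHom.rangeRestrict_surjective T)
    (by rw [AddMonoidHom.ker_rangeRestrict, AddSubgroup.range_subtype]) hA hB
  obtain ⟨hK, hq⟩ := hses
  -- the maps
  let ι : T.ker →+ A ⧸ T.range := (QuotientAddGroup.mk' T.range).comp T.ker.subtype
  let N' : A →+ T.ker := N.codRestrict T.ker (fun a => hTN a)
  let ν : A ⧸ T.range →+ T.ker := QuotientAddGroup.lift T.range N' (by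
    rintro _ ⟨a, rfl⟩
    exact Subtype.ext (hNT a))
  have hcomp : ν.comp ι = mulN n T.ker := by
    ext a
    change N (a : A) = _
    rw [hN _ a.2]; rfl
  -- numbers of `ι`
  have hι1 : ι.range.index = TB.range.index := by
    have h1 : ι.range = T.ker.map (QuotientAddGroup.mk' T.range) := by
      rw [AddMonoidHom.range_comp, AddSubgroup.range_subtype]
    have h2 : ι.range.index = (T.ker ⊔ T.range).index := by
      rw [h1, ← AddSubgroup.relIndex_top_right]
      have h3 : (⊤ : AddSubgroup A).map (QuotientAddGroup.mk' T.range) = ⊤ := by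
        rw [← AddMonoidHom.range_eq_map]
        exact AddMonoidHom.range_eq_top.2 (QuotientAddGroup.mk'_surjective _)
      rw [← h3, AddSubgroup.relIndex_map_map, top_sup_eq, AddSubgroup.relIndex_top_right,
        QuotientAddGroup.ker_mk']
    have h4 : TB.range.map T.range.subtype = T.range.map T := by
      ext y
      constructor
      · rintro ⟨_, ⟨b, rfl⟩, rfl⟩
        exact ⟨b, b.2, (hTB b).symm⟩
      · rintro ⟨b, hb, rfl⟩
        exact ⟨_, ⟨⟨b, hb⟩, rfl⟩, hTB _⟩
    rw [h2, index_eq_relIndex_map, h4]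
    have h5 := AddSubgroup.relIndex_map_map T T.range ⊤
    rw [← AddMonoidHom.range_eq_map, top_sup_eq, AddSubgroup.relIndex_top_right] at h5
    rw [h5, sup_comm]
  have hι2 : Nat.card ι.ker = Nat.card TB.ker := by
    refine Nat.card_congr ?_
    refine ⟨fun x => ⟨⟨x.1.1, ?_⟩, ?_⟩, fun y => ⟨⟨y.1.1, ?_⟩, ?_⟩, fun x => rfl, fun y => rfl⟩
    · exact (QuotientAddGroup.eq_zero_iff _).1 x.2
    · apply Subtype.ext
      rw [hTB]
      exact x.1.2
    · have := congrArg Subtype.val (show TB y.1 = 0 from y.2)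
      rw [hTB] at this
      exact this
    · exact (QuotientAddGroup.eq_zero_iff _).2 y.1.2
  have hιq : QF ι := by
    rw [QF, hι1, hι2]; exact hTBf
  have hιqi : qi ι = qi TB := by rw [qi, qi, hι1, hι2]
  have hνq : QF ν := QF.of_comp hιq (by rw [hcomp]; exact hK)
  have hmul : qi (mulN n T.ker) = qi ν * qi ι := by
    rw [← hcomp]; exact (qi_comp hιq hνq).2
  -- numbers of `ν`
  have hν1 : ν.range.index = N.range.relIndex T.ker := by
    rw [index_eq_relIndex_map]
    congr 1
    ext y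
    constructor
    · rintro ⟨_, ⟨q, rfl⟩, rfl⟩
      obtain ⟨a, rfl⟩ := QuotientAddGroup.mk_surjective q
      exact ⟨a, rfl⟩
    · rintro ⟨a, rfl⟩
      exact ⟨_, ⟨(a : A ⧸ T.range), rfl⟩, rfl⟩
  have hν2 : Nat.card ν.ker = T.range.relIndex N.ker := by
    have hle : T.range ≤ N.ker := by rintro _ ⟨a, rfl⟩; exact hNT a
    have h1 : ν.ker = N.ker.map (QuotientAddGroup.mk' T.range) := by
      ext q
      obtain ⟨a, rfl⟩ := QuotientAddGroup.mk_surjective q
      constructor
      · intro h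
        exact ⟨a, congrArg Subtype.val (show ν (a : A ⧸ T.range) = 0 from h), rfl⟩
      · rintro ⟨b, hb, hab⟩
        rw [← hab]
        exact Subtype.ext hb
    rw [h1, ← AddSubgroup.relIndex_ker, QuotientAddGroup.ker_mk']
  have hn1 : (N.range.relIndex T.ker) ≠ 0 := by rw [← hν1]; exact hνq.1
  have hn2 : (T.range.relIndex N.ker) ≠ 0 := by rw [← hν2]; exact hνq.2
  refine ⟨hn1, hn2, hK, ?_⟩
  have hνqi : qi ν = (N.range.relIndex T.ker : ℚ) / (T.range.relIndex N.ker : ℚ) := by
    rw [qi, hν1, hν2]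
  have h1 : qi (mulN n A) = qi (mulN n T.ker) * qi (mulN n T.range) := hq
  rw [← hνqi, h1, ← hqe, pow_succ]
  rw [hmul, hιqi]
  ring

end Abstract

end Fermat.Agent.CFT
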