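import Fermat.Agent.CFT.Herb

set_option autoImplicit false
namespace Fermat.Agent.CFT

open Polynomial

theorem exists_poly (p : ℕ) [hp : Fact p.Prime] : ∃ h r G : ℤ[X],
    (X - 1) ^ (p - 1) = cyclotomic p ℤ + (p : ℤ[X]) * h ∧
    (p : ℤ[X]) = (X - 1) ^ (p - 1) * r + cyclotomic p ℤ * G := by
  have h1 : (C (p : ℤ) : ℤ[X]) ∣ (X - 1) ^ (p - 1) - cyclotomic p ℤ := by
    rw [C_dvd_iff_dvd_coeff]
    intro i
    rw [← ZMod.intCast_zmod_eq_zero_iff_dvd]
    have h2 : ((X - 1) ^ (p - 1) - cyclotomic p ℤ : ℤ[X]).map (Int.castRingHom (ZMod p)) = 0 := by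
      rw [Polynomial.map_sub, map_cyclotomic, Polynomial.map_pow, Polynomial.map_sub, map_X,
        Polynomial.map_one]
      have h3 := cyclotomic_mul_prime_pow_eq (ZMod p) (p := p) (m := 1) (by
        rw [Nat.dvd_one]; exact hp.out.one_lt.ne') (k := 1) one_pos
      simp only [pow_one, mul_one, Nat.sub_self, pow_zero, cyclotomic_one] at h3
      rw [h3, sub_self]
    have h4 := congrArg (fun f => f.coeff i) h2
    rw [coeff_map, coeff_zero] at h4
    exact h4
  obtain ⟨h, hh⟩ := h1
  rw [sub_eq_iff_eq_add, add_comm] at hh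
  have e1 : h.eval 1 = -1 := by
    have h2 := congrArg (fun f => f.eval 1) hh
    have hne : p - 1 ≠ 0 := by have := hp.out.two_le; omega
    simp only [eval_pow, eval_sub, eval_X, eval_one, sub_self, eval_add, eval_mul,
      eval_one_cyclotomic_prime, eval_C, zero_pow hne] at h2
    have h3 : (p : ℤ) * (h.eval 1 + 1) = 0 := by linarith
    rcases mul_eq_zero.1 h3 with h4 | h4
    · exact absurd (by exact_mod_cast h4) hp.out.ne_zero
    · linarith
  obtain ⟨g, hg⟩ : (X - 1 : ℤ[X]) ∣ h + 1 := by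
    have : (X - C 1 : ℤ[X]) ∣ h + 1 := by
      rw [dvd_iff_isRoot, IsRoot, eval_add, e1, eval_one]; norm_num
    simpa using this
  have hh' : (X - 1) ^ (p - 1) = cyclotomic p ℤ + (p : ℤ[X]) * h := by
    rw [hh]; simp
  have hh2 : h = (X - 1) * g - 1 := by rw [← hg]; ring
  set T : ℤ[X] := X - 1 with hT
  have key : (p : ℤ[X]) * (1 - T * g) = cyclotomic p ℤ - T ^ (p - 1) := by
    rw [hh', hh2]; ring
  have hgeom : (1 - T * g) * (∑ i ∈ Finset.range (p - 1), (T * g) ^ i) = 1 - (T * g) ^ (p - 1) := by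
    have := mul_neg_geom_sum (T * g) (p - 1)
    exact this
  refine ⟨h, (p : ℤ[X]) * g ^ (p - 1) - (∑ i ∈ Finset.range (p - 1), (T * g) ^ i),
    (∑ i ∈ Finset.range (p - 1), (T * g) ^ i), hh', ?_⟩
  have h5 : (p : ℤ[X]) * (1 - (T * g) ^ (p - 1)) =
      (cyclotomic p ℤ - T ^ (p - 1)) * (∑ i ∈ Finset.range (p - 1), (T * g) ^ i) := by
    rw [← hgeom, ← mul_assoc, key]
  have h6 : (p : ℤ[X]) = (cyclotomic p ℤ - T ^ (p - 1)) *
      (∑ i ∈ Finset.range (p - 1), (T * g) ^ i) + p * (T * g) ^ (p - 1) := by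
    rw [← h5]; ring
  conv_lhs => rw [h6]
  rw [mul_pow]
  ring

section

variable {B : Type*} [AddCommGroup B]

theorem qi_pow (T : AddMonoid.End B) (hT : QF (A := B) (B := B) T) (j : ℕ) :
    QF (A := B) (B := B) (T ^ j : AddMonoid.End B) ∧
    qi (A := B) (B := B) (T ^ j : AddMonoid.End B) = qi (A := B) (B := B) T ^ j := by
  induction j with
  | zero =>
    have h1 : (AddMonoidHom.range (G := B) (N := B) (T ^ 0 : AddMonoid.End B)) = ⊤ := by
      rw [pow_zero]; exact AddMonoidHom.range_eq_top.2 Function.surjective_id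
    have h2 : (AddMonoidHom.ker (G := B) (M := B) (T ^ 0 : AddMonoid.End B)) = ⊥ := by
      rw [pow_zero]; exact (AddMonoidHom.ker_eq_bot_iff _).2 Function.injective_id
    constructor
    · rw [QF, h1, h2]; simp
    · rw [qi, h1, h2, pow_zero]; simp
  | succ j ih =>
    have h1 : (T ^ (j + 1) : AddMonoid.End B) = AddMonoidHom.comp (T ^ j : AddMonoid.End B) T := by
      rw [pow_succ]; rfl
    obtain ⟨h2, h3⟩ := qi_comp (f := (T : B →+ B)) (g := ((T ^ j : AddMonoid.End B) : B →+ B)) hT ih.1
    rw [h1]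
    exact ⟨h2, by rw [h3, ih.2, pow_succ]⟩

/-- On a module killed by the norm. -/
theorem qi_sub_one (p : ℕ) [hp : Fact p.Prime] (σ : AddMonoid.End B)
    (hσ : ∑ i ∈ Finset.range p, σ ^ i = 0) (hB : QF (mulN p B)) :
    QF (A := B) (B := B) (σ - 1 : AddMonoid.End B) ∧
    qi (A := B) (B := B) (σ - 1 : AddMonoid.End B) ^ (p - 1) = qi (mulN p B) := by
  obtain ⟨h, r, G, h1, h2⟩ := exists_poly p
  have hc : aeval σ (cyclotomic p ℤ) = 0 := by
    rw [cyclotomic_prime, map_sum]
    simpa using hσ
  set T : AddMonoid.End B := σ - 1 with hT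
  have hTa : aeval σ (X - 1 : ℤ[X]) = T := by simp [hT]
  have e1 : T ^ (p - 1) = (p : AddMonoid.End B) * aeval σ h := by
    have := congrArg (aeval σ) h1
    rw [map_pow, hTa, map_add, hc, zero_add, map_mul, map_natCast] at this
    exact this
  have e2 : (p : AddMonoid.End B) = T ^ (p - 1) * aeval σ r := by
    have := congrArg (aeval σ) h2
    rw [map_add, map_mul, map_mul, hc, zero_mul, add_zero, map_pow, hTa, map_natCast] at this
    exact this
  have e1' : T ^ (p - 1) = aeval σ h * (p : AddMonoid.End B) := by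
    rw [e1]; exact (Nat.cast_commute p _).eq
  have e2' : (p : AddMonoid.End B) = aeval σ r * T ^ (p - 1) := by
    conv_lhs => rw [e2]
    rw [← hTa, ← map_pow, ← map_mul, ← map_mul, mul_comm]
  have hpm : ∀ x : B, (p : AddMonoid.End B) x = mulN p B x := fun x => by simp [AddMonoid.End.natCast_apply]
  have hr : (mulN p B).range = AddMonoidHom.range (G := B) (N := B) (T ^ (p - 1) : AddMonoid.End B) := by
    ext y
    constructor
    · rintro ⟨x, rfl⟩
      refine ⟨aeval σ r x, ?_⟩
      rw [← hpm]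
      exact (congrArg (fun f : AddMonoid.End B => f x) e2).symm
    · rintro ⟨x, rfl⟩
      refine ⟨aeval σ h x, ?_⟩
      rw [← hpm]
      exact (congrArg (fun f : AddMonoid.End B => f x) e1).symm
  have hk : (mulN p B).ker = AddMonoidHom.ker (G := B) (M := B) (T ^ (p - 1) : AddMonoid.End B) := by
    ext x
    rw [AddMonoidHom.mem_ker, AddMonoidHom.mem_ker]
    constructor
    · intro hx
      have := congrArg (fun f : AddMonoid.End B => f x) e1'
      change (T ^ (p - 1) : AddMonoid.End B) x = aeval σ h ((p : AddMonoid.End B) x) at this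
      rw [hpm, hx, map_zero] at this
      exact this
    · intro hx
      have := congrArg (fun f : AddMonoid.End B => f x) e2'
      change (p : AddMonoid.End B) x = aeval σ r ((T ^ (p - 1) : AddMonoid.End B) x) at this
      rw [hpm] at this
      refine this.trans ?_
      exact (congrArg (aeval σ r : AddMonoid.End B) hx).trans (map_zero _)
  have hne : p - 1 ≠ 0 := by have := hp.out.two_le; omega
  obtain ⟨k, hk'⟩ := Nat.exists_eq_succ_of_ne_zero hne
  have hQT : QF (A := B) (B := B) T := by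
    constructor
    · have hle : AddMonoidHom.range (G := B) (N := B) (T ^ (p - 1) : AddMonoid.End B) ≤
          AddMonoidHom.range (G := B) (N := B) T := by
        rintro _ ⟨x, rfl⟩
        refine ⟨(T ^ k : AddMonoid.End B) x, ?_⟩
        rw [hk', pow_succ']
        rfl
      intro h0
      have h3 := AddSubgroup.relIndex_mul_index hle
      rw [h0, mul_zero] at h3
      rw [← hr] at h3
      exact hB.1 h3.symm
    · have hle : AddMonoidHom.ker (G := B) (M := B) T ≤
          AddMonoidHom.ker (G := B) (M := B) (T ^ (p - 1) : AddMonoid.End B) := by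
        intro x hx
        rw [AddMonoidHom.mem_ker] at hx ⊢
        rw [hk', pow_succ]
        exact (congrArg (T ^ k : AddMonoid.End B) hx).trans (map_zero _)
      rw [← hk] at hle
      have : Finite (mulN p B).ker := Nat.finite_of_card_ne_zero hB.2
      have : Finite (AddMonoidHom.ker (G := B) (M := B) T) :=
        Finite.of_injective _ (AddSubgroup.inclusion_injective hle)
      exact Nat.card_pos.ne'
  refine ⟨hQT, ?_⟩
  rw [← (qi_pow T hQT (p - 1)).2, qi, qi, hr, hk]

end

section

variable {A : Type*} [AddCommGroup A]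

/-- The norm -/
noncomputable def nrm (p : ℕ) (σ : AddMonoid.End A) : A →+ A := (∑ i ∈ Finset.range p, σ ^ i : AddMonoid.End A)

theorem nrm_apply (p : ℕ) (σ : AddMonoid.End A) (a : A) :
    nrm p σ a = ∑ i ∈ Finset.range p, (σ ^ i : AddMonoid.End A) a := by
  rw [nrm]
  exact AddMonoidHom.finsetSum_apply _ _ _

/-- difference operator -/
def dif (σ : AddMonoid.End A) : A →+ A := (σ - 1 : AddMonoid.End A)

theorem dif_apply (σ : AddMonoid.End A) (a : A) : dif σ a = σ a - a := rfl

/-- **Herbrand quotients of cyclic groups of prime order.** -/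
theorem herbrand (p : ℕ) [hp : Fact p.Prime] (σ : AddMonoid.End A) (hσ : σ ^ p = 1)
    (hA : QF (mulN p A)) (hK : QF (mulN p (dif σ).ker)) :
    (nrm p σ).range.relIndex (dif σ).ker ≠ 0 ∧ (dif σ).range.relIndex (nrm p σ).ker ≠ 0 ∧
    (((nrm p σ).range.relIndex (dif σ).ker : ℚ) / ((dif σ).range.relIndex (nrm p σ).ker : ℚ)) ^ (p - 1)
      * qi (mulN p A) = qi (mulN p (dif σ).ker) ^ p := by
  have hTN : (σ - 1 : AddMonoid.End A) * (∑ i ∈ Finset.range p, σ ^ i) = 0 := by
    have := mul_geom_sum σ p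
    rw [this, hσ, sub_self]
  have hNT : (∑ i ∈ Finset.range p, σ ^ i) * (σ - 1 : AddMonoid.End A) = 0 := by
    have := geom_sum_mul σ p
    rw [this, hσ, sub_self]
  obtain ⟨hB, -⟩ := ses_right p (i := (dif σ).ker.subtype) (π := (dif σ).rangeRestrict)
    (Subtype.val_injective) (AddMonoidHom.rangeRestrict_surjective _)
    (by rw [AddMonoidHom.ker_rangeRestrict, AddSubgroup.range_subtype]) hK hA
  -- the restriction of `σ`
  have hmem : ∀ b ∈ (dif σ).range, σ b ∈ (dif σ).range := by
    rintro _ ⟨a, rfl⟩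
    refine ⟨σ a, ?_⟩
    simp [dif_apply]
  let σB : AddMonoid.End (dif σ).range :=
    (AddMonoidHom.codRestrict (σ.comp (dif σ).range.subtype) (dif σ).range (fun b => hmem _ b.2))
  have hσB : ∀ b, ((σB b : (dif σ).range) : A) = σ b := fun b => rfl
  have hσBp : ∀ (i : ℕ) b, (((σB ^ i : AddMonoid.End (dif σ).range) b : (dif σ).range) : A) =
      (σ ^ i : AddMonoid.End A) b := by
    intro i
    induction i with
    | zero => intro b; rfl
    | succ i ih =>
      intro b
      rw [pow_succ, pow_succ]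
      change (((σB ^ i : AddMonoid.End (dif σ).range) (σB b) : (dif σ).range) : A) = _
      rw [ih, hσB]; rfl
  have hsum : ∑ i ∈ Finset.range p, σB ^ i = 0 := by
    ext b
    obtain ⟨_, a, rfl⟩ := b
    have h1 : ((∑ i ∈ Finset.range p, σB ^ i : AddMonoid.End (dif σ).range) ⟨_, a, rfl⟩ :
        (dif σ).range) = ∑ i ∈ Finset.range p, (σB ^ i : AddMonoid.End (dif σ).range) ⟨_, a, rfl⟩ :=
      AddMonoidHom.finsetSum_apply _ _ _
    rw [h1, AddSubgroup.val_finsetSum]
    simp only [hσBp]
    rw [← nrm_apply]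
    exact congrArg (fun f : AddMonoid.End A => f a) hNT
  obtain ⟨hq1, hq2⟩ := qi_sub_one p σB hsum hB
  obtain ⟨h1, h2, -, h3⟩ := herb_aux p (dif σ) (nrm p σ)
    (fun a => congrArg (fun f : AddMonoid.End A => f a) hTN)
    (fun a => congrArg (fun f : AddMonoid.End A => f a) hNT)
    (fun a ha => by
      rw [nrm_apply]
      have : ∀ i : ℕ, (σ ^ i : AddMonoid.End A) a = a := by
        intro i
        induction i with
        | zero => rfl
        | succ i ih =>
          rw [pow_succ]
          change (σ ^ i : AddMonoid.End A) (σ a) = a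
          rw [dif_apply, sub_eq_zero] at ha
          rw [ha, ih]
      simp [this])
    hA hB (σB - 1 : AddMonoid.End _) (fun b => rfl) hq1 (p - 1) hq2
  refine ⟨h1, h2, ?_⟩
  rw [h3]
  congr 1
  have := hp.out.two_le
  omega

end

end Fermat.Agent.CFT
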