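import Fermat.Agent.CFT.Cyc

/-!
# Kummer theory, norm index
-/

set_option autoImplicit false
set_option linter.unusedSectionVars false
set_option linter.unusedVariables false
set_option linter.style.haveILetI false

namespace Fermat.Agent.CFT

open Module

section Zeta

variable (p : ℕ) [hp : Fact p.Prime]

theorem exists_zt : ∃ f : ZMod p →+ Ma, Function.Injective f ∧ ∀ x : Ma, p • x = 0 → ∃ c, f c = x := by
  obtain ⟨ζ, hζ⟩ := exists_prim p
  have hζ0 : ζ ≠ 0 := hζ.ne_zero hp.out.ne_zero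
  have h0 : p • mk0 ζ hζ0 = 0 := by
    apply vl_inj.1
    rw [vl_nsmul, vl_mk0, hζ.pow_eq_one, vl_zero]
  let f : ZMod p →+ Ma := ZMod.lift p ⟨zmultiplesHom Ma (mk0 ζ hζ0), by simpa using h0⟩
  have hf : ∀ n : ℤ, f (n : ZMod p) = n • mk0 ζ hζ0 := fun n => by
    rw [ZMod.lift_coe]; rfl
  refine ⟨f, ?_, ?_⟩
  · rw [injective_iff_map_eq_zero]
    intro c hc
    obtain ⟨n, rfl⟩ := ZMod.intCast_surjective c
    rw [hf] at hc
    have h1 := congrArg vl hc
    rw [vl_zsmul, vl_mk0, vl_zero, hζ.zpow_eq_one_iff_dvd] at h1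
    exact (ZMod.intCast_zmod_eq_zero_iff_dvd _ _).2 h1
  · intro x hx
    have h1 : vl x ^ p = 1 := by rw [← vl_nsmul, hx, vl_zero]
    haveI : NeZero p := ⟨hp.out.ne_zero⟩
    obtain ⟨i, -, hi⟩ := hζ.eq_pow_of_pow_eq_one h1
    refine ⟨((i : ℤ) : ZMod p), ?_⟩
    rw [hf]
    apply vl_inj.1
    rw [vl_zsmul, vl_mk0, zpow_natCast, hi]

/-- A chosen isomorphism of `ZMod p` with the `p`-th roots of unity. -/
noncomputable def zt : ZMod p →+ Ma := (exists_zt p).choose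

theorem zt_injective : Function.Injective (zt p) := (exists_zt p).choose_spec.1

theorem exists_zt_eq {x : Ma} (hx : p • x = 0) : ∃ c, zt p c = x := (exists_zt p).choose_spec.2 x hx

theorem p_zt (c : ZMod p) : p • zt p c = 0 := by
  rw [← map_nsmul]; simp

theorem zt_eq_zero {c : ZMod p} : zt p c = 0 ↔ c = 0 :=
  ⟨fun h => zt_injective p (by rw [h, map_zero]), fun h => by rw [h, map_zero]⟩

/-- `W` fixes the `p`-th roots of unity -/
def MuF (W : Subgroup GQ) : Prop := ∀ g ∈ W, ∀ c, ac g (zt p c) = zt p c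

variable {p}

theorem MuF.mono {W W' : Subgroup GQ} (h : MuF p W) (hle : W' ≤ W) : MuF p W' :=
  fun g hg => h g (hle hg)

theorem MuF.root {W : Subgroup GQ} (h : MuF p W) : ∀ g ∈ W, ∀ ζ : Qb, ζ ^ p = 1 → g ζ = ζ := by
  intro g hg ζ hζ
  have h0 : ζ ≠ 0 := by
    rintro rfl
    rw [zero_pow hp.out.ne_zero] at hζ
    exact zero_ne_one hζ
  obtain ⟨c, hc⟩ := exists_zt_eq p (x := mk0 ζ h0) (vl_inj.1 (by
    rw [vl_nsmul, vl_mk0, hζ, vl_zero]))
  have h1 := congrArg vl (h g hg c)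
  rw [hc, vl_ac, vl_mk0] at h1
  exact h1

theorem MuF.mem {W : Subgroup GQ} (h : MuF p W) (c : ZMod p) : zt p c ∈ FA W :=
  mem_FA'.2 fun g hg => h g hg c

end Zeta

/-- the stabiliser in `W` -/
def St (W : Subgroup GQ) (y : Ma) : Subgroup GQ where
  carrier := {w | w ∈ W ∧ ac w y = y}
  mul_mem' {a b} ha hb := ⟨mul_mem ha.1 hb.1, by rw [ac_mul, hb.2, ha.2]⟩
  one_mem' := ⟨one_mem _, rfl⟩
  inv_mem' {a} ha := ⟨inv_mem ha.1, by
    conv_lhs => rw [← ha.2]
    rw [ac_inv_ac]⟩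

theorem mem_St {W : Subgroup GQ} {y : Ma} {w : GQ} : w ∈ St W y ↔ w ∈ W ∧ ac w y = y := Iff.rfl

theorem St_le (W : Subgroup GQ) (y : Ma) : St W y ≤ W := fun _ h => h.1

theorem mem_FA_St (W : Subgroup GQ) (y : Ma) : y ∈ FA (St W y) := mem_FA'.2 fun _ h => h.2

theorem isOpen_fixMa (y : Ma) : IsOpen {g : GQ | ac g y = y} := by
  have : {g : GQ | ac g y = y} = {g : GQ | g (vl y) = vl y} := by
    ext g
    change ac g y = y ↔ g (vl y) = vl y
    rw [← vl_inj, vl_ac]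
  rw [this]
  exact isOpen_fix _ _

theorem IsLoc.St {A : Pl} {W : Subgroup GQ} (h : IsLoc A W) (y : Ma) : IsLoc A (St W y) := by
  obtain ⟨N, hN, hle⟩ := h.op
  refine ⟨(St_le W y).trans h.le, N ⊓ CFT.St ⊤ y, ?_, ?_⟩
  · have h1 : ((CFT.St ⊤ y : Subgroup GQ) : Set GQ) = {g : GQ | ac g y = y} := by
      ext g
      exact ⟨fun h => h.2, fun h => ⟨Subgroup.mem_top g, h⟩⟩
    have h2 : IsOpen ((CFT.St ⊤ y : Subgroup GQ) : Set GQ) := by
      rw [h1]; exact isOpen_fixMa y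
    exact hN.inter h2
  · rintro g ⟨h1, h2, h3⟩
    exact ⟨hle ⟨h1, h2⟩, h3.2⟩

section Kummer

variable {p : ℕ} [hp : Fact p.Prime] {W : Subgroup GQ} (hμ : MuF p W)

include hμ

/-- the Kummer character exists -/
theorem exists_psi {y : Ma} (hy : p • y ∈ FA W) : ∃ ψ : W →* Multiplicative (ZMod p),
    ∀ w : W, ac w y = y + zt p (Multiplicative.toAdd (ψ w)) := by
  have h1 : ∀ w : W, ∃ c : ZMod p, ac w y = y + zt p c := fun w => by
    obtain ⟨c, hc⟩ := exists_zt_eq p (x := ac w y - y) (by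
      rw [nsmul_sub, ← map_nsmul, mem_FA'.1 hy w w.2, sub_self])
    exact ⟨c, by rw [hc]; abel⟩
  choose f hf using h1
  refine ⟨{ toFun := fun w => Multiplicative.ofAdd (f w), map_one' := ?_, map_mul' := ?_ }, hf⟩
  · apply Multiplicative.toAdd.injective
    apply zt_injective p
    have := hf 1
    rw [Subgroup.coe_one, ac_one] at this
    rw [toAdd_ofAdd, toAdd_one, map_zero]
    exact left_eq_add.1 this
  · intro v w
    apply Multiplicative.toAdd.injective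
    apply zt_injective p
    rw [toAdd_mul, toAdd_ofAdd, toAdd_ofAdd, toAdd_ofAdd, map_add]
    have h2 := hf (v * w)
    rw [Subgroup.coe_mul, ac_mul, hf w, map_add, hμ v v.2, hf v, add_assoc] at h2
    exact (add_left_cancel h2).symm

/-- Kummer extensions are cyclic. -/
theorem kummer_cyc {y : Ma} (hy : p • y ∈ FA W) (hy' : y ∉ FA W) :
    ∃ σ, ac σ y = y + zt p 1 ∧ Cyc p W (St W y) σ := by
  obtain ⟨ψ, hψ⟩ := exists_psi hμ hy
  have hker : ∀ w : W, (w : GQ) ∈ St W y ↔ ψ w = 1 := fun w => by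
    rw [mem_St, hψ]
    constructor
    · rintro ⟨-, h⟩
      have h1 := (add_eq_left.1 h)
      rw [zt_eq_zero] at h1
      exact Multiplicative.toAdd.injective h1
    · intro h
      refine ⟨w.2, ?_⟩
      rw [h, toAdd_one, map_zero, add_zero]
  -- surjectivity
  obtain ⟨τ, hτ⟩ : ∃ τ : W, ψ τ ≠ 1 := by
    by_contra hcon
    push Not at hcon
    apply hy'
    rw [mem_FA']
    intro g hg
    exact ((hker ⟨g, hg⟩).2 (hcon _)).2
  have hτ0 : Multiplicative.toAdd (ψ τ) ≠ 0 := fun h => hτ (Multiplicative.toAdd.injective h)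
  obtain ⟨n, hn⟩ : ∃ n : ℕ, (n : ZMod p) * Multiplicative.toAdd (ψ τ) = 1 := by
    refine ⟨((Multiplicative.toAdd (ψ τ))⁻¹).val, ?_⟩
    rw [ZMod.natCast_zmod_val, inv_mul_cancel₀ hτ0]
  let σ : W := τ ^ n
  have hσ : Multiplicative.toAdd (ψ σ) = 1 := by
    rw [map_pow, toAdd_pow, nsmul_eq_mul, hn]
  have hσi : ∀ i : ℕ, Multiplicative.toAdd (ψ (σ ^ i)) = i := fun i => by
    rw [map_pow, toAdd_pow, hσ, nsmul_eq_mul, mul_one]
  refine ⟨σ, ?_, ?_⟩
  · rw [hψ, hσ]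
  · refine ⟨hp.out.pos, St_le W y, ?_, σ.2, ?_, ?_⟩
    · intro w hw u hu
      have hu' := (hker ⟨u, St_le _ _ hu⟩).1 hu
      have : ψ (⟨w, hw⟩ * ⟨u, St_le _ _ hu⟩ * ⟨w, hw⟩⁻¹) = 1 := by
        rw [map_mul, map_mul, hu', map_inv, mul_one, mul_inv_cancel]
      exact (hker _).2 this
    · intro w hw
      refine ⟨(Multiplicative.toAdd (ψ ⟨w, hw⟩)).val, ZMod.val_lt _, ?_⟩
      have h1 : ψ ((σ ^ (Multiplicative.toAdd (ψ ⟨w, hw⟩)).val)⁻¹ * ⟨w, hw⟩) = 1 := by
        apply Multiplicative.toAdd.injective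
        rw [map_mul, map_inv, toAdd_mul, toAdd_inv, hσi, ZMod.natCast_zmod_val, neg_add_cancel]
        rfl
      exact (hker _).2 h1
    · intro i
      have h1 := hker (σ ^ i)
      rw [Subgroup.coe_pow] at h1
      rw [h1]
      constructor
      · intro h
        have h2 := hσi i
        rw [h] at h2
        exact (ZMod.natCast_eq_zero_iff _ _).1 h2.symm
      · intro h
        apply Multiplicative.toAdd.injective
        rw [hσi]
        exact (ZMod.natCast_eq_zero_iff _ _).2 h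

/-- Cyclic extensions are Kummer extensions. -/
theorem cyc_kummer {W' : Subgroup GQ} {σ : GQ} (h : Cyc p W W' σ) (hcl : IsClosed (W' : Set GQ)) :
    ∃ y : Ma, y ∉ FA W ∧ y ∈ FA W' ∧ p • y ∈ FA W ∧ ac σ y = y + zt p 1 ∧ St W y = W' := by
  let x : FA W' := ⟨zt p 1, (hμ.mono h.le).mem 1⟩
  have hσx : ∀ i : ℕ, (h.sg ^ i : AddMonoid.End (FA W')) x = x := fun i => by
    apply Subtype.ext
    rw [h.coe_sg_pow]
    exact hμ _ (pow_mem h.mem i) 1
  obtain ⟨y, hy⟩ := h.h90 hcl x (by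
    rw [nrm_apply, Finset.sum_congr rfl fun i _ => hσx i, Finset.sum_const, Finset.card_range]
    apply Subtype.ext
    rw [AddSubgroup.coe_nsmul]
    exact p_zt p 1)
  have hσy : ac σ y = (y : Ma) + zt p 1 := by
    have h1 := congrArg Subtype.val hy
    rw [dif_apply, AddSubgroup.coe_sub, h.coe_sg, sub_eq_iff_eq_add] at h1
    rw [h1, add_comm]
  have hy1 : (y : Ma) ∉ FA W := fun h1 => by
    have h2 := mem_FA'.1 h1 σ h.mem
    rw [hσy] at h2
    exact one_ne_zero ((zt_eq_zero p).1 (add_eq_left.1 h2))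
  have hy2 : p • (y : Ma) ∈ FA W := by
    have : p • y ∈ (dif h.sg).ker := by
      rw [AddMonoidHom.mem_ker, map_nsmul, hy]
      apply Subtype.ext
      rw [AddSubgroup.coe_nsmul]
      exact p_zt p 1
    exact h.mem_ker_dif.1 this
  refine ⟨y, hy1, y.2, hy2, hσy, le_antisymm ?_ ?_⟩
  · intro w hw
    obtain ⟨i, hi, hi'⟩ := h.gen w hw.1
    have h1 : ∀ i : ℕ, ac (σ ^ i) (y : Ma) = y + zt p (i : ZMod p) := by
      intro i
      induction i with
      | zero => rw [pow_zero, ac_one, Nat.cast_zero, map_zero, add_zero]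
      | succ i ih =>
        rw [pow_succ', ac_mul, ih, map_add, hσy, hμ σ h.mem, Nat.cast_succ, map_add, add_assoc,
          add_comm (zt p 1)]
    have h2 : ac w (y : Ma) = y + zt p (i : ZMod p) := by
      have h3 : w = σ ^ i * ((σ ^ i)⁻¹ * w) := by group
      rw [h3, ac_mul, mem_FA'.1 y.2 _ hi', h1]
    rw [hw.2] at h2
    have h4 := (zt_eq_zero p).1 (left_eq_add.1 h2)
    rw [ZMod.natCast_eq_zero_iff] at h4
    have h5 := Nat.eq_zero_of_dvd_of_lt h4 hi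
    rw [h5, pow_zero, inv_one, one_mul] at hi'
    exact hi'
  · intro w hw
    exact ⟨h.le hw, mem_FA'.1 y.2 w hw⟩

end Kummer

/-! ### Norm groups -/

namespace Cyc

variable {m : ℕ} {W W' : Subgroup GQ} {σ : GQ} (h : Cyc m W W' σ)

/-- the norm of an element -/
noncomputable def nm (m : ℕ) (σ : GQ) (x : Ma) : Ma := ∑ i ∈ Finset.range m, ac (σ ^ i) x

/-- the group of norms -/
noncomputable def NG (m : ℕ) (W' : Subgroup GQ) (σ : GQ) : AddSubgroup Ma where
  carrier := {z | ∃ x ∈ FA W', nm m σ x = z}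
  add_mem' := by
    rintro _ _ ⟨x, hx, rfl⟩ ⟨y, hy, rfl⟩
    exact ⟨x + y, add_mem hx hy, by simp [nm, Finset.sum_add_distrib]⟩
  zero_mem' := ⟨0, zero_mem _, by simp [nm]⟩
  neg_mem' := by
    rintro _ ⟨x, hx, rfl⟩
    exact ⟨-x, neg_mem hx, by simp [nm]⟩

theorem mem_NG {z : Ma} : z ∈ NG m W' σ ↔ ∃ x ∈ FA W', nm m σ x = z := Iff.rfl

theorem coe_nrm (x : FA W') : ((nrm m h.sg x : FA W') : Ma) = nm m σ x := by
  rw [nrm_apply, AddSubgroup.val_finsetSum, nm]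
  exact Finset.sum_congr rfl fun i _ => h.coe_sg_pow i x

theorem nm_of_mem {x : Ma} (hx : x ∈ FA W) (hσ : σ ∈ W) : nm m σ x = m • x := by
  rw [nm, Finset.sum_congr rfl fun i _ => mem_FA'.1 hx _ (pow_mem hσ i), Finset.sum_const,
    Finset.card_range]

include h

theorem NG_le : NG m W' σ ≤ FA W := by
  rintro _ ⟨x, hx, rfl⟩
  have h1 : nrm m h.sg ⟨x, hx⟩ ∈ (dif h.sg).ker := by
    rw [AddMonoidHom.mem_ker]
    have hT : (h.sg - 1 : AddMonoid.End (FA W')) * (∑ i ∈ Finset.range m, h.sg ^ i) = 0 := by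
      have := mul_geom_sum h.sg m
      rw [this, h.sg_pow, sub_self]
    exact congrArg (fun f : AddMonoid.End (FA W') => f ⟨x, hx⟩) hT
  have := h.mem_ker_dif.1 h1
  rwa [h.coe_nrm] at this

theorem range_relIndex : (nrm m h.sg).range.relIndex (dif h.sg).ker = (NG m W' σ).relIndex (FA W) := by
  have hinj : Function.Injective (FA W').subtype := Subtype.val_injective
  rw [← AddSubgroup.relIndex_map_map_of_injective _ _ hinj]
  congr 1
  · ext z
    constructor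
    · rintro ⟨_, ⟨x, rfl⟩, rfl⟩
      exact ⟨x, x.2, (h.coe_nrm x).symm⟩
    · rintro ⟨x, hx, rfl⟩
      exact ⟨_, ⟨⟨x, hx⟩, rfl⟩, h.coe_nrm _⟩
  · ext z
    constructor
    · rintro ⟨x, hx, rfl⟩
      exact h.mem_ker_dif.1 hx
    · intro hz
      exact ⟨⟨z, mem_FA'.2 fun u hu => mem_FA'.1 hz u (h.le hu)⟩, h.mem_ker_dif.2 hz, rfl⟩

theorem h1_eq_one (hcl : IsClosed (W' : Set GQ)) : (dif h.sg).range.relIndex (nrm m h.sg).ker = 1 := by
  rw [AddSubgroup.relIndex_eq_one]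
  intro x hx
  obtain ⟨y, hy⟩ := h.h90 hcl x hx
  exact ⟨y, hy⟩

end Cyc

/-- **The local norm index.** -/
theorem norm_index {p : ℕ} [hp : Fact p.Prime] (hp2 : p ≠ 2) {W W' : Subgroup GQ} {σ : GQ}
    (h : Cyc p W W' σ) {A : Pl} (hW : IsLoc A W) (hW' : IsLoc A W') :
    (Cyc.NG p W' σ).relIndex (FA W) = p := by
  obtain ⟨h1, h2⟩ := phi_FA hW' hp2
  obtain ⟨h3, h4⟩ := phi_FA hW hp2
  obtain ⟨h5, h6, h7⟩ := herbrand p h.sg h.sg_pow h1 ((QF_equiv p h.kerEquiv).2 h3)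
  rw [qi_equiv p h.kerEquiv, h2, h4, h.h1_eq_one hW'.isClosed, h.range_relIndex] at h7
  have h8 : W'.relIndex (Dec A) = p * W.relIndex (Dec A) := by
    rw [← Subgroup.relIndex_mul_relIndex W' W (Dec A) h.le hW.le, h.relIndex]
  have hp0 : (p : ℚ) ≠ 0 := by exact_mod_cast hp.out.ne_zero
  obtain ⟨k, hk⟩ := Nat.exists_eq_succ_of_ne_zero hp.out.ne_zero
  have h9 : (((Cyc.NG p W' σ).relIndex (FA W) : ℚ)) ^ (p - 1) = (p : ℚ) ^ (p - 1) := by
    rw [h8, Nat.cast_one, div_one] at h7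
    have hX : ((p : ℚ) ^ (p * W.relIndex (Dec A))) ^ A.eps p ≠ 0 := pow_ne_zero _ (pow_ne_zero _ hp0)
    have h10 : ((p : ℚ) * ((p : ℚ) ^ W.relIndex (Dec A)) ^ A.eps p) ^ p =
        (p : ℚ) ^ (p - 1) * ((p : ℚ) * ((p : ℚ) ^ (p * W.relIndex (Dec A))) ^ A.eps p) := by
      have e1 : (p : ℚ) ^ p = (p : ℚ) ^ (p - 1) * p := by
        rw [← pow_succ]; congr 1; omega
      rw [mul_pow, e1]
      rw [← pow_mul, ← pow_mul, ← pow_mul]
      rw [show W.relIndex (Dec A) * (A.eps p * p) = p * W.relIndex (Dec A) * A.eps p from by ring]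
      ring
    rw [h10] at h7
    exact mul_right_cancel₀ (mul_ne_zero hp0 hX) h7
  have h11 : (Cyc.NG p W' σ).relIndex (FA W) ^ (p - 1) = p ^ (p - 1) := by exact_mod_cast h9
  have hne : p - 1 ≠ 0 := by have := hp.out.two_le; omega
  exact Nat.pow_left_injective hne h11

end Fermat.Agent.CFT
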