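import Fermat.Agent.CFT.MC2

/-!
# Symbols
-/

set_option autoImplicit false
set_option linter.unusedSectionVars false
set_option linter.unusedVariables false
set_option linter.style.haveILetI false

namespace Fermat.Agent.CFT

open Module

variable {p : ℕ} [hp : Fact p.Prime]

/-- the trivial action -/
noncomputable abbrev tr (p : ℕ) : GQ →* AddMonoid.End (ZMod p) := 1

theorem tr_apply (g : GQ) (c : ZMod p) : tr p g c = c := rfl

/-- trivial classes -/
def TrP (p : ℕ) (S : Sys GQ) (W : Subgroup GQ) (c : GQ → GQ → GQ → ZMod p) : Prop :=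
  ∃ b, C1 (tr p) S W b ∧ d1 b = c

/-- The Kummer relation -/
structure KR (p : ℕ) [Fact p.Prime] (S : Sys GQ) (W : Subgroup GQ) (α : GQ → GQ → ZMod p) (z : Ma) : Prop where
  c1 : C1 (tr p) S W α
  ex : ∃ Y, C0 ac S W Y ∧ (∀ x, p • Y x = z) ∧ ∀ x y, zt p (α x y) = Y y - Y x

/-- cup product -/
def cup (α β : GQ → GQ → ZMod p) (x y z : GQ) : ZMod p := α x y * β y z

/-- post-composition with `zt` -/
noncomputable def z2 (p : ℕ) [Fact p.Prime] (c : GQ → GQ → GQ → ZMod p) (x y z : GQ) : Ma := zt p (c x y z)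

/-- post-composition with `zt` -/
noncomputable def z1 (p : ℕ) [Fact p.Prime] (c : GQ → GQ → ZMod p) (x y : GQ) : Ma := zt p (c x y)

section

variable {S : Sys GQ} {W : Subgroup GQ}

theorem z2_add (c c' : GQ → GQ → GQ → ZMod p) : z2 p (c + c') = z2 p c + z2 p c' := by
  funext x y z; simp [z2]

theorem z2_neg (c : GQ → GQ → GQ → ZMod p) : z2 p (-c) = -z2 p c := by
  funext x y z; simp [z2]

theorem z2_nsmul (n : ℕ) (c : GQ → GQ → GQ → ZMod p) : z2 p (n • c) = n • z2 p c := by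
  funext x y z; simp [z2, -nsmul_eq_mul]

theorem z2_d1 (b : GQ → GQ → ZMod p) : z2 p (d1 b) = d1 (z1 p b) := by
  funext x y z; simp [z2, z1, d1]

theorem z2_injective : Function.Injective (z2 p) := fun c c' h => by
  funext x y z
  exact zt_injective p (congrFun (congrFun (congrFun h x) y) z)

theorem z1_injective : Function.Injective (z1 p) := fun c c' h => by
  funext x y
  exact zt_injective p (congrFun (congrFun h x) y)

variable (hμ : MuF p W)

include hμ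

theorem C1.z1 {b : GQ → GQ → ZMod p} (hb : C1 (tr p) S W b) : C1 ac S W (z1 p b) := by
  obtain ⟨V, hV, h⟩ := hb.sm
  refine ⟨fun w hw x y => ?_, V, hV, fun x y v hv v' hv' => ?_⟩
  · simp only [CFT.z1, hb.eq w hw, tr_apply]; exact (hμ w hw _).symm
  · simp only [CFT.z1, h x y v hv v' hv']

theorem C2.z2 {b : GQ → GQ → GQ → ZMod p} (hb : C2 (tr p) S W b) : C2 ac S W (z2 p b) := by
  obtain ⟨V, hV, h⟩ := hb.sm
  refine ⟨fun w hw x y z => ?_, V, hV, fun x y z v hv v' hv' v'' hv'' => ?_⟩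
  · simp only [CFT.z2, hb.eq w hw, tr_apply]; exact (hμ w hw _).symm
  · simp only [CFT.z2, h x y z v hv v' hv' v'' hv'']

theorem C1.of_z1 {b : GQ → GQ → ZMod p} (hb : C1 ac S W (CFT.z1 p b)) : C1 (tr p) S W b := by
  obtain ⟨V, hV, h⟩ := hb.sm
  refine ⟨fun w hw x y => zt_injective p ?_, V, hV, fun x y v hv v' hv' => zt_injective p ?_⟩
  · have := hb.eq w hw x y
    simp only [CFT.z1] at this
    rw [hμ w hw] at this
    exact this
  · exact h x y v hv v' hv'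

/-- A cochain with values in roots of unity. -/
theorem exists_of_psmul {b : GQ → GQ → Ma} (hb : C1 ac S W b) (h : p • b = 0) :
    ∃ β, C1 (tr p) S W β ∧ z1 p β = b := by
  choose β hβ using fun x y => exists_zt_eq p (x := b x y) (by
    have := congrFun (congrFun h x) y
    simpa using this)
  have h1 : z1 p β = b := by funext x y; exact hβ x y
  exact ⟨β, C1.of_z1 hμ (by rw [h1]; exact hb), h1⟩

omit hμ in
/-- extraction of roots -/
theorem exists_root0 {a : GQ → Ma} (ha : C0 ac S W a)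
    (hr : ∀ x, ∃ y, p • y = a x ∧ ∃ V ∈ S.carrier, ∀ v ∈ V, ac v y = y) :
    ∃ a', C0 ac S W a' ∧ p • a' = a := by
  obtain ⟨f, hf, hf2⟩ := lift0 (am := ac) (S := S) (W := W) (fun x m => p • m = a x)
    (fun w hw x m hm => by rw [ha.eq w hw, ← hm, map_nsmul])
    (by
      obtain ⟨V, hV, h⟩ := ha.sm
      exact ⟨V, hV, fun x v hv m hm => by rw [hm, h x v hv]⟩) hr
  exact ⟨f, hf, funext hf2⟩

/-- comparison of trivial classes -/
theorem trP_iff (hSo : ∀ V ∈ S.carrier, IsOpen (V : Set GQ))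
    (hr : ∀ a, C0 ac S W a → ∃ a', C0 ac S W a' ∧ p • a' = a) (c : GQ → GQ → GQ → ZMod p) :
    TrP p S W c ↔ ∃ b, C1 ac S W b ∧ d1 b = z2 p c := by
  constructor
  · rintro ⟨b, hb, rfl⟩
    exact ⟨z1 p b, hb.z1 hμ, (z2_d1 b).symm⟩
  · rintro ⟨b, hb, hbc⟩
    obtain ⟨a, ha, had⟩ := H90 hSo (hb.nsmul p) (by
      rw [d1_nsmul, hbc]
      funext x y z
      exact p_zt p _)
    obtain ⟨a', ha', rfl⟩ := hr a ha
    obtain ⟨β, hβ, hβb⟩ := exists_of_psmul hμ (hb.sub ha'.d0) (by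
      rw [nsmul_sub, ← had, d0_nsmul, sub_self])
    refine ⟨β, hβ, z2_injective ?_⟩
    rw [z2_d1, hβb, d1_sub, d1_d0, sub_zero, hbc]

/-! ### Kummer cocycles -/

omit hμ in
theorem KR.cocycle {α : GQ → GQ → ZMod p} {z : Ma} (h : KR p S W α z) : d1 α = 0 := by
  obtain ⟨Y, -, -, hY⟩ := h.ex
  funext x y w
  apply zt_injective p
  simp only [d1, map_add, map_sub, hY, Pi.zero_apply, map_zero]
  abel

omit hμ in
theorem KR.mem {α : GQ → GQ → ZMod p} {z : Ma} (h : KR p S W α z) : z ∈ FA W := by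
  obtain ⟨Y, h1, h2, hY⟩ := h.ex
  rw [mem_FA']
  intro w hw
  rw [← h2 1, map_nsmul, ← h1.eq w hw, h2, h2]

omit hμ in
theorem KR.add {α β : GQ → GQ → ZMod p} {z z' : Ma} (h : KR p S W α z) (h' : KR p S W β z') :
    KR p S W (α + β) (z + z') := by
  obtain ⟨Y, h1, h2, hY⟩ := h.ex
  obtain ⟨Y', h1', h2', hY'⟩ := h'.ex
  refine ⟨h.c1.add h'.c1, Y + Y', h1.add h1', fun x => ?_, fun x y => ?_⟩
  · rw [Pi.add_apply, nsmul_add, h2, h2']
  · rw [Pi.add_apply, Pi.add_apply, map_add, hY, hY', Pi.add_apply, Pi.add_apply]; abel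

omit hμ in
theorem KR.neg {α : GQ → GQ → ZMod p} {z : Ma} (h : KR p S W α z) : KR p S W (-α) (-z) := by
  obtain ⟨Y, h1, h2, hY⟩ := h.ex
  refine ⟨h.c1.neg, -Y, h1.neg, fun x => ?_, fun x y => ?_⟩
  · rw [Pi.neg_apply, neg_nsmul, h2]
  · rw [Pi.neg_apply, Pi.neg_apply, map_neg, hY, Pi.neg_apply, Pi.neg_apply]; abel

theorem KR.zero : KR p S W 0 0 :=
  ⟨C1.zero, 0, C0.zero, fun x => by simp, fun x y => by simp⟩

omit hμ in
theorem KR.nsmul {α : GQ → GQ → ZMod p} {z : Ma} (h : KR p S W α z) (n : ℕ) :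
    KR p S W (n • α) (n • z) := by
  induction n with
  | zero => rw [zero_smul, zero_smul]; exact ⟨C1.zero, 0, C0.zero, fun x => by simp, fun x y => by simp⟩
  | succ n ih => rw [succ_nsmul, succ_nsmul]; exact ih.add h

/-- existence of Kummer cocycles -/
theorem exists_KR {z y : Ma} (hz : z ∈ FA W) (hy : p • y = z) (hr : ∃ V ∈ S.carrier, ∀ v ∈ V, ac v y = y) :
    ∃ α, KR p S W α z := by
  obtain ⟨Y, hY, hY2⟩ := lift0 (am := ac) (S := S) (W := W) (fun x m => p • m = z)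
    (fun w hw x m hm => by rw [← map_nsmul, hm, mem_FA'.1 hz w hw])
    ⟨S.nonempty.choose, S.nonempty.choose_spec, fun x v hv m hm => hm⟩ (fun x => ⟨y, hy, hr⟩)
  obtain ⟨α, hα, hα2⟩ := exists_of_psmul hμ hY.d0 (by
    funext x y
    change p • (Y y - Y x) = 0
    rw [nsmul_sub, hY2, hY2, sub_self])
  exact ⟨α, hα, Y, hY, hY2, fun x y => congrFun (congrFun hα2 x) y⟩

/-- every cocycle is a Kummer cocycle -/
theorem exists_KR_of_cocycle (hSo : ∀ V ∈ S.carrier, IsOpen (V : Set GQ)) {α : GQ → GQ → ZMod p}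
    (hα : C1 (tr p) S W α) (hd : d1 α = 0) : ∃ z, KR p S W α z := by
  obtain ⟨Y, hY, hYd⟩ := H90 hSo (hα.z1 hμ) (by
    rw [← z2_d1, hd]
    funext x y z; simp [z2])
  have h1 : ∀ x y, zt p (α x y) = Y y - Y x := fun x y => (congrFun (congrFun hYd x) y).symm
  have h2 : ∀ x, p • Y x = p • Y 1 := fun x => by
    rw [← sub_eq_zero, ← nsmul_sub, ← h1, p_zt]
  exact ⟨p • Y 1, hα, Y, hY, h2, h1⟩

/-- trivial Kummer cocycles -/
theorem KR.triv_iff {α : GQ → GQ → ZMod p} {z : Ma} (h : KR p S W α z) :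
    (∃ t ∈ FA W, p • t = z) ↔ ∃ f, C0 (tr p) S W f ∧ d0 f = α := by
  obtain ⟨Y, h1, h2, hY⟩ := h.ex
  constructor
  · rintro ⟨t, ht, rfl⟩
    have h3 : ∀ x, ∃ c, zt p c = Y x - t := fun x => exists_zt_eq p (by rw [nsmul_sub, h2, sub_self])
    choose f hf using h3
    obtain ⟨V, hV, hV2⟩ := h1.sm
    refine ⟨f, ⟨fun w hw x => zt_injective p ?_, V, hV, fun x v hv => zt_injective p ?_⟩, ?_⟩
    · rw [tr_apply, hf, h1.eq w hw]
      have h4 := hμ w hw (f x)
      rw [hf, map_sub, mem_FA'.1 ht w hw] at h4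
      rw [hf x]
      exact h4
    · rw [hf, hf, hV2 x v hv]
    · funext x y
      apply zt_injective p
      rw [hY]
      simp only [d0, map_sub, hf]; abel
  · rintro ⟨f, hf, rfl⟩
    refine ⟨Y 1 - zt p (f 1), ?_, by rw [nsmul_sub, p_zt, sub_zero, h2]⟩
    have h3 : ∀ x, Y x - zt p (f x) = Y 1 - zt p (f 1) := fun x => by
      have := hY 1 x
      simp only [d0, map_sub] at this
      rw [← sub_eq_zero]
      have h4 : Y x - zt p (f x) - (Y 1 - zt p (f 1)) = (Y x - Y 1) - (zt p (f x) - zt p (f 1)) := by abel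
      rw [h4, ← this, sub_self]
    rw [mem_FA']
    intro w hw
    have h5 := h3 (w * 1)
    rw [h1.eq w hw, hf.eq w hw, tr_apply] at h5
    rw [map_sub, hμ w hw]
    exact h5

end

/-! ### The symbol -/

section Symbol

variable {S : Sys GQ} {W : Subgroup GQ}

theorem cup_c2 {α β : GQ → GQ → ZMod p} (hα : C1 (tr p) S W α) (hβ : C1 (tr p) S W β) :
    C2 (tr p) S W (cup α β) := by
  obtain ⟨V1, hV1, h1⟩ := hα.sm
  obtain ⟨V2, hV2, h2⟩ := hβ.sm
  obtain ⟨V, hV, hle1, hle2⟩ := S.directed V1 hV1 V2 hV2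
  refine ⟨fun w hw x y z => ?_, V, hV, fun x y z v hv v' hv' v'' hv'' => ?_⟩
  · simp only [cup, hα.eq w hw, hβ.eq w hw, tr_apply]
  · simp only [cup]
    rw [h1 x y v (hle1 hv) v' (hle1 hv'), h2 y z v' (hle2 hv') v'' (hle2 hv'')]

theorem cup_cocycle {α β : GQ → GQ → ZMod p} (hα : d1 α = 0) (hβ : d1 β = 0) : d2 (cup α β) = 0 := by
  funext x y z w
  have h1 := congrFun (congrFun (congrFun hα x) y) z
  have h2 := congrFun (congrFun (congrFun hβ y) z) w
  simp only [d1, Pi.zero_apply] at h1 h2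
  simp only [d2, cup, Pi.zero_apply]
  linear_combination (β z w) * h1 - (α x y) * h2

theorem cup_add_left (α α' β : GQ → GQ → ZMod p) : cup (α + α') β = cup α β + cup α' β := by
  funext x y z; simp [cup, add_mul]

theorem cup_add_right (α β β' : GQ → GQ → ZMod p) : cup α (β + β') = cup α β + cup α β' := by
  funext x y z; simp [cup, mul_add]

theorem cup_nsmul_right (n : ℕ) (α β : GQ → GQ → ZMod p) : cup α (n • β) = n • cup α β := by
  funext x y z; simp [cup]; ring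

theorem cup_nsmul_left (n : ℕ) (α β : GQ → GQ → ZMod p) : cup (n • α) β = n • cup α β := by
  funext x y z; simp [cup]; ring

/-- antisymmetry -/
theorem cup_anti {α β : GQ → GQ → ZMod p} (hα : C1 (tr p) S W α) (hβ : C1 (tr p) S W β)
    (hdα : d1 α = 0) (hdβ : d1 β = 0) : TrP p S W (cup α β + cup β α) := by
  obtain ⟨V1, hV1, h1⟩ := hα.sm
  obtain ⟨V2, hV2, h2⟩ := hβ.sm
  obtain ⟨V, hV, hle1, hle2⟩ := S.directed V1 hV1 V2 hV2
  refine ⟨fun x y => -(α x y * β x y), ⟨fun w hw x y => ?_, V, hV, fun x y v hv v' hv' => ?_⟩, ?_⟩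
  · rw [hα.eq w hw, hβ.eq w hw]; rfl
  · rw [h1 x y v (hle1 hv) v' (hle1 hv'), h2 x y v (hle2 hv) v' (hle2 hv')]
  · funext x y z
    have h3 := congrFun (congrFun (congrFun hdα x) y) z
    have h4 := congrFun (congrFun (congrFun hdβ x) y) z
    simp only [d1, Pi.zero_apply] at h3 h4
    simp only [d1, cup, Pi.add_apply]
    linear_combination (-(β y z) - β x y) * h3 - (α x z) * h4

theorem TrP.add {c c' : GQ → GQ → GQ → ZMod p} (h : TrP p S W c) (h' : TrP p S W c') :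
    TrP p S W (c + c') := by
  obtain ⟨b, hb, rfl⟩ := h
  obtain ⟨b', hb', rfl⟩ := h'
  exact ⟨b + b', hb.add hb', d1_add _ _⟩

theorem TrP.neg {c : GQ → GQ → GQ → ZMod p} (h : TrP p S W c) : TrP p S W (-c) := by
  obtain ⟨b, hb, rfl⟩ := h
  exact ⟨-b, hb.neg, d1_neg _⟩

theorem TrP.nsmul {c : GQ → GQ → GQ → ZMod p} (h : TrP p S W c) (n : ℕ) : TrP p S W (n • c) := by
  obtain ⟨b, hb, rfl⟩ := h
  exact ⟨n • b, hb.nsmul n, d1_nsmul _ _⟩

theorem TrP.mono {W' : Subgroup GQ} {c : GQ → GQ → GQ → ZMod p} (h : TrP p S W c) (hle : W' ≤ W) :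
    TrP p S W' c := by
  obtain ⟨b, hb, rfl⟩ := h
  exact ⟨b, hb.mono hle, rfl⟩

/-- **The invariant of a symbol.** -/
theorem symbol_ZR (hμ : MuF p W) {W' : Subgroup GQ} {σ : GQ} (h : Cyc p W W' σ) {y : Ma}
    (hyW : y ∈ FA W') (hσ : ac σ y = y + zt p 1) {α β : GQ → GQ → ZMod p} {z : Ma}
    (hα : KR p S W α (p • y)) (hβ : KR p S W β z) : ZR S p W' σ (z2 p (cup α β)) (-z) := by
  haveI : NeZero p := ⟨hp.out.ne_zero⟩
  obtain ⟨Y, hY, hYp, hYα⟩ := hα.ex
  obtain ⟨Z, hZ, hZp, hZβ⟩ := hβ.ex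
  let τ : GQ → ZMod p := fun x => α 1 x
  have hαc : ∀ x y z, α x z = α x y + α y z := fun x y z => by
    have := congrFun (congrFun (congrFun hα.cocycle x) y) z
    simp only [d1, Pi.zero_apply] at this
    linear_combination -this
  have hβc : ∀ x y z, β x z = β x y + β y z := fun x y z => by
    have := congrFun (congrFun (congrFun hβ.cocycle x) y) z
    simp only [d1, Pi.zero_apply] at this
    linear_combination -this
  -- the Kummer character
  obtain ⟨c, hc⟩ := exists_zt_eq p (x := Y 1 - y) (by rw [nsmul_sub, hYp, sub_self])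
  have hY1 : Y 1 = y + zt p c := by rw [hc]; abel
  have hchar : ∀ w ∈ W, zt p (α 1 w) = ac w y - y := by
    intro w hw
    have h1 := hY.eq w hw 1
    rw [mul_one] at h1
    rw [hYα, h1, hY1, map_add, hμ w hw]; abel
  have hτw : ∀ w ∈ W, ∀ x, τ (w * x) = α 1 w + τ x := by
    intro w hw x
    have h1 := hα.c1.eq w hw 1 x
    rw [mul_one, tr_apply] at h1
    change α 1 (w * x) = _
    rw [hαc 1 w, h1]
  have hτu : ∀ u ∈ W', ∀ x, τ (u * x) = τ x := by
    intro u hu x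
    rw [hτw u (h.le hu)]
    have h1 := hchar u (h.le hu)
    rw [mem_FA'.1 hyW u hu, sub_self, zt_eq_zero] at h1
    rw [h1, zero_add]
  have hτσ : ∀ x, τ (σ⁻¹ * x) = τ x - 1 := by
    intro x
    have h1 := hτw σ h.mem (σ⁻¹ * x)
    rw [mul_inv_cancel_left] at h1
    have h2 := hchar σ h.mem
    rw [hσ, add_sub_cancel_left] at h2
    rw [zt_injective p h2] at h1
    rw [h1]; ring
  obtain ⟨V1, hV1, hsm1⟩ := hα.c1.sm
  obtain ⟨V2, hV2, hsm2⟩ := hβ.c1.sm
  obtain ⟨V, hV, hle1, hle2⟩ := S.directed V1 hV1 V2 hV2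
  refine ⟨z1 p (fun x y => τ x * β x y), ⟨fun u hu x y => ?_, V, hV, fun x y v hv v' hv' => ?_⟩, ?_,
    -Z, (hZ.mono h.le).neg, ?_, fun x => ?_⟩
  · simp only [z1, hτu u hu, hβ.c1.eq u (h.le hu), tr_apply]
    exact (hμ u (h.le hu) _).symm
  · simp only [z1]
    have h1 := hsm1 1 x 1 (one_mem _) v (hle1 hv)
    rw [mul_one] at h1
    change zt p (α 1 (x * v) * _) = _
    rw [h1, hsm2 x y v (hle2 hv) v' (hle2 hv')]
  · rw [← z2_d1]
    congr 1
    funext x y z
    simp only [d1, cup, τ]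
    rw [hβc x y z, hαc 1 x y]
    ring
  · funext x y
    simp only [d0, Pi.neg_apply, t1, z1, Pi.sub_apply]
    have h1 := hβ.c1.eq σ⁻¹ (inv_mem h.mem) x y
    rw [tr_apply] at h1
    rw [hτσ, h1, hμ σ h.mem, ← map_sub]
    have h2 : (τ x - 1) * β x y - τ x * β x y = -β x y := by ring
    rw [h2, map_neg, hZβ]; abel
  · rw [nmF_neg]
    congr 1
    have h1 : ∀ j ∈ Finset.range p, ac (σ ^ j) (Z ((σ ^ j)⁻¹ • x)) = Z x := by
      intro j _
      have := hZ.eq (σ ^ j) (pow_mem h.mem j) ((σ ^ j)⁻¹ • x)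
      rw [smul_eq_mul, mul_inv_cancel_left] at this
      rw [this, smul_eq_mul]
    rw [nmF, Finset.sum_congr rfl h1, Finset.sum_const, Finset.card_range, hZp]

end Symbol

/-- the system of all open normal subgroups -/
def SL : Sys GQ where
  carrier := {V | V.Normal ∧ IsOpen (V : Set GQ)}
  nonempty := ⟨⊤, inferInstance, isOpen_univ⟩
  normal V h := h.1
  finiteIndex V h := finiteIndex_of_isOpen h.2
  directed U hU V hV := ⟨U ⊓ V, ⟨by
    haveI := hU.1; haveI := hV.1; infer_instance, hU.2.inter hV.2⟩, inf_le_left, inf_le_right⟩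

theorem SL_open : ∀ V ∈ SL.carrier, IsOpen (V : Set GQ) := fun _ h => h.2

theorem SL_exists {N : Subgroup GQ} (hN : IsOpen (N : Set GQ)) : ∃ V ∈ SL.carrier, V ≤ N := by
  obtain ⟨E, h1, h2, h3⟩ := (krullTopology_mem_nhds_one_iff_of_normal ℚ Qb (N : Set GQ)).1
    (hN.mem_nhds (one_mem N))
  haveI := h1
  exact ⟨E.fixingSubgroup, ⟨@fixing_normal E h2, IntermediateField.fixingSubgroup_isOpen E⟩, h3⟩

theorem SL_fix (y : Ma) : ∃ V ∈ SL.carrier, ∀ v ∈ V, ac v y = y := by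
  have h1 : ((St ⊤ y : Subgroup GQ) : Set GQ) = {g : GQ | ac g y = y} := by
    ext g
    exact ⟨fun h => h.2, fun h => ⟨Subgroup.mem_top g, h⟩⟩
  obtain ⟨V, hV, hle⟩ := SL_exists (N := St ⊤ y) (by rw [h1]; exact isOpen_fixMa y)
  exact ⟨V, hV, fun v hv => (hle hv).2⟩

theorem exists_proot (z : Ma) : ∃ y : Ma, p • y = z := by
  obtain ⟨y, hy⟩ := IsAlgClosed.exists_pow_nat_eq (vl z) hp.out.pos
  have hy0 : y ≠ 0 := by
    rintro rfl
    rw [zero_pow hp.out.ne_zero] at hy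
    exact vl_ne_zero z hy.symm
  exact ⟨mk0 y hy0, vl_inj.1 (by rw [vl_nsmul, vl_mk0, hy])⟩

theorem SL_root {W : Subgroup GQ} (a : GQ → Ma) (ha : C0 ac SL W a) :
    ∃ a', C0 ac SL W a' ∧ p • a' = a :=
  exists_root0 ha fun x => by
    obtain ⟨y, hy⟩ := exists_proot (p := p) (a x)
    exact ⟨y, hy, SL_fix y⟩

theorem SL_KR {W : Subgroup GQ} (hμ : MuF p W) {z : Ma} (hz : z ∈ FA W) : ∃ α, KR p SL W α z := by
  obtain ⟨y, hy⟩ := exists_proot (p := p) z
  exact exists_KR hμ hz hy (SL_fix y)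

theorem trP_SL {W : Subgroup GQ} (hμ : MuF p W) (c : GQ → GQ → GQ → ZMod p) :
    TrP p SL W c ↔ ∃ b, C1 ac SL W b ∧ d1 b = z2 p c := trP_iff hμ SL_open SL_root c

end Fermat.Agent.CFT
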