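import Fermat.Agent.CFT.Unr4
import Fermat.Agent.CFT.MC3

/-!
# Local `H²`
-/

set_option autoImplicit false
set_option linter.unusedSectionVars false
set_option linter.unusedVariables false
set_option linter.style.haveILetI false

namespace Fermat.Agent.CFT

open Module

variable {p : ℕ} [hp : Fact p.Prime]

/-- Classes descend along extensions of degree prime to `p`. -/
theorem TrP.descend {S : Sys GQ} {W W' : Subgroup GQ} (hle : W' ≤ W) (hfin : W'.relIndex W ≠ 0)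
    (hr : ¬ p ∣ W'.relIndex W) {c : GQ → GQ → GQ → ZMod p} (hc : C2 (tr p) S W c)
    (h : TrP p S W' c) : TrP p S W c := by
  classical
  obtain ⟨b, hb, hbc⟩ := h
  haveI : (W'.subgroupOf W).FiniteIndex := ⟨hfin⟩
  haveI : Finite (W ⧸ W'.subgroupOf W) := inferInstance
  letI := Fintype.ofFinite (W ⧸ W'.subgroupOf W)
  set r := W'.relIndex W with hrdef
  have hr0 : (r : ZMod p) ≠ 0 := by rwa [Ne, ZMod.natCast_eq_zero_iff]
  have hcard : Fintype.card (W ⧸ W'.subgroupOf W) = r := by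
    rw [← Nat.card_eq_fintype_card]; rfl
  let φ : W → GQ → GQ → ZMod p := fun w x y => b ((w : GQ)⁻¹ * x) ((w : GQ)⁻¹ * y)
  have hφ : ∀ (w : W) x y, φ ((w : W ⧸ W'.subgroupOf W).out) x y = φ w x y := by
    intro w x y
    have h1 : (w : W)⁻¹ * (w : W ⧸ W'.subgroupOf W).out ∈ W'.subgroupOf W := by
      rw [← QuotientGroup.eq]; exact (QuotientGroup.out_eq' _).symm
    set v := (w : W)⁻¹ * (w : W ⧸ W'.subgroupOf W).out with hv
    have h3 : ((w : W ⧸ W'.subgroupOf W).out : W) = w * v := by rw [hv]; group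
    rw [h3]
    have h4 : (v : GQ) ∈ W' := h1
    have h5 := hb.eq _ (inv_mem h4) ((w : GQ)⁻¹ * x) ((w : GQ)⁻¹ * y)
    change b (((w * v : W) : GQ)⁻¹ * x) (((w * v : W) : GQ)⁻¹ * y) = _
    rw [Subgroup.coe_mul, mul_inv_rev, mul_assoc, mul_assoc, h5]
    rfl
  let B : GQ → GQ → ZMod p := fun x y => (r : ZMod p)⁻¹ * ∑ q : W ⧸ W'.subgroupOf W, φ q.out x y
  refine ⟨B, ⟨fun w hw x y => ?_, ?_⟩, ?_⟩
  · change (r : ZMod p)⁻¹ * _ = (r : ZMod p)⁻¹ * _
    congr 1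
    refine (Fintype.sum_equiv (MulAction.toPerm (⟨w, hw⟩ : W)) _ _ fun q => ?_).symm
    obtain ⟨v, rfl⟩ := QuotientGroup.mk_surjective q
    rw [hφ]
    change _ = φ (((⟨w, hw⟩ * v : W) : W ⧸ W'.subgroupOf W).out) _ _
    rw [hφ]
    simp only [φ, Subgroup.coe_mul]
    congr 1 <;> group
  · obtain ⟨V, hV, hsm⟩ := hb.sm
    refine ⟨V, hV, fun x y v hv v' hv' => ?_⟩
    simp only [B, φ]
    congr 1
    refine Finset.sum_congr rfl fun q _ => ?_
    rw [← mul_assoc, ← mul_assoc, hsm _ _ v hv v' hv']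
  · funext x y z
    have h1 : ∀ q : W ⧸ W'.subgroupOf W, φ q.out y z - φ q.out x z + φ q.out x y = c x y z := by
      intro q
      have h2 := congrFun (congrFun (congrFun hbc (((q.out : W) : GQ)⁻¹ * x)) (((q.out : W) : GQ)⁻¹ * y))
        (((q.out : W) : GQ)⁻¹ * z)
      rw [hc.eq _ (inv_mem (q.out : W).2)] at h2
      exact h2
    have h2 : B y z - B x z + B x y = (r : ZMod p)⁻¹ * ∑ q : W ⧸ W'.subgroupOf W,
        (φ q.out y z - φ q.out x z + φ q.out x y) := by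
      simp only [B, Finset.sum_add_distrib, Finset.sum_sub_distrib]
      ring
    change B y z - B x z + B x y = _
    rw [h2, Finset.sum_congr rfl fun q _ => h1 q, Finset.sum_const, Finset.card_univ, hcard,
      nsmul_eq_mul, inv_mul_cancel_left₀ hr0]

section Index

variable {X : Type*} [AddCommGroup X] {K L : AddSubgroup X}

theorem exists_nsmul_sub_mem (hidx : K.relIndex L = p) {z' z : X} (hz' : z' ∈ L) (hz'K : z' ∉ K)
    (hz : z ∈ L) : ∃ k : ℕ, z - k • z' ∈ K := by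
  have hcard : Nat.card (L ⧸ K.addSubgroupOf L) = p := hidx
  have h1 : ((⟨z', hz'⟩ : L) : L ⧸ K.addSubgroupOf L) ≠ 0 := by
    rw [Ne, QuotientAddGroup.eq_zero_iff]
    exact hz'K
  obtain ⟨k, hk⟩ := mem_multiples_of_prime_card hcard (g' := ((⟨z, hz⟩ : L) : L ⧸ K.addSubgroupOf L)) h1
  refine ⟨k, ?_⟩
  have h2 : ((⟨z, hz⟩ - k • ⟨z', hz'⟩ : L) : L ⧸ K.addSubgroupOf L) = 0 := by
    rw [QuotientAddGroup.mk_sub, QuotientAddGroup.mk_nsmul, sub_eq_zero]
    exact hk.symm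
  exact (QuotientAddGroup.eq_zero_iff (⟨z, hz⟩ - k • ⟨z', hz'⟩ : L)).1 h2

end Index

section Unram

variable {A : Pl}

/-- elements whose order is `k` times an order -/
def OG (A : Pl) (W : Subgroup GQ) (k : ℕ) : AddSubgroup Ma where
  carrier := {z | z ∈ FA W ∧ ∃ y ∈ FA W, A.ord (vl z) = k * A.ord (vl y)}
  add_mem' := by
    rintro a b ⟨ha, y, hy, h⟩ ⟨hb, y', hy', h'⟩
    refine ⟨add_mem ha hb, y + y', add_mem hy hy', ?_⟩
    rw [vl_add, vl_add, A.ord_mul (vl_ne_zero _) (vl_ne_zero _), A.ord_mul (vl_ne_zero _) (vl_ne_zero _),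
      h, h']; ring
  zero_mem' := ⟨zero_mem _, 0, zero_mem _, by rw [vl_zero, A.ord_one, mul_zero]⟩
  neg_mem' := by
    rintro a ⟨ha, y, hy, h⟩
    refine ⟨neg_mem ha, -y, neg_mem hy, ?_⟩
    rw [vl_neg, vl_neg, A.ord_inv (vl_ne_zero _), A.ord_inv (vl_ne_zero _), h]; ring

theorem mem_OG {W : Subgroup GQ} {k : ℕ} {z : Ma} :
    z ∈ OG A W k ↔ z ∈ FA W ∧ ∃ y ∈ FA W, A.ord (vl z) = k * A.ord (vl y) := Iff.rfl

theorem NG_le_OG {m : ℕ} {W W' : Subgroup GQ} {σ : GQ} (h : Cyc m W W' σ) (hW : W ≤ Dec A)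
    (hv : SameVal A W W') : Cyc.NG m W' σ ≤ OG A W m := by
  intro z hz
  refine ⟨h.NG_le hz, ?_⟩
  obtain ⟨x, hx, rfl⟩ := hz
  obtain ⟨y, hy, hyx⟩ := hv x hx
  refine ⟨y, hy, ?_⟩
  rw [Cyc.nm, vl_sum, A.ord_prod _ _ fun i _ => vl_ne_zero _]
  have h1 : ∀ i ∈ Finset.range m, A.ord (vl (ac (σ ^ i) x)) = A.ord (vl x) := fun i _ => by
    rw [vl_ac]
    exact Dec.ord (hW (pow_mem h.mem i)) (vl_ne_zero _)
  rw [Finset.sum_congr rfl h1, Finset.sum_const, Finset.card_range, nsmul_eq_mul, hyx]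

/-- Norms in unramified extensions of degree `p`. -/
theorem OG_le_NG (hp2 : p ≠ 2) {W W' : Subgroup GQ} {σ : GQ} (h : Cyc p W W' σ) (hW : IsLoc A W)
    (hW' : IsLoc A W') (hv : SameVal A W W') : OG A W p ≤ Cyc.NG p W' σ := by
  have h1 := NG_le_OG h hW.le hv
  have h2 : OG A W p ≤ FA W := fun x hx => hx.1
  have h3 := AddSubgroup.relIndex_mul_relIndex _ _ _ h1 h2
  rw [norm_index hp2 h hW hW'] at h3
  have h4 : (OG A W p).relIndex (FA W) ≠ 1 := by
    rw [Ne, AddSubgroup.relIndex_eq_one]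
    intro hle
    obtain ⟨e, he, hr⟩ := exists_unif hW
    have h5 : e ∈ (ordH W A).range := by rw [hr]; exact AddSubgroup.mem_zmultiples e
    obtain ⟨π, hπ⟩ := h5
    obtain ⟨-, y, hy, hyπ⟩ := hle π.2
    have h6 : ordH W A ⟨y, hy⟩ ∈ (ordH W A).range := ⟨_, rfl⟩
    rw [hr, AddSubgroup.mem_zmultiples_iff] at h6
    obtain ⟨k, hk⟩ := h6
    rw [ordH_apply] at hπ hk
    rw [hπ, ← hk, zsmul_eq_mul, ← mul_assoc] at hyπ
    have h7 : ((p : ℤ) * k : ℤ) = 1 := by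
      have h8 : (p : ℚ) * k = 1 := by
        have := mul_right_cancel₀ he.ne' (show (p : ℚ) * k * e = 1 * e by rw [one_mul]; exact hyπ.symm)
        exact this
      exact_mod_cast h8
    have h8 : (p : ℤ) ∣ 1 := ⟨k, h7.symm⟩
    have h9 := Int.natCast_dvd_natCast.1 (by exact_mod_cast h8 : ((p : ℕ) : ℤ) ∣ ((1 : ℕ) : ℤ))
    exact hp.out.one_lt.ne' (Nat.dvd_one.1 h9)
  have h5 : (OG A W p).relIndex (FA W) = p := by
    rcases (Nat.dvd_prime hp.out).1 (Dvd.intro_left _ h3) with h | h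
    · exact absurd h h4
    · exact h
  rw [h5] at h3
  have h6 : (Cyc.NG p W' σ).relIndex (OG A W p) = 1 := by
    have := hp.out.pos
    exact Nat.eq_of_mul_eq_mul_right this (by rw [h3, one_mul])
  exact AddSubgroup.relIndex_eq_one.1 h6

theorem SameVal.mono_left {W W' W'' : Subgroup GQ} (h1 : W' ≤ W'') (h : SameVal A W W') :
    SameVal A W W'' := fun x hx => h x (mem_FA'.2 fun g hg => mem_FA'.1 hx g (h1 hg))

theorem FA_mono {W W' : Subgroup GQ} (h : W' ≤ W) : FA W ≤ FA W' :=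
  fun x hx => mem_FA'.2 fun g hg => mem_FA'.1 hx g (h hg)

theorem SameVal.mono_right {W W' W'' : Subgroup GQ} (h1 : W'' ≤ W) (h : SameVal A W W') :
    SameVal A W'' W' := fun x hx => by
  obtain ⟨y, hy, hyx⟩ := h x hx
  exact ⟨y, FA_mono h1 hy, hyx⟩

theorem IsLoc.of_le {W W' : Subgroup GQ} (h : IsLoc A W) (h' : IsLoc A W') {W'' : Subgroup GQ}
    (h1 : W' ≤ W'') (h2 : W'' ≤ W) : IsLoc A W'' :=
  ⟨h2.trans h.le, h'.op.imp fun N hN => ⟨hN.1, hN.2.trans h1⟩⟩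

/-- norms in towers -/
theorem nm_tower {m1 m2 : ℕ} (σ : GQ) (x : Ma) :
    Cyc.nm m1 σ (Cyc.nm m2 (σ ^ m1) x) = Cyc.nm (m1 * m2) σ x := by
  have h1 : ∀ k : ℕ, Cyc.nm (m1 * (k + 1)) σ x = Cyc.nm (m1 * k) σ x +
      ∑ i ∈ Finset.range m1, ac (σ ^ i) (ac ((σ ^ m1) ^ k) x) := by
    intro k
    rw [Cyc.nm, Cyc.nm, mul_add, mul_one, Finset.sum_range_add]
    congr 1
    refine Finset.sum_congr rfl fun i _ => ?_
    rw [← ac_mul, ← pow_mul, ← pow_add, add_comm]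
  have h2 : ∀ k : ℕ, Cyc.nm m1 σ (Cyc.nm k (σ ^ m1) x) = Cyc.nm (m1 * k) σ x := by
    intro k
    induction k with
    | zero => simp [Cyc.nm]
    | succ k ih =>
      rw [h1, ← ih]
      have h3 : Cyc.nm (k + 1) (σ ^ m1) x = Cyc.nm k (σ ^ m1) x + ac ((σ ^ m1) ^ k) x :=
        Finset.sum_range_succ _ _
      rw [h3]
      simp only [Cyc.nm, map_add, Finset.sum_add_distrib]
  exact h2 m2

/-- Norms in unramified extensions of degree `p ^ j`. -/
theorem OG_le_NG_pow (hp2 : p ≠ 2) (j : ℕ) : ∀ {W W' : Subgroup GQ} {σ : GQ},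
    Cyc (p ^ j) W W' σ → IsLoc A W → IsLoc A W' → SameVal A W W' →
    OG A W (p ^ j) ≤ Cyc.NG (p ^ j) W' σ := by
  induction j with
  | zero =>
    intro W W' σ h hW hW' hv z hz
    refine ⟨z, FA_mono h.le hz.1, ?_⟩
    simp [Cyc.nm, ac_one]
  | succ j ih =>
    intro W W' σ h hW hW' hv z hz
    rw [pow_succ'] at h hz ⊢
    obtain ⟨W'', h1, h2, h3, h4⟩ := h.inter
    have hW'' := hW.of_le hW' h1 h2
    obtain ⟨hzW, y, hy, hyz⟩ := hz
    -- first step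
    have h5 : z ∈ OG A W p := by
      refine ⟨hzW, (p ^ j) • y, nsmul_mem hy _, ?_⟩
      rw [vl_nsmul, A.ord_pow (vl_ne_zero _), hyz]
      push_cast; ring
    obtain ⟨t, ht, rfl⟩ := OG_le_NG hp2 h3 hW hW'' (hv.mono_left h1) h5
    have hord : A.ord (vl (Cyc.nm p σ t)) = p * A.ord (vl t) := by
      rw [Cyc.nm, vl_sum, A.ord_prod _ _ fun i _ => vl_ne_zero _]
      have h1 : ∀ i ∈ Finset.range p, A.ord (vl (ac (σ ^ i) t)) = A.ord (vl t) := fun i _ => by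
        rw [vl_ac]
        exact Dec.ord (hW.le (pow_mem h.mem i)) (vl_ne_zero _)
      rw [Finset.sum_congr rfl h1, Finset.sum_const, Finset.card_range, nsmul_eq_mul]
    have h6 : t ∈ OG A W'' (p ^ j) := by
      refine ⟨ht, y, FA_mono h2 hy, ?_⟩
      rw [hord] at hyz
      have hp0 : (p : ℚ) ≠ 0 := by exact_mod_cast hp.out.ne_zero
      have h7 : (p : ℚ) * A.ord (vl t) = p * ((p ^ j : ℕ) * A.ord (vl y)) := by
        rw [hyz]; push_cast; ring
      exact mul_left_cancel₀ hp0 h7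
    obtain ⟨s, hs, rfl⟩ := ih h4 hW'' hW' (hv.mono_right h2) h6
    exact ⟨s, hs, (nm_tower σ s).symm⟩

end Unram

section Symb

variable {A : Pl}

theorem cup_d0_left {S : Sys GQ} {W : Subgroup GQ} {f : GQ → ZMod p} {β : GQ → GQ → ZMod p}
    (hf : C0 (tr p) S W f) (hβ : C1 (tr p) S W β) (hd : d1 β = 0) : TrP p S W (cup (d0 f) β) := by
  obtain ⟨V1, hV1, h1⟩ := hf.sm
  obtain ⟨V2, hV2, h2⟩ := hβ.sm
  obtain ⟨V, hV, hle1, hle2⟩ := S.directed V1 hV1 V2 hV2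
  refine ⟨fun x y => f x * β x y, ⟨fun w hw x y => ?_, V, hV, fun x y v hv v' hv' => ?_⟩, ?_⟩
  · rw [hf.eq w hw, hβ.eq w hw]; rfl
  · rw [h1 x v (hle1 hv), h2 x y v (hle2 hv) v' (hle2 hv')]
  · funext x y z
    have h3 := congrFun (congrFun (congrFun hd x) y) z
    simp only [d1, Pi.zero_apply] at h3
    simp only [d1, cup, d0]
    linear_combination (f x) * h3

theorem isClosed_of_loc {W : Subgroup GQ} (h : IsLoc A W) : IsClosed (W : Set GQ) := h.isClosed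

/-- The symbol is trivial iff a norm. -/
theorem symbol_trivial_iff {W : Subgroup GQ} (hW : IsLoc A W) (hμ : MuF p W) {W' : Subgroup GQ} {σ : GQ}
    (h : Cyc p W W' σ) {y : Ma} (hyW : y ∈ FA W') (hσ : ac σ y = y + zt p 1) (hW' : IsLoc A W')
    {α β : GQ → GQ → ZMod p} {z : Ma}
    (hα : KR p SL W α (p • y)) (hβ : KR p SL W β z) :
    TrP p SL W (cup α β) ↔ z ∈ Cyc.NG p W' σ := by
  have h1 := symbol_ZR hμ h hyW hσ hα hβ
  obtain ⟨N, hN, hle⟩ := hW'.op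
  obtain ⟨V, hV, hVN⟩ := SL_exists hN
  rw [trP_SL hμ]
  constructor
  · rintro ⟨b, hb, hbc⟩
    have := h1.norm h SL_open hb hbc
    rwa [neg_mem_iff] at this
  · intro hz
    exact h1.trivial h ⟨V, hV, fun g hg => hle ⟨hW.le hg.2, hVN hg.1⟩⟩ (neg_mem hz)

/-- **All symbols are split by the unramified extension.** -/
theorem symbol_unram (hp2 : p ≠ 2) {W : Subgroup GQ} (hW : IsLoc A W) (hμ : MuF p W) {α β : GQ → GQ → ZMod p}
    {x z : Ma} (hα : KR p SL W α x) (hβ : KR p SL W β z) {Wu : Subgroup GQ} {σu : GQ}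
    (hu : Cyc p W Wu σu) (hWu : IsLoc A Wu) : TrP p SL Wu (cup α β) := by
  by_cases htr : TrP p SL W (cup α β)
  · exact htr.mono hu.le
  -- generators
  have kum : ∀ {γ : GQ → GQ → ZMod p} {t : Ma}, KR p SL W γ t → (∃ δ, C1 (tr p) SL W δ ∧ d1 δ = 0 ∧
      ¬ TrP p SL W (cup γ δ)) → ∃ (y : Ma) (σ : GQ), p • y = t ∧ Cyc p W (St W y) σ ∧ ac σ y = y + zt p 1 := by
    intro γ t hγ ⟨δ, hδ, hdδ, hn⟩
    obtain ⟨y, hy⟩ := exists_proot (p := p) t
    have hyW : y ∉ FA W := by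
      intro hyW
      obtain ⟨f, hf, rfl⟩ := (KR.triv_iff hμ hγ).1 ⟨y, hyW, hy⟩
      exact hn (cup_d0_left hf hδ hdδ)
    obtain ⟨σ, h1, h2⟩ := kummer_cyc hμ (by rw [hy]; exact hγ.mem) hyW
    exact ⟨y, σ, hy, h2, h1⟩
  have anti : ∀ {γ δ : GQ → GQ → ZMod p} {t s : Ma}, KR p SL W γ t → KR p SL W δ s →
      TrP p SL W (cup γ δ) → TrP p SL W (cup δ γ) := by
    intro γ δ t s hγ hδ h1
    have h2 := cup_anti hγ.c1 hδ.c1 hγ.cocycle hδ.cocycle
    have h3 := h2.add h1.neg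
    have h4 : cup γ δ + cup δ γ + -cup γ δ = cup δ γ := by abel
    rwa [h4] at h3
  obtain ⟨yx, σx, hyx, hcx, hσx⟩ := kum hα ⟨β, hβ.c1, hβ.cocycle, htr⟩
  subst hyx
  have hLx : IsLoc A (St W yx) := hW.St yx
  have hNx := norm_index hp2 hcx hW hLx
  have hzx : z ∉ Cyc.NG p (St W yx) σx := fun h => htr
    ((symbol_trivial_iff hW hμ hcx (mem_FA_St W yx) hσx hLx hα hβ).2 h)
  obtain ⟨yu, -, hyuWu, hyuW, hσu, hStu⟩ := cyc_kummer hμ hu hWu.isClosed
  have hNu := norm_index hp2 hu hW hWu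
  obtain ⟨υ, hυ⟩ := SL_KR hμ hyuW
  -- choose `z'`
  obtain ⟨z', hz'W, hz'x, hz'u⟩ : ∃ z' ∈ FA W, z' ∉ Cyc.NG p (St W yx) σx ∧ z' ∉ Cyc.NG p Wu σu := by
    by_cases hzu : z ∈ Cyc.NG p Wu σu
    · obtain ⟨t, ht, htu⟩ : ∃ t ∈ FA W, t ∉ Cyc.NG p Wu σu := by
        by_contra hcon
        push Not at hcon
        have := AddSubgroup.relIndex_eq_one.2 (show FA W ≤ Cyc.NG p Wu σu from hcon)
        rw [hNu] at this
        exact hp.out.one_lt.ne' this
      by_cases htx : t ∈ Cyc.NG p (St W yx) σx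
      · refine ⟨z + t, add_mem hβ.mem ht, fun h => hzx ?_, fun h => htu ?_⟩
        · have := sub_mem h htx
          rwa [add_sub_cancel_right] at this
        · have := sub_mem h hzu
          rwa [add_sub_cancel_left] at this
      · exact ⟨t, ht, htx, htu⟩
    · exact ⟨z, hβ.mem, hzx, hzu⟩
  obtain ⟨γ, hγ⟩ := SL_KR hμ hz'W
  -- `(x, z) ~ k (x, z')`
  obtain ⟨k, hk⟩ := exists_nsmul_sub_mem hNx hz'W hz'x hβ.mem
  have e1 : TrP p SL W (cup α (β + -(k • γ))) :=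
    (symbol_trivial_iff hW hμ hcx (mem_FA_St W yx) hσx hLx hα (hβ.add (hγ.nsmul k).neg)).2 (by
      rw [← sub_eq_add_neg]; exact hk)
  -- the symbol `(z', x)` is nontrivial
  have n1 : ¬ TrP p SL W (cup γ υ) := by
    intro h1
    have h2 := anti hγ hυ h1
    exact hz'u ((symbol_trivial_iff hW hμ hu hyuWu hσu hWu hυ hγ).1 h2)
  obtain ⟨yz, σz, hyz, hcz, hσz⟩ := kum hγ ⟨υ, hυ.c1, hυ.cocycle, n1⟩
  subst hyz
  have hLz : IsLoc A (St W yz) := hW.St yz
  have hNz := norm_index hp2 hcz hW hLz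
  have hux : p • yu ∉ Cyc.NG p (St W yz) σz := fun h => n1
    ((symbol_trivial_iff hW hμ hcz (mem_FA_St W yz) hσz hLz hγ hυ).2 h)
  obtain ⟨j, hj⟩ := exists_nsmul_sub_mem hNz hυ.mem hux hα.mem
  have e2 : TrP p SL W (cup γ (α + -(j • υ))) :=
    (symbol_trivial_iff hW hμ hcz (mem_FA_St W yz) hσz hLz hγ (hα.add (hυ.nsmul j).neg)).2 (by
      rw [← sub_eq_add_neg]; exact hj)
  -- `(u, z')` is trivial over `Wu`
  have e3 : TrP p SL Wu (cup υ γ) := by
    have h1 := symbol_ZR hμ hu hyuWu hσu hυ hγ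
    obtain ⟨b, hb, hbc, -⟩ := h1
    exact (trP_SL (hμ.mono hu.le) _).2 ⟨b, hb, hbc⟩
  have hγu := hγ
  -- assemble over `Wu`
  have f1 : TrP p SL Wu (cup α β + -(k • cup α γ)) := by
    have h1 := e1.mono hu.le
    have h2 : cup α (β + -(k • γ)) = cup α β + -(k • cup α γ) := by
      funext a b c; simp [cup]; ring
    rwa [h2] at h1
  have f2 : TrP p SL Wu (cup γ α + -(j • cup γ υ)) := by
    have h1 := e2.mono hu.le
    have h2 : cup γ (α + -(j • υ)) = cup γ α + -(j • cup γ υ) := by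
      funext a b c; simp [cup]; ring
    rwa [h2] at h1
  have f3 : TrP p SL Wu (cup α γ + cup γ α) := (cup_anti hα.c1 hγ.c1 hα.cocycle hγ.cocycle).mono hu.le
  have f4 : TrP p SL Wu (cup υ γ + cup γ υ) := (cup_anti hυ.c1 hγ.c1 hυ.cocycle hγ.cocycle).mono hu.le
  have f5 : TrP p SL Wu (cup γ υ) := by
    have := f4.add e3.neg
    have h1 : cup υ γ + cup γ υ + -cup υ γ = cup γ υ := by abel
    rwa [h1] at this
  have f6 : TrP p SL Wu (cup γ α) := by
    have := f2.add (f5.nsmul j)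
    have h1 : cup γ α + -(j • cup γ υ) + j • cup γ υ = cup γ α := by abel
    rwa [h1] at this
  have f7 : TrP p SL Wu (cup α γ) := by
    have := f3.add f6.neg
    have h1 : cup α γ + cup γ α + -cup γ α = cup α γ := by abel
    rwa [h1] at this
  have := f1.add (f7.nsmul k)
  have h1 : cup α β + -(k • cup α γ) + k • cup α γ = cup α β := by abel
  rwa [h1] at this

end Symb

end Fermat.Agent.CFT
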