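import Fermat.Agent.CFT.LH2

/-!
# Local `H²`, II
-/

set_option autoImplicit false
set_option linter.unusedSectionVars false
set_option linter.unusedVariables false
set_option linter.style.haveILetI false

namespace Fermat.Agent.CFT

open Module

variable {p : ℕ} [hp : Fact p.Prime]

theorem Cyc.eq_of_one {W W' : Subgroup GQ} {σ : GQ} (h : Cyc 1 W W' σ) : W' = W := by
  apply le_antisymm h.le
  intro w hw
  obtain ⟨i, hi, hi'⟩ := h.gen w hw
  have : i = 0 := by omega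
  rw [this, pow_zero, inv_one, one_mul] at hi'
  exact hi'

/-- normal subgroups of index `p` in `p`-extensions -/
theorem exists_index_p {P V' : Subgroup GQ} (hle : V' ≤ P) (hN : (V'.subgroupOf P).Normal) {k : ℕ}
    (hidx : V'.relIndex P = p ^ (k + 1)) : ∃ P1, V' ≤ P1 ∧ P1 ≤ P ∧ (P1.subgroupOf P).Normal ∧
      P1.relIndex P = p ∧ V'.relIndex P1 = p ^ k := by
  haveI := hN
  let Q := P ⧸ V'.subgroupOf P
  have hQ : Nat.card Q = p ^ (k + 1) := hidx
  haveI : Finite Q := Nat.finite_of_card_ne_zero (by rw [hQ]; exact pow_ne_zero _ hp.out.ne_zero)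
  obtain ⟨H, hH⟩ := Sylow.exists_subgroup_card_pow_prime (G := Q) p (n := k) (by
    rw [hQ, pow_succ]; exact dvd_mul_right _ _)
  have hHi : H.index = p := by
    have h1 := H.card_mul_index
    rw [hH, hQ, pow_succ] at h1
    exact Nat.eq_of_mul_eq_mul_left (pow_pos hp.out.pos k) h1
  haveI hHN : H.Normal := Subgroup.normal_of_index_eq_minFac_card (by
    rw [hHi, hQ, hp.out.pow_minFac (by omega)])
  let H' : Subgroup P := H.comap (QuotientGroup.mk' (V'.subgroupOf P))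
  haveI hH'N : H'.Normal := inferInstance
  have hH'i : H'.index = p := by
    rw [Subgroup.index_comap_of_surjective _ (QuotientGroup.mk'_surjective _), hHi]
  have hVH : V'.subgroupOf P ≤ H' := fun v hv => by
    change QuotientGroup.mk' _ v ∈ H
    have : QuotientGroup.mk' (V'.subgroupOf P) v = 1 := (QuotientGroup.eq_one_iff v).2 hv
    rw [this]; exact one_mem _
  have hsub : (H'.map P.subtype).subgroupOf P = H' := by
    rw [Subgroup.subgroupOf, Subgroup.comap_map_eq_self_of_injective P.subtype_injective]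
  have hrel : (H'.map P.subtype).relIndex P = p := by
    rw [Subgroup.relIndex, hsub, hH'i]
  have hVle : V' ≤ H'.map P.subtype := fun v hv => ⟨⟨v, hle hv⟩, hVH hv, rfl⟩
  have hle' : H'.map P.subtype ≤ P := by rintro _ ⟨w, -, rfl⟩; exact w.2
  refine ⟨H'.map P.subtype, hVle, hle', by rw [hsub]; exact hH'N, hrel, ?_⟩
  have h2 := Subgroup.relIndex_mul_relIndex V' _ P hVle hle'
  rw [hrel, hidx, pow_succ] at h2
  exact Nat.eq_of_mul_eq_mul_right hp.out.pos h2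

/-- Intersecting with an index `p` subgroup. -/
theorem cyc_or_eq {P P1 Q : Subgroup GQ} (hP1 : P1 ≤ P) (hN : (P1.subgroupOf P).Normal)
    (hidx : P1.relIndex P = p) (hQ : Q ≤ P) : Q ⊓ P1 = Q ∨ ∃ σ, Cyc p Q (Q ⊓ P1) σ := by
  haveI := hN
  have hcard : Nat.card (P ⧸ P1.subgroupOf P) = p := hidx
  haveI hfin : Finite (P ⧸ P1.subgroupOf P) := Nat.finite_of_card_ne_zero (by
    rw [hcard]; exact hp.out.ne_zero)
  haveI : IsCyclic (P ⧸ P1.subgroupOf P) := isCyclic_of_prime_card hcard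
  let f : Q →* P ⧸ P1.subgroupOf P := (QuotientGroup.mk' (P1.subgroupOf P)).comp (Subgroup.inclusion hQ)
  obtain ⟨σ, hσ⟩ := cyc_of_hom f inferInstance inferInstance
  have hker : f.ker.map Q.subtype = Q ⊓ P1 := by
    ext g
    constructor
    · rintro ⟨w, hw, rfl⟩
      refine ⟨w.2, ?_⟩
      have h0 : (Subgroup.inclusion hQ w) ∈ P1.subgroupOf P := (QuotientGroup.eq_one_iff _).1 hw
      exact h0
    · rintro ⟨h1, h2⟩
      refine ⟨⟨g, h1⟩, ?_, rfl⟩
      have h0 : (Subgroup.inclusion hQ ⟨g, h1⟩) ∈ P1.subgroupOf P := h2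
      exact (QuotientGroup.eq_one_iff _).2 h0
  rw [hker] at hσ
  have h1 : Nat.card f.range ∣ p := by
    rw [← hcard]; exact Subgroup.card_subgroup_dvd_card _
  rcases (Nat.dvd_prime hp.out).1 h1 with h | h
  · rw [h] at hσ
    left; exact hσ.eq_of_one
  · rw [h] at hσ
    right; exact ⟨σ, hσ⟩

variable {A : Pl}

theorem isOpen_rootFix (n : ℕ) (hn : n ≠ 0) : ∃ N : Subgroup GQ, IsOpen (N : Set GQ) ∧
    ∀ g ∈ N, ∀ z : Qb, z ^ (A.ell ^ n - 1) = 1 → g z = z := by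
  obtain ⟨ζ, hζ⟩ := exists_primN (A := A) hn
  refine ⟨MulAction.stabilizer GQ ζ, isOpen_fix ζ ζ, fun g hg => fix_of_prim hn hζ hg⟩

theorem IsLoc.inf_RR {W : Subgroup GQ} (h : IsLoc A W) {n : ℕ} (hn : n ≠ 0) : IsLoc A (W ⊓ RR A n) := by
  obtain ⟨N, hN, hle⟩ := h.op
  obtain ⟨N', hN', h'⟩ := isOpen_rootFix (A := A) n hn
  refine ⟨inf_le_left.trans h.le, N ⊓ N', hN.inter hN', ?_⟩
  rintro g ⟨h1, h2, h3⟩
  exact ⟨hle ⟨h1, h2⟩, h1, h' g h3⟩

/-- **Local classes are split by unramified extensions.** -/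
theorem exists_triv_RR (hp2 : p ≠ 2) (k : ℕ) : ∀ {P V' : Subgroup GQ}, IsLoc A P → IsLoc A V' →
    V' ≤ P → (V'.subgroupOf P).Normal → V'.relIndex P = p ^ k → MuF p P →
    ∀ c, C2 (tr p) SL P c → TrP p SL V' c → ∃ n, n ≠ 0 ∧ TrP p SL (P ⊓ RR A n) c := by
  induction k with
  | zero =>
    intro P V' hP hV' hle hN hidx hμ c hc hT
    rw [pow_zero] at hidx
    have : P ≤ V' := Subgroup.relIndex_eq_one.1 hidx
    exact ⟨1, one_ne_zero, hT.mono (inf_le_left.trans this)⟩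
  | succ k ih =>
    intro P V' hP hV' hle hN hidx hμ c hc hT
    obtain ⟨P1, h1, h2, h3, h4, h5⟩ := exists_index_p hle hN hidx
    have hP1 : IsLoc A P1 := hP.of_le hV' h1 h2
    have hN' : (V'.subgroupOf P1).Normal := ⟨fun u hu w => hN.conj_mem ⟨u, h2 u.2⟩ hu ⟨w, h2 w.2⟩⟩
    obtain ⟨n, hn, hTn⟩ := ih hP1 hV' h1 hN' h5 (hμ.mono h2) c (hc.mono h2) hT
    set Q := P ⊓ RR A n with hQ
    have hQloc : IsLoc A Q := hP.inf_RR hn
    have hμQ : MuF p Q := hμ.mono inf_le_left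
    have hQ1 : Q ⊓ P1 = P1 ⊓ RR A n := by
      rw [hQ]; ext g; constructor
      · rintro ⟨⟨a, b⟩, c⟩; exact ⟨c, b⟩
      · rintro ⟨a, b⟩; exact ⟨⟨h2 a, b⟩, a⟩
    rcases cyc_or_eq h2 h3 h4 (Q := Q) inf_le_left with h6 | ⟨σ, hσ⟩
    · refine ⟨n, hn, ?_⟩
      rw [← hQ, ← h6, hQ1]; exact hTn
    · have hQ'loc : IsLoc A (Q ⊓ P1) := by rw [hQ1]; exact hP1.inf_RR hn
      rw [← hQ1] at hTn
      have hcQ := hc.mono (show Q ≤ P from inf_le_left)
      obtain ⟨b, hb, hbc⟩ := (trP_SL (hμQ.mono hσ.le) c).1 hTn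
      obtain ⟨z, hzQ, hz⟩ := exists_ZR hσ SL_open (hcQ.z2 hμQ) hb hbc
      obtain ⟨y, hyW, hyW', hpy, hσy, -⟩ := cyc_kummer hμQ hσ hQ'loc.isClosed
      obtain ⟨α, hα⟩ := SL_KR hμQ hpy
      obtain ⟨β, hβ⟩ := SL_KR hμQ hzQ
      have h7 := symbol_ZR hμQ hσ hyW' hσy hα hβ
      have h8 := hz.add h7
      rw [add_neg_cancel, ← z2_add] at h8
      obtain ⟨N, hN1, hle1⟩ := hQ'loc.op
      obtain ⟨V, hV, hVN⟩ := SL_exists hN1
      have h9 : TrP p SL Q (c + cup α β) := by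
        rw [trP_SL hμQ]
        exact h8.trivial hσ ⟨V, hV, fun g hg => hle1 ⟨hQloc.le hg.2, hVN hg.1⟩⟩ (zero_mem _)
      -- the unramified extension
      obtain ⟨n', hn', hlarge⟩ := exists_large hQloc p hp.out.ne_zero
      obtain ⟨m, τ, hτ⟩ := exists_cyc_RR hQloc.le hn'
      obtain ⟨m', rfl⟩ := hlarge m τ hτ
      obtain ⟨Wu, hWu1, hWu2, hWu3, -⟩ := hτ.inter
      have hWuloc : IsLoc A Wu := hQloc.of_le (hQloc.inf_RR hn') hWu1 hWu2
      have h10 := symbol_unram hp2 hQloc hμQ hα hβ hWu3 hWuloc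
      refine ⟨n * n', mul_ne_zero hn hn', ?_⟩
      have h11 : TrP p SL Wu c := by
        have := (h9.mono hWu2).add h10.neg
        have h12 : c + cup α β + -cup α β = c := by abel
        rwa [h12] at this
      refine h11.mono (le_trans ?_ hWu1)
      rintro g ⟨ga, gb⟩
      exact ⟨⟨ga, RR_le (dvd_mul_right _ _) gb⟩, RR_le (dvd_mul_left _ _) gb⟩

end Fermat.Agent.CFT
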