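import Fermat.Agent.CFT.TPart

/-!
# Low degree cocycles, extensions
-/

set_option autoImplicit false
set_option linter.unusedSectionVars false
set_option linter.unusedVariables false
set_option linter.style.haveILetI false

namespace Fermat.Agent.CFT

open Module

section

variable {G : Type} [Group G]

theorem Sys.exists_le_finite (S : Sys G) {J : Type*} [Finite J] (V : J → Subgroup G)
    (hV : ∀ j, V j ∈ S.carrier) : ∃ W ∈ S.carrier, ∀ j, W ≤ V j := by
  classical
  haveI := Fintype.ofFinite J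
  have h : ∀ s : Finset J, ∃ W ∈ S.carrier, ∀ j ∈ s, W ≤ V j := by
    intro s
    induction s using Finset.induction_on with
    | empty => exact ⟨_, S.nonempty.choose_spec, by simp⟩
    | insert a s ha ih =>
      obtain ⟨W, hW, h1⟩ := ih
      obtain ⟨W', hW', h2, h3⟩ := S.directed W hW (V a) (hV a)
      refine ⟨W', hW', fun j hj => ?_⟩
      rcases Finset.mem_insert.1 hj with rfl | hj
      · exact h3
      · exact h2.trans (h1 j hj)
  obtain ⟨W, hW, h1⟩ := h Finset.univ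
  exact ⟨W, hW, fun j => h1 j (Finset.mem_univ j)⟩

theorem vec2 (x y z : G) : (fun j : Fin 2 => ![x, y, z] ((0 : Fin 3).succAbove j)) = ![y, z] ∧
    (fun j : Fin 2 => ![x, y, z] ((1 : Fin 3).succAbove j)) = ![x, z] ∧
    (fun j : Fin 2 => ![x, y, z] ((2 : Fin 3).succAbove j)) = ![x, y] := by
  refine ⟨?_, ?_, ?_⟩ <;> · funext j; fin_cases j <;> rfl

theorem vec1 (x y : G) : (fun j : Fin 1 => ![x, y] ((0 : Fin 2).succAbove j)) = ![y] ∧
    (fun j : Fin 1 => ![x, y] ((1 : Fin 2).succAbove j)) = ![x] := by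
  refine ⟨?_, ?_⟩ <;> · funext j; fin_cases j; rfl

theorem vec3 (x y z w : G) :
    (fun j : Fin 3 => ![x, y, z, w] ((0 : Fin 4).succAbove j)) = ![y, z, w] ∧
    (fun j : Fin 3 => ![x, y, z, w] ((1 : Fin 4).succAbove j)) = ![x, z, w] ∧
    (fun j : Fin 3 => ![x, y, z, w] ((2 : Fin 4).succAbove j)) = ![x, y, w] ∧
    (fun j : Fin 3 => ![x, y, z, w] ((3 : Fin 4).succAbove j)) = ![x, y, z] := by
  refine ⟨?_, ?_, ?_, ?_⟩ <;> · funext j; fin_cases j <;> rfl

variable {k M X : Type} [Field k] [AddCommGroup M] [Module k M] [MulAction G X]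

theorem dfun_zero_apply (F : X → (Fin 1 → G) → M) (a : X) (x y : G) :
    dfun k G M X 0 F a ![x, y] = F a ![y] - F a ![x] := by
  rw [dfun_apply, Fin.sum_univ_two]
  obtain ⟨h0, h1⟩ := vec1 x y
  simp only [Fin.val_zero, pow_zero, one_smul, Fin.val_one, pow_one, neg_smul]
  rw [h0, h1, sub_eq_add_neg]

theorem dfun_one_apply (F : X → (Fin 2 → G) → M) (a : X) (x y z : G) :
    dfun k G M X 1 F a ![x, y, z] = F a ![y, z] - F a ![x, z] + F a ![x, y] := by
  rw [dfun_apply, Fin.sum_univ_three]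
  obtain ⟨h0, h1, h2⟩ := vec2 x y z
  have e2 : ((2 : Fin 3) : ℕ) = 2 := rfl
  simp only [Fin.val_zero, pow_zero, one_smul, Fin.val_one, pow_one, neg_smul, e2, even_two,
    Even.neg_pow, one_pow]
  rw [h0, h1, h2, sub_eq_add_neg]

theorem dfun_two_apply (F : X → (Fin 3 → G) → M) (a : X) (x y z w : G) :
    dfun k G M X 2 F a ![x, y, z, w] =
      F a ![y, z, w] - F a ![x, z, w] + F a ![x, y, w] - F a ![x, y, z] := by
  rw [dfun_apply, Fin.sum_univ_four]
  obtain ⟨h0, h1, h2, h3⟩ := vec3 x y z w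
  have e2 : ((2 : Fin 4) : ℕ) = 2 := rfl
  have e3 : ((3 : Fin 4) : ℕ) = 3 := rfl
  have e4 : (-1 : k) ^ 3 = -1 := by ring
  simp only [Fin.val_zero, pow_zero, one_smul, Fin.val_one, pow_one, neg_smul, e2, e3, e4,
    even_two, Even.neg_pow, one_pow]
  rw [h0, h1, h2, h3, sub_eq_add_neg, sub_eq_add_neg]

theorem funext1 {F F' : X → (Fin 1 → G) → M} (h : ∀ a x, F a ![x] = F' a ![x]) : F = F' := by
  funext a x
  have : x = ![x 0] := by funext j; fin_cases j; rfl
  rw [this]; exact h a _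

theorem funext2 {F F' : X → (Fin 2 → G) → M} (h : ∀ a x y, F a ![x, y] = F' a ![x, y]) : F = F' := by
  funext a x
  have : x = ![x 0, x 1] := by funext j; fin_cases j <;> rfl
  rw [this]; exact h a _ _

theorem funext3 {F F' : X → (Fin 3 → G) → M} (h : ∀ a x y z, F a ![x, y, z] = F' a ![x, y, z]) :
    F = F' := by
  funext a x
  have : x = ![x 0, x 1, x 2] := by funext j; fin_cases j <;> rfl
  rw [this]; exact h a _ _ _

end

section

variable {k : Type} [Field k] {G H : Type} [Group G] [Group H] {S : Sys G} {ι : H →* G}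
  {X : Type} [MulAction G X] {M : Type} [AddCommGroup M] [Module k M] {ρ : Representation k H M}

theorem vmul2 (g x y : G) : (fun i => g * ![x, y] i) = ![g * x, g * y] := by
  funext j; fin_cases j <;> rfl

theorem vmul1 (g x : G) : (fun i => g * ![x] i) = ![g * x] := by
  funext j; fin_cases j; rfl

theorem vmul3 (g x y z : G) : (fun i => g * ![x, y, z] i) = ![g * x, g * y, g * z] := by
  funext j; fin_cases j <;> rfl

theorem cv_equiv2 (F : (cochCx S ι ρ X).X 1) (h : H) (a : X) (x y : G) :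
    cv F (ι h • a) ![ι h * x, ι h * y] = ρ h (cv F a ![x, y]) := by
  rw [← (cv_mem F).1, vmul2]

theorem cv_equiv1 (F : (cochCx S ι ρ X).X 0) (h : H) (a : X) (x : G) :
    cv F (ι h • a) ![ι h * x] = ρ h (cv F a ![x]) := by
  rw [← (cv_mem F).1, vmul1]

theorem cocycle1 {F : (cochCx S ι ρ X).X 1} (hF : (cochCx S ι ρ X).d 1 F = 0) (a : X) (x y z : G) :
    cv F a ![x, z] = cv F a ![x, y] + cv F a ![y, z] := by
  have h := congrFun (congrFun (congrArg cv hF) a) ![x, y, z]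
  rw [cv_d, dfun_one_apply, cv_zero, Pi.zero_apply, Pi.zero_apply] at h
  have h2 : cv F a ![x, y] + cv F a ![y, z] - cv F a ![x, z] = 0 := by rw [← h]; abel
  exact (sub_eq_zero.1 h2).symm

theorem cocycle1_self {F : (cochCx S ι ρ X).X 1} (hF : (cochCx S ι ρ X).d 1 F = 0) (a : X) (x : G) :
    cv F a ![x, x] = 0 := by
  have := cocycle1 hF a x x x
  exact left_eq_add.1 this

/-- the inhomogeneous cocycle -/
def inh (F : (cochCx S ι ρ Unit).X 1) (h : H) : M := cv F () ![1, ι h]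

theorem inh_mul {F : (cochCx S ι ρ Unit).X 1} (hF : (cochCx S ι ρ Unit).d 1 F = 0) (g h : H) :
    inh F (g * h) = inh F g + ρ g (inh F h) := by
  have h1 := cocycle1 hF () 1 (ι g) (ι (g * h))
  have h2 := cv_equiv2 F g () 1 (ι h)
  rw [mul_one, ← map_mul] at h2
  rw [inh, h1, inh, inh, ← h2]

theorem inh_one {F : (cochCx S ι ρ Unit).X 1} (hF : (cochCx S ι ρ Unit).d 1 F = 0) :
    inh F 1 = 0 := by
  rw [inh, map_one]; exact cocycle1_self hF () 1

theorem inh_inv {F : (cochCx S ι ρ Unit).X 1} (hF : (cochCx S ι ρ Unit).d 1 F = 0) (g : H) :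
    inh F g⁻¹ = -(ρ g⁻¹ (inh F g)) := by
  have := inh_mul hF g⁻¹ g
  rw [inv_mul_cancel, inh_one hF] at this
  exact eq_neg_of_add_eq_zero_left this.symm

/-- a level of a 1-cochain -/
theorem exists_level1 (F : (cochCx S ι ρ X).X 1) : ∃ V ∈ S.carrier, ∀ a x y x' y',
    x⁻¹ * x' ∈ V → y⁻¹ * y' ∈ V → cv F a ![x, y] = cv F a ![x', y'] := by
  obtain ⟨-, V, hV, h⟩ := cv_mem F
  refine ⟨V, hV, fun a x y x' y' h1 h2 => h _ _ _ fun i => ?_⟩
  fin_cases i
  · exact h1
  · exact h2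

theorem inh_level {F : (cochCx S ι ρ Unit).X 1} (hF : (cochCx S ι ρ Unit).d 1 F = 0) :
    ∃ V ∈ S.carrier, ∀ h, ι h ∈ V → inh F h = 0 := by
  obtain ⟨V, hV, h⟩ := exists_level1 F
  refine ⟨V, hV, fun g hg => ?_⟩
  rw [inh, h () 1 (ι g) 1 1 (by simp) (by simpa using hg)]
  exact cocycle1_self hF () 1

/-- A 1-cocycle whose inhomogeneous version is a coboundary is a coboundary. -/
theorem mem_B1_of_inh {F : (cochCx S ι ρ Unit).X 1} (hF : (cochCx S ι ρ Unit).d 1 F = 0) (ξ : M)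
    (hξ : ∀ h, inh F h = ρ h ξ - ξ) : F ∈ (cochCx S ι ρ Unit).B 1 := by
  have key : ∀ h x, cv F () ![1, ι h * x] + ξ = ρ h (cv F () ![1, x] + ξ) := fun h x => by
    have h1 := cocycle1 hF () 1 (ι h) (ι h * x)
    have h2 := cv_equiv2 F h () 1 x
    rw [mul_one] at h2
    rw [h1, map_add]
    change inh F h + _ + ξ = _
    rw [hξ]
    rw [show cv F () ![ι h, ι h * x] = ρ h (cv F () ![1, x]) from h2]
    abel
  refine ⟨mkc (fun _ x => cv F () ![1, x 0] + ξ) ⟨fun h a x => key h (x 0), ?_⟩, ?_⟩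
  · obtain ⟨V, hV, h⟩ := exists_level1 F
    refine ⟨V, hV, fun a x y hxy => ?_⟩
    change cv F () ![1, x 0] + ξ = cv F () ![1, y 0] + ξ
    rw [h () 1 (x 0) 1 (y 0) (by simp) (hxy 0)]
  · apply cv_injective
    apply funext2
    intro a x y
    rw [cv_d, dfun_zero_apply, cv_mkc]
    have h1 := cocycle1 hF () 1 x y
    change cv F () ![1, y] + ξ - (cv F () ![1, x] + ξ) = cv F () ![x, y]
    rw [h1]; abel

/-- Conversely. -/
theorem inh_of_mem_B1 {F : (cochCx S ι ρ Unit).X 1} (hF : F ∈ (cochCx S ι ρ Unit).B 1) :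
    ∃ ξ : M, ∀ h, inh F h = ρ h ξ - ξ := by
  obtain ⟨b, rfl⟩ := hF
  refine ⟨cv b () ![1], fun h => ?_⟩
  rw [inh, cv_d, dfun_zero_apply]
  have := cv_equiv1 b h () 1
  rw [mul_one] at this
  rw [show cv b () ![ι h] = ρ h (cv b () ![1]) from this]

end

end Fermat.Agent.CFT
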