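import Fermat.Agent.CFT.LH3
import Fermat.Agent.CFT.Low

/-!
# Local `H²`, III
-/

set_option autoImplicit false
set_option linter.unusedSectionVars false
set_option linter.unusedVariables false
set_option linter.style.haveILetI false

namespace Fermat.Agent.CFT

open Module

variable {p : ℕ} [hp : Fact p.Prime]

theorem exists_split {S : Sys GQ} {W : Subgroup GQ} {c : GQ → GQ → GQ → ZMod p}
    (hc : C2 (tr p) S W c) (hd : d2 c = 0) {V : Subgroup GQ} (hV : V ∈ S.carrier)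
    (h : ∀ x y z, ∀ v ∈ V, ∀ v' ∈ V, ∀ v'' ∈ V, c (x * v) (y * v') (z * v'') = c x y z) :
    TrP p S (V ⊓ W) c := by
  refine ⟨fun x y => c 1 x y, ⟨fun w hw x y => ?_, V, hV, fun x y v hv v' hv' => ?_⟩, ?_⟩
  · have h1 := hc.eq w hw.2 w⁻¹ x y
    rw [mul_inv_cancel] at h1
    have h2 := h 1 x y w⁻¹ (inv_mem hw.1) 1 (one_mem _) 1 (one_mem _)
    rw [one_mul, mul_one, mul_one] at h2
    rw [h1, h2]
  · have h2 := h 1 x y 1 (one_mem _) v hv v' hv'
    rwa [mul_one] at h2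
  · funext x y z
    have h1 := congrFun (congrFun (congrFun (congrFun hd 1) x) y) z
    simp only [d2, Pi.zero_apply] at h1
    simp only [d1]
    linear_combination (-1 : ZMod p) * h1

theorem exists_sylow {V' W : Subgroup GQ} (hle : V' ≤ W) (hN : (V'.subgroupOf W).Normal)
    (hfin : V'.relIndex W ≠ 0) : ∃ P, V' ≤ P ∧ P ≤ W ∧ ¬ p ∣ P.relIndex W ∧
      ∃ k, V'.relIndex P = p ^ k := by
  haveI := hN
  let Q := W ⧸ V'.subgroupOf W
  haveI : Finite Q := Nat.finite_of_card_ne_zero hfin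
  obtain ⟨T⟩ : Nonempty (Sylow p Q) := inferInstance
  let H' : Subgroup W := (T : Subgroup Q).comap (QuotientGroup.mk' (V'.subgroupOf W))
  have hH'i : H'.index = (T : Subgroup Q).index :=
    Subgroup.index_comap_of_surjective _ (QuotientGroup.mk'_surjective _)
  have hVH : V'.subgroupOf W ≤ H' := fun v hv => by
    change QuotientGroup.mk' _ v ∈ (T : Subgroup Q)
    have : QuotientGroup.mk' (V'.subgroupOf W) v = 1 := (QuotientGroup.eq_one_iff v).2 hv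
    rw [this]; exact one_mem _
  have hsub : (H'.map W.subtype).subgroupOf W = H' := by
    rw [Subgroup.subgroupOf, Subgroup.comap_map_eq_self_of_injective W.subtype_injective]
  have hrel : (H'.map W.subtype).relIndex W = (T : Subgroup Q).index := by
    rw [Subgroup.relIndex, hsub, hH'i]
  have hVle : V' ≤ H'.map W.subtype := fun v hv => ⟨⟨v, hle hv⟩, hVH hv, rfl⟩
  have hle' : H'.map W.subtype ≤ W := by rintro _ ⟨w, -, rfl⟩; exact w.2
  obtain ⟨k, hk⟩ := IsPGroup.iff_card.1 T.2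
  refine ⟨H'.map W.subtype, hVle, hle', by rw [hrel]; exact T.not_dvd_index, k, ?_⟩
  have h2 := Subgroup.relIndex_mul_relIndex V' _ W hVle hle'
  have h3 : V'.relIndex W = p ^ k * (T : Subgroup Q).index := by
    rw [← hk, Subgroup.card_mul_index]; rfl
  rw [hrel, h3] at h2
  exact Nat.eq_of_mul_eq_mul_right (Nat.pos_of_ne_zero (Subgroup.index_ne_zero_of_finite)) h2

variable {A : Pl}

theorem sub_inf_normal {V W : Subgroup GQ} (hV : V.Normal) : ((V ⊓ W).subgroupOf W).Normal := by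
  haveI := hV
  rw [Subgroup.inf_subgroupOf_right]; infer_instance

theorem IsLoc.inf_open {V W : Subgroup GQ} (h : IsLoc A W) (hV : IsOpen (V : Set GQ)) : IsLoc A (V ⊓ W) := by
  obtain ⟨N, hN, hle⟩ := h.op
  refine ⟨inf_le_right.trans h.le, N ⊓ V, hN.inter hV, ?_⟩
  rintro g ⟨h1, h2, h3⟩
  exact ⟨h3, hle ⟨h1, h2⟩⟩

/-- **`H²` of a local field with values in `μ_p` is at most one-dimensional.** -/
theorem loc_comb (hp2 : p ≠ 2) {W : Subgroup GQ} (hW : IsLoc A W) (hμ : MuF p W)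
    {c c' : GQ → GQ → GQ → ZMod p} (hc : C2 (tr p) SL W c) (hc' : C2 (tr p) SL W c')
    (hd : d2 c = 0) (hd' : d2 c' = 0) :
    ∃ l l' : ℕ, ¬ (p ∣ l ∧ p ∣ l') ∧ TrP p SL W (l • c + l' • c') := by
  obtain ⟨V1, hV1, h1⟩ := hc.sm
  obtain ⟨V2, hV2, h2⟩ := hc'.sm
  obtain ⟨V, hV, hle1, hle2⟩ := SL.directed V1 hV1 V2 hV2
  have s1 := exists_split hc hd hV fun x y z v hv v' hv' v'' hv'' =>
    h1 x y z v (hle1 hv) v' (hle1 hv') v'' (hle1 hv'')
  have s2 := exists_split hc' hd' hV fun x y z v hv v' hv' v'' hv'' =>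
    h2 x y z v (hle2 hv) v' (hle2 hv') v'' (hle2 hv'')
  have hVW : IsLoc A (V ⊓ W) := hW.inf_open (SL_open V hV)
  have hN := sub_inf_normal (W := W) (SL.normal V hV)
  haveI := SL.finiteIndex V hV
  have hfin : (V ⊓ W).relIndex W ≠ 0 := by
    rw [Subgroup.inf_relIndex_right]
    exact (inferInstance : (V.subgroupOf W).FiniteIndex).index_ne_zero
  obtain ⟨P, hVP, hPW, hPi, k, hk⟩ := exists_sylow (p := p) inf_le_right hN hfin
  have hPl : IsLoc A P := hW.of_le hVW hVP hPW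
  have hμP := hμ.mono hPW
  have hN' : ((V ⊓ W).subgroupOf P).Normal := ⟨fun u hu w => hN.conj_mem ⟨u, hPW u.2⟩ hu ⟨w, hPW w.2⟩⟩
  have hPfin : P.relIndex W ≠ 0 := fun h0 => hPi (by rw [h0]; exact dvd_zero _)
  obtain ⟨n1, hn1, t1⟩ := exists_triv_RR hp2 k hPl hVW hVP hN' hk hμP c (hc.mono hPW) s1
  obtain ⟨n2, hn2, t2⟩ := exists_triv_RR hp2 k hPl hVW hVP hN' hk hμP c' (hc'.mono hPW) s2
  have hn : n1 * n2 ≠ 0 := mul_ne_zero hn1 hn2
  have t1' := t1.mono (inf_le_inf_left P (RR_le (A := A) (dvd_mul_right n1 n2)))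
  have t2' := t2.mono (inf_le_inf_left P (RR_le (A := A) (dvd_mul_left n2 n1)))
  obtain ⟨m, σ, hσ⟩ := exists_cyc_RR hPl.le hn
  obtain ⟨j, r, hr, hm⟩ := Nat.exists_eq_pow_mul_and_not_dvd hσ.pos.ne' p hp.out.ne_one
  subst hm
  obtain ⟨W'', g1, g2, g3, g4⟩ := hσ.inter
  have hRloc := hPl.inf_RR hn
  have hW'' : IsLoc A W'' := hPl.of_le hRloc g1 g2
  have hv : SameVal A P W'' := (sameVal_RR hPl.le hn hσ).mono_left g1
  have hri : (P ⊓ RR A (n1 * n2)).relIndex W'' = r := g4.relIndex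
  have u1 := t1'.descend g1 (by rw [hri]; exact g4.pos.ne') (by rw [hri]; exact hr) (hc.mono (g2.trans hPW))
  have u2 := t2'.descend g1 (by rw [hri]; exact g4.pos.ne') (by rw [hri]; exact hr) (hc'.mono (g2.trans hPW))
  -- invariants
  obtain ⟨b, hb, hbc⟩ := (trP_SL (hμP.mono g2) c).1 u1
  obtain ⟨b', hb', hbc'⟩ := (trP_SL (hμP.mono g2) c').1 u2
  obtain ⟨z, hz, hZ⟩ := exists_ZR g3 SL_open ((hc.mono hPW).z2 hμP) hb hbc
  obtain ⟨z', hz', hZ'⟩ := exists_ZR g3 SL_open ((hc'.mono hPW).z2 hμP) hb' hbc'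
  have hzero : ∀ {c : GQ → GQ → GQ → ZMod p}, p • z2 p c = 0 := by
    intro c
    funext x y w
    simp only [Pi.smul_apply, z2, Pi.zero_apply]
    exact p_zt p _
  have key : ∀ {c : GQ → GQ → GQ → ZMod p} {z : Ma}, z ∈ FA P → ZR SL (p ^ j) W'' σ (z2 p c) z →
      p • z ∈ OG A P (p ^ j) := by
    intro c z hz hZ
    have h3 := hZ.nsmul p
    rw [hzero] at h3
    exact NG_le_OG g3 hPl.le hv (h3.norm g3 SL_open C1.zero (by funext x y z; simp [d1]))
  obtain ⟨N, hN1, hNle⟩ := hW''.op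
  obtain ⟨V0, hV0, hV0N⟩ := SL_exists hN1
  have triv : ∀ {c : GQ → GQ → GQ → ZMod p} {z : Ma}, C2 (tr p) SL W c → ZR SL (p ^ j) W'' σ (z2 p c) z →
      z ∈ OG A P (p ^ j) → TrP p SL W c := by
    intro c z hc hZ hz
    refine TrP.descend hPW hPfin hPi hc ?_
    rw [trP_SL hμP]
    exact hZ.trivial g3 ⟨V0, hV0, fun g hg => hNle ⟨hPl.le hg.2, hV0N hg.1⟩⟩
      (OG_le_NG_pow hp2 j g3 hPl hW'' hv hz)
  have hc0 : ∀ {c : GQ → GQ → GQ → ZMod p}, (1 : ℕ) • c + (0 : ℕ) • c' = c ∧ True := by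
    intro c; exact ⟨by rw [one_smul, zero_smul, add_zero], trivial⟩
  have hp0 : (p : ℚ) ≠ 0 := by exact_mod_cast hp.out.ne_zero
  cases j with
  | zero =>
    refine ⟨1, 0, fun h => hp.out.one_lt.ne' (Nat.dvd_one.1 h.1), ?_⟩
    rw [one_smul, zero_smul, add_zero]
    refine triv hc hZ ⟨hz, z, hz, by simp⟩
  | succ j =>
    obtain ⟨e, he, hr⟩ := exists_unif hPl
    have key2 : ∀ {c : GQ → GQ → GQ → ZMod p} {z : Ma}, z ∈ FA P →
        ZR SL (p ^ (j + 1)) W'' σ (z2 p c) z → ∃ k : ℤ, A.ord (vl z) = p ^ j * (k * e) := by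
      intro c z hz hZ
      obtain ⟨-, y, hy, hyz⟩ := key hz hZ
      have h6 : ordH P A ⟨y, hy⟩ ∈ (ordH P A).range := ⟨_, rfl⟩
      rw [hr, AddSubgroup.mem_zmultiples_iff] at h6
      obtain ⟨k, hk⟩ := h6
      rw [ordH_apply, zsmul_eq_mul] at hk
      refine ⟨k, ?_⟩
      rw [vl_nsmul, A.ord_pow (vl_ne_zero _), ← hk, pow_succ] at hyz
      apply mul_left_cancel₀ hp0
      rw [hyz]; push_cast; ring
    have mk : ∀ {z : Ma} (k : ℤ), z ∈ FA P → A.ord (vl z) = p ^ j * (k * e) → (p : ℤ) ∣ k →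
        z ∈ OG A P (p ^ (j + 1)) := by
      rintro z _ hz hk ⟨k, rfl⟩
      have h5 : (k : ℤ) • e ∈ (ordH P A).range := by
        rw [hr]; exact AddSubgroup.zsmul_mem_zmultiples _ _
      obtain ⟨⟨y, hy⟩, hyk⟩ := h5
      refine ⟨hz, y, hy, ?_⟩
      rw [ordH_apply] at hyk
      change A.ord (vl y) = _ at hyk
      rw [hk, hyk, zsmul_eq_mul]; push_cast; ring
    obtain ⟨a, ha⟩ := key2 hz hZ
    obtain ⟨a', ha'⟩ := key2 hz' hZ'
    by_cases hpa : (p : ℤ) ∣ a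
    · refine ⟨1, 0, fun h => hp.out.one_lt.ne' (Nat.dvd_one.1 h.1), ?_⟩
      rw [one_smul, zero_smul, add_zero]
      exact triv hc hZ (mk a hz ha hpa)
    · have ha0 : (a : ZMod p) ≠ 0 := by
        rw [Ne, ZMod.intCast_zmod_eq_zero_iff_dvd]; exact hpa
      set l := (-(a' : ZMod p) / a).val with hl
      refine ⟨l, 1, fun h => hp.out.one_lt.ne' (Nat.dvd_one.1 h.2), ?_⟩
      have hZ2 : ZR SL (p ^ (j + 1)) W'' σ (z2 p (l • c + 1 • c')) (l • z + 1 • z') := by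
        rw [z2_add, z2_nsmul, z2_nsmul]
        exact (hZ.nsmul l).add (hZ'.nsmul 1)
      have hdv : (p : ℤ) ∣ l * a + a' := by
        rw [← ZMod.intCast_zmod_eq_zero_iff_dvd]
        push_cast
        rw [hl, ZMod.natCast_val, ZMod.cast_id, div_mul_cancel₀ _ ha0, neg_add_cancel]
      refine triv ?_ hZ2 (mk (l * a + a') (add_mem (nsmul_mem hz _) (nsmul_mem hz' _)) ?_ hdv)
      · refine C2.add ?_ ?_
        · obtain ⟨V, hV, h⟩ := hc.sm
          exact ⟨fun w hw x y z => by simp only [Pi.smul_apply, hc.eq w hw, tr_apply], V, hV,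
            fun x y z v hv v' hv' v'' hv'' => by simp only [Pi.smul_apply, h x y z v hv v' hv' v'' hv'']⟩
        · rw [one_smul]; exact hc'
      · rw [vl_add, vl_nsmul, vl_nsmul, A.ord_mul (pow_ne_zero _ (vl_ne_zero _)) (pow_ne_zero _ (vl_ne_zero _)),
          A.ord_pow (vl_ne_zero _), A.ord_pow (vl_ne_zero _), ha, ha']
        push_cast; ring

/-- **Existence of nontrivial classes.** -/
theorem loc_exists (hp2 : p ≠ 2) {W : Subgroup GQ} (hW : IsLoc A W) (hμ : MuF p W) :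
    ∃ c, C2 (tr p) SL W c ∧ d2 c = 0 ∧ ¬ TrP p SL W c := by
  have h1 := index_FA hW hp2 (p := p) fun g hg ζ hζ => hμ.root g hg ζ hζ
  have h2 : (mulN p (FA W)).range.index ≠ 1 := by
    rw [h1]
    exact (Nat.one_lt_pow (by omega) hp.out.one_lt).ne'
  have h3 : ∃ z ∈ FA W, ∀ t ∈ FA W, p • t ≠ z := by
    by_contra hcon
    push Not at hcon
    refine h2 (AddSubgroup.index_eq_one.2 ?_)
    rw [eq_top_iff]
    rintro ⟨z, hz⟩ -
    obtain ⟨t, ht, htz⟩ := hcon z hz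
    exact ⟨⟨t, ht⟩, Subtype.ext htz⟩
  obtain ⟨z, hz, hzt⟩ := h3
  obtain ⟨y, hy⟩ := exists_proot (p := p) z
  have hyW : y ∉ FA W := fun h => hzt y h hy
  obtain ⟨σ, h4, h5⟩ := kummer_cyc hμ (by rw [hy]; exact hz) hyW
  have hL : IsLoc A (St W y) := hW.St y
  have h6 := norm_index hp2 h5 hW hL
  obtain ⟨t, ht, htN⟩ : ∃ t ∈ FA W, t ∉ Cyc.NG p (St W y) σ := by
    by_contra hcon
    push Not at hcon
    have := AddSubgroup.relIndex_eq_one.2 (show FA W ≤ Cyc.NG p (St W y) σ from hcon)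
    rw [h6] at this
    exact hp.out.one_lt.ne' this
  subst hy
  obtain ⟨α, hα⟩ := SL_KR hμ hz
  obtain ⟨β, hβ⟩ := SL_KR hμ ht
  exact ⟨cup α β, cup_c2 hα.c1 hβ.c1, cup_cocycle hα.cocycle hβ.cocycle, fun h =>
    htN ((symbol_trivial_iff hW hμ h5 (mem_FA_St W y) h4 hL hα hβ).1 h)⟩

end Fermat.Agent.CFT
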