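import Mathlib

/-!
# Representations of `p`-groups over `ZMod p`
-/

set_option autoImplicit false
set_option linter.unusedSectionVars false
set_option linter.unusedVariables false
set_option linter.style.haveILetI false

namespace Fermat.Agent.CFT

open Module

variable {p : ℕ} [Fact p.Prime]

section

variable {H M : Type*} [Group H] [AddCommGroup M] [Module (ZMod p) M]

/-- fixed vectors of unipotent representations -/
theorem exists_fixed [Finite M] [Nontrivial M] (ρ : Representation (ZMod p) H M)
    (hρ : ∀ h, ∃ m : ℕ, ∀ x, ρ (h ^ p ^ m) x = x) : ∃ x : M, x ≠ 0 ∧ ∀ h, ρ h x = x := by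
  let P := MonoidHom.range ρ.asGroupHom
  have hP : IsPGroup p P := by
    rintro ⟨_, h, rfl⟩
    obtain ⟨m, hm⟩ := hρ h
    refine ⟨m, Subtype.ext ?_⟩
    change (ρ.asGroupHom h) ^ p ^ m = 1
    rw [← map_pow]
    ext x
    rw [Representation.asGroupHom_apply]
    exact hm x
  have hcard : p ∣ Nat.card M := by
    haveI := Fintype.ofFinite M
    rw [Nat.card_eq_fintype_card, Module.card_eq_pow_finrank (K := ZMod p) (V := M), ZMod.card]
    refine dvd_pow_self p (Module.finrank_pos (R := ZMod p) (M := M)).ne'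
  obtain ⟨x, hx, hx0⟩ := hP.exists_fixed_point_of_prime_dvd_card_of_fixed_point M hcard
    (a := (0 : M)) (fun g => smul_zero g)
  refine ⟨x, hx0.symm, fun h => ?_⟩
  exact hx ⟨ρ.asGroupHom h, h, rfl⟩

end

section

variable {k : Type} [Field k] {H M : Type} [Group H] [AddCommGroup M] [Module k M]

/-- invariant functionals -/
def invFun (ρ : Representation k H M) : Submodule k (M →ₗ[k] k) where
  carrier := {f | ∀ h x, f (ρ h x) = f x}
  add_mem' hf hg h x := by simp [hf h x, hg h x]
  zero_mem' h x := rfl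
  smul_mem' c f hf h x := by simp [hf h x]

theorem mem_invFun {ρ : Representation k H M} {f : M →ₗ[k] k} :
    f ∈ invFun ρ ↔ ∀ h x, f (ρ h x) = f x := Iff.rfl

/-- invariants -/
def inv (ρ : Representation k H M) : Submodule k M where
  carrier := {x | ∀ h, ρ h x = x}
  add_mem' hf hg h := by rw [map_add, hf h, hg h]
  zero_mem' h := map_zero _
  smul_mem' c f hf h := by rw [map_smul, hf h]

theorem mem_inv {ρ : Representation k H M} {x : M} : x ∈ inv ρ ↔ ∀ h, ρ h x = x := Iff.rfl

end

section

variable {H M M' : Type} [Group H] [AddCommGroup M] [Module (ZMod p) M] [AddCommGroup M']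
  [Module (ZMod p) M']

theorem exists_invFun [Finite M] [Nontrivial M] (ρ : Representation (ZMod p) H M)
    (hρ : ∀ h, ∃ m : ℕ, ∀ x, ρ (h ^ p ^ m) x = x) : ∃ f ∈ invFun ρ, f ≠ 0 := by
  haveI : Module.Finite (ZMod p) M := Module.Finite.of_finite
  haveI : Finite (Module.Dual (ZMod p) M) := Module.finite_of_finite (ZMod p)
  obtain ⟨f, hf0, hf⟩ := exists_fixed ρ.dual (fun h => by
    obtain ⟨m, hm⟩ := hρ h
    refine ⟨m, fun f => ?_⟩
    ext x
    rw [Representation.dual_apply, Module.Dual.transpose_apply, LinearMap.comp_apply]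
    congr 1
    have := hm (ρ (h ^ p ^ m)⁻¹ x)
    rwa [Representation.self_inv_apply, eq_comm] at this)
  refine ⟨f, fun h x => ?_, hf0⟩
  have := congrArg (fun g : Module.Dual (ZMod p) M => g x) (hf h⁻¹)
  simpa [Representation.dual_apply, Module.Dual.transpose_apply] using this

/-- representations trivial on a subgroup `U`. -/
def TrivOn (U : Subgroup H) (ρ : Representation (ZMod p) H M) : Prop := ∀ u ∈ U, ∀ x, ρ u x = x

theorem TrivOn.unip {U : Subgroup H} [hN : U.Normal] {m : ℕ} (hm : U.index = p ^ m)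
    {ρ : Representation (ZMod p) H M} (hρ : TrivOn U ρ) (h : H) : ∃ m : ℕ, ∀ x, ρ (h ^ p ^ m) x = x :=
  ⟨m, hρ _ (by rw [← hm]; exact U.pow_index_mem h)⟩

end

/-! ### Coinduction -/

section Coind

variable {k : Type} [Field k] {H A : Type} [Group H] [AddCommGroup A] [Module k A]
  (U : Subgroup H) (τ : Representation k U A)

/-- The coinduced module. -/
abbrev CI : Submodule k (H → A) := Representation.coindV U.subtype τ

/-- The coinduced representation. -/
abbrev ci : Representation k H (CI U τ) := Representation.coind U.subtype τ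

theorem CI_apply (f : CI U τ) (u : U) (h : H) : (f : H → A) (u * h) = τ u ((f : H → A) h) :=
  f.2 u h

theorem ci_apply (h : H) (f : CI U τ) (h' : H) :
    ((ci U τ h f : CI U τ) : H → A) h' = (f : H → A) (h' * h) := rfl

/-- right cosets -/
abbrev RC : Type := Quotient (QuotientGroup.rightRel U)

theorem mul_out_inv_mem (h : H) :
    h * (Quotient.out (s := QuotientGroup.rightRel U) ⟦h⟧)⁻¹ ∈ U := by
  have h1 : (QuotientGroup.rightRel U).r (Quotient.out (s := QuotientGroup.rightRel U) ⟦h⟧) h :=
    Quotient.exact (Quotient.out_eq (s := QuotientGroup.rightRel U) ⟦h⟧)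
  exact QuotientGroup.rightRel_apply.1 h1

theorem mk_mul_RC (u : U) (h : H) : (⟦(u : H) * h⟧ : RC U) = ⟦h⟧ := by
  apply Quotient.sound
  change QuotientGroup.rightRel U _ _
  rw [QuotientGroup.rightRel_apply]
  simp

/-- The coinduced module as a space of functions on right cosets. -/
noncomputable def ciEquiv : CI U τ ≃ₗ[k] (RC U → A) where
  toFun f q := (f : H → A) q.out
  map_add' f g := rfl
  map_smul' c f := rfl
  invFun g := ⟨fun h => τ ⟨_, mul_out_inv_mem U h⟩ (g ⟦h⟧), fun u h => by
    change τ _ (g ⟦(u : H) * h⟧) = τ u (τ _ (g ⟦h⟧))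
    rw [← Module.End.mul_apply, ← map_mul]
    have h1 := mk_mul_RC U u h
    have h2 : (⟨_, mul_out_inv_mem U ((u : H) * h)⟩ : U) = u * ⟨_, mul_out_inv_mem U h⟩ := by
      apply Subtype.ext
      simp only [Subgroup.coe_mul]
      rw [h1, mul_assoc]
    rw [h1]
    exact congrArg (fun t => τ t (g ⟦h⟧)) h2⟩
  left_inv f := by
    apply Subtype.ext
    funext h
    change τ _ ((f : H → A) _) = _
    rw [← CI_apply]
    simp
  right_inv g := by
    funext q
    change τ _ (g ⟦q.out⟧) = g q
    have h1 : (⟦q.out⟧ : RC U) = q := Quotient.out_eq q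
    have h2 : (⟨_, mul_out_inv_mem U q.out⟩ : U) = 1 := by
      apply Subtype.ext
      simp only [Subgroup.coe_one]
      rw [h1, mul_inv_cancel]
    rw [h2, h1, map_one]
    rfl

instance [U.FiniteIndex] : Finite (RC U) :=
  Finite.of_equiv _ (QuotientGroup.quotientRightRelEquivQuotientLeftRel U).symm

theorem card_RC : Nat.card (RC U) = U.index := by
  rw [Nat.card_congr (QuotientGroup.quotientRightRelEquivQuotientLeftRel U)]
  rfl

instance [U.FiniteIndex] [Module.Finite k A] : Module.Finite k (CI U τ) :=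
  Module.Finite.equiv (ciEquiv U τ).symm

theorem finrank_CI [U.FiniteIndex] [Module.Finite k A] :
    finrank k (CI U τ) = U.index * finrank k A := by
  haveI := Fintype.ofFinite (RC U)
  rw [(ciEquiv U τ).finrank_eq, Module.finrank_pi_fintype, Finset.sum_const, Finset.card_univ,
    ← Nat.card_eq_fintype_card, card_RC, smul_eq_mul]

variable {M : Type} [AddCommGroup M] [Module k M] (ρ : Representation k H M)

/-- The unit `M → coind M`. -/
def ciUnit : M →ₗ[k] CI U (ρ.comp U.subtype) where
  toFun m := ⟨fun h => ρ h m, fun u h => by simp⟩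
  map_add' x y := Subtype.ext (by funext h; simp)
  map_smul' c x := Subtype.ext (by funext h; simp)

theorem ciUnit_apply (m : M) (h : H) : ((ciUnit U ρ m : CI U (ρ.comp U.subtype)) : H → M) h = ρ h m :=
  rfl

theorem ciUnit_equiv (h : H) (m : M) : ciUnit U ρ (ρ h m) = ci U _ h (ciUnit U ρ m) :=
  Subtype.ext (by funext h'; rw [ci_apply, ciUnit_apply, ciUnit_apply, map_mul]; rfl)

theorem ciUnit_injective : Function.Injective (ciUnit U ρ) := fun x y h => by
  have := congrFun (congrArg Subtype.val h) 1
  simpa [ciUnit_apply] using this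

/-- The counit (trace) `coind M → M`. -/
noncomputable def ciTr [U.FiniteIndex] : CI U (ρ.comp U.subtype) →ₗ[k] M :=
  letI := Fintype.ofFinite (RC U)
  { toFun := fun f => ∑ q : RC U, ρ q.out⁻¹ ((f : H → M) q.out)
    map_add' := fun f g => by simp [Finset.sum_add_distrib]
    map_smul' := fun c f => by simp [Finset.smul_sum] }

theorem ciTr_apply [U.FiniteIndex] [Fintype (RC U)] (f : CI U (ρ.comp U.subtype)) :
    ciTr U ρ f = ∑ q : RC U, ρ q.out⁻¹ ((f : H → M) q.out) := by
  rw [ciTr]
  change Finset.sum _ _ = _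
  congr!

/-- the summand only depends on the coset -/
theorem ciTr_aux (f : CI U (ρ.comp U.subtype)) (u : U) (h : H) :
    ρ ((u : H) * h)⁻¹ ((f : H → M) (u * h)) = ρ h⁻¹ ((f : H → M) h) := by
  rw [CI_apply, mul_inv_rev, map_mul]
  change ρ h⁻¹ (ρ (u : H)⁻¹ (ρ (u : H) _)) = _
  rw [Representation.inv_self_apply]

theorem ciTr_aux' (f : CI U (ρ.comp U.subtype)) (h : H) :
    ρ (Quotient.out (s := QuotientGroup.rightRel U) ⟦h⟧)⁻¹
      ((f : H → M) (Quotient.out (s := QuotientGroup.rightRel U) ⟦h⟧)) =
    ρ h⁻¹ ((f : H → M) h) := by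
  have := ciTr_aux U ρ f ⟨_, mul_out_inv_mem U h⟩ (Quotient.out (s := QuotientGroup.rightRel U) ⟦h⟧)
  simp only [inv_mul_cancel_right] at this
  exact this.symm

/-- right multiplication on right cosets -/
def rcMul (h : H) : RC U ≃ RC U where
  toFun := Quotient.map' (fun x => x * h) fun a b hab => by
    rw [QuotientGroup.rightRel_apply] at *
    simpa [mul_assoc] using hab
  invFun := Quotient.map' (fun x => x * h⁻¹) fun a b hab => by
    rw [QuotientGroup.rightRel_apply] at *
    simpa [mul_assoc] using hab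
  left_inv q := by
    induction q using Quotient.inductionOn'
    simp [Quotient.map'_mk'']
  right_inv q := by
    induction q using Quotient.inductionOn'
    simp [Quotient.map'_mk'']

theorem ciTr_equiv [U.FiniteIndex] (h : H) (f : CI U (ρ.comp U.subtype)) :
    ciTr U ρ (ci U _ h f) = ρ h (ciTr U ρ f) := by
  letI := Fintype.ofFinite (RC U)
  rw [ciTr_apply, ciTr_apply, map_sum]
  refine Fintype.sum_equiv (rcMul U h) _ _ fun q => ?_
  induction q using Quotient.inductionOn' with
  | h x =>
    change ρ (Quotient.out (s := QuotientGroup.rightRel U) ⟦x⟧)⁻¹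
      (((ci U _ h f : CI U (ρ.comp U.subtype)) : H → M)
        (Quotient.out (s := QuotientGroup.rightRel U) ⟦x⟧)) =
      ρ h (ρ (Quotient.out (s := QuotientGroup.rightRel U) ⟦x * h⟧)⁻¹
        ((f : H → M) (Quotient.out (s := QuotientGroup.rightRel U) ⟦x * h⟧)))
    rw [ciTr_aux' U ρ f (x * h), ciTr_aux' U ρ (ci U _ h f) x, ci_apply, ← Module.End.mul_apply,
      ← map_mul]
    congr 2
    group

theorem ciTr_unit [U.FiniteIndex] (m : M) : ciTr U ρ (ciUnit U ρ m) = (U.index : k) • m := by
  letI := Fintype.ofFinite (RC U)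
  rw [ciTr_apply]
  simp only [ciUnit_apply, Representation.inv_self_apply, Finset.sum_const, Finset.card_univ]
  rw [← Nat.card_eq_fintype_card, card_RC, Nat.cast_smul_eq_nsmul]

theorem ciTr_surjective [U.FiniteIndex] : Function.Surjective (ciTr U ρ) := by
  classical
  letI := Fintype.ofFinite (RC U)
  intro m
  -- delta function at the trivial coset
  let f : CI U (ρ.comp U.subtype) := ⟨fun h => if h ∈ U then ρ h m else 0, fun u h => by
    by_cases hh : h ∈ U
    · simp [hh, Subgroup.mul_mem_cancel_left]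
    · simp [hh, Subgroup.mul_mem_cancel_left]⟩
  have hf : ∀ h, (f : H → M) h = if h ∈ U then ρ h m else 0 := fun _ => rfl
  refine ⟨f, ?_⟩
  rw [ciTr_apply, Finset.sum_eq_single (⟦1⟧ : RC U)]
  · have := ciTr_aux' U ρ f 1
    change ρ (Quotient.out (s := QuotientGroup.rightRel U) ⟦1⟧)⁻¹ _ = m
    rw [this]
    simp [hf]
  · intro q _ hq
    rw [hf, if_neg, map_zero]
    intro hqU
    apply hq
    rw [← Quotient.out_eq q]
    apply Quotient.sound
    change QuotientGroup.rightRel U _ _
    rw [QuotientGroup.rightRel_apply]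
    simpa using hqU
  · intro h; exact absurd (Finset.mem_univ _) h

end Coind

end Fermat.Agent.CFT
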