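import Fermat.Agent.CFT.Ord
import Fermat.Agent.CFT.Rep

/-!
# Decomposition groups: the decomposition field has residue field `𝔽_q` and uniformiser `q`
-/

set_option autoImplicit false
set_option linter.unusedSectionVars false
set_option linter.unusedVariables false
set_option linter.style.haveILetI false

namespace Fermat.Agent.CFT

open scoped Pointwise
open Fermat.Agent.Places Polynomial NumberField

namespace Pl

/-- Orders of elements of a number field have bounded denominators. -/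
theorem ord_denom (A : Pl) (E : IntermediateField ℚ Qb) [FiniteDimensional ℚ E] {x : Qb}
    (hxE : x ∈ E) (hx : x ≠ 0) :
    ∃ m : ℤ, A.ord x = m / ((Module.finrank ℚ E).factorial : ℕ) := by
  obtain ⟨n, hn, hle, m, hm⟩ := A.exists_pow_eq hx
    (P := minpoly ℚ (⟨x, hxE⟩ : E)) (minpoly.ne_zero (Algebra.IsIntegral.isIntegral _)) (by
      have h1 := minpoly.aeval ℚ (⟨x, hxE⟩ : E)
      have h2 := congrArg (algebraMap E Qb) h1
      rw [← aeval_algebraMap_apply, map_zero] at h2
      exact h2)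
  have h1 : n ≤ Module.finrank ℚ E := hle.trans (minpoly.natDegree_le _)
  obtain ⟨k, hk⟩ := Nat.dvd_factorial hn h1
  refine ⟨m * k, ?_⟩
  rw [A.ord_eq hx hn hm, hk]
  have hk0 : (k : ℚ) ≠ 0 := by
    intro h0
    have : k = 0 := by exact_mod_cast h0
    rw [this, mul_zero] at hk
    exact Nat.factorial_ne_zero _ hk
  have hn0 : (n : ℚ) ≠ 0 := by exact_mod_cast hn.ne'
  push_cast
  field_simp

end Pl

section Trans

attribute [-instance] DivisionRing.toRatAlgebra

theorem exists_smul_eq_of_center' {L : Type*} [Field L] [CharZero L] [inst : Algebra ℚ L]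
    [IsGalois ℚ L] (E : IntermediateField ℚ L) (A B : ValuationSubring L)
    (h : ∀ z : L, z ∈ E → IsIntegral ℤ z → (z ∈ A.nonunits ↔ z ∈ B.nonunits)) :
    ∃ g ∈ E.fixingSubgroup, g • A = B := by
  letI algB : Algebra (𝓞 E) (integralClosure ℤ L) := (inclInt E).toAlgebra
  haveI : SMulCommClass (L ≃ₐ[E] L) (𝓞 E) (integralClosure ℤ L) := ⟨fun g a b => by
    apply Subtype.ext
    change g (((a : E) : L) * (b : L)) = ((a : E) : L) * g (b : L)
    rw [map_mul]
    congr 1
    exact g.commutes (a : E)⟩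
  letI : TopologicalSpace (integralClosure ℤ L) := ⊥
  haveI : DiscreteTopology (integralClosure ℤ L) := ⟨rfl⟩
  haveI : ContinuousSMul (L ≃ₐ[E] L) (integralClosure ℤ L) := continuousSMul_intermediate E
  haveI : Algebra.IsInvariant (𝓞 E) (integralClosure ℤ L) (L ≃ₐ[E] L) :=
    isInvariant_intermediate E
  obtain ⟨g, hg⟩ := Algebra.IsInvariant.exists_smul_of_under_eq_of_profinite (A := 𝓞 E)
    (G := L ≃ₐ[E] L) (center A) (center B) (by
      ext x
      exact h (x : E) (x : E).2 (isIntegral_coe E x))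
  refine ⟨AlgEquiv.restrictScalars ℚ g, ?_, ?_⟩
  · rw [IntermediateField.mem_fixingSubgroup_iff]
    intro x hx
    exact g.commutes ⟨x, hx⟩
  · apply eq_of_center_eq
    rw [center_smul]
    exact hg.symm

end Trans

theorem exists_smul_eq_of_center (E : IntermediateField ℚ Qb) (A B : Pl)
    (h : ∀ z : Qb, z ∈ E → IsIntegral ℤ z → (z ∈ A.v.nonunits ↔ z ∈ B.v.nonunits)) :
    ∃ g ∈ E.fixingSubgroup, g • A = B := by
  obtain ⟨g, hg, h1⟩ := exists_smul_eq_of_center' E A.v B.v h
  exact ⟨g, hg, Pl.ext h1⟩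

theorem exists_smul_eq_of_ell (A B : Pl) (h : A.ell = B.ell) : ∃ g : GQ, g • A = B := by
  obtain ⟨g, hg⟩ := exists_smul_eq_of_liesOverPrime A.ell_prime A.v B.v A.liesOver_ell
    (by rw [h]; exact B.liesOver_ell)
  exact ⟨g, Pl.ext hg⟩

theorem index_fixingSubgroup (E : IntermediateField ℚ Qb) :
    E.fixingSubgroup.index = Module.finrank ℚ E :=
  (IntermediateField.finrank_eq_fixingSubgroup_index Qb E).symm

instance (E : IntermediateField ℚ Qb) [FiniteDimensional ℚ E] : E.fixingSubgroup.FiniteIndex :=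
  ⟨by rw [index_fixingSubgroup]; exact Module.finrank_pos.ne'⟩

/-! ### Approximation -/

section CRT

/-- The ring of integers of a subfield of `ℚ̄`. -/
def RI (E : IntermediateField ℚ Qb) : Subring Qb where
  carrier := {z | z ∈ E ∧ IsIntegral ℤ z}
  mul_mem' ha hb := ⟨mul_mem ha.1 hb.1, ha.2.mul hb.2⟩
  one_mem' := ⟨one_mem _, isIntegral_one⟩
  add_mem' ha hb := ⟨add_mem ha.1 hb.1, ha.2.add hb.2⟩
  zero_mem' := ⟨zero_mem _, isIntegral_zero⟩
  neg_mem' ha := ⟨neg_mem ha.1, ha.2.neg⟩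

variable (E : IntermediateField ℚ Qb)

/-- The center of a place. -/
def ctr (B : Pl) : Ideal (RI E) where
  carrier := {z | (z : Qb) ∈ B.v.nonunits}
  add_mem' ha hb := add_mem_nonunits B.v ha hb
  zero_mem' := zero_mem_nonunits B.v
  smul_mem' c x hx := by
    change (c : Qb) * (x : Qb) ∈ B.v.nonunits
    rw [mul_comm]
    exact mul_mem_nonunits B.v hx (mem_of_isIntegral_int B.v c.2.2)

theorem mem_ctr {B : Pl} {z : RI E} : z ∈ ctr E B ↔ (z : Qb) ∈ B.v.nonunits := Iff.rfl

instance (B : Pl) : (ctr E B).IsPrime where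
  ne_top' := by
    intro h
    have : (1 : RI E) ∈ ctr E B := h ▸ Submodule.mem_top
    rw [mem_ctr] at this
    exact one_notMem_nonunits B.v this
  mem_or_mem' {x y} h := mem_nonunits_or_of_mul B.v (mem_of_isIntegral_int B.v x.2.2)
    (mem_of_isIntegral_int B.v y.2.2) h

instance : Algebra.IsIntegral ℤ (RI E) := ⟨fun x => by
  obtain ⟨P, hP, h⟩ := x.2.2
  refine ⟨P, hP, ?_⟩
  apply Subtype.ext
  have h1 : (algebraMap ℤ Qb) = (RI E).subtype.comp (algebraMap ℤ (RI E)) := RingHom.ext_int _ _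
  rw [h1] at h
  exact (Polynomial.hom_eval₂ P (algebraMap ℤ (RI E)) (RI E).subtype x).trans h⟩

instance (B : Pl) : (ctr E B).IsMaximal := by
  apply Ideal.isMaximal_of_isIntegral_of_isMaximal_comap (R := ℤ)
  have h1 : (Ideal.span {(B.ell : ℤ)}).IsMaximal :=
    PrincipalIdealRing.isMaximal_of_irreducible (Nat.prime_iff_prime_int.mp B.ell_prime).irreducible
  have h2 : Ideal.span {(B.ell : ℤ)} ≤ (ctr E B).comap (algebraMap ℤ (RI E)) := by
    rw [Ideal.span_singleton_le_iff_mem, Ideal.mem_comap, mem_ctr]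
    simpa using B.ell_mem
  rw [← h1.eq_of_le (Ideal.IsPrime.ne_top inferInstance) h2]
  exact h1

theorem exists_smul_eq_of_ctr {A B : Pl} (h : ctr E A = ctr E B) :
    ∃ g ∈ E.fixingSubgroup, g • A = B :=
  exists_smul_eq_of_center E A B fun z hz hzi => by
    have : (⟨z, hz, hzi⟩ : RI E) ∈ ctr E A ↔ (⟨z, hz, hzi⟩ : RI E) ∈ ctr E B := by rw [h]
    exact this

theorem smul_mem_nonunits_iff {B : Pl} (g : GQ) (x : Qb) :
    x ∈ (g • B).v.nonunits ↔ g⁻¹ x ∈ B.v.nonunits := mem_nonunits_smul_iff g B.v x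

theorem ctr_smul {B : Pl} {g : GQ} (hg : g ∈ E.fixingSubgroup) : ctr E (g • B) = ctr E B := by
  ext z
  rw [mem_ctr, mem_ctr, smul_mem_nonunits_iff]
  have h1 : g⁻¹ (z : Qb) = z :=
    (IntermediateField.mem_fixingSubgroup_iff _ _).1 (inv_mem hg) z z.2.1
  rw [h1]

variable [FiniteDimensional ℚ E]

theorem ge_of_mem_pow {B : Pl} {k : ℕ} {y : RI E} (hy : y ∈ ctr E B ^ k) :
    B.ge (k / ((Module.finrank ℚ E).factorial : ℕ)) (y : Qb) := by
  have h1 : ∀ y ∈ ctr E B, B.ge (1 / ((Module.finrank ℚ E).factorial : ℕ)) (y : Qb) := by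
    intro y hy
    by_cases h0 : (y : Qb) = 0
    · left; exact h0
    right
    have h2 := (B.ord_pos_iff h0).2 hy
    obtain ⟨m, hm⟩ := B.ord_denom E y.2.1 h0
    have h3 : (0 : ℚ) < ((Module.finrank ℚ E).factorial : ℕ) := by
      exact_mod_cast Nat.factorial_pos _
    rw [hm] at h2 ⊢
    have h4 : 0 < m := by
      by_contra hcon
      push Not at hcon
      have : (m : ℚ) ≤ 0 := by exact_mod_cast hcon
      exact absurd h2 (not_lt.2 (div_nonpos_of_nonpos_of_nonneg this h3.le))
    have h5 : (1 : ℚ) ≤ m := by exact_mod_cast h4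
    exact div_le_div_of_nonneg_right h5 h3.le
  induction k generalizing y with
  | zero =>
    simp only [Nat.cast_zero, zero_div]
    exact Pl.ge_zero_iff.2 (mem_of_isIntegral_int B.v y.2.2)
  | succ k ih =>
    rw [pow_succ] at hy
    refine Submodule.mul_induction_on hy ?_ ?_
    · intro a ha b hb
      have := (ih ha).mul (h1 b hb)
      rw [← add_div] at this
      push_cast
      exact this
    · intro a b ha hb
      exact ha.add hb

/-- Approximation: an element close to `1` at `A` and close to `0` at the other places over the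
same prime number. -/
theorem exists_approx (A : Pl) (t : ℚ) : ∃ z : Qb, z ∈ E ∧ A.ge t (z - 1) ∧
    ∀ B : Pl, B.ell = A.ell → ctr E B ≠ ctr E A → B.ge t z := by
  classical
  haveI : E.fixingSubgroup.FiniteIndex := inferInstance
  obtain ⟨k, hk⟩ := exists_nat_ge (t * ((Module.finrank ℚ E).factorial : ℕ))
  have hN : (0 : ℚ) < ((Module.finrank ℚ E).factorial : ℕ) := by
    exact_mod_cast Nat.factorial_pos _
  have htk : t ≤ k / ((Module.finrank ℚ E).factorial : ℕ) := by rwa [le_div_iff₀ hN]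
  letI := Fintype.ofFinite (Quotient (QuotientGroup.rightRel E.fixingSubgroup))
  let F : Finset (Ideal (RI E)) := (Finset.univ.image
    fun q : Quotient (QuotientGroup.rightRel E.fixingSubgroup) => ctr E (q.out • A)).erase (ctr E A)
  have hF : ∀ B : Pl, B.ell = A.ell → ctr E B ≠ ctr E A → ctr E B ∈ F := by
    intro B hB hne
    obtain ⟨g, rfl⟩ := exists_smul_eq_of_ell A B hB.symm
    refine Finset.mem_erase.2 ⟨hne, Finset.mem_image.2 ⟨⟦g⟧, Finset.mem_univ _, ?_⟩⟩
    have h1 := mul_out_inv_mem E.fixingSubgroup g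
    have h2 : ctr E (g • A) = ctr E ((Quotient.out
        (s := QuotientGroup.rightRel E.fixingSubgroup) ⟦g⟧) • A) := by
      conv_lhs => rw [show g • A = (g * (Quotient.out
        (s := QuotientGroup.rightRel E.fixingSubgroup) ⟦g⟧)⁻¹) • (Quotient.out
        (s := QuotientGroup.rightRel E.fixingSubgroup) ⟦g⟧) • A by
          rw [smul_smul, inv_mul_cancel_right]]
      exact ctr_smul E h1
    exact h2.symm
  have hmax : ∀ P ∈ F, P.IsMaximal := by
    intro P hP
    obtain ⟨q, -, rfl⟩ := Finset.mem_image.1 (Finset.mem_of_mem_erase hP)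
    infer_instance
  have hco : IsCoprime (ctr E A ^ k) (∏ P ∈ F, P ^ k) := by
    apply IsCoprime.prod_right
    intro P hP
    apply IsCoprime.pow
    haveI := hmax P hP
    exact Ideal.isCoprime_iff_sup_eq.2 (Ideal.IsMaximal.coprime_of_ne inferInstance inferInstance
      (Finset.ne_of_mem_erase hP).symm)
  rw [Ideal.isCoprime_iff_exists] at hco
  obtain ⟨i, hi, j, hj, hij⟩ := hco
  refine ⟨j, j.2.1, ?_, fun B hB hne => ?_⟩
  · have h1 : (j : Qb) - 1 = -(i : Qb) := by
      have := congrArg (fun z : RI E => (z : Qb)) hij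
      push_cast at this
      rw [← this]; ring
    rw [h1]
    exact ((ge_of_mem_pow E hi).mono htk).neg
  · have h2 : j ∈ ctr E B ^ k := by
      have := Ideal.prod_le_inf (s := F) (f := fun P => P ^ k) hj
      rw [Submodule.mem_finsetInf] at this
      exact this _ (hF B hB hne)
    exact (ge_of_mem_pow E h2).mono htk

end CRT

/-! ### Normal subfields -/

section
attribute [-instance] DivisionRing.toRatAlgebra

theorem exists_normal' {L : Type*} [Field L] [CharZero L] [inst : Algebra ℚ L]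
    [IsGalois ℚ L] (x : L) : ∃ E : IntermediateField ℚ L, FiniteDimensional ℚ E ∧
    Normal ℚ E ∧ x ∈ E := by
  haveI : FiniteDimensional ℚ (IntermediateField.adjoin ℚ {x}) :=
    IntermediateField.adjoin.finiteDimensional (Algebra.IsIntegral.isIntegral x)
  haveI : Normal ℚ L := IsGalois.to_normal
  exact ⟨IntermediateField.normalClosure ℚ (IntermediateField.adjoin ℚ {x}) L, inferInstance,
    inferInstance, IntermediateField.le_normalClosure _
      (IntermediateField.mem_adjoin_simple_self ℚ x)⟩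

end

theorem exists_normal (x : Qb) : ∃ E : IntermediateField ℚ Qb, FiniteDimensional ℚ E ∧
    Normal ℚ E ∧ x ∈ E := exists_normal' x

theorem map_mem_of_normal (E : IntermediateField ℚ Qb) [Normal ℚ E] (g : GQ) {x : Qb}
    (hx : x ∈ E) : g x ∈ E := by
  have h := AlgEquiv.restrictNormal_commutes g E ⟨x, hx⟩
  have h1 : g x = ((AlgEquiv.restrictNormal g E ⟨x, hx⟩ : E) : Qb) := h.symm
  rw [h1]
  exact SetLike.coe_mem _

theorem fixing_normal (E : IntermediateField ℚ Qb) [Normal ℚ E] : E.fixingSubgroup.Normal := by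
  refine ⟨fun u hu g => ?_⟩
  rw [IntermediateField.mem_fixingSubgroup_iff] at hu ⊢
  intro x hx
  have h1 : g⁻¹ x ∈ E := map_mem_of_normal E g⁻¹ hx
  change g (u (g⁻¹ x)) = x
  rw [hu _ h1]
  exact g.apply_symm_apply x

theorem mem_rat_of_fixed {x : Qb} (h : ∀ g : GQ, g x = x) : ∃ r : ℚ, (r : Qb) = x := by
  have h1 : x ∈ Set.range (algebraMap ℚ Qb) := by
    rw [InfiniteGalois.mem_range_algebraMap_iff_fixed]
    exact h
  obtain ⟨r, hr⟩ := h1
  exact ⟨r, by rw [← hr]; rfl⟩

namespace Pl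

variable (A : Pl)

theorem ord_rat_int {r : ℚ} (hr : A.ge 0 (r : Qb)) : ∃ n : ℤ, A.ge 1 ((r : Qb) - n) := by
  -- the denominator is prime to `ell`
  have hell := Nat.prime_iff_prime_int.1 A.ell_prime
  have hden : ¬ (A.ell : ℤ) ∣ (r.den : ℤ) := by
    intro hdvd
    have hnum : ¬ (A.ell : ℤ) ∣ r.num := by
      intro h
      have h1 := Int.natCast_dvd.1 h
      have h2 := Int.natCast_dvd_natCast.1 hdvd
      exact A.ell_prime.one_lt.ne' (Nat.dvd_one.1 (by
        rw [← r.reduced]; exact Nat.dvd_gcd h1 h2))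
    have h1 := A.val_int hnum
    have h2 := (A.v.valuation_le_one_iff _).2 (ge_zero_iff.1 hr)
    have h3 : (r.num : Qb) = r * (r.den : ℤ) := by
      have := Rat.mul_den_eq_num r
      rw [← Rat.cast_intCast, ← this]; push_cast; rfl
    have h4 : A.v.valuation ((r.den : ℤ) : Qb) < 1 := by
      obtain ⟨c, hc⟩ := hdvd
      rw [hc]
      push_cast
      rw [map_mul]
      exact mul_lt_one_of_lt_of_le A.w_lt_one ((A.v.valuation_le_one_iff _).2 (intCast_mem A.v c))
    rw [h3, mul_comm, map_mul] at h1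
    exact absurd h1 (mul_lt_one_of_lt_of_le h4 h2).ne
  obtain ⟨a, b, hab⟩ := hell.irreducible.coprime_iff_not_dvd.2 hden
  refine ⟨r.num * b, ?_⟩
  have hd0 : ((r.den : ℤ) : Qb) ≠ 0 := by exact_mod_cast r.den_ne_zero
  have h1 : (r : Qb) - ((r.num * b : ℤ) : Qb) = (A.ell : Qb) * ((a : Qb) * r) := by
    have h2 : (r.num : Qb) = r * (r.den : ℤ) := by
      have := Rat.mul_den_eq_num r
      rw [← Rat.cast_intCast, ← this]; push_cast; rfl
    have h3 : ((a * A.ell + b * r.den : ℤ) : Qb) = 1 := by rw [hab]; simp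
    push_cast at h3 h2 ⊢
    rw [h2]
    linear_combination (-(r : Qb)) * h3
  rw [h1]
  have h5 : A.ge 1 (A.ell : Qb) := Or.inr A.ord_ell.ge
  have h6 := h5.mul ((A.ge_int a).mul hr)
  simpa using h6

/-- Elements of the decomposition field are congruent to integers. -/
theorem exists_int_approx {x : Qb} (hx : x ∈ A.v) (hfix : ∀ g : GQ, g • A = A → g x = x) :
    ∃ n : ℤ, A.ge 1 (x - n) := by
  classical
  obtain ⟨E, hE1, hE2, hxE⟩ := exists_normal x
  haveI hN := fixing_normal E
  set U := E.fixingSubgroup with hU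
  letI := Fintype.ofFinite (GQ ⧸ U)
  have hfixE : ∀ u ∈ U, ∀ y ∈ E, u y = y := fun u hu y hy =>
    (IntermediateField.mem_fixingSubgroup_iff _ _).1 hu y hy
  -- a uniform lower bound for the order of `x`
  obtain ⟨a, ha0, ha⟩ : ∃ a : ℚ, 0 ≤ a ∧ ∀ B : Pl, B.ell = A.ell → B.ge (-a) x := by
    obtain ⟨n, hn, hint⟩ := (isAlgebraic_int x).exists_integral_multiple
    have hn0 : (n : Qb) ≠ 0 := by exact_mod_cast hn
    refine ⟨A.ord (n : Qb), (A.ord_nonneg_iff hn0).2 (intCast_mem A.v n), fun B hB => ?_⟩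
    obtain ⟨g, rfl⟩ := exists_smul_eq_of_ell A B hB.symm
    have h1 : (g • A).ord (n : Qb) = A.ord (n : Qb) := by
      have := A.ord_smul g hn0
      rwa [map_intCast] at this
    by_cases hx0 : x = 0
    · left; exact hx0
    right
    have h2 : (n : Qb) * x ∈ (g • A).v := by
      have := mem_of_isIntegral_int (g • A).v hint
      rwa [zsmul_eq_mul] at this
    rw [← (g • A).ord_nonneg_iff (mul_ne_zero hn0 hx0), (g • A).ord_mul hn0 hx0, h1] at h2
    linarith
  -- the number of cosets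
  let F : Finset (GQ ⧸ U) := Finset.univ.filter fun q => ctr E (q.out • A) = ctr E A
  have hF1 : ((1 : GQ) : GQ ⧸ U) ∈ F := by
    rw [Finset.mem_filter]
    refine ⟨Finset.mem_univ _, ctr_smul E ?_⟩
    have h1 := QuotientGroup.mk_out_eq_mul U (1 : GQ)
    obtain ⟨h, hh⟩ := h1
    rw [hh, one_mul]
    exact h.2
  have hm0 : (F.card : Qb) ≠ 0 := by
    have : 0 < F.card := Finset.card_pos.2 ⟨_, hF1⟩
    exact_mod_cast this.ne'
  set t : ℚ := a + A.ord (F.card : Qb) + 1 with ht
  obtain ⟨z, hzE, hz1, hz2⟩ := exists_approx E A t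
  -- the trace
  set T : Qb := ∑ q : GQ ⧸ U, (q.out)⁻¹ (z * x) with hT
  have hzx : z * x ∈ E := mul_mem hzE hxE
  have hTfix : ∀ g : GQ, g T = T := by
    intro g
    rw [hT, map_sum]
    have key : ∀ q : GQ ⧸ U, ∀ h : GQ, (h : GQ ⧸ U) = q → h⁻¹ (z * x) = q.out⁻¹ (z * x) := by
      intro q h hq
      have h1 : h⁻¹ * q.out ∈ U := by
        rw [← QuotientGroup.eq, hq]
        exact (QuotientGroup.out_eq' q).symm
      have h2 : q.out⁻¹ * h ∈ U := by
        have := inv_mem h1
        rwa [mul_inv_rev, inv_inv] at this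
      have h4 : h⁻¹ (z * x) ∈ E := map_mem_of_normal E _ hzx
      have h5 : q.out⁻¹ (z * x) = (q.out⁻¹ * h) (h⁻¹ (z * x)) := by
        change _ = q.out⁻¹ (h (h⁻¹ (z * x)))
        congr 1
        exact (h.apply_symm_apply _).symm
      rw [h5, hfixE _ h2 _ h4]
    refine Fintype.sum_equiv (Equiv.mulRight ((g⁻¹ : GQ) : GQ ⧸ U)) _ _ fun q => ?_
    have h1 := key (q * ((g⁻¹ : GQ) : GQ ⧸ U)) (q.out * g⁻¹) (by
      rw [QuotientGroup.mk_mul, QuotientGroup.out_eq'])
    change _ = (Quotient.out (q * ((g⁻¹ : GQ) : GQ ⧸ U)))⁻¹ (z * x)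
    rw [← h1, mul_inv_rev, inv_inv]
    rfl
  obtain ⟨r, hr⟩ := mem_rat_of_fixed hTfix
  -- the estimate
  have hest : A.ge (t - a) (T - F.card * x) := by
    have h1 : T - F.card * x = ∑ q : GQ ⧸ U, (q.out⁻¹ (z * x) - if q ∈ F then x else 0) := by
      rw [Finset.sum_sub_distrib, ← hT]
      congr 1
      rw [Finset.sum_ite_mem, Finset.univ_inter, Finset.sum_const, nsmul_eq_mul]
    rw [h1]
    refine ge.sum _ _ fun q _ => ?_
    have ht0 : t - a ≤ t + 0 := by linarith
    by_cases hq : q ∈ F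
    · rw [if_pos hq]
      obtain ⟨u, hu, huA⟩ := exists_smul_eq_of_ctr E (Finset.mem_filter.1 hq).2.symm
      -- `u • A = q.out • A`
      have h2 : q.out⁻¹ x = x := by
        have h3 : (q.out⁻¹ * u) x = x := hfix _ (by rw [mul_smul, huA, inv_smul_smul])
        have h4 : (q.out⁻¹ * u) x = q.out⁻¹ (u x) := rfl
        rw [h4, hfixE u hu x hxE] at h3
        exact h3
      have h5 : q.out⁻¹ (z * x) - x = q.out⁻¹ ((z - 1) * x) := by
        rw [sub_mul, one_mul, map_sub, h2]
      rw [h5, ← ge_smul', ← huA, ge_smul']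
      have h6 : u⁻¹ ((z - 1) * x) = (z - 1) * x :=
        hfixE _ (inv_mem hu) _ (mul_mem (sub_mem hzE (one_mem _)) hxE)
      rw [h6]
      exact (hz1.mul (ge_zero_iff.2 hx)).mono ht0
    · rw [if_neg hq, sub_zero, ← ge_smul']
      have h7 : ctr E (q.out • A) ≠ ctr E A := fun h => hq (Finset.mem_filter.2 ⟨Finset.mem_univ _, h⟩)
      have h8 := (hz2 _ (A.ell_smul _) h7).mul (ha _ (A.ell_smul q.out))
      rwa [← sub_eq_add_neg] at h8
  have hr1 : A.ge 1 (x - ((r / F.card : ℚ) : Qb)) := by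
    have h1 : x - ((r / F.card : ℚ) : Qb) = (F.card : Qb)⁻¹ * -(T - F.card * x) := by
      push_cast
      rw [hr]
      field_simp
      ring
    rw [h1]
    have h2 : A.ge (-A.ord (F.card : Qb)) (F.card : Qb)⁻¹ := Or.inr (A.ord_inv hm0).ge
    exact (h2.mul hest.neg).mono (by linarith)
  have hr0 : A.ge 0 ((r / F.card : ℚ) : Qb) := by
    have h1 : ((r / F.card : ℚ) : Qb) = x - (x - ((r / F.card : ℚ) : Qb)) := by ring
    rw [h1]
    exact (ge_zero_iff.2 hx).sub (hr1.mono zero_le_one)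
  obtain ⟨n, hn⟩ := A.ord_rat_int hr0
  refine ⟨n, ?_⟩
  have h1 : x - n = (x - ((r / F.card : ℚ) : Qb)) + (((r / F.card : ℚ) : Qb) - n) := by ring
  rw [h1]
  exact hr1.add hn

end Pl

end Fermat.Agent.CFT
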