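import Fermat.Agent.CFT.Deg

/-!
# Local fields: the ring of integers is free over the ring of integers of the decomposition field
-/

set_option autoImplicit false
set_option linter.unusedSectionVars false
set_option linter.unusedVariables false
set_option linter.style.haveILetI false

namespace Fermat.Agent.CFT

open scoped Pointwise
open Fermat.Agent.Places Polynomial

/-- The elements fixed by `V` of order at least `t`. -/
def fil (V : Subgroup GQ) (A : Pl) (t : ℚ) : AddSubgroup Qb where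
  carrier := {x | (∀ g ∈ V, g x = x) ∧ A.ge t x}
  add_mem' ha hb := ⟨fun g hg => by rw [map_add, ha.1 g hg, hb.1 g hg], ha.2.add hb.2⟩
  zero_mem' := ⟨fun g _ => map_zero g, Pl.ge.zero _⟩
  neg_mem' ha := ⟨fun g hg => by rw [map_neg, ha.1 g hg], ha.2.neg⟩

theorem mem_fil {V : Subgroup GQ} {A : Pl} {t : ℚ} {x : Qb} :
    x ∈ fil V A t ↔ (∀ g ∈ V, g x = x) ∧ A.ge t x := Iff.rfl

namespace Pl

variable (A : Pl)

/-- Orders in the decomposition field are integers. -/
theorem exists_ord_int {x : Qb} (hx : x ≠ 0) (hfix : ∀ g ∈ Dec A, g x = x) :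
    ∃ m : ℤ, A.ord x = m := by
  set m : ℤ := ⌊A.ord x⌋ with hm
  have hl := zpow_ne_zero m A.ell_ne_zero
  set y := x / (A.ell : Qb) ^ m with hy
  have hy0 : y ≠ 0 := div_ne_zero hx hl
  have hordy : A.ord y = A.ord x - m := by
    rw [hy, A.ord_div hx hl, A.ord_zpow A.ell_ne_zero, A.ord_ell, mul_one]
  have h1 : 0 ≤ A.ord y := by rw [hordy, sub_nonneg]; exact Int.floor_le _
  have h2 : A.ord y < 1 := by
    rw [hordy]; have := Int.lt_floor_add_one (A.ord x); linarith
  have hfy : ∀ g ∈ Dec A, g y = y := fun g hg => by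
    rw [hy, map_div₀, map_zpow₀, map_natCast, hfix g hg]
  obtain ⟨n, hn⟩ := A.exists_int_approx ((A.ord_nonneg_iff hy0).1 h1) (fun g hg => hfy g hg)
  refine ⟨m, ?_⟩
  by_contra hne
  have h3 : 0 < A.ord y := lt_of_le_of_ne h1 (by rw [hordy]; intro h0; exact hne (by linarith))
  -- `n` is divisible by `ell`
  have h4 : A.ge (A.ord y) ((n : ℤ) : Qb) := by
    have : ((n : ℤ) : Qb) = y - (y - n) := by ring
    rw [this]
    exact ge.sub (Or.inr le_rfl) (hn.mono h2.le)
  have h5 : A.ge 1 ((n : ℤ) : Qb) := by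
    by_cases hn0 : n = 0
    · left; rw [hn0]; simp
    by_cases hdvd : (A.ell : ℤ) ∣ n
    · obtain ⟨c, rfl⟩ := hdvd
      push_cast
      have := (show A.ge 1 (A.ell : Qb) from Or.inr A.ord_ell.ge).mul (A.ge_int c)
      simpa using this
    · exfalso
      have h6 := A.val_int hdvd
      have hn0' : (n : Qb) ≠ 0 := by exact_mod_cast hn0
      have h7 := (A.ord_pos_iff hn0').1 (lt_of_lt_of_le h3 (h4.resolve_left hn0'))
      rw [Places.mem_nonunits_iff, h6] at h7
      exact lt_irrefl _ h7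
  have h8 : A.ge 1 y := by
    have : y = (y - n) + n := by ring
    rw [this]
    exact hn.add h5
  exact absurd (h8.resolve_left hy0) (not_le.2 h2)

/-- The decomposition field. -/
noncomputable abbrev K0 : IntermediateField ℚ Qb := IntermediateField.fixedField (Dec A)

theorem mem_K0 {x : Qb} : x ∈ A.K0 ↔ ∀ g ∈ Dec A, g x = x :=
  ⟨fun h g hg => h ⟨g, hg⟩, fun h g => h g g.2⟩

/-- Its valuation ring. -/
noncomputable abbrev R0 : ValuationSubring A.K0 := A.v.comap (algebraMap A.K0 Qb)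

theorem mem_R0 {x : A.K0} : x ∈ A.R0 ↔ (x : Qb) ∈ A.v := Iff.rfl

theorem coe_R0_eq_zero {x : A.R0} : ((x : A.K0) : Qb) = 0 ↔ x = 0 := by
  constructor
  · intro h
    exact Subtype.ext (Subtype.ext h)
  · rintro rfl; rfl

/-- the uniformiser -/
noncomputable def ϖ : A.R0 := (A.ell : A.R0)

theorem coe_ϖ : ((A.ϖ : A.K0) : Qb) = A.ell := by
  simp [ϖ]

theorem isUnit_R0_iff {x : A.R0} (hx : x ≠ 0) : IsUnit x ↔ A.ord ((x : A.K0) : Qb) = 0 := by
  have hx0 : ((x : A.K0) : Qb) ≠ 0 := fun h => hx (A.coe_R0_eq_zero.1 h)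
  have hx1 : (x : A.K0) ≠ 0 := fun h => hx0 (by rw [h]; rfl)
  constructor
  · intro h
    obtain ⟨y, hy⟩ := h.exists_right_inv
    have h1 : ((x : A.K0) : Qb) * ((y : A.K0) : Qb) = 1 := by
      have := congrArg (fun z : A.R0 => ((z : A.K0) : Qb)) hy
      simpa using this
    have hy0 : ((y : A.K0) : Qb) ≠ 0 := by
      intro h0; rw [h0, mul_zero] at h1; exact zero_ne_one h1
    have h2 := A.ord_mul hx0 hy0
    rw [h1, A.ord_one] at h2
    have h3 := (A.ord_nonneg_iff hx0).2 x.2
    have h4 := (A.ord_nonneg_iff hy0).2 y.2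
    linarith
  · intro h
    have h1 : ((x : A.K0)⁻¹ : A.K0) ∈ A.R0 := by
      rw [mem_R0]
      push_cast
      rw [← A.ord_nonneg_iff (inv_ne_zero hx0), A.ord_inv hx0, h, neg_zero]
    exact IsUnit.of_mul_eq_one ⟨_, h1⟩ (Subtype.ext (mul_inv_cancel₀ hx1))

instance : IsDiscreteValuationRing A.R0 := by
  have hϖ0 : A.ϖ ≠ 0 := by
    intro h
    have := A.coe_ϖ
    rw [h] at this
    exact A.ell_ne_zero this.symm
  apply IsDiscreteValuationRing.ofHasUnitMulPowIrreducibleFactorization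
  refine ⟨A.ϖ, ⟨?_, ?_⟩, ?_⟩
  · rw [A.isUnit_R0_iff hϖ0, A.coe_ϖ, A.ord_ell]
    exact one_ne_zero
  · intro a b hab
    have ha : a ≠ 0 := by rintro rfl; rw [zero_mul] at hab; exact hϖ0 hab
    have hb : b ≠ 0 := by rintro rfl; rw [mul_zero] at hab; exact hϖ0 hab
    have ha0 : ((a : A.K0) : Qb) ≠ 0 := fun h => ha (A.coe_R0_eq_zero.1 h)
    have hb0 : ((b : A.K0) : Qb) ≠ 0 := fun h => hb (A.coe_R0_eq_zero.1 h)
    rw [A.isUnit_R0_iff ha, A.isUnit_R0_iff hb]
    obtain ⟨m, hm⟩ := A.exists_ord_int ha0 (A.mem_K0.1 (a : A.K0).2)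
    obtain ⟨n, hn⟩ := A.exists_ord_int hb0 (A.mem_K0.1 (b : A.K0).2)
    have h1 := A.ord_mul ha0 hb0
    have h2 : ((a : A.K0) : Qb) * ((b : A.K0) : Qb) = A.ell := by
      rw [← A.coe_ϖ, hab]; rfl
    rw [h2, A.ord_ell, hm, hn] at h1
    have h3 := (A.ord_nonneg_iff ha0).2 a.2
    have h4 := (A.ord_nonneg_iff hb0).2 b.2
    rw [hm] at h3 ⊢
    rw [hn] at h4 ⊢
    have h1' : (1 : ℤ) = m + n := by exact_mod_cast h1
    have h3' : 0 ≤ m := by exact_mod_cast h3
    have h4' : 0 ≤ n := by exact_mod_cast h4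
    have : m = 0 ∨ n = 0 := by omega
    exact this.imp (fun h => by rw [h]; simp) (fun h => by rw [h]; simp)
  · intro x hx
    have hx0 : ((x : A.K0) : Qb) ≠ 0 := fun h => hx (A.coe_R0_eq_zero.1 h)
    obtain ⟨m, hm⟩ := A.exists_ord_int hx0 (A.mem_K0.1 (x : A.K0).2)
    have h3 := (A.ord_nonneg_iff hx0).2 x.2
    rw [hm] at h3
    have h3' : 0 ≤ m := by exact_mod_cast h3
    obtain ⟨n, rfl⟩ := Int.eq_ofNat_of_zero_le h3'
    refine ⟨n, ?_⟩
    have hl : ((A.ell : A.K0) : A.K0) ^ n ≠ 0 := by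
      apply pow_ne_zero
      exact_mod_cast A.ell_prime.ne_zero
    have hu : (x : A.K0) / (A.ell : A.K0) ^ n ∈ A.R0 := by
      rw [mem_R0]
      push_cast
      rw [← A.ord_nonneg_iff (div_ne_zero hx0 (pow_ne_zero _ A.ell_ne_zero)),
        A.ord_div hx0 (pow_ne_zero _ A.ell_ne_zero), A.ord_pow A.ell_ne_zero, A.ord_ell, hm]
      simp
    have hxe : x = A.ϖ ^ n * ⟨_, hu⟩ := by
      apply Subtype.ext
      change (x : A.K0) = (A.ell : A.K0) ^ n * ((x : A.K0) / (A.ell : A.K0) ^ n)
      field_simp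
    have hu0 : (⟨_, hu⟩ : A.R0) ≠ 0 := by
      intro h
      rw [h, mul_zero] at hxe
      exact hx hxe
    have huu : IsUnit (⟨_, hu⟩ : A.R0) := by
      rw [A.isUnit_R0_iff hu0]
      change A.ord (((x : A.K0) / (A.ell : A.K0) ^ n : A.K0) : Qb) = 0
      push_cast
      rw [A.ord_div hx0 (pow_ne_zero _ A.ell_ne_zero), A.ord_pow A.ell_ne_zero, A.ord_ell, hm]
      simp
    obtain ⟨u, hu'⟩ := huu
    exact ⟨u, by rw [hu', ← hxe]⟩

/-- The residue field of the decomposition field has `ell` elements. -/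
theorem card_R0 : Nat.card (A.R0 ⧸ Ideal.span {A.ϖ}) = A.ell := by
  have hsurj : Function.Surjective (Int.castRingHom (A.R0 ⧸ Ideal.span {A.ϖ})) := by
    intro z
    obtain ⟨x, rfl⟩ := Ideal.Quotient.mk_surjective z
    obtain ⟨n, hn⟩ := A.exists_int_approx (x := ((x : A.K0) : Qb)) x.2
      (fun g hg => A.mem_K0.1 (x : A.K0).2 g hg)
    refine ⟨n, ?_⟩
    rw [eq_intCast, ← map_intCast (Ideal.Quotient.mk (Ideal.span {A.ϖ})), eq_comm,
      Ideal.Quotient.eq, Ideal.mem_span_singleton]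
    have h1 : (((x : A.K0) : Qb) - n) / A.ell ∈ A.v := by
      by_cases h0 : ((x : A.K0) : Qb) - n = 0
      · rw [h0, zero_div]; exact zero_mem _
      rw [← A.ord_nonneg_iff (div_ne_zero h0 A.ell_ne_zero), A.ord_div h0 A.ell_ne_zero, A.ord_ell]
      linarith [hn.resolve_left h0]
    have hy : ((x : A.K0) - n) / (A.ell : A.K0) ∈ A.R0 := by
      rw [mem_R0]; push_cast; exact h1
    refine ⟨⟨_, hy⟩, ?_⟩
    apply Subtype.ext
    change (x : A.K0) - (n : A.K0) = (A.ell : A.K0) * (((x : A.K0) - n) / (A.ell : A.K0))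
    have hl : (A.ell : A.K0) ≠ 0 := by exact_mod_cast A.ell_prime.ne_zero
    field_simp
  have hker : RingHom.ker (Int.castRingHom (A.R0 ⧸ Ideal.span {A.ϖ})) = Ideal.span {(A.ell : ℤ)} := by
    ext n
    rw [RingHom.mem_ker, eq_intCast, ← map_intCast (Ideal.Quotient.mk (Ideal.span {A.ϖ})),
      Ideal.Quotient.eq_zero_iff_mem, Ideal.mem_span_singleton, Ideal.mem_span_singleton]
    constructor
    · rintro ⟨c, hc⟩
      by_contra hdvd
      have h1 := A.val_int hdvd
      have h2 : (n : Qb) ∈ A.v.nonunits := by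
        have h3 : (n : Qb) = (A.ell : Qb) * ((c : A.K0) : Qb) := by
          have := congrArg (fun z : A.R0 => ((z : A.K0) : Qb)) hc
          simpa [A.coe_ϖ] using this
        rw [h3]
        exact mul_mem_nonunits A.v A.ell_mem c.2
      rw [Places.mem_nonunits_iff, h1] at h2
      exact lt_irrefl _ h2
    · rintro ⟨c, rfl⟩
      exact ⟨(c : A.R0), by simp [ϖ]⟩
  have e := RingHom.quotientKerEquivOfSurjective hsurj
  rw [← Nat.card_congr e.toEquiv, hker, Nat.card_congr (Int.quotientSpanNatEquivZMod A.ell).toEquiv,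
    Nat.card_zmod]

end Pl

section Card

variable {A : Pl} {V : Subgroup GQ} (hV : IsLoc A V)

/-- the field of `V` over the decomposition field -/
noncomputable abbrev K1 (hV : IsLoc A V) : IntermediateField A.K0 Qb := extF hV.le

theorem mem_K1 {x : Qb} : x ∈ K1 hV ↔ ∀ g ∈ V, g x = x :=
  ⟨fun h g hg => h ⟨g, hg⟩, fun h g => h g g.2⟩

theorem finrank_K1 : Module.finrank A.K0 (K1 hV) = V.relIndex (Dec A) :=
  finrank_extF hV.le (isClosed_Dec A) hV.isClosed

instance : FiniteDimensional A.K0 (K1 hV) :=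
  Module.finite_of_finrank_pos (by rw [finrank_K1]; exact Nat.pos_of_ne_zero hV.relIndex)

/-- The ring of integers. -/
noncomputable abbrev OC (hV : IsLoc A V) : Subalgebra A.R0 (K1 hV) := integralClosure A.R0 (K1 hV)

theorem mem_OC {x : K1 hV} : x ∈ OC hV ↔ (x : Qb) ∈ A.v := by
  constructor
  · intro h
    have h1 : IsIntegral A.v (x : Qb) := by
      obtain ⟨P, hP, hx⟩ := h
      let φ : A.R0 →+* A.v :=
        { toFun := fun y => ⟨((y : A.K0) : Qb), y.2⟩
          map_one' := rfl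
          map_mul' := fun _ _ => rfl
          map_zero' := rfl
          map_add' := fun _ _ => rfl }
      refine ⟨P.map φ, hP.map φ, ?_⟩
      rw [eval₂_map]
      have h2 : (algebraMap A.v Qb).comp φ =
          ((K1 hV).val : K1 hV →+* Qb).comp (algebraMap A.R0 (K1 hV)) := rfl
      rw [h2]
      have h3 := Polynomial.hom_eval₂ P (algebraMap A.R0 (K1 hV)) ((K1 hV).val : K1 hV →+* Qb) x
      rw [hx, map_zero] at h3
      exact h3.symm
    obtain ⟨y, hy⟩ := IsIntegrallyClosed.isIntegral_iff.1 h1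
    rw [← hy]
    exact y.2
  · intro hx
    classical
    have hfx := (mem_K1 hV).1 x.2
    let V' := V.subgroupOf (Dec A)
    haveI : V'.FiniteIndex := ⟨hV.relIndex⟩
    letI := Fintype.ofFinite (Dec A ⧸ V')
    -- the conjugates
    let c : Dec A ⧸ V' → Qb := fun q => (q.out : GQ) (x : Qb)
    have hc : ∀ (q : Dec A ⧸ V') (h : Dec A), (h : Dec A ⧸ V') = q → (h : GQ) (x : Qb) = c q := by
      intro q h hq
      have h1 : h⁻¹ * q.out ∈ V' := by
        rw [← QuotientGroup.eq, hq]
        exact (QuotientGroup.out_eq' q).symm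
      have h2 : ((h : GQ)⁻¹ * (q.out : GQ)) (x : Qb) = x := hfx _ h1
      have h3 : (q.out : GQ) (x : Qb) = (h : GQ) (((h : GQ)⁻¹ * (q.out : GQ)) (x : Qb)) := by
        change _ = (h : GQ) ((h : GQ)⁻¹ ((q.out : GQ) (x : Qb)))
        exact ((h : GQ).apply_symm_apply _).symm
      change _ = (q.out : GQ) (x : Qb)
      rw [h3, h2]
    have hcA : ∀ q, c q ∈ A.v := by
      intro q
      have h1 : (q.out : GQ) • A = A := q.out.2
      have h2 : c q ∈ ((q.out : GQ) • A).v := by
        rw [coe_smul_Pl, mem_smul_iff]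
        have : (q.out : GQ)⁻¹ • c q = x := (q.out : GQ).symm_apply_apply _
        rw [this]
        exact hx
      rwa [h1] at h2
    let f : Qb[X] := ∏ q, (X - C (c q))
    have hfm : f.Monic := monic_prod_of_monic _ _ fun q _ => monic_X_sub_C _
    have hf1 : ∀ g ∈ Dec A, f.map (g : GQ).toRingEquiv.toRingHom = f := by
      intro g hg
      simp only [f, Polynomial.map_prod, Polynomial.map_sub, Polynomial.map_X, Polynomial.map_C]
      refine Fintype.prod_equiv (MulAction.toPerm (⟨g, hg⟩ : Dec A)) _ _ fun q => ?_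
      have h1 := hc ((⟨g, hg⟩ : Dec A) • q) (⟨g, hg⟩ * q.out) (by
        conv_rhs => rw [← QuotientGroup.out_eq' q]
        rfl)
      change X - C (g (c q)) = X - C (c ((⟨g, hg⟩ : Dec A) • q))
      rw [← h1]
      rfl
    have hf2 : ∀ n, f.coeff n ∈ A.v := by
      intro n
      have h1 : f = (∏ q, (X - C (⟨c q, hcA q⟩ : A.v))).map (algebraMap A.v Qb) := by
        simp only [f, Polynomial.map_prod, Polynomial.map_sub, Polynomial.map_X, Polynomial.map_C]
        rfl
      rw [h1, coeff_map]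
      exact SetLike.coe_mem _
    let ψ : A.R0 →+* Qb := (algebraMap A.K0 Qb).comp A.R0.subtype
    have hlift : f ∈ lifts ψ := by
      rw [lifts_iff_coeff_lifts]
      intro n
      have h1 : f.coeff n ∈ A.K0 := by
        rw [A.mem_K0]
        intro g hg
        have := congrArg (fun P : Qb[X] => P.coeff n) (hf1 g hg)
        simp only [coeff_map] at this
        exact this
      exact ⟨⟨⟨_, h1⟩, hf2 n⟩, rfl⟩
    obtain ⟨P, hP1, -, hP2⟩ := lifts_and_natDegree_eq_and_monic hlift hfm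
    refine ⟨P, hP2, ?_⟩
    apply (algebraMap (K1 hV) Qb).injective
    rw [map_zero, Polynomial.hom_eval₂]
    have h2 : (algebraMap (K1 hV) Qb).comp (algebraMap A.R0 (K1 hV)) = ψ := rfl
    rw [h2, ← eval_map, hP1, eval_prod, Finset.prod_eq_zero (Finset.mem_univ ((1 : Dec A) : Dec A ⧸ V'))]
    have h3 := hc ((1 : Dec A) : Dec A ⧸ V') 1 rfl
    rw [← h3, eval_sub, eval_X, eval_C]
    exact sub_self _

/-- comparison of the two descriptions of the ring of integers -/
noncomputable def filEquiv : fil V A 0 ≃+ OC hV where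
  toFun x := ⟨⟨x.1, (mem_K1 hV).2 x.2.1⟩, (mem_OC hV).2 (Pl.ge_zero_iff.1 x.2.2)⟩
  invFun y := ⟨((y : K1 hV) : Qb), (mem_K1 hV).1 (y : K1 hV).2, Pl.ge_zero_iff.2 ((mem_OC hV).1 y.2)⟩
  left_inv x := rfl
  right_inv y := rfl
  map_add' x y := rfl

theorem coe_filEquiv (x : fil V A 0) : ((filEquiv hV x : K1 hV) : Qb) = x := rfl

include hV in
/-- The number of residue classes modulo `ell`. -/
theorem card_fil : (fil V A 1).relIndex (fil V A 0) = A.ell ^ V.relIndex (Dec A) := by
  haveI : Module.Free A.R0 (OC hV) := IsIntegralClosure.module_free A.R0 A.K0 (K1 hV) (OC hV)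
  haveI : IsNoetherian A.R0 (OC hV) := IsIntegralClosure.isNoetherian A.R0 A.K0 (K1 hV) (OC hV)
  have hr : Module.finrank A.R0 (OC hV) = V.relIndex (Dec A) := by
    rw [IsIntegralClosure.rank A.R0 A.K0 (K1 hV) (OC hV), finrank_K1]
  let b := Module.finBasis A.R0 (OC hV)
  let φ : fil V A 0 →+ (Fin (Module.finrank A.R0 (OC hV)) → A.R0 ⧸ Ideal.span {A.ϖ}) :=
    { toFun := fun x i => Ideal.Quotient.mk _ (b.repr (filEquiv hV x) i)
      map_zero' := by funext i; simp
      map_add' := fun x y => by funext i; simp }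
  have hsurj : Function.Surjective φ := by
    intro z
    choose y hy using fun i => Ideal.Quotient.mk_surjective (z i)
    refine ⟨(filEquiv hV).symm (b.equivFun.symm y), ?_⟩
    funext i
    change Ideal.Quotient.mk _ (b.repr (filEquiv hV ((filEquiv hV).symm (b.equivFun.symm y))) i) = z i
    rw [AddEquiv.apply_symm_apply, ← hy i]
    congr 1
    exact congrFun (b.equivFun.apply_symm_apply y) i
  have hker : φ.ker = (fil V A 1).addSubgroupOf (fil V A 0) := by
    ext x
    rw [AddMonoidHom.mem_ker, AddSubgroup.mem_addSubgroupOf]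
    constructor
    · intro h
      have h1 : ∀ i, ∃ c, b.repr (filEquiv hV x) i = A.ϖ * c := fun i => by
        have := congrFun h i
        change Ideal.Quotient.mk _ _ = 0 at this
        rw [Ideal.Quotient.eq_zero_iff_mem, Ideal.mem_span_singleton] at this
        exact this
      choose c hc using h1
      have h2 : filEquiv hV x = A.ϖ • b.equivFun.symm c := by
        apply b.equivFun.injective
        funext i
        rw [map_smul, LinearEquiv.apply_symm_apply, Pi.smul_apply, smul_eq_mul, ← hc i]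
        rfl
      have h3 : (x : Qb) = (A.ell : Qb) * ((b.equivFun.symm c : K1 hV) : Qb) := by
        rw [← coe_filEquiv hV x, h2, ← A.coe_ϖ]
        rfl
      refine ⟨x.2.1, ?_⟩
      rw [h3]
      have h4 : A.ge 0 ((b.equivFun.symm c : K1 hV) : Qb) :=
        Pl.ge_zero_iff.2 ((mem_OC hV).1 (b.equivFun.symm c).2)
      have := (show A.ge 1 (A.ell : Qb) from Or.inr A.ord_ell.ge).mul h4
      simpa using this
    · intro h
      have h1 : (x : Qb) / A.ell ∈ fil V A 0 := by
        refine ⟨fun g hg => by rw [map_div₀, map_natCast, h.1 g hg], ?_⟩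
        rw [div_eq_mul_inv, mul_comm]
        have h5 : A.ge (-1) (A.ell : Qb)⁻¹ := Or.inr (by rw [A.ord_inv A.ell_ne_zero, A.ord_ell])
        have := h5.mul h.2
        simpa using this
      have h2 : filEquiv hV x = A.ϖ • filEquiv hV ⟨_, h1⟩ := by
        apply Subtype.ext
        apply Subtype.ext
        change (x : Qb) = ((A.ϖ : A.K0) : Qb) * ((x : Qb) / A.ell)
        rw [A.coe_ϖ, mul_div_cancel₀ _ A.ell_ne_zero]
      funext i
      change Ideal.Quotient.mk _ (b.repr (filEquiv hV x) i) = 0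
      rw [h2, map_smul, Finsupp.smul_apply, smul_eq_mul, Ideal.Quotient.eq_zero_iff_mem,
        Ideal.mem_span_singleton]
      exact dvd_mul_right _ _
  rw [AddSubgroup.relIndex, ← hker, AddSubgroup.index_ker, AddMonoidHom.range_eq_top.2 hsurj,
    Nat.card_congr AddSubgroup.topEquiv.toEquiv, Nat.card_pi, Finset.prod_const, A.card_R0,
    Finset.card_univ, Fintype.card_fin, hr]

end Card

end Fermat.Agent.CFT
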