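import Fermat.Agent.CFT.Loc2
import Fermat.Agent.CFT.Herb2

/-!
# Unit groups
-/

set_option autoImplicit false
set_option linter.unusedSectionVars false
set_option linter.unusedVariables false
set_option linter.style.haveILetI false

namespace Fermat.Agent.CFT

open Module

/-! ### index calculus for subgroups -/

section Phi

variable {A : Type*} [AddCommGroup A]

theorem phi_finiteIndex (n : ℕ) (K : AddSubgroup A) (hK : K.index ≠ 0) (h : QF (mulN n K)) :
    QF (mulN n A) ∧ qi (mulN n A) = qi (mulN n K) := by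
  haveI : K.FiniteIndex := ⟨hK⟩
  obtain ⟨h1, h2⟩ := QF_finite (A := A ⧸ K) n
  obtain ⟨h3, h4⟩ := ses_mid n (i := K.subtype) (π := QuotientAddGroup.mk' K)
    Subtype.val_injective (QuotientAddGroup.mk'_surjective K)
    (by rw [QuotientAddGroup.ker_mk', AddSubgroup.range_subtype]) h h1
  exact ⟨h3, by rw [h4, h2, mul_one]⟩

theorem phi_finiteIndex' (n : ℕ) (K : AddSubgroup A) (hK : K.index ≠ 0) (h : QF (mulN n A)) :
    QF (mulN n K) ∧ qi (mulN n A) = qi (mulN n K) := by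
  haveI : K.FiniteIndex := ⟨hK⟩
  obtain ⟨h1, h2⟩ := QF_finite (A := A ⧸ K) n
  obtain ⟨h3, h4⟩ := ses_left n (i := K.subtype) (π := QuotientAddGroup.mk' K)
    Subtype.val_injective (QuotientAddGroup.mk'_surjective K)
    (by rw [QuotientAddGroup.ker_mk', AddSubgroup.range_subtype]) h h1
  exact ⟨h3, by rw [h4, h2, mul_one]⟩

theorem phi_pi (p : ℕ) [hp : Fact p.Prime] (r : ℕ) :
    QF (mulN p (Fin r → ℤ)) ∧ qi (mulN p (Fin r → ℤ)) = (p : ℚ) ^ r := by
  have hk : (mulN p (Fin r → ℤ)).ker = ⊥ := by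
    rw [AddMonoidHom.ker_eq_bot_iff]
    intro x y hxy
    funext i
    have h1 := congrFun (show p • x = p • y from hxy) i
    simp only [Pi.smul_apply, nsmul_eq_mul] at h1
    exact mul_left_cancel₀ (by exact_mod_cast hp.out.ne_zero) h1
  let f : (Fin r → ℤ) →+ (Fin r → ZMod p) :=
    { toFun := fun x i => (x i : ZMod p)
      map_zero' := by funext i; simp
      map_add' := fun x y => by funext i; simp }
  have hr : (mulN p (Fin r → ℤ)).range = f.ker := by
    ext x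
    constructor
    · rintro ⟨y, rfl⟩
      rw [AddMonoidHom.mem_ker]
      funext i
      change (((p • y) i : ℤ) : ZMod p) = 0
      simp
    · intro hx
      have h1 : ∀ i, ∃ c : ℤ, x i = p * c := fun i => by
        have := congrFun (show f x = 0 from hx) i
        exact (ZMod.intCast_zmod_eq_zero_iff_dvd _ _).1 this
      choose c hc using h1
      refine ⟨c, ?_⟩
      funext i
      rw [hc]
      change (p • c) i = _
      simp
  have hf : Function.Surjective f := by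
    intro y
    refine ⟨fun i => ((y i).val : ℤ), ?_⟩
    funext i
    change (((y i).val : ℤ) : ZMod p) = y i
    simp
  have hidx : (mulN p (Fin r → ℤ)).range.index = p ^ r := by
    rw [hr, AddSubgroup.index_ker, AddMonoidHom.range_eq_top.2 hf, Nat.card_congr
      (AddSubgroup.topEquiv (G := Fin r → ZMod p)).toEquiv, Nat.card_pi]
    simp
  constructor
  · constructor
    · rw [hidx]; exact pow_ne_zero _ hp.out.ne_zero
    · rw [hk]; simp
  · rw [qi, hidx, hk]; simp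

/-- finitely generated groups -/
theorem phi_fg (p : ℕ) [hp : Fact p.Prime] [Module.Finite ℤ A] :
    QF (mulN p A) ∧ qi (mulN p A) = (p : ℚ) ^ finrank ℤ A := by
  set T := Submodule.torsion ℤ A
  haveI : Module.Finite ℤ T := Module.Finite.of_fg (IsNoetherian.noetherian T)
  haveI hT : Finite T := Module.finite_of_fg_torsion T (Submodule.torsion_isTorsion)
  haveI : Module.Free ℤ (A ⧸ T) := inferInstance
  have e := (finBasis ℤ (A ⧸ T)).equivFun
  have hfr : finrank ℤ (A ⧸ T) = finrank ℤ A := by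
    have h1 := Submodule.finrank_quotient_add_finrank T
    have h2 : finrank ℤ T = 0 := by
      rw [Module.finrank_eq_zero_iff_isTorsion]
      exact Submodule.torsion_isTorsion
    omega
  obtain ⟨h1, h2⟩ := phi_pi p (finrank ℤ (A ⧸ T))
  rw [← QF_equiv p e.toAddEquiv] at h1
  rw [← qi_equiv p e.toAddEquiv, hfr] at h2
  obtain ⟨h3, h4⟩ := QF_finite (A := T) p
  obtain ⟨h5, h6⟩ := ses_mid p (i := T.subtype.toAddMonoidHom) (π := T.mkQ.toAddMonoidHom)
    Subtype.val_injective T.mkQ_surjective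
    (by
      ext x
      constructor
      · intro hx
        exact ⟨⟨x, (Submodule.Quotient.mk_eq_zero _).1 hx⟩, rfl⟩
      · rintro ⟨y, rfl⟩
        exact (Submodule.Quotient.mk_eq_zero _).2 y.2) h3 h1
  exact ⟨h5, by rw [h6, h4, one_mul, h2]⟩

end Phi

/-! ### Roots of unity -/

section Roots

variable {p : ℕ} [hp : Fact p.Prime] (A : Pl)

/-- `ord` of `p` -/
noncomputable def Pl.eps (p : ℕ) (A : Pl) : ℕ := if A.ell = p then 1 else 0

theorem Pl.ord_p : A.ord (p : Qb) = A.eps p := by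
  rw [Pl.eps]
  split_ifs with h
  · rw [← h, A.ord_ell]; simp
  · have hcop : ¬ (A.ell : ℤ) ∣ (p : ℤ) := fun h1 =>
      h ((Nat.prime_dvd_prime_iff_eq A.ell_prime hp.out).1 (Int.natCast_dvd_natCast.1 h1))
    have h1 := A.val_int hcop
    have h2 : (p : Qb) ≠ 0 := Nat.cast_ne_zero.2 hp.out.ne_zero
    rw [A.ord_eq h2 (n := 1) (m := 0) one_pos (by simpa using h1)]
    simp

variable {A}

theorem Pl.ord_pow_eq_one {ζ : Qb} {n : ℕ} (hn : n ≠ 0) (h : ζ ^ n = 1) : A.ord ζ = 0 := by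
  have h0 : ζ ≠ 0 := by rintro rfl; rw [zero_pow hn] at h; exact zero_ne_one h
  have h1 := A.ord_pow h0 n
  rw [h, A.ord_one] at h1
  have : (n : ℚ) ≠ 0 := by exact_mod_cast hn
  rcases mul_eq_zero.1 h1.symm with h2 | h2
  · exact absurd h2 this
  · exact h2

theorem Pl.ge_of_ord {x : Qb} {t : ℚ} (h : t ≤ A.ord x) : A.ge t x := Or.inr h

theorem Pl.ge_one_sub_pow {ζ : Qb} (hζ : A.ord ζ = 0) (i : ℕ) : A.ge (A.ord (1 - ζ)) (1 - ζ ^ i) := by
  by_cases h0 : 1 - ζ = 0
  · left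
    rw [← sub_eq_zero.1 h0]; simp
  have h1 : (1 - ζ ^ i) = (1 - ζ) * ∑ j ∈ Finset.range i, ζ ^ j := (mul_neg_geom_sum ζ i).symm
  rw [h1]
  have h2 : A.ge 0 (∑ j ∈ Finset.range i, ζ ^ j) := Pl.ge.sum _ _ fun j _ => by
    have := (Pl.ge_of_ord (A := A) (x := ζ) (t := 0) hζ.ge).pow j
    simpa using this
  have h3 := (Pl.ge_of_ord (A := A) (x := 1 - ζ) le_rfl).mul h2
  simpa using h3

theorem Pl.ord_one_sub_root {ζ : Qb} (h1 : ζ ^ p = 1) (h2 : ζ ≠ 1) :
    A.ord (1 - ζ) = (A.eps p : ℚ) / (p - 1) := by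
  have hprim : IsPrimitiveRoot ζ p := IsPrimitiveRoot.of_map_of_injective (f := RingHom.id Qb) (by
    refine ⟨h1, fun l hl => ?_⟩
    by_contra hdvd
    apply h2
    have hco : Nat.Coprime l p := (Nat.Coprime.symm ((Nat.Prime.coprime_iff_not_dvd hp.out).2 hdvd))
    have h3 := orderOf_dvd_of_pow_eq_one h1
    have h4 := orderOf_dvd_of_pow_eq_one (show ζ ^ l = 1 from hl)
    have h5 := Nat.dvd_gcd h4 h3
    rw [Nat.Coprime] at hco
    rw [hco] at h5
    exact orderOf_eq_one_iff.1 (Nat.dvd_one.1 h5)) Function.injective_id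
  obtain ⟨k, hk⟩ := Nat.exists_eq_succ_of_ne_zero hp.out.ne_zero
  have hprod : ∏ i ∈ Finset.range k, (1 - ζ ^ (i + 1)) = (p : Qb) := by
    have hprim' : IsPrimitiveRoot ζ (k + 1) := by rw [← Nat.succ_eq_add_one, ← hk]; exact hprim
    have := hprim'.prod_one_sub_pow_eq_order
    rw [this, hk]; push_cast; ring
  have hne : ∀ i ∈ Finset.range k, (1 - ζ ^ (i + 1)) ≠ 0 := fun i hi h => by
    have h3 : ζ ^ (i + 1) = 1 := (sub_eq_zero.1 h).symm
    have h4 := hprim.dvd_of_pow_eq_one _ h3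
    have h5 := Nat.le_of_dvd (Nat.succ_pos i) h4
    have h6 := Finset.mem_range.1 hi
    omega
  have hord0 : A.ord ζ = 0 := Pl.ord_pow_eq_one hp.out.ne_zero h1
  have hζ0 : ζ ≠ 0 := hprim.ne_zero hp.out.ne_zero
  have heq : ∀ i ∈ Finset.range k, A.ord (1 - ζ ^ (i + 1)) = A.ord (1 - ζ) := fun i hi => by
    apply le_antisymm
    · -- `ζ = (ζ ^ (i+1)) ^ j`
      have h6 := Finset.mem_range.1 hi
      have hco : Nat.Coprime (i + 1) p := Nat.Coprime.symm
        ((Nat.Prime.coprime_iff_not_dvd hp.out).2 fun h7 => by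
          have := Nat.le_of_dvd (Nat.succ_pos i) h7
          omega)
      obtain ⟨j, hj⟩ := hprim.eq_pow_of_pow_eq_one (ξ := ζ) h1 |>.elim fun _ _ =>
        (show ∃ j : ℕ, (ζ ^ (i + 1)) ^ j = ζ from by
          have hprim2 : IsPrimitiveRoot (ζ ^ (i + 1)) p := hprim.pow_of_coprime _ hco
          obtain ⟨j, -, hj⟩ := hprim2.eq_pow_of_pow_eq_one h1
          exact ⟨j, hj⟩)
      have h8 := Pl.ge_one_sub_pow (A := A) (ζ := ζ ^ (i + 1))
        (by rw [A.ord_pow hζ0, hord0, mul_zero]) j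
      rw [hj] at h8
      rcases h8 with h8 | h8
      · exact absurd (sub_eq_zero.1 h8).symm h2
      · exact h8
    · rcases Pl.ge_one_sub_pow (A := A) hord0 (i + 1) with h8 | h8
      · exact absurd h8 (hne i hi)
      · exact h8
  have h9 := A.ord_prod (Finset.range k) _ hne
  rw [hprod, Finset.sum_congr rfl heq, Finset.sum_const, Finset.card_range, A.ord_p] at h9
  have hk1 : (k : ℚ) = (p : ℚ) - 1 := by rw [hk]; push_cast; ring
  have hp1 : (p : ℚ) - 1 ≠ 0 := by
    have : (2 : ℚ) ≤ p := by exact_mod_cast hp.out.two_le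
    linarith
  rw [h9, nsmul_eq_mul, hk1]
  field_simp

theorem exists_prim (p : ℕ) [hp : Fact p.Prime] : ∃ ζ : Qb, IsPrimitiveRoot ζ p :=
  haveI : NeZero (p : Qb) := ⟨Nat.cast_ne_zero.2 hp.out.ne_zero⟩
  HasEnoughRootsOfUnity.exists_primitiveRoot Qb p

variable (A) in
/-- the orders of `1 - y` for the roots `y` of `x` -/
theorem Pl.ord_one_sub_pow {y : Qb} (hy : (A.eps p : ℚ) / (p - 1) < A.ord (1 - y)) (hy1 : y ^ p ≠ 1) :
    A.ord (1 - y ^ p) = A.ord (1 - y) + A.eps p ∧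
      ∀ ζ : Qb, ζ ^ p = 1 → ζ ≠ 1 → A.ord (1 - ζ * y) = (A.eps p : ℚ) / (p - 1) := by
  have hp1 : (0 : ℚ) < (p : ℚ) - 1 := by
    have : (2 : ℚ) ≤ p := by exact_mod_cast hp.out.two_le
    linarith
  have hnn : (0 : ℚ) ≤ (A.eps p : ℚ) / (p - 1) := div_nonneg (Nat.cast_nonneg _) hp1.le
  have hy0 : 1 - y ≠ 0 := fun h => hy1 (by rw [← sub_eq_zero.1 h, one_pow])
  have hyu : A.ord y = 0 := by
    have h1 : y = 1 + (-(1 - y)) := by ring
    have h2 := Pl.ord_eq_of_lt (A := A) (x := 1) (y := -(1 - y)) one_ne_zero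
      (by rw [A.ord_one]; exact ((Pl.ge_of_ord (A := A) (x := 1 - y) le_rfl).mono (hnn.trans hy.le)).neg)
      (fun _ => by
        have h3 : A.ord (-(1 - y)) = A.ord (1 - y) := by
          have h4 : -(1 - y) = (-1) * (1 - y) := by ring
          rw [h4, A.ord_mul (by norm_num) hy0, Pl.ord_pow_eq_one (n := 2) two_ne_zero (by norm_num),
            zero_add]
        rw [A.ord_one, h3]
        exact lt_of_le_of_lt hnn hy)
    rw [← h1, A.ord_one] at h2
    exact h2
  have hyn : y ≠ 0 := by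
    rintro rfl
    have : A.ord (1 - 0 : Qb) = 0 := by rw [sub_zero, A.ord_one]
    rw [this] at hy
    exact absurd hnn (not_le.2 hy)
  have hroot : ∀ ζ : Qb, ζ ^ p = 1 → ζ ≠ 1 → A.ord (1 - ζ * y) = (A.eps p : ℚ) / (p - 1) := by
    intro ζ h1 h2
    have hζ0 : 1 - ζ ≠ 0 := sub_ne_zero.2 (Ne.symm h2)
    have e1 : 1 - ζ * y = y * (1 - ζ) + (1 - y) := by ring
    have e2 : A.ord (y * (1 - ζ)) = (A.eps p : ℚ) / (p - 1) := by
      rw [A.ord_mul hyn hζ0, hyu, zero_add, Pl.ord_one_sub_root h1 h2]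
    rw [e1, Pl.ord_eq_of_lt (mul_ne_zero hyn hζ0) (by
      rw [e2]; exact Pl.ge_of_ord hy.le) (fun _ => by rw [e2]; exact hy), e2]
  refine ⟨?_, hroot⟩
  obtain ⟨ζ, hζ⟩ := exists_prim p
  obtain ⟨k, hk⟩ := Nat.exists_eq_succ_of_ne_zero hp.out.ne_zero
  have hprod : 1 - y ^ p = ∏ i ∈ Finset.range p, (1 - ζ ^ i * y) := by
    have h1 := hζ.pow_sub_pow_eq_prod_sub_mul 1 y hp.out.pos
    rw [one_pow] at h1
    rw [h1]
    haveI : NeZero p := ⟨hp.out.ne_zero⟩
    symm
    refine Finset.prod_bij (fun i _ => ζ ^ i) ?_ ?_ ?_ ?_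
    · intro i _
      rw [Polynomial.mem_nthRootsFinset hp.out.pos, ← pow_mul, mul_comm, pow_mul, hζ.pow_eq_one, one_pow]
    · intro i hi j hj h
      exact hζ.pow_inj (Finset.mem_range.1 hi) (Finset.mem_range.1 hj) h
    · intro z hz
      rw [Polynomial.mem_nthRootsFinset hp.out.pos] at hz
      obtain ⟨i, hi, h⟩ := hζ.eq_pow_of_pow_eq_one hz
      exact ⟨i, Finset.mem_range.2 hi, h⟩
    · intro i _; rfl
  have hne : ∀ i ∈ Finset.range p, (1 - ζ ^ i * y) ≠ 0 := by
    intro i hi h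
    apply hy1
    have h1 : ζ ^ i * y = 1 := (sub_eq_zero.1 h).symm
    have h2 := congrArg (· ^ p) h1
    simp only [mul_pow, one_pow] at h2
    rwa [← pow_mul, mul_comm i p, pow_mul, hζ.pow_eq_one, one_pow, one_mul] at h2
  rw [hprod, A.ord_prod _ _ hne, hk, Finset.sum_range_succ']
  have h3 : ∀ i ∈ Finset.range k, A.ord (1 - ζ ^ (i + 1) * y) = (A.eps p : ℚ) / (p - 1) := by
    intro i hi
    apply hroot
    · rw [← pow_mul, mul_comm, pow_mul, hζ.pow_eq_one, one_pow]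
    · intro h4
      have h5 := hζ.dvd_of_pow_eq_one _ h4
      have h6 := Nat.le_of_dvd (Nat.succ_pos i) h5
      have h7 := Finset.mem_range.1 hi
      omega
  rw [Finset.sum_congr rfl h3, Finset.sum_const, Finset.card_range, pow_zero, one_mul]
  have hk1 : (k : ℚ) = (p : ℚ) - 1 := by rw [hk]; push_cast; ring
  rw [nsmul_eq_mul, hk1]
  have : (p : ℚ) - 1 ≠ 0 := hp1.ne'
  rw [← hk]
  field_simp
  ring

/-- Extraction of roots close to one. -/
theorem Pl.exists_root (A : Pl) {x : Qb} (hx : (A.eps p : ℚ) * p / (p - 1) < A.ord (1 - x)) (hx1 : x ≠ 1) :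
    ∃ y : Qb, y ^ p = x ∧ A.ord (1 - x) = A.ord (1 - y) + A.eps p ∧
      (∀ g ∈ Dec A, g x = x → g y = y) := by
  have hp1 : (0 : ℚ) < (p : ℚ) - 1 := by
    have : (2 : ℚ) ≤ p := by exact_mod_cast hp.out.two_le
    linarith
  obtain ⟨y0, hy0⟩ := IsAlgClosed.exists_pow_nat_eq x hp.out.pos
  obtain ⟨ζ, hζ⟩ := exists_prim p
  have hprod : 1 - x = ∏ z ∈ Polynomial.nthRootsFinset p (1 : Qb), (1 - z * y0) := by
    have h1 := hζ.pow_sub_pow_eq_prod_sub_mul 1 y0 hp.out.pos
    rw [one_pow, hy0] at h1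
    exact h1
  have hne : ∀ z ∈ Polynomial.nthRootsFinset p (1 : Qb), (1 - z * y0) ≠ 0 := by
    intro z hz h
    apply hx1
    rw [Polynomial.mem_nthRootsFinset hp.out.pos] at hz
    have h2 := congrArg (· ^ p) (sub_eq_zero.1 h)
    simp only [mul_pow, one_pow, hz, one_mul, hy0] at h2
    exact h2.symm
  have hcard : (Polynomial.nthRootsFinset p (1 : Qb)).card = p := hζ.card_nthRootsFinset
  -- some factor is large
  obtain ⟨z, hz, hlt⟩ : ∃ z ∈ Polynomial.nthRootsFinset p (1 : Qb),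
      (A.eps p : ℚ) / (p - 1) < A.ord (1 - z * y0) := by
    by_contra hcon
    push_neg at hcon
    have h1 := Finset.sum_le_card_nsmul _ _ _ hcon
    rw [← A.ord_prod _ _ hne, ← hprod, hcard, nsmul_eq_mul] at h1
    have h2 : (p : ℚ) * ((A.eps p : ℚ) / (p - 1)) = (A.eps p : ℚ) * p / (p - 1) := by ring
    rw [h2] at h1
    exact absurd h1 (not_le.2 hx)
  rw [Polynomial.mem_nthRootsFinset hp.out.pos] at hz
  set y := z * y0 with hy
  have hyp : y ^ p = x := by rw [hy, mul_pow, hz, one_mul, hy0]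
  obtain ⟨h1, h2⟩ := A.ord_one_sub_pow hlt (by rw [hyp]; exact hx1)
  rw [hyp] at h1
  refine ⟨y, hyp, h1, fun g hg hgx => ?_⟩
  -- `g y / y` is a root of unity
  have hy0' : y ≠ 0 := by
    intro h
    have hz0 : x = 0 := by rw [← hyp, h, zero_pow hp.out.ne_zero]
    have : A.ord (1 - y) = 0 := by rw [h, sub_zero, A.ord_one]
    rw [this] at hlt
    exact absurd (div_nonneg (Nat.cast_nonneg _) hp1.le) (not_le.2 hlt)
  by_contra hgy
  have h3 : (g y / y) ^ p = 1 := by
    rw [div_pow, ← map_pow, hyp, hgx, div_self]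
    rw [← hyp]; exact pow_ne_zero _ hy0'
  have h4 := h2 (g y / y) h3 (fun h => hgy ((div_eq_one_iff_eq hy0').1 h))
  rw [div_mul_cancel₀ _ hy0'] at h4
  have h5 : 1 - y ≠ 0 := by
    intro h
    apply hx1
    rw [← hyp, ← sub_eq_zero.1 h, one_pow]
  have h6 := A.ord_smul g h5
  have h7 : g • A = A := hg
  rw [h7, map_sub, map_one, h4] at h6
  exact absurd h6 hlt.ne

end Roots

end Fermat.Agent.CFT
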