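import Fermat.Agent.CFT.Loc3

/-!
# The multiplicative group of a local field modulo `p`-th powers
-/

set_option autoImplicit false
set_option linter.unusedSectionVars false
set_option linter.unusedVariables false
set_option linter.style.haveILetI false

namespace Fermat.Agent.CFT

open Module

/-- the multiplicative group of `ℚ̄`, additively -/
abbrev Ma : Type := Additive Qbˣ

/-- value -/
def vl (x : Ma) : Qb := ((Additive.toMul x : Qbˣ) : Qb)

/-- constructor -/
noncomputable def mk0 (x : Qb) (hx : x ≠ 0) : Ma := Additive.ofMul (Units.mk0 x hx)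

@[simp] theorem vl_mk0 (x : Qb) (hx : x ≠ 0) : vl (mk0 x hx) = x := rfl
@[simp] theorem vl_add (x y : Ma) : vl (x + y) = vl x * vl y := rfl
@[simp] theorem vl_zero : vl 0 = 1 := rfl
@[simp] theorem vl_neg (x : Ma) : vl (-x) = (vl x)⁻¹ := by
  simp [vl]
@[simp] theorem vl_sub (x y : Ma) : vl (x - y) = vl x / vl y := by
  rw [sub_eq_add_neg, vl_add, vl_neg, div_eq_mul_inv]
@[simp] theorem vl_nsmul (n : ℕ) (x : Ma) : vl (n • x) = vl x ^ n := by
  simp [vl]
@[simp] theorem vl_zsmul (n : ℤ) (x : Ma) : vl (n • x) = vl x ^ n := by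
  simp [vl]
theorem vl_ne_zero (x : Ma) : vl x ≠ 0 := Units.ne_zero _
theorem vl_inj {x y : Ma} : vl x = vl y ↔ x = y :=
  ⟨fun h => Additive.toMul.injective (Units.ext h), fun h => by rw [h]⟩
theorem vl_sum {ι : Type*} (s : Finset ι) (f : ι → Ma) : vl (∑ i ∈ s, f i) = ∏ i ∈ s, vl (f i) := by
  classical
  induction s using Finset.induction_on with
  | empty => simp
  | insert a s ha ih => rw [Finset.sum_insert ha, Finset.prod_insert ha, vl_add, ih]

/-- fixed elements -/
def FA (V : Subgroup GQ) : AddSubgroup Ma where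
  carrier := {x | ∀ g ∈ V, g (vl x) = vl x}
  add_mem' ha hb := fun g hg => by rw [vl_add, map_mul, ha g hg, hb g hg]
  zero_mem' := fun g _ => by rw [vl_zero, map_one]
  neg_mem' ha := fun g hg => by rw [vl_neg, map_inv₀, ha g hg]

theorem mem_FA {V : Subgroup GQ} {x : Ma} : x ∈ FA V ↔ ∀ g ∈ V, g (vl x) = vl x := Iff.rfl

/-- units at `A` -/
def UA (V : Subgroup GQ) (A : Pl) : AddSubgroup Ma where
  carrier := {x | x ∈ FA V ∧ A.ord (vl x) = 0}
  add_mem' ha hb := ⟨add_mem ha.1 hb.1, by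
    rw [vl_add, A.ord_mul (vl_ne_zero _) (vl_ne_zero _), ha.2, hb.2, add_zero]⟩
  zero_mem' := ⟨zero_mem _, by rw [vl_zero, A.ord_one]⟩
  neg_mem' ha := ⟨neg_mem ha.1, by rw [vl_neg, A.ord_inv (vl_ne_zero _), ha.2, neg_zero]⟩

theorem mem_UA {V : Subgroup GQ} {A : Pl} {x : Ma} : x ∈ UA V A ↔ x ∈ FA V ∧ A.ord (vl x) = 0 :=
  Iff.rfl

theorem Pl.ord_of_ge_one_sub {A : Pl} {t : ℚ} (ht : 0 < t) {x : Qb} (h : A.ge t (1 - x)) :
    A.ord x = 0 := by
  by_cases h0 : 1 - x = 0
  · rw [← sub_eq_zero.1 h0, A.ord_one]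
  have h1 : x = 1 + (-(1 - x)) := by ring
  have h2 := Pl.ord_eq_of_lt (A := A) (x := 1) (y := -(1 - x)) one_ne_zero
    (by rw [A.ord_one]; exact (h.mono ht.le).neg)
    (fun h' => by
      rcases h.neg with h3 | h3
      · exact absurd h3 h'
      · rw [A.ord_one]; exact lt_of_lt_of_le ht h3)
  rw [← h1, A.ord_one] at h2
  exact h2

/-- principal units -/
def UP (V : Subgroup GQ) (A : Pl) (k : ℕ) (hk : 1 ≤ k) : AddSubgroup Ma where
  carrier := {x | x ∈ FA V ∧ A.ge k (1 - vl x)}
  add_mem' {x y} ha hb := ⟨add_mem ha.1 hb.1, by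
    have hk' : (0 : ℚ) < k := by exact_mod_cast hk
    have h1 : 1 - vl (x + y) = (1 - vl x) + vl x * (1 - vl y) := by rw [vl_add]; ring
    rw [h1]
    refine ha.2.add ?_
    have h2 := (Pl.ge_of_ord (A := A) (Pl.ord_of_ge_one_sub hk' ha.2).ge).mul hb.2
    simpa using h2⟩
  zero_mem' := ⟨zero_mem _, by rw [vl_zero, sub_self]; exact Pl.ge.zero _⟩
  neg_mem' {x} ha := ⟨neg_mem ha.1, by
    have hk' : (0 : ℚ) < k := by exact_mod_cast hk
    have h1 : 1 - vl (-x) = (-(vl x)⁻¹) * (1 - vl x) := by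
      rw [vl_neg]; field_simp [vl_ne_zero x]; ring
    rw [h1]
    have h3 : A.ord (vl x)⁻¹ = 0 := by
      rw [A.ord_inv (vl_ne_zero _), Pl.ord_of_ge_one_sub hk' ha.2, neg_zero]
    have h2 := (Pl.ge_of_ord (A := A) h3.ge).neg.mul ha.2
    simpa using h2⟩

theorem mem_UP {V : Subgroup GQ} {A : Pl} {k : ℕ} {hk : 1 ≤ k} {x : Ma} :
    x ∈ UP V A k hk ↔ x ∈ FA V ∧ A.ge k (1 - vl x) := Iff.rfl

theorem UP_le_UA {V : Subgroup GQ} {A : Pl} {k : ℕ} {hk : 1 ≤ k} : UP V A k hk ≤ UA V A :=
  fun x hx => ⟨hx.1, Pl.ord_of_ge_one_sub (by exact_mod_cast hk) hx.2⟩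

/-- comparison of indices -/
theorem phi_le {X : Type*} [AddCommGroup X] (n : ℕ) {K L : AddSubgroup X} (hle : K ≤ L)
    (hidx : K.relIndex L ≠ 0) (h : QF (mulN n K)) :
    QF (mulN n L) ∧ qi (mulN n L) = qi (mulN n K) := by
  have e := AddSubgroup.addSubgroupOfEquivOfLe hle
  obtain ⟨h1, h2⟩ := phi_finiteIndex n (K.addSubgroupOf L) hidx ((QF_equiv n e).2 h)
  exact ⟨h1, by rw [h2, qi_equiv n e]⟩

section Scale

variable {V : Subgroup GQ} {A : Pl} (hV : IsLoc A V)

/-- multiplication by `ell` -/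
theorem relIndex_fil (k : ℕ) : (fil V A (k + 1)).relIndex (fil V A k) =
    (fil V A 1).relIndex (fil V A 0) := by
  -- multiplication by `ell ^ k`
  have hl := pow_ne_zero k A.ell_ne_zero
  have hlo : A.ord ((A.ell : Qb) ^ k) = k := by rw [A.ord_pow A.ell_ne_zero, A.ord_ell, mul_one]
  let f : Qb →+ Qb := AddMonoidHom.mulLeft ((A.ell : Qb) ^ k)
  have hf : Function.Injective f := fun x y h => mul_left_cancel₀ hl h
  have hmap : ∀ t : ℚ, (fil V A t).map f = fil V A (k + t) := by
    intro t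
    ext y
    constructor
    · rintro ⟨x, hx, rfl⟩
      refine ⟨fun g hg => ?_, ?_⟩
      · change g ((A.ell : Qb) ^ k * x) = _
        rw [map_mul, map_pow, map_natCast, hx.1 g hg]; rfl
      · have := (Pl.ge_of_ord (A := A) hlo.ge).mul hx.2
        exact this
    · rintro ⟨h1, h2⟩
      refine ⟨y / (A.ell : Qb) ^ k, ⟨fun g hg => ?_, ?_⟩, ?_⟩
      · rw [map_div₀, map_pow, map_natCast, h1 g hg]
      · have h3 : A.ge (-(k : ℚ)) (((A.ell : Qb) ^ k)⁻¹) := by
          right; rw [A.ord_inv hl, hlo]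
        have := h2.mul h3
        rw [div_eq_mul_inv]
        refine this.mono ?_
        linarith
      · change (A.ell : Qb) ^ k * (y / (A.ell : Qb) ^ k) = y
        field_simp
  rw [← AddSubgroup.relIndex_map_map_of_injective (fil V A 1) (fil V A 0) hf, hmap, hmap, add_zero]

include hV

theorem relIndex_UP (k : ℕ) (hk : 1 ≤ k) : (UP V A (k + 1) (by omega)).relIndex (UP V A k hk) =
    A.ell ^ V.relIndex (Dec A) := by
  rw [← card_fil hV, ← relIndex_fil k]
  have hle : fil V A (k + 1) ≤ fil V A k := fun x hx => ⟨hx.1, hx.2.mono (by linarith)⟩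
  -- the map to the quotient
  let B := fil V A k
  let C : AddSubgroup B := (fil V A (k + 1)).addSubgroupOf B
  have hmem : ∀ x ∈ UP V A k hk, (1 - vl x) ∈ fil V A k := fun x hx =>
    ⟨fun g hg => by rw [map_sub, map_one, hx.1 g hg], hx.2⟩
  have hk' : (1 : ℚ) ≤ k := by exact_mod_cast hk
  let ψ : UP V A k hk →+ B ⧸ C :=
    { toFun := fun x => QuotientAddGroup.mk ⟨1 - vl x, hmem _ x.2⟩
      map_zero' := by
        refine (QuotientAddGroup.eq_zero_iff _).2 ?_
        change (1 - vl ((0 : UP V A k hk) : Ma)) ∈ fil V A (k + 1)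
        rw [AddSubgroup.coe_zero, vl_zero, sub_self]
        exact zero_mem _
      map_add' := fun x y => by
        rw [← QuotientAddGroup.mk_add]
        refine (QuotientAddGroup.eq).2 ?_
        change -(1 - vl ((x + y : UP V A k hk) : Ma)) + ((1 - vl x) + (1 - vl y)) ∈
          fil V A (k + 1)
        have h1 : -(1 - vl ((x + y : UP V A k hk) : Ma)) + ((1 - vl x) + (1 - vl y)) =
            (1 - vl x) * (1 - vl y) := by
          rw [AddSubgroup.coe_add, vl_add]; ring
        rw [h1]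
        refine ⟨fun g hg => ?_, ?_⟩
        · rw [map_mul, (hmem _ x.2).1 g hg, (hmem _ y.2).1 g hg]
        · exact (x.2.2.mul y.2.2).mono (by linarith) }
  have hker : ψ.ker = (UP V A (k + 1) (by omega)).addSubgroupOf (UP V A k hk) := by
    ext x
    rw [AddMonoidHom.mem_ker, AddSubgroup.mem_addSubgroupOf]
    constructor
    · intro h
      have h1 := (QuotientAddGroup.eq_zero_iff _).1 h
      refine ⟨x.2.1, ?_⟩
      have h2 : (1 - vl x) ∈ fil V A (k + 1) := h1
      have := h2.2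
      push_cast
      exact this
    · intro h
      refine (QuotientAddGroup.eq_zero_iff _).2 ?_
      change (1 - vl x) ∈ fil V A (k + 1)
      refine ⟨(hmem _ x.2).1, ?_⟩
      have := h.2
      push_cast at this
      exact this
  have hsurj : Function.Surjective ψ := by
    intro q
    obtain ⟨b, rfl⟩ := QuotientAddGroup.mk_surjective q
    have hb : A.ord (1 - (b : Qb)) = 0 := by
      apply Pl.ord_of_ge_one_sub (t := (k : ℚ)) (by linarith)
      have := b.2.2
      rwa [sub_sub_cancel]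
    have hb0 : 1 - (b : Qb) ≠ 0 := by
      intro h
      have h1 : (b : Qb) = 1 := (sub_eq_zero.1 h).symm
      have h2 := b.2.2
      rw [h1] at h2
      rcases h2 with h2 | h2
      · exact one_ne_zero h2
      · rw [A.ord_one] at h2; linarith
    refine ⟨⟨mk0 (1 - b) hb0, fun g hg => ?_, ?_⟩, ?_⟩
    · rw [vl_mk0, map_sub, map_one, b.2.1 g hg]
    · rw [vl_mk0, sub_sub_cancel]; exact b.2.2
    · refine congrArg QuotientAddGroup.mk (Subtype.ext ?_)
      change 1 - vl (mk0 (1 - b) hb0) = b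
      rw [vl_mk0, sub_sub_cancel]
  rw [AddSubgroup.relIndex, ← hker, AddSubgroup.index_ker, AddMonoidHom.range_eq_top.2 hsurj,
    Nat.card_congr (AddSubgroup.topEquiv).toEquiv]
  rfl

theorem relIndex_UA : (UP V A 1 le_rfl).relIndex (UA V A) ≠ 0 := by
  have hfin : (fil V A 1).relIndex (fil V A 0) ≠ 0 := by
    rw [card_fil hV]; exact pow_ne_zero _ A.ell_prime.ne_zero
  let B := fil V A 0
  let C : AddSubgroup B := (fil V A 1).addSubgroupOf B
  haveI : Finite (B ⧸ C) := (AddSubgroup.finiteIndex_iff_finite_quotient).1 ⟨hfin⟩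
  have hmem : ∀ x ∈ UA V A, vl x ∈ fil V A 0 := fun x hx => ⟨hx.1, Pl.ge_of_ord hx.2.ge⟩
  let f : UA V A → B ⧸ C := fun x => QuotientAddGroup.mk ⟨vl x, hmem _ x.2⟩
  have hf : ∀ x y : UA V A, f x = f y → x - y ∈ (UP V A 1 le_rfl).addSubgroupOf (UA V A) := by
    intro x y h
    have h1 := (QuotientAddGroup.eq).1 h
    have h2 : -(vl x) + vl y ∈ fil V A 1 := h1
    refine ⟨(x - y).2.1, ?_⟩
    change A.ge ((1 : ℕ) : ℚ) (1 - vl ((x - y : UA V A) : Ma))
    rw [AddSubgroup.coe_sub, vl_sub]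
    have h3 : 1 - vl (x : Ma) / vl (y : Ma) = (vl (y : Ma))⁻¹ * (-(vl (x : Ma)) + vl (y : Ma)) := by
      field_simp [vl_ne_zero (y : Ma)]
      ring
    rw [h3]
    have h4 : A.ord (vl (y : Ma))⁻¹ = 0 := by rw [A.ord_inv (vl_ne_zero _), y.2.2, neg_zero]
    have := (Pl.ge_of_ord (A := A) h4.ge).mul h2.2
    simpa using this
  have hinj : Function.Injective (fun q : UA V A ⧸ (UP V A 1 le_rfl).addSubgroupOf (UA V A) =>
      f q.out) := by
    intro q q' h
    have h1 := hf _ _ h
    rw [← QuotientAddGroup.out_eq' q, ← QuotientAddGroup.out_eq' q']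
    symm
    rw [QuotientAddGroup.eq]
    have : -(q'.out) + q.out = q.out - q'.out := by abel
    rw [this]
    exact h1
  haveI := Finite.of_injective _ hinj
  exact AddSubgroup.index_ne_zero_of_finite

variable {p : ℕ} [hp : Fact p.Prime] (hp2 : p ≠ 2)

include hp2

/-- `p`-th powers of principal units -/
theorem phi_UP : QF (mulN p (UP V A 1 le_rfl)) ∧
    qi (mulN p (UP V A 1 le_rfl)) = ((p : ℚ) ^ (V.relIndex (Dec A))) ^ A.eps p := by
  have hp3 : (3 : ℚ) ≤ p := by
    have := hp.out.two_le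
    exact_mod_cast (show 3 ≤ p by omega)
  have heps : (A.eps p : ℚ) ≤ 1 := by
    rw [Pl.eps]; split_ifs <;> norm_num
  have heps0 : (0 : ℚ) ≤ (A.eps p : ℚ) := Nat.cast_nonneg _
  have hlt : (A.eps p : ℚ) / (p - 1) < 1 := by
    rw [div_lt_one (by linarith)]; linarith
  have hk : (mulN p (UP V A 1 le_rfl)).ker = ⊥ := by
    rw [eq_bot_iff]
    intro x hx
    rw [AddMonoidHom.mem_ker] at hx
    have h1 : vl (x : Ma) ^ p = 1 := by
      have := congrArg (fun y : UP V A 1 le_rfl => vl (y : Ma)) hx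
      simpa using this
    rw [AddSubgroup.mem_bot]
    by_contra hne
    have h2 : vl (x : Ma) ≠ 1 := fun h => hne (Subtype.ext (vl_inj.1 h))
    have h3 := Pl.ord_one_sub_root (A := A) h1 h2
    rcases x.2.2 with h4 | h4
    · exact h2 (sub_eq_zero.1 h4).symm
    · rw [h3, Nat.cast_one] at h4
      linarith
  have hr : (mulN p (UP V A 1 le_rfl)).range =
      (UP V A (1 + A.eps p) (by omega)).addSubgroupOf (UP V A 1 le_rfl) := by
    ext x
    rw [AddSubgroup.mem_addSubgroupOf]
    constructor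
    · rintro ⟨y, rfl⟩
      refine ⟨((mulN p (UP V A 1 le_rfl)) y).2.1, ?_⟩
      have h0 : vl (((mulN p (UP V A 1 le_rfl)) y : UP V A 1 le_rfl) : Ma) = vl (y : Ma) ^ p := by
        change vl ((p • y : UP V A 1 le_rfl) : Ma) = _
        rw [AddSubgroup.coe_nsmul, vl_nsmul]
      rw [h0]
      by_cases h1 : vl (y : Ma) ^ p = 1
      · rw [h1, sub_self]; exact Pl.ge.zero _
      right
      rcases y.2.2 with h4 | h4
      · exact absurd (by rw [← sub_eq_zero.1 h4, one_pow]) h1
      · rw [(A.ord_one_sub_pow (by rw [Nat.cast_one] at h4; linarith) h1).1]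
        push_cast
        rw [Nat.cast_one] at h4
        linarith
    · intro hx
      by_cases h1 : vl (x : Ma) = 1
      · refine ⟨0, ?_⟩
        rw [map_zero]
        exact Subtype.ext (vl_inj.1 h1.symm)
      have h2 : ((1 + A.eps p : ℕ) : ℚ) ≤ A.ord (1 - vl (x : Ma)) := by
        rcases hx.2 with h4 | h4
        · exact absurd (sub_eq_zero.1 h4).symm h1
        · exact h4
      push_cast at h2
      obtain ⟨y, hy1, hy2, hy3⟩ := A.exists_root (p := p) (x := vl (x : Ma)) (by
        refine lt_of_lt_of_le ?_ h2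
        rw [div_lt_iff₀ (by linarith)]
        nlinarith) h1
      have hy0 : y ≠ 0 := by
        rintro rfl
        rw [zero_pow hp.out.ne_zero] at hy1
        exact vl_ne_zero _ hy1.symm
      refine ⟨⟨mk0 y hy0, fun g hg => hy3 g (hV.le hg) (x.2.1 g hg), ?_⟩, ?_⟩
      · right
        rw [vl_mk0, Nat.cast_one]
        linarith
      · apply Subtype.ext
        apply vl_inj.1
        change vl ((p • _ : UP V A 1 le_rfl) : Ma) = _
        rw [AddSubgroup.coe_nsmul, vl_nsmul]
        exact hy1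
  have hidx : (mulN p (UP V A 1 le_rfl)).range.index = (p ^ (V.relIndex (Dec A))) ^ A.eps p := by
    rw [hr]
    by_cases h : A.ell = p
    · have h1 : A.eps p = 1 := by rw [Pl.eps, if_pos h]
      have h2 := relIndex_UP hV 1 le_rfl
      rw [h] at h2
      have h3 : (UP V A (1 + A.eps p) (by omega)) = UP V A (1 + 1) (by omega) := by
        ext x
        simp only [mem_UP, h1]
      rw [h3, h1, pow_one, ← h2]
      rfl
    · have h1 : A.eps p = 0 := by rw [Pl.eps, if_neg h]
      have h2 : (UP V A (1 + A.eps p) (by omega)) = UP V A 1 le_rfl := by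
        ext x
        simp only [mem_UP, h1]
      rw [h2, h1, pow_zero, AddSubgroup.addSubgroupOf_self, AddSubgroup.index_top]
  constructor
  · constructor
    · rw [hidx]; exact pow_ne_zero _ (pow_ne_zero _ hp.out.ne_zero)
    · rw [hk]; simp
  · rw [qi, hidx, hk]; simp

theorem phi_UA : QF (mulN p (UA V A)) ∧
    qi (mulN p (UA V A)) = ((p : ℚ) ^ (V.relIndex (Dec A))) ^ A.eps p := by
  obtain ⟨h1, h2⟩ := phi_UP hV hp2
  obtain ⟨h3, h4⟩ := phi_le p UP_le_UA (relIndex_UA hV) h1
  exact ⟨h3, by rw [h4, h2]⟩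

end Scale

end Fermat.Agent.CFT
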