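import Fermat.Agent.CFT.Loc4

/-!
# Value groups, the norm index
-/

set_option autoImplicit false
set_option linter.unusedSectionVars false
set_option linter.unusedVariables false
set_option linter.style.haveILetI false

namespace Fermat.Agent.CFT

open Module

/-- The norm from `V` to `D`. -/
noncomputable def NmC (V D : Subgroup GQ) (x : Qb) : Qb :=
  ∏ᶠ q : D ⧸ V.subgroupOf D, ((q.out : D) : GQ) x

section

variable {V D : Subgroup GQ} (hle : V ≤ D) {x : Qb} (hx : ∀ g ∈ V, g x = x)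

include hx in
theorem smul_out (g : D) : (((g : D ⧸ V.subgroupOf D).out : D) : GQ) x = (g : GQ) x := by
  have h1 : (g : D)⁻¹ * (g : D ⧸ V.subgroupOf D).out ∈ V.subgroupOf D := by
    rw [← QuotientGroup.eq]; exact (QuotientGroup.out_eq' _).symm
  have h2 := hx _ h1
  have h3 : ((g : D ⧸ V.subgroupOf D).out : D) = g * (g⁻¹ * (g : D ⧸ V.subgroupOf D).out) := by group
  rw [h3]
  exact congrArg (g : GQ) h2

include hx in
theorem NmC_fixed [Finite (D ⧸ V.subgroupOf D)] (g : D) : (g : GQ) (NmC V D x) = NmC V D x := by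
  classical
  letI := Fintype.ofFinite (D ⧸ V.subgroupOf D)
  rw [NmC, finprod_eq_prod_of_fintype, map_prod]
  refine Fintype.prod_equiv (MulAction.toPerm g) _ _ fun q => ?_
  obtain ⟨h, rfl⟩ := QuotientGroup.mk_surjective q
  rw [smul_out hx]
  change _ = (((g * h : D) : D ⧸ V.subgroupOf D).out : GQ) x
  rw [smul_out hx]
  rfl

theorem NmC_ne_zero [Finite (D ⧸ V.subgroupOf D)] (hx0 : x ≠ 0) : NmC V D x ≠ 0 := by
  classical
  letI := Fintype.ofFinite (D ⧸ V.subgroupOf D)
  rw [NmC, finprod_eq_prod_of_fintype]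
  exact Finset.prod_ne_zero_iff.2 fun q _ => (_root_.map_ne_zero _).2 hx0

theorem ord_NmC {A : Pl} (hD : D ≤ Dec A) [Finite (D ⧸ V.subgroupOf D)] (hx0 : x ≠ 0) :
    A.ord (NmC V D x) = V.relIndex D * A.ord x := by
  classical
  letI := Fintype.ofFinite (D ⧸ V.subgroupOf D)
  rw [NmC, finprod_eq_prod_of_fintype, A.ord_prod _ _ fun q _ => (_root_.map_ne_zero _).2 hx0]
  have h1 : ∀ q : D ⧸ V.subgroupOf D, A.ord (((q.out : D) : GQ) x) = A.ord x := fun q => by
    have h2 := A.ord_smul ((q.out : D) : GQ) hx0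
    have h3 : ((q.out : D) : GQ) • A = A := hD (q.out : D).2
    rwa [h3] at h2
  rw [Finset.sum_congr rfl fun q _ => h1 q, Finset.sum_const, Finset.card_univ, nsmul_eq_mul,
    Subgroup.relIndex, ← Nat.card_eq_fintype_card]
  rfl

end

section

variable {V : Subgroup GQ} {A : Pl} (hV : IsLoc A V)

/-- the order on the fixed elements -/
noncomputable def ordH (V : Subgroup GQ) (A : Pl) : FA V →+ ℚ where
  toFun x := A.ord (vl (x : Ma))
  map_zero' := by rw [AddSubgroup.coe_zero, vl_zero, A.ord_one]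
  map_add' x y := by rw [AddSubgroup.coe_add, vl_add, A.ord_mul (vl_ne_zero _) (vl_ne_zero _)]

theorem ordH_apply (x : FA V) : ordH V A x = A.ord (vl (x : Ma)) := rfl

include hV

theorem finite_loc : Finite (Dec A ⧸ V.subgroupOf (Dec A)) :=
  (Subgroup.finiteIndex_iff_finite_quotient).1 ⟨hV.relIndex⟩

theorem ordH_int (x : FA V) : ∃ m : ℤ, (V.relIndex (Dec A) : ℚ) * ordH V A x = m := by
  haveI := finite_loc hV
  rw [ordH_apply, ← ord_NmC le_rfl (vl_ne_zero _)]
  exact A.exists_ord_int (NmC_ne_zero (vl_ne_zero _)) fun g hg => NmC_fixed x.2 ⟨g, hg⟩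

/-- the value group is cyclic -/
theorem exists_unif : ∃ e : ℚ, 0 < e ∧ (ordH V A).range = AddSubgroup.zmultiples e := by
  set d := V.relIndex (Dec A) with hd
  have hd0 : (d : ℚ) ≠ 0 := by exact_mod_cast hV.relIndex
  let f : ℤ →+ ℚ :=
    { toFun := fun n => n / d
      map_zero' := by simp
      map_add' := fun a b => by push_cast; ring }
  obtain ⟨a, ha⟩ := Int.subgroup_cyclic ((ordH V A).range.comap f)
  rw [← AddSubgroup.zmultiples_eq_closure] at ha
  have hr : (ordH V A).range = AddSubgroup.zmultiples ((a : ℚ) / d) := by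
    ext r
    constructor
    · rintro ⟨x, rfl⟩
      obtain ⟨m, hm⟩ := ordH_int hV x
      have h1 : ordH V A x = (m : ℚ) / d := by rw [← hm, ← hd]; field_simp
      have h2 : m ∈ (ordH V A).range.comap f := by
        rw [AddSubgroup.mem_comap]
        exact ⟨x, h1⟩
      rw [ha, AddSubgroup.mem_zmultiples_iff] at h2
      obtain ⟨k, rfl⟩ := h2
      rw [h1, AddSubgroup.mem_zmultiples_iff]
      refine ⟨k, ?_⟩
      simp only [zsmul_eq_mul, smul_eq_mul]
      push_cast; ring
    · intro h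
      rw [AddSubgroup.mem_zmultiples_iff] at h
      obtain ⟨k, rfl⟩ := h
      have h1 : a ∈ (ordH V A).range.comap f := by rw [ha]; exact AddSubgroup.mem_zmultiples a
      rw [AddSubgroup.mem_comap] at h1
      exact AddSubgroup.zsmul_mem _ h1 k
  have ha0 : a ≠ 0 := by
    rintro rfl
    have h1 : (1 : ℚ) ∈ (ordH V A).range := by
      refine ⟨⟨mk0 (A.ell : Qb) A.ell_ne_zero, fun g _ => by rw [vl_mk0, map_natCast]⟩, ?_⟩
      rw [ordH_apply, vl_mk0, A.ord_ell]
    rw [hr] at h1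
    simp at h1
  refine ⟨|(a : ℚ) / d|, abs_pos.2 (div_ne_zero (by exact_mod_cast ha0) hd0), ?_⟩
  rw [hr]
  rcases abs_choice ((a : ℚ) / d) with h | h
  · rw [h]
  · rw [h, AddSubgroup.zmultiples_neg]

variable {p : ℕ} [hp : Fact p.Prime] (hp2 : p ≠ 2)

theorem phi_range : QF (mulN p (ordH V A).range) ∧ qi (mulN p (ordH V A).range) = p := by
  obtain ⟨e, he, hr⟩ := exists_unif hV
  have hinj : Function.Injective (zmultiplesHom ℚ e) := fun m n h => by
    simp only [zmultiplesHom_apply, zsmul_eq_mul] at h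
    have := mul_right_cancel₀ he.ne' h
    exact_mod_cast this
  have hran : (zmultiplesHom ℚ e).range = (ordH V A).range := by
    rw [hr]; rfl
  have e1 : ℤ ≃+ (ordH V A).range :=
    (AddMonoidHom.ofInjective hinj).trans (AddEquiv.addSubgroupCongr hran)
  have e2 : (Fin 1 → ℤ) ≃+ ℤ := (AddEquiv.funUnique (Fin 1) ℤ)
  obtain ⟨h1, h2⟩ := phi_pi p 1
  rw [QF_equiv p (e2.trans e1)] at h1
  rw [qi_equiv p (e2.trans e1)] at h2
  exact ⟨h1, by rw [h2]; simp⟩

include hp2

/-- The index of `p`-th powers. -/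
theorem phi_FA : QF (mulN p (FA V)) ∧
    qi (mulN p (FA V)) = (p : ℚ) * ((p : ℚ) ^ (V.relIndex (Dec A))) ^ A.eps p := by
  obtain ⟨h1, h2⟩ := phi_UA hV hp2
  obtain ⟨h3, h4⟩ := phi_range (p := p) hV
  have hle : UA V A ≤ FA V := fun x hx => hx.1
  obtain ⟨h5, h6⟩ := ses_mid p (i := AddSubgroup.inclusion hle) (π := (ordH V A).rangeRestrict)
    (AddSubgroup.inclusion_injective hle) (AddMonoidHom.rangeRestrict_surjective _)
    (by
      rw [AddMonoidHom.ker_rangeRestrict]
      ext x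
      constructor
      · intro h
        exact ⟨⟨x, x.2, h⟩, rfl⟩
      · rintro ⟨y, rfl⟩
        exact y.2.2) h1 h3
  exact ⟨h5, by rw [h6, h2, h4]; ring⟩

end

/-- the number of `p`-torsion elements -/
theorem card_tors {p : ℕ} [hp : Fact p.Prime] {W : Subgroup GQ} (hμ : ∀ g ∈ W, ∀ ζ : Qb, ζ ^ p = 1 → g ζ = ζ) :
    Nat.card (mulN p (FA W)).ker = p := by
  haveI : NeZero p := ⟨hp.out.ne_zero⟩
  obtain ⟨ζ, hζ⟩ := exists_prim p
  have h1 : Nat.card (rootsOfUnity p Qb) = p := by
    exact hζ.card_rootsOfUnity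
  have e : (mulN p (FA W)).ker ≃ rootsOfUnity p Qb :=
    { toFun := fun x => ⟨Additive.toMul (x.1 : Ma), by
        rw [mem_rootsOfUnity]
        exact congrArg (fun y : FA W => Additive.toMul (y : Ma)) (show p • (x.1 : FA W) = 0 from x.2)⟩
      invFun := fun z => ⟨⟨Additive.ofMul z.1, fun g hg => by
        apply hμ g hg
        have := (mem_rootsOfUnity _ _).1 z.2
        exact congrArg Units.val this⟩, by
        rw [AddMonoidHom.mem_ker]
        apply Subtype.ext
        have := (mem_rootsOfUnity _ _).1 z.2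
        exact congrArg Additive.ofMul this⟩
      left_inv := fun x => rfl
      right_inv := fun z => rfl }
  rw [Nat.card_congr e, h1]

theorem index_FA {V : Subgroup GQ} {A : Pl} (hV : IsLoc A V) {p : ℕ} [hp : Fact p.Prime]
    (hp2 : p ≠ 2) (hμ : ∀ g ∈ V, ∀ ζ : Qb, ζ ^ p = 1 → g ζ = ζ) :
    (mulN p (FA V)).range.index = p ^ (2 + V.relIndex (Dec A) * A.eps p) := by
  obtain ⟨h1, h2⟩ := phi_FA hV hp2 (p := p)
  rw [qi, card_tors hμ, div_eq_iff (by exact_mod_cast hp.out.ne_zero)] at h2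
  have h3 : ((mulN p (FA V)).range.index : ℚ) = ((p ^ (2 + V.relIndex (Dec A) * A.eps p) : ℕ) : ℚ) := by
    rw [h2]; push_cast; rw [← pow_mul]; ring
  exact_mod_cast h3

end Fermat.Agent.CFT
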