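import Fermat.Agent.CFT.Kum
import Fermat.Agent.CFT.Low

/-!
# Cochains with values in modules; Hilbert 90, cohomological triviality
-/

set_option autoImplicit false
set_option linter.unusedSectionVars false
set_option linter.unusedVariables false
set_option linter.style.haveILetI false

namespace Fermat.Agent.CFT

open Module

section Defs

variable {M : Type} [AddCommGroup M] (am : GQ →* AddMonoid.End M) (S : Sys GQ) (W : Subgroup GQ)

/-- 0-cochains -/
structure C0 (f : GQ → M) : Prop where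
  eq : ∀ w ∈ W, ∀ x, f (w * x) = am w (f x)
  sm : ∃ V ∈ S.carrier, ∀ x, ∀ v ∈ V, f (x * v) = f x

/-- 1-cochains -/
structure C1 (b : GQ → GQ → M) : Prop where
  eq : ∀ w ∈ W, ∀ x y, b (w * x) (w * y) = am w (b x y)
  sm : ∃ V ∈ S.carrier, ∀ x y, ∀ v ∈ V, ∀ v' ∈ V, b (x * v) (y * v') = b x y

/-- 2-cochains -/
structure C2 (c : GQ → GQ → GQ → M) : Prop where
  eq : ∀ w ∈ W, ∀ x y z, c (w * x) (w * y) (w * z) = am w (c x y z)
  sm : ∃ V ∈ S.carrier, ∀ x y z, ∀ v ∈ V, ∀ v' ∈ V, ∀ v'' ∈ V, c (x * v) (y * v') (z * v'') = c x y z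

/-- differentials -/
def d0 (f : GQ → M) (x y : GQ) : M := f y - f x

/-- differentials -/
def d1 (b : GQ → GQ → M) (x y z : GQ) : M := b y z - b x z + b x y

/-- differentials -/
def d2 (c : GQ → GQ → GQ → M) (x y z w : GQ) : M := c y z w - c x z w + c x y w - c x y z

end Defs

section Basic

variable {M : Type} [AddCommGroup M] {am : GQ →* AddMonoid.End M} {S : Sys GQ} {W W' : Subgroup GQ}

theorem C0.add {f g : GQ → M} (hf : C0 am S W f) (hg : C0 am S W g) : C0 am S W (f + g) := by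
  obtain ⟨V1, hV1, h1⟩ := hf.sm
  obtain ⟨V2, hV2, h2⟩ := hg.sm
  obtain ⟨V, hV, hle1, hle2⟩ := S.directed V1 hV1 V2 hV2
  refine ⟨fun w hw x => by simp [hf.eq w hw, hg.eq w hw], V, hV, fun x v hv => ?_⟩
  simp [h1 x v (hle1 hv), h2 x v (hle2 hv)]

theorem C0.neg {f : GQ → M} (hf : C0 am S W f) : C0 am S W (-f) := by
  obtain ⟨V, hV, h⟩ := hf.sm
  exact ⟨fun w hw x => by simp [hf.eq w hw], V, hV, fun x v hv => by simp [h x v hv]⟩

theorem C0.sub {f g : GQ → M} (hf : C0 am S W f) (hg : C0 am S W g) : C0 am S W (f - g) := by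
  rw [sub_eq_add_neg]; exact hf.add hg.neg

theorem C0.nsmul {f : GQ → M} (hf : C0 am S W f) (n : ℕ) : C0 am S W (n • f) := by
  obtain ⟨V, hV, h⟩ := hf.sm
  exact ⟨fun w hw x => by simp [hf.eq w hw], V, hV, fun x v hv => by simp [h x v hv]⟩

theorem C0.mono {f : GQ → M} (hf : C0 am S W f) (hle : W' ≤ W) : C0 am S W' f :=
  ⟨fun w hw x => hf.eq w (hle hw) x, hf.sm⟩

theorem C1.add {f g : GQ → GQ → M} (hf : C1 am S W f) (hg : C1 am S W g) : C1 am S W (f + g) := by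
  obtain ⟨V1, hV1, h1⟩ := hf.sm
  obtain ⟨V2, hV2, h2⟩ := hg.sm
  obtain ⟨V, hV, hle1, hle2⟩ := S.directed V1 hV1 V2 hV2
  refine ⟨fun w hw x y => by simp [hf.eq w hw, hg.eq w hw], V, hV, fun x y v hv v' hv' => ?_⟩
  simp [h1 x y v (hle1 hv) v' (hle1 hv'), h2 x y v (hle2 hv) v' (hle2 hv')]

theorem C1.neg {f : GQ → GQ → M} (hf : C1 am S W f) : C1 am S W (-f) := by
  obtain ⟨V, hV, h⟩ := hf.sm
  exact ⟨fun w hw x y => by simp [hf.eq w hw], V, hV, fun x y v hv v' hv' => by simp [h x y v hv v' hv']⟩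

theorem C1.sub {f g : GQ → GQ → M} (hf : C1 am S W f) (hg : C1 am S W g) : C1 am S W (f - g) := by
  rw [sub_eq_add_neg]; exact hf.add hg.neg

theorem C1.nsmul {f : GQ → GQ → M} (hf : C1 am S W f) (n : ℕ) : C1 am S W (n • f) := by
  obtain ⟨V, hV, h⟩ := hf.sm
  exact ⟨fun w hw x y => by simp [hf.eq w hw], V, hV, fun x y v hv v' hv' => by
    simp [h x y v hv v' hv']⟩

theorem C1.mono {f : GQ → GQ → M} (hf : C1 am S W f) (hle : W' ≤ W) : C1 am S W' f :=
  ⟨fun w hw x => hf.eq w (hle hw) x, hf.sm⟩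

theorem C2.add {f g : GQ → GQ → GQ → M} (hf : C2 am S W f) (hg : C2 am S W g) : C2 am S W (f + g) := by
  obtain ⟨V1, hV1, h1⟩ := hf.sm
  obtain ⟨V2, hV2, h2⟩ := hg.sm
  obtain ⟨V, hV, hle1, hle2⟩ := S.directed V1 hV1 V2 hV2
  refine ⟨fun w hw x y z => by simp [hf.eq w hw, hg.eq w hw], V, hV,
    fun x y z v hv v' hv' v'' hv'' => ?_⟩
  simp [h1 x y z v (hle1 hv) v' (hle1 hv') v'' (hle1 hv''),
    h2 x y z v (hle2 hv) v' (hle2 hv') v'' (hle2 hv'')]

theorem C2.neg {f : GQ → GQ → GQ → M} (hf : C2 am S W f) : C2 am S W (-f) := by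
  obtain ⟨V, hV, h⟩ := hf.sm
  exact ⟨fun w hw x y z => by simp [hf.eq w hw], V, hV, fun x y z v hv v' hv' v'' hv'' => by
    simp [h x y z v hv v' hv' v'' hv'']⟩

theorem C2.mono {f : GQ → GQ → GQ → M} (hf : C2 am S W f) (hle : W' ≤ W) : C2 am S W' f :=
  ⟨fun w hw x => hf.eq w (hle hw) x, hf.sm⟩

theorem C0.d0 {f : GQ → M} (hf : C0 am S W f) : C1 am S W (d0 f) := by
  obtain ⟨V, hV, h⟩ := hf.sm
  exact ⟨fun w hw x y => by simp [CFT.d0, hf.eq w hw], V, hV, fun x y v hv v' hv' => by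
    simp [CFT.d0, h x v hv, h y v' hv']⟩

theorem C1.d1 {b : GQ → GQ → M} (hb : C1 am S W b) : C2 am S W (d1 b) := by
  obtain ⟨V, hV, h⟩ := hb.sm
  exact ⟨fun w hw x y z => by simp [CFT.d1, hb.eq w hw], V, hV,
    fun x y z v hv v' hv' v'' hv'' => by
      simp only [CFT.d1]
      rw [h y z v' hv' v'' hv'', h x z v hv v'' hv'', h x y v hv v' hv']⟩

theorem d1_d0 (f : GQ → M) : d1 (d0 f) = 0 := by
  funext x y z; simp [d1, d0]

theorem d2_d1 (f : GQ → GQ → M) : d2 (d1 f) = 0 := by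
  funext x y z w; simp only [d2, d1, Pi.zero_apply]; abel

theorem d1_add (b b' : GQ → GQ → M) : d1 (b + b') = d1 b + d1 b' := by
  funext x y z; simp only [d1, Pi.add_apply]; abel

theorem d1_sub (b b' : GQ → GQ → M) : d1 (b - b') = d1 b - d1 b' := by
  funext x y z; simp only [d1, Pi.sub_apply]; abel

theorem d1_neg (b : GQ → GQ → M) : d1 (-b) = -d1 b := by
  funext x y z; simp only [d1, Pi.neg_apply]; abel

theorem d1_nsmul (n : ℕ) (b : GQ → GQ → M) : d1 (n • b) = n • d1 b := by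
  funext x y z; simp only [d1, Pi.smul_apply, nsmul_add, nsmul_sub]

theorem d0_add (b b' : GQ → M) : d0 (b + b') = d0 b + d0 b' := by
  funext x y; simp only [d0, Pi.add_apply]; abel

theorem d0_sub (b b' : GQ → M) : d0 (b - b') = d0 b - d0 b' := by
  funext x y; simp only [d0, Pi.sub_apply]; abel

theorem d0_neg (b : GQ → M) : d0 (-b) = -d0 b := by
  funext x y; simp only [d0, Pi.neg_apply]; abel

theorem d0_nsmul (n : ℕ) (b : GQ → M) : d0 (n • b) = n • d0 b := by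
  funext x y; simp only [d0, Pi.smul_apply, nsmul_sub]

/-- levels -/
theorem C0.level {f : GQ → M} (hf : C0 am S W f) : ∃ V ∈ S.carrier, ∀ x y, x⁻¹ * y ∈ V → f y = f x := by
  obtain ⟨V, hV, h⟩ := hf.sm
  refine ⟨V, hV, fun x y hxy => ?_⟩
  have := h x _ hxy
  rwa [mul_inv_cancel_left] at this

end Basic

/-! ### Translation by group elements -/

section Tr

variable {M : Type} [AddCommGroup M] (am : GQ →* AddMonoid.End M)

/-- translation -/
noncomputable def t0 (g : GQ) (f : GQ → M) : GQ → M := fun x => am g (f (g⁻¹ * x))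

/-- translation -/
noncomputable def t1 (g : GQ) (f : GQ → GQ → M) : GQ → GQ → M := fun x y => am g (f (g⁻¹ * x) (g⁻¹ * y))

variable {am} {S : Sys GQ} {W W' : Subgroup GQ}

theorem am_mul (g h : GQ) (x : M) : am (g * h) x = am g (am h x) := by rw [map_mul]; rfl

theorem am_one (x : M) : am 1 x = x := by rw [map_one]; rfl

theorem C0.t0 {f : GQ → M} (hf : C0 am S W' f) {g : GQ} (hg : ∀ u ∈ W', g⁻¹ * u * g ∈ W') :
    C0 am S W' (t0 am g f) := by
  obtain ⟨V, hV, h⟩ := hf.sm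
  refine ⟨fun u hu x => ?_, V, hV, fun x v hv => ?_⟩
  · have h1 : g⁻¹ * (u * x) = (g⁻¹ * u * g) * (g⁻¹ * x) := by group
    simp only [CFT.t0]
    rw [h1, hf.eq _ (hg u hu), ← am_mul, ← am_mul]
    congr 2; group
  · simp only [CFT.t0]
    rw [← mul_assoc, h _ v hv]

theorem C1.t1 {f : GQ → GQ → M} (hf : C1 am S W' f) {g : GQ} (hg : ∀ u ∈ W', g⁻¹ * u * g ∈ W') :
    C1 am S W' (t1 am g f) := by
  obtain ⟨V, hV, h⟩ := hf.sm
  refine ⟨fun u hu x y => ?_, V, hV, fun x y v hv v' hv' => ?_⟩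
  · have h1 : ∀ x, g⁻¹ * (u * x) = (g⁻¹ * u * g) * (g⁻¹ * x) := fun x => by group
    simp only [CFT.t1]
    rw [h1, h1, hf.eq _ (hg u hu), ← am_mul, ← am_mul]
    congr 2; group
  · simp only [CFT.t1]
    rw [← mul_assoc, ← mul_assoc, h _ _ v hv v' hv']

theorem d0_t0 (g : GQ) (f : GQ → M) : d0 (t0 am g f) = t1 am g (d0 f) := by
  funext x y; simp [d0, t0, t1]

end Tr

/-! ### Choosing equivariant functions -/

section Lift

variable {M : Type} [AddCommGroup M] {am : GQ →* AddMonoid.End M} {S : Sys GQ} {W : Subgroup GQ}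

/-- A general lifting lemma. -/
theorem liftN {n : ℕ} (R : (Fin (n + 1) → GQ) → M → Prop)
    (hR : ∀ w ∈ W, ∀ x m, R x m → R (fun i => w * x i) (am w m))
    (hV : ∃ V ∈ S.carrier, ∀ x y, (∀ i, (x i)⁻¹ * y i ∈ V) → ∀ m, R x m → R y m)
    (hex : ∀ x, ∃ m, R x m ∧ ∃ V ∈ S.carrier, ∀ v ∈ V, am v m = m) :
    ∃ f : (Fin (n + 1) → GQ) → M, (∀ w ∈ W, ∀ x, f (fun i => w * x i) = am w (f x)) ∧
      (∃ V ∈ S.carrier, ∀ x y, (∀ i, (x i)⁻¹ * y i ∈ V) → f x = f y) ∧ ∀ x, R x (f x) := by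
  obtain ⟨V, hVS, hV⟩ := hV
  haveI := S.normal V hVS
  haveI := S.finiteIndex V hVS
  haveI : Finite (GQ ⧸ V) := inferInstance
  choose m hm V1 hV1 hfix using fun q : Fin (n + 1) → GQ ⧸ V => hex (fun i => (q i).out)
  obtain ⟨V2, hV2, hle2⟩ := S.exists_le_finite V1 hV1
  obtain ⟨V', hV', hle, hle'⟩ := S.directed V hVS V2 hV2
  haveI := S.normal V' hV'
  letI : MulAction W (Fin (n + 1) → GQ ⧸ V') :=
    { smul := fun h p => fun i => (h : GQ) • p i
      one_smul := fun p => by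
        change (fun i => ((1 : W) : GQ) • p i) = p
        simp
      mul_smul := fun g h p => by
        change (fun i => ((g * h : W) : GQ) • p i) = fun i => (g : GQ) • (h : GQ) • p i
        simp [mul_smul] }
  have hsmul : ∀ (h : W) (p : Fin (n + 1) → GQ ⧸ V'), h • p = fun i => (h : GQ) • p i := fun _ _ => rfl
  obtain ⟨f, hf1, hf2⟩ := exists_equivariant (H := W) (P := Fin (n + 1) → GQ ⧸ V') (M := M)
    (fun h m => am h m) (fun m => am_one m) (fun g h m => am_mul _ _ _)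
    (fun q m => ∀ x : Fin (n + 1) → GQ, (∀ i, (x i : GQ ⧸ V') = q i) → R x m)
    (by
      intro h q m hm x hx
      have h1 := hR h h.2 (fun i => (h : GQ)⁻¹ * x i) m
        (hm _ (fun i => mk_eq_inv_mul _ _ _ (hx i)))
      simpa using h1)
    (by
      intro q
      obtain ⟨x, hx⟩ : ∃ x : Fin (n + 1) → GQ, ∀ i, (x i : GQ ⧸ V') = q i :=
        ⟨fun i => (q i).out, fun i => Quotient.out_eq _⟩
      let q' : Fin (n + 1) → GQ ⧸ V := fun i => (x i : GQ ⧸ V)
      refine ⟨m q', fun y hy => ?_, fun h hh => ?_⟩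
      · refine hV _ _ (fun i => ?_) _ (hm q')
        rw [← QuotientGroup.eq]
        have h1 : (((q' i).out : GQ) : GQ ⧸ V) = q' i := Quotient.out_eq _
        rw [h1, QuotientGroup.eq]
        apply hle
        rw [← QuotientGroup.eq, hx, hy]
      · exact hfix q' h (hle2 q' (hle' (mem_of_smul_eq _ _ (congrFun hh 0)))))
  refine ⟨fun x => f (fun i => (x i : GQ ⧸ V')), fun w hw x => ?_, ⟨V', hV', fun x y hxy => ?_⟩,
    fun x => hf2 _ x fun i => rfl⟩
  · exact hf1 ⟨w, hw⟩ (fun i => (x i : GQ ⧸ V'))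
  · have : (fun i => (x i : GQ ⧸ V')) = fun i => (y i : GQ ⧸ V') := by
      funext i
      rw [QuotientGroup.eq]
      exact hxy i
    simp only [this]

theorem lift0 (R : GQ → M → Prop)
    (hR : ∀ w ∈ W, ∀ x m, R x m → R (w * x) (am w m))
    (hV : ∃ V ∈ S.carrier, ∀ x, ∀ v ∈ V, ∀ m, R x m → R (x * v) m)
    (hex : ∀ x, ∃ m, R x m ∧ ∃ V ∈ S.carrier, ∀ v ∈ V, am v m = m) :
    ∃ f : GQ → M, C0 am S W f ∧ ∀ x, R x (f x) := by
  obtain ⟨V, hVS, hV⟩ := hV
  obtain ⟨f, h1, ⟨V', hV', h2⟩, h3⟩ := liftN (n := 0) (am := am) (S := S) (W := W)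
    (fun x m => R (x 0) m) (fun w hw x m h => hR w hw _ _ h)
    ⟨V, hVS, fun x y hxy m h => by
      have := hV (x 0) _ (hxy 0) m h
      rwa [mul_inv_cancel_left] at this⟩ (fun x => hex (x 0))
  refine ⟨fun x => f (fun _ => x), ⟨fun w hw x => h1 w hw _, V', hV', fun x v hv => ?_⟩,
    fun x => h3 (fun _ => x)⟩
  refine (h2 _ _ fun i => ?_).symm
  simpa using hv

theorem lift1 (R : GQ → GQ → M → Prop)
    (hR : ∀ w ∈ W, ∀ x y m, R x y m → R (w * x) (w * y) (am w m))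
    (hV : ∃ V ∈ S.carrier, ∀ x y, ∀ v ∈ V, ∀ v' ∈ V, ∀ m, R x y m → R (x * v) (y * v') m)
    (hex : ∀ x y, ∃ m, R x y m ∧ ∃ V ∈ S.carrier, ∀ v ∈ V, am v m = m) :
    ∃ f : GQ → GQ → M, C1 am S W f ∧ ∀ x y, R x y (f x y) := by
  obtain ⟨V, hVS, hV⟩ := hV
  obtain ⟨f, h1, ⟨V', hV', h2⟩, h3⟩ := liftN (n := 1) (am := am) (S := S) (W := W)
    (fun x m => R (x 0) (x 1) m) (fun w hw x m h => hR w hw _ _ _ h)
    ⟨V, hVS, fun x y hxy m h => by
      have := hV (x 0) (x 1) _ (hxy 0) _ (hxy 1) m h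
      rwa [mul_inv_cancel_left, mul_inv_cancel_left] at this⟩ (fun x => hex (x 0) (x 1))
  refine ⟨fun x y => f ![x, y], ⟨fun w hw x y => ?_, V', hV', fun x y v hv v' hv' => ?_⟩,
    fun x y => h3 ![x, y]⟩
  · rw [← h1 w hw, vmul2]
  · refine (h2 _ _ fun i => ?_).symm
    fin_cases i
    · simpa using hv
    · simpa using hv'

end Lift

/-! ### Cohomological triviality -/

section CT

variable {M : Type} [AddCommGroup M] {am : GQ →* AddMonoid.End M} {S : Sys GQ} {W W' : Subgroup GQ}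
  {m : ℕ} {σ : GQ} (h : Cyc m W W' σ) (hS : ∃ V ∈ S.carrier, V ⊓ W ≤ W')

include h

theorem Cyc.conj_inv {g : GQ} (hg : g ∈ W) : ∀ u ∈ W', g⁻¹ * u * g ∈ W' := fun u hu => by
  have := h.conj g⁻¹ (inv_mem hg) u hu
  rwa [inv_inv] at this

/-- the character of a cyclic pair -/
theorem Cyc.exists_char : ∃ ψ : W →* Multiplicative (ZMod m), (∀ w : W, (w : GQ) ∈ W' ↔ ψ w = 1) ∧
    Multiplicative.toAdd (ψ ⟨σ, h.mem⟩) = 1 := by
  haveI : NeZero m := ⟨h.pos.ne'⟩
  choose i hi hi' using fun w : W => h.gen w w.2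
  have huniq : ∀ w : W, ∀ j : ℕ, (σ ^ j)⁻¹ * w ∈ W' → ((i w : ℕ) : ZMod m) = j := by
    intro w j hj
    -- `σ ^ i ≡ σ ^ j`
    have key : ∀ a b : ℕ, a ≤ b → (σ ^ a)⁻¹ * (w : GQ) ∈ W' → (σ ^ b)⁻¹ * (w : GQ) ∈ W' →
        (a : ZMod m) = b := by
      intro a b hab ha hb
      have h1 : (σ ^ (b - a)) = ((σ ^ a)⁻¹ * w) * ((σ ^ b)⁻¹ * w)⁻¹ := by
        have h2 : σ ^ b = σ ^ a * σ ^ (b - a) := by rw [← pow_add]; congr 1; omega
        rw [h2]; group
      have h3 : σ ^ (b - a) ∈ W' := by rw [h1]; exact mul_mem ha (inv_mem hb)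
      rw [h.pow] at h3
      rw [← ZMod.natCast_eq_zero_iff] at h3
      rw [Nat.cast_sub hab, sub_eq_zero] at h3
      exact h3.symm
    rcases le_total (i w) j with hle | hle
    · exact key _ _ hle (hi' w) hj
    · exact (key _ _ hle hj (hi' w)).symm
  let f : W → ZMod m := fun w => (i w : ZMod m)
  have hmul : ∀ v w : W, f (v * w) = f v + f w := by
    intro v w
    have h1 : (σ ^ (i v + i w))⁻¹ * ((v * w : W) : GQ) ∈ W' := by
      have h2 : (σ ^ (i v + i w))⁻¹ * ((v * w : W) : GQ) =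
          ((σ ^ i w)⁻¹ * ((σ ^ i v)⁻¹ * v) * σ ^ i w) * ((σ ^ i w)⁻¹ * w) := by
        rw [pow_add, Subgroup.coe_mul]; group
      rw [h2]
      exact mul_mem (h.conj_inv (pow_mem h.mem _) _ (hi' v)) (hi' w)
    change ((i (v * w) : ℕ) : ZMod m) = _
    rw [huniq _ _ h1]
    push_cast; rfl
  have hone : f 1 = 0 := by
    have := huniq 1 0 (by simp)
    rw [Nat.cast_zero] at this
    exact this
  have hone' : Multiplicative.ofAdd (f 1) = 1 := by rw [hone]; rfl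
  have hmul' : ∀ v w, Multiplicative.ofAdd (f (v * w)) =
      Multiplicative.ofAdd (f v) * Multiplicative.ofAdd (f w) := fun v w => by rw [hmul]; rfl
  refine ⟨{ toFun := fun w => Multiplicative.ofAdd (f w), map_one' := hone', map_mul' := hmul' },
    fun w => ?_, ?_⟩
  · change _ ↔ Multiplicative.ofAdd (f w) = 1
    rw [ofAdd_eq_one]
    constructor
    · intro hw
      have := huniq w 0 (by simpa using hw)
      rw [Nat.cast_zero] at this
      exact this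
    · intro hw
      have h1 : m ∣ i w := (ZMod.natCast_eq_zero_iff _ _).1 hw
      have h2 := Nat.eq_zero_of_dvd_of_lt h1 (hi w)
      have h3 := hi' w
      rw [h2, pow_zero, inv_one, one_mul] at h3
      exact h3
  · change f ⟨σ, h.mem⟩ = 1
    have := huniq ⟨σ, h.mem⟩ 1 (by simp)
    rw [Nat.cast_one] at this
    exact this

include hS

/-- an equivariant function to `ZMod m` -/
theorem Cyc.exists_tau : ∃ τ : GQ → ZMod m, (∀ x, τ (σ * x) = τ x + 1) ∧ (∀ u ∈ W', ∀ x, τ (u * x) = τ x) ∧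
    (∃ V ∈ S.carrier, ∀ x, ∀ v ∈ V, τ (x * v) = τ x) ∧
    ∀ ψ : W →* Multiplicative (ZMod m), (∀ w : W, (w : GQ) ∈ W' ↔ ψ w = 1) →
      Multiplicative.toAdd (ψ ⟨σ, h.mem⟩) = 1 → ∀ (w : W) x, τ (w * x) = Multiplicative.toAdd (ψ w) + τ x := by
  classical
  obtain ⟨ψ, h1, h2⟩ := h.exists_char
  obtain ⟨V, hVS, hV⟩ := hS
  haveI := S.normal V hVS
  obtain ⟨f, hf1, -⟩ := exists_equivariant (H := W) (P := GQ ⧸ V) (M := ZMod m)
    (fun w c => Multiplicative.toAdd (ψ w) + c) (fun c => by simp) (fun g h c => by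
      rw [map_mul, toAdd_mul, add_assoc]) (fun _ _ => True) (fun _ _ _ _ => trivial)
    (fun y => ⟨0, trivial, fun w hw => by
      have h3 : (w : GQ) ∈ V := mem_of_smul_eq _ _ hw
      have h4 := (h1 w).1 (hV ⟨h3, w.2⟩)
      rw [h4, toAdd_one, zero_add]⟩)
  have hall : ∀ (w : W) x, f (((w * x : GQ) : GQ ⧸ V)) = Multiplicative.toAdd (ψ w) + f (x : GQ ⧸ V) :=
    fun w x => hf1 w (x : GQ ⧸ V)
  refine ⟨fun x => f (x : GQ ⧸ V), fun x => ?_, fun u hu x => ?_, ⟨V, hVS, fun x v hv => ?_⟩, ?_⟩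
  · have := hall ⟨σ, h.mem⟩ x
    rw [h2] at this
    rw [add_comm]; exact this
  · have := hall ⟨u, h.le hu⟩ x
    rw [(h1 _).1 hu, toAdd_one, zero_add] at this
    exact this
  · have : ((x * v : GQ) : GQ ⧸ V) = (x : GQ ⧸ V) := by
      rw [eq_comm, QuotientGroup.eq, inv_mul_cancel_left]; exact hv
    simp only [this]
  · intro ψ' h1' h2' w x
    have hψ : ψ' = ψ := by
      refine MonoidHom.ext fun v => ?_
      obtain ⟨i, hi, hi'⟩ := h.gen v v.2
      have e1 : v = (⟨σ, h.mem⟩ : W) ^ i * ⟨(σ ^ i)⁻¹ * v, h.le hi'⟩ := by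
        apply Subtype.ext
        simp
      have a1 := (h1 ⟨(σ ^ i)⁻¹ * v, h.le hi'⟩).1 hi'
      have a2 := (h1' ⟨(σ ^ i)⁻¹ * v, h.le hi'⟩).1 hi'
      have e3 : ψ' ⟨σ, h.mem⟩ = ψ ⟨σ, h.mem⟩ :=
        Multiplicative.toAdd.injective (h2'.trans h2.symm)
      rw [e1, map_mul, map_mul, a1, a2, map_pow, map_pow, e3]
    rw [hψ]
    exact hall w x

end CT

section CTE

variable {M : Type} [AddCommGroup M] (am : GQ →* AddMonoid.End M) {P : Type} [MulAction GQ P]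

/-- the norm of a function -/
noncomputable def nmF (m : ℕ) (σ : GQ) (a : P → M) (x : P) : M :=
  ∑ j ∈ Finset.range m, am (σ ^ j) (a ((σ ^ j)⁻¹ • x))

/-- partial norms -/
noncomputable def ctE {m : ℕ} (σ : GQ) (τ : P → ZMod m) (a : P → M) (x : P) : M :=
  -nmF am (τ x).val σ a x

variable {am} {W W' : Subgroup GQ} {m : ℕ} {σ : GQ} (h : Cyc m W W' σ) {τ : P → ZMod m}
  (hτσ : ∀ x, τ (σ • x) = τ x + 1) (hτu : ∀ u ∈ W', ∀ x, τ (u • x) = τ x) {a : P → M}
  (ha : ∀ u ∈ W', ∀ x, a (u • x) = am u (a x))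

include h ha

theorem Cyc.nmF_equiv (k : ℕ) {u : GQ} (hu : u ∈ W') (x : P) :
    nmF am k σ a (u • x) = am u (nmF am k σ a x) := by
  rw [nmF, nmF, map_sum]
  refine Finset.sum_congr rfl fun j _ => ?_
  have h1 : (σ ^ j)⁻¹ • u • x = ((σ ^ j)⁻¹ * u * σ ^ j) • (σ ^ j)⁻¹ • x := by
    rw [smul_smul, smul_smul]; congr 1; group
  rw [h1, ha _ (h.conj_inv (pow_mem h.mem j) u hu), ← am_mul, ← am_mul]
  congr 2; group

theorem Cyc.nmF_sigma (x : P) : am σ (nmF am m σ a (σ⁻¹ • x)) = nmF am m σ a x := by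
  have h1 : ∀ k : ℕ, am σ (nmF am k σ a (σ⁻¹ • x)) + a x = nmF am (k + 1) σ a x := by
    intro k
    rw [nmF, nmF, Finset.sum_range_succ', map_sum]
    congr 1
    · refine Finset.sum_congr rfl fun j _ => ?_
      rw [← am_mul, ← pow_succ', smul_smul]
      congr 3
      rw [pow_succ']; group
    · simp [am_one]
  have h2 := h1 m
  have h3 : nmF am (m + 1) σ a x = nmF am m σ a x + a x := by
    rw [nmF, Finset.sum_range_succ]
    congr 1
    have h4 : (σ ^ m) ∈ W' := (h.pow m).2 dvd_rfl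
    rw [ha _ (inv_mem h4), ← am_mul, mul_inv_cancel, am_one]
  rw [h3] at h2
  exact add_right_cancel h2

include hτu

theorem Cyc.ctE_equiv {u : GQ} (hu : u ∈ W') (x : P) : ctE am σ τ a (u • x) = am u (ctE am σ τ a x) := by
  rw [ctE, ctE, hτu u hu, h.nmF_equiv ha _ hu, map_neg]

include hτσ

theorem Cyc.ctE_diff (hN : ∀ x, nmF am m σ a x = 0) (x : P) :
    am σ (ctE am σ τ a (σ⁻¹ • x)) - ctE am σ τ a x = a x := by
  haveI : NeZero m := ⟨h.pos.ne'⟩
  have h0 : τ (σ⁻¹ • x) + 1 = τ x := by rw [← hτσ, smul_inv_smul]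
  have h1 : ∀ k : ℕ, am σ (nmF am k σ a (σ⁻¹ • x)) = nmF am (k + 1) σ a x - a x := by
    intro k
    rw [nmF, nmF, Finset.sum_range_succ', map_sum, eq_sub_iff_add_eq]
    congr 1
    · refine Finset.sum_congr rfl fun j _ => ?_
      rw [← am_mul, ← pow_succ', smul_smul]
      congr 3
      rw [pow_succ']; group
    · simp [am_one]
  rw [ctE, ctE, map_neg, h1]
  by_cases hx : (τ (σ⁻¹ • x)).val + 1 = m
  · have h2 : τ x = 0 := by
      rw [← h0, ← ZMod.natCast_zmod_val (τ (σ⁻¹ • x)), ← Nat.cast_succ, Nat.succ_eq_add_one, hx]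
      simp
    rw [hx, hN, h2]
    simp [nmF]
  · have hlt : (τ (σ⁻¹ • x)).val + 1 < m := lt_of_le_of_ne (ZMod.val_lt _) hx
    have h2 : (τ x).val = (τ (σ⁻¹ • x)).val + 1 := by
      rw [← h0]
      have h3 : τ (σ⁻¹ • x) + 1 = (((τ (σ⁻¹ • x)).val + 1 : ℕ) : ZMod m) := by
        push_cast; rw [ZMod.natCast_zmod_val]
      rw [h3, ZMod.val_natCast, Nat.mod_eq_of_lt hlt]
    rw [h2]; abel

end CTE

section CTN

variable {M : Type} [AddCommGroup M] {am : GQ →* AddMonoid.End M} {P : Type} [MulAction GQ P]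
  {W W' : Subgroup GQ} {m : ℕ} {σ : GQ} (h : Cyc m W W' σ) {τ : P → ZMod m}
  (hτσ : ∀ x, τ (σ • x) = τ x + 1) (hτu : ∀ u ∈ W', ∀ x, τ (u • x) = τ x) {z : P → M}
  (hz : ∀ w ∈ W, ∀ x, z (w • x) = am w (z x))

include h hτσ hτu hz

open Classical in
theorem Cyc.nmF_surj : (∀ u ∈ W', ∀ x, (fun x => if τ x = 0 then z x else 0 : P → M) (u • x) =
      am u ((fun x => if τ x = 0 then z x else 0 : P → M) x)) ∧
    ∀ x, nmF am m σ (fun x => if τ x = 0 then z x else 0) x = z x := by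
  haveI : NeZero m := ⟨h.pos.ne'⟩
  constructor
  · intro u hu x
    simp only [hτu u hu, hz u (h.le hu)]
    split_ifs
    · rfl
    · rw [map_zero]
  · intro x
    have h1 : ∀ j : ℕ, τ ((σ ^ j)⁻¹ • x) = τ x - j := by
      intro j
      induction j with
      | zero => simp
      | succ j ih =>
        have h2 : τ (σ • (σ ^ (j + 1))⁻¹ • x) = τ ((σ ^ j)⁻¹ • x) := by
          rw [smul_smul]; congr 2; rw [pow_succ]; group
        rw [hτσ, ih] at h2
        rw [eq_sub_iff_add_eq.2 h2]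
        push_cast; ring
    rw [nmF, Finset.sum_eq_single (τ x).val]
    · have h2 : τ ((σ ^ (τ x).val)⁻¹ • x) = 0 := by
        rw [h1, ZMod.natCast_zmod_val, sub_self]
      simp only [h2, if_true]
      rw [hz _ (inv_mem (pow_mem h.mem _)), ← am_mul, mul_inv_cancel, am_one]
    · intro j hj hne
      have h2 : τ ((σ ^ j)⁻¹ • x) ≠ 0 := by
        rw [h1]
        intro h3
        apply hne
        rw [sub_eq_zero] at h3
        rw [h3, ZMod.val_natCast, Nat.mod_eq_of_lt (Finset.mem_range.1 hj)]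
      simp only [h2, if_false, map_zero]
    · intro h2
      exact absurd (Finset.mem_range.2 (ZMod.val_lt _)) h2

end CTN

end Fermat.Agent.CFT
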