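import Fermat.Agent.CFT.MC

/-!
# Hilbert 90 and the cyclic lemma
-/

set_option autoImplicit false
set_option linter.unusedSectionVars false
set_option linter.unusedVariables false
set_option linter.style.haveILetI false

namespace Fermat.Agent.CFT

open Module

section H90

variable {S : Sys GQ} (hSo : ∀ V ∈ S.carrier, IsOpen (V : Set GQ)) {W : Subgroup GQ}

include hSo

/-- **Hilbert 90** for smooth cochains. -/
theorem H90 {b : GQ → GQ → Ma} (hb : C1 ac S W b) (hd : d1 b = 0) : ∃ f, C0 ac S W f ∧ d0 f = b := by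
  classical
  obtain ⟨V, hVS, hV⟩ := hb.sm
  haveI hN := S.normal V hVS
  haveI := S.finiteIndex V hVS
  have hcoc : ∀ x y z, b x z = b x y + b y z := fun x y z => by
    have := congrFun (congrFun (congrFun hd x) y) z
    simp only [d1, Pi.zero_apply] at this
    have h2 : b x y + b y z - b x z = 0 := by rw [← this]; abel
    exact (sub_eq_zero.1 h2).symm
  have hVcl : IsClosed (V : Set GQ) := Subgroup.isClosed_of_isOpen V (hSo V hVS)
  let E := IntermediateField.fixedField V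
  have hE : E.fixingSubgroup = V := fixing_fixed hVcl
  haveI : Finite (W ⧸ V.subgroupOf W) := inferInstance
  letI := Fintype.ofFinite (W ⧸ V.subgroupOf W)
  -- characters
  let χ : (W ⧸ V.subgroupOf W) → E →* Qb := fun q =>
    (((q.out : W) : GQ) : Qb →* Qb).comp (algebraMap E Qb : E →* Qb)
  have hχ : Function.Injective χ := by
    intro q q' hqq
    have key : ∀ g : GQ, (∀ t ∈ E, g t = t) → g ∈ V := fun g hg => by
      have h1 := (IntermediateField.mem_fixingSubgroup_iff E g).2 hg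
      rwa [hE] at h1
    rw [← QuotientGroup.out_eq' q, ← QuotientGroup.out_eq' q', QuotientGroup.eq]
    apply key
    intro t ht
    have h1 := congrArg (fun f : E →* Qb => f ⟨t, ht⟩) hqq
    change ((q.out : W) : GQ) t = ((q'.out : W) : GQ) t at h1
    change ((q.out : W) : GQ)⁻¹ (((q'.out : W) : GQ) t) = t
    rw [← h1]
    exact ((q.out : W) : GQ).symm_apply_apply t
  have hli := (linearIndependent_monoidHom E Qb).comp χ hχ
  rw [Fintype.linearIndependent_iff] at hli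
  let φ : W → E → Qb := fun w t => vl (b 1 w) * (w : GQ) (t : Qb)
  have hφ : ∀ (w : W) (t : E), φ ((w : W ⧸ V.subgroupOf W).out) t = φ w t := by
    intro w t
    have h1 : (w : W)⁻¹ * (w : W ⧸ V.subgroupOf W).out ∈ V.subgroupOf W := by
      rw [← QuotientGroup.eq]; exact (QuotientGroup.out_eq' _).symm
    set v := (w : W)⁻¹ * (w : W ⧸ V.subgroupOf W).out with hv
    have h3 : ((w : W ⧸ V.subgroupOf W).out : W) = w * v := by rw [hv]; group
    rw [h3]
    change vl (b 1 ((w * v : W) : GQ)) * ((w : GQ) * (v : GQ)) (t : Qb) = _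
    have h4 : b 1 ((w * v : W) : GQ) = b 1 w := by
      have := hV 1 w 1 (one_mem _) v h1
      rw [mul_one] at this
      exact this
    have h5 : (v : GQ) (t : Qb) = t := t.2 ⟨v, h1⟩
    rw [h4]
    change _ * (w : GQ) ((v : GQ) (t : Qb)) = _
    rw [h5]
  obtain ⟨t, ht⟩ : ∃ t : E, ∑ q : W ⧸ V.subgroupOf W, φ q.out t ≠ 0 := by
    by_contra hcon
    push Not at hcon
    have h1 := hli (fun q => vl (b 1 ((q.out : W) : GQ))) (by
      funext t
      have := hcon t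
      simpa [χ, φ] using this) ((1 : W) : W ⧸ V.subgroupOf W)
    exact vl_ne_zero _ h1
  set y : Qb := ∑ q : W ⧸ V.subgroupOf W, φ q.out t with hy
  have hw : ∀ w : W, vl (b 1 w) * (w : GQ) y = y := by
    intro w
    rw [hy, map_sum, Finset.mul_sum]
    refine Fintype.sum_equiv (MulAction.toPerm w) _ _ fun q => ?_
    obtain ⟨h, rfl⟩ := QuotientGroup.mk_surjective q
    change _ = φ ((w * h : W) : W ⧸ V.subgroupOf W).out t
    rw [hφ, hφ]
    change vl (b 1 w) * (w : GQ) (vl (b 1 h) * (h : GQ) (t : Qb)) =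
      vl (b 1 ((w : GQ) * (h : GQ))) * ((w : GQ) * (h : GQ)) (t : Qb)
    have h1 : b 1 ((w : GQ) * (h : GQ)) = b 1 w + ac w (b 1 h) := by
      rw [hcoc 1 w, ← hb.eq w w.2, mul_one]
    rw [h1, vl_add, vl_ac, map_mul, mul_assoc]
    rfl
  let e0 : Ma := -mk0 y ht
  have he0 : ∀ w : W, ac w e0 - e0 = b 1 w := by
    intro w
    apply vl_inj.1
    have h1 := hw w
    have h2 : (w : GQ) y ≠ 0 := (_root_.map_ne_zero _).2 ht
    simp only [e0, vl_sub, vl_ac, vl_neg, vl_mk0, map_inv₀]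
    field_simp
    exact h1.symm.trans (mul_comm _ _)
  refine ⟨fun x => e0 + b 1 x, ⟨fun w hw x => ?_, V, hVS, fun x v hv => ?_⟩, ?_⟩
  · have h1 := he0 ⟨w, hw⟩
    change e0 + b 1 (w * x) = ac w (e0 + b 1 x)
    rw [hcoc 1 w, map_add, ← hb.eq w hw, mul_one, ← h1]
    change e0 + ((ac w e0 - e0) + _) = _
    abel
  · change e0 + b 1 (x * v) = e0 + b 1 x
    have := hV 1 x 1 (one_mem _) v hv
    rw [mul_one] at this
    rw [this]
  · funext x z
    simp only [d0]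
    rw [hcoc 1 x z]; abel

end H90

/-! ### The cyclic lemma -/

section Cyclic

/-- The invariant of a class split by a cyclic extension. -/
def ZR (S : Sys GQ) (m : ℕ) (W' : Subgroup GQ) (σ : GQ) (c : GQ → GQ → GQ → Ma) (z : Ma) : Prop :=
  ∃ b, C1 ac S W' b ∧ d1 b = c ∧ ∃ a, C0 ac S W' a ∧ d0 a = t1 ac σ b - b ∧
    ∀ x, nmF (P := GQ) ac m σ a x = z

variable {S : Sys GQ} {W W' : Subgroup GQ} {m : ℕ} {σ : GQ} {c c' : GQ → GQ → GQ → Ma} {z z' : Ma}

theorem nmF_add (k : ℕ) (a a' : GQ → Ma) (x : GQ) :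
    nmF (P := GQ) ac k σ (a + a') x = nmF (P := GQ) ac k σ a x + nmF (P := GQ) ac k σ a' x := by
  simp [nmF, Finset.sum_add_distrib]

theorem nmF_sub (k : ℕ) (a a' : GQ → Ma) (x : GQ) :
    nmF (P := GQ) ac k σ (a - a') x = nmF (P := GQ) ac k σ a x - nmF (P := GQ) ac k σ a' x := by
  simp [nmF, Finset.sum_sub_distrib]

theorem nmF_neg (k : ℕ) (a : GQ → Ma) (x : GQ) :
    nmF (P := GQ) ac k σ (-a) x = -nmF (P := GQ) ac k σ a x := by
  simp [nmF]

theorem nmF_const (k : ℕ) (t : Ma) (x : GQ) : nmF (P := GQ) ac k σ (fun _ => t) x = Cyc.nm k σ t := rfl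

theorem t1_add (b b' : GQ → GQ → Ma) : t1 ac σ (b + b') = t1 ac σ b + t1 ac σ b' := by
  funext x y; simp [t1]

theorem t1_sub (b b' : GQ → GQ → Ma) : t1 ac σ (b - b') = t1 ac σ b - t1 ac σ b' := by
  funext x y; simp [t1]

theorem t1_neg (b : GQ → GQ → Ma) : t1 ac σ (-b) = -t1 ac σ b := by
  funext x y; simp [t1]

theorem ZR.add (h : ZR S m W' σ c z) (h' : ZR S m W' σ c' z') : ZR S m W' σ (c + c') (z + z') := by
  obtain ⟨b, hb, rfl, a, ha, hd, hn⟩ := h
  obtain ⟨b', hb', rfl, a', ha', hd', hn'⟩ := h'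
  refine ⟨b + b', hb.add hb', d1_add _ _, a + a', ha.add ha', ?_, fun x => ?_⟩
  · rw [d0_add, hd, hd', t1_add]; abel
  · rw [nmF_add, hn, hn']

theorem ZR.neg (h : ZR S m W' σ c z) : ZR S m W' σ (-c) (-z) := by
  obtain ⟨b, hb, rfl, a, ha, hd, hn⟩ := h
  refine ⟨-b, hb.neg, d1_neg _, -a, ha.neg, ?_, fun x => ?_⟩
  · rw [d0_neg, hd, t1_neg]; abel
  · rw [nmF_neg, hn]

theorem C0.zero {M : Type} [AddCommGroup M] {am : GQ →* AddMonoid.End M} {S : Sys GQ}
    {W : Subgroup GQ} : C0 am S W 0 :=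
  ⟨fun w _ x => by simp, S.nonempty.choose, S.nonempty.choose_spec, fun x v _ => rfl⟩

theorem C1.zero {M : Type} [AddCommGroup M] {am : GQ →* AddMonoid.End M} {S : Sys GQ}
    {W : Subgroup GQ} : C1 am S W 0 :=
  ⟨fun w _ x y => by simp, S.nonempty.choose, S.nonempty.choose_spec, fun x y v _ v' _ => rfl⟩

theorem ZR.zero : ZR S m W' σ 0 0 :=
  ⟨0, C1.zero, by funext x y z; simp [d1], 0, C0.zero, by funext x y; simp [d0, t1],
    fun x => by simp [nmF]⟩

theorem ZR.nsmul (h : ZR S m W' σ c z) (n : ℕ) : ZR S m W' σ (n • c) (n • z) := by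
  induction n with
  | zero => rw [zero_smul, zero_smul]; exact ZR.zero
  | succ n ih => rw [succ_nsmul, succ_nsmul]; exact ih.add h

theorem C0.const {t : Ma} (ht : t ∈ FA W) : C0 ac S W (fun _ => t) :=
  ⟨fun w hw x => (mem_FA'.1 ht w hw).symm, S.nonempty.choose, S.nonempty.choose_spec, fun x v _ => rfl⟩

variable (h : Cyc m W W' σ)

include h

theorem C1.of_cyc {b : GQ → GQ → Ma} (hb : C1 ac S W' b) (hσ : CFT.t1 ac σ b = b) : C1 ac S W b := by
  refine ⟨fun w hw x y => ?_, hb.sm⟩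
  have h1 : ∀ x y, b (σ * x) (σ * y) = ac σ (b x y) := by
    intro x y
    have := congrFun (congrFun hσ (σ * x)) (σ * y)
    simp only [CFT.t1, inv_mul_cancel_left] at this
    exact this.symm
  have h2 : ∀ (i : ℕ) x y, b (σ ^ i * x) (σ ^ i * y) = ac (σ ^ i) (b x y) := by
    intro i
    induction i with
    | zero => intro x y; simp
    | succ i ih => intro x y; rw [pow_succ, mul_assoc, mul_assoc, ih, h1, ac_mul]
  obtain ⟨i, hi, hi'⟩ := h.gen w hw
  have h3 : ∀ x, w * x = σ ^ i * ((σ ^ i)⁻¹ * w * x) := fun x => by group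
  rw [h3 x, h3 y, h2, hb.eq _ hi', ← ac_mul]
  congr 2; group

theorem d1_t1 {b : GQ → GQ → Ma} (hc : C2 ac S W (d1 b)) : d1 (t1 ac σ b) = d1 b := by
  funext x y z
  have := hc.eq σ h.mem (σ⁻¹ * x) (σ⁻¹ * y) (σ⁻¹ * z)
  simp only [mul_inv_cancel_left] at this
  rw [this]
  simp [d1, t1]

/-- Existence of the invariant. -/
theorem exists_ZR' (hSo : ∀ V ∈ S.carrier, IsOpen (V : Set GQ)) (hc : C2 ac S W c)
    {b : GQ → GQ → Ma} (hb : C1 ac S W' b) (hbc : d1 b = c) : ∃ z ∈ FA W, ∃ a, C0 ac S W' a ∧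
      d0 a = t1 ac σ b - b ∧ ∀ x, nmF (P := GQ) ac m σ a x = z := by
  have hσc : ∀ u ∈ W', σ⁻¹ * u * σ ∈ W' := h.conj_inv h.mem
  have hβ : C1 ac S W' (t1 ac σ b - b) := (hb.t1 hσc).sub hb
  have hdβ : d1 (t1 ac σ b - b) = 0 := by
    rw [d1_sub, d1_t1 h (by rw [hbc]; exact hc), sub_self]
  obtain ⟨a, ha, had⟩ := H90 hSo hβ hdβ
  -- the norm is constant
  have hconst : ∀ x y, nmF (P := GQ) ac m σ a x = nmF (P := GQ) ac m σ a y := by
    intro x y
    have h1 : ∀ k : ℕ, nmF (P := GQ) ac k σ a y - nmF (P := GQ) ac k σ a x =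
        ac (σ ^ k) (b ((σ ^ k)⁻¹ * x) ((σ ^ k)⁻¹ * y)) - b x y := by
      intro k
      induction k with
      | zero => simp [nmF]
      | succ k ih =>
        have e1 : nmF (P := GQ) ac (k + 1) σ a y = nmF (P := GQ) ac k σ a y +
          ac (σ ^ k) (a ((σ ^ k)⁻¹ * y)) := Finset.sum_range_succ _ _
        have e2 : nmF (P := GQ) ac (k + 1) σ a x = nmF (P := GQ) ac k σ a x +
          ac (σ ^ k) (a ((σ ^ k)⁻¹ * x)) := Finset.sum_range_succ _ _
        have e3 := congrFun (congrFun had ((σ ^ k)⁻¹ * x)) ((σ ^ k)⁻¹ * y)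
        simp only [d0, t1, Pi.sub_apply] at e3
        have e4 : ∀ x, σ⁻¹ * ((σ ^ k)⁻¹ * x) = (σ ^ (k + 1))⁻¹ * x := fun x => by
          rw [pow_succ]; group
        rw [e4, e4] at e3
        have e5 := congrArg (ac (σ ^ k)) e3
        rw [map_sub, map_sub, ← ac_mul, ← pow_succ] at e5
        rw [e1, e2]
        have e6 : nmF (P := GQ) ac k σ a y + ac (σ ^ k) (a ((σ ^ k)⁻¹ * y)) -
            (nmF (P := GQ) ac k σ a x + ac (σ ^ k) (a ((σ ^ k)⁻¹ * x))) =
            (nmF (P := GQ) ac k σ a y - nmF (P := GQ) ac k σ a x) +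
            (ac (σ ^ k) (a ((σ ^ k)⁻¹ * y)) - ac (σ ^ k) (a ((σ ^ k)⁻¹ * x))) := by abel
        rw [e6, ih, e5]
        abel
    have h2 := h1 m
    have h3 : σ ^ m ∈ W' := (h.pow m).2 dvd_rfl
    rw [hb.eq _ (inv_mem h3), ← ac_mul, mul_inv_cancel, ac_one, sub_self, sub_eq_zero] at h2
    exact h2.symm
  have ha' : ∀ u ∈ W', ∀ x : GQ, a (u • x) = ac u (a x) := fun u hu x => ha.eq u hu x
  refine ⟨nmF (P := GQ) ac m σ a 1, ?_, a, ha, had, fun x => hconst x 1⟩
  rw [mem_FA']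
  have hu : ∀ u ∈ W', ac u (nmF (P := GQ) ac m σ a 1) = nmF (P := GQ) ac m σ a 1 := fun u hu => by
    rw [← h.nmF_equiv ha' m hu]
    exact hconst _ _
  have hs : ac σ (nmF (P := GQ) ac m σ a 1) = nmF (P := GQ) ac m σ a 1 := by
    have := h.nmF_sigma ha' σ
    rw [smul_eq_mul, inv_mul_cancel] at this
    rw [this]
    exact hconst _ _
  have hsi : ∀ i : ℕ, ac (σ ^ i) (nmF (P := GQ) ac m σ a 1) = nmF (P := GQ) ac m σ a 1 := by
    intro i
    induction i with
    | zero => simp [am_one]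
    | succ i ih => rw [pow_succ, ac_mul, hs, ih]
  intro w hw
  obtain ⟨i, hi, hi'⟩ := h.gen w hw
  have h3 : w = σ ^ i * ((σ ^ i)⁻¹ * w) := by group
  rw [h3, ac_mul, hu _ hi', hsi]

/-- Existence of the invariant. -/
theorem exists_ZR (hSo : ∀ V ∈ S.carrier, IsOpen (V : Set GQ)) (hc : C2 ac S W c)
    {b : GQ → GQ → Ma} (hb : C1 ac S W' b) (hbc : d1 b = c) : ∃ z ∈ FA W, ZR S m W' σ c z := by
  obtain ⟨z, hz, a, ha, had, hn⟩ := exists_ZR' h hSo hc hb hbc
  exact ⟨z, hz, b, hb, hbc, a, ha, had, hn⟩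

/-- Classes whose invariant is a norm are trivial. -/
theorem ZR.trivial (hS : ∃ V ∈ S.carrier, V ⊓ W ≤ W') (hz : ZR S m W' σ c z)
    (hn : z ∈ Cyc.NG m W' σ) : ∃ b, C1 ac S W b ∧ d1 b = c := by
  obtain ⟨b, hb, rfl, a, ha, had, hna⟩ := hz
  obtain ⟨t, ht, rfl⟩ := hn
  obtain ⟨τ, hτσ, hτu, ⟨V, hVS, hV⟩, -⟩ := h.exists_tau hS
  let a' : GQ → Ma := a - fun _ => t
  have ha' : C0 ac S W' a' := ha.sub (C0.const ht)
  have hna' : ∀ x, nmF (P := GQ) ac m σ a' x = 0 := fun x => by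
    rw [nmF_sub, hna, nmF_const, sub_self]
  have ha'' : ∀ u ∈ W', ∀ x : GQ, a' (u • x) = ac u (a' x) := fun u hu x => ha'.eq u hu x
  let e : GQ → Ma := ctE (P := GQ) ac σ τ a'
  have he1 := fun (u : GQ) (hu : u ∈ W') (x : GQ) => h.ctE_equiv (P := GQ) hτu ha'' hu x
  have he2 := h.ctE_diff (P := GQ) hτσ hτu ha'' hna'
  have he : C0 ac S W' e := by
    obtain ⟨V', hV'S, hV'⟩ := ha'.sm
    obtain ⟨V2, hV2S, hle, hle'⟩ := S.directed V hVS V' hV'S
    refine ⟨fun u hu x => he1 u hu x, V2, hV2S, fun x v hv => ?_⟩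
    simp only [e, ctE]
    rw [hV x v (hle hv), nmF, nmF]
    congr 1
    refine Finset.sum_congr rfl fun j _ => ?_
    rw [smul_eq_mul, smul_eq_mul, ← mul_assoc, hV' _ v (hle' hv)]
  have he3 : t0 ac σ e - e = a' := by
    funext x
    exact he2 x
  refine ⟨b - d0 e, C1.of_cyc h (hb.sub he.d0) ?_, ?_⟩
  · have h1 : t1 ac σ (b - d0 e) - (b - d0 e) = (t1 ac σ b - b) - d0 (t0 ac σ e - e) := by
      rw [t1_sub, d0_sub, d0_t0]; abel
    rw [he3, d0_sub, had] at h1
    have h2 : d0 (fun _ : GQ => t) = 0 := by funext x y; simp [d0]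
    rw [h2, sub_zero, sub_self] at h1
    exact sub_eq_zero.1 h1
  · rw [d1_sub, d1_d0, sub_zero]

/-- Conversely. -/
theorem ZR.norm (hSo : ∀ V ∈ S.carrier, IsOpen (V : Set GQ)) (hz : ZR S m W' σ c z)
    {b' : GQ → GQ → Ma} (hb' : C1 ac S W b') (hb'c : d1 b' = c) : z ∈ Cyc.NG m W' σ := by
  obtain ⟨b, hb, rfl, a, ha, had, hna⟩ := hz
  have hb'' := hb'.mono h.le
  obtain ⟨a', ha', had'⟩ := H90 hSo (hb.sub hb'') (by rw [d1_sub, hb'c, sub_self])
  have hσb' : t1 ac σ b' = b' := by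
    funext x y
    simp only [t1]
    rw [hb'.eq _ (inv_mem h.mem), ac_ac_inv]
  -- `a - (σ a' - a')` is constant
  have h1 : d0 (a - (t0 ac σ a' - a')) = 0 := by
    rw [d0_sub, d0_sub, d0_t0, had', had, t1_sub, hσb']; abel
  have h2 : ∀ x y, (a - (t0 ac σ a' - a')) x = (a - (t0 ac σ a' - a')) y := fun x y => by
    have := congrFun (congrFun h1 y) x
    simp only [d0, Pi.zero_apply] at this
    exact sub_eq_zero.1 this
  have h3 : C0 ac S W' (a - (t0 ac σ a' - a')) :=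
    ha.sub ((ha'.t0 (h.conj_inv h.mem)).sub ha')
  refine ⟨(a - (t0 ac σ a' - a')) 1, ?_, ?_⟩
  · rw [mem_FA']
    intro u hu
    rw [← h3.eq u hu]
    exact h2 _ _
  · have h4 : (fun _ : GQ => (a - (t0 ac σ a' - a')) 1) = (a - (t0 ac σ a' - a')) := by
      funext x; exact h2 _ _
    rw [← nmF_const m _ 1, h4, nmF_sub, hna]
    have h5 : nmF (P := GQ) ac m σ (t0 ac σ a' - a') 1 = 0 := by
      have h6 : ∀ k : ℕ, nmF (P := GQ) ac k σ (t0 ac σ a' - a') 1 = ac (σ ^ k) (a' ((σ ^ k)⁻¹ * 1)) - a' 1 := by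
        intro k
        induction k with
        | zero => simp [nmF]
        | succ k ih =>
          have e1 : nmF (P := GQ) ac (k + 1) σ (t0 ac σ a' - a') 1 =
            nmF (P := GQ) ac k σ (t0 ac σ a' - a') 1 +
            ac (σ ^ k) ((t0 ac σ a' - a') ((σ ^ k)⁻¹ * 1)) := Finset.sum_range_succ _ _
          rw [e1, ih]
          simp only [Pi.sub_apply, t0, map_sub]
          rw [← ac_mul, ← pow_succ]
          have e4 : σ⁻¹ * ((σ ^ k)⁻¹ * 1) = (σ ^ (k + 1))⁻¹ * 1 := by rw [pow_succ]; group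
          rw [e4]; abel
      rw [h6]
      have h7 : σ ^ m ∈ W' := (h.pow m).2 dvd_rfl
      rw [ha'.eq _ (inv_mem h7), ← ac_mul, mul_inv_cancel, ac_one, sub_self]
    rw [h5, sub_zero]

end Cyclic

end Fermat.Agent.CFT
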