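import Fermat.Agent.CFT.Unr3

/-!
# Unramified extensions III
-/

set_option autoImplicit false
set_option linter.unusedSectionVars false
set_option linter.unusedVariables false
set_option linter.style.haveILetI false

namespace Fermat.Agent.CFT

open Module Fermat.Agent.Places
open scoped Pointwise

/-- Cyclic pairs from homomorphisms. -/
theorem cyc_of_hom {G' : Type*} [Group G'] {W : Subgroup GQ} (f : W →* G') (hc : IsCyclic f.range)
    (hfin : Finite f.range) : ∃ σ, Cyc (Nat.card f.range) W (f.ker.map W.subtype) σ := by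
  obtain ⟨⟨_, σ, rfl⟩, hg⟩ := hc.exists_generator
  have hmemker : ∀ w : W, (w : GQ) ∈ f.ker.map W.subtype ↔ f w = 1 := by
    intro w
    constructor
    · rintro ⟨v, hv, hvw⟩
      have : v = w := Subtype.ext hvw
      rw [← this]; exact hv
    · intro h
      exact ⟨w, h, rfl⟩
  have hord : orderOf (f σ) = Nat.card f.range := by
    rw [← orderOf_eq_card_of_forall_mem_zpowers hg]
    exact Subgroup.orderOf_coe (⟨f σ, σ, rfl⟩ : f.range)
  refine ⟨σ, Nat.card_pos, ?_, ?_, σ.2, ?_, ?_⟩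
  · rintro _ ⟨w, -, rfl⟩; exact w.2
  · intro w hw u hu
    obtain ⟨v, hv, rfl⟩ := hu
    refine ⟨⟨w, hw⟩ * v * ⟨w, hw⟩⁻¹, ?_, rfl⟩
    change f v = 1 at hv
    change f _ = 1
    rw [map_mul, map_mul, hv, map_inv, mul_one, mul_inv_cancel]
  · intro w hw
    obtain ⟨k, hk⟩ := hg ⟨f ⟨w, hw⟩, ⟨w, hw⟩, rfl⟩
    have hk' : (f σ) ^ k = f ⟨w, hw⟩ := congrArg Subtype.val hk
    refine ⟨(k % (Nat.card f.range : ℤ)).toNat, ?_, ?_⟩
    · have h1 : 0 ≤ k % (Nat.card f.range : ℤ) := Int.emod_nonneg _ (by exact_mod_cast Nat.card_pos.ne')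
      have h2 := Int.emod_lt_of_pos k (b := (Nat.card f.range : ℤ)) (by exact_mod_cast Nat.card_pos)
      omega
    · have h1 : 0 ≤ k % (Nat.card f.range : ℤ) := Int.emod_nonneg _ (by exact_mod_cast Nat.card_pos.ne')
      have h3 : (σ ^ (k % (Nat.card f.range : ℤ)).toNat)⁻¹ * (⟨w, hw⟩ : W) ∈ f.ker := by
        rw [MonoidHom.mem_ker, map_mul, map_inv, map_pow, ← zpow_natCast, Int.toNat_of_nonneg h1,
          ← hord, zpow_mod_orderOf, hk', inv_mul_cancel]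
      exact ⟨_, h3, rfl⟩
  · intro i
    have := hmemker (σ ^ i)
    rw [Subgroup.coe_pow] at this
    rw [this, map_pow, ← hord]
    exact (orderOf_dvd_iff_pow_eq_one).symm

variable {A : Pl}

/-- Galois groups of unramified extensions. -/
def RR (A : Pl) (n : ℕ) : Subgroup GQ where
  carrier := {g | g ∈ Dec A ∧ ∀ z : Qb, z ^ (A.ell ^ n - 1) = 1 → g z = z}
  mul_mem' {a b} ha hb := ⟨mul_mem ha.1 hb.1, fun z hz => by
    change a (b z) = z
    rw [hb.2 z hz, ha.2 z hz]⟩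
  one_mem' := ⟨one_mem _, fun z _ => rfl⟩
  inv_mem' {a} ha := ⟨inv_mem ha.1, fun z hz => by
    conv_lhs => rw [← ha.2 z hz]
    exact a.symm_apply_apply z⟩

theorem mem_RR {n : ℕ} {g : GQ} : g ∈ RR A n ↔ g ∈ Dec A ∧ ∀ z : Qb, z ^ (A.ell ^ n - 1) = 1 → g z = z :=
  Iff.rfl

theorem RR_le {n m : ℕ} (h : n ∣ m) : RR A m ≤ RR A n := fun g hg => ⟨hg.1, fun z hz => hg.2 z (by
  obtain ⟨k, hk⟩ := Nat.pow_sub_one_dvd_pow_sub_one A.ell h
  rw [hk, pow_mul, hz, one_pow])⟩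

/-- same value groups -/
def SameVal (A : Pl) (W W' : Subgroup GQ) : Prop := ∀ x ∈ FA W', ∃ y ∈ FA W, A.ord (vl y) = A.ord (vl x)

theorem ell_pow_sub_one_ne_zero {n : ℕ} (hn : n ≠ 0) : A.ell ^ n - 1 ≠ 0 := by
  have : 1 < A.ell ^ n := Nat.one_lt_pow hn A.ell_prime.one_lt
  omega

theorem exists_primN {n : ℕ} (hn : n ≠ 0) : ∃ ζ : Qb, IsPrimitiveRoot ζ (A.ell ^ n - 1) :=
  haveI : NeZero ((A.ell ^ n - 1 : ℕ) : Qb) := ⟨Nat.cast_ne_zero.2 (ell_pow_sub_one_ne_zero hn)⟩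
  HasEnoughRootsOfUnity.exists_primitiveRoot Qb (A.ell ^ n - 1)

theorem fix_of_prim {n : ℕ} (hn : n ≠ 0) {ζ : Qb} (hζ : IsPrimitiveRoot ζ (A.ell ^ n - 1)) {g : GQ}
    (hg : g ζ = ζ) : ∀ z : Qb, z ^ (A.ell ^ n - 1) = 1 → g z = z := by
  intro z hz
  haveI : NeZero (A.ell ^ n - 1) := ⟨ell_pow_sub_one_ne_zero hn⟩
  obtain ⟨i, -, rfl⟩ := hζ.eq_pow_of_pow_eq_one hz
  rw [map_pow, hg]

/-- Elements of the decomposition group act on roots of unity as powers of Frobenius. -/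
theorem exists_pow_root {Φ : GQ} (hΦ : IsFr A Φ) {g : GQ} (hg : g ∈ Dec A) {n : ℕ} (hn : n ≠ 0) :
    ∃ i : ℕ, ∀ z : Qb, z ^ (A.ell ^ n - 1) = 1 → g z = (Φ ^ i : GQ) z := by
  obtain ⟨i, hi⟩ := exists_frob_pow hg hn
  have hN := not_dvd_pow_sub_one (A := A) hn
  have hN0 := ell_pow_sub_one_ne_zero (A := A) hn
  refine ⟨i, fun z hz => ?_⟩
  rw [hΦ.root hN hz]
  refine Pl.eq_of_root hN (by rw [← map_pow, hz, map_one])
    (by rw [← pow_mul, mul_comm, pow_mul, hz, one_pow]) (hi z (mem_v_of_root hN0 hz) ?_)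
  have h1 : z ^ A.ell ^ n = z := by
    have h2 : A.ell ^ n = (A.ell ^ n - 1) + 1 := by
      have : 1 ≤ A.ell ^ n := Nat.one_le_pow _ _ A.ell_pos
      omega
    rw [h2, pow_succ, hz, one_mul]
  rw [h1, sub_self]
  exact zero_mem_nonunits A.v

theorem exists_cyc_RR {W : Subgroup GQ} (hW : W ≤ Dec A) {n : ℕ} (hn : n ≠ 0) :
    ∃ m σ, Cyc m W (W ⊓ RR A n) σ := by
  obtain ⟨Φ, hΦ⟩ := exists_isFr A
  haveI : NeZero (A.ell ^ n - 1) := ⟨ell_pow_sub_one_ne_zero hn⟩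
  haveI : NeZero ((A.ell ^ n - 1 : ℕ) : Qb) := ⟨Nat.cast_ne_zero.2 (ell_pow_sub_one_ne_zero hn)⟩
  have hcard := HasEnoughRootsOfUnity.natCard_rootsOfUnity Qb (A.ell ^ n - 1)
  let χ : GQ →* (ZMod (A.ell ^ n - 1))ˣ :=
    { toFun := fun g => modularCyclotomicCharacter Qb hcard (g.toRingEquiv)
      map_one' := map_one (modularCyclotomicCharacter Qb hcard)
      map_mul' := fun g h => map_mul (modularCyclotomicCharacter Qb hcard) g.toRingEquiv h.toRingEquiv }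
  have hspec : ∀ (g : GQ) (t : Qbˣ), t ∈ rootsOfUnity (A.ell ^ n - 1) Qb →
      g (t : Qb) = (t : Qb) ^ ((χ g : (ZMod (A.ell ^ n - 1))ˣ) : ZMod (A.ell ^ n - 1)).val := fun g t ht =>
    modularCyclotomicCharacter.spec Qb hcard g.toRingEquiv ht
  have huniq : ∀ g h : GQ, (∀ z : Qb, z ^ (A.ell ^ n - 1) = 1 → g z = h z) → χ g = χ h := by
    intro g h hgh
    apply Units.ext
    symm
    apply modularCyclotomicCharacter.unique Qb hcard g.toRingEquiv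
    intro t ht
    rw [← hspec h t ht]
    refine hgh t ?_
    have := (mem_rootsOfUnity _ _).1 ht
    rw [← Units.val_pow_eq_pow_val, this, Units.val_one]
  have huniq' : ∀ g h : GQ, χ g = χ h → (∀ z : Qb, z ^ (A.ell ^ n - 1) = 1 → g z = h z) := by
    intro g h hgh z hz
    have hz0 : z ≠ 0 := by
      rintro rfl
      rw [zero_pow (ell_pow_sub_one_ne_zero hn)] at hz
      exact zero_ne_one hz
    have ht : Units.mk0 z hz0 ∈ rootsOfUnity (A.ell ^ n - 1) Qb := by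
      rw [mem_rootsOfUnity]
      apply Units.ext
      simpa using hz
    have h1 := hspec g _ ht
    have h2 := hspec h _ ht
    rw [hgh] at h1
    rw [Units.val_mk0] at h1 h2
    rw [h1, h2]
  let f : W →* (ZMod (A.ell ^ n - 1))ˣ := χ.comp W.subtype
  have hle : f.range ≤ Subgroup.zpowers (χ Φ) := by
    rintro _ ⟨w, rfl⟩
    obtain ⟨i, hi⟩ := exists_pow_root hΦ (hW w.2) hn
    have h1 : χ w = χ (Φ ^ i) := huniq _ _ hi
    change χ w ∈ _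
    rw [h1, map_pow]
    exact Subgroup.npow_mem_zpowers _ _
  haveI : Finite (ZMod (A.ell ^ n - 1))ˣ := inferInstance
  obtain ⟨σ, hσ⟩ := cyc_of_hom f (Subgroup.isCyclic_of_le hle) inferInstance
  refine ⟨Nat.card f.range, σ, ?_⟩
  have h1 : W ⊓ RR A n = f.ker.map W.subtype := by
    ext g
    constructor
    · rintro ⟨hgW, hgD, hg⟩
      refine ⟨⟨g, hgW⟩, ?_, rfl⟩
      have h2 : χ g = χ 1 := huniq _ _ fun z hz => hg z hz
      change χ g = 1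
      rw [h2, map_one]
    · rintro ⟨w, hw, rfl⟩
      refine ⟨w.2, hW w.2, ?_⟩
      have h2 : χ w = χ 1 := by rw [map_one]; exact hw
      exact huniq' _ _ h2
  rw [h1]
  exact hσ

theorem sameVal_RR {W : Subgroup GQ} (hW : W ≤ Dec A) {n : ℕ} (hn : n ≠ 0) {m : ℕ} {σ : GQ}
    (h : Cyc m W (W ⊓ RR A n) σ) : SameVal A W (W ⊓ RR A n) := by
  intro x hx
  obtain ⟨ζ, hζ⟩ := exists_primN (A := A) hn
  have hN := not_dvd_pow_sub_one (A := A) hn
  have hN0 := ell_pow_sub_one_ne_zero (A := A) hn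
  refine unram_value h hW (θ := ζ) (fun w hw => hw.2.2 ζ hζ.pow_eq_one) (mem_v_of_root hN0 hζ.pow_eq_one)
    (fun k hk hkm => ?_) hx
  have hne : (σ ^ k : GQ) ζ ≠ ζ := by
    intro h1
    have h2 : σ ^ k ∈ W ⊓ RR A n :=
      ⟨pow_mem h.mem k, hW (pow_mem h.mem k), fix_of_prim hn hζ h1⟩
    rw [h.pow] at h2
    have := Nat.le_of_dvd hk h2
    omega
  refine ⟨Ne.symm hne, ?_⟩
  have hζ0 : ζ ≠ 0 := hζ.ne_zero hN0
  have h3 : ζ - (σ ^ k : GQ) ζ = ζ * (1 - (σ ^ k : GQ) ζ / ζ) := by field_simp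
  have h4 : (σ ^ k : GQ) ζ / ζ ≠ 1 := fun h => hne ((div_eq_one_iff_eq hζ0).1 h)
  rw [h3, A.ord_mul hζ0 (sub_ne_zero.2 (Ne.symm h4)), Pl.ord_pow_eq_one hN0 hζ.pow_eq_one,
    Pl.ord_one_sub_rootN hN (by
      rw [div_pow, ← map_pow, hζ.pow_eq_one, map_one, div_one]) h4, add_zero]

theorem Cyc.normal {m : ℕ} {W W' : Subgroup GQ} {σ : GQ} (h : Cyc m W W' σ) :
    (W'.subgroupOf W).Normal :=
  ⟨fun u hu w => h.conj w w.2 u hu⟩

/-- Large unramified extensions. -/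
theorem exists_large {W : Subgroup GQ} (hW : IsLoc A W) (q : ℕ) (hq : q ≠ 0) :
    ∃ n : ℕ, n ≠ 0 ∧ ∀ m σ, Cyc m W (W ⊓ RR A n) σ → q ∣ m := by
  obtain ⟨Φ, hΦ⟩ := exists_isFr A
  obtain ⟨a, ha0, -, haW, -⟩ := Subgroup.exists_pow_mem_of_relIndex_ne_zero hW.relIndex hΦ.1
  have hn : a * q ≠ 0 := mul_ne_zero ha0.ne' hq
  refine ⟨a * q, hn, fun m σ h => ?_⟩
  obtain ⟨ζ, hζ⟩ := exists_primN (A := A) hn
  have hN := not_dvd_pow_sub_one (A := A) hn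
  haveI := h.normal
  have h1 : (⟨Φ ^ a, haW⟩ : W) ^ m ∈ (W ⊓ RR A (a * q)).subgroupOf W := by
    have h2 := ((W ⊓ RR A (a * q)).subgroupOf W).pow_index_mem ⟨Φ ^ a, haW⟩
    have h3 : ((W ⊓ RR A (a * q)).subgroupOf W).index = m := h.relIndex
    rwa [h3] at h2
  have h4 : (Φ ^ a) ^ m ∈ W ⊓ RR A (a * q) := h1
  have h5 := h4.2.2 ζ hζ.pow_eq_one
  rw [← pow_mul, hΦ.root hN hζ.pow_eq_one] at h5
  have h6 : ζ ^ (A.ell ^ (a * m) - 1) = 1 := by
    have h7 : A.ell ^ (a * m) = (A.ell ^ (a * m) - 1) + 1 := by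
      have : 1 ≤ A.ell ^ (a * m) := Nat.one_le_pow _ _ A.ell_pos
      omega
    rw [h7, pow_succ] at h5
    exact mul_left_eq_self₀.1 h5 |>.resolve_right (hζ.ne_zero (ell_pow_sub_one_ne_zero hn))
  have h8 := hζ.dvd_of_pow_eq_one _ h6
  have h9 := Nat.pow_sub_one_gcd_pow_sub_one A.ell (a * q) (a * m)
  rw [Nat.gcd_eq_left h8] at h9
  have h10 : a * q = (a * q).gcd (a * m) := by
    have e1 : 1 ≤ A.ell ^ (a * q) := Nat.one_le_pow _ _ A.ell_pos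
    have e2 : 1 ≤ A.ell ^ (a * q).gcd (a * m) := Nat.one_le_pow _ _ A.ell_pos
    exact Nat.pow_right_injective A.ell_prime.two_le (by
      change A.ell ^ _ = A.ell ^ _
      omega)
  have h11 : a * q ∣ a * m := by
    rw [h10]; exact Nat.gcd_dvd_right _ _
  exact Nat.dvd_of_mul_dvd_mul_left ha0 h11

/-- Intermediate cyclic pairs. -/
theorem Cyc.inter {m1 m2 : ℕ} {W W' : Subgroup GQ} {σ : GQ} (h : Cyc (m1 * m2) W W' σ) :
    ∃ W'', W' ≤ W'' ∧ W'' ≤ W ∧ Cyc m1 W W'' σ ∧ Cyc m2 W'' W' (σ ^ m1) := by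
  have hpos := h.pos
  have hm1 : 0 < m1 := Nat.pos_of_ne_zero fun h0 => by rw [h0, zero_mul] at hpos; exact hpos.ne' rfl
  have hm2 : 0 < m2 := Nat.pos_of_ne_zero fun h0 => by rw [h0, mul_zero] at hpos; exact hpos.ne' rfl
  -- `w = σ ^ i u = σ ^ j u'` implies congruence
  have huniq : ∀ (w : GQ) (i j : ℕ), (σ ^ i)⁻¹ * w ∈ W' → (σ ^ j)⁻¹ * w ∈ W' → m1 ∣ i → m1 ∣ j := by
    have key : ∀ (w : GQ) (a b : ℕ), a ≤ b → (σ ^ a)⁻¹ * w ∈ W' → (σ ^ b)⁻¹ * w ∈ W' → m1 ∣ b - a := by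
      intro w a b hab ha hb
      have h1 : (σ ^ (b - a)) = ((σ ^ a)⁻¹ * w) * ((σ ^ b)⁻¹ * w)⁻¹ := by
        have h2 : σ ^ b = σ ^ a * σ ^ (b - a) := by rw [← pow_add]; congr 1; omega
        rw [h2]; group
      have h3 : σ ^ (b - a) ∈ W' := by rw [h1]; exact mul_mem ha (inv_mem hb)
      rw [h.pow] at h3
      exact (dvd_mul_right _ _).trans h3
    intro w i j hi hj hd
    rcases le_total i j with hle | hle
    · have := key w i j hle hi hj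
      exact (Nat.dvd_sub_iff_left hle hd).1 this
    · have := key w j i hle hj hi
      exact (Nat.dvd_sub_iff_right hle hd).1 this
  have hsub : ∀ (a b : GQ) (i j : ℕ), (σ ^ i)⁻¹ * a ∈ W' → (σ ^ j)⁻¹ * b ∈ W' →
      (σ ^ (i + j))⁻¹ * (a * b) ∈ W' := by
    intro a b i j ha hb
    have h2 : (σ ^ (i + j))⁻¹ * (a * b) =
        ((σ ^ j)⁻¹ * ((σ ^ i)⁻¹ * a) * σ ^ j) * ((σ ^ j)⁻¹ * b) := by
      rw [pow_add]; group
    rw [h2]
    exact mul_mem (h.conj_inv' (pow_mem h.mem _) _ ha) hb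
  let W'' : Subgroup GQ :=
    { carrier := {w | w ∈ W ∧ ∃ i : ℕ, m1 ∣ i ∧ (σ ^ i)⁻¹ * w ∈ W'}
      mul_mem' := by
        rintro a b ⟨ha, i, hi, hi'⟩ ⟨hb, j, hj, hj'⟩
        exact ⟨mul_mem ha hb, i + j, dvd_add hi hj, hsub a b i j hi' hj'⟩
      one_mem' := ⟨one_mem _, 0, dvd_zero _, by simp⟩
      inv_mem' := by
        rintro a ⟨ha, i, hi, hi'⟩
        obtain ⟨j, hj, hj'⟩ := h.gen a⁻¹ (inv_mem ha)
        refine ⟨inv_mem ha, j, ?_, hj'⟩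
        have h1 := hsub _ _ i j hi' hj'
        rw [mul_inv_cancel, mul_one, inv_mem_iff, h.pow] at h1
        have h2 : m1 ∣ i + j := (dvd_mul_right _ _).trans h1
        exact (Nat.dvd_add_right hi).1 h2 }
  have hmem : ∀ w, w ∈ W'' ↔ w ∈ W ∧ ∃ i : ℕ, m1 ∣ i ∧ (σ ^ i)⁻¹ * w ∈ W' := fun w => Iff.rfl
  refine ⟨W'', fun w hw => ⟨h.le hw, 0, dvd_zero _, by simpa using hw⟩, fun w hw => hw.1, ?_, ?_⟩
  · refine ⟨hm1, fun w hw => hw.1, ?_, h.mem, ?_, ?_⟩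
    · rintro w hw u ⟨hu, i, hi, hi'⟩
      refine ⟨mul_mem (mul_mem hw hu) (inv_mem hw), i, hi, ?_⟩
      obtain ⟨j, hj, hj'⟩ := h.gen w hw
      -- `w u w⁻¹` modulo `W'`
      have h1 := hsub _ _ j i hj' hi'
      obtain ⟨k, hk, hk'⟩ := h.gen w⁻¹ (inv_mem hw)
      have h2 := hsub _ _ _ k h1 hk'
      have h3 := hsub _ _ j k hj' hk'
      rw [mul_inv_cancel, mul_one, inv_mem_iff] at h3
      have h4 : (σ ^ i)⁻¹ * (w * u * w⁻¹) = σ ^ (j + k) * ((σ ^ (j + i + k))⁻¹ * (w * u * w⁻¹)) := by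
        have h5 : σ ^ (j + i + k) = σ ^ i * σ ^ (j + k) := by rw [← pow_add]; congr 1; omega
        have h6 : σ ^ (j + k) * (σ ^ i * σ ^ (j + k))⁻¹ = (σ ^ i)⁻¹ := by group
        calc (σ ^ i)⁻¹ * (w * u * w⁻¹) =
            (σ ^ (j + k) * (σ ^ i * σ ^ (j + k))⁻¹) * (w * u * w⁻¹) := by rw [h6]
          _ = _ := by rw [h5, mul_assoc]
      rw [h4]
      exact mul_mem h3 h2
    · intro w hw
      obtain ⟨i, hi, hi'⟩ := h.gen w hw
      refine ⟨i % m1, Nat.mod_lt _ hm1, mul_mem (inv_mem (pow_mem h.mem _)) hw, m1 * (i / m1),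
        dvd_mul_right _ _, ?_⟩
      have h1 : (σ ^ (m1 * (i / m1)))⁻¹ * ((σ ^ (i % m1))⁻¹ * w) = (σ ^ i)⁻¹ * w := by
        rw [← mul_assoc, ← mul_inv_rev, ← pow_add, Nat.mod_add_div]
      rw [h1]; exact hi'
    · intro i
      rw [hmem]
      constructor
      · rintro ⟨-, j, hj, hj'⟩
        exact huniq (σ ^ i) j i hj' (by simp) hj
      · intro hi
        exact ⟨pow_mem h.mem _, i, hi, by simp⟩
  · refine ⟨hm2, fun w hw => ⟨h.le hw, 0, dvd_zero _, by simpa using hw⟩, fun w hw u hu =>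
      h.conj w hw.1 u hu, ⟨pow_mem h.mem _, m1, dvd_rfl, by simp⟩, ?_, ?_⟩
    · rintro w ⟨hw, j, hj, hj'⟩
      obtain ⟨i, hi, hi'⟩ := h.gen w hw
      obtain ⟨k, rfl⟩ := huniq w j i hj' hi' hj
      refine ⟨k, Nat.lt_of_mul_lt_mul_left hi, ?_⟩
      rw [← pow_mul]; exact hi'
    · intro i
      rw [← pow_mul, h.pow]
      exact ⟨fun h => Nat.dvd_of_mul_dvd_mul_left hm1 h, fun h => Nat.mul_dvd_mul_left _ h⟩

end Fermat.Agent.CFT
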