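import Fermat.Agent.Sel.GWdef
import Fermat.Agent.CFT.Unr4

/-!
# Auxiliary statements on unramified cocycles
-/

set_option autoImplicit false
set_option linter.unusedSectionVars false
set_option linter.unusedVariables false
set_option linter.style.haveILetI false

noncomputable section

namespace Fermat.Agent.CFT

open Fermat.Agent.Sel

/-- unramified cocycles: cocycles vanishing on the inertia group -/
def urZ {k : Type} [Field k] {V : Type} [AddCommGroup V] [Module k V]
    (r : GQ →* Module.End k V) (A : ValuationSubring Qb) :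
    Submodule k (A.decompositionSubgroup ℚ → V) where
  carrier := {c | c ∈ Z1 r (A.decompositionSubgroup ℚ) ∧
    ∀ σ : A.decompositionSubgroup ℚ, (σ : GQ) ∈ A.inertiaSubgroupIn ℚ → c σ = 0}
  zero_mem' := ⟨Submodule.zero_mem _, fun _ _ => rfl⟩
  add_mem' := fun hc hd => ⟨Submodule.add_mem _ hc.1 hd.1, fun σ hσ => by
    rw [Pi.add_apply, hc.2 σ hσ, hd.2 σ hσ, add_zero]⟩
  smul_mem' := fun t c hc => ⟨Submodule.smul_mem _ t hc.1, fun σ hσ => by
    rw [Pi.smul_apply, hc.2 σ hσ, smul_zero]⟩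

/-- (D) the dimension of the space of unramified cocycles -/
def UrDim (p : ℕ) [Fact p.Prime] : Prop :=
  ∀ (V : Type) [AddCommGroup V] [Module (ZMod p) V] [FiniteDimensional (ZMod p) V]
    (r : GQ →* Module.End (ZMod p) V),
    (∃ F : IntermediateField ℚ Qb, FiniteDimensional ℚ F ∧
      ∀ σ : GQ, (∀ x ∈ F, σ x = x) → r σ = 1) →
    ∀ (v : ℕ) (A : ValuationSubring Qb), v.Prime → A.LiesOverPrime v →
    FiniteDimensional (ZMod p) (urZ r A) ∧
    Module.finrank (ZMod p) ↥(urZ r A ⊔ B1 r (A.decompositionSubgroup ℚ)) =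
      Module.finrank (ZMod p) V

/-- (E) unramified cocycles are orthogonal to each other -/
def UrOrth (p : ℕ) [Fact p.Prime] : Prop :=
  ∀ (V V' : Type) [AddCommGroup V] [Module (ZMod p) V] [AddCommGroup V'] [Module (ZMod p) V']
    [FiniteDimensional (ZMod p) V] [FiniteDimensional (ZMod p) V']
    (r : GQ →* Module.End (ZMod p) V) (r' : GQ →* Module.End (ZMod p) V')
    (B : V →ₗ[ZMod p] V' →ₗ[ZMod p] ZMod p),
    (∃ F : IntermediateField ℚ Qb, FiniteDimensional ℚ F ∧
      ∀ σ : GQ, (∀ x ∈ F, σ x = x) → r σ = 1 ∧ r' σ = 1) →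
    (∀ σ x y, B (r σ x) (r' σ y) = GalRep.cyc p σ * B x y) →
    ∀ (v : ℕ) (A : ValuationSubring Qb), v.Prime → v ≠ p → A.LiesOverPrime v →
    ∀ c ∈ urZ r A, ∀ c' ∈ urZ r' A,
      Cup0 r' B (GalRep.cyc p) (A.decompositionSubgroup ℚ) c c'

end Fermat.Agent.CFT
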