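import Mathlib

/-!
# Additive functions on modular representations
-/

set_option autoImplicit false
set_option linter.unusedSectionVars false
set_option linter.unusedVariables false
set_option linter.style.haveILetI false

open scoped TensorProduct

namespace Fermat.Agent.CFT.AV

noncomputable section

variable {p : ℕ} [Fact p.Prime]

/-- functions on representations -/
abbrev Fn (p : ℕ) [Fact p.Prime] (Γ : Type) [Group Γ] : Type 1 :=
  ∀ (V : Type) [AddCommGroup V] [Module (ZMod p) V], Representation (ZMod p) Γ V → ℤ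

/-- additivity on short exact sequences -/
def Addv {Γ : Type} [Group Γ] (f : Fn p Γ) : Prop :=
  ∀ (A B C : Type) [AddCommGroup A] [Module (ZMod p) A] [AddCommGroup B] [Module (ZMod p) B]
      [AddCommGroup C] [Module (ZMod p) C] [Module.Finite (ZMod p) A] [Module.Finite (ZMod p) B]
      [Module.Finite (ZMod p) C] (ρA : Representation (ZMod p) Γ A) (ρB : Representation (ZMod p) Γ B)
      (ρC : Representation (ZMod p) Γ C) (i : A →ₗ[ZMod p] B) (j : B →ₗ[ZMod p] C),
      (∀ g x, i (ρA g x) = ρB g (i x)) → (∀ g x, j (ρB g x) = ρC g (j x)) →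
      Function.Injective i → Function.Surjective j → (∀ y, j y = 0 ↔ ∃ x, i x = y) →
      f B ρB = f A ρA + f C ρC

variable {Γ : Type} [Group Γ] {f : Fn p Γ} (hf : Addv f)

section basic

variable {A B C : Type} [AddCommGroup A] [Module (ZMod p) A] [AddCommGroup B] [Module (ZMod p) B]
  [AddCommGroup C] [Module (ZMod p) C] [Module.Finite (ZMod p) A] [Module.Finite (ZMod p) B]
  [Module.Finite (ZMod p) C] {ρA : Representation (ZMod p) Γ A} {ρB : Representation (ZMod p) Γ B}
  {ρC : Representation (ZMod p) Γ C}

include hf in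
theorem Addv.zero_aux : f PUnit (1 : Representation (ZMod p) Γ PUnit) = 0 := by
  have h := hf PUnit PUnit PUnit (1 : Representation (ZMod p) Γ PUnit)
    (1 : Representation (ZMod p) Γ PUnit) (1 : Representation (ZMod p) Γ PUnit) 0 0
    (fun _ _ => rfl) (fun _ _ => rfl) (fun _ _ _ => rfl) (fun x => ⟨0, rfl⟩)
    (fun y => ⟨fun _ => ⟨0, rfl⟩, fun _ => rfl⟩)
  omega

include hf in
/-- invariance under isomorphisms -/
theorem Addv.iso (e : A →ₗ[ZMod p] B) (he : ∀ g x, e (ρA g x) = ρB g (e x))
    (hb : Function.Bijective e) : f B ρB = f A ρA := by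
  have h := hf A B PUnit ρA ρB (1 : Representation (ZMod p) Γ PUnit) e 0 he (fun _ _ => rfl)
    hb.1 (fun x => ⟨0, rfl⟩) (fun y => ⟨fun _ => hb.2 y, fun _ => rfl⟩)
  rw [h, hf.zero_aux, add_zero]

include hf in
theorem Addv.subsingleton [Subsingleton A] : f A ρA = 0 := by
  have h := hf.iso (ρA := (1 : Representation (ZMod p) Γ PUnit)) (ρB := ρA) 0
    (fun _ _ => Subsingleton.elim _ _) ⟨fun _ _ _ => rfl, fun y => ⟨0, Subsingleton.elim _ _⟩⟩
  rw [h, hf.zero_aux]

end basic

section tensor

variable {V : Type} [AddCommGroup V] [Module (ZMod p) V] [Module.Finite (ZMod p) V]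
  (ρV : Representation (ZMod p) Γ V)

/-- the additive function `U ↦ f (V ⊗ U)` -/
def tens (ρV : Representation (ZMod p) Γ V) (f : Fn p Γ) : Fn p Γ := fun U _ _ ρU =>
  f (V ⊗[ZMod p] U) (ρV.tprod ρU)

include hf in
theorem Addv.tens : Addv (AV.tens ρV f) := by
  intro A B C _ _ _ _ _ _ _ _ _ ρA ρB ρC i j hi hj hi1 hj1 hij
  have hex : Function.Exact i j := fun y => hij y
  refine hf _ _ _ (ρV.tprod ρA) (ρV.tprod ρB) (ρV.tprod ρC) (LinearMap.lTensor V i)
    (LinearMap.lTensor V j) ?_ ?_ ?_ ?_ ?_
  · intro g x
    induction x using TensorProduct.induction_on with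
    | zero => simp
    | tmul v a =>
      simp only [Representation.tprod_apply, TensorProduct.map_tmul, LinearMap.lTensor_tmul, hi]
    | add x y hx hy => simp only [map_add, hx, hy]
  · intro g x
    induction x using TensorProduct.induction_on with
    | zero => simp
    | tmul v a =>
      simp only [Representation.tprod_apply, TensorProduct.map_tmul, LinearMap.lTensor_tmul, hj]
    | add x y hx hy => simp only [map_add, hx, hy]
  · exact Module.Flat.lTensor_preserves_injective_linearMap i hi1
  · exact LinearMap.lTensor_surjective V hj1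
  · exact fun y => lTensor_exact V hex hj1 y

end tensor

section functions

variable {V : Type} [AddCommGroup V] [Module (ZMod p) V] [Module.Finite (ZMod p) V]
  (ρV : Representation (ZMod p) Γ V)

/-- functions with values in a representation -/
def fr (X : Type) [MulAction Γ X] : Representation (ZMod p) Γ (X → V) where
  toFun g :=
    { toFun := fun φ x => ρV g (φ (g⁻¹ • x))
      map_add' := fun φ ψ => by funext x; simp
      map_smul' := fun c φ => by funext x; simp }
  map_one' := by ext φ x; simp
  map_mul' g h := by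
    refine LinearMap.ext fun φ => funext fun x => ?_
    change ρV (g * h) (φ ((g * h)⁻¹ • x)) = ρV g (ρV h (φ (h⁻¹ • g⁻¹ • x)))
    rw [map_mul, mul_inv_rev, mul_smul]
    rfl

theorem fr_apply (X : Type) [MulAction Γ X] (g : Γ) (φ : X → V) (x : X) :
    fr ρV X g φ x = ρV g (φ (g⁻¹ • x)) := rfl

/-- the permutation representation -/
abbrev pm (p : ℕ) [Fact p.Prime] (Γ : Type) [Group Γ] (X : Type) [MulAction Γ X] :
    Representation (ZMod p) Γ (X → ZMod p) :=
  fr (1 : Representation (ZMod p) Γ (ZMod p)) X

include hf in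
/-- tensor product with a permutation module -/
theorem Addv.tens_pm (X : Type) [Finite X] [MulAction Γ X] :
    AV.tens ρV f (X → ZMod p) (pm p Γ X) = f (X → V) (fr ρV X) := by
  classical
  haveI := Fintype.ofFinite X
  symm
  refine hf.iso (ρA := ρV.tprod (pm p Γ X)) (ρB := fr ρV X)
    (TensorProduct.piScalarRight (ZMod p) (ZMod p) V X).toLinearMap ?_
    (TensorProduct.piScalarRight (ZMod p) (ZMod p) V X).bijective
  intro g x
  induction x using TensorProduct.induction_on with
  | zero => simp
  | tmul v a =>
    simp only [Representation.tprod_apply, TensorProduct.map_tmul, LinearEquiv.coe_coe,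
      TensorProduct.piScalarRight_apply, TensorProduct.piScalarRightHom_tmul]
    funext x
    rw [fr_apply, fr_apply, map_smul]
    rfl
  | add x y hx hy => simp only [map_add, hx, hy]

variable {ρV}

include hf in
/-- isomorphic sets -/
theorem Addv.fr_iso {X Y : Type} [Finite X] [Finite Y] [MulAction Γ X] [MulAction Γ Y] (e : X ≃ Y)
    (he : ∀ (g : Γ) x, e (g • x) = g • e x) : f (Y → V) (fr ρV Y) = f (X → V) (fr ρV X) := by
  refine hf.iso (ρA := fr ρV X) (LinearMap.funLeft (ZMod p) V e.symm) (fun g φ => ?_)
    ((LinearEquiv.funCongrLeft (ZMod p) V e.symm).bijective)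
  funext y
  obtain ⟨x, rfl⟩ := e.surjective y
  rw [fr_apply, LinearMap.funLeft_apply, LinearMap.funLeft_apply, fr_apply, ← he,
    Equiv.symm_apply_apply, Equiv.symm_apply_apply]

include hf in
/-- disjoint unions -/
theorem Addv.fr_sum {X Y : Type} [Finite X] [Finite Y] [MulAction Γ X] [MulAction Γ Y] :
    f (X ⊕ Y → V) (fr ρV (X ⊕ Y)) = f (X → V) (fr ρV X) + f (Y → V) (fr ρV Y) := by
  refine hf (X → V) (X ⊕ Y → V) (Y → V) (fr ρV X) (fr ρV (X ⊕ Y)) (fr ρV Y)
    { toFun := fun φ => Sum.elim φ 0
      map_add' := fun φ ψ => by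
        funext z
        rcases z with z | z
        · rfl
        · exact (add_zero _).symm
      map_smul' := fun c φ => by
        funext z
        rcases z with z | z
        · rfl
        · exact (smul_zero c).symm }
    (LinearMap.funLeft (ZMod p) V Sum.inr) ?_ ?_ ?_ ?_ ?_
  · intro g φ
    funext z
    rcases z with z | z
    · rfl
    · exact (map_zero (ρV g)).symm
  · intro g φ
    rfl
  · intro φ ψ h
    funext x
    exact congrFun h (Sum.inl x)
  · intro φ
    exact ⟨Sum.elim 0 φ, rfl⟩
  · intro φ
    constructor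
    · intro h
      refine ⟨fun x => φ (Sum.inl x), ?_⟩
      funext z
      rcases z with z | z
      · rfl
      · exact (congrFun h z).symm
    · rintro ⟨ψ, rfl⟩
      rfl

include hf in
theorem Addv.fr_empty {X : Type} [IsEmpty X] [MulAction Γ X] : f (X → V) (fr ρV X) = 0 :=
  hf.subsingleton

end functions

end

end Fermat.Agent.CFT.AV
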