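import Fermat.Agent.CFT.NeedA1

/-!
# Reduction of lattices modulo `p`
-/

set_option autoImplicit false
set_option linter.unusedSectionVars false
set_option linter.unusedVariables false
set_option linter.style.haveILetI false

namespace Fermat.Agent.CFT.AV

noncomputable section

variable {p : ℕ} [hp : Fact p.Prime] {Γ : Type} [Group Γ] {L : Type} [AddCommGroup L]
  (α : Γ →* AddMonoid.End L)

/-- presentations of the quotient `C / B` -/
structure Prs (B C : AddSubgroup L) (U : Type) [AddCommGroup U] [Module (ZMod p) U]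
    (ρ : Representation (ZMod p) Γ U) (q : C →+ U) : Prop where
  surj : Function.Surjective q
  ker : ∀ c : C, q c = 0 ↔ (c : L) ∈ B
  act : ∀ (g : Γ) (c c' : C), (c' : L) = α g c → q c' = ρ g (q c)

/-- stable subgroups -/
def Stb (C : AddSubgroup L) : Prop := ∀ (g : Γ), ∀ c ∈ C, α g c ∈ C

variable {α}

/-- the induced representation -/
theorem exists_prs_aux {B C : AddSubgroup L} (hB : Stb α B) (hC : Stb α C) (U : Type)
    [AddCommGroup U] [Module (ZMod p) U] (q : C →+ U) (hq : Function.Surjective q)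
    (hk : ∀ c : C, q c = 0 ↔ (c : L) ∈ B) :
    ∃ (ρ : Representation (ZMod p) Γ U), Prs α B C U ρ q := by
  have hact : ∀ g : Γ, ∃ F : U →+ U, ∀ c c' : C, (c' : L) = α g c → F (q c) = q c' := fun g => by
    have h1 : ∀ x : U, ∃ y : U, ∀ c c' : C, q c = x → (c' : L) = α g c → q c' = y := by
      intro x
      obtain ⟨c, rfl⟩ := hq x
      refine ⟨q ⟨α g c, hC g _ c.2⟩, fun c₁ c' h h' => ?_⟩
      rw [← sub_eq_zero, ← map_sub, hk] at h ⊢
      have h2 := hB g _ h
      rw [AddSubgroup.coe_sub, map_sub] at h2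
      rw [AddSubgroup.coe_sub, h']
      exact h2
    choose F hF using h1
    refine ⟨AddMonoidHom.mk' F fun x y => ?_, fun c c' h => (hF _ c c' rfl h).symm⟩
    obtain ⟨c, rfl⟩ := hq x
    obtain ⟨d, rfl⟩ := hq y
    have e1 := hF (q c) c ⟨α g c, hC g _ c.2⟩ rfl rfl
    have e2 := hF (q d) d ⟨α g d, hC g _ d.2⟩ rfl rfl
    have e3 := hF (q c + q d) (c + d) (⟨α g c, hC g _ c.2⟩ + ⟨α g d, hC g _ d.2⟩) (map_add q c d)
      (map_add (α g) (c : L) (d : L)).symm
    rw [← e1, ← e2, ← e3, map_add]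
  choose F hF using hact
  let F' : Γ → Module.End (ZMod p) U := fun g => AddMonoidHom.toZModLinearMap p (F g)
  have e1 : F' 1 = 1 := by
    refine LinearMap.ext fun u => ?_
    obtain ⟨c, rfl⟩ := hq u
    exact hF 1 c c (by rw [map_one]; rfl)
  have e2 : ∀ g h, F' (g * h) = F' g * F' h := fun g h => by
    refine LinearMap.ext fun u => ?_
    obtain ⟨c, rfl⟩ := hq u
    have h1 := hF h c ⟨α h c, hC h _ c.2⟩ rfl
    have h2 := hF g ⟨α h c, hC h _ c.2⟩ ⟨α g (α h c), hC g _ (hC h _ c.2)⟩ rfl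
    change F (g * h) (q c) = F g (F h (q c))
    rw [h1, h2]
    exact hF _ _ _ (by rw [map_mul]; rfl)
  exact ⟨{ toFun := F', map_one' := e1, map_mul' := e2 }, hq, hk, fun g c c' h => (hF g c c' h).symm⟩

/-- existence of presentations -/
theorem exists_prs {B C : AddSubgroup L} (hB : Stb α B) (hC : Stb α C)
    (hp' : ∀ c ∈ C, p • c ∈ B) [Module.Finite ℤ L] :
    ∃ (U : Type) (_ : AddCommGroup U) (_ : Module (ZMod p) U) (_ : Module.Finite (ZMod p) U)
      (ρ : Representation (ZMod p) Γ U) (q : C →+ U), Prs α B C U ρ q := by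
  have hk : ∀ c : C, QuotientAddGroup.mk' (B.addSubgroupOf C) c = 0 ↔ (c : L) ∈ B := fun c => by
    rw [← AddMonoidHom.mem_ker, QuotientAddGroup.ker_mk', AddSubgroup.mem_addSubgroupOf]
  have hq : Function.Surjective (QuotientAddGroup.mk' (B.addSubgroupOf C)) :=
    QuotientAddGroup.mk'_surjective _
  letI iM : Module (ZMod p) (C ⧸ B.addSubgroupOf C) := AddCommGroup.zmodModule (n := p) (fun u => by
    obtain ⟨c, rfl⟩ := hq u
    rw [← map_nsmul, hk]
    exact hp' _ c.2)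
  haveI : Module.Finite ℤ C := inferInstanceAs (Module.Finite ℤ (AddSubgroup.toIntSubmodule C))
  haveI : Module.Finite ℤ (C ⧸ B.addSubgroupOf C) :=
    Module.Finite.of_surjective (QuotientAddGroup.mk' (B.addSubgroupOf C)).toIntLinearMap hq
  have iF : Module.Finite (ZMod p) (C ⧸ B.addSubgroupOf C) :=
    Module.Finite.of_restrictScalars_finite ℤ (ZMod p) _
  obtain ⟨ρ, h⟩ := exists_prs_aux (p := p) hB hC (C ⧸ B.addSubgroupOf C) _ hq hk
  exact ⟨_, inferInstance, iM, iF, ρ, _, h⟩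

variable {f : Fn p Γ} (hf : Addv f)

section

variable {B C D : AddSubgroup L} {U U' U'' : Type} [AddCommGroup U] [Module (ZMod p) U]
  [AddCommGroup U'] [Module (ZMod p) U'] [AddCommGroup U''] [Module (ZMod p) U'']
  [Module.Finite (ZMod p) U] [Module.Finite (ZMod p) U'] [Module.Finite (ZMod p) U'']
  {ρ : Representation (ZMod p) Γ U} {ρ' : Representation (ZMod p) Γ U'}
  {ρ'' : Representation (ZMod p) Γ U''} {q : C →+ U} {q' : D →+ U'} {q'' : D →+ U''}

/-- the induced map -/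
theorem Prs.exists_map {B' : AddSubgroup L} (P : Prs α B C U ρ q) {q' : D →+ U'}
    (P' : Prs α B' D U' ρ' q') (hCs : Stb α C)
    (φ : C →+ D) (hφ : ∀ c : C, (c : L) ∈ B → (φ c : L) ∈ B')
    (hφα : ∀ (g : Γ) (c c' : C), (c' : L) = α g c → ((φ c' : D) : L) = α g (φ c)) :
    ∃ F : U →ₗ[ZMod p] U', (∀ c, F (q c) = q' (φ c)) ∧ ∀ g x, F (ρ g x) = ρ' g (F x) := by
  have h1 : ∀ x : U, ∃ y : U', ∀ c, q c = x → q' (φ c) = y := by
    intro x
    obtain ⟨c, rfl⟩ := P.surj x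
    refine ⟨q' (φ c), fun c' h => ?_⟩
    rw [← sub_eq_zero, ← map_sub, ← map_sub, P'.ker]
    apply hφ
    rw [← P.ker, map_sub, h, sub_self]
  choose F hF using h1
  have hF' : ∀ c, F (q c) = q' (φ c) := fun c => (hF _ c rfl).symm
  let F' : U →+ U' := AddMonoidHom.mk' F (fun x y => by
    obtain ⟨c, rfl⟩ := P.surj x
    obtain ⟨d, rfl⟩ := P.surj y
    rw [← map_add, hF', hF', hF', map_add, map_add])
  refine ⟨AddMonoidHom.toZModLinearMap p F', hF', fun g x => ?_⟩
  obtain ⟨c, rfl⟩ := P.surj x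
  change F (ρ g (q c)) = ρ' g (F (q c))
  rw [← P.act g c ⟨α g c, hCs g _ c.2⟩ rfl, hF', hF',
    ← P'.act g (φ c) _ (hφα g c ⟨α g c, hCs g _ c.2⟩ rfl)]

include hf in
/-- additivity -/
theorem Prs.add (hBC : B ≤ C) (hCD : C ≤ D) (hCs : Stb α C) (hDs : Stb α D)
    (P : Prs α B C U ρ q) (P' : Prs α B D U' ρ' q') (P'' : Prs α C D U'' ρ'' q'') :
    f U' ρ' = f U ρ + f U'' ρ'' := by
  obtain ⟨i, hi, hi'⟩ := P.exists_map P' hCs (AddSubgroup.inclusion hCD) (fun c h => h)
    (fun g c c' h => h)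
  obtain ⟨j, hj, hj'⟩ := P'.exists_map P'' hDs (AddMonoidHom.id _) (fun c h => hBC h)
    (fun g c c' h => h)
  refine hf U U' U'' ρ ρ' ρ'' i j hi' hj' ?_ ?_ ?_
  · rw [injective_iff_map_eq_zero]
    intro x hx
    obtain ⟨c, rfl⟩ := P.surj x
    rw [hi, P'.ker] at hx
    exact (P.ker c).2 hx
  · intro y
    obtain ⟨d, rfl⟩ := P''.surj y
    exact ⟨q' d, hj d⟩
  · intro y
    obtain ⟨d, rfl⟩ := P'.surj y
    rw [hj]
    constructor
    · intro h
      refine ⟨q ⟨d, (P''.ker d).1 h⟩, ?_⟩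
      rw [hi]
      rfl
    · rintro ⟨x, hx⟩
      obtain ⟨c, rfl⟩ := P.surj x
      rw [hi, ← sub_eq_zero, ← map_sub, P'.ker] at hx
      change q'' d = 0
      rw [P''.ker]
      have h2 := C.sub_mem c.2 (hBC hx)
      have h3 : (c : L) - (((AddSubgroup.inclusion hCD) c - d : D) : L) = d := by
        rw [AddSubgroup.coe_sub, AddSubgroup.coe_inclusion]; abel
      rwa [h3] at h2

include hf in
/-- isomorphic quotients -/
theorem Prs.eq_of {B' : AddSubgroup L} (P : Prs α B C U ρ q) (P' : Prs α B' D U' ρ' q')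
    (hCs : Stb α C) (φ : C →+ D) (hφ : ∀ c : C, (c : L) ∈ B ↔ (φ c : L) ∈ B')
    (hφα : ∀ (g : Γ) (c c' : C), (c' : L) = α g c → ((φ c' : D) : L) = α g (φ c))
    (hs : ∀ d : D, ∃ c : C, ((φ c : D) : L) - d ∈ B') : f U' ρ' = f U ρ := by
  obtain ⟨F, hF, hF'⟩ := P.exists_map P' hCs φ (fun c h => (hφ c).1 h) hφα
  refine hf.iso F hF' ⟨?_, fun y => ?_⟩
  · rw [injective_iff_map_eq_zero]
    intro x hx
    obtain ⟨c, rfl⟩ := P.surj x
    rw [hF, P'.ker, ← hφ] at hx
    exact (P.ker c).2 hx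
  · obtain ⟨d, rfl⟩ := P'.surj y
    obtain ⟨c, hc⟩ := hs d
    refine ⟨q c, ?_⟩
    rw [hF, ← sub_eq_zero, ← map_sub, P'.ker]
    exact hc

end

/-- multiples of `p` -/
def pL (p : ℕ) (C : AddSubgroup L) : AddSubgroup L := C.map (nsmulAddMonoidHom p)

theorem mem_pL {C : AddSubgroup L} {x : L} : x ∈ pL p C ↔ ∃ c ∈ C, p • c = x := Iff.rfl

theorem pL_le {C : AddSubgroup L} : pL p C ≤ C := by
  rintro _ ⟨c, hc, rfl⟩
  exact C.nsmul_mem hc p

theorem pL_mono {B C : AddSubgroup L} (h : B ≤ C) : pL p B ≤ pL p C := by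
  rintro _ ⟨c, hc, rfl⟩
  exact ⟨c, h hc, rfl⟩

theorem Stb.pL {C : AddSubgroup L} (h : Stb α C) : Stb α (AV.pL p C) := by
  rintro g _ ⟨c, hc, rfl⟩
  refine ⟨α g c, h g c hc, ?_⟩
  exact (map_nsmul (α g) p c).symm

theorem stb_top : Stb α (⊤ : AddSubgroup L) := fun _ _ _ => trivial

include hf in
/-- **the class of the reduction of a lattice does not depend on the lattice** -/
theorem lat_eq [Module.Finite ℤ L] (htf : ∀ x : L, p • x = 0 → x = 0) {d : ℕ} (hd : ¬ p ∣ d)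
    {U' : Type} [AddCommGroup U'] [Module (ZMod p) U'] [Module.Finite (ZMod p) U']
    {ρ' : Representation (ZMod p) Γ U'} {q' : (⊤ : AddSubgroup L) →+ U'}
    (P' : Prs α (pL p ⊤) ⊤ U' ρ' q') (k : ℕ) :
    ∀ (C : AddSubgroup L), Stb α C → (∀ x : L, (p ^ k * d) • x ∈ C) →
    ∀ (U : Type) [AddCommGroup U] [Module (ZMod p) U] [Module.Finite (ZMod p) U]
      (ρ : Representation (ZMod p) Γ U) (q : C →+ U), Prs α (pL p C) C U ρ q → f U ρ = f U' ρ' := by
  induction k with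
  | zero =>
    intro C hC hdC U _ _ _ ρ q P
    have hco : IsCoprime (p : ℤ) (d : ℤ) :=
      Nat.isCoprime_iff_coprime.2 ((Nat.Prime.coprime_iff_not_dvd hp.out).2 hd)
    obtain ⟨a, b, hab⟩ := hco
    have h1 : ∀ x : L, x = b • ((d : ℕ) • x) + a • (p • x) := fun x => by
      rw [← natCast_zsmul, ← natCast_zsmul, smul_smul, smul_smul, ← add_smul]
      conv_lhs => rw [← one_zsmul x, ← hab]
      congr 1
      ring
    have hdC' : ∀ x : L, d • x ∈ C := fun x => by simpa using hdC x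
    refine (P.eq_of hf P' hC (AddSubgroup.inclusion le_top) ?_ (fun g c c' h => h) ?_).symm
    · intro c
      constructor
      · exact fun h => pL_mono le_top h
      · rintro ⟨x, -, hx⟩
        refine ⟨x, ?_, hx⟩
        rw [h1 x]
        refine C.add_mem (C.zsmul_mem (hdC' x) b) (C.zsmul_mem ?_ a)
        have : p • x = c := hx
        rw [this]
        exact c.2
    · rintro ⟨x, -⟩
      refine ⟨⟨b • (d • x), C.zsmul_mem (hdC' x) b⟩, -(a • x), trivial, ?_⟩
      change p • (-(a • x)) = b • (d • x) - x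
      rw [smul_neg, smul_comm p a x]
      have h2 := h1 x
      generalize b • (d • x) = y at h2 ⊢
      generalize a • (p • x) = z at h2 ⊢
      rw [h2]
      abel
  | succ k ih =>
    intro C hC hdC U _ _ _ ρ q P
    -- the bigger lattice
    let C₁ : AddSubgroup L := C.comap (nsmulAddMonoidHom p)
    have hC₁m : ∀ x, x ∈ C₁ ↔ p • x ∈ C := fun x => Iff.rfl
    have hCC : C ≤ C₁ := fun x hx => C.nsmul_mem hx p
    have hC₁ : Stb α C₁ := fun g c hc => by
      rw [hC₁m] at hc ⊢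
      have := hC g _ hc
      rwa [map_nsmul] at this
    have hpC₁ : pL p C₁ ≤ C := by
      rintro _ ⟨c, hc, rfl⟩
      exact hc
    obtain ⟨U₁, _, _, _, ρ₁, q₁, P₁⟩ := exists_prs (p := p) (α := α) (B := pL p C₁) (C := C₁)
      hC₁.pL hC₁ (fun c hc => ⟨c, hc, rfl⟩)
    rw [← ih C₁ hC₁ (fun x => by
      rw [hC₁m, smul_smul]
      have := hdC x
      rwa [pow_succ', mul_assoc] at this) U₁ ρ₁ q₁ P₁]
    obtain ⟨U₂, _, _, _, ρ₂, q₂, P₂⟩ := exists_prs (p := p) (α := α) (B := pL p C₁) (C := C)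
      hC₁.pL hC (fun c hc => pL_mono hCC ⟨c, hc, rfl⟩)
    obtain ⟨U₃, _, _, _, ρ₃, q₃, P₃⟩ := exists_prs (p := p) (α := α) (B := C) (C := C₁)
      hC hC₁ (fun c hc => hc)
    obtain ⟨U₄, _, _, _, ρ₄, q₄, P₄⟩ := exists_prs (p := p) (α := α) (B := pL p C) (C := pL p C₁)
      hC.pL hC₁.pL (fun c hc => ⟨c, hpC₁ hc, rfl⟩)
    have e1 := Prs.add hf hpC₁ hCC hC hC₁ P₂ P₁ P₃
    have e2 := Prs.add hf (pL_mono hCC) hpC₁ hC₁.pL hC P₄ P P₂
    have e3 : f U₄ ρ₄ = f U₃ ρ₃ := by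
      refine P₃.eq_of hf P₄ hC₁
        { toFun := fun c => ⟨p • c, c, c.2, rfl⟩
          map_zero' := Subtype.ext (smul_zero _)
          map_add' := fun a b => Subtype.ext (smul_add p (a : L) b) } ?_ ?_ ?_
      · intro c
        change (c : L) ∈ C ↔ p • (c : L) ∈ pL p C
        constructor
        · exact fun h => ⟨c, h, rfl⟩
        · rintro ⟨x, hx, h⟩
          have h1 : p • ((x : L) - c) = 0 := by rw [smul_sub, sub_eq_zero]; exact h
          have h2 := htf _ h1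
          rw [sub_eq_zero] at h2
          rwa [← h2]
      · intro g c c' h
        change p • (c' : L) = α g (p • (c : L))
        rw [h, map_nsmul]
      · rintro ⟨_, c, hc, rfl⟩
        refine ⟨⟨c, hc⟩, ?_⟩
        change p • c - p • c ∈ _
        rw [sub_self]
        exact AddSubgroup.zero_mem _
    rw [e1, e2, e3]
    ring

end

end Fermat.Agent.CFT.AV
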