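import Mathlib

/-!
# Representations with the same character in characteristic zero
-/

set_option autoImplicit false
set_option linter.unusedSectionVars false
set_option linter.unusedVariables false
set_option linter.style.haveILetI false

namespace Fermat.Agent.CFT.AV

noncomputable section

open Representation Module

variable {G : Type} [Group G] [Finite G] {U U' : Type} [AddCommGroup U] [Module ℚ U]
  [Module.Finite ℚ U] [AddCommGroup U'] [Module ℚ U'] [Module.Finite ℚ U']

/-- traces on complements -/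
theorem trace_add (ρ : Representation ℚ G U) {A B : Subrepresentation ρ} (h : IsCompl A B)
    (g : G) : LinearMap.trace ℚ U (ρ g) = LinearMap.trace ℚ _ (A.toRepresentation g) +
      LinearMap.trace ℚ _ (B.toRepresentation g) := by
  have h' : IsCompl A.toSubmodule B.toSubmodule := by
    constructor
    · rw [disjoint_iff, ← Subrepresentation.toSubmodule_inf, disjoint_iff.1 h.1]
      rfl
    · rw [codisjoint_iff, ← Subrepresentation.toSubmodule_sup, codisjoint_iff.1 h.2]
      rfl
  rw [← LinearMap.trace_prodMap', ← LinearMap.trace_conj' _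
    (Submodule.prodEquivOfIsCompl A.toSubmodule B.toSubmodule h')]
  congr 1
  refine LinearMap.ext fun x => ?_
  obtain ⟨y, rfl⟩ := (Submodule.prodEquivOfIsCompl A.toSubmodule B.toSubmodule h').surjective x
  rw [LinearEquiv.conj_apply_apply, LinearEquiv.symm_apply_apply,
    Submodule.coe_prodEquivOfIsCompl', Submodule.coe_prodEquivOfIsCompl', map_add]
  rfl

theorem isCompl_toSub {ρ : Representation ℚ G U} {A B : Subrepresentation ρ} (h : IsCompl A B) :
    IsCompl A.toSubmodule B.toSubmodule := by
  constructor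
  · rw [disjoint_iff, ← Subrepresentation.toSubmodule_inf, disjoint_iff.1 h.1]
    rfl
  · rw [codisjoint_iff, ← Subrepresentation.toSubmodule_sup, codisjoint_iff.1 h.2]
    rfl

/-- improving a map -/
theorem exists_better (ρ : Representation ℚ G U) (σ : Representation ℚ G U')
    (h : ∀ g, LinearMap.trace ℚ U (ρ g) = LinearMap.trace ℚ U' (σ g))
    (φ : IntertwiningMap ρ σ) (hφ : ¬ Function.Injective φ) :
    ∃ φ' : IntertwiningMap ρ σ,
      finrank ℚ (LinearMap.ker φ'.toLinearMap) < finrank ℚ (LinearMap.ker φ.toLinearMap) := by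
  classical
  haveI := Fintype.ofFinite G
  letI : Invertible (Nat.card G : ℚ) := invertibleOfNonzero (by
    exact_mod_cast Nat.card_pos.ne')
  obtain ⟨K', hK⟩ := exists_isCompl φ.ker
  obtain ⟨C, hC⟩ := exists_isCompl φ.range
  have hK2 := isCompl_toSub hK
  have hC2 := isCompl_toSub hC
  -- the complement is isomorphic to the range
  have h1 : ∀ g, LinearMap.trace ℚ _ (K'.toRepresentation g) =
      LinearMap.trace ℚ _ (φ.range.toRepresentation g) := by
    let e₀ : K'.toSubmodule →ₗ[ℚ] φ.range.toSubmodule :=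
      (φ.toLinearMap.comp K'.toSubmodule.subtype).codRestrict _ fun x => ⟨x, rfl⟩
    have hinj : Function.Injective e₀ := by
      rw [injective_iff_map_eq_zero]
      intro x hx
      have h2 : (x : U) ∈ φ.ker.toSubmodule := congrArg Subtype.val hx
      have h3 : (x : U) ∈ φ.ker.toSubmodule ⊓ K'.toSubmodule := ⟨h2, x.2⟩
      rw [disjoint_iff.1 hK2.1, Submodule.mem_bot] at h3
      exact Subtype.ext h3
    have hsur : Function.Surjective e₀ := by
      rintro ⟨_, x, rfl⟩
      have h2 : x ∈ φ.ker.toSubmodule ⊔ K'.toSubmodule := by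
        rw [codisjoint_iff.1 hK2.2]; trivial
      obtain ⟨a, ha, b, hb, rfl⟩ := Submodule.mem_sup.1 h2
      refine ⟨⟨b, hb⟩, Subtype.ext ?_⟩
      change φ.toLinearMap b = φ.toLinearMap (a + b)
      rw [map_add]
      have h3 : φ.toLinearMap a = 0 := ha
      rw [h3, zero_add]
    intro g
    rw [← LinearMap.trace_conj' _ (LinearEquiv.ofBijective e₀ ⟨hinj, hsur⟩)]
    congr 1
    refine LinearMap.ext fun x => ?_
    obtain ⟨y, rfl⟩ := (LinearEquiv.ofBijective e₀ ⟨hinj, hsur⟩).surjective x
    rw [LinearEquiv.conj_apply_apply, LinearEquiv.symm_apply_apply]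
    refine Subtype.ext ?_
    change φ.toLinearMap (ρ g y) = σ g (φ.toLinearMap y)
    exact IntertwiningMap.isIntertwining _ _ φ g y
  have h2 : ∀ g, LinearMap.trace ℚ _ (φ.ker.toRepresentation g) =
      LinearMap.trace ℚ _ (C.toRepresentation g) := fun g => by
    have e1 := trace_add ρ hK g
    have e2 := trace_add σ hC g
    have e3 := h1 g
    have e4 := h g
    linarith
  -- nonzero maps from the kernel
  have h3 : finrank ℚ (IntertwiningMap φ.ker.toRepresentation C.toRepresentation) =
      finrank ℚ (IntertwiningMap φ.ker.toRepresentation φ.ker.toRepresentation) := by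
    have e1 := card_inv_mul_sum_char_mul_char_eq_finrank φ.ker.toRepresentation C.toRepresentation
    have e2 := card_inv_mul_sum_char_mul_char_eq_finrank φ.ker.toRepresentation
      φ.ker.toRepresentation
    have e3 : ∀ g, C.toRepresentation.character g = φ.ker.toRepresentation.character g :=
      fun g => (h2 g).symm
    simp only [e3] at e1
    have e4 := e1.symm.trans e2
    exact_mod_cast e4
  have h4 : ∃ x : φ.ker.toSubmodule, x ≠ 0 := by
    by_contra hcon
    push Not at hcon
    apply hφ
    intro x y hxy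
    have h5 : x - y ∈ φ.ker.toSubmodule := by
      change φ.toLinearMap (x - y) = 0
      rw [map_sub, sub_eq_zero]
      exact hxy
    exact sub_eq_zero.1 (congrArg Subtype.val (hcon ⟨_, h5⟩))
  have h5 : 0 < finrank ℚ (IntertwiningMap φ.ker.toRepresentation φ.ker.toRepresentation) := by
    haveI : FiniteDimensional ℚ (IntertwiningMap φ.ker.toRepresentation φ.ker.toRepresentation) :=
      inferInstance
    haveI : Nontrivial (IntertwiningMap φ.ker.toRepresentation φ.ker.toRepresentation) := by
      refine ⟨⟨IntertwiningMap.id _, 0, fun h6 => ?_⟩⟩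
      obtain ⟨x, hx⟩ := h4
      exact hx (congrArg (fun F : IntertwiningMap φ.ker.toRepresentation φ.ker.toRepresentation =>
        F x) h6)
    exact finrank_pos
  rw [← h3] at h5
  obtain ⟨ψ, hψ⟩ : ∃ ψ : IntertwiningMap φ.ker.toRepresentation C.toRepresentation, ψ ≠ 0 := by
    by_contra hcon
    push Not at hcon
    haveI : Subsingleton (IntertwiningMap φ.ker.toRepresentation C.toRepresentation) :=
      ⟨fun a b => (hcon a).trans (hcon b).symm⟩
    rw [finrank_zero_of_subsingleton] at h5
    exact lt_irrefl _ h5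
  -- the projection to the kernel
  let π := Submodule.linearProjOfIsCompl _ _ hK2
  have hπ1 : ∀ x : φ.ker.toSubmodule, π x = x := fun x => Submodule.linearProjOfIsCompl_apply_left hK2 x
  have hπ2 : ∀ x ∈ K'.toSubmodule, π x = 0 := fun x hx =>
    Submodule.linearProjOfIsCompl_apply_right hK2 ⟨x, hx⟩
  have hdec : ∀ x : U, ∃ a ∈ φ.ker.toSubmodule, ∃ b ∈ K'.toSubmodule, x = a + b := fun x => by
    have h2 : x ∈ φ.ker.toSubmodule ⊔ K'.toSubmodule := by
      rw [codisjoint_iff.1 hK2.2]; trivial
    obtain ⟨a, ha, b, hb, h⟩ := Submodule.mem_sup.1 h2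
    exact ⟨a, ha, b, hb, h.symm⟩
  have hπ3 : ∀ g x, π (ρ g x) = φ.ker.toRepresentation g (π x) := by
    intro g x
    obtain ⟨a, ha, b, hb, rfl⟩ := hdec x
    have e1 : π a = ⟨a, ha⟩ := hπ1 ⟨a, ha⟩
    have e2 : π (ρ g a) = ⟨ρ g a, φ.ker.apply_mem_toSubmodule g ha⟩ :=
      hπ1 ⟨ρ g a, φ.ker.apply_mem_toSubmodule g ha⟩
    rw [map_add, map_add, map_add, hπ2 b hb, hπ2 _ (K'.apply_mem_toSubmodule g hb), add_zero,
      add_zero, e1, e2]
    rfl
  let L : U →ₗ[ℚ] U' := φ.toLinearMap + C.toSubmodule.subtype.comp (ψ.toLinearMap.comp π)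
  have hL : ∀ x, L x = φ.toLinearMap x + (ψ.toLinearMap (π x) : U') := fun x => rfl
  let φ' : IntertwiningMap ρ σ := L.intertwiningMap_of_isIntertwiningMap ρ σ (by
    intro g v
    rw [hL, hL, map_add, hπ3]
    congr 1
    · exact IntertwiningMap.isIntertwining _ _ φ g v
    · exact congrArg Subtype.val (IntertwiningMap.isIntertwining _ _ ψ g (π v)))
  refine ⟨φ', ?_⟩
  have hker : ∀ x, φ' x = 0 → x ∈ φ.ker.toSubmodule ∧ ψ.toLinearMap (π x) = 0 := by
    intro x hx
    have e1 : φ.toLinearMap x + (ψ.toLinearMap (π x) : U') = 0 := hx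
    have e2 : (ψ.toLinearMap (π x) : U') ∈ φ.range.toSubmodule ⊓ C.toSubmodule := by
      refine ⟨?_, (ψ.toLinearMap (π x)).2⟩
      rw [eq_neg_of_add_eq_zero_right e1]
      exact Submodule.neg_mem _ ⟨x, rfl⟩
    rw [disjoint_iff.1 hC2.1, Submodule.mem_bot] at e2
    rw [e2, add_zero] at e1
    exact ⟨e1, Subtype.ext e2⟩
  apply Submodule.finrank_lt_finrank_of_lt
  refine lt_of_le_of_ne (fun x hx => (hker x hx).1) fun heq => hψ ?_
  refine IntertwiningMap.ext (LinearMap.ext fun y => ?_)
  have e1 : (y : U) ∈ LinearMap.ker φ'.toLinearMap := by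
    rw [heq]
    exact y.2
  have e2 := (hker y e1).2
  rw [hπ1] at e2
  exact e2

/-- **representations with the same character are isomorphic** -/
theorem exists_bij (ρ : Representation ℚ G U) (σ : Representation ℚ G U')
    (h : ∀ g, LinearMap.trace ℚ U (ρ g) = LinearMap.trace ℚ U' (σ g)) :
    ∃ φ : U →ₗ[ℚ] U', (∀ g x, φ (ρ g x) = σ g (φ x)) ∧ Function.Bijective φ := by
  have key : ∀ (n : ℕ) (φ : IntertwiningMap ρ σ), finrank ℚ (LinearMap.ker φ.toLinearMap) = n →
      ∃ φ' : IntertwiningMap ρ σ, Function.Injective φ' := by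
    intro n
    induction n using Nat.strong_induction_on with
    | _ n ih =>
      intro φ hn
      by_cases hφ : Function.Injective φ
      · exact ⟨φ, hφ⟩
      · obtain ⟨φ', h'⟩ := exists_better ρ σ h φ hφ
        rw [hn] at h'
        exact ih _ h' φ' rfl
  obtain ⟨φ, hφ⟩ := key _ 0 rfl
  refine ⟨φ.toLinearMap, fun g x => IntertwiningMap.isIntertwining _ _ φ g x, hφ, ?_⟩
  have h1 := h 1
  rw [ρ.map_one, σ.map_one, LinearMap.trace_one, LinearMap.trace_one] at h1
  have h2 : finrank ℚ U = finrank ℚ U' := by exact_mod_cast h1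
  exact (LinearMap.injective_iff_surjective_of_finrank_eq_finrank h2).1 hφ

end

end Fermat.Agent.CFT.AV
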