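import Fermat.Agent.CFT.NeedA2
import Fermat.Agent.CFT.NeedA3

/-!
# Permutation modules with the same number of fixed points
-/

set_option autoImplicit false
set_option linter.unusedSectionVars false
set_option linter.unusedVariables false
set_option linter.style.haveILetI false

namespace Fermat.Agent.CFT.AV

noncomputable section

open Module

variable {p : ℕ} [hp : Fact p.Prime] {Γ : Type} [Group Γ]

/-- permutation representations -/
def prm (R : Type) [CommRing R] (Γ : Type) [Group Γ] (X : Type) [MulAction Γ X] :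
    Representation R Γ (X → R) where
  toFun g := LinearMap.funLeft R R (fun x => g⁻¹ • x)
  map_one' := by ext φ x; simp [LinearMap.funLeft_apply]
  map_mul' g h := by
    refine LinearMap.ext fun φ => funext fun x => ?_
    change φ ((g * h)⁻¹ • x) = φ (h⁻¹ • g⁻¹ • x)
    rw [mul_inv_rev, mul_smul]

theorem prm_apply (R : Type) [CommRing R] (X : Type) [MulAction Γ X] (g : Γ) (φ : X → R) (x : X) :
    prm R Γ X g φ x = φ (g⁻¹ • x) := rfl

theorem trace_prm (X : Type) [Finite X] [MulAction Γ X] (g : Γ) :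
    LinearMap.trace ℚ (X → ℚ) (prm ℚ Γ X g) = (Nat.card (MulAction.fixedBy X g) : ℚ) := by
  classical
  haveI := Fintype.ofFinite X
  rw [LinearMap.trace_eq_matrix_trace ℚ (Pi.basisFun ℚ X), Matrix.trace]
  have h1 : ∀ x : X, (LinearMap.toMatrix (Pi.basisFun ℚ X) (Pi.basisFun ℚ X) (prm ℚ Γ X g)).diag x =
      if x ∈ MulAction.fixedBy X g then 1 else 0 := fun x => by
    rw [Matrix.diag_apply, LinearMap.toMatrix_apply, Pi.basisFun_apply, Pi.basisFun_repr, prm_apply,
      Pi.single_apply]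
    congr 1
    rw [MulAction.mem_fixedBy, inv_smul_eq_iff]
    exact propext eq_comm
  rw [Finset.sum_congr rfl fun x _ => h1 x, Finset.sum_boole, Nat.card_eq_fintype_card,
    Fintype.card_subtype]

/-- clearing denominators -/
theorem exists_int {X Y : Type} [Finite X] [Finite Y] (φ : (X → ℚ) →ₗ[ℚ] (Y → ℚ)) :
    ∃ d : ℕ, d ≠ 0 ∧ ∃ ψ : (X → ℤ) →+ (Y → ℤ), ∀ v y, ((ψ v y : ℤ) : ℚ) =
      d * φ (fun x => (v x : ℚ)) y := by
  classical
  haveI := Fintype.ofFinite X
  haveI := Fintype.ofFinite Y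
  let D : ℕ := ∏ x : X, ∏ y : Y, (φ (Pi.single x 1) y).den
  have hD : D ≠ 0 := Finset.prod_ne_zero_iff.2 fun x _ => Finset.prod_ne_zero_iff.2 fun y _ =>
    (φ (Pi.single x 1) y).den_ne_zero
  have h1 : ∀ x y, ∃ n : ℤ, (n : ℚ) = D * φ (Pi.single x 1) y := fun x y => by
    have h2 : (φ (Pi.single x 1) y).den ∣ D :=
      (Finset.dvd_prod_of_mem (fun y => (φ (Pi.single x 1) y).den) (Finset.mem_univ y)).trans
        (Finset.dvd_prod_of_mem (fun x => ∏ y : Y, (φ (Pi.single x 1) y).den) (Finset.mem_univ x))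
    obtain ⟨c, hc⟩ := h2
    refine ⟨c * (φ (Pi.single x 1) y).num, ?_⟩
    rw [hc]
    push_cast
    have h3 := Rat.mul_den_eq_num (φ (Pi.single x 1) y)
    rw [← h3]
    ring
  choose n hn using h1
  refine ⟨D, hD, AddMonoidHom.mk' (fun v y => ∑ x, n x y * v x) fun v w => ?_, fun v y => ?_⟩
  · funext y
    rw [Pi.add_apply, ← Finset.sum_add_distrib]
    exact Finset.sum_congr rfl fun x _ => by rw [Pi.add_apply]; ring
  · have h2 : (fun x => (v x : ℚ)) = ∑ x, (v x : ℚ) • (Pi.single x 1 : X → ℚ) := by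
      funext z
      rw [Finset.sum_apply]
      simp [Pi.single_apply]
    rw [h2, map_sum, Finset.sum_apply, Finset.mul_sum]
    change ((∑ x, n x y * v x : ℤ) : ℚ) = _
    push_cast
    refine Finset.sum_congr rfl fun x _ => ?_
    rw [map_smul, Pi.smul_apply, smul_eq_mul, hn]
    ring

/-- the action on the permutation lattice -/
def al (Γ : Type) [Group Γ] (X : Type) [MulAction Γ X] : Γ →* AddMonoid.End (X → ℤ) where
  toFun g := (prm ℤ Γ X g).toAddMonoidHom
  map_one' := by rw [map_one]; rfl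
  map_mul' g h := by rw [map_mul]; rfl

theorem al_apply (X : Type) [MulAction Γ X] (g : Γ) (φ : X → ℤ) (x : X) :
    al Γ X g φ x = φ (g⁻¹ • x) := rfl

/-- reduction -/
def red (p : ℕ) [Fact p.Prime] (X : Type) : (X → ℤ) →+ (X → ZMod p) where
  toFun v x := (v x : ZMod p)
  map_zero' := by funext x; simp
  map_add' v w := by funext x; simp

theorem red_surjective (X : Type) : Function.Surjective (red p X) := fun w =>
  ⟨fun x => ((w x).val : ℤ), by funext x; simp [red]⟩

theorem red_eq_zero {X : Type} {v : X → ℤ} : red p X v = 0 ↔ ∃ w, p • w = v := by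
  constructor
  · intro h
    have h1 : ∀ x, ∃ c : ℤ, v x = p * c := fun x => by
      have h2 : ((v x : ℤ) : ZMod p) = 0 := congrFun h x
      rwa [ZMod.intCast_zmod_eq_zero_iff_dvd] at h2
    choose w hw using h1
    exact ⟨w, by funext x; rw [hw]; simp⟩
  · rintro ⟨w, rfl⟩
    rw [map_nsmul]
    funext x
    simp

variable {f : Fn p Γ} (hf : Addv f)

include hf in
/-- permutation modules -/
theorem pm_eq [Finite Γ] {X Y : Type} [Finite X] [Finite Y] [MulAction Γ X] [MulAction Γ Y]
    (h : ∀ g : Γ, Nat.card (MulAction.fixedBy X g) = Nat.card (MulAction.fixedBy Y g)) :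
    f (X → ZMod p) (pm p Γ X) = f (Y → ZMod p) (pm p Γ Y) := by
  obtain ⟨φ, hφ, hb⟩ := exists_bij (prm ℚ Γ X) (prm ℚ Γ Y) (fun g => by
    rw [trace_prm, trace_prm, h])
  obtain ⟨d, hd, ψ, hψ⟩ := exists_int φ
  obtain ⟨d', hd', ψ', hψ'⟩ := exists_int (LinearEquiv.ofBijective φ hb).symm.toLinearMap
  have hcast : ∀ {Z : Type} {v w : Z → ℤ}, (∀ z, ((v z : ℤ) : ℚ) = w z) → v = w := fun h =>
    funext fun z => by exact_mod_cast h z
  have hinj : Function.Injective ψ := by
    rw [injective_iff_map_eq_zero]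
    intro v hv
    have h1 : φ (fun x => (v x : ℚ)) = 0 := by
      funext y
      have h2 := hψ v y
      rw [hv] at h2
      have h3 : (d : ℚ) ≠ 0 := by exact_mod_cast hd
      simpa [h3] using h2.symm
    have h2 := hb.1 (h1.trans (map_zero φ).symm)
    exact hcast fun z => by simpa using congrFun h2 z
  have hcomp : ∀ w : Y → ℤ, ψ (ψ' w) = (d * d') • w := fun w => hcast fun y => by
    rw [hψ]
    have h1 : (fun x => ((ψ' w x : ℤ) : ℚ)) = (d' : ℚ) •
        (LinearEquiv.ofBijective φ hb).symm (fun y => (w y : ℚ)) := by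
      funext x
      rw [hψ']
      rfl
    have h2 : φ ((LinearEquiv.ofBijective φ hb).symm (fun y => (w y : ℚ))) = fun y => (w y : ℚ) :=
      (LinearEquiv.ofBijective φ hb).apply_symm_apply _
    rw [h1, map_smul, h2]
    simp [mul_assoc]
  have hψα : ∀ g v, ψ (al Γ X g v) = al Γ Y g (ψ v) := fun g v => hcast fun y => by
    rw [hψ, al_apply, hψ]
    have h1 := congrFun (hφ g (fun x => (v x : ℚ))) y
    rw [prm_apply] at h1
    rw [← h1]
    rfl
  let C : AddSubgroup (Y → ℤ) := ψ.range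
  have hC : Stb (al Γ Y) C := by
    rintro g _ ⟨v, rfl⟩
    exact ⟨al Γ X g v, hψα g v⟩
  let e : (X → ℤ) ≃+ C := AddMonoidHom.ofInjective hinj
  have he : ∀ v, ((e v : C) : Y → ℤ) = ψ v := fun v => rfl
  have P : Prs (al Γ Y) (pL p C) C (X → ZMod p) (pm p Γ X)
      ((red p X).comp (e.symm : C →+ (X → ℤ))) := by
    refine ⟨(red_surjective X).comp e.symm.surjective, fun c => ?_, fun g c c' hc => ?_⟩
    · obtain ⟨v, rfl⟩ := e.surjective c
      change red p X (e.symm (e v)) = 0 ↔ _
      rw [AddEquiv.symm_apply_apply, red_eq_zero, he]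
      constructor
      · rintro ⟨w, rfl⟩
        exact ⟨ψ w, ⟨w, rfl⟩, (map_nsmul ψ p w).symm⟩
      · rintro ⟨_, ⟨w, rfl⟩, hw⟩
        refine ⟨w, hinj ?_⟩
        rw [map_nsmul]
        exact hw
    · obtain ⟨v, rfl⟩ := e.surjective c
      have h1 : c' = e (al Γ X g v) := Subtype.ext (by rw [hc, he, he, hψα])
      rw [h1]
      change red p X (e.symm (e _)) = pm p Γ X g (red p X (e.symm (e v)))
      rw [AddEquiv.symm_apply_apply, AddEquiv.symm_apply_apply]
      rfl
  have P' : Prs (al Γ Y) (pL p ⊤) (⊤ : AddSubgroup (Y → ℤ)) (Y → ZMod p) (pm p Γ Y)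
      ((red p Y).comp (⊤ : AddSubgroup (Y → ℤ)).subtype) := by
    refine ⟨fun w => ?_, fun c => ?_, fun g c c' hc => ?_⟩
    · obtain ⟨v, rfl⟩ := red_surjective Y w
      exact ⟨⟨v, trivial⟩, rfl⟩
    · change red p Y c = 0 ↔ _
      rw [red_eq_zero]
      constructor
      · rintro ⟨w, hw⟩
        exact ⟨w, trivial, hw⟩
      · rintro ⟨w, -, hw⟩
        exact ⟨w, hw⟩
    · change red p Y c' = pm p Γ Y g (red p Y c)
      rw [hc]
      rfl
  obtain ⟨k, m, hm, hk⟩ := Nat.exists_eq_pow_mul_and_not_dvd (mul_ne_zero hd hd') p hp.out.ne_one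
  refine lat_eq hf (α := al Γ Y) (fun x hx => ?_) hm P' k C hC (fun x => ?_) _ _ _ P
  · funext y
    have h1 := congrFun hx y
    have h2 : p ≠ 0 := hp.out.ne_zero
    simpa [h2] using h1
  · rw [← hk]
    exact ⟨ψ' x, hcomp x⟩

include hf in
/-- **functions on sets with the same numbers of fixed points** -/
theorem Addv.fr_eq [Finite Γ] {X Y : Type} [Finite X] [Finite Y] [MulAction Γ X] [MulAction Γ Y]
    (h : ∀ g : Γ, Nat.card (MulAction.fixedBy X g) = Nat.card (MulAction.fixedBy Y g))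
    {V : Type} [AddCommGroup V] [Module (ZMod p) V] [Module.Finite (ZMod p) V]
    (ρV : Representation (ZMod p) Γ V) : f (X → V) (fr ρV X) = f (Y → V) (fr ρV Y) := by
  rw [← hf.tens_pm, ← hf.tens_pm]
  exact pm_eq (hf.tens ρV) h

end

end Fermat.Agent.CFT.AV
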