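import Fermat.Agent.CFT.NeedA4

/-!
# Reduction to sets with cyclic stabilizers
-/

set_option autoImplicit false
set_option linter.unusedSectionVars false
set_option linter.unusedVariables false
set_option linter.style.haveILetI false

namespace Fermat.Agent.CFT.AV

noncomputable section

open Module

variable {p : ℕ} [hp : Fact p.Prime] {Γ : Type} [Group Γ] [Finite Γ]

/-- numbers of fixed points -/
def fx (Γ : Type) [Group Γ] (X : Type) [MulAction Γ X] : Γ → ℤ := fun g =>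
  (Nat.card (MulAction.fixedBy X g) : ℤ)

theorem fx_sum (X Y : Type) [Finite X] [Finite Y] [MulAction Γ X] [MulAction Γ Y] :
    fx Γ (X ⊕ Y) = fx Γ X + fx Γ Y := by
  funext g
  have e : MulAction.fixedBy (X ⊕ Y) g ≃ MulAction.fixedBy X g ⊕ MulAction.fixedBy Y g :=
    { toFun := fun z => match z with
        | ⟨Sum.inl x, h⟩ => Sum.inl ⟨x, Sum.inl_injective h⟩
        | ⟨Sum.inr y, h⟩ => Sum.inr ⟨y, Sum.inr_injective h⟩
      invFun := fun z => match z with
        | Sum.inl x => ⟨Sum.inl x.1, congrArg Sum.inl x.2⟩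
        | Sum.inr y => ⟨Sum.inr y.1, congrArg Sum.inr y.2⟩
      left_inv := by rintro ⟨x | y, h⟩ <;> rfl
      right_inv := by rintro (x | y) <;> rfl }
  change ((Nat.card _ : ℕ) : ℤ) = (Nat.card _ : ℕ) + (Nat.card _ : ℕ)
  rw [Nat.card_congr e, Nat.card_sum]
  push_cast
  rfl

theorem fx_pow (X : Type) [Finite X] [MulAction Γ X] (k : ℕ) :
    fx Γ (Fin k → X) = fx Γ X ^ k := by
  funext g
  have e : MulAction.fixedBy (Fin k → X) g ≃ (Fin k → MulAction.fixedBy X g) :=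
    { toFun := fun z i => ⟨z.1 i, congrFun z.2 i⟩
      invFun := fun z => ⟨fun i => (z i).1, funext fun i => (z i).2⟩
      left_inv := fun z => rfl
      right_inv := fun z => rfl }
  change ((Nat.card _ : ℕ) : ℤ) = ((Nat.card _ : ℕ) : ℤ) ^ k
  rw [Nat.card_congr e, Nat.card_fun, Nat.card_eq_fintype_card (α := Fin k), Fintype.card_fin]
  push_cast
  rfl

variable {f : Fn p Γ} (hf : Addv f) {V : Type} [AddCommGroup V] [Module (ZMod p) V]
  [Module.Finite (ZMod p) V] (ρV : Representation (ZMod p) Γ V)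

/-- linear combinations of sets -/
def HH : AddSubgroup ((Γ → ℤ) × ℤ) where
  carrier := {z | ∃ (X Y : Type) (_ : Finite X) (_ : Finite Y) (_ : MulAction Γ X)
    (_ : MulAction Γ Y), z = (fx Γ X - fx Γ Y, f (X → V) (fr ρV X) - f (Y → V) (fr ρV Y))}
  zero_mem' := ⟨PEmpty, PEmpty, inferInstance, inferInstance,
    { smul := fun _ x => x, one_smul := fun _ => rfl, mul_smul := fun _ _ _ => rfl },
    { smul := fun _ x => x, one_smul := fun _ => rfl, mul_smul := fun _ _ _ => rfl },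
    by rw [sub_self, sub_self]; rfl⟩
  add_mem' := by
    rintro _ _ ⟨X, Y, _, _, _, _, rfl⟩ ⟨X', Y', _, _, _, _, rfl⟩
    refine ⟨X ⊕ X', Y ⊕ Y', inferInstance, inferInstance, inferInstance, inferInstance, ?_⟩
    rw [fx_sum, fx_sum, hf.fr_sum, hf.fr_sum, Prod.mk_add_mk]
    congr 1 <;> ring
  neg_mem' := by
    rintro _ ⟨X, Y, _, _, _, _, rfl⟩
    refine ⟨Y, X, inferInstance, inferInstance, inferInstance, inferInstance, ?_⟩
    rw [Prod.neg_mk]
    congr 1 <;> ring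

theorem mem_HH (X : Type) [Finite X] [MulAction Γ X] :
    (fx Γ X, f (X → V) (fr ρV X)) ∈ HH hf ρV := by
  letI : MulAction Γ PEmpty.{1} :=
    { smul := fun _ x => x, one_smul := fun _ => rfl, mul_smul := fun _ _ _ => rfl }
  refine ⟨X, PEmpty, inferInstance, inferInstance, inferInstance, inferInstance, ?_⟩
  rw [hf.fr_empty (X := PEmpty.{1}), sub_zero]
  congr 1
  funext g
  rw [Pi.sub_apply]
  change _ = _ - ((Nat.card _ : ℕ) : ℤ)
  rw [Nat.card_of_isEmpty]
  simp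

theorem HH_eq {n : ℤ} (h : (0, n) ∈ HH hf ρV) : n = 0 := by
  obtain ⟨X, Y, _, _, _, _, h⟩ := h
  have h1 : (0 : Γ → ℤ) = fx Γ X - fx Γ Y := congrArg Prod.fst h
  have h2 : n = f (X → V) (fr ρV X) - f (Y → V) (fr ρV Y) := congrArg Prod.snd h
  rw [h2, hf.fr_eq (X := X) (Y := Y) (fun g => ?_), sub_self]
  have h3 := congrFun h1 g
  rw [Pi.zero_apply, Pi.sub_apply, eq_comm, sub_eq_zero] at h3
  have h4 : ((Nat.card (MulAction.fixedBy X g) : ℕ) : ℤ) = (Nat.card (MulAction.fixedBy Y g) : ℕ) :=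
    h3
  exact_mod_cast h4

/-- the basic set -/
abbrev Y0 (Γ : Type) [Group Γ] : Type := Σ g : Γ, Γ ⧸ Subgroup.zpowers g

instance : Finite (Y0 Γ) := inferInstance

theorem stab_Y0 (y : Y0 Γ) : IsCyclic (MulAction.stabilizer Γ y) := by
  obtain ⟨g, y⟩ := y
  obtain ⟨h, rfl⟩ := QuotientGroup.mk_surjective y
  have h1 : ∀ x : MulAction.stabilizer Γ (⟨g, (QuotientGroup.mk h : Γ ⧸ Subgroup.zpowers g)⟩ : Y0 Γ),
      h⁻¹ * x * h ∈ Subgroup.zpowers g := fun x => by
    have h2 : (x : Γ) • (⟨g, (QuotientGroup.mk h : Γ ⧸ Subgroup.zpowers g)⟩ : Y0 Γ) = ⟨g, QuotientGroup.mk h⟩ := x.2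
    have h3 : (QuotientGroup.mk (x * h) : Γ ⧸ Subgroup.zpowers g) = QuotientGroup.mk h := by
      have := eq_of_heq (Sigma.mk.inj h2).2
      exact this
    rw [eq_comm, QuotientGroup.eq] at h3
    rwa [← mul_assoc] at h3
  let F : MulAction.stabilizer Γ (⟨g, (QuotientGroup.mk h : Γ ⧸ Subgroup.zpowers g)⟩ : Y0 Γ) →*
      Subgroup.zpowers g :=
    { toFun := fun x => ⟨h⁻¹ * x * h, h1 x⟩
      map_one' := Subtype.ext (by simp)
      map_mul' := fun x y => Subtype.ext (by simp [mul_assoc]) }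
  refine isCyclic_of_injective F fun x y hxy => ?_
  have h2 : h⁻¹ * (x : Γ) * h = h⁻¹ * y * h := congrArg Subtype.val hxy
  exact Subtype.ext (mul_left_cancel (mul_right_cancel h2))

theorem fx_Y0_pos (g : Γ) : fx Γ (Y0 Γ) g ≠ 0 := by
  have h1 : (⟨g, QuotientGroup.mk 1⟩ : Y0 Γ) ∈ MulAction.fixedBy (Y0 Γ) g := by
    rw [MulAction.mem_fixedBy]
    refine Sigma.ext rfl (heq_of_eq ?_)
    change (QuotientGroup.mk (g * 1) : Γ ⧸ Subgroup.zpowers g) = QuotientGroup.mk 1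
    rw [QuotientGroup.eq, mul_one, mul_one]
    exact inv_mem (Subgroup.mem_zpowers g)
  haveI : Nonempty (MulAction.fixedBy (Y0 Γ) g) := ⟨⟨_, h1⟩⟩
  change ((Nat.card _ : ℕ) : ℤ) ≠ 0
  exact_mod_cast Nat.card_pos.ne'

include hf in
/-- **Artin's theorem** -/
theorem vanish_of (hF : ∀ (X : Type) [Finite X] [MulAction Γ X],
    (∀ x : X, IsCyclic (MulAction.stabilizer Γ x)) → f (X → V) (fr ρV X) = 0) : f V ρV = 0 := by
  classical
  haveI := Fintype.ofFinite Γ
  let S : Finset ℤ := Finset.univ.image (fx Γ (Y0 Γ))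
  let T : Polynomial ℤ := ∏ v ∈ S, (Polynomial.X - Polynomial.C v)
  have hT : ∀ g : Γ, T.eval (fx Γ (Y0 Γ) g) = 0 := fun g => by
    rw [Polynomial.eval_prod]
    exact Finset.prod_eq_zero (Finset.mem_image_of_mem _ (Finset.mem_univ g)) (by simp)
  have hT0 : T.coeff 0 ≠ 0 := by
    rw [Polynomial.coeff_zero_eq_eval_zero, Polynomial.eval_prod, Finset.prod_ne_zero_iff]
    intro v hv
    obtain ⟨g, -, rfl⟩ := Finset.mem_image.1 hv
    simpa using fx_Y0_pos g
  have hmem : ∑ k ∈ Finset.range (T.natDegree + 1), T.coeff k •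
      ((fx Γ (Fin k → Y0 Γ), f ((Fin k → Y0 Γ) → V) (fr ρV (Fin k → Y0 Γ))) : (Γ → ℤ) × ℤ) ∈
      HH hf ρV := sum_mem fun k _ => zsmul_mem (mem_HH hf ρV _) _
  have h1 : (∑ k ∈ Finset.range (T.natDegree + 1), T.coeff k •
      ((fx Γ (Fin k → Y0 Γ), f ((Fin k → Y0 Γ) → V) (fr ρV (Fin k → Y0 Γ))) : (Γ → ℤ) × ℤ)).1 = 0 := by
    rw [Prod.fst_sum]
    funext g
    rw [Finset.sum_apply, Pi.zero_apply, ← hT g, Polynomial.eval_eq_sum_range]
    refine Finset.sum_congr rfl fun k _ => ?_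
    rw [Prod.smul_fst, Pi.smul_apply, fx_pow, smul_eq_mul]
    rfl
  have h2 : (∑ k ∈ Finset.range (T.natDegree + 1), T.coeff k •
      ((fx Γ (Fin k → Y0 Γ), f ((Fin k → Y0 Γ) → V) (fr ρV (Fin k → Y0 Γ))) : (Γ → ℤ) × ℤ)).2 =
      T.coeff 0 * f V ρV := by
    rw [Prod.snd_sum, Finset.sum_eq_single 0]
    · rw [Prod.smul_snd, smul_eq_mul]
      congr 1
      haveI : Unique (Fin 0 → Y0 Γ) := Pi.uniqueOfIsEmpty _
      refine hf.iso (ρA := ρV) (LinearMap.pi fun _ => LinearMap.id) (fun g x => rfl) ⟨?_, ?_⟩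
      · intro x y h
        exact congrFun h default
      · intro y
        exact ⟨y default, funext fun i => by rw [Subsingleton.elim i default]; rfl⟩
    · intro k _ hk
      rw [Prod.smul_snd]
      have h3 := hF (Fin k → Y0 Γ) (fun y => by
        obtain ⟨k', rfl⟩ : ∃ k', k = k' + 1 := Nat.exists_eq_succ_of_ne_zero hk
        haveI := stab_Y0 (y 0)
        refine isCyclic_of_injective (G := MulAction.stabilizer Γ y)
          (G' := MulAction.stabilizer Γ (y 0)) (Subgroup.inclusion fun g hg => ?_)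
          (Subgroup.inclusion_injective _)
        exact congrFun hg 0)
      change T.coeff k • f ((Fin k → Y0 Γ) → V) (fr ρV (Fin k → Y0 Γ)) = 0
      rw [h3, smul_zero]
    · intro h
      exact absurd (Finset.mem_range.2 (Nat.succ_pos _)) h
  have h3 : (∑ k ∈ Finset.range (T.natDegree + 1), T.coeff k •
      ((fx Γ (Fin k → Y0 Γ), f ((Fin k → Y0 Γ) → V) (fr ρV (Fin k → Y0 Γ))) : (Γ → ℤ) × ℤ)) =
      (0, T.coeff 0 * f V ρV) := Prod.ext h1 h2
  rw [h3] at hmem
  exact (mul_eq_zero.1 (HH_eq hf ρV hmem)).resolve_left hT0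

end

end Fermat.Agent.CFT.AV
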