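import Fermat.Agent.CFT.NeedA5

/-!
# Coinduction
-/

set_option autoImplicit false
set_option linter.unusedSectionVars false
set_option linter.unusedVariables false
set_option linter.style.haveILetI false

namespace Fermat.Agent.CFT.AV

noncomputable section

open Module Representation

variable {p : ℕ} [hp : Fact p.Prime] {Γ : Type} [Group Γ] [Finite Γ]

section coind

variable {f : Fn p Γ} (hf : Addv f)

/-- the function `W ↦ f (coind W)` -/
def cof (C : Subgroup Γ) (f : Fn p Γ) : Fn p C := fun W _ _ τ =>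
  f (coindV C.subtype τ) (coind C.subtype τ)

instance finite_coindV {G : Type} [Group G] (φ : G →* Γ) {W : Type} [AddCommGroup W]
    [Module (ZMod p) W] [Module.Finite (ZMod p) W] (τ : Representation (ZMod p) G W) :
    Module.Finite (ZMod p) (coindV φ τ) := inferInstance

include hf in
theorem Addv.cof (C : Subgroup Γ) : Addv (AV.cof C f) := by
  intro A B D _ _ _ _ _ _ _ _ _ ρA ρB ρD i j hi hj hi1 hj1 hij
  let I : coindV C.subtype ρA →ₗ[ZMod p] coindV C.subtype ρB :=
    (i.compLeft Γ).restrict fun F hF g h => by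
      change i (F (g * h)) = ρB g (i (F h))
      rw [← hi]
      exact congrArg i (hF g h)
  let J : coindV C.subtype ρB →ₗ[ZMod p] coindV C.subtype ρD :=
    (j.compLeft Γ).restrict fun F hF g h => by
      change j (F (g * h)) = ρD g (j (F h))
      rw [← hj]
      exact congrArg j (hF g h)
  refine hf _ _ _ (coind C.subtype ρA) (coind C.subtype ρB) (coind C.subtype ρD) I J
    (fun g x => rfl) (fun g x => rfl) ?_ ?_ ?_
  · intro x y h
    refine Subtype.ext (funext fun γ => hi1 ?_)
    exact congrFun (congrArg Subtype.val h) γ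
  · intro y
    let := QuotientGroup.rightRel C
    choose! s hs using hj1
    choose! r hr using Quotient.mk'_surjective (α := Γ)
    let γ (g : Γ) : C := ⟨g * (r (Quotient.mk' g))⁻¹,
      (QuotientGroup.rightRel_apply.1 (Quotient.eq'.1 (hr (Quotient.mk' g))))⟩
    have hmk (s : C) (g : Γ) : (Quotient.mk' (s.1 * g) : Quotient (QuotientGroup.rightRel C)) =
        Quotient.mk' g := Quotient.eq'.2 (QuotientGroup.rightRel_apply.2 (by simp))
    have hγ (s : C) (g : Γ) : γ (s.1 * g) = s * γ g := by ext; simp [mul_assoc, γ, hmk]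
    let x (g : Γ) : B := ρB (γ g) (s (y.1 (r (Quotient.mk' g))))
    refine ⟨⟨x, fun c g => ?_⟩, Subtype.ext <| funext fun g => ?_⟩
    · change x (c.1 * g) = ρB c (x g)
      simp only [x]
      rw [hγ, hmk, map_mul]
      rfl
    · change j (x g) = y.1 g
      simp only [x]
      rw [hj, hs, ← y.2 (γ g)]
      congr 1
      simp [γ]
  · intro y
    constructor
    · intro h
      have h1 : ∀ γ, ∃ a, i a = y.1 γ := fun γ =>
        (hij _).1 (congrFun (congrArg Subtype.val h) γ)
      choose a ha using h1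
      refine ⟨⟨a, fun c g => hi1 ?_⟩, Subtype.ext (funext ha)⟩
      rw [ha, hi, ha]
      exact y.2 c g
    · rintro ⟨x, rfl⟩
      refine Subtype.ext (funext fun γ => ?_)
      exact (hij _).2 ⟨_, rfl⟩

/-- transitive sets -/
theorem Addv.transitive {G : Type} [Group G] [Finite G] {f : Fn p G} (hf : Addv f)
    {V : Type} [AddCommGroup V] [Module (ZMod p) V] [Module.Finite (ZMod p) V]
    (ρV : Representation (ZMod p) G V) {X : Type} [Finite X] [MulAction G X] (x₀ : X)
    (hx : ∀ x : X, ∃ g : G, g • x₀ = x) :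
    f (X → V) (fr ρV X) = f (coindV (MulAction.stabilizer G x₀).subtype
      (ρV.comp (MulAction.stabilizer G x₀).subtype))
      (coind (MulAction.stabilizer G x₀).subtype
        (ρV.comp (MulAction.stabilizer G x₀).subtype)) := by
  symm
  have hinv : ∀ (g : G) (v : V), ρV g (ρV g⁻¹ v) = v := fun g v => by
    rw [← Module.End.mul_apply, ← map_mul, mul_inv_cancel, map_one]; rfl
  have hinv' : ∀ (g : G) (v : V), ρV g⁻¹ (ρV g v) = v := fun g v => by
    rw [← Module.End.mul_apply, ← map_mul, inv_mul_cancel, map_one]; rfl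
  let e : (X → V) →ₗ[ZMod p] coindV (MulAction.stabilizer G x₀).subtype
      (ρV.comp (MulAction.stabilizer G x₀).subtype) :=
    { toFun := fun φ => ⟨fun γ => ρV γ (φ (γ⁻¹ • x₀)), fun s γ => by
        change ρV (s * γ) (φ (((s : G) * γ)⁻¹ • x₀)) = ρV s (ρV γ (φ (γ⁻¹ • x₀)))
        have h1 : (s : G)⁻¹ • x₀ = x₀ := inv_smul_eq_iff.2 s.2.symm
        rw [mul_inv_rev, mul_smul, h1, map_mul]
        rfl⟩
      map_add' := fun φ ψ => Subtype.ext (funext fun γ => map_add (ρV γ) _ _)
      map_smul' := fun c φ => Subtype.ext (funext fun γ => map_smul (ρV γ) c _) }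
  have he : ∀ φ γ, (e φ).1 γ = ρV γ (φ (γ⁻¹ • x₀)) := fun φ γ => rfl
  refine hf.iso (ρA := fr ρV X) e (fun g φ => ?_) ⟨?_, ?_⟩
  · refine Subtype.ext (funext fun γ => ?_)
    change ρV γ (ρV g (φ (g⁻¹ • γ⁻¹ • x₀))) = ρV (γ * g) (φ ((γ * g)⁻¹ • x₀))
    rw [mul_inv_rev, mul_smul, map_mul]
    rfl
  · intro φ ψ h
    funext x
    obtain ⟨g, rfl⟩ := hx x
    have h1 := congrFun (congrArg Subtype.val h) g⁻¹
    rw [he, he, inv_inv] at h1
    have h2 := congrArg (ρV g) h1
    rwa [hinv, hinv] at h2
  · intro F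
    have h1 : ∀ x : X, ∃ γ : G, γ⁻¹ • x₀ = x := fun x => by
      obtain ⟨g, hg⟩ := hx x
      exact ⟨g⁻¹, by rw [inv_inv, hg]⟩
    choose γ hγ using h1
    refine ⟨fun x => ρV (γ x)⁻¹ (F.1 (γ x)), Subtype.ext (funext fun g => ?_)⟩
    rw [he]
    have h2 : g * (γ (g⁻¹ • x₀))⁻¹ ∈ MulAction.stabilizer G x₀ := by
      rw [MulAction.mem_stabilizer_iff, mul_smul, hγ, smul_inv_smul]
    have h3 := F.2 ⟨_, h2⟩ (γ (g⁻¹ • x₀))
    have h4 : g * (γ (g⁻¹ • x₀))⁻¹ * γ (g⁻¹ • x₀) = g := by group
    change F.1 (g * (γ (g⁻¹ • x₀))⁻¹ * γ (g⁻¹ • x₀)) = ρV (g * (γ (g⁻¹ • x₀))⁻¹) _ at h3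
    rw [h4, map_mul] at h3
    exact h3.symm

include hf in
/-- transitivity of coinduction -/
theorem Addv.coind_coind (C : Subgroup Γ) (S : Subgroup C) {W : Type} [AddCommGroup W]
    [Module (ZMod p) W] [Module.Finite (ZMod p) W] (τ : Representation (ZMod p) S W) :
    AV.cof C f _ (coind S.subtype τ) = f _ (coind (S.map C.subtype).subtype
      (τ.comp (S.equivMapOfInjective C.subtype C.subtype_injective).symm.toMonoidHom)) := by
  symm
  have hs : ∀ s : S, (S.equivMapOfInjective C.subtype C.subtype_injective).symm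
      ⟨((s : C) : Γ), ⟨s, s.2, rfl⟩⟩ = s := fun s =>
    (S.equivMapOfInjective C.subtype C.subtype_injective).symm_apply_eq.2 (Subtype.ext rfl)
  let e : coindV C.subtype (coind S.subtype τ) →ₗ[ZMod p] coindV (S.map C.subtype).subtype
      (τ.comp (S.equivMapOfInjective C.subtype C.subtype_injective).symm.toMonoidHom) :=
    { toFun := fun F => ⟨fun γ => (F.1 γ).1 1, by
        rintro ⟨_, s, hs', rfl⟩ γ
        change (F.1 (s * γ)).1 1 = τ ((S.equivMapOfInjective C.subtype C.subtype_injective).symm
          ⟨(s : Γ), ⟨s, hs', rfl⟩⟩) _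
        rw [hs ⟨s, hs'⟩]
        have h1 := congrArg (fun z : coindV S.subtype τ => z.1 1) (F.2 s γ)
        change (F.1 (s * γ)).1 1 = (F.1 γ).1 (1 * s) at h1
        rw [h1, one_mul]
        have h2 := (F.1 γ).2 ⟨s, hs'⟩ 1
        change (F.1 γ).1 (s * 1) = _ at h2
        rwa [mul_one] at h2⟩
      map_add' := fun F G => rfl
      map_smul' := fun c F => rfl }
  have he : ∀ F γ, (e F).1 γ = (F.1 γ).1 1 := fun F γ => rfl
  have hF : ∀ (F : coindV C.subtype (coind S.subtype τ)) (c : C) (γ : Γ),
      (F.1 γ).1 c = (e F).1 (c * γ) := fun F c γ => by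
    have h1 := congrArg (fun z : coindV S.subtype τ => z.1 1) (F.2 c γ)
    change (F.1 (c * γ)).1 1 = (F.1 γ).1 (1 * c) at h1
    rw [he, h1, one_mul]
  refine hf.iso e (fun g F => Subtype.ext (funext fun γ => rfl)) ⟨?_, ?_⟩
  · intro F G h
    refine Subtype.ext (funext fun γ => Subtype.ext (funext fun c => ?_))
    rw [hF, hF, h]
  · intro F
    refine ⟨⟨fun γ => ⟨fun c => F.1 (c * γ), fun s c => ?_⟩, fun c₀ γ => Subtype.ext
      (funext fun c => ?_)⟩, Subtype.ext (funext fun γ => ?_)⟩
    · have h1 := F.2 ⟨((s : C) : Γ), ⟨s, s.2, rfl⟩⟩ (c * γ)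
      change F.1 (((s : C) : Γ) * (c * γ)) = τ ((S.equivMapOfInjective C.subtype
        C.subtype_injective).symm ⟨((s : C) : Γ), ⟨s, s.2, rfl⟩⟩) _ at h1
      rw [hs] at h1
      change F.1 ((((s : C) * c : C) : Γ) * γ) = τ s (F.1 (c * γ))
      rw [← h1, Subgroup.coe_mul, mul_assoc]
    · change F.1 (c * (c₀ * γ)) = F.1 (((c * c₀ : C) : Γ) * γ)
      rw [Subgroup.coe_mul, mul_assoc]
    · change F.1 (((1 : C) : Γ) * γ) = F.1 γ
      rw [Subgroup.coe_one, one_mul]

end coind

section unipotent

variable {G : Type} [Group G] {f : Fn p G} (hf : Addv f)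

include hf in
/-- representations of cyclic groups on which the generator is unipotent -/
theorem Addv.unip {c : G} (hc : ∀ g : G, g ∈ Subgroup.zpowers c) {k : ℕ} (n : ℕ) :
    ∀ (U : Type) [AddCommGroup U] [Module (ZMod p) U] [Module.Finite (ZMod p) U]
      (ρ : Representation (ZMod p) G U), ρ c ^ p ^ k = 1 → finrank (ZMod p) U = n →
      f U ρ = n * f (ZMod p) (1 : Representation (ZMod p) G (ZMod p)) := by
  induction n with
  | zero =>
    intro U _ _ _ ρ hρ hn
    haveI : Subsingleton U := finrank_zero_iff.1 hn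
    rw [hf.subsingleton]
    simp
  | succ n ih =>
    intro U _ _ _ ρ hρ hn
    haveI : Nontrivial U := finrank_pos_iff.1 (by rw [hn]; exact Nat.succ_pos _)
    -- a fixed vector
    obtain ⟨u, hu0, hu⟩ : ∃ u : U, u ≠ 0 ∧ ρ c u = u := by
      have hnil : IsNilpotent (ρ c - 1) := by
        haveI : CharP (Module.End (ZMod p) U) p :=
          charP_of_injective_algebraMap (algebraMap (ZMod p) (Module.End (ZMod p) U)).injective p
        refine ⟨p ^ k, ?_⟩
        rw [sub_pow_char_pow_of_commute _ _ (Commute.one_right _), hρ, one_pow, sub_self]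
      obtain ⟨m, hm⟩ := hnil
      by_contra hcon
      push Not at hcon
      have hinj : Function.Injective (ρ c - 1 : Module.End (ZMod p) U) := by
        rw [injective_iff_map_eq_zero]
        intro x hx
        by_contra hx0
        exact hcon x hx0 (sub_eq_zero.1 hx)
      obtain ⟨x, hx⟩ := exists_ne (0 : U)
      apply hx
      have h1 : Function.Injective ((ρ c - 1 : Module.End (ZMod p) U) ^ m) := by
        rw [Module.End.coe_pow]
        exact hinj.iterate m
      apply h1
      rw [hm, map_zero]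
      rfl
    have hfix : ∀ g, ρ g u = u := fun g => by
      let St : Subgroup G :=
        { carrier := {g | ρ g u = u}
          mul_mem' := fun {a b} ha hb => by
            change ρ (a * b) u = u
            rw [map_mul]
            change ρ a (ρ b u) = u
            rw [hb, ha]
          one_mem' := by
            change ρ 1 u = u
            rw [map_one]
            rfl
          inv_mem' := fun {a} ha => by
            change ρ a⁻¹ u = u
            conv_lhs => rw [← show ρ a u = u from ha]
            rw [← Module.End.mul_apply, ← map_mul, inv_mul_cancel, map_one]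
            rfl }
      have h2 : Subgroup.zpowers c ≤ St := by
        rw [Subgroup.zpowers_le]
        exact hu
      exact h2 (hc g)
    -- the quotient
    let L : Submodule (ZMod p) U := Submodule.span (ZMod p) {u}
    have hL : ∀ g, L ≤ L.comap (ρ g) := fun g => by
      rw [Submodule.span_le]
      rintro _ rfl
      rw [SetLike.mem_coe, Submodule.mem_comap, hfix]
      exact Submodule.mem_span_singleton_self _
    let ρ' : Representation (ZMod p) G (U ⧸ L) :=
      { toFun := fun g => L.mapQ L (ρ g) (hL g)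
        map_one' := by
          refine Submodule.linearMap_qext _ (LinearMap.ext fun x => ?_)
          change L.mkQ (ρ 1 x) = L.mkQ x
          rw [map_one]
          rfl
        map_mul' := fun g h => by
          refine Submodule.linearMap_qext _ (LinearMap.ext fun x => ?_)
          change L.mkQ (ρ (g * h) x) = L.mkQ (ρ g (ρ h x))
          rw [map_mul]
          rfl }
    have hρ' : ∀ g x, ρ' g (L.mkQ x) = L.mkQ (ρ g x) := fun g x => rfl
    have h1 : finrank (ZMod p) L = 1 := finrank_span_singleton hu0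
    have h2 : finrank (ZMod p) (U ⧸ L) = n := by
      have := Submodule.finrank_quotient_add_finrank L
      omega
    have h3 := ih (U ⧸ L) ρ' (by
      have e1 : ρ' c ^ p ^ k = ρ' (c ^ p ^ k) := (map_pow ρ' c _).symm
      rw [e1]
      refine Submodule.linearMap_qext _ (LinearMap.ext fun x => ?_)
      change L.mkQ (ρ (c ^ p ^ k) x) = L.mkQ x
      rw [map_pow, hρ]
      rfl) h2
    have h4 := hf (ZMod p) U (U ⧸ L) (1 : Representation (ZMod p) G (ZMod p)) ρ ρ'
      (LinearMap.toSpanSingleton (ZMod p) U u) L.mkQ (fun g x => by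
        rw [LinearMap.toSpanSingleton_apply, LinearMap.toSpanSingleton_apply, map_smul, hfix]
        rfl) (fun g x => rfl) (by
        rw [injective_iff_map_eq_zero]
        intro x hx
        rw [LinearMap.toSpanSingleton_apply] at hx
        exact (smul_eq_zero.1 hx).resolve_right hu0) (Submodule.mkQ_surjective _)
      (fun y => by
        rw [Submodule.mkQ_apply, Submodule.Quotient.mk_eq_zero, Submodule.mem_span_singleton]
        rfl)
    rw [h4, h3]
    push_cast
    ring

end unipotent

end

end Fermat.Agent.CFT.AV
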