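import Mathlib

/-!
# Traces of automorphisms of finite order of lattices
-/

set_option autoImplicit false
set_option linter.unusedSectionVars false
set_option linter.unusedVariables false
set_option linter.style.haveILetI false

namespace Fermat.Agent.CFT.LC

noncomputable section

open Module

section trace

/-- traces of integral matrices of finite order -/
theorem matrix_trace {ι : Type} [Fintype ι] [DecidableEq ι] {n : ℕ} (hn : n ≠ 0)
    {M : Matrix ι ι ℤ} (hM : M ^ n = 1) {k : ℕ} (hk : k.Coprime n) :
    (M ^ k).trace = M.trace := by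
  by_contra hne
  haveI : NeZero n := ⟨hn⟩
  have hu : IsUnit (k : ZMod n) := (ZMod.isUnit_iff_coprime k n).2 hk
  obtain ⟨l, hl, hlp, hlk⟩ := Nat.forall_exists_prime_gt_and_eq_mod hu
    ((M ^ k).trace - M.trace).natAbs
  haveI : Fact l.Prime := ⟨hlp⟩
  have h1 : M ^ l = M ^ k := by
    rw [pow_eq_pow_mod l hM, pow_eq_pow_mod k hM, (ZMod.natCast_eq_natCast_iff' l k n).1 hlk]
  have h2 : (((M ^ l).trace : ℤ) : ZMod l) = (M.trace : ℤ) := by
    have h3 := ZMod.trace_pow_card (M.map (Int.castRingHom (ZMod l)))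
    rw [ZMod.pow_card] at h3
    have h4 : (M.map (Int.castRingHom (ZMod l))) ^ l = (M ^ l).map (Int.castRingHom (ZMod l)) :=
      (map_pow (Int.castRingHom (ZMod l)).mapMatrix M l).symm
    rw [h4] at h3
    have h5 : ∀ A : Matrix ι ι ℤ, (A.map (Int.castRingHom (ZMod l))).trace = ((A.trace : ℤ) : ZMod l) :=
      fun A => (AddMonoidHom.map_trace (Int.castRingHom (ZMod l)).toAddMonoidHom A).symm
    rwa [h5, h5] at h3
  rw [h1, ← sub_eq_zero, ← Int.cast_sub, ZMod.intCast_zmod_eq_zero_iff_dvd] at h2
  have h6 := Int.natAbs_dvd_natAbs.2 h2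
  rw [Int.natAbs_natCast] at h6
  have h7 := Nat.le_of_dvd (Int.natAbs_pos.2 (sub_ne_zero.2 hne)) h6
  omega

/-- traces of endomorphisms of finite order of lattices -/
theorem trace_pow_coprime {L : Type} [AddCommGroup L] [Module.Free ℤ L] [Module.Finite ℤ L]
    {n : ℕ} (hn : n ≠ 0) {σ : Module.End ℤ L} (hσ : σ ^ n = 1) {k : ℕ} (hk : k.Coprime n) :
    LinearMap.trace ℤ L (σ ^ k) = LinearMap.trace ℤ L σ := by
  classical
  let b := Module.Free.chooseBasis ℤ L
  have h1 : ∀ f : Module.End ℤ L, LinearMap.trace ℤ L f = (LinearMap.toMatrixAlgEquiv b f).trace :=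
    fun f => by
      rw [LinearMap.trace_eq_matrix_trace ℤ b]
      rfl
  rw [h1, h1, map_pow]
  exact matrix_trace hn (by rw [← map_pow, hσ, map_one]) hk

/-- averages -/
theorem sum_trace {V : Type} [AddCommGroup V] [Module ℚ V] [Module.Finite ℚ V] {m : ℕ}
    (hm : m ≠ 0) {τ : Module.End ℚ V} (hτ : τ ^ m = 1) :
    ∑ j ∈ Finset.range m, LinearMap.trace ℚ V (τ ^ j) =
      m * finrank ℚ (LinearMap.ker (τ - 1)) := by
  have hm' : (m : ℚ) ≠ 0 := by exact_mod_cast hm
  have h1 : LinearMap.IsProj (LinearMap.ker (τ - 1)) ((m : ℚ)⁻¹ • ∑ j ∈ Finset.range m, τ ^ j) := by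
    constructor
    · intro x
      rw [LinearMap.mem_ker, ← Module.End.mul_apply, mul_smul_comm, mul_geom_sum, hτ, sub_self,
        smul_zero]
      rfl
    · intro x hx
      have h2 : τ x = x := by
        rw [LinearMap.mem_ker] at hx
        exact sub_eq_zero.1 hx
      have h3 : ∀ j, (τ ^ j) x = x := fun j => by
        induction j with
        | zero => rfl
        | succ j ih => rw [pow_succ, Module.End.mul_apply, h2, ih]
      rw [LinearMap.smul_apply, LinearMap.sum_apply, Finset.sum_congr rfl fun j _ => h3 j,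
        Finset.sum_const, Finset.card_range, ← Nat.cast_smul_eq_nsmul ℚ, smul_smul,
        inv_mul_cancel₀ hm', one_smul]
  have h2 := h1.trace
  rw [map_smul, map_sum, smul_eq_mul] at h2
  rw [← h2, mul_inv_cancel_left₀ hm']

end trace

section comb

/-- the combinatorial lemma: class functions on cyclic groups -/
theorem delta_zero {n : ℕ} (hn : n ≠ 0) {δ : ℕ → ℚ} (h0 : ∀ k, δ k = δ (k.gcd n))
    (h1 : ∀ d, d ∣ n → ∑ j ∈ Finset.range (n / d), δ (d * j) = 0) (k : ℕ) : δ k = 0 := by
  have key : ∀ m d, d ∣ n → n / d = m → δ d = 0 := by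
    intro m
    induction m using Nat.strong_induction_on with
    | _ m ih =>
      intro d hd hm
      obtain ⟨c, hc⟩ := hd
      have hd0 : 0 < d := Nat.pos_of_ne_zero (by rintro rfl; simp at hc; exact hn hc)
      have hc0 : 0 < c := Nat.pos_of_ne_zero (by rintro rfl; simp at hc; exact hn hc)
      have hmc : m = c := by rw [← hm, hc, Nat.mul_div_cancel_left _ hd0]
      subst hmc
      have h2 := h1 d ⟨m, hc⟩
      rw [hm] at h2
      have h3 : ∀ j ∈ Finset.range m, δ (d * j) = if j.Coprime m then δ d else 0 := by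
        intro j hj
        rw [h0 (d * j), hc, Nat.gcd_mul_left]
        split_ifs with hcop
        · rw [Nat.Coprime] at hcop
          rw [hcop, mul_one]
        · have hg : j.gcd m ∣ m := Nat.gcd_dvd_right j m
          have hg1 : j.gcd m ≠ 1 := hcop
          have hgpos : 0 < j.gcd m := Nat.gcd_pos_of_pos_right j hc0
          generalize j.gcd m = g at hg hg1 hgpos ⊢
          obtain ⟨e, he⟩ := hg
          have he0 : 0 < e := Nat.pos_of_ne_zero (by rintro rfl; omega)
          have h5 : n / (d * g) = e := by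
            rw [hc, he, ← mul_assoc, Nat.mul_div_cancel_left _ (Nat.mul_pos hd0 hgpos)]
          refine ih e ?_ (d * g) ⟨e, by rw [hc, mul_assoc, ← he]⟩ h5
          have h6 : 2 ≤ g := by omega
          calc e < g * e := by nlinarith
            _ = m := he.symm
      rw [Finset.sum_congr rfl h3, ← Finset.sum_filter, Finset.sum_const] at h2
      have h4 : (Finset.filter (fun j => j.Coprime m) (Finset.range m)).card ≠ 0 := by
        rw [Finset.card_ne_zero]
        by_cases hm1 : m = 1
        · exact ⟨0, by simp [hm1]⟩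
        · exact ⟨1, by
            rw [Finset.mem_filter, Finset.mem_range]
            exact ⟨by omega, Nat.coprime_one_left m⟩⟩
      rcases smul_eq_zero.1 h2 with h | h
      · exact absurd h h4
      · exact h
  rw [h0]
  exact key _ _ (Nat.gcd_dvd_right k n) rfl

end comb

end

end Fermat.Agent.CFT.LC
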