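import Fermat.Agent.CFT.NeedB1

/-!
# Rationalisation of finitely generated abelian groups with an operator
-/

set_option autoImplicit false
set_option linter.unusedSectionVars false
set_option linter.unusedVariables false
set_option linter.style.haveILetI false

open scoped TensorProduct nonZeroDivisors

namespace Fermat.Agent.CFT.LC

noncomputable section

open Module

section VV

variable (M : Type) [AddCommGroup M] [Module.Finite ℤ M]

/-- the torsion free quotient -/
abbrev LL : Type := M ⧸ Submodule.torsion ℤ M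

/-- the rationalisation -/
abbrev VV : Type := ℚ ⊗[ℤ] LL M

/-- the canonical map -/
def io : M →ₗ[ℤ] VV M := (TensorProduct.mk ℤ ℚ (LL M) 1) ∘ₗ (Submodule.torsion ℤ M).mkQ

instance : Module.Free ℤ (LL M) := Module.free_of_finite_type_torsion_free'

variable {M}

theorem io_eq_zero {m : M} : io M m = 0 ↔ ∃ k : ℤ, k ≠ 0 ∧ k • m = 0 := by
  have h1 : io M m = TensorProduct.mk ℤ ℚ (LL M) 1 ((Submodule.torsion ℤ M).mkQ m) := rfl
  rw [h1, ← map_zero (TensorProduct.mk ℤ ℚ (LL M) 1),
    IsLocalizedModule.eq_iff_exists ℤ⁰ (TensorProduct.mk ℤ ℚ (LL M) 1)]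
  constructor
  · rintro ⟨c, hc⟩
    rw [smul_zero] at hc
    have hc' : (Submodule.torsion ℤ M).mkQ ((c : ℤ) • m) = 0 := by
      rw [map_smul]
      exact hc
    rw [Submodule.mkQ_apply, Submodule.Quotient.mk_eq_zero, Submodule.mem_torsion_iff] at hc'
    obtain ⟨a, ha⟩ := hc'
    exact ⟨a * c, mul_ne_zero (nonZeroDivisors.coe_ne_zero a) (nonZeroDivisors.coe_ne_zero c), by
      rw [mul_smul]; exact ha⟩
  · rintro ⟨k, hk, h⟩
    refine ⟨1, ?_⟩
    rw [one_smul, one_smul, Submodule.mkQ_apply, Submodule.Quotient.mk_eq_zero,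
      Submodule.mem_torsion_iff]
    exact ⟨⟨k, mem_nonZeroDivisors_of_ne_zero hk⟩, h⟩

theorem exists_io (v : VV M) : ∃ k : ℤ, k ≠ 0 ∧ ∃ m : M, k • v = io M m := by
  obtain ⟨⟨x, s⟩, h⟩ := IsLocalizedModule.surj ℤ⁰ (TensorProduct.mk ℤ ℚ (LL M) 1) v
  obtain ⟨m, rfl⟩ := Submodule.mkQ_surjective _ x
  exact ⟨s, nonZeroDivisors.coe_ne_zero s, m, h⟩

variable (σ : Module.End ℤ M)

/-- the induced operator -/
def sL : Module.End ℤ (LL M) := (Submodule.torsion ℤ M).mapQ _ σ (by
  intro x hx
  rw [Submodule.mem_comap, Submodule.mem_torsion_iff] at *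
  obtain ⟨a, ha⟩ := hx
  refine ⟨a, ?_⟩
  change (a : ℤ) • σ x = 0
  rw [← map_smul]
  exact (congrArg σ ha).trans (map_zero σ))

theorem sL_mk (m : M) : sL σ ((Submodule.torsion ℤ M).mkQ m) = (Submodule.torsion ℤ M).mkQ (σ m) :=
  rfl

theorem sL_pow (k : ℕ) : sL σ ^ k = sL (σ ^ k) := by
  induction k with
  | zero =>
    refine LinearMap.ext fun x => ?_
    obtain ⟨m, rfl⟩ := Submodule.mkQ_surjective _ x
    rfl
  | succ k ih =>
    refine LinearMap.ext fun x => ?_
    obtain ⟨m, rfl⟩ := Submodule.mkQ_surjective _ x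
    rw [pow_succ, Module.End.mul_apply, sL_mk, ih, sL_mk, sL_mk, pow_succ]
    rfl

theorem sL_one : sL (1 : Module.End ℤ M) = 1 := by
  refine LinearMap.ext fun x => ?_
  obtain ⟨m, rfl⟩ := Submodule.mkQ_surjective _ x
  rfl

/-- the induced operator -/
def sV : Module.End ℚ (VV M) := (sL σ).baseChange ℚ

theorem sV_io (m : M) : sV σ (io M m) = io M (σ m) := rfl

theorem sV_pow (k : ℕ) : sV σ ^ k = sV (σ ^ k) := by
  rw [sV, sV, ← sL_pow]
  exact (LinearMap.baseChange_pow _ _ _ _ _).symm

theorem sV_one : sV (1 : Module.End ℤ M) = 1 := by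
  rw [sV, sL_one]
  exact LinearMap.baseChange_id

theorem trace_sV (k : ℕ) : LinearMap.trace ℚ (VV M) (sV σ ^ k) =
    (LinearMap.trace ℤ (LL M) (sL σ ^ k) : ℚ) := by
  rw [sV_pow, sV, ← sL_pow]
  exact LinearMap.trace_baseChange _ ℚ

/-- ranks of kernels -/
theorem finrank_ker (d : ℕ) : finrank ℚ (LinearMap.ker (sV σ ^ d - 1)) =
    finrank ℤ (LinearMap.ker (σ ^ d - 1)) := by
  let g : LinearMap.ker (σ ^ d - 1) →ₗ[ℤ] LinearMap.ker (sV σ ^ d - 1) :=
    { toFun := fun m => ⟨io M m, by
        rw [sV_pow, LinearMap.mem_ker, LinearMap.sub_apply, sV_io, Module.End.one_apply,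
          ← map_sub]
        have h1 : (σ ^ d) (m : M) - m = 0 := m.2
        rw [h1, map_zero]⟩
      map_add' := fun x y => Subtype.ext (map_add (io M) _ _)
      map_smul' := fun c x => Subtype.ext (map_smul (io M) c _) }
  have hg : ∀ m, ((g m : LinearMap.ker (sV σ ^ d - 1)) : VV M) = io M m := fun m => rfl
  haveI : IsLocalizedModule ℤ⁰ g := by
    refine ⟨fun s => ?_, fun y => ?_, fun {x y} h => ?_⟩
    · rw [Module.End.isUnit_iff]
      have hs : ((s : ℤ) : ℚ) ≠ 0 := by exact_mod_cast nonZeroDivisors.coe_ne_zero s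
      constructor
      · intro x y h
        have h1 : (s : ℤ) • x = (s : ℤ) • y := h
        rw [← Int.cast_smul_eq_zsmul ℚ, ← Int.cast_smul_eq_zsmul ℚ] at h1
        exact smul_right_injective _ hs h1
      · intro y
        refine ⟨((s : ℤ) : ℚ)⁻¹ • y, ?_⟩
        change (s : ℤ) • ((s : ℤ) : ℚ)⁻¹ • y = y
        rw [← Int.cast_smul_eq_zsmul ℚ, smul_smul, mul_inv_cancel₀ hs, one_smul]
    · obtain ⟨k, hk, m, hm⟩ := exists_io (y : VV M)
      have h1 : io M ((σ ^ d) m - m) = 0 := by
        rw [map_sub, ← sV_io, ← sV_pow, ← hm, map_zsmul, ← smul_sub]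
        have h2 : (sV σ ^ d) (y : VV M) - y = 0 := y.2
        rw [h2, smul_zero]
      obtain ⟨t, ht, h2⟩ := io_eq_zero.1 h1
      refine ⟨(⟨t • m, ?_⟩, ⟨t * k, mem_nonZeroDivisors_of_ne_zero (mul_ne_zero ht hk)⟩), ?_⟩
      · rw [LinearMap.mem_ker, LinearMap.sub_apply, Module.End.one_apply, map_smul, ← smul_sub, h2]
      · refine Subtype.ext ?_
        change (t * k) • (y : VV M) = io M (t • m)
        rw [mul_smul, hm, map_smul]
    · have h1 : io M ((x : M) - y) = 0 := by
        rw [map_sub, sub_eq_zero]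
        exact congrArg Subtype.val h
      obtain ⟨t, ht, h2⟩ := io_eq_zero.1 h1
      refine ⟨⟨t, mem_nonZeroDivisors_of_ne_zero ht⟩, Subtype.ext ?_⟩
      change t • (x : M) = t • (y : M)
      rwa [smul_sub, sub_eq_zero] at h2
  rw [← IsLocalizedModule.finrank_eq ℤ⁰ g le_rfl, IsLocalization.finrank_eq ℚ ℤ⁰ le_rfl]

end VV

section orbits

variable {Y : Type} [Finite Y]

/-- the operator on functions -/
def tY (R : Type) [CommRing R] (π : Equiv.Perm Y) : Module.End R (Y → R) :=
  LinearMap.funLeft R R π.symm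

theorem tY_apply (R : Type) [CommRing R] (π : Equiv.Perm Y) (φ : Y → R) (y : Y) :
    tY R π φ y = φ (π.symm y) := rfl

theorem tY_pow (R : Type) [CommRing R] (π : Equiv.Perm Y) (d : ℕ) :
    tY R π ^ d = tY R (π ^ d) := by
  induction d with
  | zero => rfl
  | succ d ih =>
    rw [pow_succ', ih]
    refine LinearMap.ext fun φ => funext fun y => ?_
    rw [Module.End.mul_apply, tY_apply, tY_apply, tY_apply]
    congr 1

theorem finrank_orbits (κ : Equiv.Perm Y) : finrank ℤ (LinearMap.ker (tY ℤ κ - 1)) =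
    Nat.card (MulAction.orbitRel.Quotient (Subgroup.zpowers κ) Y) := by
  classical
  haveI := Fintype.ofFinite Y
  haveI : Fintype (MulAction.orbitRel.Quotient (Subgroup.zpowers κ) Y) := Fintype.ofFinite _
  let mk : Y → MulAction.orbitRel.Quotient (Subgroup.zpowers κ) Y := Quotient.mk''
  have hmk : ∀ y, mk (κ y) = mk y := fun y => Quotient.sound' ⟨⟨κ, Subgroup.mem_zpowers κ⟩, rfl⟩
  let e : (MulAction.orbitRel.Quotient (Subgroup.zpowers κ) Y → ℤ) →ₗ[ℤ]
      LinearMap.ker (tY ℤ κ - 1) :=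
    { toFun := fun F => ⟨fun y => F (mk y), by
        rw [LinearMap.mem_ker]
        funext y
        change F (mk (κ.symm y)) - F (mk y) = 0
        rw [← hmk (κ.symm y), Equiv.apply_symm_apply, sub_self]⟩
      map_add' := fun F G => rfl
      map_smul' := fun c F => rfl }
  have he : Function.Bijective e := by
    constructor
    · intro F G h
      funext z
      obtain ⟨y, rfl⟩ := Quotient.mk''_surjective z
      exact congrFun (congrArg Subtype.val h) y
    · rintro ⟨φ, hφ⟩
      have h1 : ∀ y, φ (κ y) = φ y := fun y => by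
        have h2 : φ (κ.symm (κ y)) - φ (κ y) = 0 := congrFun hφ (κ y)
        rw [Equiv.symm_apply_apply, sub_eq_zero] at h2
        exact h2.symm
      let St : Subgroup (Equiv.Perm Y) :=
        { carrier := {g | ∀ y, φ (g y) = φ y}
          mul_mem' := fun {a b} ha hb y => by
            rw [Equiv.Perm.mul_apply, ha, hb]
          one_mem' := fun y => rfl
          inv_mem' := fun {a} ha y => by
            have := ha (a⁻¹ y)
            have h3 : a (a⁻¹ y) = y := Equiv.apply_symm_apply a y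
            rw [h3] at this
            exact this.symm }
      have h2 : Subgroup.zpowers κ ≤ St := by
        rw [Subgroup.zpowers_le]
        exact h1
      refine ⟨fun z => Quotient.liftOn' z φ ?_, rfl⟩
      rintro a b ⟨g, rfl⟩
      exact h2 g.2 b
  rw [← (LinearEquiv.ofBijective e he).finrank_eq, Module.finrank_fintype_fun_eq_card,
    Nat.card_eq_fintype_card]

end orbits

end

end Fermat.Agent.CFT.LC
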