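import Fermat.Agent.CFT.NeedB2
import Fermat.Agent.CFT.NeedA3

/-!
# Comparison of lattices with an operator of finite order
-/

set_option autoImplicit false
set_option linter.unusedSectionVars false
set_option linter.unusedVariables false
set_option linter.style.haveILetI false

open scoped TensorProduct nonZeroDivisors

namespace Fermat.Agent.CFT.LC

noncomputable section

open Module

/-- the representation of a cyclic group attached to an operator -/
def cr {R V : Type} [CommRing R] [AddCommGroup V] [Module R V] {n : ℕ} [NeZero n]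
    {T : Module.End R V} (hT : T ^ n = 1) : Representation R (Multiplicative (ZMod n)) V where
  toFun k := T ^ k.toAdd.val
  map_one' := by
    change T ^ (0 : ZMod n).val = 1
    rw [ZMod.val_zero, pow_zero]
  map_mul' a b := by
    change T ^ (a.toAdd + b.toAdd).val = _
    rw [ZMod.val_add, ← pow_eq_pow_mod _ hT, pow_add]

theorem cr_apply {R V : Type} [CommRing R] [AddCommGroup V] [Module R V] {n : ℕ} [NeZero n]
    {T : Module.End R V} (hT : T ^ n = 1) (k : Multiplicative (ZMod n)) :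
    cr hT k = T ^ k.toAdd.val := rfl

theorem cr_gen {R V : Type} [CommRing R] [AddCommGroup V] [Module R V] {n : ℕ} [NeZero n]
    {T : Module.End R V} (hT : T ^ n = 1) : cr hT (Multiplicative.ofAdd 1) = T := by
  rw [cr_apply]
  change T ^ (1 : ZMod n).val = T
  by_cases h1 : n = 1
  · subst h1
    rw [pow_one] at hT
    rw [hT, one_pow]
  · haveI : Fact (1 < n) := ⟨by have := NeZero.ne n; omega⟩
    rw [ZMod.val_one, pow_one]

variable {M M' : Type} [AddCommGroup M] [Module.Finite ℤ M] [AddCommGroup M'] [Module.Finite ℤ M']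
  {n : ℕ} [hn : NeZero n] {σ : Module.End ℤ M} {σ' : Module.End ℤ M'}

theorem trace_gcd (hσ : σ ^ n = 1) (k : ℕ) : LinearMap.trace ℤ (LL M) (sL σ ^ k) =
    LinearMap.trace ℤ (LL M) (sL σ ^ k.gcd n) := by
  have hn0 := NeZero.ne n
  have hg : 0 < k.gcd n := Nat.gcd_pos_of_pos_right k (Nat.pos_of_ne_zero hn0)
  obtain ⟨n', k', hco, hk, hn'⟩ := Nat.exists_coprime k n
  have h1 : (sL σ ^ k.gcd n) ^ k' = 1 := by
    rw [← pow_mul, mul_comm, ← hn', sL_pow, hσ, sL_one]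
  have h2 := trace_pow_coprime (L := LL M) (n := k') (by
    rintro rfl
    rw [zero_mul] at hn'
    exact hn0 hn') h1 (k := n') hco
  rw [← pow_mul, mul_comm, ← hk] at h2
  exact h2

/-- equality of characters -/
theorem trace_eq (hσ : σ ^ n = 1) (hσ' : σ' ^ n = 1)
    (h : ∀ d, d ∣ n → finrank ℤ (LinearMap.ker (σ ^ d - 1)) =
      finrank ℤ (LinearMap.ker (σ' ^ d - 1))) (k : ℕ) :
    LinearMap.trace ℚ (VV M) (sV σ ^ k) = LinearMap.trace ℚ (VV M') (sV σ' ^ k) := by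
  have hn0 := NeZero.ne n
  rw [← sub_eq_zero]
  refine delta_zero hn0 (δ := fun k => LinearMap.trace ℚ (VV M) (sV σ ^ k) -
    LinearMap.trace ℚ (VV M') (sV σ' ^ k)) (fun k => ?_) (fun d hd => ?_) k
  · change LinearMap.trace ℚ (VV M) (sV σ ^ k) - LinearMap.trace ℚ (VV M') (sV σ' ^ k) =
      LinearMap.trace ℚ (VV M) (sV σ ^ k.gcd n) - LinearMap.trace ℚ (VV M') (sV σ' ^ k.gcd n)
    rw [trace_sV, trace_sV, trace_sV, trace_sV, trace_gcd hσ, trace_gcd hσ']
  · obtain ⟨m, hm⟩ := hd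
    have hd0 : 0 < d := Nat.pos_of_ne_zero (by rintro rfl; simp at hm; exact hn0 hm)
    have hm0 : m ≠ 0 := by rintro rfl; simp at hm; exact hn0 hm
    have e1 : n / d = m := by rw [hm, Nat.mul_div_cancel_left _ hd0]
    have h1 : (sV σ ^ d) ^ m = 1 := by rw [← pow_mul, ← hm, sV_pow, hσ, sV_one]
    have h2 : (sV σ' ^ d) ^ m = 1 := by rw [← pow_mul, ← hm, sV_pow, hσ', sV_one]
    have h3 := sum_trace hm0 h1
    have h4 := sum_trace hm0 h2
    rw [finrank_ker] at h3 h4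
    rw [e1, Finset.sum_sub_distrib]
    simp only [pow_mul]
    rw [h3, h4, h d ⟨m, hm⟩, sub_self]

/-- isomorphic rationalisations -/
theorem exists_VV (hσ : σ ^ n = 1) (hσ' : σ' ^ n = 1)
    (h : ∀ d, d ∣ n → finrank ℤ (LinearMap.ker (σ ^ d - 1)) =
      finrank ℤ (LinearMap.ker (σ' ^ d - 1))) :
    ∃ φ : VV M →ₗ[ℚ] VV M', (∀ x, φ (sV σ x) = sV σ' (φ x)) ∧ Function.Bijective φ := by
  have h1 : sV σ ^ n = 1 := by rw [sV_pow, hσ, sV_one]
  have h2 : sV σ' ^ n = 1 := by rw [sV_pow, hσ', sV_one]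
  obtain ⟨φ, hφ, hb⟩ := AV.exists_bij (cr h1) (cr h2) (fun g => by
    rw [cr_apply, cr_apply, trace_eq hσ hσ' h])
  refine ⟨φ, fun x => ?_, hb⟩
  have h3 := hφ (Multiplicative.ofAdd 1) x
  rwa [cr_gen, cr_gen] at h3

/-- uniform multiples -/
theorem exists_unif_mul (N : Submodule ℤ M) (h : ∀ m : M, ∃ k : ℤ, k ≠ 0 ∧ k • m ∈ N) :
    ∃ k : ℤ, k ≠ 0 ∧ ∀ m : M, k • m ∈ N := by
  classical
  obtain ⟨r, s, hs⟩ := Module.Finite.exists_fin (R := ℤ) (M := M)
  choose k hk hkm using fun i => h (s i)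
  refine ⟨∏ i, k i, Finset.prod_ne_zero_iff.2 fun i _ => hk i, fun m => ?_⟩
  have hm : m ∈ Submodule.span ℤ (Set.range s) := by rw [hs]; trivial
  induction hm using Submodule.span_induction with
  | mem x hx =>
    obtain ⟨i, rfl⟩ := hx
    obtain ⟨c, hc⟩ := Finset.dvd_prod_of_mem k (Finset.mem_univ i)
    rw [hc, mul_comm, mul_smul]
    exact N.smul_mem c (hkm i)
  | zero => rw [smul_zero]; exact N.zero_mem
  | add x y _ _ hx hy => rw [smul_add]; exact N.add_mem hx hy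
  | smul a x _ hx => rw [smul_comm]; exact N.smul_mem a hx

/-- **comparison** -/
theorem exists_compare (hσ : σ ^ n = 1) (hσ' : σ' ^ n = 1)
    (h : ∀ d, d ∣ n → finrank ℤ (LinearMap.ker (σ ^ d - 1)) =
      finrank ℤ (LinearMap.ker (σ' ^ d - 1))) (htf : ∀ (k : ℤ) (x : M'), k ≠ 0 → k • x = 0 → x = 0) :
    ∃ ψ : M →ₗ[ℤ] M', (∀ x, ψ (σ x) = σ' (ψ x)) ∧ (∀ x, ψ x = 0 → ∃ k : ℤ, k ≠ 0 ∧ k • x = 0) ∧
      ∃ D : ℤ, D ≠ 0 ∧ ∀ y, ∃ x, ψ x = D • y := by
  obtain ⟨φ, hφ, hb⟩ := exists_VV hσ hσ' h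
  have hinj : Function.Injective (io M') := by
    rw [injective_iff_map_eq_zero]
    intro x hx
    obtain ⟨k, hk, h1⟩ := io_eq_zero.1 hx
    exact htf k x hk h1
  let F : M →ₗ[ℤ] VV M' := (φ.restrictScalars ℤ) ∘ₗ io M
  have hF : ∀ m, F m = φ (io M m) := fun m => rfl
  obtain ⟨D, hD, hDm⟩ := exists_unif_mul ((LinearMap.range (io M')).comap F) (fun m => by
    obtain ⟨k, hk, m', h1⟩ := exists_io (F m)
    refine ⟨k, hk, ?_⟩
    rw [Submodule.mem_comap, map_smul, h1]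
    exact ⟨m', rfl⟩)
  choose ψ hψ using hDm
  have hψ' : ∀ m, io M' (ψ m) = D • φ (io M m) := fun m => by
    rw [hψ m, map_smul]
    rfl
  let Ψ : M →ₗ[ℤ] M' := (AddMonoidHom.mk' ψ fun x y => hinj (by
    rw [map_add, hψ', hψ', hψ', map_add, map_add, smul_add])).toIntLinearMap
  have hΨ : ∀ m, io M' (Ψ m) = D • φ (io M m) := hψ'
  refine ⟨Ψ, fun x => hinj ?_, fun x hx => ?_, ?_⟩
  · rw [hΨ, ← sV_io, hφ, ← sV_io, hΨ]
    exact (map_zsmul (sV σ') D _).symm
  · have h1 := hΨ x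
    rw [hx, map_zero] at h1
    have h2 : φ (io M x) = 0 := by
      rw [← Int.cast_smul_eq_zsmul ℚ, eq_comm] at h1
      exact (smul_eq_zero.1 h1).resolve_left (by exact_mod_cast hD)
    exact io_eq_zero.1 (hb.1 (h2.trans (map_zero φ).symm))
  · obtain ⟨E, hE, hEm⟩ := exists_unif_mul (LinearMap.range Ψ) (fun y => by
      obtain ⟨v, hv⟩ := hb.2 (io M' y)
      obtain ⟨k, hk, m, h1⟩ := exists_io v
      refine ⟨D * k, mul_ne_zero hD hk, m, hinj ?_⟩
      rw [hΨ, ← h1, map_zsmul φ k v, hv, map_smul, mul_smul])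
    exact ⟨E, hE, hEm⟩

end

end Fermat.Agent.CFT.LC
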