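import Fermat.Agent.CFT.NeedB3
import Fermat.Agent.CFT.NeedA2

/-!
# The additive function counting equivariant homomorphisms
-/

set_option autoImplicit false
set_option linter.unusedSectionVars false
set_option linter.unusedVariables false
set_option linter.style.haveILetI false

open scoped TensorProduct nonZeroDivisors

namespace Fermat.Agent.CFT.LC

noncomputable section

open Module

/-- averaging -/
theorem avg_surj {k E F : Type} [Field k] [AddCommGroup E] [Module k E] [AddCommGroup F]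
    [Module k F] {n : ℕ} (hn : (n : k) ≠ 0) {a : Module.End k E} {b : Module.End k F}
    (ha : a ^ n = 1) (J : E →ₗ[k] F) (hJ : ∀ x, J (a x) = b (J x)) (hs : Function.Surjective J)
    (y : F) (hy : b y = y) : ∃ x, a x = x ∧ J x = y := by
  obtain ⟨x, hx⟩ := hs y
  have hpow : ∀ i, J ((a ^ i) x) = y := by
    intro i
    induction i with
    | zero => simpa using hx
    | succ i ih => rw [pow_succ', Module.End.mul_apply, hJ, ih, hy]
  refine ⟨(n : k)⁻¹ • ∑ i ∈ Finset.range n, (a ^ i) x, ?_, ?_⟩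
  · rw [map_smul, map_sum]
    congr 1
    have h1 : ∀ i, a ((a ^ i) x) = (a ^ (i + 1)) x := fun i => by
      rw [pow_succ', Module.End.mul_apply]
    simp_rw [h1]
    have h2 := Finset.sum_range_succ' (fun i => (a ^ i) x) n
    have h3 := Finset.sum_range_succ (fun i => (a ^ i) x) n
    rw [h3, ha] at h2
    simpa using h2.symm
  · rw [map_smul, map_sum, Finset.sum_congr rfl fun i _ => hpow i, Finset.sum_const,
      Finset.card_range, ← Nat.cast_smul_eq_nsmul k, smul_smul, inv_mul_cancel₀ hn, one_smul]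

section

variable {p : ℕ} [hp : Fact p.Prime] {W : Type} [AddCommGroup W] [Module (ZMod p) W]

/-- the operator on homomorphisms -/
def opW (S' : Module.End (ZMod p) W) {A : Type} [AddCommGroup A] [Module (ZMod p) A]
    (T : Module.End (ZMod p) A) : Module.End (ZMod p) (W →ₗ[ZMod p] A) where
  toFun φ := T ∘ₗ φ ∘ₗ S'
  map_add' φ ψ := LinearMap.ext fun w => by simp
  map_smul' c φ := LinearMap.ext fun w => by simp

variable {A : Type} [AddCommGroup A] [Module (ZMod p) A]

theorem opW_apply (S' : Module.End (ZMod p) W) (T : Module.End (ZMod p) A)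
    (φ : W →ₗ[ZMod p] A) (w : W) : opW S' T φ w = T (φ (S' w)) := rfl

theorem opW_pow (S' : Module.End (ZMod p) W) (T : Module.End (ZMod p) A) (i : ℕ) :
    opW S' T ^ i = opW (S' ^ i) (T ^ i) := by
  induction i with
  | zero => rfl
  | succ i ih =>
    rw [pow_succ, ih]
    refine LinearMap.ext fun φ => LinearMap.ext fun w => ?_
    rw [Module.End.mul_apply, opW_apply, opW_apply, opW_apply, pow_succ T, Module.End.mul_apply,
      pow_succ' S', Module.End.mul_apply]

variable {n : ℕ} [hn : NeZero n] {S : Module.End (ZMod p) W}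

theorem mem_hc (hS : S ^ n = 1) {T : Module.End (ZMod p) A} {φ : W →ₗ[ZMod p] A} :
    φ ∈ LinearMap.ker (opW (S ^ (n - 1)) T - 1) ↔ ∀ w, φ (S w) = T (φ w) := by
  have hn1 : n - 1 + 1 = n := Nat.sub_add_cancel (NeZero.one_le)
  have h1 : ∀ w, (S ^ (n - 1)) (S w) = w := fun w => by
    rw [← Module.End.mul_apply, ← pow_succ, hn1, hS, Module.End.one_apply]
  have h2 : ∀ w, S ((S ^ (n - 1)) w) = w := fun w => by
    rw [← Module.End.mul_apply, ← pow_succ', hn1, hS, Module.End.one_apply]
  rw [LinearMap.mem_ker, LinearMap.sub_apply, Module.End.one_apply, sub_eq_zero]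
  constructor
  · intro h w
    conv_lhs => rw [← h]
    rw [opW_apply, h1]
  · intro h
    refine LinearMap.ext fun w => ?_
    rw [opW_apply, ← h, h2]

/-- the dimension of the space of equivariant homomorphisms -/
def hc (S : Module.End (ZMod p) W) (n : ℕ) [NeZero n] : AV.Fn p (Multiplicative (ZMod n)) :=
  fun _ _ _ ρ => (finrank (ZMod p)
    (LinearMap.ker (opW (S ^ (n - 1)) (ρ (Multiplicative.ofAdd 1)) - 1)) : ℤ)

theorem opW_one (hS : S ^ n = 1) (ρ : Representation (ZMod p) (Multiplicative (ZMod n)) A) :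
    opW (S ^ (n - 1)) (ρ (Multiplicative.ofAdd 1)) ^ n = 1 := by
  rw [opW_pow, ← pow_mul, mul_comm, pow_mul, hS, one_pow, ← map_pow, ← ofAdd_nsmul]
  rw [nsmul_one, ZMod.natCast_self, ofAdd_zero, map_one]
  rfl

theorem hc_addv [Module.Finite (ZMod p) W] (hS : S ^ n = 1) (hpn : ¬ p ∣ n) :
    AV.Addv (hc S n) := by
  intro A B C _ _ _ _ _ _ _ _ _ ρA ρB ρC i j hi hj hi1 hj1 hij
  have hn0 : (n : ZMod p) ≠ 0 := by rwa [Ne, ZMod.natCast_eq_zero_iff]
  let g : Multiplicative (ZMod n) := Multiplicative.ofAdd 1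
  let KA := LinearMap.ker (opW (S ^ (n - 1)) (ρA g) - 1)
  let KB := LinearMap.ker (opW (S ^ (n - 1)) (ρB g) - 1)
  let KC := LinearMap.ker (opW (S ^ (n - 1)) (ρC g) - 1)
  let J : KB →ₗ[ZMod p] KC :=
    { toFun := fun φ => ⟨j ∘ₗ φ.1, (mem_hc hS).2 fun w => by
        rw [LinearMap.comp_apply, (mem_hc hS).1 φ.2, hj, LinearMap.comp_apply]⟩
      map_add' := fun φ ψ => Subtype.ext (LinearMap.comp_add _ _ _)
      map_smul' := fun c φ => Subtype.ext (LinearMap.comp_smul _ _ _) }
  have hJ : ∀ (φ : KB) w, (J φ).1 w = j (φ.1 w) := fun _ _ => rfl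
  let I : KA →ₗ[ZMod p] LinearMap.ker J :=
    { toFun := fun φ => ⟨⟨i ∘ₗ φ.1, (mem_hc hS).2 fun w => by
        rw [LinearMap.comp_apply, (mem_hc hS).1 φ.2, hi, LinearMap.comp_apply]⟩, by
          rw [LinearMap.mem_ker]
          refine Subtype.ext (LinearMap.ext fun w => ?_)
          rw [hJ]
          exact (hij _).2 ⟨_, rfl⟩⟩
      map_add' := fun φ ψ => Subtype.ext (Subtype.ext (LinearMap.comp_add _ _ _))
      map_smul' := fun c φ => Subtype.ext (Subtype.ext (LinearMap.comp_smul _ _ _)) }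
  have hI : ∀ (φ : KA) w, (I φ).1.1 w = i (φ.1 w) := fun _ _ => rfl
  have hIb : Function.Bijective I := by
    constructor
    · intro φ ψ h
      refine Subtype.ext (LinearMap.ext fun w => hi1 ?_)
      rw [← hI, ← hI, h]
    · rintro ⟨φ, hφ⟩
      have h1 : ∀ w, ∃ a, i a = φ.1 w := fun w => by
        rw [← hij, ← hJ, LinearMap.mem_ker.1 hφ]
        rfl
      choose F hF using h1
      let F' : W →ₗ[ZMod p] A :=
        { toFun := F
          map_add' := fun x y => hi1 (by rw [map_add, hF, hF, hF, map_add])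
          map_smul' := fun c x => hi1 (by rw [map_smul, hF, hF, map_smul]; rfl) }
      have hF' : ∀ w, i (F' w) = φ.1 w := hF
      refine ⟨⟨F', (mem_hc hS).2 fun w => hi1 ?_⟩, Subtype.ext (Subtype.ext (LinearMap.ext fun w => ?_))⟩
      · rw [hF', hi, hF', (mem_hc hS).1 φ.2]
      · rw [hI]
        exact hF' w
  have hJs : Function.Surjective J := by
    rintro ⟨φ, hφ⟩
    have h1 : Function.Surjective (fun ψ : W →ₗ[ZMod p] B => j ∘ₗ ψ) := fun ψ => by
      obtain ⟨s, hs⟩ := j.exists_rightInverse_of_surjective (LinearMap.range_eq_top.2 hj1)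
      refine ⟨s ∘ₗ ψ, ?_⟩
      change j ∘ₗ (s ∘ₗ ψ) = ψ
      rw [← LinearMap.comp_assoc, hs, LinearMap.id_comp]
    obtain ⟨ψ, hψ1, hψ2⟩ := avg_surj hn0 (opW_one hS ρB) (b := opW (S ^ (n - 1)) (ρC g))
      (LinearMap.compRight (ZMod p) j) (fun ψ => by
        refine LinearMap.ext fun w => ?_
        change j (ρB g (ψ _)) = ρC g (j (ψ _))
        rw [hj]) h1 φ (by
        rw [LinearMap.mem_ker, LinearMap.sub_apply, sub_eq_zero] at hφ
        exact hφ)
    refine ⟨⟨ψ, ?_⟩, Subtype.ext hψ2⟩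
    rw [LinearMap.mem_ker, LinearMap.sub_apply, sub_eq_zero]
    exact hψ1
  have h1 := LinearMap.finrank_range_add_finrank_ker J
  rw [LinearMap.range_eq_top.2 hJs, finrank_top,
    ← (LinearEquiv.ofBijective I hIb).finrank_eq] at h1
  change (finrank (ZMod p) KB : ℤ) = finrank (ZMod p) KA + finrank (ZMod p) KC
  rw [← h1]
  push_cast
  ring

end

end

end Fermat.Agent.CFT.LC
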