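import Fermat.Agent.CFT.NeedB4

/-!
# The value of the counting function on permutation modules
-/

set_option autoImplicit false
set_option linter.unusedSectionVars false
set_option linter.unusedVariables false
set_option linter.style.haveILetI false

open scoped TensorProduct nonZeroDivisors

namespace Fermat.Agent.CFT.LC

noncomputable section

open Module

/-- invariant linear forms -/
theorem finrank_dual_ker {k V : Type} [Field k] [AddCommGroup V] [Module k V] [Module.Finite k V]
    (T : Module.End k V) : finrank k (LinearMap.ker (T.dualMap - 1)) =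
      finrank k (LinearMap.ker (T - 1)) := by
  have h0 : T.dualMap - 1 = (T - 1).dualMap := by
    refine LinearMap.ext fun Λ => LinearMap.ext fun v => ?_
    simp [LinearMap.dualMap_apply]
  have h1 := LinearMap.finrank_range_add_finrank_ker (T - 1)
  have h2 := LinearMap.finrank_range_add_finrank_ker (T - 1).dualMap
  rw [LinearMap.finrank_range_dualMap_eq_finrank_range, Subspace.dual_finrank_eq] at h2
  rw [h0]
  omega

section

variable {p : ℕ} [hp : Fact p.Prime] {W : Type} [AddCommGroup W] [Module (ZMod p) W]
  [Module.Finite (ZMod p) W] {Y : Type} [Finite Y] {n : ℕ} [hn : NeZero n]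
  {S : Module.End (ZMod p) W}

/-- the operator on functions with values in `W` -/
def oY (S : Module.End (ZMod p) W) (π : Equiv.Perm Y) : Module.End (ZMod p) (Y → W) where
  toFun ψ := fun y => S (ψ (π.symm y))
  map_add' a b := funext fun y => map_add S _ _
  map_smul' c a := funext fun y => map_smul S _ _

theorem oY_apply (S : Module.End (ZMod p) W) (π : Equiv.Perm Y) (ψ : Y → W) (y : Y) :
    oY S π ψ y = S (ψ (π.symm y)) := rfl

theorem mem_oY {π : Equiv.Perm Y} {ψ : Y → W} :
    ψ ∈ LinearMap.ker (oY S π - 1) ↔ ∀ y, ψ (π y) = S (ψ y) := by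
  rw [LinearMap.mem_ker, LinearMap.sub_apply, Module.End.one_apply, sub_eq_zero]
  constructor
  · intro h y
    rw [← h, oY_apply, Equiv.symm_apply_apply, h]
  · intro h
    funext y
    rw [oY_apply, ← h, Equiv.apply_symm_apply]

open Classical in
theorem oY_single (π : Equiv.Perm Y) (y : Y) (w : W) :
    oY S π (Pi.single y w) = Pi.single (π y) (S w) := by
  funext z
  rw [oY_apply]
  by_cases h : z = π y
  · subst h
    rw [Equiv.symm_apply_apply, Pi.single_eq_same, Pi.single_eq_same]
  · rw [Pi.single_eq_of_ne h, Pi.single_eq_of_ne (fun h' => h (by rw [← h', Equiv.apply_symm_apply])),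
      map_zero]

open Classical in
/-- the comparison -/
def dE [Fintype Y] : Module.Dual (ZMod p) (Y → W) ≃ₗ[ZMod p] (W →ₗ[ZMod p] (Y → ZMod p)) where
  toFun Λ := LinearMap.pi fun y => Λ ∘ₗ LinearMap.single (ZMod p) (fun _ => W) y
  map_add' Λ Λ' := rfl
  map_smul' c Λ := rfl
  invFun Φ := ∑ y, (LinearMap.proj y) ∘ₗ Φ ∘ₗ (LinearMap.proj y)
  left_inv Λ := by
    refine LinearMap.pi_ext' fun y => LinearMap.ext fun w => ?_
    simp only [LinearMap.comp_apply, LinearMap.sum_apply, LinearMap.proj_apply,
      LinearMap.pi_apply, LinearMap.single_apply]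
    rw [Finset.sum_eq_single y]
    · rw [Pi.single_eq_same]
    · intro z _ hz
      rw [Pi.single_eq_of_ne hz, Pi.single_zero, map_zero]
    · intro h; exact absurd (Finset.mem_univ y) h
  right_inv Φ := by
    refine LinearMap.ext fun w => funext fun y => ?_
    simp only [LinearMap.comp_apply, LinearMap.sum_apply, LinearMap.proj_apply,
      LinearMap.pi_apply, LinearMap.single_apply]
    rw [Finset.sum_eq_single y]
    · rw [Pi.single_eq_same]
    · intro z _ hz
      rw [Pi.single_eq_of_ne hz, map_zero]
      rfl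
    · intro h; exact absurd (Finset.mem_univ y) h

open Classical in
theorem dE_apply [Fintype Y] (Λ : Module.Dual (ZMod p) (Y → W)) (w : W) (y : Y) :
    dE Λ w y = Λ (Pi.single y w) := rfl

theorem tY_one (R : Type) [CommRing R] {π : Equiv.Perm Y} (hπ : π ^ n = 1) : tY R π ^ n = 1 := by
  rw [tY_pow, hπ]
  rfl

/-- the value on permutation modules -/
theorem hc_perm (hS : S ^ n = 1) {π : Equiv.Perm Y} (hπ : π ^ n = 1) :
    hc S n (Y → ZMod p) (cr (tY_one (ZMod p) hπ)) =
      (finrank (ZMod p) (LinearMap.ker (oY S π - 1)) : ℤ) := by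
  classical
  haveI := Fintype.ofFinite Y
  rw [← finrank_dual_ker]
  have h1 : LinearMap.ker ((oY S π).dualMap - 1) =
      (LinearMap.ker (opW (S ^ (n - 1)) (cr (tY_one (ZMod p) hπ) (Multiplicative.ofAdd 1)) - 1)).comap
        (dE (p := p) (W := W) (Y := Y)).toLinearMap := by
    ext Λ
    rw [Submodule.mem_comap, LinearEquiv.coe_coe, mem_hc hS, cr_gen, LinearMap.mem_ker,
      LinearMap.sub_apply, sub_eq_zero, Module.End.one_apply]
    constructor
    · intro h w
      funext y
      rw [tY_apply, dE_apply, dE_apply]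
      conv_rhs => rw [← h]
      rw [LinearMap.dualMap_apply, oY_single, Equiv.apply_symm_apply]
    · intro h
      refine LinearMap.pi_ext' fun y => LinearMap.ext fun w => ?_
      have h2 := congrFun (h w) (π y)
      rw [tY_apply, dE_apply, dE_apply, Equiv.symm_apply_apply] at h2
      rw [LinearMap.comp_apply, LinearMap.comp_apply, LinearMap.dualMap_apply,
        LinearMap.single_apply, oY_single, h2]
  rw [h1]
  rw [(LinearEquiv.ofSubmodule' dE _).finrank_eq]
  rfl

/-- reduction of the permutation lattice -/
def redY (p : ℕ) (Y : Type) : (⊤ : AddSubgroup (Y → ℤ)) →+ (Y → ZMod p) where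
  toFun φ := fun y => ((φ : Y → ℤ) y : ZMod p)
  map_zero' := by funext y; simp
  map_add' a b := by funext y; simp

/-- the action on a lattice -/
def crH {M : Type} [AddCommGroup M] {T : Module.End ℤ M} (hT : T ^ n = 1) :
    Multiplicative (ZMod n) →* AddMonoid.End M where
  toFun g := (cr hT g).toAddMonoidHom
  map_one' := by rw [map_one]; rfl
  map_mul' a b := by rw [map_mul]; rfl

theorem crH_apply {M : Type} [AddCommGroup M] {T : Module.End ℤ M} (hT : T ^ n = 1)
    (g : Multiplicative (ZMod n)) (x : M) : crH hT g x = (T ^ g.toAdd.val) x := rfl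

theorem prs_perm {π : Equiv.Perm Y} (hπ : π ^ n = 1) :
    AV.Prs (crH (tY_one ℤ hπ)) (AV.pL p ⊤) ⊤ (Y → ZMod p) (cr (tY_one (ZMod p) hπ)) (redY p Y) where
  surj φ := by
    refine ⟨⟨fun y => (φ y).val, trivial⟩, funext fun y => ?_⟩
    change (((φ y).val : ℤ) : ZMod p) = φ y
    rw [Int.cast_natCast, ZMod.natCast_zmod_val]
  ker := by
    rintro ⟨c, -⟩
    constructor
    · intro h
      have h1 : ∀ y, ∃ k : ℤ, c y = p * k := fun y => by
        have h2 := congrFun h y
        change ((c y : ℤ) : ZMod p) = 0 at h2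
        rwa [ZMod.intCast_zmod_eq_zero_iff_dvd] at h2
      choose k hk using h1
      refine ⟨k, trivial, funext fun y => ?_⟩
      change p • k y = c y
      rw [hk, nsmul_eq_mul]
    · rintro ⟨k, -, rfl⟩
      funext y
      change ((p • k y : ℤ) : ZMod p) = 0
      rw [nsmul_eq_mul]
      push_cast
      rw [ZMod.natCast_self, zero_mul]
  act g c c' h := by
    funext y
    change ((c' : Y → ℤ) y : ZMod p) = cr (tY_one (ZMod p) hπ) g (redY p Y c) y
    rw [cr_apply, tY_pow, tY_apply, h, crH_apply, tY_pow, tY_apply]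
    rfl

end

end

end Fermat.Agent.CFT.LC
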