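import Fermat.Agent.CFT.NeedB5

/-!
# Reduction modulo `p` of finitely generated abelian groups with operators
-/

set_option autoImplicit false
set_option linter.unusedSectionVars false
set_option linter.unusedVariables false
set_option linter.style.haveILetI false

open scoped TensorProduct nonZeroDivisors

namespace Fermat.Agent.CFT.LC

noncomputable section

open Module AV

variable {p : ℕ} [hp : Fact p.Prime] {Γ : Type} [Group Γ] {f : Fn p Γ} (hf : Addv f)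

section

variable {L : Type} [AddCommGroup L] {α : Γ →* AddMonoid.End L}

theorem prs_sub {B C : AddSubgroup L} {U : Type} [AddCommGroup U] [Module (ZMod p) U]
    {ρ : Representation (ZMod p) Γ U} {q : C →+ U} (P : Prs α B C U ρ q) (h : C ≤ B) :
    Subsingleton U := by
  refine ⟨fun x y => ?_⟩
  obtain ⟨c, rfl⟩ := P.surj x
  obtain ⟨d, rfl⟩ := P.surj y
  rw [(P.ker c).2 (h c.2), (P.ker d).2 (h d.2)]

include hf in
/-- the Herbrand quotient of a finite module is trivial -/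
theorem fin_lem [Module.Finite ℤ L] {m : ℕ} (hm : ¬ p ∣ m) (k : ℕ) :
    ∀ (Q K : AddSubgroup L), Stb α Q → (∀ x ∈ Q, (p ^ k * m) • x = 0) →
    (∀ x, x ∈ K ↔ x ∈ Q ∧ p • x = 0) →
    ∀ (U : Type) [AddCommGroup U] [Module (ZMod p) U] [Module.Finite (ZMod p) U]
      (ρ : Representation (ZMod p) Γ U) (q : K →+ U), Prs α ⊥ K U ρ q →
    ∀ (U' : Type) [AddCommGroup U'] [Module (ZMod p) U'] [Module.Finite (ZMod p) U']
      (ρ' : Representation (ZMod p) Γ U') (q' : Q →+ U'), Prs α (pL p Q) Q U' ρ' q' →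
    f U' ρ' = f U ρ := by
  induction k with
  | zero =>
    intro Q K hQ hQm hK U _ _ _ ρ q P U' _ _ _ ρ' q' P'
    have hco : IsCoprime (p : ℤ) (m : ℤ) :=
      Nat.isCoprime_iff_coprime.2 ((Nat.Prime.coprime_iff_not_dvd hp.out).2 hm)
    obtain ⟨a, b, hab⟩ := hco
    have h1 : ∀ x ∈ Q, x = a • (p • x) := fun x hx => by
      have h2 : m • x = 0 := by simpa using hQm x hx
      conv_lhs => rw [← one_zsmul x, ← hab, add_smul, mul_smul, mul_smul, natCast_zsmul,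
        natCast_zsmul, h2, smul_zero, add_zero]
    haveI := prs_sub P (fun x hx => by
      rw [hK] at hx
      rw [AddSubgroup.mem_bot, h1 x hx.1, hx.2, smul_zero])
    haveI := prs_sub P' (fun x hx => ⟨a • x, Q.zsmul_mem hx a, by
      change p • (a • x) = x
      rw [smul_comm, ← h1 x hx]⟩)
    rw [hf.subsingleton, hf.subsingleton]
  | succ k ih =>
    intro Q K hQ hQm hK U _ _ _ ρ q P U' _ _ _ ρ' q' P'
    have hKs : Stb α K := fun g x hx => by
      rw [hK] at hx ⊢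
      refine ⟨hQ g x hx.1, ?_⟩
      rw [← map_nsmul, hx.2, map_zero]
    let Q₁ := pL p Q
    have hQ₁ : Stb α Q₁ := hQ.pL
    let K₁ : AddSubgroup L := Q₁ ⊓ K
    have hK₁ : ∀ x, x ∈ K₁ ↔ x ∈ Q₁ ∧ p • x = 0 := fun x => by
      constructor
      · rintro ⟨h1, h2⟩
        exact ⟨h1, ((hK x).1 h2).2⟩
      · rintro ⟨h1, h2⟩
        exact ⟨h1, (hK x).2 ⟨pL_le h1, h2⟩⟩
    have hK₁s : Stb α K₁ := fun g x hx => ⟨hQ₁ g x hx.1, hKs g x hx.2⟩
    have hbot : Stb α (⊥ : AddSubgroup L) := fun g x hx => by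
      rw [AddSubgroup.mem_bot] at hx ⊢
      rw [hx, map_zero]
    have hKp : ∀ x ∈ K, p • x = 0 := fun x hx => ((hK x).1 hx).2
    obtain ⟨U₁, _, _, _, ρ₁, q₁, P₁⟩ := exists_prs (p := p) (α := α) (B := ⊥) (C := K₁)
      hbot hK₁s (fun c hc => hKp c hc.2)
    obtain ⟨U₂, _, _, _, ρ₂, q₂, P₂⟩ := exists_prs (p := p) (α := α) (B := K₁) (C := K)
      hK₁s hKs (fun c hc => by rw [hKp c hc]; exact K₁.zero_mem)
    obtain ⟨U₁', _, _, _, ρ₁', q₁', P₁'⟩ := exists_prs (p := p) (α := α) (B := pL p Q₁) (C := Q₁)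
      hQ₁.pL hQ₁ (fun c hc => ⟨c, hc, rfl⟩)
    have e1 := Prs.add hf bot_le inf_le_right hK₁s hKs P₁ P P₂
    have e2 := ih Q₁ K₁ hQ₁ (by
      rintro _ ⟨x, hx, rfl⟩
      change (p ^ k * m) • (p • x) = 0
      rw [smul_smul, mul_comm, ← mul_assoc, ← pow_succ']
      exact hQm x hx) hK₁ U₁ ρ₁ q₁ P₁ U₁' ρ₁' q₁' P₁'
    let B : AddSubgroup L := K ⊔ pL p Q
    have hBs : Stb α B := fun g x hx => by
      obtain ⟨y, hy, z, hz, rfl⟩ := AddSubgroup.mem_sup.1 hx
      rw [map_add]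
      exact AddSubgroup.mem_sup.2 ⟨_, hKs g y hy, _, hQ₁ g z hz, rfl⟩
    have hBQ : B ≤ Q := sup_le (fun x hx => ((hK x).1 hx).1) pL_le
    obtain ⟨U₃, _, _, _, ρ₃, q₃, P₃⟩ := exists_prs (p := p) (α := α) (B := pL p Q) (C := B)
      hQ₁ hBs (fun c hc => ⟨c, hBQ hc, rfl⟩)
    obtain ⟨U₄, _, _, _, ρ₄, q₄, P₄⟩ := exists_prs (p := p) (α := α) (B := B) (C := Q)
      hBs hQ (fun c hc => AddSubgroup.mem_sup_right ⟨c, hc, rfl⟩)
    have e3 := Prs.add hf le_sup_right hBQ hBs hQ P₃ P' P₄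
    have e4 : f U₁' ρ₁' = f U₄ ρ₄ := by
      refine P₄.eq_of hf P₁' hQ
        { toFun := fun c => ⟨p • c, c, c.2, rfl⟩
          map_zero' := Subtype.ext (smul_zero _)
          map_add' := fun a b => Subtype.ext (smul_add p (a : L) b) } ?_ ?_ ?_
      · intro c
        change (c : L) ∈ B ↔ p • (c : L) ∈ pL p Q₁
        constructor
        · intro h
          obtain ⟨y, hy, z, hz, h1⟩ := AddSubgroup.mem_sup.1 h
          rw [← h1, smul_add, hKp y hy, zero_add]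
          exact ⟨z, hz, rfl⟩
        · rintro ⟨x, hx, h⟩
          have h1 : p • ((c : L) - x) = 0 := by
            rw [smul_sub, sub_eq_zero]
            exact h.symm
          refine AddSubgroup.mem_sup.2 ⟨(c : L) - x, (hK _).2 ⟨Q.sub_mem c.2 (pL_le hx), h1⟩, x, hx,
            sub_add_cancel _ _⟩
      · intro g c c' h
        change p • (c' : L) = α g (p • (c : L))
        rw [h, map_nsmul]
      · rintro ⟨_, c, hc, rfl⟩
        refine ⟨⟨c, hc⟩, ?_⟩
        change p • c - p • c ∈ _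
        rw [sub_self]
        exact AddSubgroup.zero_mem _
    have e5 : f U₃ ρ₃ = f U₂ ρ₂ := by
      refine P₂.eq_of hf P₃ hKs (AddSubgroup.inclusion le_sup_left) ?_ (fun g c c' h => h) ?_
      · intro c
        constructor
        · exact fun h => h.1
        · exact fun h => ⟨h, c.2⟩
      · rintro ⟨d, hd⟩
        obtain ⟨y, hy, z, hz, rfl⟩ := AddSubgroup.mem_sup.1 hd
        refine ⟨⟨y, hy⟩, ?_⟩
        change y - (y + z) ∈ pL p Q
        rw [sub_add_cancel_left]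
        exact neg_mem hz
    rw [e1, e3, e5, ← e4, e2]
    ring

end

section

variable {M M' : Type} [AddCommGroup M] [Module.Finite ℤ M] [AddCommGroup M'] [Module.Finite ℤ M']
  {α : Γ →* AddMonoid.End M} {α' : Γ →* AddMonoid.End M'}

theorem exists_pk {D : ℕ} (hD : D ≠ 0) : ∃ k m : ℕ, ¬ p ∣ m ∧ D = p ^ k * m := by
  obtain ⟨k, m, h1, h2⟩ := Nat.exists_eq_pow_mul_and_not_dvd hD p hp.out.ne_one
  exact ⟨k, m, h1, h2⟩

theorem nat_of_int {X : Type} [AddCommGroup X] {P : AddSubgroup X} {k : ℤ} {x : X}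
    (h : k • x ∈ P) : k.natAbs • x ∈ P := by
  rcases Int.natAbs_eq k with h1 | h1
  · rw [h1, natCast_zsmul] at h
    exact h
  · rw [h1, neg_smul, natCast_zsmul] at h
    exact neg_mem_iff.1 h

include hf in
/-- **the main formula** -/
theorem main_f (htf : ∀ (k : ℤ) (x : M'), k ≠ 0 → k • x = 0 → x = 0) (ψ : M →ₗ[ℤ] M')
    (hψ : ∀ g x, ψ (α g x) = α' g (ψ x)) (hker : ∀ x, ψ x = 0 → ∃ k : ℤ, k ≠ 0 ∧ k • x = 0)
    {D : ℤ} (hD : D ≠ 0) (hDψ : ∀ y, ∃ x, ψ x = D • y)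
    {U : Type} [AddCommGroup U] [Module (ZMod p) U] [Module.Finite (ZMod p) U]
    {ρ : Representation (ZMod p) Γ U} {q : (⊤ : AddSubgroup M) →+ U} (P : Prs α (pL p ⊤) ⊤ U ρ q)
    {U' : Type} [AddCommGroup U'] [Module (ZMod p) U'] [Module.Finite (ZMod p) U']
    {ρ' : Representation (ZMod p) Γ U'} {q' : (⊤ : AddSubgroup M') →+ U'}
    (P' : Prs α' (pL p ⊤) ⊤ U' ρ' q') {K : AddSubgroup M} (hK : ∀ x, x ∈ K ↔ p • x = 0)
    {A : Type} [AddCommGroup A] [Module (ZMod p) A] [Module.Finite (ZMod p) A]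
    {ρA : Representation (ZMod p) Γ A} {qA : K →+ A} (PA : Prs α ⊥ K A ρA qA) :
    f U ρ = f A ρA + f U' ρ' := by
  have hp0 : (p : ℤ) ≠ 0 := by exact_mod_cast hp.out.ne_zero
  have htfp : ∀ x : M', p • x = 0 → x = 0 := fun x hx =>
    htf p x hp0 (by rw [natCast_zsmul, hx])
  -- the torsion subgroup
  let T : AddSubgroup M := ψ.toAddMonoidHom.ker
  have hT : ∀ x, x ∈ T ↔ ψ x = 0 := fun x => Iff.rfl
  have hTs : Stb α T := fun g x hx => by
    rw [hT] at hx ⊢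
    rw [hψ, hx, map_zero]
  have hKT : ∀ x, x ∈ K ↔ x ∈ T ∧ p • x = 0 := fun x => by
    rw [hK]
    refine ⟨fun h => ⟨?_, h⟩, fun h => h.2⟩
    rw [hT]
    apply htfp
    rw [← map_nsmul, h, map_zero]
  haveI : Module.Finite ℤ T := inferInstanceAs (Module.Finite ℤ (AddSubgroup.toIntSubmodule T))
  obtain ⟨e, he, heT⟩ := exists_unif_mul (M := T) ⊥ (fun x => by
    obtain ⟨k, hk, h⟩ := hker x x.2
    exact ⟨k, hk, (Submodule.mem_bot ℤ).2 (Subtype.ext h)⟩)
  obtain ⟨k₁, m₁, hm₁, hk₁⟩ := exists_pk (p := p) (Int.natAbs_ne_zero.2 he)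
  have hTk : ∀ x ∈ T, (p ^ k₁ * m₁) • x = 0 := fun x hx => by
    rw [← hk₁]
    have h1 : e • x ∈ (⊥ : AddSubgroup M) := by
      have h2 := (Submodule.mem_bot ℤ).1 (heT ⟨x, hx⟩)
      exact congrArg Subtype.val h2
    exact nat_of_int h1
  -- the image
  let C : AddSubgroup M' := ψ.toAddMonoidHom.range
  have hCs : Stb α' C := by
    rintro g _ ⟨x, rfl⟩
    exact ⟨α g x, hψ g x⟩
  obtain ⟨k₂, m₂, hm₂, hk₂⟩ := exists_pk (p := p) (Int.natAbs_ne_zero.2 hD)
  obtain ⟨U₀, _, _, _, ρ₀, q₀, P₀⟩ := exists_prs (p := p) (α := α') (B := pL p C) (C := C)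
    hCs.pL hCs (fun c hc => ⟨c, hc, rfl⟩)
  have e1 := lat_eq hf htfp hm₂ P' k₂ C hCs (fun x => by
    rw [← hk₂]
    obtain ⟨y, hy⟩ := hDψ x
    exact nat_of_int ⟨y, hy⟩) U₀ ρ₀ q₀ P₀
  -- the torsion part of the reduction
  let B : AddSubgroup M := T ⊔ pL p ⊤
  have hBs : Stb α B := fun g x hx => by
    obtain ⟨y, hy, z, hz, rfl⟩ := AddSubgroup.mem_sup.1 hx
    rw [map_add]
    exact AddSubgroup.mem_sup.2 ⟨_, hTs g y hy, _, stb_top.pL g z hz, rfl⟩
  let ψ' : (⊤ : AddSubgroup M) →+ C :=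
    { toFun := fun x => ⟨ψ x, x, rfl⟩
      map_zero' := Subtype.ext (map_zero ψ)
      map_add' := fun x y => Subtype.ext (map_add ψ (x : M) y) }
  have P₁ : Prs α B ⊤ U₀ ρ₀ (q₀.comp ψ') :=
    { surj := fun u => by
        obtain ⟨⟨_, x, rfl⟩, rfl⟩ := P₀.surj u
        exact ⟨⟨x, trivial⟩, rfl⟩
      ker := fun c => by
        rw [AddMonoidHom.comp_apply, P₀.ker]
        constructor
        · rintro ⟨_, ⟨y, rfl⟩, h⟩
          refine AddSubgroup.mem_sup.2 ⟨(c : M) - p • y, ?_, p • y, ⟨y, trivial, rfl⟩,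
            sub_add_cancel _ _⟩
          rw [hT, map_sub, map_nsmul, sub_eq_zero]
          exact h.symm
        · intro h
          obtain ⟨y, hy, _, ⟨z, -, rfl⟩, h1⟩ := AddSubgroup.mem_sup.1 h
          refine ⟨ψ z, ⟨z, rfl⟩, ?_⟩
          change p • ψ z = ψ c
          rw [← h1, map_add, (hT y).1 hy, zero_add]
          exact (map_nsmul ψ p z).symm
      act := fun g c c' h => by
        rw [AddMonoidHom.comp_apply, AddMonoidHom.comp_apply]
        refine P₀.act g _ _ ?_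
        change ψ c' = α' g (ψ c)
        rw [h, hψ] }
  obtain ⟨U₂, _, _, _, ρ₂, q₂, P₂⟩ := exists_prs (p := p) (α := α) (B := pL p ⊤) (C := B)
    stb_top.pL hBs (fun c hc => ⟨c, trivial, rfl⟩)
  have e2 := Prs.add hf le_sup_right le_top hBs stb_top P₂ P P₁
  obtain ⟨U₃, _, _, _, ρ₃, q₃, P₃⟩ := exists_prs (p := p) (α := α) (B := pL p T) (C := T)
    hTs.pL hTs (fun c hc => ⟨c, hc, rfl⟩)
  have e3 : f U₂ ρ₂ = f U₃ ρ₃ := by
    refine P₃.eq_of hf P₂ hTs (AddSubgroup.inclusion le_sup_left) ?_ (fun g c c' h => h) ?_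
    · intro c
      constructor
      · exact fun h => pL_mono le_top h
      · rintro ⟨x, -, hx⟩
        refine ⟨x, (hT x).2 ?_, hx⟩
        apply htfp
        rw [← map_nsmul]
        have h1 : p • x = (c : M) := hx
        rw [h1]
        exact c.2
    · rintro ⟨d, hd⟩
      obtain ⟨y, hy, z, hz, rfl⟩ := AddSubgroup.mem_sup.1 hd
      refine ⟨⟨y, hy⟩, ?_⟩
      change y - (y + z) ∈ pL p ⊤
      rw [sub_add_cancel_left]
      exact neg_mem hz
  have e4 := fin_lem hf hm₁ k₁ T K hTs hTk hKT A ρA qA PA U₃ ρ₃ q₃ P₃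
  rw [e2, e3, e4, e1]

end

end

end Fermat.Agent.CFT.LC
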