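import Fermat.Agent.Places.Existence
import Fermat.Agent.Places.InertiaLift

/-!
# The order function of a place of `ℚ̄`
-/

set_option autoImplicit false
set_option linter.unusedSectionVars false
set_option linter.unusedVariables false
set_option linter.style.haveILetI false

namespace Fermat.Agent.CFT

open scoped Pointwise
open Fermat.Agent.Places Polynomial

/-- The field of algebraic numbers. -/
abbrev Qb : Type := AlgebraicClosure ℚ

/-- The absolute Galois group. -/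
abbrev GQ : Type := Qb ≃ₐ[ℚ] Qb

/-- The places of `ℚ̄` -/
@[ext] structure Pl : Type where
  /-- the valuation subring -/
  v : ValuationSubring Qb
  isPlace : ∃ q : ℕ, q.Prime ∧ v.LiesOverPrime q

theorem liesOver_smul {A : ValuationSubring Qb} {q : ℕ} (hA : A.LiesOverPrime q) (g : GQ) :
    (g • A).LiesOverPrime q := by
  change (q : Qb) ∈ (g • A).nonunits
  rw [mem_nonunits_smul_iff]
  have : g⁻¹ • (q : Qb) = q := map_natCast g⁻¹ q
  rw [this]
  exact hA

noncomputable instance : MulAction GQ Pl where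
  smul g A := ⟨g • A.v, A.isPlace.imp fun q h => ⟨h.1, liesOver_smul h.2 g⟩⟩
  one_smul A := Pl.ext (one_smul _ _)
  mul_smul g h A := Pl.ext (mul_smul _ _ _)

theorem coe_smul_Pl (g : GQ) (A : Pl) : (g • A).v = g • A.v := rfl

namespace Pl

/-- the residue characteristic -/
noncomputable def ell (A : Pl) : ℕ := A.isPlace.choose

variable (A : Pl)

theorem ell_prime : A.ell.Prime := A.isPlace.choose_spec.1

theorem liesOver_ell : A.v.LiesOverPrime A.ell := A.isPlace.choose_spec.2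

theorem ell_pos : 0 < A.ell := A.ell_prime.pos

theorem ell_mem : (A.ell : Qb) ∈ A.v.nonunits := A.liesOver_ell

theorem val_int {n : ℤ} (hn : ¬ (A.ell : ℤ) ∣ n) : A.v.valuation (n : Qb) = 1 := by
  have h1 : A.v.valuation (n : Qb) ≤ 1 := (A.v.valuation_le_one_iff _).2 (intCast_mem A.v n)
  refine le_antisymm h1 (not_lt.1 fun h2 => ?_)
  have h3 : (n : Qb) ∈ A.v.nonunits := (mem_nonunits_iff _ _).2 h2
  have hco : IsCoprime (A.ell : ℤ) n :=
    (Nat.prime_iff_prime_int.1 A.ell_prime).irreducible.coprime_iff_not_dvd.2 hn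
  obtain ⟨a, b, hab⟩ := hco
  apply one_notMem_nonunits A.v
  have h4 : (1 : Qb) = A.ell * a + n * b := by
    have := congrArg (fun z : ℤ => (z : Qb)) hab
    push_cast at this
    rw [← this]; ring
  rw [h4]
  exact add_mem_nonunits A.v (mul_mem_nonunits A.v A.ell_mem (intCast_mem A.v a))
    (mul_mem_nonunits A.v h3 (intCast_mem A.v b))

theorem ell_unique {q : ℕ} (hq : q.Prime) (h : A.v.LiesOverPrime q) : A.ell = q := by
  by_contra hne
  have h1 : ¬ (A.ell : ℤ) ∣ (q : ℤ) := fun h2 =>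
    hne ((Nat.prime_dvd_prime_iff_eq A.ell_prime hq).1 (Int.natCast_dvd_natCast.1 h2))
  have h2 := A.val_int h1
  have h3 := (mem_nonunits_iff A.v (q : Qb)).1 h
  push_cast at h2
  exact absurd h2 h3.ne

theorem ell_smul (g : GQ) : (g • A).ell = A.ell :=
  (g • A).ell_unique A.ell_prime (liesOver_smul A.liesOver_ell g)

/-- the valuation of the residue characteristic -/
noncomputable def w : A.v.ValueGroup := A.v.valuation (A.ell : Qb)

theorem ell_ne_zero : (A.ell : Qb) ≠ 0 := Nat.cast_ne_zero.2 A.ell_prime.ne_zero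

theorem w_ne_zero : A.w ≠ 0 := (Valuation.ne_zero_iff _).2 A.ell_ne_zero

theorem w_pos : 0 < A.w := zero_lt_iff.2 A.w_ne_zero

theorem w_lt_one : A.w < 1 := (mem_nonunits_iff A.v _).1 A.ell_mem

theorem w_zpow_le_iff {m n : ℤ} : A.w ^ m ≤ A.w ^ n ↔ n ≤ m :=
  zpow_le_zpow_iff_right_of_lt_one₀ A.w_pos A.w_lt_one

theorem w_zpow_inj {m n : ℤ} (h : A.w ^ m = A.w ^ n) : m = n :=
  le_antisymm (A.w_zpow_le_iff.1 h.ge) (A.w_zpow_le_iff.1 h.le)

theorem val_rat {r : ℚ} (hr : r ≠ 0) : ∃ m : ℤ, A.v.valuation (r : Qb) = A.w ^ m := by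
  have hint : ∀ n : ℤ, n ≠ 0 → ∃ m : ℕ, A.v.valuation (n : Qb) = A.w ^ m := by
    intro n hn
    obtain ⟨n', e, hn'⟩ := (Int.finiteMultiplicity_iff.2
      ⟨by rw [Int.natAbs_natCast]; exact A.ell_prime.one_lt.ne', hn⟩).exists_eq_pow_mul_and_not_dvd
    refine ⟨multiplicity (A.ell : ℤ) n, ?_⟩
    conv_lhs => rw [e]
    push_cast
    rw [map_mul, A.val_int hn', mul_one, map_pow]
    rfl
  obtain ⟨a, ha⟩ := hint r.num (Rat.num_ne_zero.2 hr)
  obtain ⟨b, hb⟩ := hint r.den (by exact_mod_cast r.den_ne_zero)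
  refine ⟨a - b, ?_⟩
  have h1 : (r : Qb) = (r.num : Qb) / ((r.den : ℤ) : Qb) := by
    rw [Rat.cast_def]; push_cast; rfl
  rw [h1, map_div₀, ha, hb, zpow_sub₀ A.w_ne_zero, zpow_natCast, zpow_natCast]

/-- Some power of the value is an integral power of the value of the residue characteristic. -/
theorem exists_pow_eq {x : Qb} (hx : x ≠ 0) {P : ℚ[X]} (hP : P ≠ 0) (hPx : aeval x P = 0) :
    ∃ n : ℕ, 0 < n ∧ n ≤ P.natDegree ∧ ∃ m : ℤ, A.v.valuation x ^ n = A.w ^ m := by
  classical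
  let f : ℕ → Qb := fun i => (P.coeff i : Qb) * x ^ i
  have hsum : ∑ i ∈ P.support, f i = 0 := by
    rw [← hPx, aeval_eq_sum_range, Finset.sum_subset (s₂ := Finset.range (P.natDegree + 1))]
    · refine Finset.sum_congr rfl fun i _ => ?_
      rw [Rat.smul_def]
    · intro i hi
      rw [Finset.mem_range, Nat.lt_succ_iff]
      exact le_natDegree_of_mem_supp i hi
    · intro i _ hi
      simp only [f]
      rw [notMem_support_iff.1 hi]
      simp
  obtain ⟨j, hj, hmax⟩ := Finset.exists_max_image P.support (fun i => A.v.valuation (f i))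
    (support_nonempty.2 hP)
  have hfj : f j ≠ 0 := mul_ne_zero (by
    rw [mem_support_iff] at hj
    exact_mod_cast hj) (pow_ne_zero _ hx)
  have hvj : A.v.valuation (f j) ≠ 0 := (Valuation.ne_zero_iff _).2 hfj
  obtain ⟨i, hi, hij, hv⟩ : ∃ i ∈ P.support, i ≠ j ∧ A.v.valuation (f i) = A.v.valuation (f j) := by
    by_contra hcon
    push Not at hcon
    have h1 : ∀ i ∈ P.support.erase j, A.v.valuation (f i) < A.v.valuation (f j) := fun i hi => by
      rw [Finset.mem_erase] at hi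
      exact lt_of_le_of_ne (hmax i hi.2) (hcon i hi.2 hi.1)
    have h2 := Valuation.map_sum_lt A.v.valuation hvj h1
    have h3 : f j = -∑ i ∈ P.support.erase j, f i := by
      rw [← Finset.add_sum_erase _ _ hj] at hsum
      exact eq_neg_of_add_eq_zero_left hsum
    rw [h3, Valuation.map_neg] at h2
    exact lt_irrefl _ h2
  have key : ∀ i j : ℕ, i ∈ P.support → j ∈ P.support → i < j →
      A.v.valuation (f i) = A.v.valuation (f j) →
      ∃ n : ℕ, 0 < n ∧ n ≤ P.natDegree ∧ ∃ m : ℤ, A.v.valuation x ^ n = A.w ^ m := by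
    intro i j hi hj hlt hv
    rw [mem_support_iff] at hi hj
    obtain ⟨a, ha⟩ := A.val_rat hi
    obtain ⟨b, hb⟩ := A.val_rat hj
    refine ⟨j - i, Nat.sub_pos_of_lt hlt, (Nat.sub_le _ _).trans
      (le_natDegree_of_ne_zero hj), a - b, ?_⟩
    simp only [f, map_mul, map_pow, ha, hb] at hv
    have hx0 : A.v.valuation x ≠ 0 := (Valuation.ne_zero_iff _).2 hx
    have h4 : A.v.valuation x ^ j = A.v.valuation x ^ i * A.v.valuation x ^ (j - i) := by
      rw [← pow_add, Nat.add_sub_cancel' hlt.le]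
    rw [h4] at hv
    have h5 : A.w ^ a = A.w ^ b * A.v.valuation x ^ (j - i) := by
      apply mul_right_cancel₀ (pow_ne_zero i hx0)
      rw [hv]; ac_rfl
    rw [zpow_sub₀ A.w_ne_zero, h5]
    field_simp [zpow_ne_zero b A.w_ne_zero]
  rcases lt_or_gt_of_ne hij with h | h
  · exact key i j hi hj h hv
  · exact key j i hj hi h hv.symm

theorem exists_ord {x : Qb} (hx : x ≠ 0) : ∃ n : ℕ, 0 < n ∧ ∃ m : ℤ,
    A.v.valuation x ^ n = A.w ^ m := by
  obtain ⟨P, hP, hPx⟩ := Algebra.IsAlgebraic.isAlgebraic (R := ℚ) x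
  obtain ⟨n, hn, -, h⟩ := A.exists_pow_eq hx hP hPx
  exact ⟨n, hn, h⟩

open Classical in
/-- The order of an algebraic number, normalised by `ord (ell) = 1`. -/
noncomputable def ord (x : Qb) : ℚ :=
  if hx : x ≠ 0 then ((A.exists_ord hx).choose_spec.2.choose : ℚ) / (A.exists_ord hx).choose else 0

theorem ord_eq {x : Qb} (hx : x ≠ 0) {n : ℕ} (hn : 0 < n) {m : ℤ}
    (h : A.v.valuation x ^ n = A.w ^ m) : A.ord x = m / n := by
  rw [ord, dif_pos hx]
  have h1 := (A.exists_ord hx).choose_spec.1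
  have h2 := (A.exists_ord hx).choose_spec.2.choose_spec
  set n' := (A.exists_ord hx).choose
  set m' := (A.exists_ord hx).choose_spec.2.choose
  have h3 : A.w ^ (m' * n) = A.w ^ (m * n') := by
    rw [zpow_mul, zpow_mul, ← h2, ← h, zpow_natCast, zpow_natCast, ← pow_mul, ← pow_mul, mul_comm]
  have h4 := A.w_zpow_inj h3
  have hn' : (n : ℚ) ≠ 0 := by exact_mod_cast hn.ne'
  have hn'' : (n' : ℚ) ≠ 0 := by exact_mod_cast h1.ne'
  rw [div_eq_div_iff hn'' hn']
  exact_mod_cast h4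

theorem ord_spec {x : Qb} (hx : x ≠ 0) : ∃ n : ℕ, 0 < n ∧ ∃ m : ℤ,
    A.v.valuation x ^ n = A.w ^ m ∧ A.ord x = m / n := by
  obtain ⟨n, hn, m, h⟩ := A.exists_ord hx
  exact ⟨n, hn, m, h, A.ord_eq hx hn h⟩

theorem ord_mul {x y : Qb} (hx : x ≠ 0) (hy : y ≠ 0) : A.ord (x * y) = A.ord x + A.ord y := by
  obtain ⟨n, hn, m, h, e⟩ := A.ord_spec hx
  obtain ⟨n', hn', m', h', e'⟩ := A.ord_spec hy
  rw [A.ord_eq (mul_ne_zero hx hy) (n := n * n') (m := m * n' + m' * n) (Nat.mul_pos hn hn'), e, e']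
  · push_cast
    have : (n : ℚ) ≠ 0 := by exact_mod_cast hn.ne'
    have : (n' : ℚ) ≠ 0 := by exact_mod_cast hn'.ne'
    field_simp
  · rw [map_mul, mul_pow, pow_mul, h, mul_comm n n', pow_mul, h', zpow_add₀ A.w_ne_zero, zpow_mul,
      zpow_mul, zpow_natCast, zpow_natCast]

theorem ord_one : A.ord 1 = 0 := by
  rw [A.ord_eq one_ne_zero (n := 1) (m := 0) one_pos (by simp)]
  simp

theorem ord_inv {x : Qb} (hx : x ≠ 0) : A.ord x⁻¹ = -A.ord x := by
  have := A.ord_mul hx (inv_ne_zero hx)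
  rw [mul_inv_cancel₀ hx, ord_one] at this
  linarith

theorem ord_div {x y : Qb} (hx : x ≠ 0) (hy : y ≠ 0) : A.ord (x / y) = A.ord x - A.ord y := by
  rw [div_eq_mul_inv, A.ord_mul hx (inv_ne_zero hy), A.ord_inv hy, sub_eq_add_neg]

theorem ord_pow {x : Qb} (hx : x ≠ 0) (n : ℕ) : A.ord (x ^ n) = n * A.ord x := by
  induction n with
  | zero => simp [ord_one]
  | succ n ih => rw [pow_succ, A.ord_mul (pow_ne_zero _ hx) hx, ih]; push_cast; ring

theorem ord_zpow {x : Qb} (hx : x ≠ 0) (n : ℤ) : A.ord (x ^ n) = n * A.ord x := by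
  obtain ⟨k, rfl | rfl⟩ := n.eq_nat_or_neg
  · rw [zpow_natCast, A.ord_pow hx]; simp
  · rw [zpow_neg, zpow_natCast, A.ord_inv (pow_ne_zero _ hx), A.ord_pow hx]; push_cast; ring

theorem ord_prod {ι : Type*} (s : Finset ι) (f : ι → Qb) (hf : ∀ i ∈ s, f i ≠ 0) :
    A.ord (∏ i ∈ s, f i) = ∑ i ∈ s, A.ord (f i) := by
  classical
  induction s using Finset.induction_on with
  | empty => simp [ord_one]
  | insert a s ha ih =>
    rw [Finset.prod_insert ha, Finset.sum_insert ha, A.ord_mul (hf a (Finset.mem_insert_self _ _))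
      (Finset.prod_ne_zero_iff.2 fun i hi => hf i (Finset.mem_insert_of_mem hi)),
      ih fun i hi => hf i (Finset.mem_insert_of_mem hi)]

theorem ord_nonneg_iff {x : Qb} (hx : x ≠ 0) : 0 ≤ A.ord x ↔ x ∈ A.v := by
  obtain ⟨n, hn, m, h, e⟩ := A.ord_spec hx
  have hn' : (0 : ℚ) < n := by exact_mod_cast hn
  have h1 : 0 ≤ (m : ℚ) / n ↔ 0 ≤ m := by
    rw [le_div_iff₀ hn', zero_mul, Int.cast_nonneg_iff]
  rw [e, h1, ← A.v.valuation_le_one_iff, ← pow_le_one_iff hn.ne', h]
  conv_rhs => rw [← zpow_zero A.w]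
  rw [w_zpow_le_iff]

theorem ord_pos_iff {x : Qb} (hx : x ≠ 0) : 0 < A.ord x ↔ x ∈ A.v.nonunits := by
  rw [mem_nonunits_iff_inv]
  simp only [hx, false_or]
  rw [← A.ord_nonneg_iff (inv_ne_zero hx), A.ord_inv hx, Left.nonneg_neg_iff, not_le]

theorem ord_ell : A.ord (A.ell : Qb) = 1 := by
  rw [A.ord_eq A.ell_ne_zero (n := 1) (m := 1) one_pos (by simp [w])]
  simp

theorem ord_smul (g : GQ) {x : Qb} (hx : x ≠ 0) : (g • A).ord (g x) = A.ord x := by
  obtain ⟨n, hn, m, h, e⟩ := A.ord_spec hx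
  have hgx : g x ≠ 0 := (_root_.map_ne_zero g).2 hx
  -- the quotient `x ^ n / ell ^ m` is a unit of `A`
  have key : ∀ (B : Pl) (z : Qb) (hz : z ≠ 0), B.v.valuation z ^ n = B.w ^ m ↔
      (z ^ n / (B.ell : Qb) ^ m ∈ B.v ∧ (z ^ n / (B.ell : Qb) ^ m)⁻¹ ∈ B.v) := by
    intro B z hz
    have hB := zpow_ne_zero m B.ell_ne_zero
    rw [← B.v.valuation_le_one_iff, ← B.v.valuation_le_one_iff, map_inv₀, map_div₀, map_pow,
      map_zpow₀]
    change _ ↔ _ / B.w ^ m ≤ 1 ∧ (_ / B.w ^ m)⁻¹ ≤ 1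
    have h1 : B.v.valuation z ^ n / B.w ^ m ≠ 0 :=
      div_ne_zero (pow_ne_zero _ ((Valuation.ne_zero_iff _).2 hz)) (zpow_ne_zero _ B.w_ne_zero)
    rw [inv_le_one₀ (zero_lt_iff.2 h1), ← div_eq_one_iff_eq (zpow_ne_zero m B.w_ne_zero),
      ← le_antisymm_iff]
  rw [e]
  refine (g • A).ord_eq hgx hn ?_
  rw [key _ _ hgx]
  have h2 := (key A x hx).1 h
  rw [coe_smul_Pl, mem_smul_iff, mem_smul_iff, ell_smul]
  have h3 : g⁻¹ • ((g x) ^ n / (A.ell : Qb) ^ m) = x ^ n / (A.ell : Qb) ^ m := by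
    change g⁻¹ ((g x) ^ n / (A.ell : Qb) ^ m) = _
    rw [map_div₀, map_pow, map_zpow₀, map_natCast]
    congr 2
    exact g.symm_apply_apply x
  have h4 : g⁻¹ • ((g x) ^ n / (A.ell : Qb) ^ m)⁻¹ = (x ^ n / (A.ell : Qb) ^ m)⁻¹ := by
    rw [← h3]
    exact map_inv₀ g⁻¹ _
  rw [h3, h4]
  exact h2

theorem ord_smul' (g : GQ) {x : Qb} (hx : x ≠ 0) : (g • A).ord x = A.ord (g⁻¹ x) := by
  have := A.ord_smul g (x := g⁻¹ x) ((_root_.map_ne_zero _).2 hx)
  rw [← this]
  congr 1
  exact (g.apply_symm_apply x).symm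

/-- elements of order at least `t` -/
def ge (t : ℚ) (x : Qb) : Prop := x = 0 ∨ t ≤ A.ord x

variable {A}

theorem ge.zero (t : ℚ) : A.ge t 0 := Or.inl rfl

theorem ge.mono {s t : ℚ} (h : s ≤ t) {x : Qb} (hx : A.ge t x) : A.ge s x :=
  hx.imp id fun h' => h.trans h'

theorem ge_zero_iff {x : Qb} : A.ge 0 x ↔ x ∈ A.v := by
  by_cases hx : x = 0
  · subst hx; simp [ge, zero_mem]
  · rw [ge, A.ord_nonneg_iff hx]
    simp [hx]

theorem ge.mul {s t : ℚ} {x y : Qb} (hx : A.ge s x) (hy : A.ge t y) : A.ge (s + t) (x * y) := by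
  rcases hx with rfl | hx
  · left; simp
  rcases hy with rfl | hy
  · left; simp
  by_cases hx0 : x = 0
  · left; simp [hx0]
  by_cases hy0 : y = 0
  · left; simp [hy0]
  right
  rw [A.ord_mul hx0 hy0]
  exact add_le_add hx hy

theorem ge.neg {s : ℚ} {x : Qb} (hx : A.ge s x) : A.ge s (-x) := by
  rcases hx with rfl | hx
  · left; simp
  by_cases hx0 : x = 0
  · left; simp [hx0]
  right
  have h1 : A.ord (-1) = 0 := by
    have h2 : A.ord ((-1) ^ 2) = (2 : ℕ) * A.ord (-1) := A.ord_pow (by norm_num) 2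
    rw [neg_one_sq, A.ord_one] at h2
    push_cast at h2
    linarith
  rw [← neg_one_mul, A.ord_mul (by norm_num) hx0, h1, zero_add]
  exact hx

theorem ge.add {s : ℚ} {x y : Qb} (hx : A.ge s x) (hy : A.ge s y) : A.ge s (x + y) := by
  by_cases hx0 : x = 0
  · rw [hx0, zero_add]; exact hy
  by_cases hy0 : y = 0
  · rw [hy0, add_zero]; exact hx
  by_cases hxy : x + y = 0
  · left; exact hxy
  have key : ∀ x y : Qb, x ≠ 0 → y ≠ 0 → x + y ≠ 0 → A.ord x ≤ A.ord y → A.ord x ≤ A.ord (x + y) := by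
    intro x y hx hy hxy h
    have h1 : y / x ∈ A.v := by
      rw [← A.ord_nonneg_iff (div_ne_zero hy hx), A.ord_div hy hx]
      linarith
    have h2 : (x + y) / x ∈ A.v := by
      rw [add_div, div_self hx]
      exact add_mem (one_mem _) h1
    rw [← A.ord_nonneg_iff (div_ne_zero hxy hx), A.ord_div hxy hx] at h2
    linarith
  right
  rcases le_total (A.ord x) (A.ord y) with h | h
  · exact (hx.resolve_left hx0).trans (key x y hx0 hy0 hxy h)
  · rw [add_comm]
    exact (hy.resolve_left hy0).trans (key y x hy0 hx0 (by rwa [add_comm]) h)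

theorem ge.sub {s : ℚ} {x y : Qb} (hx : A.ge s x) (hy : A.ge s y) : A.ge s (x - y) := by
  rw [sub_eq_add_neg]; exact hx.add hy.neg

theorem ge.sum {ι : Type*} {s : ℚ} (F : Finset ι) (f : ι → Qb) (h : ∀ i ∈ F, A.ge s (f i)) :
    A.ge s (∑ i ∈ F, f i) := by
  classical
  induction F using Finset.induction_on with
  | empty => simp [ge.zero]
  | insert a F ha ih =>
    rw [Finset.sum_insert ha]
    exact (h a (Finset.mem_insert_self _ _)).add (ih fun i hi => h i (Finset.mem_insert_of_mem hi))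

theorem ge.pow {s : ℚ} {x : Qb} (hx : A.ge s x) (n : ℕ) : A.ge (n * s) (x ^ n) := by
  induction n with
  | zero => right; simp [A.ord_one]
  | succ n ih =>
    rw [pow_succ]
    have := ih.mul hx
    push_cast
    rwa [add_mul, one_mul]

theorem ge_smul {s : ℚ} {x : Qb} (g : GQ) : (g • A).ge s (g x) ↔ A.ge s x := by
  by_cases hx : x = 0
  · subst hx; simp [ge]
  · have : g x ≠ 0 := (_root_.map_ne_zero g).2 hx
    simp [ge, hx, this, A.ord_smul g hx]

theorem ge_smul' {s : ℚ} {x : Qb} (g : GQ) : (g • A).ge s x ↔ A.ge s (g⁻¹ x) := by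
  have h1 := ge_smul (A := A) (s := s) (x := g⁻¹ x) g
  have : g (g⁻¹ x) = x := g.apply_symm_apply x
  rw [this] at h1
  exact h1

theorem ge_int (n : ℤ) : A.ge 0 (n : Qb) := ge_zero_iff.2 (intCast_mem A.v n)

theorem ord_eq_of_lt {x y : Qb} (hx : x ≠ 0) (h : A.ge (A.ord x) y) (h' : y ≠ 0 → A.ord x < A.ord y) :
    A.ord (x + y) = A.ord x := by
  by_cases hy : y = 0
  · rw [hy, add_zero]
  have h1 := h' hy
  have hxy : x + y ≠ 0 := by
    intro h2
    have h3 : y = -x := (neg_eq_of_add_eq_zero_right h2).symm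
    have h4 : A.ge (A.ord y) x := by
      have : x = -y := by rw [h3, neg_neg]
      rw [this]
      exact ge.neg (Or.inr le_rfl)
    exact absurd (h4.resolve_left hx) (not_le.2 h1)
  apply le_antisymm
  · by_contra hcon
    push Not at hcon
    have h5 : A.ge (min (A.ord (x + y)) (A.ord y)) (x + y - y) :=
      ge.sub (Or.inr (min_le_left _ _)) (Or.inr (min_le_right _ _))
    rw [add_sub_cancel_right] at h5
    exact absurd (h5.resolve_left hx) (not_le.2 (lt_min hcon h1))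
  · have h6 : A.ge (A.ord x) (x + y) := ge.add (Or.inr le_rfl) h
    exact h6.resolve_left hxy

end Pl

end Fermat.Agent.CFT
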