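import Fermat.Agent.CFT.Coch
import Fermat.Agent.CFT.Cone
import Fermat.Agent.CFT.Rep

/-!
# Shapiro's lemma, additivity, `H⁰`
-/

set_option autoImplicit false
set_option linter.unusedSectionVars false
set_option linter.unusedVariables false
set_option linter.style.haveILetI false

namespace Fermat.Agent.CFT

open Module

section Add

universe u v

variable {k : Type u} [Field k] {C D : Cx.{u, v} k}

/-- additivity of cohomology -/
noncomputable def Cx.piEquiv {J : Type*} [Fintype J] [DecidableEq J] {C : J → Cx.{u, v} k}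
    (p : ∀ j, Cx.Hom D (C j)) (i : ∀ j, Cx.Hom (C j) D)
    (h1 : ∀ j n x, (p j).f n ((i j).f n x) = x)
    (h2 : ∀ j l, j ≠ l → ∀ n x, (p j).f n ((i l).f n x) = 0)
    (h3 : ∀ n x, ∑ j, (i j).f n ((p j).f n x) = x) (n : ℕ) : D.H n ≃ₗ[k] (∀ j, (C j).H n) :=
  LinearEquiv.ofLinearMap (LinearMap.pi fun j => (p j).H n)
    (∑ j, (i j).H n ∘ₗ LinearMap.proj j)
    (by
      apply LinearMap.ext
      intro y
      funext j
      simp only [LinearMap.comp_apply, LinearMap.pi_apply, LinearMap.sum_apply, map_sum,
        LinearMap.id_apply, LinearMap.proj_apply]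
      rw [Finset.sum_eq_single j]
      · obtain ⟨x, hx, e⟩ := (C j).exists_cl (y j)
        rw [← e, Cx.Hom.H_cl, Cx.Hom.H_cl]
        simp only [h1]
      · intro l _ hl
        obtain ⟨x, hx, e⟩ := (C l).exists_cl (y l)
        rw [← e, Cx.Hom.H_cl, Cx.Hom.H_cl, Cx.cl_eq_zero, h2 j l hl.symm]
        exact zero_mem _
      · intro h; exact absurd (Finset.mem_univ _) h)
    (by
      apply LinearMap.ext
      intro z
      obtain ⟨x, hx, rfl⟩ := D.exists_cl z
      simp only [LinearMap.comp_apply, LinearMap.pi_apply, LinearMap.sum_apply,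
        LinearMap.id_apply, LinearMap.proj_apply]
      have h4 : ∀ s : Finset J, ∃ hs, ∑ j ∈ s, (i j).H n ((p j).H n (D.cl n x hx)) =
          D.cl n (∑ j ∈ s, (i j).f n ((p j).f n x)) hs := by
        intro s
        induction s using Finset.induction_on with
        | empty => exact ⟨by simp, by simp only [Finset.sum_empty]; rfl⟩
        | insert a s ha ih =>
          obtain ⟨hs, e⟩ := ih
          simp only [Finset.sum_insert ha]
          refine ⟨?_, ?_⟩
          · rw [map_add, hs, add_zero]
            exact (i a).map_Z ((p a).map_Z hx)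
          · rw [e]; rfl
      obtain ⟨hs, e⟩ := h4 Finset.univ
      rw [e]
      simp only [h3])

theorem Cx.piEquiv_apply {J : Type*} [Fintype J] [DecidableEq J] {C : J → Cx.{u, v} k}
    (p : ∀ j, Cx.Hom D (C j)) (i : ∀ j, Cx.Hom (C j) D)
    (h1 : ∀ j n x, (p j).f n ((i j).f n x) = x)
    (h2 : ∀ j l, j ≠ l → ∀ n x, (p j).f n ((i l).f n x) = 0)
    (h3 : ∀ n x, ∑ j, (i j).f n ((p j).f n x) = x) (n : ℕ) (z : D.H n) (j : J) :
    Cx.piEquiv p i h1 h2 h3 n z j = (p j).H n z := rfl

end Add

section

variable {k : Type} [Field k] {G H : Type} [Group G] [Group H]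
  {S : Sys G} {ι : H →* G} {X : Type} [MulAction G X]

section Shapiro

variable {A : Type} [AddCommGroup A] [Module k A] (U : Subgroup H) (τ : Representation k U A)

/-- Shapiro's lemma on the level of cochains. -/
def shapiro : Cx.Iso (cochCx S ι (ci U τ) X) (cochCx S (ι.comp U.subtype) τ X) where
  e n :=
    { toFun := fun F => mkc (fun a x => ((cv F a x : CI U τ) : H → A) 1) (by
        obtain ⟨h1, V, hV, h2⟩ := cv_mem F
        refine ⟨fun u a x => ?_, V, hV, fun a x y hxy => ?_⟩
        · change ((cv F (ι u • a) (fun i => ι u * x i) : CI U τ) : H → A) 1 = τ u _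
          rw [h1, ci_apply, ← CI_apply, one_mul, mul_one]
        · exact congrArg (fun f : CI U τ => (f : H → A) 1) (h2 a x y hxy))
      map_add' := fun F F' => cv_injective (by funext a x; simp)
      map_smul' := fun c F => cv_injective (by funext a x; simp)
      invFun := fun F => mkc (fun a x => ⟨fun h => cv F (ι h • a) (fun i => ι h * x i),
        fun u h => by
          have := (cv_mem F).1 u (ι h • a) (fun i => ι h * x i)
          rw [← this]
          simp [mul_smul, mul_assoc]⟩) (by
        obtain ⟨h1, V, hV, h2⟩ := cv_mem F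
        refine ⟨fun h a x => Subtype.ext ?_, V, hV, fun a x y hxy => Subtype.ext ?_⟩
        · funext h'
          rw [ci_apply]
          simp [mul_smul, mul_assoc]
        · funext h
          refine h2 _ _ _ fun i => ?_
          have : (ι h * x i)⁻¹ * (ι h * y i) = (x i)⁻¹ * y i := by group
          rw [this]
          exact hxy i)
      left_inv := fun F => cv_injective (by
        funext a x
        apply Subtype.ext
        funext h
        change ((cv F (ι h • a) (fun i => ι h * x i) : CI U τ) : H → A) 1 = _
        rw [(cv_mem F).1 h a x, ci_apply, one_mul])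
      right_inv := fun F => cv_injective (by
        funext a x
        change cv F (ι 1 • a) (fun i => ι 1 * x i) = _
        simp) }
  comm n F := by
    apply cv_injective
    funext a x
    change ((dfun k G (CI U τ) X n (cv F) a x : CI U τ) : H → A) 1 = dfun k G A X n _ a x
    rw [dfun_apply, dfun_apply, AddSubmonoidClass.coe_finsetSum, Finset.sum_apply]
    rfl

theorem cv_shapiro {n : ℕ} (F : (cochCx S ι (ci U τ) X).X n) (a : X) (x : Fin (n + 1) → G) :
    cv ((shapiro (S := S) (ι := ι) (X := X) U τ).e n F) a x = ((cv F a x : CI U τ) : H → A) 1 := rfl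

theorem hasLevel_ci [U.FiniteIndex] (hU : ∃ V ∈ S.carrier, ∀ h, ι h ∈ V → ∃ hh : h ∈ U,
    ∀ a, τ ⟨h, hh⟩ a = a) : HasLevel S ι (ci U τ) := by
  obtain ⟨V, hV, h1⟩ := hU
  refine ⟨V, hV, fun h hh f => Subtype.ext ?_⟩
  funext h'
  rw [ci_apply]
  haveI := S.normal V hV
  obtain ⟨h2, h3⟩ := h1 (h' * h * h'⁻¹) (by
    rw [map_mul, map_mul, map_inv]
    exact Subgroup.Normal.conj_mem inferInstance _ hh _)
  have h4 : h' * h = ((⟨_, h2⟩ : U) : H) * h' := by simp
  rw [h4, CI_apply, h3]

end Shapiro

/-! ### `H⁰` -/

section H0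

variable {M : Type} [AddCommGroup M] [Module k M] {ρ : Representation k H M}

theorem cv_const {F : (cochCx S ι ρ X).X 0} (hF : (cochCx S ι ρ X).d 0 F = 0) (a : X)
    (x y : Fin 1 → G) : cv F a x = cv F a y := by
  have h := congrFun (congrFun (congrArg cv hF) a) (fun i => if i = 0 then y 0 else x 0)
  rw [cv_d, dfun_apply, Fin.sum_univ_two] at h
  simp only [Fin.val_zero, pow_zero, one_smul, Fin.val_one, pow_one, neg_smul, cv_zero,
    Pi.zero_apply] at h
  have e1 : (fun j : Fin 1 => (fun i : Fin 2 => if i = 0 then y 0 else x 0) ((0 : Fin 2).succAbove j)) = x := by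
    funext j
    have : j = 0 := Subsingleton.elim _ _
    subst this
    simp
  have e2 : (fun j : Fin 1 => (fun i : Fin 2 => if i = 0 then y 0 else x 0) ((1 : Fin 2).succAbove j)) = y := by
    funext j
    have : j = 0 := Subsingleton.elim _ _
    subst this
    simp
  rw [e1, e2] at h
  exact eq_of_sub_eq_zero (by rw [sub_eq_add_neg]; exact h)

/-- `H⁰` is the module of invariants. -/
noncomputable def H0Equiv : (cochCx S ι ρ Unit).H 0 ≃ₗ[k] inv ρ := by
  refine LinearEquiv.symm (LinearEquiv.ofBijective
    ((Submodule.mkQ _) ∘ₗ LinearMap.codRestrict _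
      ({ toFun := fun m : inv ρ => (mkc (fun _ _ => (m : M)) ⟨fun h _ _ => (m.2 h).symm,
          S.nonempty.choose, S.nonempty.choose_spec, fun _ _ _ _ => rfl⟩ :
            (cochCx S ι ρ Unit).X 0)
         map_add' := fun a b => rfl
         map_smul' := fun c a => rfl } : inv ρ →ₗ[k] (cochCx S ι ρ Unit).X 0)
      (fun m => by
        apply cv_injective
        funext a x
        change dfun k G M Unit 0 (fun _ _ => (m : M)) a x = 0
        rw [dfun_apply, Fin.sum_univ_two]
        simp)) ⟨?_, ?_⟩)
  · rw [← LinearMap.ker_eq_bot, eq_bot_iff]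
    intro m hm
    rw [LinearMap.mem_ker] at hm
    have h := (Cx.cl_eq_zero _ _).1 hm
    rw [Cx.mem_B_zero] at h
    have h2 := congrFun (congrFun (congrArg cv h) ()) (fun _ => 1)
    exact Subtype.ext h2
  · intro z
    obtain ⟨F, hF, rfl⟩ := Cx.exists_cl _ z
    refine ⟨⟨cv F () (fun _ => 1), fun h => ?_⟩, ?_⟩
    · rw [← (cv_mem F).1]
      exact cv_const hF _ _ _
    · refine (Cx.cl_eq_iff _ _ _).2 ?_
      rw [Cx.mem_B_zero, sub_eq_zero]
      apply cv_injective
      funext a x
      exact cv_const hF _ _ _

end H0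

/-! ### Decomposition of the semilocal complex -/

section Orbit

variable {M : Type} [AddCommGroup M] [Module k M] (S ι) (ρ : Representation k H M)

/-- the stabilizer in `H` of a point -/
abbrev stb (ι : H →* G) (a : X) : Subgroup H := (MulAction.stabilizer G a).comap ι

theorem mem_stb (a : X) (h : H) : h ∈ stb ι a ↔ ι h • a = a := Iff.rfl

/-- restriction to a point -/
def ptRes (a : X) : Cx.Hom (cochCx S ι ρ X)
    (cochCx S (ι.comp (stb ι a).subtype) (ρ.comp (stb ι a).subtype) Unit) where
  f n :=
    { toFun := fun F => mkc (fun _ x => cv F a x) (by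
        obtain ⟨h1, V, hV, h2⟩ := cv_mem F
        refine ⟨fun h _ x => ?_, V, hV, fun _ x y hxy => h2 _ _ _ hxy⟩
        change cv F a (fun i => ι h * x i) = ρ h (cv F a x)
        rw [← h1]
        congr 1
        exact h.2.symm)
      map_add' := fun F F' => rfl
      map_smul' := fun c F => rfl }
  comm n F := rfl

theorem cv_ptRes (a : X) {n : ℕ} (F : (cochCx S ι ρ X).X n) (x : Fin (n + 1) → G) :
    cv ((ptRes S ι ρ a).f n F) () x = cv F a x := rfl

open Classical in
/-- extension by zero, underlying function -/
noncomputable def ptExtFun (a : X) {n : ℕ} (F : (Fin (n + 1) → G) → M) (b : X)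
    (x : Fin (n + 1) → G) : M :=
  if h : ∃ h : H, ι h • a = b then ρ h.choose (F fun i => (ι h.choose)⁻¹ * x i) else 0

theorem ptExtFun_eq (a : X) {n : ℕ} {F : (Fin (n + 1) → G) → M}
    (hF : ∀ d ∈ stb ι a, ∀ x, F (fun i => ι d * x i) = ρ d (F x)) (h : H) (x : Fin (n + 1) → G) :
    ptExtFun ι ρ a F (ι h • a) x = ρ h (F fun i => (ι h)⁻¹ * x i) := by
  have hex : ∃ h' : H, ι h' • a = ι h • a := ⟨h, rfl⟩
  rw [ptExtFun, dif_pos hex]
  have h1 := hex.choose_spec
  set g := hex.choose
  have hd : h⁻¹ * g ∈ stb ι a := by
    rw [mem_stb, map_mul, mul_smul, h1, map_inv, inv_smul_smul]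
  have h2 := hF _ hd (fun i => (ι g)⁻¹ * x i)
  have h3 : (fun i => ι (h⁻¹ * g) * ((ι g)⁻¹ * x i)) = fun i => (ι h)⁻¹ * x i := by
    funext i
    rw [map_mul, map_inv]
    group
  rw [h3] at h2
  rw [h2, map_mul, Module.End.mul_apply, Representation.self_inv_apply]

theorem ptExtFun_of_not (a : X) {n : ℕ} (F : (Fin (n + 1) → G) → M) {b : X}
    (hb : ¬ ∃ h : H, ι h • a = b) (x : Fin (n + 1) → G) : ptExtFun ι ρ a F b x = 0 := by
  rw [ptExtFun, dif_neg hb]

/-- extension by zero -/
noncomputable def ptExt (a : X) :
    Cx.Hom (cochCx S (ι.comp (stb ι a).subtype) (ρ.comp (stb ι a).subtype) Unit)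
      (cochCx S ι ρ X) where
  f n :=
    { toFun := fun F => mkc (ptExtFun ι ρ a (cv F ())) (by
        obtain ⟨h1, V, hV, h2⟩ := cv_mem F
        have h1' : ∀ d ∈ stb ι a, ∀ x, cv F () (fun i => ι d * x i) = ρ d (cv F () x) :=
          fun d hd x => h1 ⟨d, hd⟩ () x
        haveI := S.normal V hV
        refine ⟨fun h b x => ?_, V, hV, fun b x y hxy => ?_⟩
        · by_cases hb : ∃ h : H, ι h • a = b
          · obtain ⟨g, rfl⟩ := hb
            rw [← mul_smul, ← map_mul, ptExtFun_eq ι ρ a h1', ptExtFun_eq ι ρ a h1', map_mul,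
              Module.End.mul_apply]
            congr 3
            funext i
            rw [map_mul]
            group
          · rw [ptExtFun_of_not ι ρ a _ hb, ptExtFun_of_not ι ρ a, map_zero]
            rintro ⟨g, hg⟩
            exact hb ⟨h⁻¹ * g, by rw [map_mul, mul_smul, hg, map_inv, inv_smul_smul]⟩
        · by_cases hb : ∃ h : H, ι h • a = b
          · obtain ⟨g, rfl⟩ := hb
            rw [ptExtFun_eq ι ρ a h1', ptExtFun_eq ι ρ a h1', h2]
            intro i
            have : ((ι g)⁻¹ * x i)⁻¹ * ((ι g)⁻¹ * y i) = (x i)⁻¹ * y i := by group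
            rw [this]
            exact hxy i
          · rw [ptExtFun_of_not ι ρ a _ hb, ptExtFun_of_not ι ρ a _ hb])
      map_add' := fun F F' => cv_injective (by
        funext b x
        simp only [cv_mkc, cv_add, Pi.add_apply, ptExtFun]
        split_ifs
        · rw [map_add]
        · rw [add_zero])
      map_smul' := fun c F => cv_injective (by
        funext b x
        simp only [cv_mkc, cv_smul, Pi.smul_apply, ptExtFun, RingHom.id_apply]
        split_ifs
        · rw [map_smul]
        · rw [smul_zero]) }
  comm n F := by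
    apply cv_injective
    funext b x
    change ptExtFun ι ρ a (dfun k G M Unit n (cv F) ()) b x =
      dfun k G M X n (ptExtFun ι ρ a (cv F ())) b x
    simp only [dfun_apply, ptExtFun]
    split_ifs
    · rw [map_sum]
      simp only [map_smul]
    · simp

theorem cv_ptExt (a : X) {n : ℕ}
    (F : (cochCx S (ι.comp (stb ι a).subtype) (ρ.comp (stb ι a).subtype) Unit).X n)
    (h : H) (x : Fin (n + 1) → G) : cv ((ptExt S ι ρ a).f n F) (ι h • a) x =
      ρ h (cv F () fun i => (ι h)⁻¹ * x i) :=
  ptExtFun_eq ι ρ a (fun d hd x => (cv_mem F).1 ⟨d, hd⟩ () x) h x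

theorem cv_ptExt_of_not (a : X) {n : ℕ}
    (F : (cochCx S (ι.comp (stb ι a).subtype) (ρ.comp (stb ι a).subtype) Unit).X n)
    {b : X} (hb : ¬ ∃ h : H, ι h • a = b) (x : Fin (n + 1) → G) :
    cv ((ptExt S ι ρ a).f n F) b x = 0 :=
  ptExtFun_of_not ι ρ a _ hb x

/-- Decomposition of the semilocal cohomology along orbit representatives. -/
noncomputable def orbEquiv {J : Type} [Fintype J] [DecidableEq J] (a : J → X)
    (hcover : ∀ b : X, ∃ j, ∃ h : H, ι h • a j = b)
    (hdisj : ∀ i j, (∃ h : H, ι h • a i = a j) → i = j) (n : ℕ) :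
    (cochCx S ι ρ X).H n ≃ₗ[k] ∀ j, (cochCx S (ι.comp (stb ι (a j)).subtype)
      (ρ.comp (stb ι (a j)).subtype) Unit).H n :=
  Cx.piEquiv (fun j => ptRes S ι ρ (a j)) (fun j => ptExt S ι ρ (a j))
    (fun j n F => by
      apply cv_injective
      funext u x
      cases u
      rw [cv_ptRes]
      have := cv_ptExt S ι ρ (a j) F 1 x
      simpa using this)
    (fun j l hjl n F => by
      apply cv_injective
      funext u x
      cases u
      rw [cv_ptRes, cv_ptExt_of_not]
      · rfl
      · intro h
        exact hjl (hdisj l j h).symm)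
    (fun n F => by
      apply cv_injective
      funext b x
      have hsum : ∀ s : Finset J, cv (∑ j ∈ s, (ptExt S ι ρ (a j)).f n ((ptRes S ι ρ (a j)).f n F)) b x
          = ∑ j ∈ s, cv ((ptExt S ι ρ (a j)).f n ((ptRes S ι ρ (a j)).f n F)) b x := by
        classical
        intro s
        induction s using Finset.induction_on with
        | empty => simp
        | insert a s ha ih => rw [Finset.sum_insert ha, Finset.sum_insert ha, cv_add,
            Pi.add_apply, Pi.add_apply, ih]
      rw [hsum]
      obtain ⟨j, h, rfl⟩ := hcover b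
      rw [Finset.sum_eq_single j]
      · rw [cv_ptExt, cv_ptRes, ← (cv_mem F).1]
        simp
      · intro l _ hl
        rw [cv_ptExt_of_not]
        rintro ⟨g, hg⟩
        apply hl
        apply hdisj
        exact ⟨h⁻¹ * g, by rw [map_mul, mul_smul, hg, map_inv, inv_smul_smul]⟩
      · intro h; exact absurd (Finset.mem_univ _) h)
    n

theorem orbEquiv_cl {J : Type} [Fintype J] [DecidableEq J] (a : J → X)
    (hcover : ∀ b : X, ∃ j, ∃ h : H, ι h • a j = b)
    (hdisj : ∀ i j, (∃ h : H, ι h • a i = a j) → i = j) (n : ℕ)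
    (z : (cochCx S ι ρ X).H n) (j : J) :
    orbEquiv S ι ρ a hcover hdisj n z j = (ptRes S ι ρ (a j)).H n z := rfl

end Orbit

/-! ### Trivial coefficients -/

section Triv

variable {W : Type} [AddCommGroup W] [Module k W]

/-- Trivial coefficients depend only on the image of `H`. -/
def trivIso {H' : Type} [Group H'] {ι' : H' →* G} (h : ι.range = ι'.range) :
    Cx.Iso (cochCx S ι (Representation.trivial k H W) X)
      (cochCx S ι' (Representation.trivial k H' W) X) where
  e n := LinearEquiv.ofEq (coch S ι (Representation.trivial k H W) X n)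
    (coch S ι' (Representation.trivial k H' W) X n) (by
      ext F
      rw [mem_coch, mem_coch]
      apply and_congr_left
      intro _
      simp only [Representation.trivial_apply]
      constructor
      · intro h1 g a x
        obtain ⟨g', hg'⟩ : ι' g ∈ ι.range := by rw [h]; exact ⟨g, rfl⟩
        rw [← hg']; exact h1 g' a x
      · intro h1 g a x
        obtain ⟨g', hg'⟩ : ι g ∈ ι'.range := by rw [← h]; exact ⟨g, rfl⟩
        rw [← hg']; exact h1 g' a x)
  comm n F := rfl

/-- trivial coefficients in a finite dimensional space -/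
noncomputable def trivEquiv [Module.Finite k W] (n : ℕ) :
    (cochCx S ι (Representation.trivial k H W) X).H n ≃ₗ[k]
      (Fin (finrank k W) → (cochCx S ι (Representation.trivial k H k) X).H n) :=
  Cx.piEquiv (C := fun _ => cochCx S ι (Representation.trivial k H k) X)
    (fun j => cochMap ((finBasis k W).coord j) (fun h m => by simp))
    (fun j => cochMap (LinearMap.toSpanSingleton k W (finBasis k W j)) (fun h m => by simp))
    (fun j n F => by
      apply cv_injective
      funext a x
      simp [cv_cochMap])
    (fun j l hjl n F => by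
      apply cv_injective
      funext a x
      simp [cv_cochMap, Finsupp.single_eq_of_ne hjl])
    (fun n F => by
      classical
      apply cv_injective
      funext b x
      have hsum : ∀ s : Finset (Fin (finrank k W)), cv (∑ j ∈ s,
          (cochMap (S := S) (ι := ι) (X := X) (LinearMap.toSpanSingleton k W (finBasis k W j))
            (ρ := Representation.trivial k H k) (ρ' := Representation.trivial k H W)
            (fun h m => by simp)).f n
          ((cochMap (S := S) (ι := ι) (X := X) ((finBasis k W).coord j)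
            (ρ := Representation.trivial k H W) (ρ' := Representation.trivial k H k)
            (fun h m => by simp)).f n F)) b x
          = ∑ j ∈ s, ((finBasis k W).coord j (cv F b x)) • finBasis k W j := by
        intro s
        induction s using Finset.induction_on with
        | empty => simp
        | insert a s ha ih =>
          rw [Finset.sum_insert ha, Finset.sum_insert ha, cv_add, Pi.add_apply, Pi.add_apply, ih]
          rfl
      rw [hsum]
      exact (finBasis k W).sum_repr _)
    n

end Triv

end

end Fermat.Agent.CFT
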