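import Fermat.Agent.CFT.E5

/-!
# Split sequences of representations, and the dual of a coinduced representation
-/

set_option autoImplicit false
set_option linter.unusedSectionVars false
set_option linter.unusedVariables false
set_option linter.style.haveILetI false

namespace Fermat.Agent.CFT

open Module

section LinAlg

variable {k : Type*} [Field k] {V W V1 W1 V2 W2 : Type*} [AddCommGroup V] [Module k V]
  [AddCommGroup W] [Module k W] [AddCommGroup V1] [Module k V1] [AddCommGroup W1] [Module k W1]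
  [AddCommGroup V2] [Module k V2] [AddCommGroup W2] [Module k W2]
  (E : V ≃ₗ[k] V1 × V2) (F : W ≃ₗ[k] W1 × W2) (f : V →ₗ[k] W) (f1 : V1 →ₗ[k] W1)
  (f2 : V2 →ₗ[k] W2) (h : ∀ v, F (f v) = (f1 (E v).1, f2 (E v).2))

include h

/-- kernels of products -/
def prodKer : LinearMap.ker f ≃ₗ[k] LinearMap.ker f1 × LinearMap.ker f2 where
  toFun v := (⟨(E v).1, by
      have := h v; rw [v.2, map_zero] at this
      exact (congrArg Prod.fst this).symm⟩, ⟨(E v).2, by
      have := h v; rw [v.2, map_zero] at this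
      exact (congrArg Prod.snd this).symm⟩)
  map_add' v w := by
    refine Prod.ext (Subtype.ext ?_) (Subtype.ext ?_) <;> simp
  map_smul' c v := by
    refine Prod.ext (Subtype.ext ?_) (Subtype.ext ?_) <;> simp
  invFun y := ⟨E.symm (y.1, y.2), by
    rw [LinearMap.mem_ker, ← F.map_eq_zero_iff, h, LinearEquiv.apply_symm_apply]
    exact Prod.ext y.1.2 y.2.2⟩
  left_inv v := by apply Subtype.ext; simp
  right_inv y := by refine Prod.ext (Subtype.ext ?_) (Subtype.ext ?_) <;> simp

theorem prod_ker_finrank [Module.Finite k (LinearMap.ker f1)] [Module.Finite k (LinearMap.ker f2)] :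
    finrank k (LinearMap.ker f) = finrank k (LinearMap.ker f1) + finrank k (LinearMap.ker f2) := by
  rw [(prodKer E F f f1 f2 h).finrank_eq, Module.finrank_prod]

end LinAlg

section Add

universe u v

variable {k : Type u} [Field k] {C1 C2 D : Cx.{u, v} k}

/-- additivity of cohomology -/
noncomputable def Cx.prodEquiv (p1 : Cx.Hom D C1) (p2 : Cx.Hom D C2) (i1 : Cx.Hom C1 D)
    (i2 : Cx.Hom C2 D) (h11 : ∀ n x, p1.f n (i1.f n x) = x) (h22 : ∀ n x, p2.f n (i2.f n x) = x)
    (h12 : ∀ n x, p1.f n (i2.f n x) = 0) (h21 : ∀ n x, p2.f n (i1.f n x) = 0)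
    (h3 : ∀ n x, i1.f n (p1.f n x) + i2.f n (p2.f n x) = x) (n : ℕ) :
    D.H n ≃ₗ[k] C1.H n × C2.H n :=
  LinearEquiv.ofLinearMap ((p1.H n).prod (p2.H n)) ((i1.H n).coprod (i2.H n))
    (by
      apply LinearMap.ext
      rintro ⟨y, y'⟩
      obtain ⟨x, hx, rfl⟩ := C1.exists_cl y
      obtain ⟨x', hx', rfl⟩ := C2.exists_cl y'
      change (p1.H n (i1.H n (C1.cl n x hx) + i2.H n (C2.cl n x' hx')),
        p2.H n (i1.H n (C1.cl n x hx) + i2.H n (C2.cl n x' hx'))) =
        (C1.cl n x hx, C2.cl n x' hx')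
      rw [map_add, map_add]
      have e1 : p1.H n (i2.H n (C2.cl n x' hx')) = 0 := by
        rw [Cx.Hom.H_cl, Cx.Hom.H_cl, Cx.cl_eq_zero, h12]
        exact zero_mem _
      have e2 : p2.H n (i1.H n (C1.cl n x hx)) = 0 := by
        rw [Cx.Hom.H_cl, Cx.Hom.H_cl, Cx.cl_eq_zero, h21]
        exact zero_mem _
      rw [e1, e2, add_zero, zero_add]
      simp only [Cx.Hom.H_cl, h11, h22])
    (by
      apply LinearMap.ext
      intro z
      obtain ⟨x, hx, rfl⟩ := D.exists_cl z
      rw [LinearMap.comp_apply, LinearMap.coprod_apply]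
      change i1.H n (p1.H n (D.cl n x hx)) + i2.H n (p2.H n (D.cl n x hx)) = D.cl n x hx
      simp only [Cx.Hom.H_cl]
      change D.cl n (i1.f n (p1.f n x) + i2.f n (p2.f n x)) (by rw [h3]; exact hx) = _
      simp only [h3])

end Add

section Split

variable {k : Type} [Field k] {H N M1 M2 : Type} [Group H] [AddCommGroup N] [Module k N]
  [AddCommGroup M1] [Module k M1] [AddCommGroup M2] [Module k M2]

/-- A decomposition of a representation. -/
structure Spl (ρ : Representation k H N) (ρ1 : Representation k H M1)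
    (ρ2 : Representation k H M2) where
  /-- projection -/
  p1 : N →ₗ[k] M1
  /-- projection -/
  p2 : N →ₗ[k] M2
  /-- inclusion -/
  i1 : M1 →ₗ[k] N
  /-- inclusion -/
  i2 : M2 →ₗ[k] N
  hp1 : ∀ h x, p1 (ρ h x) = ρ1 h (p1 x)
  hp2 : ∀ h x, p2 (ρ h x) = ρ2 h (p2 x)
  hi1 : ∀ h x, i1 (ρ1 h x) = ρ h (i1 x)
  hi2 : ∀ h x, i2 (ρ2 h x) = ρ h (i2 x)
  e11 : ∀ x, p1 (i1 x) = x
  e22 : ∀ x, p2 (i2 x) = x
  e12 : ∀ x, p1 (i2 x) = 0
  e21 : ∀ x, p2 (i1 x) = 0
  sum : ∀ x, i1 (p1 x) + i2 (p2 x) = x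

variable {ρ : Representation k H N} {ρ1 : Representation k H M1} {ρ2 : Representation k H M2}

/-- The dual decomposition. -/
def Spl.dual (s : Spl ρ ρ1 ρ2) (χ : Representation k H k) :
    Spl (dl χ ρ) (dl χ ρ1) (dl χ ρ2) where
  p1 := LinearMap.lcomp k k s.i1
  p2 := LinearMap.lcomp k k s.i2
  i1 := LinearMap.lcomp k k s.p1
  i2 := LinearMap.lcomp k k s.p2
  hp1 h f := by ext x; simp [s.hi1]
  hp2 h f := by ext x; simp [s.hi2]
  hi1 h f := by ext x; simp [s.hp1]
  hi2 h f := by ext x; simp [s.hp2]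
  e11 f := by ext x; simp [s.e11]
  e22 f := by ext x; simp [s.e22]
  e12 f := by ext x; simp [s.e21]
  e21 f := by ext x; simp [s.e12]
  sum f := by
    ext x
    change f (s.i1 (s.p1 x)) + f (s.i2 (s.p2 x)) = f x
    rw [← map_add, s.sum]

variable {G : Type} [Group G] {S : Sys G} {ι : H →* G} {X : Type} [MulAction G X]

/-- cohomology of a decomposition -/
noncomputable def Spl.Hn (s : Spl ρ ρ1 ρ2) (n : ℕ) : (cochCx S ι ρ X).H n ≃ₗ[k]
    (cochCx S ι ρ1 X).H n × (cochCx S ι ρ2 X).H n :=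
  Cx.prodEquiv (cochMap s.p1 s.hp1) (cochMap s.p2 s.hp2) (cochMap s.i1 s.hi1)
    (cochMap s.i2 s.hi2)
    (fun n F => by apply cv_injective; funext a x; exact s.e11 _)
    (fun n F => by apply cv_injective; funext a x; exact s.e22 _)
    (fun n F => by apply cv_injective; funext a x; exact s.e12 _)
    (fun n F => by apply cv_injective; funext a x; exact s.e21 _)
    (fun n F => by apply cv_injective; funext a x; exact s.sum _) n

theorem Spl.Hn_apply (s : Spl ρ ρ1 ρ2) (n : ℕ) (z : (cochCx S ι ρ X).H n) :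
    s.Hn n z = ((cochMap (S := S) (ι := ι) (X := X) s.p1 s.hp1).H n z,
      (cochMap (S := S) (ι := ι) (X := X) s.p2 s.hp2).H n z) := rfl

theorem Spl.h_add (s : Spl ρ ρ1 ρ2) (n : ℕ) [Module.Finite k ((cochCx S ι ρ1 X).H n)]
    [Module.Finite k ((cochCx S ι ρ2 X).H n)] :
    (cochCx S ι ρ X).h n = (cochCx S ι ρ1 X).h n + (cochCx S ι ρ2 X).h n := by
  rw [Cx.h, (s.Hn n).finrank_eq, Module.finrank_prod]
  rfl

theorem Spl.inv_add [Module.Finite k M1] [Module.Finite k M2] (s : Spl ρ ρ1 ρ2) :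
    finrank k (inv ρ) = finrank k (inv ρ1) + finrank k (inv ρ2) := by
  rw [← Module.finrank_prod]
  refine LinearEquiv.finrank_eq (LinearEquiv.ofLinearMap
    (LinearMap.prod ((s.p1.comp (inv ρ).subtype).codRestrict _ fun x h => ?_)
      ((s.p2.comp (inv ρ).subtype).codRestrict _ fun x h => ?_))
    (LinearMap.coprod ((s.i1.comp (inv ρ1).subtype).codRestrict _ fun x h => ?_)
      ((s.i2.comp (inv ρ2).subtype).codRestrict _ fun x h => ?_)) ?_ ?_)
  · change ρ1 h (s.p1 x) = s.p1 x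
    rw [← s.hp1, x.2 h]
  · change ρ2 h (s.p2 x) = s.p2 x
    rw [← s.hp2, x.2 h]
  · change ρ h (s.i1 x) = s.i1 x
    rw [← s.hi1, x.2 h]
  · change ρ h (s.i2 x) = s.i2 x
    rw [← s.hi2, x.2 h]
  · apply LinearMap.ext
    rintro ⟨x, y⟩
    refine Prod.ext (Subtype.ext ?_) (Subtype.ext ?_)
    · change s.p1 (s.i1 x + s.i2 y) = x
      rw [map_add, s.e11, s.e12, add_zero]
    · change s.p2 (s.i1 x + s.i2 y) = y
      rw [map_add, s.e22, s.e21, zero_add]
  · apply LinearMap.ext
    intro x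
    apply Subtype.ext
    exact s.sum _

variable {Sg Sl : Sys G} (hS : ∀ U ∈ Sg.carrier, ∃ V ∈ Sl.carrier, V ≤ U)

/-- the numbers of the localisation map -/
theorem Spl.sh_add (s : Spl ρ ρ1 ρ2) (n : ℕ) [Module.Finite k ((cochCx Sg ι ρ1 Unit).H n)]
    [Module.Finite k ((cochCx Sg ι ρ2 Unit).H n)] :
    (loc hS ι X ρ).sh n = (loc hS ι X ρ1).sh n + (loc hS ι X ρ2).sh n :=
  prod_ker_finrank (s.Hn (S := Sg) (ι := ι) (X := Unit) n) (s.Hn (S := Sl) (ι := ι) (X := X) n)
    ((loc hS ι X ρ).H n) ((loc hS ι X ρ1).H n) ((loc hS ι X ρ2).H n) (fun v => by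
      obtain ⟨x, hx, rfl⟩ := Cx.exists_cl _ v
      rfl)

end Split

theorem Cx.Hom.h_source {k : Type*} [Field k] {C L : Cx k} (φ : Cx.Hom C L) (n : ℕ)
    [Module.Finite k (C.H n)] : C.h n = φ.rk n + φ.sh n :=
  (LinearMap.finrank_range_add_finrank_ker (φ.H n)).symm

theorem Cx.Hom.h_target {k : Type*} [Field k] {C L : Cx k} (φ : Cx.Hom C L) (n : ℕ)
    [Module.Finite k (L.H n)] : L.h n = φ.rk n + φ.ck n := by
  have := Submodule.finrank_quotient_add_finrank (LinearMap.range (φ.H n))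
  rw [Cx.Hom.rk, Cx.Hom.ck, add_comm]
  exact this.symm

section Split2

variable {k : Type} [Field k] {G H N M1 M2 : Type} [Group G] [Group H] [AddCommGroup N] [Module k N]
  [AddCommGroup M1] [Module k M1] [AddCommGroup M2] [Module k M2]
  {ρ : Representation k H N} {ρ1 : Representation k H M1} {ρ2 : Representation k H M2}
  {Sg Sl : Sys G} (hS : ∀ U ∈ Sg.carrier, ∃ V ∈ Sl.carrier, V ≤ U) {ι : H →* G} {X : Type}
  [MulAction G X]

theorem Spl.rk_ck_add (s : Spl ρ ρ1 ρ2) (n : ℕ) [Module.Finite k ((cochCx Sg ι ρ1 Unit).H n)]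
    [Module.Finite k ((cochCx Sg ι ρ2 Unit).H n)] [Module.Finite k ((cochCx Sl ι ρ1 X).H n)]
    [Module.Finite k ((cochCx Sl ι ρ2 X).H n)] :
    (loc hS ι X ρ).rk n = (loc hS ι X ρ1).rk n + (loc hS ι X ρ2).rk n ∧
    (loc hS ι X ρ).ck n = (loc hS ι X ρ1).ck n + (loc hS ι X ρ2).ck n := by
  haveI : Module.Finite k ((cochCx Sg ι ρ Unit).H n) :=
    Module.Finite.equiv (s.Hn (S := Sg) (ι := ι) (X := Unit) n).symm
  haveI : Module.Finite k ((cochCx Sl ι ρ X).H n) :=
    Module.Finite.equiv (s.Hn (S := Sl) (ι := ι) (X := X) n).symm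
  have a := s.sh_add hS (ι := ι) (X := X) n
  have b := s.h_add (S := Sg) (ι := ι) (X := Unit) n
  have c := s.h_add (S := Sl) (ι := ι) (X := X) n
  have d := (loc hS ι X ρ).h_source n
  have d1 := (loc hS ι X ρ1).h_source n
  have d2 := (loc hS ι X ρ2).h_source n
  have e := (loc hS ι X ρ).h_target n
  have e1 := (loc hS ι X ρ1).h_target n
  have e2 := (loc hS ι X ρ2).h_target n
  constructor <;> omega

end Split2

/-! ### The complement of a representation in the coinduced one -/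

section Compl

variable {k : Type} [Field k] {H M : Type} [Group H] [AddCommGroup M] [Module k M]
  (K : Subgroup H) [K.FiniteIndex] (ρ : Representation k H M)

/-- The complement. -/
noncomputable abbrev cmpl : Submodule k (CI K (ρ.comp K.subtype)) := LinearMap.ker (ciTr K ρ)

/-- The complement. -/
noncomputable abbrev cmplRep : Representation k H (cmpl K ρ) :=
  (ci K (ρ.comp K.subtype)).subrepresentation (cmpl K ρ) (fun g x hx => by
    rw [Submodule.mem_comap, LinearMap.mem_ker, ciTr_equiv, LinearMap.mem_ker.1 hx, map_zero])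

/-- The decomposition. -/
noncomputable def cmplSpl (hK : (K.index : k) ≠ 0) :
    Spl (N := CI K (ρ.comp K.subtype)) (M1 := M) (M2 := cmpl K ρ) (ci K (ρ.comp K.subtype)) ρ
      (cmplRep K ρ) where
  p1 := ciTr K ρ
  p2 := (LinearMap.id - ((K.index : k)⁻¹ • ciUnit K ρ ∘ₗ ciTr K ρ)).codRestrict _ (fun x => by
    rw [LinearMap.mem_ker]
    simp only [LinearMap.sub_apply, LinearMap.id_apply, LinearMap.smul_apply, LinearMap.comp_apply,
      map_sub, map_smul, ciTr_unit]
    rw [smul_smul, inv_mul_cancel₀ hK, one_smul, sub_self])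
  i1 := (K.index : k)⁻¹ • ciUnit K ρ
  i2 := (cmpl K ρ).subtype
  hp1 := ciTr_equiv K ρ
  hp2 h x := by
    apply Subtype.ext
    change ci K _ h x - (K.index : k)⁻¹ • ciUnit K ρ (ciTr K ρ (ci K _ h x)) =
      ci K _ h (x - (K.index : k)⁻¹ • ciUnit K ρ (ciTr K ρ x))
    rw [ciTr_equiv, ciUnit_equiv, map_sub, map_smul]
  hi1 h x := by
    change (K.index : k)⁻¹ • ciUnit K ρ (ρ h x) = ci K _ h ((K.index : k)⁻¹ • ciUnit K ρ x)
    rw [ciUnit_equiv, map_smul]
  hi2 h x := rfl
  e11 x := by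
    change ciTr K ρ ((K.index : k)⁻¹ • ciUnit K ρ x) = x
    rw [map_smul, ciTr_unit, smul_smul, inv_mul_cancel₀ hK, one_smul]
  e22 x := by
    apply Subtype.ext
    change (x : CI K (ρ.comp K.subtype)) - (K.index : k)⁻¹ • ciUnit K ρ (ciTr K ρ x) = x
    rw [LinearMap.mem_ker.1 x.2, map_zero, smul_zero, sub_zero]
  e12 x := x.2
  e21 x := by
    apply Subtype.ext
    change (K.index : k)⁻¹ • ciUnit K ρ x -
      (K.index : k)⁻¹ • ciUnit K ρ (ciTr K ρ ((K.index : k)⁻¹ • ciUnit K ρ x)) = 0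
    rw [map_smul, ciTr_unit, smul_smul _ (K.index : k), inv_mul_cancel₀ hK, one_smul, sub_self]
  sum x := by
    change (K.index : k)⁻¹ • ciUnit K ρ (ciTr K ρ x) +
      (x - (K.index : k)⁻¹ • ciUnit K ρ (ciTr K ρ x)) = x
    abel

end Compl

/-! ### The dual of a coinduced representation -/

section DualCi

variable {k : Type} [Field k] {H M A : Type} [Group H] [AddCommGroup M] [Module k M]
  [AddCommGroup A] [Module k A]
  (K : Subgroup H) [K.FiniteIndex] (χ : Representation k H k) (ρ : Representation k H M)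
  (σ : Representation k H A) (β : A ≃ₗ[k] (M →ₗ[k] k))

/-- The pairing. -/
noncomputable def ciPair : CI K (σ.comp K.subtype) →ₗ[k] (CI K (ρ.comp K.subtype) →ₗ[k] k) :=
  letI := Fintype.ofFinite (RC K)
  LinearMap.mk₂ k (fun ψ φ => ∑ q : RC K, χ q.out⁻¹ (β ((ψ : H → A) q.out) ((φ : H → M) q.out)))
    (fun a b c => by simp [Finset.sum_add_distrib])
    (fun a b c => by
      rw [Finset.smul_sum]
      refine Finset.sum_congr rfl fun q _ => ?_
      change χ q.out⁻¹ (β (a • ((b : H → A) q.out)) _) = _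
      rw [map_smul, LinearMap.smul_apply, map_smul])
    (fun a b c => by simp [Finset.sum_add_distrib])
    (fun a b c => by
      rw [Finset.smul_sum]
      refine Finset.sum_congr rfl fun q _ => ?_
      change χ q.out⁻¹ (β ((b : H → A) q.out) (a • _)) = _
      rw [map_smul, map_smul])

theorem ciPair_apply [Fintype (RC K)] (ψ : CI K (σ.comp K.subtype))
    (φ : CI K (ρ.comp K.subtype)) : ciPair K χ ρ σ β ψ φ =
      ∑ q : RC K, χ q.out⁻¹ (β ((ψ : H → A) q.out) ((φ : H → M) q.out)) := by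
  rw [ciPair]
  change Finset.sum _ _ = _
  congr!

section

variable (hβ : ∀ h a, β (σ h a) = dl χ ρ h (β a))

include hβ

theorem ciPair_aux (ψ : CI K (σ.comp K.subtype)) (φ : CI K (ρ.comp K.subtype)) (h : H) :
    χ (Quotient.out (s := QuotientGroup.rightRel K) ⟦h⟧)⁻¹
      (β ((ψ : H → A) (Quotient.out (s := QuotientGroup.rightRel K) ⟦h⟧))
        ((φ : H → M) (Quotient.out (s := QuotientGroup.rightRel K) ⟦h⟧))) =
    χ h⁻¹ (β ((ψ : H → A) h) ((φ : H → M) h)) := by
  have h1 := mul_out_inv_mem K h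
  set q := Quotient.out (s := QuotientGroup.rightRel K) ⟦h⟧
  have h2 : h = ((⟨_, h1⟩ : K) : H) * q := by simp
  have h3 := CI_apply K _ ψ ⟨_, h1⟩ q
  have h4 := CI_apply K _ φ ⟨_, h1⟩ q
  rw [← h2] at h3 h4
  rw [h3, h4]
  change _ = χ h⁻¹ (β (σ (h * q⁻¹) _) (ρ (h * q⁻¹) _))
  rw [hβ, dl_apply, Representation.inv_self_apply, ← Module.End.mul_apply, ← map_mul]
  congr 2
  group

theorem ciPair_equiv (h : H) (ψ : CI K (σ.comp K.subtype)) :
    ciPair K χ ρ σ β (ci K _ h ψ) = dl χ (ci K (ρ.comp K.subtype)) h (ciPair K χ ρ σ β ψ) := by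
  letI := Fintype.ofFinite (RC K)
  apply LinearMap.ext
  intro φ
  rw [dl_apply, ciPair_apply, ciPair_apply, map_sum]
  refine Fintype.sum_equiv (rcMul K h) _ _ fun q => ?_
  induction q using Quotient.inductionOn' with
  | h x =>
    change χ (Quotient.out (s := QuotientGroup.rightRel K) ⟦x⟧)⁻¹
        (β (((ci K _ h ψ : CI K (σ.comp K.subtype)) : H → A)
          (Quotient.out (s := QuotientGroup.rightRel K) ⟦x⟧))
          ((φ : H → M) (Quotient.out (s := QuotientGroup.rightRel K) ⟦x⟧))) =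
      χ h (χ (Quotient.out (s := QuotientGroup.rightRel K) ⟦x * h⟧)⁻¹
        (β ((ψ : H → A) (Quotient.out (s := QuotientGroup.rightRel K) ⟦x * h⟧))
          (((ci K _ h⁻¹ φ : CI K (ρ.comp K.subtype)) : H → M)
            (Quotient.out (s := QuotientGroup.rightRel K) ⟦x * h⟧))))
    rw [ciPair_aux K χ ρ σ β hβ ψ (ci K _ h⁻¹ φ) (x * h), ciPair_aux K χ ρ σ β hβ (ci K _ h ψ) φ x,
      ci_apply, ci_apply, mul_inv_cancel_right, ← Module.End.mul_apply, ← map_mul]
    congr 2
    group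

end

theorem ciPair_injective : Function.Injective (ciPair K χ ρ σ β) := by
  classical
  letI := Fintype.ofFinite (RC K)
  rw [injective_iff_map_eq_zero]
  intro ψ hψ
  apply (ciEquiv K _).injective
  rw [map_zero]
  funext q
  apply β.injective
  apply LinearMap.ext
  intro m
  have h1 := congrArg (fun f : CI K (ρ.comp K.subtype) →ₗ[k] k =>
    f ((ciEquiv K _).symm (Pi.single q m))) hψ
  rw [ciPair_apply, Finset.sum_eq_single q] at h1
  · have h2 : (((ciEquiv K (ρ.comp K.subtype)).symm (Pi.single q m) :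
        CI K (ρ.comp K.subtype)) : H → M) q.out = m := by
      have := congrFun ((ciEquiv K (ρ.comp K.subtype)).apply_symm_apply (Pi.single q m)) q
      rw [Pi.single_eq_same] at this
      exact this
    rw [h2, LinearMap.zero_apply] at h1
    have h3 : β ((ψ : H → A) q.out) m = χ q.out (χ q.out⁻¹
        (β ((ψ : H → A) q.out) m)) := (Representation.self_inv_apply χ _ _).symm
    change β ((ψ : H → A) q.out) m = (β 0) m
    rw [h3, h1, map_zero, map_zero, LinearMap.zero_apply]
  · intro q' _ hq'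
    have h2 : (((ciEquiv K (ρ.comp K.subtype)).symm (Pi.single q m) :
        CI K (ρ.comp K.subtype)) : H → M) q'.out = 0 := by
      have := congrFun ((ciEquiv K (ρ.comp K.subtype)).apply_symm_apply (Pi.single q m)) q'
      rw [Pi.single_eq_of_ne hq'] at this
      exact this
    rw [h2, map_zero, map_zero]
  · intro h; exact absurd (Finset.mem_univ _) h

include β in
theorem ciDual_finrank [Module.Finite k M] [Module.Finite k A] :
    finrank k (CI K (σ.comp K.subtype)) = finrank k (CI K (ρ.comp K.subtype) →ₗ[k] k) := by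
  have h1 : finrank k (CI K (ρ.comp K.subtype) →ₗ[k] k) =
    finrank k (CI K (ρ.comp K.subtype)) := Subspace.dual_finrank_eq
  have h2 : finrank k A = finrank k M := β.finrank_eq.trans Subspace.dual_finrank_eq
  rw [h1, finrank_CI, finrank_CI, h2]

/-- The duality isomorphism. -/
noncomputable def ciDual [Module.Finite k M] [Module.Finite k A] :
    CI K (σ.comp K.subtype) ≃ₗ[k] (CI K (ρ.comp K.subtype) →ₗ[k] k) :=
  LinearEquiv.ofBijective (ciPair K χ ρ σ β) ⟨ciPair_injective K χ ρ σ β,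
  (LinearMap.injective_iff_surjective_of_finrank_eq_finrank
    (ciDual_finrank K ρ σ β)).1 (ciPair_injective K χ ρ σ β)⟩

theorem ciDual_equiv [Module.Finite k M] [Module.Finite k A]
    (hβ : ∀ h a, β (σ h a) = dl χ ρ h (β a)) (h : H) (ψ : CI K (σ.comp K.subtype)) :
    ciDual K χ ρ σ β (ci K _ h ψ) = dl χ (ci K (ρ.comp K.subtype)) h (ciDual K χ ρ σ β ψ) :=
  ciPair_equiv K χ ρ σ β hβ h ψ

/-- invariants of a coinduced representation -/
def invCi {A : Type} [AddCommGroup A] [Module k A] (τ : Representation k K A) :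
    inv (ci K τ) ≃ₗ[k] inv τ where
  toFun f := ⟨((f : CI K τ) : H → A) 1, fun u => by
    have h1 := CI_apply K τ (f : CI K τ) u 1
    have h2 := congrFun (congrArg Subtype.val (f.2 (u : H))) 1
    rw [← h1, mul_one]
    rw [ci_apply, one_mul] at h2
    exact h2⟩
  map_add' f g := rfl
  map_smul' c f := rfl
  invFun a := ⟨⟨fun _ => a, fun u h => (a.2 u).symm⟩, fun h => rfl⟩
  left_inv f := by
    apply Subtype.ext
    apply Subtype.ext
    funext h
    have h2 := congrFun (congrArg Subtype.val (f.2 h)) 1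
    rw [ci_apply, one_mul] at h2
    exact h2.symm
  right_inv a := rfl

end DualCi

end Fermat.Agent.CFT
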