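import Fermat.Agent.CFT.DimF

/-!
# Localisation and the groups `T²`, `T³`
-/

set_option autoImplicit false
set_option linter.unusedSectionVars false
set_option linter.unusedVariables false
set_option linter.style.haveILetI false

namespace Fermat.Agent.CFT

open Module

section LinAlg

variable {k : Type*} [Field k] {V W : Type*} [AddCommGroup V] [Module k V] [AddCommGroup W]
  [Module k W] {J : Type*} [Fintype J] [DecidableEq J] {Vj Wj : J → Type*}
  [∀ j, AddCommGroup (Vj j)] [∀ j, Module k (Vj j)] [∀ j, AddCommGroup (Wj j)]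
  [∀ j, Module k (Wj j)]

theorem pi_ker (E : V ≃ₗ[k] ∀ j, Vj j) (F : W ≃ₗ[k] ∀ j, Wj j) (f : V →ₗ[k] W)
    (fj : ∀ j, Vj j →ₗ[k] Wj j) (h : ∀ v j, F (f v) j = fj j (E v j))
    [∀ j, Module.Finite k (LinearMap.ker (fj j))] :
    finrank k (LinearMap.ker f) = ∑ j, finrank k (LinearMap.ker (fj j)) := by
  rw [← Module.finrank_pi_fintype]
  refine LinearEquiv.finrank_eq
    { toFun := fun v j => ⟨E v j, by
        rw [LinearMap.mem_ker, ← h, v.2, map_zero]; rfl⟩
      map_add' := fun v w => by funext j; apply Subtype.ext; simp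
      map_smul' := fun c v => by funext j; apply Subtype.ext; simp
      invFun := fun y => ⟨E.symm fun j => (y j : Vj j), by
        rw [LinearMap.mem_ker, ← F.map_eq_zero_iff]
        funext j
        rw [h, LinearEquiv.apply_symm_apply]
        exact (y j).2⟩
      left_inv := fun v => by apply Subtype.ext; simp
      right_inv := fun y => by funext j; apply Subtype.ext; simp }

theorem pi_ck (E : V ≃ₗ[k] ∀ j, Vj j) (F : W ≃ₗ[k] ∀ j, Wj j) (f : V →ₗ[k] W)
    (fj : ∀ j, Vj j →ₗ[k] Wj j) (h : ∀ v j, F (f v) j = fj j (E v j))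
    [∀ j, Module.Finite k (Wj j ⧸ LinearMap.range (fj j))] :
    finrank k (W ⧸ LinearMap.range f) = ∑ j, finrank k (Wj j ⧸ LinearMap.range (fj j)) := by
  rw [← Module.finrank_pi_fintype]
  have e1 : (LinearMap.range f).map (F : W →ₗ[k] ∀ j, Wj j) =
      Submodule.pi Set.univ fun j => LinearMap.range (fj j) := by
    ext y
    constructor
    · rintro ⟨_, ⟨v, rfl⟩, rfl⟩ j _
      exact ⟨E v j, (h v j).symm⟩
    · intro hy
      choose z hz using fun j => hy j trivial
      refine ⟨f (E.symm z), ⟨_, rfl⟩, ?_⟩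
      funext j
      change F (f (E.symm z)) j = y j
      rw [h, LinearEquiv.apply_symm_apply, hz]
  exact ((Submodule.Quotient.equiv _ _ F e1).trans (Submodule.quotientPi _)).finrank_eq

end LinAlg

section

variable {p : ℕ} [Fact p.Prime] {k : Type} [Field k] {G H : Type} [Group G] [Group H]
  {Sg Sl : Sys G} (hS : ∀ U ∈ Sg.carrier, ∃ V ∈ Sl.carrier, V ≤ U) (ι : H →* G)
  (X : Type) [MulAction G X]

section

variable {M : Type} [AddCommGroup M] [Module k M] (ρ : Representation k H M)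

/-- The localisation morphism. -/
def loc : Cx.Hom (cochCx Sg ι ρ Unit) (cochCx Sl ι ρ X) where
  f n :=
    { toFun := fun F => mkc (fun a x => cv F () x) (by
        obtain ⟨h1, U, hU, h2⟩ := cv_mem F
        obtain ⟨V, hV, hVU⟩ := hS U hU
        exact ⟨fun h a x => h1 h () x, V, hV, fun a x y hxy => h2 () x y fun i => hVU (hxy i)⟩)
      map_add' := fun F F' => rfl
      map_smul' := fun c F => rfl }
  comm n F := rfl

theorem cv_loc {n : ℕ} (F : (cochCx Sg ι ρ Unit).X n) (a : X) (x : Fin (n + 1) → G) :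
    cv ((loc hS ι X ρ).f n F) a x = cv F () x := rfl

variable {M' : Type} [AddCommGroup M'] [Module k M'] (ρ' : Representation k H M')

theorem loc_cochMap (φ : M →ₗ[k] M') (hφ : ∀ h m, φ (ρ h m) = ρ' h (φ m)) (n : ℕ)
    (F : (cochCx Sg ι ρ Unit).X n) :
    (cochMap (S := Sl) (ι := ι) (X := X) (ρ := ρ) (ρ' := ρ') φ hφ).f n ((loc hS ι X ρ).f n F) =
      (loc hS ι X ρ').f n ((cochMap (S := Sg) (ι := ι) (X := Unit) (ρ := ρ) (ρ' := ρ') φ hφ).f n F) :=
  rfl

end

section

universe u v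

variable {k : Type u} [Field k]

theorem Cx.Hom.ck_iso {C L C' L' : Cx.{u, v} k} (φ : Cx.Hom C L) (φ' : Cx.Hom C' L') (e : Cx.Iso C C')
    (f : Cx.Iso L L') (h : ∀ n x, f.e n (φ.f n x) = φ'.f n (e.e n x)) (n : ℕ) :
    φ.ck n = φ'.ck n := by
  have e1 : (LinearMap.range (φ.H n)).map ((f.H n : L.H n ≃ₗ[k] L'.H n) : L.H n →ₗ[k] L'.H n) =
      LinearMap.range (φ'.H n) := by
    ext y
    constructor
    · rintro ⟨_, ⟨v, rfl⟩, rfl⟩
      obtain ⟨x, hx, rfl⟩ := C.exists_cl v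
      refine ⟨e.H n (C.cl n x hx), ?_⟩
      change L'.cl n (φ'.f n (e.e n x)) _ = L'.cl n (f.e n (φ.f n x)) _
      simp only [h]
    · rintro ⟨v, rfl⟩
      obtain ⟨v, rfl⟩ := (e.H n).surjective v
      obtain ⟨x, hx, rfl⟩ := C.exists_cl v
      refine ⟨φ.H n (C.cl n x hx), ⟨_, rfl⟩, ?_⟩
      change L'.cl n (f.e n (φ.f n x)) _ = L'.cl n (φ'.f n (e.e n x)) _
      simp only [h]
  exact (Submodule.Quotient.equiv _ _ (f.H n) e1).finrank_eq

theorem Cx.Hom.sh_iso {C L C' L' : Cx.{u, v} k} (φ : Cx.Hom C L) (φ' : Cx.Hom C' L') (e : Cx.Iso C C')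
    (f : Cx.Iso L L') (h : ∀ n x, f.e n (φ.f n x) = φ'.f n (e.e n x)) (n : ℕ) :
    φ.sh n = φ'.sh n := by
  have hcomm : ∀ z, f.H n (φ.H n z) = φ'.H n (e.H n z) := fun z => by
    obtain ⟨x, hx, rfl⟩ := C.exists_cl z
    change L'.cl n (f.e n (φ.f n x)) _ = L'.cl n (φ'.f n (e.e n x)) _
    simp only [h]
  refine LinearEquiv.finrank_eq ((e.H n).submoduleMap _ |>.trans (LinearEquiv.ofEq _ _ ?_))
  ext y
  constructor
  · rintro ⟨z, hz, rfl⟩
    rw [LinearMap.mem_ker]
    change φ'.H n (e.H n z) = 0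
    rw [← hcomm, LinearMap.mem_ker.1 hz, map_zero]
  · intro hy
    refine ⟨(e.H n).symm y, ?_, (e.H n).apply_symm_apply y⟩
    change φ.H n _ = 0
    rw [← (f.H n).map_eq_zero_iff, hcomm, LinearEquiv.apply_symm_apply]
    exact hy

/-- monotonicity of the cokernel -/
theorem Cx.Hom.ck_le {C L C' L' : Cx.{u, v} k} (φ : Cx.Hom C L) (φ' : Cx.Hom C' L')
    (e : Cx.Hom C C') (f : Cx.Hom L L') (h : ∀ n x, f.f n (φ.f n x) = φ'.f n (e.f n x)) (n : ℕ)
    (hf : Function.Surjective (f.H n)) [Module.Finite k (L.H n)] : φ'.ck n ≤ φ.ck n := by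
  have hcomm : ∀ z, f.H n (φ.H n z) = φ'.H n (e.H n z) := fun z => by
    obtain ⟨x, hx, rfl⟩ := C.exists_cl z
    simp only [Cx.Hom.H_cl, h]
  have h1 : LinearMap.range (φ.H n) ≤ (LinearMap.range (φ'.H n)).comap (f.H n) := by
    rintro _ ⟨z, rfl⟩
    exact ⟨e.H n z, (hcomm z).symm⟩
  exact LinearMap.finrank_le_finrank_of_surjective (f := Submodule.mapQ _ _ (f.H n) h1) (by
    intro y
    obtain ⟨y, rfl⟩ := Submodule.Quotient.mk_surjective _ y
    obtain ⟨x, rfl⟩ := hf y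
    exact ⟨Submodule.Quotient.mk x, rfl⟩)

end

/-- Shapiro and localisation -/
theorem loc_shapiro {A : Type} [AddCommGroup A] [Module k A] (U : Subgroup H)
    (τ : Representation k U A) (n : ℕ) (F : (cochCx Sg ι (ci U τ) Unit).X n) :
    (shapiro (S := Sl) (ι := ι) (X := X) U τ).e n ((loc hS ι X (ci U τ)).f n F) =
      (loc hS (ι.comp U.subtype) X τ).f n ((shapiro (S := Sg) (ι := ι) (X := Unit) U τ).e n F) := rfl

theorem loc_trivIso {W : Type} [AddCommGroup W] [Module k W] {H' : Type} [Group H'] {ι' : H' →* G}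
    (h : ι.range = ι'.range) (n : ℕ) (F : (cochCx Sg ι (Representation.trivial k H W) Unit).X n) :
    (trivIso (S := Sl) (X := X) h).e n ((loc hS ι X (Representation.trivial k H W)).f n F) =
      (loc hS ι' X (Representation.trivial k H' W)).f n ((trivIso (S := Sg) (X := Unit) h).e n F) :=
  rfl

theorem triv_ck {W : Type} [AddCommGroup W] [Module k W] [Module.Finite k W] (n : ℕ)
    [Module.Finite k ((cochCx Sl ι (Representation.trivial k H k) X).H n)] :
    (loc hS ι X (Representation.trivial k H W)).ck n =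
      finrank k W * (loc hS ι X (Representation.trivial k H k)).ck n := by
  rw [Cx.Hom.ck, pi_ck (trivEquiv (S := Sg) (ι := ι) (X := Unit) (k := k) (W := W) n)
    (trivEquiv (S := Sl) (ι := ι) (X := X) (k := k) (W := W) n) _
    (fun _ => (loc hS ι X (Representation.trivial k H k)).H n) (fun z j => by
      obtain ⟨x, hx, rfl⟩ := Cx.exists_cl _ z
      rfl), Finset.sum_const, Finset.card_univ, Fintype.card_fin, smul_eq_mul, Cx.Hom.ck]

end

/-! ### Semilocal numbers -/

section Semilocal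

variable {p : ℕ} [Fact p.Prime] {G H : Type} [Group G] [Group H] (Sl : Sys G) (ι : H →* G)
  (X : Type) [MulAction G X]

/-- Orbit representatives and base hypotheses at the local groups. -/
structure LocData (p : ℕ) [Fact p.Prime] where
  /-- index set -/
  J : Type
  [fin : Fintype J]
  [dec : DecidableEq J]
  /-- representatives -/
  a : J → X
  cover : ∀ b : X, ∃ j, ∃ h : H, ι h • a j = b
  disj : ∀ i j, (∃ h : H, ι h • a i = a j) → i = j
  /-- local degrees -/
  nn : J → ℤ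
  base : ∀ j, BaseHyp Sl (ι.comp (stb ι (a j)).subtype) p (nn j)
  h2 : ∀ j (U : Subgroup (stb ι (a j))), PO Sl (ι.comp (stb ι (a j)).subtype) p U →
    (tc Sl (ι.comp (stb ι (a j)).subtype) p U).h 2 = 1

attribute [instance] LocData.fin LocData.dec

variable {Sl ι X} (D : LocData Sl ι X p)

theorem PO.subgroupOf {Sg : Sys G} (hS : ∀ U ∈ Sg.carrier, ∃ V ∈ Sl.carrier, V ≤ U)
    {U : Subgroup H} (hU : PO Sg ι p U) (K : Subgroup H) :
    PO Sl (ι.comp K.subtype) p (U.subgroupOf K) where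
  normal := by haveI := hU.normal; infer_instance
  index := by
    haveI := hU.normal
    obtain ⟨m, hm⟩ := hU.index
    have h1 : (U.subgroupOf K).index ∣ p ^ m := by
      rw [← hm]; exact Subgroup.relIndex_dvd_index_of_normal U K
    obtain ⟨l, -, hl⟩ := (Nat.dvd_prime_pow Fact.out).1 h1
    exact ⟨l, hl⟩
  isOpen := by
    obtain ⟨V, hV, h⟩ := hU.isOpen
    obtain ⟨V', hV', h'⟩ := hS V hV
    exact ⟨V', hV', fun x hx => h (h' hx)⟩

theorem TrivOn.sub {M : Type} [AddCommGroup M] [Module (ZMod p) M] {U : Subgroup H}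
    {ρ : Representation (ZMod p) H M} (hρ : TrivOn U ρ) (K : Subgroup H) :
    TrivOn (U.subgroupOf K) (ρ.comp K.subtype) := fun u hu x => hρ _ hu x

variable {Sg : Sys G} (hS : ∀ U ∈ Sg.carrier, ∃ V ∈ Sl.carrier, V ≤ U)
  {M M' : Type} [AddCommGroup M] [Module (ZMod p) M] [AddCommGroup M'] [Module (ZMod p) M']
  [Module.Finite (ZMod p) M] [Module.Finite (ZMod p) M'] {U : Subgroup H} (hU : PO Sg ι p U)
  (ρ : Representation (ZMod p) H M) (hρ : TrivOn U ρ) (ρ' : Representation (ZMod p) H M')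

include D hS hU hρ

theorem sl_fin2 : (cochCx Sl ι ρ X).Fin2 := fun n hn => by
  haveI : ∀ j, Module.Finite (ZMod p) ((cochCx Sl (ι.comp (stb ι (D.a j)).subtype)
      (ρ.comp (stb ι (D.a j)).subtype) Unit).H n) := fun j =>
    (chi_eq (D.base j) (hU.subgroupOf hS _) _ (hρ.sub _)).1 n hn
  exact Module.Finite.equiv (orbEquiv Sl ι ρ D.a D.cover D.disj n).symm

theorem sl_h {n : ℕ} (hn : n ≤ 2) : (cochCx Sl ι ρ X).h n =
    ∑ j, (cochCx Sl (ι.comp (stb ι (D.a j)).subtype) (ρ.comp (stb ι (D.a j)).subtype) Unit).h n := by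
  haveI : ∀ j, Module.Finite (ZMod p) ((cochCx Sl (ι.comp (stb ι (D.a j)).subtype)
      (ρ.comp (stb ι (D.a j)).subtype) Unit).H n) := fun j =>
    (chi_eq (D.base j) (hU.subgroupOf hS _) _ (hρ.sub _)).1 n hn
  rw [Cx.h, (orbEquiv Sl ι ρ D.a D.cover D.disj n).finrank_eq, Module.finrank_pi_fintype]
  rfl

theorem sl_chi : (cochCx Sl ι ρ X).chi = -(∑ j, D.nn j) * finrank (ZMod p) M := by
  have h : ∀ j, (cochCx Sl (ι.comp (stb ι (D.a j)).subtype)
      (ρ.comp (stb ι (D.a j)).subtype) Unit).chi = -(D.nn j) * finrank (ZMod p) M := fun j =>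
    (chi_eq (D.base j) (hU.subgroupOf hS _) _ (hρ.sub _)).2
  rw [Cx.chi, sl_h D hS hU ρ hρ (by norm_num), sl_h D hS hU ρ hρ (by norm_num),
    sl_h D hS hU ρ hρ le_rfl, ← Finset.sum_neg_distrib, Finset.sum_mul]
  push_cast
  rw [← Finset.sum_sub_distrib, ← Finset.sum_add_distrib]
  exact Finset.sum_congr rfl fun j _ => h j

theorem sl_h2 : (cochCx Sl ι ρ X).h 2 =
    ∑ j, finrank (ZMod p) (invFun (ρ.comp (stb ι (D.a j)).subtype)) := by
  rw [sl_h D hS hU ρ hρ le_rfl]
  exact Finset.sum_congr rfl fun j _ => h2_eq (D.base j) (D.h2 j) (hU.subgroupOf hS _) _ (hρ.sub _)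

theorem sl_h0 : (cochCx Sl ι ρ X).h 0 =
    ∑ j, finrank (ZMod p) (inv (ρ.comp (stb ι (D.a j)).subtype)) := by
  rw [sl_h D hS hU ρ hρ (by norm_num)]
  exact Finset.sum_congr rfl fun j _ => H0Equiv.finrank_eq

theorem sl_surj (φ : M →ₗ[ZMod p] M') (hφ : ∀ h m, φ (ρ h m) = ρ' h (φ m))
    (hs : Function.Surjective φ) :
    Function.Surjective ((cochMap (S := Sl) (ι := ι) (X := X) (ρ := ρ) (ρ' := ρ') φ hφ).H 2) := by
  intro z
  have hj : ∀ j, Function.Surjective ((cochMap (S := Sl)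
      (ι := ι.comp (stb ι (D.a j)).subtype) (X := Unit)
      (ρ := ρ.comp (stb ι (D.a j)).subtype) (ρ' := ρ'.comp (stb ι (D.a j)).subtype) φ
      (fun h m => hφ _ m)).H 2) := fun j =>
    H2_surjective (D.base j) (hU.subgroupOf hS _) _ (hρ.sub _) _ φ _ hs
  choose y hy using fun j => hj j (orbEquiv Sl ι ρ' D.a D.cover D.disj 2 z j)
  refine ⟨(orbEquiv Sl ι ρ D.a D.cover D.disj 2).symm y, ?_⟩
  apply (orbEquiv Sl ι ρ' D.a D.cover D.disj 2).injective
  funext j
  rw [← hy j]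
  have h1 : y j = orbEquiv Sl ι ρ D.a D.cover D.disj 2
      ((orbEquiv Sl ι ρ D.a D.cover D.disj 2).symm y) j := by
    rw [LinearEquiv.apply_symm_apply]
  rw [h1]
  generalize (orbEquiv Sl ι ρ D.a D.cover D.disj 2).symm y = w
  obtain ⟨x, hx, rfl⟩ := Cx.exists_cl _ w
  rfl

end Semilocal

end Fermat.Agent.CFT
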