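import Fermat.Agent.CFT.Kum

/-!
# Frobenius elements and inertia
-/

set_option autoImplicit false
set_option linter.unusedSectionVars false
set_option linter.unusedVariables false
set_option linter.style.haveILetI false

namespace Fermat.Agent.CFT

open Module Fermat.Agent.Places NumberField
open scoped Pointwise

section Lift

attribute [-instance] DivisionRing.toRatAlgebra

/-- Lifting inertia elements. -/
theorem exists_inertia_eq {L : Type*} [Field L] [CharZero L] [inst : Algebra ℚ L]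
    [IsGalois ℚ L] (E : IntermediateField ℚ L) (A : ValuationSubring L) (g : L ≃ₐ[ℚ] L)
    (hg : g • A = A) {q : ℕ} (hq : q.Prime) (hA : A.LiesOverPrime q)
    (h : ∀ z : L, z ∈ E → IsIntegral ℤ z → g z - z ∈ A.nonunits) :
    ∃ τ ∈ A.inertiaSubgroupIn ℚ, ∀ x ∈ E, τ x = g x := by
  letI algB : Algebra (𝓞 E) (integralClosure ℤ L) := (inclInt E).toAlgebra
  haveI : SMulCommClass (L ≃ₐ[E] L) (𝓞 E) (integralClosure ℤ L) := ⟨fun g a b => by
    apply Subtype.ext
    change g (((a : E) : L) * (b : L)) = ((a : E) : L) * g (b : L)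
    rw [map_mul]
    congr 1
    exact g.commutes (a : E)⟩
  haveI : Algebra.IsIntegral (𝓞 E) (integralClosure ℤ L) := ⟨fun x => by
    haveI : IsScalarTower ℤ (𝓞 E) (integralClosure ℤ L) := IsScalarTower.of_algebraMap_eq' (by
      ext; simp)
    exact (Algebra.IsIntegral.isIntegral (R := ℤ) x).tower_top⟩
  letI : TopologicalSpace (integralClosure ℤ L) := ⊥
  haveI : DiscreteTopology (integralClosure ℤ L) := ⟨rfl⟩
  haveI : ContinuousSMul (L ≃ₐ[E] L) (integralClosure ℤ L) := continuousSMul_intermediate E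
  haveI : Algebra.IsInvariant (𝓞 E) (integralClosure ℤ L) (L ≃ₐ[E] L) :=
    isInvariant_intermediate E
  let Q : Ideal (integralClosure ℤ L) := center A
  let P : Ideal (𝓞 E) := Q.comap (algebraMap (𝓞 E) (integralClosure ℤ L))
  haveI hlies : Q.LiesOver P := ⟨rfl⟩
  have hgQ : g • Q = Q := by
    change g • center A = center A
    rw [← center_smul, hg]
  haveI hQp : Q.IsMaximal := by
    let PZ : Ideal ℤ := Ideal.span {(q : ℤ)}
    haveI hP : PZ.IsMaximal :=
      (PrincipalIdealRing.isMaximal_of_irreducible (Nat.prime_iff_prime_int.mp hq).irreducible)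
    haveI : Algebra.IsIntegral ℤ (integralClosure ℤ L) := integralClosure.AlgebraIsIntegral
    exact Ideal.isMaximal_of_isIntegral_of_isMaximal_comap Q
      (by rw [show Ideal.comap (algebraMap ℤ (integralClosure ℤ L)) Q = PZ from
        (under_center A hq hA)]; exact hP)
  haveI hPm : P.IsMaximal := Ideal.isMaximal_comap_of_isIntegral_of_isMaximal Q
  let e : integralClosure ℤ L ≃+* integralClosure ℤ L :=
    MulSemiringAction.toRingEquiv (L ≃ₐ[ℚ] L) (integralClosure ℤ L) g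
  have he : Q = Q.map (e : integralClosure ℤ L →+* integralClosure ℤ L) := by
    conv_lhs => rw [← hgQ]
    rfl
  let f₀ : (integralClosure ℤ L ⧸ Q) ≃+* (integralClosure ℤ L ⧸ Q) := Ideal.quotientEquiv Q Q e he
  have hf₀ : ∀ r : 𝓞 E ⧸ P, f₀ (algebraMap (𝓞 E ⧸ P) (integralClosure ℤ L ⧸ Q) r) =
      algebraMap (𝓞 E ⧸ P) (integralClosure ℤ L ⧸ Q) r := by
    intro r
    obtain ⟨x, rfl⟩ := Ideal.Quotient.mk_surjective r
    change Ideal.Quotient.mk Q (g • inclInt E x) = Ideal.Quotient.mk Q (inclInt E x)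
    rw [Ideal.Quotient.eq]
    exact h (x : E) (x : E).2 (isIntegral_coe E x)
  let f : (integralClosure ℤ L ⧸ Q) ≃ₐ[𝓞 E ⧸ P] (integralClosure ℤ L ⧸ Q) :=
    AlgEquiv.ofRingEquiv (f := f₀) hf₀
  obtain ⟨⟨n, hnQ⟩, hn⟩ := Ideal.Quotient.stabilizerHom_surjective_of_profinite
    (G := L ≃ₐ[E] L) P Q f
  have hn' : ∀ b : integralClosure ℤ L, n • b - g • b ∈ Q := fun b => by
    have h1 := congrArg (fun φ : (integralClosure ℤ L ⧸ Q) ≃ₐ[𝓞 E ⧸ P] (integralClosure ℤ L ⧸ Q) =>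
      φ (Ideal.Quotient.mk Q b)) hn
    rw [← Ideal.Quotient.eq]
    exact h1
  refine ⟨g * (AlgEquiv.restrictScalars ℚ n)⁻¹, ?_, ?_⟩
  · apply mem_inertia_of_forall_sub
    intro z hz
    let z' : integralClosure ℤ L := ⟨z, hz⟩
    have h1 := hn' (n⁻¹ • z')
    rw [smul_inv_smul] at h1
    have h3 := Q.neg_mem h1
    rw [neg_sub] at h3
    exact h3
  · intro x hx
    rw [AlgEquiv.mul_apply]
    congr 1
    exact n.symm.commutes ⟨x, hx⟩

end Lift

section Dec

variable (A : Pl)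

theorem dec_eq : Dec A = A.v.decompositionSubgroup ℚ := by
  ext g
  rw [mem_Dec]
  constructor
  · intro h
    exact congrArg Pl.v h
  · intro h
    exact Pl.ext h

/-- The inertia group -/
noncomputable abbrev Ine : Subgroup GQ := A.v.inertiaSubgroupIn ℚ

variable {A}

theorem Dec.map_mem {g : GQ} (hg : g ∈ Dec A) {x : Qb} (hx : x ∈ A.v) : g x ∈ A.v := by
  rw [← Pl.ge_zero_iff] at hx ⊢
  have h1 := (Pl.ge_smul (A := A) (s := 0) (x := x) g).2 hx
  have h2 : g • A = A := hg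
  rwa [h2] at h1

theorem Dec.ord {g : GQ} (hg : g ∈ Dec A) {x : Qb} (hx : x ≠ 0) : A.ord (g x) = A.ord x := by
  have h1 := A.ord_smul g hx
  have h2 : g • A = A := hg
  rwa [h2] at h1

theorem Dec.nonunits {g : GQ} (hg : g ∈ Dec A) {x : Qb} (hx : x ∈ A.v.nonunits) :
    g x ∈ A.v.nonunits := by
  have h1 : g x ∈ (g • A).v.nonunits := by
    rw [smul_mem_nonunits_iff]
    have : g⁻¹ (g x) = x := g.symm_apply_apply x
    rwa [this]
  have h2 : g • A = A := hg
  rwa [h2] at h1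

theorem mem_Ine {g : GQ} : g ∈ Ine A ↔ g ∈ Dec A ∧ ∀ x ∈ A.v, g x - x ∈ A.v.nonunits := by
  rw [dec_eq]
  constructor
  · intro h
    obtain ⟨⟨τ, hτ⟩, hτ', rfl⟩ := Subgroup.mem_map.1 h
    refine ⟨hτ, fun x hx => ?_⟩
    have h1 : ∀ y : IsLocalRing.ResidueField A.v, (⟨τ, hτ⟩ : A.v.decompositionSubgroup ℚ) • y = y :=
      fun y => by
        have h2 := (MonoidHom.mem_ker).1 hτ'
        exact congrArg (fun f : IsLocalRing.ResidueField A.v ≃+* IsLocalRing.ResidueField A.v => f y) h2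
    have h2 := h1 (IsLocalRing.residue A.v ⟨x, hx⟩)
    rw [← IsLocalRing.ResidueField.residue_smul, ← sub_eq_zero, ← map_sub,
      IsLocalRing.residue_eq_zero_iff] at h2
    rw [ValuationSubring.mem_nonunits_iff_exists_mem_maximalIdeal]
    exact ⟨_, h2⟩
  · rintro ⟨hg, h⟩
    refine Subgroup.mem_map.2 ⟨⟨g, hg⟩, ?_, rfl⟩
    change _ ∈ MonoidHom.ker _
    rw [MonoidHom.mem_ker]
    ext y
    obtain ⟨x, rfl⟩ := IsLocalRing.residue_surjective y
    change (⟨g, hg⟩ : A.v.decompositionSubgroup ℚ) • (IsLocalRing.residue A.v x) = _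
    rw [← IsLocalRing.ResidueField.residue_smul]
    change _ = IsLocalRing.residue A.v x
    rw [← sub_eq_zero, ← map_sub, IsLocalRing.residue_eq_zero_iff]
    have h3 := h x x.2
    rw [ValuationSubring.mem_nonunits_iff_exists_mem_maximalIdeal] at h3
    obtain ⟨h4, h5⟩ := h3
    exact h5

/-- Frobenius elements -/
def IsFr (A : Pl) (Φ : GQ) : Prop := Φ ∈ Dec A ∧ ∀ x ∈ A.v, Φ x - x ^ A.ell ∈ A.v.nonunits

theorem isFr_of {Φ : GQ} (h : A.v.IsFrobeniusAt Φ A.ell) : IsFr A Φ := by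
  obtain ⟨h1, h2⟩ := h
  refine ⟨by rw [dec_eq]; exact h1, fun x hx => ?_⟩
  have h3 := h2 (IsLocalRing.residue A.v ⟨x, hx⟩)
  rw [← IsLocalRing.ResidueField.residue_smul, ← sub_eq_zero, ← map_pow, ← map_sub,
    IsLocalRing.residue_eq_zero_iff] at h3
  rw [ValuationSubring.mem_nonunits_iff_exists_mem_maximalIdeal]
  exact ⟨_, h3⟩

variable (A) in
theorem exists_isFr : ∃ Φ, IsFr A Φ := by
  obtain ⟨Φ, h⟩ := exists_isFrobeniusAt A.v A.ell_prime A.liesOver_ell
  exact ⟨Φ, isFr_of h⟩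

theorem pow_sub_pow_mem {x y : Qb} (hx : x ∈ A.v) (hy : y ∈ A.v) (h : x - y ∈ A.v.nonunits) (n : ℕ) :
    x ^ n - y ^ n ∈ A.v.nonunits := by
  obtain ⟨c, hc⟩ : ∃ c ∈ A.v, x ^ n - y ^ n = (x - y) * c := by
    obtain ⟨c, hc⟩ := sub_dvd_pow_sub_pow (⟨x, hx⟩ : A.v) (⟨y, hy⟩ : A.v) n
    exact ⟨c, c.2, congrArg Subtype.val hc⟩
  rw [hc.2]
  exact mul_mem_nonunits A.v h hc.1

theorem IsFr.pow {Φ : GQ} (h : IsFr A Φ) (i : ℕ) : ∀ x ∈ A.v, (Φ ^ i) x - x ^ A.ell ^ i ∈ A.v.nonunits := by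
  induction i with
  | zero =>
    intro x hx
    have : (Φ ^ 0) x - x ^ A.ell ^ 0 = 0 := by simp
    rw [this]
    exact zero_mem_nonunits A.v
  | succ i ih =>
    intro x hx
    have h1 : (Φ ^ (i + 1)) x = (Φ ^ i) (Φ x) := by rw [pow_succ]; rfl
    have h2 : (Φ ^ (i + 1)) x - x ^ A.ell ^ (i + 1) =
        (Φ ^ i) (Φ x - x ^ A.ell) + ((Φ ^ i) (x ^ A.ell) - (x ^ A.ell) ^ A.ell ^ i) := by
      rw [h1, map_sub, ← pow_mul, pow_succ' A.ell]; ring
    rw [h2]
    exact add_mem_nonunits A.v (Dec.nonunits (pow_mem h.1 i) (h.2 x hx)) (ih _ (pow_mem hx _))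

end Dec

section FF

/-- Endomorphisms of a field act on a finite subfield through powers of Frobenius. -/
theorem exists_frob_power {k : Type*} [Field k] {ℓ : ℕ} [hℓ : Fact ℓ.Prime] [CharP k ℓ] (φ : k →+* k)
    (n : ℕ) (hn : n ≠ 0) : ∃ i : ℕ, ∀ x : k, x ^ ℓ ^ n = x → φ x = x ^ ℓ ^ i := by
  let F : Subfield k :=
    { carrier := {x | x ^ ℓ ^ n = x}
      mul_mem' := fun {a b} ha hb => by
        change (a * b) ^ ℓ ^ n = a * b
        rw [mul_pow, show a ^ ℓ ^ n = a from ha, show b ^ ℓ ^ n = b from hb]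
      one_mem' := one_pow _
      add_mem' := fun {a b} ha hb => by
        change (a + b) ^ ℓ ^ n = a + b
        rw [add_pow_char_pow, show a ^ ℓ ^ n = a from ha, show b ^ ℓ ^ n = b from hb]
      zero_mem' := zero_pow (pow_ne_zero _ hℓ.out.ne_zero)
      neg_mem' := fun {a} ha => by
        change (-a) ^ ℓ ^ n = -a
        have h1 : (-a) ^ ℓ ^ n + a ^ ℓ ^ n = 0 := by
          rw [← add_pow_char_pow, neg_add_cancel, zero_pow (pow_ne_zero _ hℓ.out.ne_zero)]
        rw [show a ^ ℓ ^ n = a from ha] at h1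
        exact eq_neg_of_add_eq_zero_left h1
      inv_mem' := fun a ha => by
        change (a⁻¹) ^ ℓ ^ n = a⁻¹
        rw [inv_pow, show a ^ ℓ ^ n = a from ha] }
  have hmem : ∀ x : k, x ∈ F ↔ x ^ ℓ ^ n = x := fun x => Iff.rfl
  haveI hfin : Finite F := by
    have hne : (Polynomial.X ^ ℓ ^ n - Polynomial.X : Polynomial k) ≠ 0 :=
      FiniteField.X_pow_card_pow_sub_X_ne_zero k hn hℓ.out.one_lt
    have h1 : (F : Set k) ⊆ (Polynomial.X ^ ℓ ^ n - Polynomial.X : Polynomial k).rootSet k := by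
      intro x hx
      rw [Polynomial.mem_rootSet]
      refine ⟨hne, ?_⟩
      have : x ^ ℓ ^ n = x := hx
      simp [this]
    exact Set.Finite.subset (Polynomial.rootSet_finite _ k) h1
  haveI : CharP F ℓ := by
    have : Function.Injective F.subtype := F.subtype.injective
    exact (RingHom.charP_iff F.subtype this ℓ).2 inferInstance
  letI : Algebra (ZMod ℓ) F := ZMod.algebra F ℓ
  have hφ : ∀ x ∈ F, φ x ∈ F := fun x hx => by
    rw [hmem, ← map_pow, (hmem x).1 hx]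
  let φF : F →+* F := (φ.comp F.subtype).codRestrict F (fun x => hφ x x.2)
  have hb : Function.Bijective φF := Finite.injective_iff_bijective.1 φF.injective
  let e : F ≃ₐ[ZMod ℓ] F := AlgEquiv.ofRingEquiv (f := RingEquiv.ofBijective φF hb) (fun r => by
    obtain ⟨m, rfl⟩ := ZMod.natCast_zmod_surjective r
    change φF _ = _
    rw [map_natCast, map_natCast])
  obtain ⟨i, hi⟩ := (FiniteField.bijective_frobeniusAlgEquivOfAlgebraic_pow (ZMod ℓ) F).2 e
  refine ⟨i, fun x hx => ?_⟩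
  have h1 := congrArg (fun f : F ≃ₐ[ZMod ℓ] F => ((f ⟨x, hx⟩ : F) : k)) hi
  have h2 : ∀ (j : ℕ) (y : F), ((FiniteField.frobeniusAlgEquivOfAlgebraic (ZMod ℓ) F) ^ j) y = y ^ ℓ ^ j := by
    intro j
    induction j with
    | zero => intro y; simp
    | succ j ih =>
      intro y
      rw [pow_succ, AlgEquiv.mul_apply, ih]
      simp only [FiniteField.coe_frobeniusAlgEquivOfAlgebraic, ZMod.card]
      rw [← pow_mul, pow_succ']
  simp only [h2] at h1
  exact h1.symm

end FF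

end Fermat.Agent.CFT
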