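import Fermat.Agent.CFT.Unr2

/-!
# Unramified extensions II
-/

set_option autoImplicit false
set_option linter.unusedSectionVars false
set_option linter.unusedVariables false
set_option linter.style.haveILetI false

namespace Fermat.Agent.CFT

open Module Fermat.Agent.Places Polynomial
open scoped Pointwise

variable {A : Pl}

/-- sums of small elements are small -/
theorem Pl.gt_sum {ι : Type*} (F : Finset ι) (f : ι → Qb) {t : ℚ}
    (h : ∀ i ∈ F, f i = 0 ∨ t < A.ord (f i)) : (∑ i ∈ F, f i) = 0 ∨ t < A.ord (∑ i ∈ F, f i) := by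
  classical
  induction F using Finset.induction_on with
  | empty => left; simp
  | insert a s ha ih =>
    rw [Finset.sum_insert ha]
    have h1 := h a (Finset.mem_insert_self _ _)
    have h2 := ih fun i hi => h i (Finset.mem_insert_of_mem hi)
    rcases h1 with h1 | h1
    · rw [h1, zero_add]; exact h2
    rcases h2 with h2 | h2
    · rw [h2, add_zero]; right; exact h1
    have h3 : A.ge (min (A.ord (f a)) (A.ord (∑ i ∈ s, f i))) (f a + ∑ i ∈ s, f i) :=
      (Pl.ge_of_ord (min_le_left _ _)).add (Pl.ge_of_ord (min_le_right _ _))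
    rcases h3 with h3 | h3
    · left; exact h3
    · right; exact lt_of_lt_of_le (lt_min h1 h2) h3

/-- additive trace -/
noncomputable def trA (m : ℕ) (σ : GQ) (t : Qb) : Qb := ∑ i ∈ Finset.range m, (σ ^ i : GQ) t

theorem trA_fixed {m : ℕ} {W W' : Subgroup GQ} {σ : GQ} (h : Cyc m W W' σ) {t : Qb}
    (ht : ∀ u ∈ W', u t = t) : ∀ w ∈ W, w (trA m σ t) = trA m σ t := by
  have hσ : σ (trA m σ t) = trA m σ t := by
    have h1 : σ (trA m σ t) + t = trA m σ t + (σ ^ m : GQ) t := by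
      rw [trA, map_sum, ← Finset.sum_range_succ, Finset.sum_range_succ' _ m]
      congr 1
      refine Finset.sum_congr rfl fun i _ => ?_
      rw [pow_succ']; rfl
    rw [ht _ ((h.pow m).2 dvd_rfl)] at h1
    exact add_right_cancel h1
  have hu : ∀ u ∈ W', u (trA m σ t) = trA m σ t := by
    intro u hu
    rw [trA, map_sum]
    refine Finset.sum_congr rfl fun i _ => ?_
    have h1 := ht _ (h.conj_inv' (pow_mem h.mem i) u hu)
    have h2 : u * σ ^ i = σ ^ i * ((σ ^ i)⁻¹ * u * σ ^ i) := by group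
    calc u ((σ ^ i : GQ) t) = (u * σ ^ i) t := rfl
      _ = (σ ^ i : GQ) (((σ ^ i)⁻¹ * u * σ ^ i : GQ) t) := by rw [h2]; rfl
      _ = _ := by rw [h1]
  have hσi : ∀ i : ℕ, (σ ^ i : GQ) (trA m σ t) = trA m σ t := by
    intro i
    induction i with
    | zero => rfl
    | succ i ih =>
      rw [pow_succ]
      change (σ ^ i : GQ) (σ (trA m σ t)) = _
      rw [hσ, ih]
  intro w hw
  obtain ⟨i, hi, hi'⟩ := h.gen w hw
  have h2 : w = σ ^ i * ((σ ^ i)⁻¹ * w) := by group
  rw [h2]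
  change (σ ^ i : GQ) (((σ ^ i)⁻¹ * w : GQ) (trA m σ t)) = _
  rw [hu _ hi', hσi]

/-- **Unramified extensions have the same value group.** -/
theorem unram_value {m : ℕ} {W W' : Subgroup GQ} {σ : GQ} (h : Cyc m W W' σ) (hW : W ≤ Dec A)
    {θ : Qb} (hθ : ∀ w ∈ W', w θ = θ) (hθA : θ ∈ A.v)
    (hsep : ∀ k, 0 < k → k < m → θ ≠ (σ ^ k : GQ) θ ∧ A.ord (θ - (σ ^ k : GQ) θ) = 0)
    {x : Ma} (hx : x ∈ FA W') : ∃ y ∈ FA W, A.ord (vl y) = A.ord (vl x) := by
  classical
  have hσD : ∀ i : ℕ, σ ^ i ∈ Dec A := fun i => pow_mem (hW h.mem) i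
  have hθi : ∀ i : ℕ, (σ ^ i : GQ) θ ∈ A.v := fun i => Dec.map_mem (hσD i) hθA
  -- the interpolation polynomial
  let P' : Polynomial A.v := ∏ k ∈ Finset.Ico 1 m, (X - C ⟨(σ ^ k : GQ) θ, hθi k⟩)
  let P : Polynomial Qb := P'.map A.v.subtype
  have hP : P = ∏ k ∈ Finset.Ico 1 m, (X - C ((σ ^ k : GQ) θ)) := by
    simp only [P, P', Polynomial.map_prod, Polynomial.map_sub, map_X, map_C]
    rfl
  have hcoef : ∀ i, P.coeff i ∈ A.v := fun i => by
    rw [coeff_map]; exact (P'.coeff i).2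
  have hPk : ∀ k ∈ Finset.range m, k ≠ 0 → P.eval ((σ ^ k : GQ) θ) = 0 := by
    intro k hk hk0
    rw [hP, eval_prod]
    refine Finset.prod_eq_zero (i := k) ?_ (by simp)
    rw [Finset.mem_Ico]
    exact ⟨Nat.one_le_iff_ne_zero.2 hk0, Finset.mem_range.1 hk⟩
  have hPθ : P.eval θ ≠ 0 ∧ A.ord (P.eval θ) = 0 := by
    rw [hP, eval_prod]
    have h1 : ∀ k ∈ Finset.Ico 1 m, (X - C ((σ ^ k : GQ) θ)).eval θ ≠ 0 := fun k hk => by
      rw [Finset.mem_Ico] at hk
      rw [eval_sub, eval_X, eval_C]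
      exact sub_ne_zero.2 (hsep k (by omega) hk.2).1
    refine ⟨Finset.prod_ne_zero_iff.2 h1, ?_⟩
    rw [A.ord_prod _ _ h1]
    refine Finset.sum_eq_zero fun k hk => ?_
    rw [Finset.mem_Ico] at hk
    rw [eval_sub, eval_X, eval_C]
    exact (hsep k (by omega) hk.2).2
  set x' := vl x with hx'
  have hx0 : x' ≠ 0 := vl_ne_zero x
  -- the traces
  let T : ℕ → Qb := fun i => trA m σ (x' * θ ^ i)
  have hTfix : ∀ i, ∀ w ∈ W, w (T i) = T i := fun i =>
    trA_fixed h (fun u hu => by rw [map_mul, map_pow, hθ u hu, mem_FA.1 hx u hu])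
  have hord : ∀ i : ℕ, A.ord ((σ ^ i : GQ) x') = A.ord x' := fun i => Dec.ord (hσD i) hx0
  have hTge : ∀ i, A.ge (A.ord x') (T i) := by
    intro i
    refine Pl.ge.sum _ _ fun k _ => ?_
    rw [map_mul, map_pow]
    have h1 : A.ge 0 (((σ ^ k : GQ) θ) ^ i) := by
      have := (Pl.ge_zero_iff.2 (hθi k)).pow i
      simpa using this
    have := (Pl.ge_of_ord (A := A) (hord k).ge).mul h1
    simpa using this
  have hsum : ∑ i ∈ Finset.range (P.natDegree + 1), P.coeff i * T i = x' * P.eval θ := by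
    have h1 : ∀ i, P.coeff i * T i = ∑ k ∈ Finset.range m, P.coeff i * ((σ ^ k : GQ) x' * ((σ ^ k : GQ) θ) ^ i) := by
      intro i
      simp only [T, trA, Finset.mul_sum, map_mul, map_pow]
    simp only [h1]
    rw [Finset.sum_comm]
    have h2 : ∀ k, ∑ i ∈ Finset.range (P.natDegree + 1), P.coeff i * ((σ ^ k : GQ) x' * ((σ ^ k : GQ) θ) ^ i) =
        (σ ^ k : GQ) x' * P.eval ((σ ^ k : GQ) θ) := by
      intro k
      rw [eval_eq_sum_range, Finset.mul_sum]
      refine Finset.sum_congr rfl fun i _ => ?_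
      ring
    simp only [h2]
    rw [Finset.sum_eq_single 0]
    · simp
    · intro k hk hk0
      rw [hPk k hk hk0, mul_zero]
    · intro h3
      exact absurd (Finset.mem_range.2 h.pos) h3
  by_contra hcon
  push Not at hcon
  have hall : ∀ i ∈ Finset.range (P.natDegree + 1), P.coeff i * T i = 0 ∨ A.ord x' < A.ord (P.coeff i * T i) := by
    intro i _
    by_cases h1 : T i = 0
    · left; rw [h1, mul_zero]
    by_cases h2 : P.coeff i = 0
    · left; rw [h2, zero_mul]
    right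
    have h3 : A.ord x' ≤ A.ord (T i) := (hTge i).resolve_left h1
    have h4 : A.ord (T i) ≠ A.ord x' := fun h5 =>
      hcon (mk0 (T i) h1) (mem_FA.2 fun w hw => hTfix i w hw) h5
    have h6 : 0 ≤ A.ord (P.coeff i) := (A.ord_nonneg_iff h2).2 (hcoef i)
    rw [A.ord_mul h2 h1]
    have := lt_of_le_of_ne h3 (Ne.symm h4)
    linarith
  rcases Pl.gt_sum _ _ hall with h1 | h1
  · rw [hsum] at h1
    exact mul_ne_zero hx0 hPθ.1 h1
  · rw [hsum, A.ord_mul hx0 hPθ.1, hPθ.2, add_zero] at h1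
    exact lt_irrefl _ h1

end Fermat.Agent.CFT
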