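import Fermat.Agent.CFT.Need2

/-!
# The degree map of the decomposition group
-/

set_option autoImplicit false
set_option linter.unusedSectionVars false
set_option linter.unusedVariables false
set_option linter.style.haveILetI false

noncomputable section

namespace Fermat.Agent.CFT

open Module Fermat.Agent.Places

variable {A : Pl}

theorem natCast_eq_of_frob {Φ : GQ} (hΦ : IsFr A Φ) {m : ℕ} (hm : m ≠ 0) {i j : ℕ}
    (h : ∀ z : Qb, z ^ (A.ell ^ m - 1) = 1 → (Φ ^ i : GQ) z = (Φ ^ j : GQ) z) :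
    (i : ZMod m) = (j : ZMod m) := by
  obtain ⟨ζ, hζ⟩ := exists_primN (A := A) hm
  have hN := not_dvd_pow_sub_one (A := A) hm
  have key : ∀ a d : ℕ, ζ ^ A.ell ^ a = ζ ^ A.ell ^ (a + d) → m ∣ d := by
    intro a d had
    have h1 : ζ ^ (A.ell ^ a * (A.ell ^ d - 1)) = 1 := by
      have h2 : ζ ^ A.ell ^ (a + d) = ζ ^ A.ell ^ a * ζ ^ (A.ell ^ a * (A.ell ^ d - 1)) := by
        rw [← pow_add]
        congr 1
        have : 1 ≤ A.ell ^ d := Nat.one_le_pow _ _ A.ell_pos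
        rw [Nat.mul_sub, mul_one, pow_add]
        have h3 : A.ell ^ a ≤ A.ell ^ a * A.ell ^ d := Nat.le_mul_of_pos_right _ this
        omega
      rw [h2] at had
      have h4 : ζ ^ A.ell ^ a ≠ 0 := pow_ne_zero _ (hζ.ne_zero (ell_pow_sub_one_ne_zero hm))
      exact (mul_eq_left₀ h4).1 had.symm
    have h5 := hζ.dvd_of_pow_eq_one _ h1
    have h6 : Nat.Coprime (A.ell ^ m - 1) (A.ell ^ a) :=
      Nat.Coprime.pow_right _ ((Nat.Prime.coprime_iff_not_dvd A.ell_prime).2 hN).symm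
    have h7 : (A.ell ^ m - 1) ∣ (A.ell ^ d - 1) := h6.dvd_of_dvd_mul_left h5
    have h8 := Nat.pow_sub_one_gcd_pow_sub_one A.ell m d
    rw [Nat.gcd_eq_left h7] at h8
    have h9 : A.ell ^ m = A.ell ^ (m.gcd d) := by
      have h10 : 1 ≤ A.ell ^ m := Nat.one_le_pow _ _ A.ell_pos
      have h11 : 1 ≤ A.ell ^ (m.gcd d) := Nat.one_le_pow _ _ A.ell_pos
      omega
    have h12 := Nat.pow_right_injective A.ell_prime.two_le h9
    rw [h12]
    exact Nat.gcd_dvd_right _ _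
  have h0 := h ζ hζ.pow_eq_one
  rw [hΦ.root hN hζ.pow_eq_one, hΦ.root hN hζ.pow_eq_one] at h0
  rcases le_total i j with hij | hij
  · obtain ⟨d, rfl⟩ := Nat.exists_eq_add_of_le hij
    have := key i d h0
    rw [Nat.cast_add, (ZMod.natCast_eq_zero_iff d m).2 this, add_zero]
  · obtain ⟨d, rfl⟩ := Nat.exists_eq_add_of_le hij
    have := key j d h0.symm
    rw [Nat.cast_add, (ZMod.natCast_eq_zero_iff d m).2 this, add_zero]

/-- the degree map -/
theorem exists_urdeg {Φ : GQ} (hΦ : IsFr A Φ) {m : ℕ} (hm : m ≠ 0) :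
    ∃ deg : A.v.decompositionSubgroup ℚ → ZMod m, (∀ g h, deg (g * h) = deg g + deg h) ∧
      (∃ F : IntermediateField ℚ Qb, FiniteDimensional ℚ F ∧
        ∀ g : A.v.decompositionSubgroup ℚ, (∀ x ∈ F, (g : GQ) x = x) → deg g = 0) ∧
      (∀ g : A.v.decompositionSubgroup ℚ, (g : GQ) ∈ A.v.inertiaSubgroupIn ℚ → deg g = 0) ∧
      (∀ (g : A.v.decompositionSubgroup ℚ) (i : ℕ), (g : GQ) = Φ ^ i → deg g = i) ∧
      ∀ (E : IntermediateField ℚ Qb), FiniteDimensional ℚ E →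
        ∀ (g : A.v.decompositionSubgroup ℚ), ∃ i : ℕ,
        ∃ τ ∈ A.v.inertiaSubgroupIn ℚ, (∀ x ∈ E, (g : GQ) x = (Φ ^ i : GQ) (τ x)) ∧ deg g = (i : ZMod m) := by
  have hD : ∀ g : A.v.decompositionSubgroup ℚ, (g : GQ) ∈ Dec A := fun g => by rw [dec_eq]; exact g.2
  choose ix hix using fun g : A.v.decompositionSubgroup ℚ => exists_pow_root hΦ (hD g) hm
  have hN := not_dvd_pow_sub_one (A := A) hm
  have huniq : ∀ (g : A.v.decompositionSubgroup ℚ) (i : ℕ),
      (∀ z : Qb, z ^ (A.ell ^ m - 1) = 1 → (g : GQ) z = (Φ ^ i : GQ) z) → (ix g : ZMod m) = i :=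
    fun g i h => natCast_eq_of_frob hΦ hm fun z hz => by rw [← hix g z hz, h z hz]
  refine ⟨fun g => (ix g : ZMod m), ?_, ?_, ?_, ?_, ?_⟩
  · intro g h
    change (ix (g * h) : ZMod m) = ix g + ix h
    rw [← Nat.cast_add]
    refine huniq _ _ fun z hz => ?_
    change (g : GQ) ((h : GQ) z) = _
    rw [hix h z hz, hix g _ (by rw [← map_pow, hz, map_one]), pow_add]
    rfl
  · obtain ⟨ζ, hζ⟩ := exists_primN (A := A) hm
    refine ⟨IntermediateField.adjoin ℚ {ζ}, ?_, fun g hg => ?_⟩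
    · exact IntermediateField.adjoin.finiteDimensional (Algebra.IsIntegral.isIntegral ζ)
    · change (ix g : ZMod m) = 0
      rw [← Nat.cast_zero]
      refine huniq _ _ fun z hz => ?_
      rw [fix_of_prim hm hζ (hg ζ (IntermediateField.subset_adjoin _ _ rfl)) z hz]
      rfl
  · intro g hg
    change (ix g : ZMod m) = 0
    rw [← Nat.cast_zero]
    refine huniq _ _ fun z hz => ?_
    rw [Ine.root hg hN hz]
    rfl
  · intro g i hg
    exact huniq g i fun z _ => by rw [hg]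
  · intro E hE g
    obtain ⟨ζ, hζ⟩ := exists_primN (A := A) hm
    haveI : FiniteDimensional ℚ (IntermediateField.adjoin ℚ {ζ}) :=
      IntermediateField.adjoin.finiteDimensional (Algebra.IsIntegral.isIntegral ζ)
    obtain ⟨i, τ, hτ, h⟩ := exists_frob_inertia hΦ (hD g) (E ⊔ IntermediateField.adjoin ℚ {ζ})
    refine ⟨i, τ, hτ, fun x hx => h x ((le_sup_left : E ≤ _) hx), huniq _ _ fun z hz => ?_⟩
    have h1 : ∀ z : Qb, z ^ (A.ell ^ m - 1) = 1 → (Φ ^ i : GQ)⁻¹ ((g : GQ) z) = z := by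
      refine fix_of_prim hm hζ (g := (Φ ^ i)⁻¹ * (g : GQ)) ?_
      change (Φ ^ i : GQ)⁻¹ ((g : GQ) ζ) = ζ
      rw [h ζ ((le_sup_right : IntermediateField.adjoin ℚ {ζ} ≤ E ⊔ _)
        (IntermediateField.subset_adjoin _ _ rfl)), Ine.root hτ hN hζ.pow_eq_one]
      exact (Φ ^ i : GQ).symm_apply_apply ζ
    have h2 := congrArg (Φ ^ i : GQ) (h1 z hz)
    rw [← h2]
    exact ((Φ ^ i : GQ).apply_symm_apply _).symm

/-- two elements of the Galois group agreeing on `E` differ by an element fixing `E` -/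
theorem inv_mul_fix {E : IntermediateField ℚ Qb} {g h : GQ} (hgh : ∀ x ∈ E, g x = h x) :
    ∀ x ∈ E, (h⁻¹ * g : GQ) x = x := by
  intro x hx
  change h⁻¹ (g x) = x
  rw [hgh x hx]
  exact h.symm_apply_apply x

end Fermat.Agent.CFT
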